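/-
Programme T (S33 via a trichotomy), chapter T5, file B (helper3): **the Kummer-residue subgroup
("formal part") of `Pic⁰` of a function field**, generic layer.

`F/K` a function field (Prelude vocabulary: `Place K F`, `Divisor K F`, `Pic0 K F`,
`SemilinearAut K F`), `p` a natural number, `U : ι → Subgroup Fˣ` a family of subgroups ("principal
units" `1 + ker ρ_i` of the Gauss valuation rings `O_i` of the components of the special fibre).

* `RC K U n : Subgroup Fˣ` — the *residue condition* `Kˣ · (Fˣ)ⁿ · U`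
  (`mem_RC_iff : f ∈ RC K U n ↔ ∃ c w u, u ∈ U ∧ f = c · wⁿ · u`); `pow_mem_RC`, `RC_mono`.
* `formal p U : AddSubgroup (Pic0 K F)` — the classes `[D]` for which there are `m` and `f ∈ Fˣ`
  with `p^m D = div f` and `f ∈ RC K (U i) (p^m)` for every `i` (`mem_formal_iff`).
* `smul_sub_mem_formal` : if a semilinear automorphism `g` satisfies `g f / f ∈ Kˣ · U i` for all
  `f ∈ Fˣ` and all `i` (inertia: Gauss lemma + trivial action on the residue rings), then
  `g • y - y ∈ formal p U` for every `p`-power torsion class `y`.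
* `smul_mem_formal` : `formal` is stable under `g` if every `U i` is.

Together with `Psi3A` (`Kt p (formal p U)` is saturated, `Ψ = mkQ` is invariant) this is the
abstract form of (T5).
-/
import Mathlib
import Fermat.Prelude.Def_AlgebraicCurve_BaseChangeGalois

set_option autoImplicit false

noncomputable section

namespace Fermat.Agent.T33.Psi3B

open AlgebraicCurve

variable (K : Type*) {F : Type*} [Field K] [Field F] [Algebra K F]

/-- a nonzero constant, as a unit of `F`. -/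
def constUnit (c : Kˣ) : Fˣ := Units.map (algebraMap K F : K →* F) c

@[simp] theorem coe_constUnit (c : Kˣ) : ((constUnit K c : Fˣ) : F) = algebraMap K F (c : K) := rfl

theorem constUnit_mul (c d : Kˣ) : (constUnit K (c * d) : Fˣ) = constUnit K c * constUnit K d :=
  map_mul _ c d

theorem constUnit_inv (c : Kˣ) : (constUnit K c⁻¹ : Fˣ) = (constUnit K c)⁻¹ := map_inv _ c

theorem constUnit_pow (c : Kˣ) (n : ℕ) : (constUnit K (c ^ n) : Fˣ) = constUnit K c ^ n :=
  map_pow _ c n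

@[simp] theorem constUnit_one : (constUnit K (1 : Kˣ) : Fˣ) = 1 := map_one _

/-- **the residue condition** `Kˣ · (Fˣ)ⁿ · U`, a subgroup of `Fˣ`. -/
def RC (U : Subgroup Fˣ) (n : ℕ) : Subgroup Fˣ where
  carrier := {f | ∃ (c : Kˣ) (w u : Fˣ), u ∈ U ∧ f = constUnit K c * w ^ n * u}
  one_mem' := ⟨1, 1, 1, U.one_mem, by simp⟩
  mul_mem' := by
    rintro f g ⟨c, w, u, hu, rfl⟩ ⟨c', w', u', hu', rfl⟩
    refine ⟨c * c', w * w', u * u', U.mul_mem hu hu', ?_⟩
    rw [constUnit_mul, mul_pow]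
    exact mul_mul_mul_comm _ _ _ _ |>.trans (by rw [mul_mul_mul_comm (constUnit K c)])
  inv_mem' := by
    rintro f ⟨c, w, u, hu, rfl⟩
    refine ⟨c⁻¹, w⁻¹, u⁻¹, U.inv_mem hu, ?_⟩
    rw [constUnit_inv, inv_pow, mul_inv, mul_inv]

variable {K}

theorem mem_RC_iff {U : Subgroup Fˣ} {n : ℕ} {f : Fˣ} :
    f ∈ RC K U n ↔ ∃ (c : Kˣ) (w u : Fˣ), u ∈ U ∧ f = constUnit K c * w ^ n * u := Iff.rfl

theorem const_mul_mem_RC {U : Subgroup Fˣ} (n : ℕ) (c : Kˣ) {u : Fˣ} (hu : u ∈ U) :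
    constUnit K c * u ∈ RC K U n := ⟨c, 1, u, hu, by rw [one_pow, mul_one]⟩

theorem mem_RC_of_mem {U : Subgroup Fˣ} (n : ℕ) {u : Fˣ} (hu : u ∈ U) : u ∈ RC K U n :=
  ⟨1, 1, u, hu, by simp⟩

theorem pow_mem_RC' {U : Subgroup Fˣ} (n : ℕ) (w : Fˣ) : w ^ n ∈ RC K U n :=
  ⟨1, w, 1, U.one_mem, by simp⟩

theorem constUnit_mem_RC {U : Subgroup Fˣ} (n : ℕ) (c : Kˣ) : constUnit K c ∈ RC K U n :=
  ⟨c, 1, 1, U.one_mem, by simp⟩

/-- `f ∈ RC U n ⇒ f^k ∈ RC U (n * k)`. -/
theorem pow_mem_RC {U : Subgroup Fˣ} {n : ℕ} {f : Fˣ} (hf : f ∈ RC K U n) (k : ℕ) :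
    f ^ k ∈ RC K U (n * k) := by
  obtain ⟨c, w, u, hu, rfl⟩ := hf
  refine ⟨c ^ k, w, u ^ k, U.pow_mem hu k, ?_⟩
  rw [constUnit_pow, mul_pow, mul_pow, ← pow_mul]

theorem RC_mono {U V : Subgroup Fˣ} (h : U ≤ V) (n : ℕ) : RC K U n ≤ RC K V n := by
  rintro f ⟨c, w, u, hu, rfl⟩
  exact ⟨c, w, u, h hu, rfl⟩

/-- the image of `RC` under a `K`-algebra automorphism. -/
theorem map_mem_RC {U V : Subgroup Fˣ} (e : F ≃ₐ[K] F)
    (hUV : ∀ u ∈ U, Units.map (e : F →* F) u ∈ V) {n : ℕ} {f : Fˣ} (hf : f ∈ RC K U n) :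
    Units.map (e : F →* F) f ∈ RC K V n := by
  obtain ⟨c, w, u, hu, rfl⟩ := hf
  refine ⟨c, Units.map (e : F →* F) w, Units.map (e : F →* F) u, hUV u hu, ?_⟩
  rw [map_mul, map_mul, map_pow]
  congr 2
  ext
  simp

/-! ### the formal part -/

variable {ι : Type*}

/-- **the formal part** of `Pic⁰`: classes `[D]` with `p^m D = div f` for some `m` and some `f`
satisfying the residue condition `RC (U i) (p^m)` for every `i`. -/
def formal (p : ℕ) (U : ι → Subgroup Fˣ) : AddSubgroup (Pic0 K F) where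
  carrier := {y | ∃ (m : ℕ) (f : Fˣ) (D : Divisor.degZero (K := K) (F := F)),
    (∀ i, f ∈ RC K (U i) (p ^ m)) ∧
    (∀ v : Place K F, ((p ^ m : ℕ) : ℤ) * (D : Divisor K F) v = v.ord (f : F)) ∧ y = Pic0.mk D}
  zero_mem' := ⟨0, 1, 0, fun i => (RC K (U i) _).one_mem, fun v => by simp, rfl⟩
  add_mem' := by
    rintro y y' ⟨m, f, D, hf, hD, rfl⟩ ⟨m', f', D', hf', hD', rfl⟩
    refine ⟨m + m', f ^ (p ^ m') * f' ^ (p ^ m), D + D', fun i => ?_, fun v => ?_, rfl⟩
    · refine (RC K (U i) _).mul_mem ?_ ?_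
      · rw [pow_add]
        exact pow_mem_RC (hf i) _
      · rw [pow_add, mul_comm]
        exact pow_mem_RC (hf' i) _
    · have h1 : ((f ^ (p ^ m') * f' ^ (p ^ m) : Fˣ) : F) = (f : F) ^ ((p ^ m' : ℕ) : ℤ) *
          (f' : F) ^ ((p ^ m : ℕ) : ℤ) := by
        rw [zpow_natCast, zpow_natCast]
        push_cast
        rfl
      rw [h1, v.ord_mul (zpow_ne_zero _ f.ne_zero) (zpow_ne_zero _ f'.ne_zero), v.ord_zpow,
        v.ord_zpow, ← hD v, ← hD' v]
      simp only [AddSubgroup.coe_add, Finsupp.coe_add, Pi.add_apply]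
      push_cast
      ring
  neg_mem' := by
    rintro y ⟨m, f, D, hf, hD, rfl⟩
    refine ⟨m, f⁻¹, -D, fun i => (RC K (U i) _).inv_mem (hf i), fun v => ?_, rfl⟩
    have h1 : ((f⁻¹ : Fˣ) : F) = ((f : F))⁻¹ := Units.val_inv_eq_inv_val f
    rw [h1, v.ord_inv, ← hD v]
    simp only [AddSubgroup.coe_neg, Finsupp.coe_neg, Pi.neg_apply]
    ring

theorem mem_formal_iff {p : ℕ} {U : ι → Subgroup Fˣ} {y : Pic0 K F} :
    y ∈ formal p U ↔ ∃ (m : ℕ) (f : Fˣ) (D : Divisor.degZero (K := K) (F := F)),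
      (∀ i, f ∈ RC K (U i) (p ^ m)) ∧
      (∀ v : Place K F, ((p ^ m : ℕ) : ℤ) * (D : Divisor K F) v = v.ord (f : F)) ∧
      y = Pic0.mk D := Iff.rfl

theorem formal_mono {p : ℕ} {U V : ι → Subgroup Fˣ} (h : ∀ i, U i ≤ V i) :
    formal (K := K) p U ≤ formal p V := by
  rintro y ⟨m, f, D, hf, hD, rfl⟩
  exact ⟨m, f, D, fun i => RC_mono (h i) _ (hf i), hD, rfl⟩

/-! ### semilinear automorphisms -/

/-- the action of a semilinear automorphism on units of `F`. -/
def unitsSMul (g : SemilinearAut K F) : Fˣ →* Fˣ :=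
  Units.map ((SemilinearAut.toRingAut g : F ≃+* F) : F →* F)

@[simp] theorem coe_unitsSMul (g : SemilinearAut K F) (f : Fˣ) :
    ((unitsSMul g f : Fˣ) : F) = g • (f : F) := rfl

/-- `ord_w (g f) = ord_{g⁻¹ w} f`. -/
theorem ord_smul_eq (g : SemilinearAut K F) (w : Place K F) (f : F) :
    w.ord (g • f) = (g⁻¹ • w).ord f := by
  have h := SemilinearAut.ord_smul g (g⁻¹ • w) f
  rwa [smul_inv_smul] at h

/-- **invariance modulo the formal part**: if `g f / f ∈ Kˣ · U i` for all `f ∈ Fˣ` and all `i`, then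
`g • y - y` lies in the formal part for every `p`-power torsion class `y`. -/
theorem smul_sub_mem_formal {p : ℕ} {U : ι → Subgroup Fˣ} (g : SemilinearAut K F)
    (hg : ∀ (f : Fˣ) (i : ι), ∃ (c : Kˣ) (u : Fˣ), u ∈ U i ∧ unitsSMul g f = constUnit K c * u * f)
    (k : ℕ) (y : Pic0 K F) (hy : p ^ k • y = 0) : g • y - y ∈ formal p U := by
  obtain ⟨D, rfl⟩ := Pic0.mk_surjective y
  -- `p^k • D` is principal
  have hkD : (p ^ k • (D : Divisor K F)) ∈ Divisor.principal (K := K) (F := F) := by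
    have h1 : Pic0.mk (p ^ k • D) = 0 := by
      rw [← hy]; rfl
    have h2 := (QuotientAddGroup.eq_zero_iff _).mp h1
    rw [AddSubgroup.mem_addSubgroupOf] at h2
    simpa using h2
  obtain ⟨f, hf0, hfD⟩ := hkD
  have hfD' : ∀ v : Place K F, ((p ^ k : ℕ) : ℤ) * (D : Divisor K F) v = v.ord f := by
    intro v
    rw [← hfD v]
    simp
  set fu : Fˣ := Units.mk0 f hf0 with hfu
  refine ⟨k, unitsSMul g fu * fu⁻¹, SemilinearAut.degZeroSMulHom g D - D, fun i => ?_,
    fun v => ?_, ?_⟩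
  · obtain ⟨c, u, hu, h⟩ := hg fu i
    rw [h, mul_inv_cancel_right]
    exact const_mul_mem_RC _ c hu
  · have h1 : ((unitsSMul g fu * fu⁻¹ : Fˣ) : F) = (g • f) * f⁻¹ := by
      rw [Units.val_mul, coe_unitsSMul, Units.val_inv_eq_inv_val]
      rfl
    have hgf : g • f ≠ 0 := by
      rw [SemilinearAut.smul_def]
      exact (map_ne_zero_iff _ (SemilinearAut.toRingAut g).injective).mpr hf0
    rw [h1, v.ord_mul hgf (inv_ne_zero hf0), v.ord_inv, ord_smul_eq, ← hfD' v, ← hfD' (g⁻¹ • v)]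
    simp only [AddSubgroup.coe_sub, Finsupp.coe_sub, Pi.sub_apply,
      SemilinearAut.coe_degZeroSMulHom, SemilinearAut.divisor_smul_apply]
    ring
  · rw [SemilinearAut.pic0_smul_mk]
    rfl

/-- `formal` is stable under a semilinear automorphism which preserves every `U i`. -/
theorem smul_mem_formal {p : ℕ} {U : ι → Subgroup Fˣ} (g : SemilinearAut K F)
    (hU : ∀ i, ∀ u ∈ U i, unitsSMul g u ∈ U i) {y : Pic0 K F} (hy : y ∈ formal p U) :
    g • y ∈ formal p U := by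
  obtain ⟨m, f, D, hf, hD, rfl⟩ := hy
  refine ⟨m, unitsSMul g f, SemilinearAut.degZeroSMulHom g D, fun i => ?_, fun v => ?_,
    SemilinearAut.pic0_smul_mk g D⟩
  · obtain ⟨c, w, u, hu, rfl⟩ := hf i
    refine ⟨Units.map ((SemilinearAut.baseAut g : K ≃+* K) : K →* K) c, unitsSMul g w,
      unitsSMul g u, hU i u hu, ?_⟩
    rw [map_mul, map_mul, map_pow]
    congr 2
    ext
    simp only [coe_unitsSMul, coe_constUnit, Units.coe_map, MonoidHom.coe_coe]
    rw [SemilinearAut.smul_def]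
    exact SemilinearAut.commutes g _
  · rw [coe_unitsSMul, ord_smul_eq, ← hD (g⁻¹ • v)]
    simp only [SemilinearAut.coe_degZeroSMulHom, SemilinearAut.divisor_smul_apply]

end Fermat.Agent.T33.Psi3B
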