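/-
Programme T (S33 via a trichotomy), chapter T5, file C (helper3): **the concrete Gauss data on
`Fbar N = ℚ̄·F_N`, ANY level `N`** (no hypothesis `p ∤ N`).

`A` a valuation subring of `ℚ̄`, `G = Setup8.gaussA A (Fbar N)` the subring of functions with
`A`-integral `q`-expansion at `∞`, `red = Setup8.redA A (Fbar N) : G →+* κ((q))` the coefficientwise
reduction (`κ` the residue field of `A`).

* `puOne A N : Subgroup (Fbar N)ˣ` — the principal units `1 + ker ρ₁` of the Gauss valuation ring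
  `O₁ = G_(ker red)` (`u = a / b` with `a, b ∈ G`, `red a = red b ≠ 0`);
* `puTwo A N` — the same for `O₂ = W_N⁻¹(O₁)` (Fricke involution `FrickeFK8.frickeBar`);
* the decomposition group of `A` preserves `G` and acts on reductions through the residue field
  (`smul_mem_gaussA`, `redA_smul`); inertia acts trivially on reductions (`redA_smul_of_mem_inertia`);
* `frickeBar_smul` : `W_N` commutes with the coefficientwise Galois action;
* `inertia_quot_one`, `inertia_quot_two` : for `τ` in the inertia group of `A` (over a prime `p`) and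
  every `f ∈ (Fbar N)ˣ`, `τ f / f ∈ ℚ̄ˣ · puOne`, resp. `ℚ̄ˣ · puTwo` — the hypothesis `hg` of
  `Psi3B.smul_sub_mem_formal`;
* `decomp_puOne`, `decomp_puTwo` : the decomposition group preserves `puOne`, `puTwo`.
-/
import Mathlib
import Fermat.Agent.FF.GaussOv1B
import Fermat.Agent.ES.RED.GaloisRed21
import Fermat.Agent.ES.N34.FrickeFK8
import Fermat.Agent.T33.Psi3B

set_option autoImplicit false
set_option linter.unusedSectionVars false
set_option synthInstance.maxHeartbeats 400000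

noncomputable section

namespace Fermat.Agent.T33.Psi3C

open HahnSeries ModularCurve AlgebraicCurve IsLocalRing
open Fermat.Agent.RED.Interface4 Fermat.Agent.ES.RED Fermat.Agent.ES.RED.GaloisRed21
open Fermat.Agent.ES.N34.FrickeFK8 Fermat.Agent.T33.Psi3B

variable (A : ValuationSubring Qbar) (N : ℕ) [NeZero N]

/-- the coefficientwise Galois action on `Fbar N`, as a semilinear automorphism. -/
abbrev gal (τ : Qbar ≃ₐ[ℚ] Qbar) : SemilinearAut Qbar ↥(Fbar N) :=
  arithmeticGalois (modularFunctionFieldFull N) τ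

/-! ### principal units of the Gauss valuation ring at `∞` -/

/-- **principal units of `O₁`**: quotients `a / b` of Gauss-integral functions with the same nonzero
reduction. -/
def puOne : Subgroup (↥(Fbar N))ˣ where
  carrier := {u | ∃ a b : ↥(Setup8.gaussA A (Fbar N)),
    Setup8.redA A (Fbar N) b ≠ 0 ∧ Setup8.redA A (Fbar N) a = Setup8.redA A (Fbar N) b ∧
    (u : ↥(Fbar N)) * (b : ↥(Fbar N)) = (a : ↥(Fbar N))}
  one_mem' := ⟨1, 1, by rw [map_one]; exact one_ne_zero, rfl, by simp⟩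
  mul_mem' := by
    rintro u u' ⟨a, b, hb, hab, h⟩ ⟨a', b', hb', hab', h'⟩
    refine ⟨a * a', b * b', ?_, ?_, ?_⟩
    · rw [map_mul]; exact mul_ne_zero hb hb'
    · rw [map_mul, map_mul, hab, hab']
    · push_cast
      rw [← h, ← h']
      ring
  inv_mem' := by
    rintro u ⟨a, b, hb, hab, h⟩
    refine ⟨b, a, by rw [hab]; exact hb, hab.symm, ?_⟩
    rw [← h, Units.val_inv_eq_inv_val, inv_mul_cancel_left₀ u.ne_zero]

theorem mem_puOne_iff {u : (↥(Fbar N))ˣ} :
    u ∈ puOne A N ↔ ∃ a b : ↥(Setup8.gaussA A (Fbar N)),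
      Setup8.redA A (Fbar N) b ≠ 0 ∧ Setup8.redA A (Fbar N) a = Setup8.redA A (Fbar N) b ∧
      (u : ↥(Fbar N)) * (b : ↥(Fbar N)) = (a : ↥(Fbar N)) := Iff.rfl

/-- **principal units of `O₂ = W_N⁻¹ (O₁)`.** -/
def puTwo : Subgroup (↥(Fbar N))ˣ :=
  (puOne A N).comap (Units.map ((frickeBarEquiv N : ↥(Fbar N) ≃ₐ[Qbar] ↥(Fbar N)) :
    ↥(Fbar N) →* ↥(Fbar N)))

theorem mem_puTwo_iff {u : (↥(Fbar N))ˣ} :
    u ∈ puTwo A N ↔ Units.map ((frickeBarEquiv N : ↥(Fbar N) ≃ₐ[Qbar] ↥(Fbar N)) :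
      ↥(Fbar N) →* ↥(Fbar N)) u ∈ puOne A N := Iff.rfl

/-! ### the decomposition group acts on Gauss-integral functions -/

variable {A N}

theorem coe_gal_smul (τ : Qbar ≃ₐ[ℚ] Qbar) (x : ↥(Fbar N)) :
    ((gal N τ • x : ↥(Fbar N)) : LaurentSeries Qbar) =
      coeffMap (τ : Qbar →+* Qbar) (x : LaurentSeries Qbar) := rfl

/-- the lift of `g • a` to `A((q))`. -/
theorem coeffMap_subtype_sigmaA_liftA (g : A.decompositionSubgroup ℚ)
    (a : ↥(Setup8.gaussA A (Fbar N))) :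
    coeffMap A.subtype (coeffMap (sigmaA A g) (Setup8.liftA A (Fbar N) a)) =
      ((gal N (g : Qbar ≃ₐ[ℚ] Qbar) • (a : ↥(Fbar N)) : ↥(Fbar N)) : LaurentSeries Qbar) := by
  rw [coeffMap_subtype_sigmaA, Setup8.coeffMap_liftA, coe_gal_smul]
  rfl

/-- the decomposition group preserves Gauss-integrality. -/
theorem smul_mem_gaussA (g : A.decompositionSubgroup ℚ) (a : ↥(Setup8.gaussA A (Fbar N))) :
    gal N (g : Qbar ≃ₐ[ℚ] Qbar) • (a : ↥(Fbar N)) ∈ Setup8.gaussA A (Fbar N) :=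
  ⟨_, coeffMap_subtype_sigmaA_liftA g a⟩

/-- **the reduction of `g • a`** is the conjugate of the reduction of `a` by the automorphism of the
residue field induced by `g`. -/
theorem redA_smul (g : A.decompositionSubgroup ℚ) (a : ↥(Setup8.gaussA A (Fbar N))) :
    Setup8.redA A (Fbar N) ⟨_, smul_mem_gaussA g a⟩ =
      coeffMap ((psiRes A g : _ ≃+* _) : _ →+* _) (Setup8.redA A (Fbar N) a) := by
  rw [Setup8.redA_eq A (Fbar N) ⟨_, smul_mem_gaussA g a⟩ (coeffMap_subtype_sigmaA_liftA g a),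
    coeffMap_residue_sigmaA]
  rfl

/-- **inertia acts trivially on reductions.** -/
theorem redA_smul_of_mem_inertia {τ : Qbar ≃ₐ[ℚ] Qbar} (hτ : τ ∈ A.inertiaSubgroupIn ℚ)
    (a : ↥(Setup8.gaussA A (Fbar N))) :
    ∃ h : gal N τ • (a : ↥(Fbar N)) ∈ Setup8.gaussA A (Fbar N),
      Setup8.redA A (Fbar N) ⟨_, h⟩ = Setup8.redA A (Fbar N) a := by
  obtain ⟨hD, hψ⟩ := psiRes_eq_one_of_mem_inertia A hτ
  refine ⟨smul_mem_gaussA ⟨τ, hD⟩ a, ?_⟩
  rw [redA_smul ⟨τ, hD⟩ a, hψ]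
  exact (coeffMap_congr (RingHom.ext fun _ => rfl) _).trans (coeffMap_id _)

/-! ### `W_N` commutes with the Galois action -/

/-- the generators `j(q^d)` have rational coefficients, hence are fixed by the Galois action. -/
theorem gal_smul_jdF (τ : Qbar ≃ₐ[ℚ] Qbar) (d : ℕ) [NeZero d] (hd : d ∣ N) :
    gal N τ • (Fermat.Agent.X0.jdF N d hd : ↥(Fbar N)) =
      Fermat.Agent.X0.jdF N d hd := by
  apply Subtype.ext
  rw [coe_gal_smul, Fermat.Agent.X0.FracR.coe_jdF]
  exact coeffMap_coeffEmb τ _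

/-- **`W_N` is rational**: it commutes with the coefficientwise Galois action on `Fbar N`. -/
theorem frickeBar_smul (τ : Qbar ≃ₐ[ℚ] Qbar) (f : ↥(Fbar N)) :
    frickeBar N (gal N τ • f) = gal N τ • frickeBar N f := by
  have hR : ∀ u : Fermat.Agent.X0.Rsub N,
      frickeBar N (gal N τ • (u : ↥(Fbar N))) = gal N τ • frickeBar N (u : ↥(Fbar N)) := by
    intro u
    induction u using Fermat.Agent.X0.FracR.Rsub_induction with
    | hgen d hd =>
        obtain ⟨e, hde⟩ := hd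
        have he0 : e ≠ 0 := by
          rintro rfl
          exact NeZero.ne N (by rw [hde, mul_zero])
        have : NeZero e := ⟨he0⟩
        show frickeBar N (gal N τ • Fermat.Agent.X0.jdF N d (Dvd.intro _ hde.symm)) =
          gal N τ • frickeBar N (Fermat.Agent.X0.jdF N d (Dvd.intro _ hde.symm))
        rw [gal_smul_jdF, frickeBar_jdF N d e hde.symm, gal_smul_jdF]
    | hconst c =>
        show frickeBar N (gal N τ • algebraMap Qbar ↥(Fbar N) c) =
          gal N τ • frickeBar N (algebraMap Qbar ↥(Fbar N) c)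
        rw [(frickeBar N).commutes, SemilinearAut.smul_algebraMap, (frickeBar N).commutes]
    | hadd u v hu hv =>
        show frickeBar N (gal N τ • ((u : ↥(Fbar N)) + (v : ↥(Fbar N)))) =
          gal N τ • frickeBar N ((u : ↥(Fbar N)) + (v : ↥(Fbar N)))
        rw [smul_add, map_add, map_add, smul_add, hu, hv]
    | hmul u v hu hv =>
        show frickeBar N (gal N τ • ((u : ↥(Fbar N)) * (v : ↥(Fbar N)))) =
          gal N τ • frickeBar N ((u : ↥(Fbar N)) * (v : ↥(Fbar N)))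
        rw [smul_mul', map_mul, map_mul, smul_mul', hu, hv]
  obtain ⟨r, s, rfl⟩ := Fermat.Agent.X0.FracR.exists_div N f
  have hdiv : ∀ x y : ↥(Fbar N), gal N τ • (x / y) = (gal N τ • x) / (gal N τ • y) := by
    intro x y
    rw [SemilinearAut.smul_def, SemilinearAut.smul_def, SemilinearAut.smul_def, map_div₀]
  rw [hdiv, map_div₀, map_div₀, hdiv, hR r, hR s]

/-! ### the Fricke involution on units -/

variable (N) in
/-- `W_N` on units of `Fbar N`. -/
def frU : (↥(Fbar N))ˣ →* (↥(Fbar N))ˣ :=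
  Units.map ((frickeBarEquiv N : ↥(Fbar N) ≃ₐ[Qbar] ↥(Fbar N)) : ↥(Fbar N) →* ↥(Fbar N))

@[simp] theorem coe_frU (u : (↥(Fbar N))ˣ) : ((frU N u : (↥(Fbar N))ˣ) : ↥(Fbar N)) =
    frickeBar N (u : ↥(Fbar N)) := rfl

theorem frU_frU (u : (↥(Fbar N))ˣ) : frU N (frU N u) = u :=
  Units.ext (frickeBar_frickeBar N _)

theorem frU_injective : Function.Injective (frU N) :=
  Function.LeftInverse.injective (g := frU N) frU_frU

theorem frU_constUnit (c : Qbarˣ) : frU N (constUnit Qbar c) = constUnit Qbar c :=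
  Units.ext ((frickeBar N).commutes _)

theorem frU_unitsSMul (τ : Qbar ≃ₐ[ℚ] Qbar) (f : (↥(Fbar N))ˣ) :
    frU N (unitsSMul (gal N τ) f) = unitsSMul (gal N τ) (frU N f) :=
  Units.ext (frickeBar_smul τ _)

theorem mem_puTwo_iff' {u : (↥(Fbar N))ˣ} : u ∈ puTwo A N ↔ frU N u ∈ puOne A N := Iff.rfl

/-! ### inertia: `τ f / f ∈ ℚ̄ˣ · puOne`, `ℚ̄ˣ · puTwo` -/

variable (A N) in
/-- **the inertia hypothesis of `Psi3B.smul_sub_mem_formal` at `O₁`** (any level `N`): for `τ` in the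
inertia group of `A` and `f ∈ (Fbar N)ˣ`, `τ f = c · u · f` with `c` a constant and `u` a principal
unit of `O₁`.  (Gauss lemma + inertia acts trivially on reductions.) -/
theorem inertia_quot_one {p : ℕ} [Fact p.Prime] (hA : A.LiesOverPrime p) {τ : Qbar ≃ₐ[ℚ] Qbar}
    (hτ : τ ∈ A.inertiaSubgroupIn ℚ) (f : (↥(Fbar N))ˣ) :
    ∃ (c : Qbarˣ) (u : (↥(Fbar N))ˣ), u ∈ puOne A N ∧
      unitsSMul (gal N τ) f = constUnit Qbar c * u * f := by
  obtain ⟨c, a, b, hc0, ha, hb, hrel⟩ :=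
    Fermat.Agent.FF.GaussOv1.exists_gauss_fraction A N p hA (f : ↥(Fbar N)) f.ne_zero
  obtain ⟨hτa, hra⟩ := redA_smul_of_mem_inertia hτ a
  obtain ⟨hτb, hrb⟩ := redA_smul_of_mem_inertia hτ b
  have hτc0 : τ c ≠ 0 := (map_ne_zero_iff _ τ.injective).mpr hc0
  set c' : Qbarˣ := Units.mk0 (τ c / c) (div_ne_zero hτc0 hc0) with hc'
  set u : (↥(Fbar N))ˣ := unitsSMul (gal N τ) f * f⁻¹ * (constUnit Qbar c')⁻¹ with hu
  refine ⟨c', u, ?_, ?_⟩
  · refine ⟨⟨_, hτa⟩ * b, ⟨_, hτb⟩ * a, ?_, ?_, ?_⟩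
    · rw [map_mul, hrb]
      exact mul_ne_zero hb ha
    · rw [map_mul, map_mul, hra, hrb, mul_comm]
    · have h1 : gal N τ • (f : ↥(Fbar N)) * gal N τ • (b : ↥(Fbar N)) =
          algebraMap Qbar ↥(Fbar N) (τ c) * gal N τ • (a : ↥(Fbar N)) := by
        have h := congrArg (fun x => gal N τ • x) hrel
        simp only [smul_mul', SemilinearAut.smul_algebraMap] at h
        exact h
      have hy : (f : ↥(Fbar N)) ≠ 0 := f.ne_zero
      have hcb : algebraMap Qbar ↥(Fbar N) c ≠ 0 := by rw [Ne, map_eq_zero]; exact hc0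
      have hcτ : algebraMap Qbar ↥(Fbar N) (τ c) ≠ 0 := by rw [Ne, map_eq_zero]; exact hτc0
      have hucoe : (u : ↥(Fbar N)) = gal N τ • (f : ↥(Fbar N)) * (f : ↥(Fbar N))⁻¹ *
          (algebraMap Qbar ↥(Fbar N) (τ c) / algebraMap Qbar ↥(Fbar N) c)⁻¹ := by
        rw [hu, Units.val_mul, Units.val_mul, coe_unitsSMul, Units.val_inv_eq_inv_val,
          Units.val_inv_eq_inv_val, coe_constUnit, hc', Units.val_mk0, map_div₀]
      show (u : ↥(Fbar N)) * ((gal N τ • (b : ↥(Fbar N))) * (a : ↥(Fbar N))) =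
        (gal N τ • (a : ↥(Fbar N))) * (b : ↥(Fbar N))
      rw [hucoe]
      field_simp
      linear_combination (algebraMap Qbar ↥(Fbar N) c * (a : ↥(Fbar N))) * h1 -
        (algebraMap Qbar ↥(Fbar N) (τ c) * gal N τ • (a : ↥(Fbar N))) * hrel
  · rw [mul_comm (constUnit Qbar c') u, hu, inv_mul_cancel_right, inv_mul_cancel_right]

variable (A N) in
/-- **the inertia hypothesis at `O₂ = W_N⁻¹ (O₁)`.** -/
theorem inertia_quot_two {p : ℕ} [Fact p.Prime] (hA : A.LiesOverPrime p) {τ : Qbar ≃ₐ[ℚ] Qbar}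
    (hτ : τ ∈ A.inertiaSubgroupIn ℚ) (f : (↥(Fbar N))ˣ) :
    ∃ (c : Qbarˣ) (u : (↥(Fbar N))ˣ), u ∈ puTwo A N ∧
      unitsSMul (gal N τ) f = constUnit Qbar c * u * f := by
  obtain ⟨c, u', hu', h⟩ := inertia_quot_one A N hA hτ (frU N f)
  refine ⟨c, frU N u', ?_, ?_⟩
  · rw [mem_puTwo_iff', frU_frU]
    exact hu'
  · apply frU_injective
    rw [frU_unitsSMul, h, map_mul, map_mul, frU_frU, frU_constUnit]

/-! ### the decomposition group preserves the principal units -/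

theorem coeffMap_ne_zero_of_injective {R S : Type*} [CommRing R] [CommRing S] (φ : R →+* S)
    (hφ : Function.Injective φ) {x : LaurentSeries R} (hx : x ≠ 0) : coeffMap φ x ≠ 0 := by
  intro h
  apply hx
  ext n
  have h1 := congrArg (fun z : LaurentSeries S => z.coeff n) h
  simp only [coeffMap_coeff, HahnSeries.coeff_zero] at h1
  rw [HahnSeries.coeff_zero]
  exact hφ (h1.trans (map_zero φ).symm)

variable (A N) in
theorem decomp_puOne (g : A.decompositionSubgroup ℚ) {u : (↥(Fbar N))ˣ} (hu : u ∈ puOne A N) :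
    unitsSMul (gal N (g : Qbar ≃ₐ[ℚ] Qbar)) u ∈ puOne A N := by
  obtain ⟨a, b, hb, hab, h⟩ := hu
  refine ⟨⟨_, smul_mem_gaussA g a⟩, ⟨_, smul_mem_gaussA g b⟩, ?_, ?_, ?_⟩
  · rw [redA_smul]
    exact coeffMap_ne_zero_of_injective _ (psiRes A g).injective hb
  · rw [redA_smul, redA_smul, hab]
  · show gal N (g : Qbar ≃ₐ[ℚ] Qbar) • (u : ↥(Fbar N)) *
      gal N (g : Qbar ≃ₐ[ℚ] Qbar) • (b : ↥(Fbar N)) = gal N (g : Qbar ≃ₐ[ℚ] Qbar) • (a : ↥(Fbar N))
    rw [← smul_mul', h]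

variable (A N) in
theorem decomp_puTwo (g : A.decompositionSubgroup ℚ) {u : (↥(Fbar N))ˣ} (hu : u ∈ puTwo A N) :
    unitsSMul (gal N (g : Qbar ≃ₐ[ℚ] Qbar)) u ∈ puTwo A N := by
  rw [mem_puTwo_iff', frU_unitsSMul]
  exact decomp_puOne A N g hu

end Fermat.Agent.T33.Psi3C
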