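/-
Programme T (S33 via a trichotomy), item T3 (helper2): **the inertia-fixed ring `W₀ = A^I` of a
valuation subring `A` of `ℚ̄` over `ℓ` is a discrete valuation ring with uniformiser `ℓ`**, and the
hypotheses of `ConnOrd2` (Oort–Tate for connected Hopf orders) at `(W₀ A, Iner A)`.

* `mem_W0_iff` : `InertiaWire8.W0 A` and `Desc4.W0 A` have the same elements;
* `exists_eq_pow_mul` : every nonzero `x ∈ W₀` is `ℓ ^ n * u` with `u ∈ W₀` a unit of `A`;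
* `isDiscreteValuationRing_W0`, `irreducible_natCast`, `maximalIdeal_W0_eq`;
* `hunr`, `hsep`, `hRA`, `hfix` : unramified, separated, `W₀ ⊆ A`, `ℚ̄^I = Frac W₀`
  (with `K := FractionRing (W0 A)` and the lifted algebra structure);
* `eq_zero_of_hasConnOrder`, `subquotient_eq_zero` : the consumer forms of Oort–Tate at `(W₀ A, Iner A)`.
-/
import Mathlib
import Fermat.Agent.FF.InertiaWire8
import Fermat.Agent.FF.Desc4B
import Fermat.Agent.T33.ConnOrd2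

set_option autoImplicit false
set_option linter.unusedSectionVars false
set_option linter.style.haveILetI false

open IsLocalRing

namespace Fermat.Agent.T33.WZero2

open Fermat.Agent.FF.InertiaWire8 Fermat.Agent.FF.OrderCoordC Fermat.Agent.T33.ConnOrd2

noncomputable section

variable {A : ValuationSubring Qb} {ℓ : ℕ}

/-- the two descriptions of `W₀` (`InertiaWire8`, `Desc4`) agree. -/
theorem mem_W0_iff {x : Qb} : x ∈ W0 A ↔ x ∈ Fermat.Agent.FF.Desc4.W0 A := by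
  constructor
  · rintro ⟨ha, hfix⟩
    exact ⟨ha, fun τ hτ => hfix ⟨τ, hτ⟩⟩
  · rintro ⟨ha, hfix⟩
    exact ⟨ha, fun σ => hfix σ.1 σ.2⟩

theorem mem_A_of_mem_W0 {x : Qb} (hx : x ∈ W0 A) : x ∈ A := hx.1

theorem natCast_mem_nonunits (hA : A.LiesOverPrime ℓ) : (ℓ : Qb) ∈ A.nonunits := hA

theorem natCast_ne_zero' (hℓ : ℓ.Prime) : (ℓ : Qb) ≠ 0 := Nat.cast_ne_zero.2 hℓ.ne_zero

/-- unramified. -/
theorem div_natCast_mem (hℓ : ℓ.Prime) (hA : A.LiesOverPrime ℓ) {x : Qb} (hx : x ∈ W0 A)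
    (hm : x ∈ A.nonunits) : x / (ℓ : Qb) ∈ W0 A :=
  mem_W0_iff.2 (Fermat.Agent.FF.Desc4.div_natCast_mem_W0 hℓ hA (mem_W0_iff.1 hx) hm)

/-- units of `A` in `W₀` are units of `W₀`. -/
theorem inv_mem_W0 {x : Qb} (hx : x ∈ W0 A) (hu : x ∉ A.nonunits) : x⁻¹ ∈ W0 A :=
  mem_W0_iff.2 (Fermat.Agent.FF.Desc4.inv_mem_W0 (mem_W0_iff.1 hx) hu)

theorem mul_mem_nonunits {a x : Qb} (ha : a ∈ A) (hx : x ∈ A.nonunits) : a * x ∈ A.nonunits :=
  mul_mem_nonunits_of_mem ha hx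

/-- if `x / ℓ ^ k ∈ A` then `x / ℓ ^ k ∈ W₀`. -/
theorem div_pow_mem (hℓ : ℓ.Prime) (hA : A.LiesOverPrime ℓ) {x : Qb} (hx : x ∈ W0 A) (k : ℕ) :
    x / (ℓ : Qb) ^ k ∈ A → x / (ℓ : Qb) ^ k ∈ W0 A := by
  have hℓ0 := natCast_ne_zero' (ℓ := ℓ) hℓ
  induction k with
  | zero => intro _; simpa using hx
  | succ k ih =>
    intro hk
    have h1 : x / (ℓ : Qb) ^ k = x / (ℓ : Qb) ^ (k + 1) * (ℓ : Qb) := by
      rw [pow_succ]; field_simp
    have h2 : x / (ℓ : Qb) ^ k ∈ A.nonunits := by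
      rw [h1]
      exact mul_mem_nonunits hk (natCast_mem_nonunits hA)
    have h3 := ih (A.nonunits_subset h2)
    have h4 := div_natCast_mem hℓ hA h3 h2
    have h5 : x / (ℓ : Qb) ^ k / (ℓ : Qb) = x / (ℓ : Qb) ^ (k + 1) := by
      rw [pow_succ]; field_simp
    rwa [h5] at h4

/-- **every nonzero element of `W₀` is a power of `ℓ` times a unit.** -/
theorem exists_eq_pow_mul (hℓ : ℓ.Prime) (hA : A.LiesOverPrime ℓ) {x : Qb} (hx : x ∈ W0 A)
    (hx0 : x ≠ 0) : ∃ (n : ℕ) (u : Qb), u ∈ W0 A ∧ u ∉ A.nonunits ∧ x = (ℓ : Qb) ^ n * u := by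
  classical
  have hℓ0 := natCast_ne_zero' (ℓ := ℓ) hℓ
  have hex : ∃ N : ℕ, x / (ℓ : Qb) ^ N ∉ A :=
    Fermat.Agent.FF.Desc4.exists_div_pow_not_mem A hℓ hA hx0
  have hN0 : Nat.find hex ≠ 0 := by
    intro h0
    have := Nat.find_spec hex
    rw [h0, pow_zero, div_one] at this
    exact this hx.1
  obtain ⟨n, hn⟩ := Nat.exists_eq_succ_of_ne_zero hN0
  have hnA : x / (ℓ : Qb) ^ n ∈ A := by
    by_contra hcon
    exact Nat.find_min hex (by omega) hcon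
  have hnW := div_pow_mem hℓ hA hx n hnA
  refine ⟨n, x / (ℓ : Qb) ^ n, hnW, ?_, ?_⟩
  · intro hm
    have h1 := div_natCast_mem hℓ hA hnW hm
    have h2 : x / (ℓ : Qb) ^ n / (ℓ : Qb) = x / (ℓ : Qb) ^ (n + 1) := by
      rw [pow_succ]; field_simp
    rw [h2] at h1
    have := Nat.find_spec hex
    rw [hn] at this
    exact this h1.1
  · field_simp

/-! ### `W₀` is a discrete valuation ring -/

theorem isUnit_of_not_mem_nonunits {x : W0 A} (hu : (x : Qb) ∉ A.nonunits) : IsUnit x := by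
  have hx0 : (x : Qb) ≠ 0 := fun h0 => hu (h0 ▸ zero_mem_nonunits)
  refine IsUnit.of_mul_eq_one ⟨(x : Qb)⁻¹, inv_mem_W0 x.2 hu⟩ ?_
  apply Subtype.ext
  show (x : Qb) * (x : Qb)⁻¹ = 1
  exact mul_inv_cancel₀ hx0

theorem not_isUnit_of_mem_nonunits {x : W0 A} (hm : (x : Qb) ∈ A.nonunits) : ¬ IsUnit x := by
  intro hu
  obtain ⟨y, hy⟩ := hu.exists_right_inv
  have h1 : (x : Qb) * (y : Qb) = 1 := congrArg Subtype.val hy
  have h2 : (x : Qb) * (y : Qb) ∈ A.nonunits := by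
    rw [mul_comm]
    exact mul_mem_nonunits y.2.1 hm
  rw [h1] at h2
  rw [ValuationSubring.mem_nonunits_iff, map_one] at h2
  exact lt_irrefl _ h2

theorem isUnit_iff {x : W0 A} : IsUnit x ↔ (x : Qb) ∉ A.nonunits :=
  ⟨fun hu hm => not_isUnit_of_mem_nonunits hm hu, isUnit_of_not_mem_nonunits⟩

theorem coe_natCast (n : ℕ) : (((n : ℕ) : W0 A) : Qb) = (n : Qb) := by
  simp

/-- `ℓ` is irreducible in `W₀`. -/
theorem irreducible_natCast (hℓ : ℓ.Prime) (hA : A.LiesOverPrime ℓ) :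
    Irreducible ((ℓ : ℕ) : W0 A) := by
  have hℓ0 := natCast_ne_zero' (ℓ := ℓ) hℓ
  rw [irreducible_iff]
  refine ⟨?_, fun a b hab => ?_⟩
  · apply not_isUnit_of_mem_nonunits
    rw [coe_natCast]
    exact natCast_mem_nonunits hA
  · by_cases ha : (a : Qb) ∈ A.nonunits
    · right
      have h1 := div_natCast_mem hℓ hA a.2 ha
      refine IsUnit.of_mul_eq_one ⟨(a : Qb) / (ℓ : Qb), h1⟩ ?_
      apply Subtype.ext
      show (b : Qb) * ((a : Qb) / (ℓ : Qb)) = 1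
      have h2 : (ℓ : Qb) = (a : Qb) * (b : Qb) := by
        have := congrArg Subtype.val hab
        simpa using this
      rw [mul_div_assoc', mul_comm, ← h2, div_self hℓ0]
    · left
      exact isUnit_of_not_mem_nonunits ha

/-- **`W₀ = A^I` is a discrete valuation ring** (with uniformiser `ℓ`). -/
theorem isDiscreteValuationRing_W0 (hℓ : ℓ.Prime) (hA : A.LiesOverPrime ℓ) :
    IsDiscreteValuationRing (W0 A) := by
  apply IsDiscreteValuationRing.ofHasUnitMulPowIrreducibleFactorization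
  refine ⟨((ℓ : ℕ) : W0 A), irreducible_natCast hℓ hA, fun {x} hx0 => ?_⟩
  have hx0' : (x : Qb) ≠ 0 := fun h0 => hx0 (Subtype.ext h0)
  obtain ⟨n, u, huW, hu, hxu⟩ := exists_eq_pow_mul hℓ hA x.2 hx0'
  refine ⟨n, ?_⟩
  have hunit : IsUnit (⟨u, huW⟩ : W0 A) := isUnit_of_not_mem_nonunits hu
  refine ⟨hunit.unit, ?_⟩
  apply Subtype.ext
  show (((ℓ : ℕ) : W0 A) ^ n : W0 A).1 * u = (x : Qb)
  rw [hxu]
  simp

theorem maximalIdeal_W0_eq (hℓ : ℓ.Prime) (hA : A.LiesOverPrime ℓ) :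
    haveI := isDiscreteValuationRing_W0 hℓ hA
    maximalIdeal (W0 A) = Ideal.span {((ℓ : ℕ) : W0 A)} := by
  haveI := isDiscreteValuationRing_W0 hℓ hA
  exact (irreducible_natCast hℓ hA).maximalIdeal_eq

/-! ### The hypotheses of `ConnOrd2` at `(W₀ A, Iner A)` -/

theorem hRA (r : W0 A) : algebraMap (W0 A) Qb r ∈ A := r.2.1

/-- unramified. -/
theorem hunr (hℓ : ℓ.Prime) (hA : A.LiesOverPrime ℓ) (r : W0 A)
    (hr : algebraMap (W0 A) Qb r ∈ A.nonunits) : ((ℓ : ℕ) : W0 A) ∣ r := by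
  have hℓ0 := natCast_ne_zero' (ℓ := ℓ) hℓ
  refine ⟨⟨(r : Qb) / (ℓ : Qb), div_natCast_mem hℓ hA r.2 hr⟩, ?_⟩
  apply Subtype.ext
  show (r : Qb) = (((ℓ : ℕ) : W0 A) : Qb) * ((r : Qb) / (ℓ : Qb))
  rw [coe_natCast]
  field_simp

/-- `ℓ`-adically separated. -/
theorem hsep (hℓ : ℓ.Prime) (hA : A.LiesOverPrime ℓ) (r : W0 A)
    (hr : ∀ n : ℕ, ((ℓ : ℕ) : W0 A) ^ n ∣ r) : r = 0 := by
  have hℓ0 := natCast_ne_zero' (ℓ := ℓ) hℓ
  by_contra hr0
  have hr0' : (r : Qb) ≠ 0 := fun h0 => hr0 (Subtype.ext h0)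
  obtain ⟨N, hN⟩ := Fermat.Agent.FF.Desc4.exists_div_pow_not_mem A hℓ hA hr0'
  obtain ⟨c, hc⟩ := hr N
  apply hN
  have h1 : (r : Qb) = (ℓ : Qb) ^ N * (c : Qb) := by
    have := congrArg Subtype.val hc
    simpa using this
  have h2 : (r : Qb) / (ℓ : Qb) ^ N = (c : Qb) := by
    rw [h1]; field_simp
  rw [h2]
  exact c.2.1

/-- the inertia-fixed elements of `ℚ̄` are the fractions of elements of `W₀`. -/
theorem hfix (hℓ : ℓ.Prime) (hA : A.LiesOverPrime ℓ) :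
    letI := FractionRing.liftAlgebra (W0 A) Qb
    ∀ x : Qb, (∀ σ : Iner A, σ • x = x) →
      x ∈ (algebraMap (FractionRing (W0 A)) Qb).range := by
  letI := FractionRing.liftAlgebra (W0 A) Qb
  intro x hx
  have hℓ0 := natCast_ne_zero' (ℓ := ℓ) hℓ
  obtain ⟨N, hN⟩ := Fermat.Agent.FF.Desc4.exists_pow_mul_mem A hℓ hA x
  have hyW : (ℓ : Qb) ^ N * x ∈ W0 A := by
    refine ⟨hN, fun σ => ?_⟩
    have hσℓ : σ • ((ℓ : ℕ) : Qb) = (ℓ : Qb) := by
      exact map_natCast (MulSemiringAction.toRingHom (Iner A) Qb σ) ℓ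
    rw [smul_mul', smul_pow', hx σ, hσℓ]
  refine ⟨algebraMap (W0 A) (FractionRing (W0 A)) ⟨_, hyW⟩ /
    algebraMap (W0 A) (FractionRing (W0 A)) (((ℓ : ℕ) : W0 A) ^ N), ?_⟩
  rw [map_div₀, ← IsScalarTower.algebraMap_apply, ← IsScalarTower.algebraMap_apply]
  show (ℓ : Qb) ^ N * x / ((((ℓ : ℕ) : W0 A) ^ N : W0 A) : Qb) = x
  have h1 : ((((ℓ : ℕ) : W0 A) ^ N : W0 A) : Qb) = (ℓ : Qb) ^ N := by simp
  rw [h1]
  field_simp

/-- **Oort–Tate at `(W₀ A, Iner A)`**: a finite abelian `ℓ`-group (`ℓ` odd) with trivial inertia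
action carrying a connected Hopf order is zero. -/
theorem eq_zero_of_hasConnOrder (hℓ : ℓ.Prime) (hℓ2 : ℓ ≠ 2) (hA : A.LiesOverPrime ℓ)
    {M : Type*} [AddCommGroup M] [DistribMulAction (Iner A) M]
    (hM : ∀ z : M, ∃ n : ℕ, ℓ ^ n • z = 0) (htriv : ∀ (σ : Iner A) (z : M), σ • z = z)
    (h : HasConnOrder (W0 A) (Iner A) A M) (z : M) : z = 0 := by
  haveI : Fact ℓ.Prime := ⟨hℓ⟩
  exact h.eq_zero ℓ hℓ2 (isFixedRing_W0 A) (hunr hℓ hA) (hsep hℓ hA) hM htriv z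

/-- **(NS) at `(W₀ A, Iner A)`**: if `G` carries a connected Hopf order, every inertia-equivariant
subquotient `Q` of a finite power `G^ι` which is an `ℓ`-group with trivial inertia action is zero. -/
theorem subquotient_eq_zero (hℓ : ℓ.Prime) (hℓ2 : ℓ ≠ 2) (hA : A.LiesOverPrime ℓ)
    {G : Type*} [AddCommGroup G] [Finite G] [DistribMulAction (Iner A) G]
    (hG : HasConnOrder (W0 A) (Iner A) A G) (ι : Type*) [Finite ι]
    {S : Type*} [AddCommGroup S] [DistribMulAction (Iner A) S] (j : S →+ (ι → G))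
    (hj : Function.Injective j) (hjΓ : ∀ (σ : Iner A) (s : S), j (σ • s) = σ • j s)
    {Q : Type*} [AddCommGroup Q] [DistribMulAction (Iner A) Q] (q : S →+ Q)
    (hq : Function.Surjective q) (hqΓ : ∀ (σ : Iner A) (s : S), q (σ • s) = σ • q s)
    (hQ : ∀ y : Q, ∃ n : ℕ, ℓ ^ n • y = 0) (htriv : ∀ (σ : Iner A) (y : Q), σ • y = y)
    (y : Q) : y = 0 := by
  haveI : Fact ℓ.Prime := ⟨hℓ⟩
  haveI := isDiscreteValuationRing_W0 hℓ hA
  letI := FractionRing.liftAlgebra (W0 A) Qb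
  haveI : Infinite (W0 A) := by
    haveI : CharZero (W0 A) := (algebraMap (W0 A) Qb).charZero
    infer_instance
  exact HasConnOrder.subquotient_eq_zero (K := FractionRing (W0 A)) (hfix hℓ hA) ℓ hℓ2
    (isFixedRing_W0 A) (hunr hℓ hA) (hsep hℓ hA) hG ι j hj hjΓ q hq hqΓ hQ htriv y

end

end Fermat.Agent.T33.WZero2
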