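/-
Programme T (S33 via a trichotomy), item T3, core (helper2): **Oort–Tate for the constant group
`ℤ/p` over an absolutely unramified base, in elementary form.**

`R` a domain in which the powers of `p` have zero intersection, `H` an `R`-subalgebra of
`Map(𝔽_p, R)` which has coproducts (`h (z + z') = ∑ uᵢ z * vᵢ z'` with `uᵢ, vᵢ ∈ H`), separates the
points of `𝔽_p` and is CONNECTED (`p ∣ h z - h 0` for all `h ∈ H`).  If there is a nontrivial
multiplicative character `χ : 𝔽_p → R` (for instance the quadratic character when `p` is odd and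
`R` has characteristic zero) this is contradictory: `core_false`.

Proof.  The unnormalised projectors `proj χ f z = ∑ₐ χ⁻¹ a * f (a z)` preserve `H` (which is stable
under dilations, by the coproduct).  Let `Λ χ = {l | l • χ ∈ H}` (an ideal of `R`); connectedness
gives `Λ χ ⊆ pR`.  (A) `a ∈ Λ 1 ⇒ p² ∣ a` [the `(χ, χ⁻¹)`-coefficient of `a • 1(z + z')` is
`-(p-1) χ⁻¹(-1) a`, and it lies in `Λ χ * Λ χ⁻¹`].  (B) `l ∈ Λ χ ⇒ l ∈ p Λ χ` [the `(1, χ)`-coefficient
of `l • (χ(z + z') - χ(z'))` is `-p (p-1) l`, and it lies in `Λ 1 * Λ χ ⊆ p² Λ χ`].  Hence `Λ χ = 0`.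
(C) separation produces `g ∈ H` supported at `1` with `g 1 ≠ 0`, and `proj χ g 1 = g 1 ∈ Λ χ`.
-/
import Mathlib

set_option autoImplicit false
set_option linter.unusedSectionVars false

namespace Fermat.Agent.T33.OortTate2

open Finset

section Proj

variable {R : Type*} [CommRing R] {p : ℕ} [Fact p.Prime]

/-- the unnormalised `χ`-projector on functions `𝔽_p → R`. -/
noncomputable def proj (χ : MulChar (ZMod p) R) (f : ZMod p → R) : ZMod p → R :=
  fun z => ∑ a : ZMod p, χ⁻¹ a * f (a * z)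

theorem proj_apply (χ : MulChar (ZMod p) R) (f : ZMod p → R) (z : ZMod p) :
    proj χ f z = ∑ a : ZMod p, χ⁻¹ a * f (a * z) := rfl

theorem proj_one_apply (χ : MulChar (ZMod p) R) (f : ZMod p → R) :
    proj χ f 1 = ∑ a : ZMod p, χ⁻¹ a * f a := by
  simp [proj]

theorem mul_inv_apply_of_ne_zero (χ : MulChar (ZMod p) R) {z : ZMod p} (hz : z ≠ 0) :
    χ z * χ⁻¹ z = 1 := by
  rw [← MulChar.mul_apply, mul_inv_cancel, MulChar.one_apply (Ne.isUnit hz)]

theorem proj_apply_of_ne_zero (χ : MulChar (ZMod p) R) (f : ZMod p → R) {z : ZMod p}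
    (hz : z ≠ 0) : proj χ f z = χ z * proj χ f 1 := by
  rw [proj_one_apply, proj_apply, Finset.mul_sum]
  have hbij : Function.Bijective (fun a : ZMod p => a * z) := mulRight_bijective₀ z hz
  rw [← hbij.sum_comp (fun t => χ z * (χ⁻¹ t * f t))]
  apply Finset.sum_congr rfl
  intro a _
  have h1 := mul_inv_apply_of_ne_zero χ hz
  calc χ⁻¹ a * f (a * z) = χ⁻¹ a * (χ z * χ⁻¹ z) * f (a * z) := by rw [h1, mul_one]
    _ = χ z * (χ⁻¹ (a * z) * f (a * z)) := by rw [map_mul]; ring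

theorem proj_apply_zero (χ : MulChar (ZMod p) R) (f : ZMod p → R) :
    proj χ f 0 = (∑ a : ZMod p, χ⁻¹ a) * f 0 := by
  rw [proj_apply, Finset.sum_mul]
  apply Finset.sum_congr rfl
  intro a _
  rw [mul_zero]

/-- for `χ ≠ 1` the projection is a multiple of `χ`. -/
theorem proj_eq_of_ne_one [IsDomain R] {χ : MulChar (ZMod p) R} (hχ : χ ≠ 1) (f : ZMod p → R) :
    proj χ f = fun z => proj χ f 1 * χ z := by
  funext z
  by_cases hz : z = 0
  · subst hz
    have h1 : χ⁻¹ ≠ 1 := fun h => hχ (inv_eq_one.1 h)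
    rw [proj_apply_zero, MulChar.sum_eq_zero_of_ne_one h1, zero_mul, MulChar.map_zero, mul_zero]
  · rw [proj_apply_of_ne_zero χ f hz, mul_comm]

/-- the projection to the trivial character of a function vanishing at `0`. -/
theorem proj_one_eq (f : ZMod p → R) (hf : f 0 = 0) :
    proj (1 : MulChar (ZMod p) R) f = fun z => (∑ t : ZMod p, f t) * (1 : MulChar (ZMod p) R) z := by
  have h1 : proj (1 : MulChar (ZMod p) R) f 1 = ∑ t : ZMod p, f t := by
    rw [proj_one_apply]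
    apply Finset.sum_congr rfl
    intro a _
    by_cases ha : a = 0
    · subst ha
      rw [hf, mul_zero]
    · rw [inv_one, MulChar.one_apply (Ne.isUnit ha), one_mul]
  funext z
  by_cases hz : z = 0
  · subst hz
    rw [proj_apply_zero, hf, mul_zero, MulChar.map_zero, mul_zero]
  · rw [proj_apply_of_ne_zero _ f hz, h1, mul_comm]

theorem proj_one_one_eq (f : ZMod p → R) (hf : f 0 = 0) :
    proj (1 : MulChar (ZMod p) R) f 1 = ∑ t : ZMod p, f t := by
  have := congrFun (proj_one_eq f hf) 1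
  rwa [MulChar.map_one, mul_one] at this

end Proj

section Sums

variable {R : Type*} [CommRing R] {p : ℕ} [Fact p.Prime]

theorem one_char_apply (a : ZMod p) :
    (1 : MulChar (ZMod p) R) a = if a = 0 then 0 else 1 := by
  split_ifs with h
  · subst h
    exact MulChar.map_zero _
  · exact MulChar.one_apply (Ne.isUnit h)

/-- summing against the trivial character omits the value at `0`. -/
theorem sum_one_char_mul (g : ZMod p → R) :
    ∑ a : ZMod p, (1 : MulChar (ZMod p) R) a * g a = ∑ a : ZMod p, g a - g 0 := by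
  have h1 : ∀ a : ZMod p, (1 : MulChar (ZMod p) R) a * g a = g a - if a = 0 then g a else 0 := by
    intro a
    rw [one_char_apply]
    split_ifs <;> ring
  simp_rw [h1]
  rw [Finset.sum_sub_distrib, Finset.sum_ite_eq' Finset.univ (0 : ZMod p) g]
  simp

theorem sum_one_char : ∑ a : ZMod p, (1 : MulChar (ZMod p) R) a = (p : R) - 1 := by
  have := sum_one_char_mul (R := R) (p := p) (fun _ => 1)
  simp only [mul_one] at this
  rw [this]
  simp [ZMod.card]

theorem sum_shift_eq_zero [IsDomain R] {χ : MulChar (ZMod p) R} (hχ : χ ≠ 1) (b : ZMod p) :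
    ∑ a : ZMod p, χ (a + b) = 0 := by
  have hbij : Function.Bijective (fun a : ZMod p => a + b) :=
    (Equiv.addRight b).bijective
  rw [hbij.sum_comp (fun t => χ t)]
  exact MulChar.sum_eq_zero_of_ne_one hχ

/-- the `(χ, χ⁻¹)`-coefficient of `1(z + z')`. -/
theorem sumA [IsDomain R] {χ : MulChar (ZMod p) R} (hχ : χ ≠ 1) :
    ∑ b : ZMod p, ∑ a : ZMod p, χ⁻¹ a * χ b * (1 : MulChar (ZMod p) R) (a + b) =
      -(χ⁻¹ (-1) * ((p : R) - 1)) := by
  have hχ' : χ⁻¹ ≠ 1 := fun h => hχ (inv_eq_one.1 h)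
  have hinner : ∀ b : ZMod p, ∑ a : ZMod p, χ⁻¹ a * χ b * (1 : MulChar (ZMod p) R) (a + b) =
      -(χ⁻¹ (-1) * (1 : MulChar (ZMod p) R) b) := by
    intro b
    have hbij : Function.Bijective (fun a : ZMod p => a + b) := (Equiv.addRight b).bijective
    have h1 : ∑ a : ZMod p, χ⁻¹ a * χ b * (1 : MulChar (ZMod p) R) (a + b) =
        ∑ t : ZMod p, (1 : MulChar (ZMod p) R) t * (χ⁻¹ (t - b) * χ b) := by
      rw [← hbij.sum_comp (fun t => (1 : MulChar (ZMod p) R) t * (χ⁻¹ (t - b) * χ b))]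
      apply Finset.sum_congr rfl
      intro a _
      simp only [add_sub_cancel_right]
      ring
    rw [h1, sum_one_char_mul, ← Finset.sum_mul]
    have h2 : ∑ t : ZMod p, χ⁻¹ (t - b) = 0 := by
      have := sum_shift_eq_zero hχ' (-b)
      simpa [sub_eq_add_neg] using this
    rw [h2, zero_mul, zero_sub, zero_sub]
    congr 1
    have h3 : (-b : ZMod p) = -1 * b := by ring
    rw [h3, map_mul, mul_assoc, ← MulChar.mul_apply, inv_mul_cancel]
  simp_rw [hinner]
  rw [Finset.sum_neg_distrib, ← Finset.mul_sum, sum_one_char]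

/-- the `(1, χ)`-coefficient of `χ(z + z') - χ(z')`. -/
theorem sumB [IsDomain R] {χ : MulChar (ZMod p) R} (hχ : χ ≠ 1) :
    ∑ b : ZMod p, ∑ a : ZMod p,
        (1 : MulChar (ZMod p) R) a * χ⁻¹ b * (χ (a + b) - χ b) =
      -((p : R) * ((p : R) - 1)) := by
  have hinner : ∀ b : ZMod p, ∑ a : ZMod p,
      (1 : MulChar (ZMod p) R) a * χ⁻¹ b * (χ (a + b) - χ b) =
      -((p : R) * (1 : MulChar (ZMod p) R) b) := by
    intro b
    have h1 : ∑ a : ZMod p, (1 : MulChar (ZMod p) R) a * χ⁻¹ b * (χ (a + b) - χ b) =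
        χ⁻¹ b * (∑ a : ZMod p, (1 : MulChar (ZMod p) R) a * χ (a + b) -
          χ b * ∑ a : ZMod p, (1 : MulChar (ZMod p) R) a) := by
      rw [Finset.mul_sum, ← Finset.sum_sub_distrib, Finset.mul_sum]
      apply Finset.sum_congr rfl
      intro a _
      ring
    rw [h1, sum_one_char_mul, sum_shift_eq_zero hχ, sum_one_char, zero_add, zero_sub]
    have h2 : χ⁻¹ b * (-χ b - χ b * ((p : R) - 1)) = -((p : R) * (χ⁻¹ b * χ b)) := by ring
    rw [h2, ← MulChar.mul_apply, inv_mul_cancel]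
  simp_rw [hinner]
  rw [Finset.sum_neg_distrib, ← Finset.mul_sum, sum_one_char]

/-- coefficient extraction is bilinear. -/
theorem coeff_sum {ι : Type*} [Fintype ι] (c d : ZMod p → R) (u v : ι → ZMod p → R) :
    ∑ b : ZMod p, ∑ a : ZMod p, c a * d b * ∑ i, u i a * v i b =
      ∑ i, (∑ a : ZMod p, c a * u i a) * (∑ b : ZMod p, d b * v i b) := by
  have hR : ∀ i, (∑ a : ZMod p, c a * u i a) * (∑ b : ZMod p, d b * v i b) =
      ∑ b : ZMod p, ∑ a : ZMod p, c a * d b * (u i a * v i b) := by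
    intro i
    rw [Finset.sum_mul_sum, Finset.sum_comm]
    apply Finset.sum_congr rfl
    intro b _
    apply Finset.sum_congr rfl
    intro a _
    ring
  calc ∑ b : ZMod p, ∑ a : ZMod p, c a * d b * ∑ i, u i a * v i b
      = ∑ b : ZMod p, ∑ a : ZMod p, ∑ i, c a * d b * (u i a * v i b) := by
        simp_rw [Finset.mul_sum]
    _ = ∑ b : ZMod p, ∑ i, ∑ a : ZMod p, c a * d b * (u i a * v i b) := by
        apply Finset.sum_congr rfl
        intro b _
        exact Finset.sum_comm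
    _ = ∑ i, ∑ b : ZMod p, ∑ a : ZMod p, c a * d b * (u i a * v i b) := Finset.sum_comm
    _ = ∑ i, (∑ a : ZMod p, c a * u i a) * (∑ b : ZMod p, d b * v i b) := by
        apply Finset.sum_congr rfl
        intro i _
        exact (hR i).symm

end Sums

section Order

variable {R : Type*} [CommRing R] {p : ℕ} [Fact p.Prime]

/-- `h (z + z') = ∑ uᵢ z * vᵢ z'` with `uᵢ, vᵢ ∈ H` (functions with values in `R`). -/
def HasCoprodR (H : Subalgebra R (ZMod p → R)) (h : ZMod p → R) : Prop :=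
  ∃ (ι : Type) (_ : Fintype ι) (u v : ι → ZMod p → R), (∀ i, u i ∈ H) ∧ (∀ i, v i ∈ H) ∧
    ∀ z z', h (z + z') = ∑ i, u i z * v i z'

variable {H : Subalgebra R (ZMod p → R)}

theorem const_mem (H : Subalgebra R (ZMod p → R)) (r : R) : (fun _ : ZMod p => r) ∈ H :=
  H.algebraMap_mem r

theorem comp_nsmul_mem (hΔ : ∀ h ∈ H, HasCoprodR H h) (n : ℕ) :
    ∀ h ∈ H, (fun z : ZMod p => h (n • z)) ∈ H := by
  induction n with
  | zero =>
    intro h _
    simp only [zero_smul]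
    exact const_mem H (h 0)
  | succ n ih =>
    intro h hh
    obtain ⟨ι, _, u, v, hu, hv, huv⟩ := hΔ h hh
    have h1 : (fun z : ZMod p => h ((n + 1) • z)) =
        ∑ i, (fun z : ZMod p => u i (n • z)) * v i := by
      funext z
      rw [succ_nsmul, huv, Finset.sum_apply]
      rfl
    rw [h1]
    exact H.sum_mem fun i _ => H.mul_mem (ih (u i) (hu i)) (hv i)

/-- an order with coproducts is stable under dilations. -/
theorem comp_mul_mem (hΔ : ∀ h ∈ H, HasCoprodR H h) {h : ZMod p → R} (hh : h ∈ H) (a : ZMod p) :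
    (fun z : ZMod p => h (a * z)) ∈ H := by
  have h1 : (fun z : ZMod p => h (a * z)) = fun z : ZMod p => h (a.val • z) := by
    funext z
    rw [nsmul_eq_mul, ZMod.natCast_zmod_val]
  rw [h1]
  exact comp_nsmul_mem hΔ a.val h hh

theorem proj_mem (hΔ : ∀ h ∈ H, HasCoprodR H h) (χ : MulChar (ZMod p) R) {h : ZMod p → R}
    (hh : h ∈ H) : proj χ h ∈ H := by
  have h1 : proj χ h = ∑ a : ZMod p, χ⁻¹ a • (fun z : ZMod p => h (a * z)) := by
    funext z
    rw [proj_apply, Finset.sum_apply]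
    rfl
  rw [h1]
  exact H.sum_mem fun a _ => H.smul_mem (comp_mul_mem hΔ hh a) _

/-- the ideal of the `l` with `l • χ ∈ H`. -/
def Lam (H : Subalgebra R (ZMod p → R)) (χ : MulChar (ZMod p) R) : Ideal R :=
  (Subalgebra.toSubmodule H).comap (LinearMap.toSpanSingleton R (ZMod p → R) (⇑χ))

theorem mem_Lam {χ : MulChar (ZMod p) R} {l : R} :
    l ∈ Lam H χ ↔ (fun z : ZMod p => l * χ z) ∈ H := by
  rw [Lam, Submodule.mem_comap, Subalgebra.mem_toSubmodule]
  rfl

/-- connectedness: `Λ χ ⊆ pR`. -/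
theorem dvd_of_mem_Lam (hconn : ∀ h ∈ H, ∀ z, (p : R) ∣ h z - h 0) {χ : MulChar (ZMod p) R}
    {l : R} (hl : l ∈ Lam H χ) : (p : R) ∣ l := by
  have := hconn _ (mem_Lam.1 hl) 1
  simpa [MulChar.map_zero] using this

theorem proj_one_mem_Lam [IsDomain R] (hΔ : ∀ h ∈ H, HasCoprodR H h) {χ : MulChar (ZMod p) R}
    (hχ : χ ≠ 1) {h : ZMod p → R} (hh : h ∈ H) : proj χ h 1 ∈ Lam H χ := by
  rw [mem_Lam, ← proj_eq_of_ne_one hχ]
  exact proj_mem hΔ χ hh

theorem sum_mem_Lam_one (hΔ : ∀ h ∈ H, HasCoprodR H h) {h : ZMod p → R} (hh : h ∈ H)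
    (h0 : h 0 = 0) : ∑ t : ZMod p, h t ∈ Lam H 1 := by
  rw [mem_Lam, ← proj_one_eq h h0]
  exact proj_mem hΔ 1 hh

section Steps

variable [IsDomain R]

/-- **step (A)**: the coefficients of the indicator of `z ≠ 0` in `H` are divisible by `p²`. -/
theorem sq_dvd_of_mem_Lam_one (hΔ : ∀ h ∈ H, HasCoprodR H h)
    (hconn : ∀ h ∈ H, ∀ z, (p : R) ∣ h z - h 0) {χ : MulChar (ZMod p) R} (hχ : χ ≠ 1)
    {α : R} (hα : α ∈ Lam H 1) : (p : R) ^ 2 ∣ α := by
  have hχ' : χ⁻¹ ≠ 1 := fun h => hχ (inv_eq_one.1 h)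
  obtain ⟨ι, _, u, v, hu, hv, huv⟩ := hΔ _ (mem_Lam.1 hα)
  -- the coefficient, computed in two ways
  have h1 : ∑ b : ZMod p, ∑ a : ZMod p,
      χ⁻¹ a * χ b * (α * (1 : MulChar (ZMod p) R) (a + b)) =
      ∑ i, proj χ (u i) 1 * proj χ⁻¹ (v i) 1 := by
    simp_rw [proj_one_apply, inv_inv]
    rw [← coeff_sum]
    apply Finset.sum_congr rfl
    intro b _
    apply Finset.sum_congr rfl
    intro a _
    rw [← huv]
  have h2 : ∑ b : ZMod p, ∑ a : ZMod p,
      χ⁻¹ a * χ b * (α * (1 : MulChar (ZMod p) R) (a + b)) =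
      α * -(χ⁻¹ (-1) * ((p : R) - 1)) := by
    rw [← sumA hχ, Finset.mul_sum]
    apply Finset.sum_congr rfl
    intro b _
    rw [Finset.mul_sum]
    apply Finset.sum_congr rfl
    intro a _
    ring
  have h3 : (p : R) ^ 2 ∣ ∑ i, proj χ (u i) 1 * proj χ⁻¹ (v i) 1 := by
    apply Finset.dvd_sum
    intro i _
    rw [pow_two]
    exact mul_dvd_mul (dvd_of_mem_Lam hconn (proj_one_mem_Lam hΔ hχ (hu i)))
      (dvd_of_mem_Lam hconn (proj_one_mem_Lam hΔ hχ' (hv i)))
  rw [← h1, h2] at h3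
  -- remove the unit `χ⁻¹ (-1)`
  have h4 : χ⁻¹ (-1) * χ⁻¹ (-1) = 1 := by
    rw [← map_mul, neg_mul_neg, mul_one, MulChar.map_one]
  have h5 : (p : R) ^ 2 ∣ α * ((p : R) - 1) := by
    have := Dvd.dvd.mul_right h3 (-(χ⁻¹ (-1)))
    have e : α * -(χ⁻¹ (-1) * ((p : R) - 1)) * -(χ⁻¹ (-1)) =
        α * ((p : R) - 1) * (χ⁻¹ (-1) * χ⁻¹ (-1)) := by ring
    rwa [e, h4, mul_one] at this
  have h6 : (p : R) ^ 2 ∣ (p : R) * α := by
    rw [pow_two]
    exact mul_dvd_mul_left _ (dvd_of_mem_Lam hconn hα)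
  have e : α = (p : R) * α - α * ((p : R) - 1) := by ring
  rw [e]
  exact dvd_sub h6 h5

/-- **step (B)**: `Λ χ = p Λ χ`. -/
theorem exists_mem_Lam_eq_mul (hΔ : ∀ h ∈ H, HasCoprodR H h)
    (hconn : ∀ h ∈ H, ∀ z, (p : R) ∣ h z - h 0) (hp0 : (p : R) ≠ 0)
    {χ : MulChar (ZMod p) R} (hχ : χ ≠ 1) {l : R} (hl : l ∈ Lam H χ) :
    ∃ l' ∈ Lam H χ, l = (p : R) * l' := by
  obtain ⟨ι, _, u, v, hu, hv, huv⟩ := hΔ _ (mem_Lam.1 hl)
  -- normalise the left factors at `0`
  set u' : ι → ZMod p → R := fun i => u i - fun _ => u i 0 with hu'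
  have hu'H : ∀ i, u' i ∈ H := fun i => H.sub_mem (hu i) (const_mem H _)
  have hu'0 : ∀ i, u' i 0 = 0 := fun i => by simp [hu']
  have huv' : ∀ z z', l * (χ (z + z') - χ z') = ∑ i, u' i z * v i z' := by
    intro z z'
    have h1 := huv z z'
    have h2 := huv 0 z'
    rw [zero_add] at h2
    simp only [hu', Pi.sub_apply, sub_mul, Finset.sum_sub_distrib]
    rw [← h1, ← h2]
    ring
  -- the coefficient, computed in two ways
  have h1 : ∑ b : ZMod p, ∑ a : ZMod p,
      (1 : MulChar (ZMod p) R) a * χ⁻¹ b * (l * (χ (a + b) - χ b)) =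
      ∑ i, proj 1 (u' i) 1 * proj χ (v i) 1 := by
    simp_rw [proj_one_apply, inv_one]
    rw [← coeff_sum]
    apply Finset.sum_congr rfl
    intro b _
    apply Finset.sum_congr rfl
    intro a _
    rw [← huv']
  have h2 : ∑ b : ZMod p, ∑ a : ZMod p,
      (1 : MulChar (ZMod p) R) a * χ⁻¹ b * (l * (χ (a + b) - χ b)) =
      l * -((p : R) * ((p : R) - 1)) := by
    rw [← sumB hχ, Finset.mul_sum]
    apply Finset.sum_congr rfl
    intro b _
    rw [Finset.mul_sum]
    apply Finset.sum_congr rfl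
    intro a _
    ring
  -- each summand is `p²` times an element of `Λ χ`
  have h3 : ∀ i, ∃ m ∈ Lam H χ, proj 1 (u' i) 1 * proj χ (v i) 1 = (p : R) ^ 2 * m := by
    intro i
    have hA : (p : R) ^ 2 ∣ proj 1 (u' i) 1 := by
      rw [proj_one_one_eq _ (hu'0 i)]
      exact sq_dvd_of_mem_Lam_one hΔ hconn hχ (sum_mem_Lam_one hΔ (hu'H i) (hu'0 i))
    obtain ⟨c, hc⟩ := hA
    refine ⟨c * proj χ (v i) 1, Ideal.mul_mem_left _ _ (proj_one_mem_Lam hΔ hχ (hv i)), ?_⟩
    rw [hc]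
    ring
  choose m hm hm' using h3
  have h4 : l * -((p : R) * ((p : R) - 1)) = (p : R) ^ 2 * ∑ i, m i := by
    rw [← h2, h1, Finset.mul_sum]
    exact Finset.sum_congr rfl fun i _ => hm' i
  have h5 : -(l * ((p : R) - 1)) = (p : R) * ∑ i, m i := by
    apply mul_left_cancel₀ hp0
    rw [← mul_assoc, ← pow_two, ← h4]
    ring
  refine ⟨l + ∑ i, m i, Ideal.add_mem _ hl (Ideal.sum_mem _ fun i _ => hm i), ?_⟩
  rw [mul_add, ← h5]
  ring

theorem pow_dvd_of_mem_Lam (hΔ : ∀ h ∈ H, HasCoprodR H h)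
    (hconn : ∀ h ∈ H, ∀ z, (p : R) ∣ h z - h 0) (hp0 : (p : R) ≠ 0)
    {χ : MulChar (ZMod p) R} (hχ : χ ≠ 1) (n : ℕ) :
    ∀ l ∈ Lam H χ, (p : R) ^ n ∣ l := by
  induction n with
  | zero => intro l _; simp
  | succ n ih =>
    intro l hl
    obtain ⟨l', hl', rfl⟩ := exists_mem_Lam_eq_mul hΔ hconn hp0 hχ hl
    rw [pow_succ']
    exact mul_dvd_mul_left _ (ih l' hl')

/-- **step (C)**: separation gives a nonzero element of `Λ χ`. -/
theorem exists_ne_zero_mem_Lam (hΔ : ∀ h ∈ H, HasCoprodR H h)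
    (hsepar : ∀ z z' : ZMod p, (∀ h ∈ H, h z = h z') → z = z')
    {χ : MulChar (ZMod p) R} (hχ : χ ≠ 1) : ∃ l ∈ Lam H χ, l ≠ 0 := by
  classical
  have hex : ∀ z' : ZMod p, z' ≠ 1 → ∃ h ∈ H, h 1 ≠ h z' := by
    intro z' hz'
    by_contra hcon
    push Not at hcon
    exact hz' (hsepar 1 z' hcon).symm
  -- a function in `H` supported at `1`
  let k : ZMod p → ZMod p → R := fun z' =>
    if hz' : z' = 1 then 0 else (fun z => (hex z' hz').choose z - (hex z' hz').choose z')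
  have hkH : ∀ z', k z' ∈ H := by
    intro z'
    by_cases hz' : z' = 1
    · simp only [k, hz', dite_true]
      exact H.zero_mem
    · simp only [k, hz', dite_false]
      exact H.sub_mem (hex z' hz').choose_spec.1 (const_mem H _)
  have hk0 : ∀ z', z' ≠ 1 → k z' z' = 0 := by
    intro z' hz'
    simp only [k, hz', dite_false, sub_self]
  have hk1 : ∀ z', z' ≠ 1 → k z' 1 ≠ 0 := by
    intro z' hz'
    simp only [k, hz', dite_false]
    exact sub_ne_zero.2 (hex z' hz').choose_spec.2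
  set g : ZMod p → R := ∏ z' ∈ Finset.univ.erase (1 : ZMod p), k z' with hg
  have hgH : g ∈ H := H.prod_mem fun z' _ => hkH z'
  have hg0 : ∀ z, z ≠ 1 → g z = 0 := by
    intro z hz
    rw [hg, Finset.prod_apply]
    exact Finset.prod_eq_zero (Finset.mem_erase.2 ⟨hz, Finset.mem_univ _⟩) (hk0 z hz)
  have hg1 : g 1 ≠ 0 := by
    rw [hg, Finset.prod_apply]
    exact Finset.prod_ne_zero_iff.2 fun z' hz' => hk1 z' (Finset.mem_erase.1 hz').1
  refine ⟨proj χ g 1, proj_one_mem_Lam hΔ hχ hgH, ?_⟩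
  rw [proj_one_apply, Finset.sum_eq_single (1 : ZMod p)]
  · rw [MulChar.map_one, one_mul]
    exact hg1
  · intro b _ hb
    rw [hg0 b hb, mul_zero]
  · intro h
    exact absurd (Finset.mem_univ _) h

/-- **Oort–Tate, elementary core**: no connected order with coproducts on the constant group
`ℤ/p` over a `p`-adically separated domain admitting a nontrivial character of `𝔽_p`. -/
theorem core_false (hsep : ∀ r : R, (∀ n : ℕ, (p : R) ^ n ∣ r) → r = 0)
    {χ : MulChar (ZMod p) R} (hχ : χ ≠ 1)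
    (hΔ : ∀ h ∈ H, HasCoprodR H h)
    (hconn : ∀ h ∈ H, ∀ z, (p : R) ∣ h z - h 0)
    (hsepar : ∀ z z' : ZMod p, (∀ h ∈ H, h z = h z') → z = z') : False := by
  obtain ⟨l, hl, hl0⟩ := exists_ne_zero_mem_Lam hΔ hsepar hχ
  have hp0 : (p : R) ≠ 0 := by
    intro h0
    obtain ⟨c, hc⟩ := dvd_of_mem_Lam hconn hl
    rw [h0, zero_mul] at hc
    exact hl0 hc
  exact hl0 (hsep l fun n => pow_dvd_of_mem_Lam hΔ hconn hp0 hχ n l hl)

end Steps

end Order

end Fermat.Agent.T33.OortTate2
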