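/-
Programme T (S33 via a trichotomy), item T3 (helper2): **connected Hopf orders.**

`IsConn A H` : the order `H ⊆ Map(M, K̄)` is CONNECTED with respect to the valuation subring `A` of
`K̄`: `h z - h 0 ∈ 𝔪_A` for all `h ∈ H`, `z ∈ M`.  Connectedness passes to restrictions along
additive maps (`IsConn.comap`), to quotients (`IsConn.quot`), to products (`isConn_prodOrder`,
`isConn_piOrder`), and holds for `R[S]` as soon as it holds for the generators `S`
(`isConn_adjoin`).

**Oort–Tate** (`eq_zero_of_isConn`): let `R = A^Γ` (`OrderCoordC.IsFixedRing`) be UNRAMIFIED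
(`r ∈ 𝔪_A ⇒ p ∣ r`) and `p`-adically separated, `p` odd, `K̄` of characteristic zero.  A finite
abelian `p`-group `M` with TRIVIAL `Γ`-action carrying a connected Hopf order
(`SubOrd1.IsHopfOrder Γ H`, `IsConn A H`) is zero.  (Restrict to a subgroup `ℤ/p`, descend the
values to `R`, apply `OortTate2.core_false` with the quadratic character.)
-/
import Mathlib
import Fermat.Agent.FF.SubOrd1
import Fermat.Agent.FF.QuotOrd4D
import Fermat.Agent.FF.OrderCoordC
import Fermat.Agent.S32x.OrdProd2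
import Fermat.Agent.T33.OortTate2

set_option autoImplicit false
set_option linter.unusedSectionVars false
set_option linter.style.haveILetI false

namespace Fermat.Agent.T33.ConnOrd2

open Fermat.Agent.FF.HopfOrd1 Fermat.Agent.FF.HopfOrderB Fermat.Agent.FF.HopfOrderC
  Fermat.Agent.FF.SubOrd1 Fermat.Agent.FF.QuotOrd4 Fermat.Agent.FF.OrderCoordC
  Fermat.Agent.S32x.OrdProd2

section Basic

variable {R : Type*} [CommRing R] {Kbar : Type*} [Field Kbar] [Algebra R Kbar]
variable (A : ValuationSubring Kbar)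

/-- the order `H` is connected: `h z - h 0 ∈ 𝔪_A`. -/
def IsConn {M : Type*} [Zero M] (H : Subalgebra R (M → Kbar)) : Prop :=
  ∀ h ∈ H, ∀ z : M, h z - h 0 ∈ A.nonunits

variable {A}

theorem zero_mem_nonunits : (0 : Kbar) ∈ A.nonunits := by
  rw [ValuationSubring.mem_nonunits_iff, map_zero]
  exact zero_lt_one

theorem add_mem_nonunits {x y : Kbar} (hx : x ∈ A.nonunits) (hy : y ∈ A.nonunits) :
    x + y ∈ A.nonunits := by
  rw [ValuationSubring.mem_nonunits_iff] at *
  exact Valuation.map_add_lt _ hx hy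

theorem mul_mem_nonunits_of_mem {a x : Kbar} (ha : a ∈ A) (hx : x ∈ A.nonunits) :
    a * x ∈ A.nonunits := by
  rw [ValuationSubring.mem_nonunits_iff] at *
  rw [map_mul]
  have h1 : A.valuation a ≤ 1 := (ValuationSubring.valuation_le_one_iff A a).2 ha
  calc A.valuation a * A.valuation x ≤ 1 * A.valuation x := mul_le_mul_left h1 _
    _ = A.valuation x := one_mul _
    _ < 1 := hx

/-- the functions with values in `A` which are constant modulo `𝔪_A`. -/
def connSubalgebra (hRA : ∀ r : R, algebraMap R Kbar r ∈ A) (M : Type*) [Zero M] :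
    Subalgebra R (M → Kbar) where
  carrier := {f | (∀ z, f z ∈ A) ∧ ∀ z, f z - f 0 ∈ A.nonunits}
  mul_mem' := by
    rintro f g ⟨hf, hf'⟩ ⟨hg, hg'⟩
    refine ⟨fun z => A.mul_mem _ _ (hf z) (hg z), fun z => ?_⟩
    have e : (f * g) z - (f * g) 0 = f z * (g z - g 0) + g 0 * (f z - f 0) := by
      simp only [Pi.mul_apply]; ring
    rw [e]
    exact add_mem_nonunits (mul_mem_nonunits_of_mem (hf z) (hg' z))
      (mul_mem_nonunits_of_mem (hg 0) (hf' z))
  add_mem' := by
    rintro f g ⟨hf, hf'⟩ ⟨hg, hg'⟩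
    refine ⟨fun z => A.add_mem _ _ (hf z) (hg z), fun z => ?_⟩
    have e : (f + g) z - (f + g) 0 = (f z - f 0) + (g z - g 0) := by
      simp only [Pi.add_apply]; ring
    rw [e]
    exact add_mem_nonunits (hf' z) (hg' z)
  algebraMap_mem' := by
    intro r
    refine ⟨fun z => hRA r, fun z => ?_⟩
    simp only [Pi.algebraMap_apply, sub_self]
    exact zero_mem_nonunits

theorem mem_connSubalgebra {hRA : ∀ r : R, algebraMap R Kbar r ∈ A} {M : Type*} [Zero M]
    {f : M → Kbar} :
    f ∈ connSubalgebra hRA M ↔ (∀ z, f z ∈ A) ∧ ∀ z, f z - f 0 ∈ A.nonunits := Iff.rfl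

theorem isConn_of_le {hRA : ∀ r : R, algebraMap R Kbar r ∈ A} {M : Type*} [Zero M]
    {H : Subalgebra R (M → Kbar)} (h : H ≤ connSubalgebra hRA M) : IsConn A H :=
  fun _ hf z => (h hf).2 z

/-- **connectedness can be checked on generators.** -/
theorem isConn_adjoin (hRA : ∀ r : R, algebraMap R Kbar r ∈ A) {M : Type*} [Zero M]
    {S : Set (M → Kbar)} (hS : ∀ s ∈ S, (∀ z, s z ∈ A) ∧ ∀ z, s z - s 0 ∈ A.nonunits) :
    IsConn A (Algebra.adjoin R S) :=
  isConn_of_le (hRA := hRA) (Algebra.adjoin_le fun s hs => hS s hs)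

/-- the members of a finite order take their values in `A`. -/
theorem apply_mem_of_finite (hRA : ∀ r : R, algebraMap R Kbar r ∈ A) {M : Type*}
    {H : Subalgebra R (M → Kbar)} [Module.Finite R H] {h : M → Kbar} (hh : h ∈ H) (z : M) :
    h z ∈ A := by
  have h1 : IsIntegral R (⟨h, hh⟩ : H) := Algebra.IsIntegral.isIntegral _
  have h2 : IsIntegral R h := by
    have := h1.map H.val
    simpa using this
  have h3 : IsIntegral R (h z) := by
    have := h2.map (Pi.evalAlgHom R (fun _ : M => Kbar) z)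
    simpa using this
  -- pass to `A`
  let φ : R →+* A := (algebraMap R Kbar).codRestrict A.toSubring hRA
  have h4 : IsIntegral A (h z) :=
    IsIntegral.map_of_comp_eq φ (RingHom.id Kbar) (by ext r; rfl) h3
  obtain ⟨y, hy⟩ := IsIntegrallyClosed.isIntegral_iff.1 h4
  rw [← hy]
  exact y.2

theorem le_connSubalgebra (hRA : ∀ r : R, algebraMap R Kbar r ∈ A) {M : Type*} [Zero M]
    {H : Subalgebra R (M → Kbar)} [Module.Finite R H] (hc : IsConn A H) :
    H ≤ connSubalgebra hRA M :=
  fun _ hf => ⟨fun z => apply_mem_of_finite hRA hf z, fun z => hc _ hf z⟩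

end Basic

section Closure

variable {R : Type*} [CommRing R] {Kbar : Type*} [Field Kbar] [Algebra R Kbar]
variable {A : ValuationSubring Kbar}

/-- restriction along an additive map (closed subgroups, isomorphisms). -/
theorem IsConn.comap {M M' : Type*} [AddCommGroup M] [AddCommGroup M']
    {H : Subalgebra R (M → Kbar)} (hc : IsConn A H) (ι : M' →+ M) :
    IsConn A (comapOrder H (ι : M' → M)) := by
  rintro _ ⟨h, hh, rfl⟩ z
  show h (ι z) - h (ι 0) ∈ A.nonunits
  rw [map_zero]
  exact hc h hh (ι z)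

/-- quotients. -/
theorem IsConn.quot {M Q : Type*} [AddCommGroup M] [AddCommGroup Q]
    {H : Subalgebra R (M → Kbar)} (hc : IsConn A H) (q : M →+ Q)
    (hq : Function.Surjective q) : IsConn A (quotOrder H (q : M → Q)) := by
  intro f hf y
  obtain ⟨z, rfl⟩ := hq y
  have := hc _ (mem_quotOrder.1 hf) z
  simpa using this

/-- binary products. -/
theorem isConn_prodOrder (hRA : ∀ r : R, algebraMap R Kbar r ∈ A)
    {M₁ M₂ : Type*} [AddCommGroup M₁] [AddCommGroup M₂]
    {H₁ : Subalgebra R (M₁ → Kbar)} {H₂ : Subalgebra R (M₂ → Kbar)}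
    [Module.Finite R H₁] [Module.Finite R H₂] (h₁ : IsConn A H₁) (h₂ : IsConn A H₂) :
    IsConn A (prodOrder H₁ H₂) := by
  refine isConn_of_le (hRA := hRA) (sup_le ?_ ?_)
  · rintro _ ⟨h, hh, rfl⟩
    exact ⟨fun z => apply_mem_of_finite hRA hh _, fun z => h₁ h hh z.1⟩
  · rintro _ ⟨h, hh, rfl⟩
    exact ⟨fun z => apply_mem_of_finite hRA hh _, fun z => h₂ h hh z.2⟩

/-- finite products. -/
theorem isConn_piOrder (hRA : ∀ r : R, algebraMap R Kbar r ∈ A)
    {ι : Type*} {M : ι → Type*} [∀ i, AddCommGroup (M i)]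
    {H : ∀ i, Subalgebra R (M i → Kbar)} [∀ i, Module.Finite R (H i)]
    (hH : ∀ i, IsConn A (H i)) : IsConn A (piOrder H) := by
  refine isConn_of_le (hRA := hRA) (iSup_le fun i => ?_)
  rintro _ ⟨h, hh, rfl⟩
  exact ⟨fun z => apply_mem_of_finite hRA hh _, fun z => hH i h hh (z i)⟩

end Closure

section OortTate

open Fermat.Agent.T33.OortTate2

variable {R : Type*} [CommRing R] {Kbar : Type*} [Field Kbar] [Algebra R Kbar]
variable {Γ : Type*} [Group Γ] [MulSemiringAction Γ Kbar]
variable {A : ValuationSubring Kbar}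
variable {M : Type*} [AddCommGroup M] [DistribMulAction Γ M]

/-- the values of a Hopf order on a module with trivial action lie in `R = A^Γ`. -/
theorem apply_mem_range (hW : IsFixedRing Γ A R) (htriv : ∀ (σ : Γ) (z : M), σ • z = z)
    {H : Subalgebra R (M → Kbar)} (hH : IsHopfOrder Γ H) {h : M → Kbar} (hh : h ∈ H) (z : M) :
    h z ∈ (algebraMap R Kbar).range := by
  haveI := hH.finite
  rw [hW.2]
  refine ⟨apply_mem_of_finite (fun r => hW.mem r) hh z, fun σ => ?_⟩
  have := hH.equivariant h hh σ z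
  rw [htriv] at this
  exact this.symm

/-- the `R`-valued functions on `ℤ/p` which are restrictions of members of `H`. -/
noncomputable def descOrder {p : ℕ} (H : Subalgebra R (M → Kbar)) (ι : ZMod p → M) :
    Subalgebra R (ZMod p → R) :=
  (comapOrder H ι).comap (AlgHom.compLeft (Algebra.ofId R Kbar) (ZMod p))

theorem mem_descOrder {p : ℕ} {H : Subalgebra R (M → Kbar)} {ι : ZMod p → M} {f : ZMod p → R} :
    f ∈ descOrder H ι ↔ ∃ h ∈ H, ∀ x, h (ι x) = algebraMap R Kbar (f x) := by
  rw [descOrder, Subalgebra.mem_comap, mem_comapOrder]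
  constructor
  · rintro ⟨h, hh, hf⟩
    exact ⟨h, hh, fun x => congrFun hf x⟩
  · rintro ⟨h, hh, hf⟩
    exact ⟨h, hh, funext hf⟩

/-- **Oort–Tate**: a finite abelian `p`-group (`p` odd) with trivial action of `Γ` carrying a
connected Hopf order over the unramified ring `R = A^Γ` is zero. -/
theorem eq_zero_of_isConn [CharZero Kbar] (p : ℕ) [Fact p.Prime] (hp2 : p ≠ 2)
    (hW : IsFixedRing Γ A R)
    (hunr : ∀ r : R, algebraMap R Kbar r ∈ A.nonunits → (p : R) ∣ r)
    (hsep : ∀ r : R, (∀ n : ℕ, (p : R) ^ n ∣ r) → r = 0)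
    (hM : ∀ z : M, ∃ n : ℕ, p ^ n • z = 0)
    (htriv : ∀ (σ : Γ) (z : M), σ • z = z)
    {H : Subalgebra R (M → Kbar)} (hH : IsHopfOrder Γ H) (hc : IsConn A H) (z : M) : z = 0 := by
  classical
  by_contra hz
  have hinj : Function.Injective (algebraMap R Kbar) := hW.1
  haveI : IsDomain R := hW.isDomain
  haveI : CharZero R := (algebraMap R Kbar).charZero
  -- an element of order `p`
  obtain ⟨z₀, hz₀, hpz₀⟩ : ∃ z₀ : M, z₀ ≠ 0 ∧ p • z₀ = 0 := by
    have hex := hM z
    have hn0 : Nat.find hex ≠ 0 := by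
      intro h0
      have := Nat.find_spec hex
      rw [h0, pow_zero, one_smul] at this
      exact hz this
    obtain ⟨n, hn⟩ := Nat.exists_eq_succ_of_ne_zero hn0
    refine ⟨p ^ n • z, ?_, ?_⟩
    · exact Nat.find_min hex (by omega)
    · have := Nat.find_spec hex
      rwa [hn, pow_succ', mul_smul] at this
  -- the embedding of `ℤ/p`
  let ι : ZMod p →+ M := ZMod.lift p ⟨zmultiplesHom M z₀, by simpa using hpz₀⟩
  have hι1 : ι 1 = z₀ := by
    have := ZMod.lift_coe p ⟨zmultiplesHom M z₀, by simpa using hpz₀⟩ 1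
    simpa using this
  have hιinj : Function.Injective ι := by
    rw [injective_iff_map_eq_zero]
    intro a ha
    by_contra ha0
    apply hz₀
    have h1 : (a⁻¹.val : ZMod p) * a = 1 := by
      rw [ZMod.natCast_zmod_val, inv_mul_cancel₀ ha0]
    rw [← hι1, ← h1, ← nsmul_eq_mul, map_nsmul, ha, smul_zero]
  -- descend to `R`-valued functions
  have hΔ : ∀ h ∈ H, HasCoprod H h := by
    obtain ⟨S, hS, hΔS⟩ := hH.coprod
    exact hasCoprod_of_adjoin hS hΔS
  have hlift : ∀ h ∈ H, ∃ f : ZMod p → R, ∀ x, h (ι x) = algebraMap R Kbar (f x) := by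
    intro h hh
    have := fun x => apply_mem_range hW htriv hH hh (ι x)
    choose f hf using this
    exact ⟨f, fun x => (hf x).symm⟩
  have hlift' : ∀ h ∈ H, ∃ f ∈ descOrder H (ι : ZMod p → M),
      ∀ x, h (ι x) = algebraMap R Kbar (f x) := by
    intro h hh
    obtain ⟨f, hf⟩ := hlift h hh
    exact ⟨f, mem_descOrder.2 ⟨h, hh, hf⟩, hf⟩
  -- the quadratic character
  have hχ : (quadraticChar (ZMod p)).ringHomComp (Int.castRingHom R) ≠ 1 := by
    rw [MulChar.ringHomComp_ne_one_iff (Int.cast_injective (α := R))]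
    apply quadraticChar_ne_one
    rw [ZMod.ringChar_zmod_n]
    exact hp2
  refine core_false (H := descOrder H (ι : ZMod p → M)) hsep hχ ?_ ?_ ?_
  · -- coproducts
    intro f hf
    obtain ⟨h, hh, hhf⟩ := mem_descOrder.1 hf
    obtain ⟨κ, _, a, b, ha, hb, hab⟩ := hΔ h hh
    have hu := fun i => hlift' (a i) (ha i)
    have hv := fun i => hlift' (b i) (hb i)
    choose u huH hu using hu
    choose v hvH hv using hv
    refine ⟨κ, inferInstance, u, v, huH, hvH, fun x x' => ?_⟩
    apply hinj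
    rw [← hhf, map_add, hab, map_sum]
    apply Finset.sum_congr rfl
    intro i _
    rw [map_mul, ← hu, ← hv]
  · -- connectedness
    intro f hf x
    obtain ⟨h, hh, hhf⟩ := mem_descOrder.1 hf
    apply hunr
    rw [map_sub, ← hhf, ← hhf, map_zero]
    exact hc h hh (ι x)
  · -- separation
    intro x x' hxx'
    apply hιinj
    apply hH.separates
    intro h hh
    obtain ⟨f, hfH, hf⟩ := hlift' h hh
    rw [hf, hf, hxx' f hfH]

end OortTate

section Has

variable (R : Type*) [CommRing R] {Kbar : Type*} [Field Kbar] [Algebra R Kbar]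
variable (Γ : Type*) [Group Γ] [MulSemiringAction Γ Kbar]
variable (A : ValuationSubring Kbar)

/-- `M` carries a connected Hopf order (over `R`, inside `M → K̄`, for the action of `Γ`, connected
with respect to `A`). -/
def HasConnOrder (M : Type*) [AddCommGroup M] [DistribMulAction Γ M] : Prop :=
  ∃ H : Subalgebra R (M → Kbar), IsHopfOrder Γ H ∧ IsConn A H

variable {R Γ A}
variable {M M' : Type*} [AddCommGroup M] [DistribMulAction Γ M] [AddCommGroup M']
  [DistribMulAction Γ M']

theorem HasConnOrder.hasHopfOrder (h : HasConnOrder R Γ A M) : HasHopfOrder R Kbar Γ M := by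
  obtain ⟨H, hH, _⟩ := h
  exact ⟨H, hH⟩

/-- closed subgroups. -/
theorem HasConnOrder.of_injective (h : HasConnOrder R Γ A M) (ι : M' →+ M)
    (hinj : Function.Injective ι) (hι : ∀ (σ : Γ) (z : M'), ι (σ • z) = σ • ι z) :
    HasConnOrder R Γ A M' := by
  obtain ⟨H, hH, hc⟩ := h
  exact ⟨_, hH.comap ι hinj hι, hc.comap ι⟩

/-- isomorphisms. -/
theorem HasConnOrder.of_addEquiv (h : HasConnOrder R Γ A M) (e : M' ≃+ M)
    (he : ∀ (σ : Γ) (z : M'), e (σ • z) = σ • e z) : HasConnOrder R Γ A M' :=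
  h.of_injective e.toAddMonoidHom e.injective he

/-- binary products. -/
theorem HasConnOrder.prod (hRA : ∀ r : R, algebraMap R Kbar r ∈ A) (h : HasConnOrder R Γ A M)
    (h' : HasConnOrder R Γ A M') : HasConnOrder R Γ A (M × M') := by
  obtain ⟨H, hH, hc⟩ := h
  obtain ⟨H', hH', hc'⟩ := h'
  haveI := hH.finite
  haveI := hH'.finite
  exact ⟨_, isHopfOrder_prod hH hH', isConn_prodOrder hRA hc hc'⟩

/-- finite products. -/
theorem HasConnOrder.pi (hRA : ∀ r : R, algebraMap R Kbar r ∈ A) {ι : Type*} [Finite ι]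
    {N : ι → Type*} [∀ i, AddCommGroup (N i)] [∀ i, DistribMulAction Γ (N i)]
    (hR : ∀ (σ : Γ) (r : R), σ • algebraMap R Kbar r = algebraMap R Kbar r)
    (h : ∀ i, HasConnOrder R Γ A (N i)) : HasConnOrder R Γ A (∀ i, N i) := by
  choose H hH hc using h
  haveI := fun i => (hH i).finite
  exact ⟨_, isHopfOrder_pi hR hH, isConn_piOrder hRA hc⟩

/-- finite powers. -/
theorem HasConnOrder.pow (hRA : ∀ r : R, algebraMap R Kbar r ∈ A) (h : HasConnOrder R Γ A M)
    (ι : Type*) [Finite ι] : HasConnOrder R Γ A (ι → M) :=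
  HasConnOrder.pi hRA h.hasHopfOrder.smul_algebraMap fun _ => h

/-- quotients by stable subgroups. -/
theorem HasConnOrder.quotient [IsDomain R] [IsPrincipalIdealRing R] [Infinite R]
    {K : Type*} [Field K] [Algebra R K] [IsFractionRing R K] [Algebra K Kbar]
    [IsScalarTower R K Kbar] [Finite M] [Finite M']
    (hfix : ∀ x : Kbar, (∀ σ : Γ, σ • x = x) → x ∈ (algebraMap K Kbar).range)
    (h : HasConnOrder R Γ A M) (q : M →+ M') (hq : Function.Surjective q)
    (hqΓ : ∀ (σ : Γ) (z : M), q (σ • z) = σ • q z) : HasConnOrder R Γ A M' := by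
  obtain ⟨H, hH, hc⟩ := h
  exact ⟨_, Fermat.Agent.FF.QuotOrd4.IsHopfOrder.quotient (K := K) hfix hH q hq hqΓ, hc.quot q hq⟩

/-- **Oort–Tate**, packaged. -/
theorem HasConnOrder.eq_zero [CharZero Kbar] (p : ℕ) [Fact p.Prime] (hp2 : p ≠ 2)
    (hW : IsFixedRing Γ A R)
    (hunr : ∀ r : R, algebraMap R Kbar r ∈ A.nonunits → (p : R) ∣ r)
    (hsep : ∀ r : R, (∀ n : ℕ, (p : R) ^ n ∣ r) → r = 0)
    (hM : ∀ z : M, ∃ n : ℕ, p ^ n • z = 0)
    (htriv : ∀ (σ : Γ) (z : M), σ • z = z)
    (h : HasConnOrder R Γ A M) (z : M) : z = 0 := by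
  obtain ⟨H, hH, hc⟩ := h
  exact eq_zero_of_isConn p hp2 hW hunr hsep hM htriv hH hc z

/-- **no unramified subquotients**: if `G` carries a connected Hopf order, every `Γ`-equivariant
subquotient `Q` of a finite power `G^ι` which is a `p`-group with trivial action of `Γ` is zero
(`S ↪ G^ι` the subgroup, `S ↠ Q` the quotient). -/
theorem HasConnOrder.subquotient_eq_zero [CharZero Kbar] [IsDomain R] [IsPrincipalIdealRing R]
    [Infinite R] {K : Type*} [Field K] [Algebra R K] [IsFractionRing R K] [Algebra K Kbar]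
    [IsScalarTower R K Kbar]
    (hfix : ∀ x : Kbar, (∀ σ : Γ, σ • x = x) → x ∈ (algebraMap K Kbar).range)
    (p : ℕ) [Fact p.Prime] (hp2 : p ≠ 2)
    (hW : IsFixedRing Γ A R)
    (hunr : ∀ r : R, algebraMap R Kbar r ∈ A.nonunits → (p : R) ∣ r)
    (hsep : ∀ r : R, (∀ n : ℕ, (p : R) ^ n ∣ r) → r = 0)
    {G : Type*} [AddCommGroup G] [Finite G] [DistribMulAction Γ G] (hG : HasConnOrder R Γ A G)
    (ι : Type*) [Finite ι]
    {S : Type*} [AddCommGroup S] [DistribMulAction Γ S] (j : S →+ (ι → G))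
    (hj : Function.Injective j) (hjΓ : ∀ (σ : Γ) (s : S), j (σ • s) = σ • j s)
    {Q : Type*} [AddCommGroup Q] [DistribMulAction Γ Q] (q : S →+ Q)
    (hq : Function.Surjective q) (hqΓ : ∀ (σ : Γ) (s : S), q (σ • s) = σ • q s)
    (hQ : ∀ y : Q, ∃ n : ℕ, p ^ n • y = 0) (htriv : ∀ (σ : Γ) (y : Q), σ • y = y) (y : Q) :
    y = 0 := by
  have hRA : ∀ r : R, algebraMap R Kbar r ∈ A := fun r => hW.mem r
  haveI : Finite S := Finite.of_injective j hj
  haveI : Finite Q := Finite.of_surjective q hq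
  have hS : HasConnOrder R Γ A S := (hG.pow hRA ι).of_injective j hj hjΓ
  have hQ' : HasConnOrder R Γ A Q := hS.quotient (K := K) hfix q hq hqΓ
  exact hQ'.eq_zero p hp2 hW hunr hsep hQ htriv y

end Has

end Fermat.Agent.T33.ConnOrd2
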