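/-
Programme T (S33), nodal layer, contract (c) (helper6): **the abstract nodal curve over `κ`**
(two smooth components glued along finitely many pairs of points) — definitions and the literal
CONTRACTS of the chapter "nodal Riemann inequality + non-special smooth points".

Pure function-field language, nothing about the model: `F1 / κ`, `F2 / κ` are the function fields
of the two components `C₁`, `C₂` of the special fibre `X̃`; the nodes are pairs of places
`(s1 i, s2 i)`, `i : ι`.

* `NodalData κ F1 F2 ι`           : the gluing datum;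
* `NDiv κ F1 F2`                  : divisors on the normalisation `C₁ ⊔ C₂`; `NDiv.degree`;
* `NodalData.Avoids`              : the support misses the nodes;
* `vanishing v`                   : the `κ`-subspace of functions vanishing at the place `v`;
* `NodalData.compat`              : pairs `(f₁, f₂)` regular at all nodes with `f₁(s1 i) = f₂(s2 i)`;
* `NodalData.L D`                 : `L^nod(D) = (L(D₁) × L(D₂)) ⊓ compat` = `H⁰(X̃, O(D))`;
* `NodalData.ell`, `NodalData.delta g` : `l^nod(D)` and `δ_g(D) = l^nod(D) - (deg D + 1 - g)`;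
* `npts T1 T2`                    : the reduced nodal divisor `∑_{P ∈ T1} P + ∑_{P ∈ T2} P`;
* contracts (as `Prop`s): `RiemannNod`, `RiemannEqLarge`, `NonSpecialExists`, `LiftBound`.
-/
import Mathlib
import Fermat.Agent.FF.RedLat2B
import Fermat.Agent.FF.SpecRR1B

set_option autoImplicit false

open AlgebraicCurve

noncomputable section

namespace Fermat.Agent.T33.NodalCurve6

open Fermat.Agent.X0.FF Fermat.Agent.RR.LSpace Fermat.Agent.FF.RedLat2 Fermat.Agent.FF.SpecRR1

/-! ### functions vanishing at a place -/

section Vanishing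

variable {K F : Type*} [Field K] [Field F] [Algebra K F]

/-- the functions vanishing at `v` (the maximal ideal of `O_v`, as a `K`-subspace of `F`). -/
def vanishing (v : Place K F) : Submodule K F where
  carrier := {x | x = 0 ∨ 0 < v.ord x}
  zero_mem' := Or.inl rfl
  add_mem' := by
    rintro x y hx hy
    by_cases hxy : x + y = 0
    · exact Or.inl hxy
    right
    rcases hx with rfl | hx
    · rcases hy with rfl | hy
      · exact absurd (add_zero (0 : F)) hxy
      · rwa [zero_add]
    rcases hy with rfl | hy
    · rwa [add_zero]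
    exact lt_of_lt_of_le (lt_min hx hy) (ord_add_ge v hxy)
  smul_mem' := by
    rintro c x hx
    rcases hx with rfl | hx
    · exact Or.inl (smul_zero c)
    by_cases hc : c = 0
    · left; rw [hc, zero_smul]
    right
    have hx0 : x ≠ 0 := by
      rintro rfl
      rw [Place.ord_zero] at hx
      exact lt_irrefl _ hx
    have hc0 : algebraMap K F c ≠ 0 := fun h =>
      hc ((map_eq_zero (algebraMap K F)).1 h)
    rw [Algebra.smul_def, v.ord_mul hc0 hx0, ord_algebraMap, zero_add]
    exact hx

theorem mem_vanishing {v : Place K F} {x : F} : x ∈ vanishing v ↔ (x = 0 ∨ 0 < v.ord x) :=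
  Iff.rfl

end Vanishing

/-! ### the nodal curve -/

section Nodal

variable (κ F1 F2 : Type*) [Field κ] [Field F1] [Field F2] [Algebra κ F1] [Algebra κ F2]

/-- the gluing datum of a nodal curve with two smooth components: the `i`-th node is obtained by
identifying the place `s1 i` of the first component with the place `s2 i` of the second. -/
structure NodalData (ι : Type*) where
  s1 : ι → Place κ F1
  s2 : ι → Place κ F2
  s1_inj : Function.Injective s1
  s2_inj : Function.Injective s2

/-- divisors on the normalisation `C₁ ⊔ C₂`. -/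
abbrev NDiv : Type _ := Divisor κ F1 × Divisor κ F2

variable {κ F1 F2}

/-- the total degree of a nodal divisor. -/
def NDiv.degree (D : NDiv κ F1 F2) : ℤ := Divisor.degree D.1 + Divisor.degree D.2

/-- the reduced nodal divisor of two finite sets of points. -/
def npts (T1 : Finset (Place κ F1)) (T2 : Finset (Place κ F2)) : NDiv κ F1 F2 :=
  (pts T1, pts T2)

namespace NodalData

variable {ι : Type*} (N : NodalData κ F1 F2 ι)

/-- the support of `D` misses the nodes. -/
def Avoids (D : NDiv κ F1 F2) : Prop :=
  (∀ i, D.1 (N.s1 i) = 0) ∧ (∀ i, D.2 (N.s2 i) = 0)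

/-- smooth points of the first component. -/
def Smooth1 (P : Place κ F1) : Prop := ∀ i, P ≠ N.s1 i

/-- smooth points of the second component. -/
def Smooth2 (P : Place κ F2) : Prop := ∀ i, P ≠ N.s2 i

/-- the pairs `(f₁, f₂)` with a common value at the `i`-th node. -/
def compatAt (i : ι) : Submodule κ (F1 × F2) where
  carrier := {f | ∃ c : κ, f.1 - algebraMap κ F1 c ∈ vanishing (N.s1 i) ∧
    f.2 - algebraMap κ F2 c ∈ vanishing (N.s2 i)}
  zero_mem' := ⟨0, by simp, by simp⟩
  add_mem' := by
    rintro f f' ⟨c, h1, h2⟩ ⟨c', h1', h2'⟩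
    refine ⟨c + c', ?_, ?_⟩
    · have : (f + f').1 - algebraMap κ F1 (c + c') =
          (f.1 - algebraMap κ F1 c) + (f'.1 - algebraMap κ F1 c') := by
        rw [map_add, Prod.fst_add]; ring
      rw [this]
      exact Submodule.add_mem _ h1 h1'
    · have : (f + f').2 - algebraMap κ F2 (c + c') =
          (f.2 - algebraMap κ F2 c) + (f'.2 - algebraMap κ F2 c') := by
        rw [map_add, Prod.snd_add]; ring
      rw [this]
      exact Submodule.add_mem _ h2 h2'
  smul_mem' := by
    rintro a f ⟨c, h1, h2⟩
    refine ⟨a * c, ?_, ?_⟩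
    · have : (a • f).1 - algebraMap κ F1 (a * c) = a • (f.1 - algebraMap κ F1 c) := by
        rw [Prod.smul_fst, smul_sub, map_mul, Algebra.smul_def a (algebraMap κ F1 c)]
      rw [this]
      exact Submodule.smul_mem _ a h1
    · have : (a • f).2 - algebraMap κ F2 (a * c) = a • (f.2 - algebraMap κ F2 c) := by
        rw [Prod.smul_snd, smul_sub, map_mul, Algebra.smul_def a (algebraMap κ F2 c)]
      rw [this]
      exact Submodule.smul_mem _ a h2

/-- the pairs `(f₁, f₂)` regular at all the nodes, with `f₁(s1 i) = f₂(s2 i)`. -/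
def compat : Submodule κ (F1 × F2) := ⨅ i, N.compatAt i

/-- **`L^nod(D)`**: the sections of `O(D)` on the nodal curve. -/
def L (D : NDiv κ F1 F2) : Submodule κ (F1 × F2) :=
  Submodule.prod (riemannRochSpace D.1) (riemannRochSpace D.2) ⊓ N.compat

theorem mem_L {D : NDiv κ F1 F2} {f : F1 × F2} :
    f ∈ N.L D ↔ f.1 ∈ riemannRochSpace D.1 ∧ f.2 ∈ riemannRochSpace D.2 ∧
      ∀ i, f ∈ N.compatAt i := by
  unfold L compat
  rw [Submodule.mem_inf, Submodule.mem_prod, Submodule.mem_iInf, and_assoc]

/-- `l^nod(D)`. -/
def ell (D : NDiv κ F1 F2) : ℤ := (Module.finrank κ (N.L D) : ℤ)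

/-- `δ_g(D) = l^nod(D) - (deg D + 1 - g)`. -/
def delta (g : ℤ) (D : NDiv κ F1 F2) : ℤ := N.ell D - (NDiv.degree D + 1 - g)

/-! ### the contracts of chapter (c) -/

/-- **(C1) nodal Riemann inequality** with the constant `g` (to be used with `g` = the genus of
the generic fibre). -/
def RiemannNod (g : ℤ) : Prop :=
  ∀ D : NDiv κ F1 F2, N.Avoids D → NDiv.degree D + 1 - g ≤ N.ell D

/-- **(C2) nodal Riemann theorem in large bidegree**: `l^nod(D) = deg D + 1 - g` as soon as the
degree on EACH component is at least `c`. -/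
def RiemannEqLarge (g : ℤ) : Prop :=
  ∃ c : ℤ, ∀ D : NDiv κ F1 F2, N.Avoids D → c ≤ Divisor.degree D.1 → c ≤ Divisor.degree D.2 →
    N.ell D = NDiv.degree D + 1 - g

/-- **(C3) non-special smooth points**: inside any two infinite sets of smooth points of the two
components there are `g` distinct points whose sum `Ē` satisfies `L^nod(Ē) = κ`.  (The
multidegree `(#T1, #T2)` is found by the greedy algorithm; it is NOT prescribed.) -/
def NonSpecialExists (g : ℕ) : Prop :=
  ∀ (X1 : Set (Place κ F1)) (X2 : Set (Place κ F2)), X1.Infinite → X2.Infinite →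
    (∀ P ∈ X1, N.Smooth1 P) → (∀ P ∈ X2, N.Smooth2 P) →
    ∃ (T1 : Finset (Place κ F1)) (T2 : Finset (Place κ F2)),
      (↑T1 ⊆ X1) ∧ (↑T2 ⊆ X2) ∧ T1.card + T2.card = g ∧ N.ell (npts T1 T2) = 1

/-- **(N1′) the lifting bound** (`p_a(X̃) ≤ g`): for SOME nodal divisor that is large on both
components, `δ_g ≤ 0` with `g` the genus of the generic fibre.  To be produced from the two-chart
model by `GoodRed8.lifting` with `Fb := F1 × F2`. -/
def LiftBound (g : ℤ) : Prop :=
  ∀ c : ℤ, ∃ D : NDiv κ F1 F2, N.Avoids D ∧ c ≤ Divisor.degree D.1 ∧ c ≤ Divisor.degree D.2 ∧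
    N.delta g D ≤ 0

end NodalData

end Nodal

end Fermat.Agent.T33.NodalCurve6
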