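/-
Programme T (S33), nodal layer, contract (a) (helper1): **the two-component nodal reduction
context.**  Definitions only (no theorem of the nodal chapters is proved here).

Setting: `K` a field with a valuation subring `A`, `κ = ResidueField A`; `F / K` a function field
(Prelude `AlgebraicCurve.Place`), `Fb₁ / κ`, `Fb₂ / κ` the function fields of the two components
`C₁`, `C₂` of the special fibre, `Nd : NodalData κ Fb₁ Fb₂ ι` the nodes (helper6's
`T33/NodalCurve6`).  Mirror of helper2's `FF/RedLat2A.AbsRed` (one component, smooth fibre), with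
the single total reduction map on places replaced by two PARTIAL ones.

* `HalfRed A F Fb` : ONE Gauss ring `O ⊆ F` with its reduction `ρ : O →+* Fb`, kernel `𝔪_A O`, and
  the Gauss property for `O` alone (every `f ≠ 0` is a constant times an element of `O` with nonzero
  reduction).  This is `AbsRed` without the reduction of places.
* `NodalRed A F Nd` : two `HalfRed`s `c₁`, `c₂`, the partial reductions of places
  `r₁ : Place K F → Option (Place κ Fb₁)`, `r₂` (a place reduces to a point of `C₁`, of `C₂`, or of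
  both — exactly when the point is a node), and TWO axioms:
  - `push₁`, `push₂` (**push-forward at the smooth points of one component**): for `y ∈ O_i` with
    `ρ_i y ≠ 0` and `Q` a smooth point of `C_i` (not a branch of a node),
    `∑_{r_i P = Q} ord_P y = ord_Q (ρ_i y)`  (only `O_i`-integrality is needed);
  - `glue` (**the node axiom**): for `y ∈ O₁ ∩ O₂` without poles over the `i`-th node,
    `(ρ₁ y, ρ₂ y) ∈ Nd.compatAt i`: the two reductions are regular at the branches `s1 i`, `s2 i`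
    and take the same value there.
  No thickness, no slope, no annulus appears: the sign bookkeeping that the chapters (b), (d) need
  is a CONSEQUENCE of `glue` (`SlopeDichotomy`, `WeakGauss` below; both are proved from the axioms
  in `T33/NodalAbs1A`).
* `NodalRed.Compat N γ` : a family of semilinear automorphisms (the inertia group) preserving the
  two Gauss rings, acting trivially after reduction and on the reduction of places.
* contracts (Prop-valued definitions): `SlopeDichotomy`, `WeakGauss`.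

WHY `glue` IS TRUE (analytic picture): `y` is bounded by `1` at the two Gauss points and has no pole
on the open annulus over the node, hence `|y| ≤ 1` on the annulus (convexity); in the Laurent
expansion `y = ∑ aₙ xⁿ` one gets `|aₙ| ≤ 1` for `n ≥ 0` and `|aₙ| ≤ |π|^{k|n|}` for `n < 0`, so
`ρ₁ y = ∑_{n ≥ 0} āₙ x̄ⁿ` and `ρ₂ y = ∑_{n ≤ 0} (…) ȳ^{-n}` are regular with the common value `ā₀`.
ALGEBRAICALLY it is the normality of the model at the node: `y ∈ O₁ ∩ O₂` and `y` in all horizontal
valuation rings through the node imply `y ∈ O_{X,s}`, and `ρ_i y` is the image of `y` in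
`O_{X,s} / 𝔭_i`.
-/
import Mathlib
import Fermat.Prelude.Def_AlgebraicCurve_DivisorClassGroup
import Fermat.Prelude.Def_AlgebraicCurve_BaseChangeGalois
import Fermat.Agent.T33.NodalCurve6

set_option autoImplicit false

open AlgebraicCurve IsLocalRing

namespace Fermat.Agent.T33.NodalCtx1

open Fermat.Agent.T33.NodalCurve6

variable {K : Type*} [Field K] (A : ValuationSubring K)
variable (F : Type*) [Field F] [Algebra K F]

/-- one component of the special fibre: a Gauss ring with its reduction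
(`FF/RedLat2A.AbsRed` without the reduction of places). -/
structure HalfRed (Fb : Type*) [Field Fb] [Algebra (ResidueField A) Fb] where
  /-- the Gauss ring of the component. -/
  O : Subring F
  /-- the reduction to the function field of the component. -/
  ρ : O →+* Fb
  algebraMap_mem : ∀ a : A, algebraMap K F (a : K) ∈ O
  ρ_algebraMap : ∀ a : A, ρ ⟨algebraMap K F (a : K), algebraMap_mem a⟩ =
    algebraMap (ResidueField A) Fb (residue A a)
  /-- the kernel of the reduction is `𝔪_A O`. -/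
  ρ_ker : ∀ y : O, ρ y = 0 → ∃ c : A, c ∈ maximalIdeal A ∧ ∃ y' : O,
    (y : F) = algebraMap K F (c : K) * (y' : F)
  /-- every nonzero function is a constant times an element of `O` with nonzero reduction. -/
  gauss : ∀ f : F, f ≠ 0 → ∃ c : K, c ≠ 0 ∧ ∃ h : algebraMap K F c * f ∈ O,
    ρ ⟨algebraMap K F c * f, h⟩ ≠ 0

variable {F}
variable {Fb₁ Fb₂ : Type*} [Field Fb₁] [Field Fb₂]
  [Algebra (ResidueField A) Fb₁] [Algebra (ResidueField A) Fb₂]
variable {ι : Type*}

variable (F) in
/-- **the two-component nodal reduction context** over the nodal curve `Nd`. -/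
structure NodalRed (Nd : NodalData (ResidueField A) Fb₁ Fb₂ ι) where
  /-- the component `C₁` (for `X₀(pM')`: the `q`-expansion Gauss valuation at `∞`). -/
  c₁ : HalfRed A F Fb₁
  /-- the component `C₂` (for `X₀(pM')`: the Fricke image of `c₁`). -/
  c₂ : HalfRed A F Fb₂
  /-- the special fibre is connected. -/
  node_nonempty : Nonempty ι
  /-- the point of `C₁` to which a place reduces, if it reduces to `C₁`. -/
  r₁ : Place K F → Option (Place (ResidueField A) Fb₁)
  /-- the point of `C₂` to which a place reduces, if it reduces to `C₂`. -/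
  r₂ : Place K F → Option (Place (ResidueField A) Fb₂)
  /-- every place reduces somewhere. -/
  total : ∀ P : Place K F, r₁ P ≠ none ∨ r₂ P ≠ none
  /-- a place reduces to both components exactly at a node. -/
  node_iff : ∀ (P : Place K F) (i : ι), r₁ P = some (Nd.s1 i) ↔ r₂ P = some (Nd.s2 i)
  smooth₁ : ∀ (P : Place K F) (Q : Place (ResidueField A) Fb₁), r₁ P = some Q →
    Nd.Smooth1 Q → r₂ P = none
  smooth₂ : ∀ (P : Place K F) (Q : Place (ResidueField A) Fb₂), r₂ P = some Q →
    Nd.Smooth2 Q → r₁ P = none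
  /-- **push-forward at the smooth points of `C₁`**, for `O₁`-integral functions. -/
  push₁ : ∀ y : c₁.O, c₁.ρ y ≠ 0 → ∀ Q : Place (ResidueField A) Fb₁, Nd.Smooth1 Q →
    ∀ (D : Divisor K F), (∀ P, D P = P.ord (y : F)) →
      ∀ T : Finset (Place K F), (∀ P, P ∈ T ↔ P ∈ D.support ∧ r₁ P = some Q) →
        ∑ P ∈ T, D P = Q.ord (c₁.ρ y)
  /-- **push-forward at the smooth points of `C₂`**, for `O₂`-integral functions. -/
  push₂ : ∀ y : c₂.O, c₂.ρ y ≠ 0 → ∀ Q : Place (ResidueField A) Fb₂, Nd.Smooth2 Q →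
    ∀ (D : Divisor K F), (∀ P, D P = P.ord (y : F)) →
      ∀ T : Finset (Place K F), (∀ P, P ∈ T ↔ P ∈ D.support ∧ r₂ P = some Q) →
        ∑ P ∈ T, D P = Q.ord (c₂.ρ y)
  /-- **the node axiom**: a function of `O₁ ∩ O₂` without poles over a node has reductions
  regular at the two branches, with the same value there. -/
  glue : ∀ (i : ι) (y : F) (h₁ : y ∈ c₁.O) (h₂ : y ∈ c₂.O),
    (∀ P : Place K F, r₁ P = some (Nd.s1 i) → y = 0 ∨ 0 ≤ P.ord y) →
      ((c₁.ρ ⟨y, h₁⟩, c₂.ρ ⟨y, h₂⟩) : Fb₁ × Fb₂) ∈ Nd.compatAt i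

namespace NodalRed

variable {A}
variable {Nd : NodalData (ResidueField A) Fb₁ Fb₂ ι} (N : NodalRed A F Nd)

/-- the place `P` reduces to a smooth point of the special fibre. -/
def IsSmoothRed (P : Place K F) : Prop :=
  (∃ Q, N.r₁ P = some Q ∧ Nd.Smooth1 Q) ∨ (∃ Q, N.r₂ P = some Q ∧ Nd.Smooth2 Q)

/-- the place `P` reduces to the `i`-th node. -/
def RedToNode (P : Place K F) (i : ι) : Prop := N.r₁ P = some (Nd.s1 i)

/-- the semilocal ring `O₁ ∩ O₂` of the two generic points of the special fibre. -/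
def O : Subring F := N.c₁.O ⊓ N.c₂.O

/-- compatibility of a family of semilinear automorphisms (the inertia group) with the context:
the Gauss rings are preserved, the action is trivial after reduction and on the reduction of
places. -/
structure Compat {Γ : Type*} (γ : Γ → SemilinearAut K F) : Prop where
  baseAut_mem : ∀ (σ : Γ) (a : K), a ∈ A → SemilinearAut.baseAut (γ σ) a ∈ A
  smul_mem₁ : ∀ (σ : Γ) (y : F), y ∈ N.c₁.O → γ σ • y ∈ N.c₁.O
  smul_mem₂ : ∀ (σ : Γ) (y : F), y ∈ N.c₂.O → γ σ • y ∈ N.c₂.O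
  ρ₁_smul : ∀ (σ : Γ) (y : F) (h : y ∈ N.c₁.O) (h' : γ σ • y ∈ N.c₁.O),
    N.c₁.ρ ⟨γ σ • y, h'⟩ = N.c₁.ρ ⟨y, h⟩
  ρ₂_smul : ∀ (σ : Γ) (y : F) (h : y ∈ N.c₂.O) (h' : γ σ • y ∈ N.c₂.O),
    N.c₂.ρ ⟨γ σ • y, h'⟩ = N.c₂.ρ ⟨y, h⟩
  r₁_smul : ∀ (σ : Γ) (P : Place K F), N.r₁ (γ σ • P) = N.r₁ P
  r₂_smul : ∀ (σ : Γ) (P : Place K F), N.r₂ (γ σ • P) = N.r₂ P

/-! ### contracts: consequences of the axioms that the chapters (b), (d) consume -/

/-- **(a1) slope dichotomy at a node** (replaces thickness/annuli): let `f ≠ 0` have no pole over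
the `i`-th node, and let `u₁ = c₁ f`, `u₂ = c₂ f` be its normalisations on the two components.  If
`c₁ / c₂ ∈ 𝔪_A` then `ρ₁ u₁` vanishes at `s1 i`; if `c₂ / c₁ ∈ 𝔪_A` then `ρ₂ u₂` vanishes at
`s2 i`; if `c₁ / c₂` is a unit of `A` both are regular at the branches. -/
def SlopeDichotomy : Prop :=
  ∀ (i : ι) (f : F), f ≠ 0 → (∀ P : Place K F, N.RedToNode P i → 0 ≤ P.ord f) →
    ∀ (c₁ c₂ : K) (h₁ : algebraMap K F c₁ * f ∈ N.c₁.O) (h₂ : algebraMap K F c₂ * f ∈ N.c₂.O),
      N.c₁.ρ ⟨_, h₁⟩ ≠ 0 → N.c₂.ρ ⟨_, h₂⟩ ≠ 0 →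
        ((c₁ / c₂ ∈ A ∧ (c₁ / c₂)⁻¹ ∉ A) → 0 < (Nd.s1 i).ord (N.c₁.ρ ⟨_, h₁⟩)) ∧
        ((c₂ / c₁ ∈ A ∧ (c₂ / c₁)⁻¹ ∉ A) → 0 < (Nd.s2 i).ord (N.c₂.ρ ⟨_, h₂⟩)) ∧
        ((c₁ / c₂ ∈ A ∧ c₂ / c₁ ∈ A) →
          0 ≤ (Nd.s1 i).ord (N.c₁.ρ ⟨_, h₁⟩) ∧ 0 ≤ (Nd.s2 i).ord (N.c₂.ρ ⟨_, h₂⟩))

/-- **(a2) weak Gauss property**: a function whose divisor is supported at places of smooth
reduction and pushes forward to `0` on both components is a constant times a unit of `O₁ ∩ O₂`
whose two reductions are the same nonzero CONSTANT (this replaces the field `gauss` of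
`FF/GeomIface8.DiscModel` in the MEANING chapter, and gives `θ(x) ∈ ker Ψ_m`). -/
def WeakGauss : Prop :=
  ∀ f : F, f ≠ 0 → (∀ P : Place K F, P.ord f ≠ 0 → N.IsSmoothRed P) →
    (∀ (Q : Place (ResidueField A) Fb₁) (T : Finset (Place K F)),
      (∀ P, P ∈ T ↔ P.ord f ≠ 0 ∧ N.r₁ P = some Q) → ∑ P ∈ T, P.ord f = 0) →
    (∀ (Q : Place (ResidueField A) Fb₂) (T : Finset (Place K F)),
      (∀ P, P ∈ T ↔ P.ord f ≠ 0 ∧ N.r₂ P = some Q) → ∑ P ∈ T, P.ord f = 0) →
    ∃ (c : K) (h₁ : algebraMap K F c * f ∈ N.c₁.O) (h₂ : algebraMap K F c * f ∈ N.c₂.O)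
      (a : A), a ∉ maximalIdeal A ∧
        N.c₁.ρ ⟨_, h₁⟩ = algebraMap (ResidueField A) Fb₁ (residue A a) ∧
        N.c₂.ρ ⟨_, h₂⟩ = algebraMap (ResidueField A) Fb₂ (residue A a)

end NodalRed

end Fermat.Agent.T33.NodalCtx1
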