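/-
Programme T (S33), chapter (e) "N34 over Qbar", file 1 (helper4): **the residue field of the Gauss
valuation at `∞` of the BAD level `M' p` is the special-fibre function field of the GOOD level
`M'`.**

`A` a valuation subring of `ℚ̄` over the odd prime `p`, `p ∤ M'`, `4 ∣ M'`.  Every function of
`Fbar (M' * p) = ℚ̄·F_{M'p}` with `A`-integral `q`-expansion reduces into
`κ·F̃_{M'} = modularFunctionFieldFullC κ M'` (`κ` the residue field of `A`): the first Gauss valuation
`v₁` of `X₀(M'p)` has residue degree ONE over the Gauss valuation of `X₀(M')`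
(`ES/N34/CombA26.hcomb_four`: `O1 = alpha (O_{M'}) + π O1` at every large number field), and the
residue field of the good level is `κ·F̃_{M'}` (`ES/RED/GaussUnit25.resField_FK_eq`).

This is what allows the component `C₁` of the special fibre of `X₀(M'p)` to be the curve
`X₀(M')_κ` of FF / ES-RED, with its places, its Riemann–Roch and its reduction map.
-/
import Mathlib
import Fermat.Agent.ES.N34.CombA26
import Fermat.Agent.ES.RED.ChartIntegralA1
import Fermat.Agent.ES.P36.CoeffField4
import Fermat.Agent.ES.RED.Setup8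
import Fermat.Agent.Lib.FrobeniusExists

set_option autoImplicit false
set_option linter.unusedSectionVars false
set_option linter.style.haveILetI false
set_option synthInstance.maxHeartbeats 400000

noncomputable section

namespace Fermat.Agent.T33.ResField4

open HahnSeries ModularCurve IntermediateField
open Fermat.Agent.RED.Interface4 Fermat.Agent.RED.PUR.GaussGen8 Fermat.Agent.RED.PUR.GaussBridge10
  Fermat.Agent.RED.DESC Fermat.Agent.RED.DESC.PlaceExtend27 Fermat.Agent.RED.DESC.NumberFieldDVR27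
  Fermat.Agent.ES.RED Fermat.Agent.ES.N34.ModelDefs9 Fermat.Agent.ES.N34.CombA26

variable (p M' : ℕ) [NeZero M'] [NeZero p] (A : ValuationSubring Qbar)

/-- **At one large number field**: the Gauss residue of an `(A ∩ K)`-integral element of
`K·F_{M'p}` lies in `κ_K·F̃_{M'}`. -/
theorem redL_mem_fullC_of_hcomb (hp : p.Prime) (hpM : ¬ p ∣ M') (hA : A.LiesOverPrime p)
    (K : IntermediateField ℚ Qbar) [FiniteDimensional ℚ K]
    (ht : Fermat.Agent.RED.BASE.EtaQuot12.tq (↥K) 4 8 ∈ FK M' K)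
    (hC : HcombAt 4 8 p M' A K)
    (Y₀ : LaurentSeries ↥(AK A K)) (hY₀ : embK (AK A K) Y₀ ∈ FK (M' * p) K) :
    redL (AK A K) Y₀ ∈ modularFunctionFieldFullC (Res (AK A K)) M' := by
  haveI : Fact p.Prime := ⟨hp⟩
  haveI hdvr : IsDiscreteValuationRing ↥(AK A K) :=
    isDiscreteValuationRing_AK A K hp.ne_zero hA
  obtain ⟨π, hπirr⟩ := IsDiscreteValuationRing.exists_irreducible ↥(AK A K)
  have hπ : IsUnif (AK A K) π := isUnif_of_irreducible (AK A K) hπirr
  have hE : FK (M' * p) K ≤ fracField (AK A K) := FK_le_fracField A K (M' * p)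
  set x : FK (M' * p) K := ⟨embK (AK A K) Y₀, hY₀⟩ with hx
  have hx1 : x ∈ O1 M' p hπ hE := by
    rw [mem_O1_iff]
    exact embK_mem (AK A K) Y₀
  obtain ⟨z, hz, c, hc, hxz⟩ := hC ht hE π hπ x hx1
  rw [mem_O1_iff] at hc
  -- the relation in `K((q))`
  have hrel : embK (AK A K) Y₀ =
      (z : LaurentSeries ↥K) + piK π * (c : LaurentSeries ↥K) := by
    have h1 := congrArg (fun w : FK (M' * p) K => (w : LaurentSeries ↥K)) hxz
    simp only [AddSubgroupClass.coe_sub, MulMemClass.coe_mul, coe_alpha] at h1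
    have h2 : ((algebraMap ↥(AK A K) ↥(FK (M' * p) K) π : FK (M' * p) K) : LaurentSeries ↥K) =
        piK π := by
      rw [piK, ← algebraMap_eq_C]
      rfl
    rw [h2] at h1
    have h3 : ((x : FK (M' * p) K) : LaurentSeries ↥K) = embK (AK A K) Y₀ := rfl
    rw [h3] at h1
    rw [← h1]
    ring
  -- reduce
  have hred : redL (AK A K) Y₀ = gaussRed (AK A K) ⟨(z : LaurentSeries ↥K), hz⟩ := by
    rw [← gaussRed_embK]
    have h4 : (⟨embK (AK A K) Y₀, embK_mem (AK A K) Y₀⟩ : gaussRing (AK A K)) =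
        ⟨(z : LaurentSeries ↥K), hz⟩ + constG (AK A K) π * ⟨(c : LaurentSeries ↥K), hc⟩ :=
      Subtype.ext hrel
    rw [h4, map_add, map_mul, gaussRed_unif hπ, zero_mul, add_zero]
  rw [hred, ← GaussUnit25.resField_FK_eq A K p hA M' hpM]
  exact ⟨(z : LaurentSeries ↥K), hz, z.2, rfl⟩

variable {p M' A}

/-- **The residue field of `v₁` at the bad level `M' p` is `κ·F̃_{M'}`**: reductions of
`A`-integral functions of level `M' p` lie in the special-fibre function field of level `M'`. -/
theorem redA_mem_fullC [NeZero (M' * p)] (hp : p.Prime) (hpM : ¬ p ∣ M') (hM : 4 ∣ M')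
    (hA : A.LiesOverPrime p) (a : ↥(Setup8.gaussA A (Fbar (M' * p)))) :
    Setup8.redA A (Fbar (M' * p)) a ∈ modularFunctionFieldFullC (Setup8.kA A) M' := by
  obtain ⟨K₁, hK₁fin, hC⟩ := hcomb_four (q := p) (M' := M') (A := A) hp hpM hM hA
  haveI := hK₁fin
  obtain ⟨K₂, hfin₂, hK₁K₂, HK⟩ := UnifDescent14.exists_descent_ge (M' * p) K₁
    ((a : ↥(Setup8.gaussA A (Fbar (M' * p)))) : Fbar (M' * p))
  haveI := hfin₂
  have hgal : IsGalois ℚ Qbar := Fermat.Agent.Lib.FrobeniusExists.isGalois_Qbar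
  have hnorQ : Normal ℚ Qbar := hgal.to_normal
  have halgQ : Algebra.IsAlgebraic ℚ Qbar := NumberFieldDVR27.isAlgebraic_Qbar
  let K : IntermediateField ℚ Qbar := IntermediateField.normalClosure ℚ K₂ Qbar
  have hK₂K : K₂ ≤ K := IntermediateField.le_normalClosure K₂
  haveI hfinK : FiniteDimensional ℚ K := normalClosure.is_finiteDimensional ℚ K₂ Qbar
  haveI hnorK : Normal ℚ K := normalClosure.normal ℚ K₂ Qbar
  obtain ⟨x, hx⟩ := HK K hK₂K
  obtain ⟨Y₀, hY₀, hY⟩ := ChartIntegralA1.exists_embK_of_baseChangeHom A (M' * p) K x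
    (Setup8.liftA A (Fbar (M' * p)) a) (by rw [Setup8.coeffMap_liftA, hx])
  have hCK : HcombAt 4 8 p M' A K := hC K hfinK (hK₁K₂.trans hK₂K)
  have ht := Fermat.Agent.ES.P36.CoeffField4.tq_mem_FK 4 8 M'
    (Fermat.Agent.RED.BASE.MainCusp12.base_four M' hM).1.mem K
  have hmem := redL_mem_fullC_of_hcomb p M' A hp hpM hA K ht hCK Y₀ (by rw [hY₀]; exact x.2)
  have h5 : Setup8.redA A (Fbar (M' * p)) a =
      coeffMap (NumberFieldDVR27.resMap A K) (redL (AK A K) Y₀) := by
    rw [Setup8.redA_eq A (Fbar (M' * p)) a (Setup8.coeffMap_liftA A (Fbar (M' * p)) a), ← hY]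
    exact GaussUnit25.coeffMap_residue_incl A K Y₀
  rw [h5]
  exact ResidueUnion1.coeffMap_resMap_mem_fullC A M' K hmem

end Fermat.Agent.T33.ResField4
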