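/-
Programme T (S33), chapter (e) "N34 over Qbar", file 2 (helper4): **the two Gauss rings of
`X₀(M'p)` over `ℚ̄` as `NodalCtx1.HalfRed`s with values in the function field of `X₀(M')_κ`.**

Level data `LevelHyp p M' A`: `p` an odd prime, `p ∤ M'`, `4 ∣ M'`, `A` a valuation subring of `ℚ̄`
over `p`; `N = M' * p`, `F = Fbar N`, `κ = kA A`, `Fb A M' = ↥(modularFunctionFieldFullC κ M')`
(the special-fibre field of the GOOD level `M'`, the type used by FF / ES-RED).

* `redN h : gaussA A (Fbar N) →+* Fb A M'` — coefficientwise reduction of `A`-integral functions of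
  level `N`, with values in `κ·F̃_{M'}` (`ResField4.redA_mem_fullC`);
* `O1 h = GaussOv1.fracRing (gaussA A (Fbar N)) (redN h)`, `rho1 h = GaussOv1.fracRed …` —
  the Gauss valuation ring of the expansion at `∞` and its reduction (same SET as helper3's
  `Psi3C` Gauss ring: `mem_O1_iff_redA`);
* `O2 h = (O1 h).comap (frickeBar N)`, `rho2 h = rho1 h ∘ W_N`;
* `comapHalfRed` : transport of a `HalfRed` along a `K`-algebra automorphism;
* `c1 h, c2 h : HalfRed A (Fbar N) (Fb A M')` — the two components of `NodalCtx1.NodalRed`.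
-/
import Mathlib
import Fermat.Agent.T33.ResField4
import Fermat.Agent.T33.NodalCtx1
import Fermat.Agent.FF.GaussOv1B
import Fermat.Agent.ES.N34.FrickeFK8

set_option autoImplicit false
set_option linter.unusedSectionVars false
set_option linter.style.haveILetI false
set_option linter.unusedVariables false
set_option synthInstance.maxHeartbeats 400000

noncomputable section

namespace Fermat.Agent.T33.NodalHalf4

open HahnSeries ModularCurve AlgebraicCurve IsLocalRing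
open Fermat.Agent.RED.Interface4 Fermat.Agent.ES.RED Fermat.Agent.FF.GaussOv1
  Fermat.Agent.ES.N34.FrickeFK8 Fermat.Agent.T33.NodalCtx1

/-! ### transport of a `HalfRed` along an automorphism -/

section Transport

variable {K : Type*} [Field K] {A : ValuationSubring K} {F : Type*} [Field F] [Algebra K F]
  {Fb : Type*} [Field Fb] [Algebra (ResidueField A) Fb]

/-- the restriction `w : O.comap w → O`. -/
def comapHom (O : Subring F) (w : F ≃ₐ[K] F) : ↥(O.comap (w : F →+* F)) →+* ↥O where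
  toFun y := ⟨w (y : F), y.2⟩
  map_one' := Subtype.ext (map_one w)
  map_mul' a b := Subtype.ext (map_mul w _ _)
  map_zero' := Subtype.ext (map_zero w)
  map_add' a b := Subtype.ext (map_add w _ _)

@[simp] theorem coe_comapHom (O : Subring F) (w : F ≃ₐ[K] F) (y : ↥(O.comap (w : F →+* F))) :
    ((comapHom O w y : ↥O) : F) = w (y : F) := rfl

/-- **transport of a `HalfRed` along a `K`-algebra automorphism `w`**: the Gauss ring `w⁻¹(O)` with
the reduction `ρ ∘ w`. -/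
def comapHalfRed (H : HalfRed A F Fb) (w : F ≃ₐ[K] F) : HalfRed A F Fb where
  O := H.O.comap (w : F →+* F)
  ρ := H.ρ.comp (comapHom H.O w)
  algebraMap_mem a := by
    show w (algebraMap K F (a : K)) ∈ H.O
    rw [w.commutes]
    exact H.algebraMap_mem a
  ρ_algebraMap a := by
    have h1 : comapHom H.O w ⟨algebraMap K F (a : K), by
        show w (algebraMap K F (a : K)) ∈ H.O
        rw [w.commutes]; exact H.algebraMap_mem a⟩ =
        ⟨algebraMap K F (a : K), H.algebraMap_mem a⟩ := Subtype.ext (w.commutes _)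
    rw [RingHom.comp_apply, h1]
    exact H.ρ_algebraMap a
  ρ_ker y hy := by
    obtain ⟨c, hc, y', hy'⟩ := H.ρ_ker (comapHom H.O w y) hy
    refine ⟨c, hc, ⟨w.symm (y' : F), ?_⟩, ?_⟩
    · show w (w.symm (y' : F)) ∈ H.O
      rw [w.apply_symm_apply]; exact y'.2
    · show (y : F) = algebraMap K F (c : K) * w.symm (y' : F)
      apply w.injective
      rw [map_mul, w.commutes, w.apply_symm_apply]
      exact hy'
  gauss f hf := by
    have hwf : w f ≠ 0 := fun h => hf (by simpa using h)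
    obtain ⟨c, hc, hmem, hρ⟩ := H.gauss (w f) hwf
    have hmem' : algebraMap K F c * f ∈ H.O.comap (w : F →+* F) := by
      show w (algebraMap K F c * f) ∈ H.O
      rw [map_mul, w.commutes]; exact hmem
    refine ⟨c, hc, hmem', ?_⟩
    have h1 : comapHom H.O w ⟨algebraMap K F c * f, hmem'⟩ = ⟨algebraMap K F c * w f, hmem⟩ :=
      Subtype.ext (by simp [map_mul])
    rw [RingHom.comp_apply, h1]
    exact hρ

end Transport

/-! ### the level data -/

/-- the standing hypotheses of chapter (e): the bad level is `N = M' * p`. -/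
structure LevelHyp (p M' : ℕ) (A : ValuationSubring Qbar) : Prop where
  prime : p.Prime
  ne_two : p ≠ 2
  not_dvd : ¬ p ∣ M'
  four_dvd : 4 ∣ M'
  liesOver : A.LiesOverPrime p

/-- the function field of the special fibre of the good level `M'` (both components of the special
fibre of `X₀(M'p)` are copies of it). -/
abbrev Fb (A : ValuationSubring Qbar) (M' : ℕ) : Type :=
  ↥(modularFunctionFieldFullC (Setup8.kA A) M')

variable {p M' : ℕ} [NeZero M'] [NeZero p] {A : ValuationSubring Qbar}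

/-- **coefficientwise reduction of `A`-integral functions of level `M' p`, with values in
`κ·F̃_{M'}`.** -/
def redN (h : LevelHyp p M' A) : ↥(Setup8.gaussA A (Fbar (M' * p))) →+* Fb A M' :=
  (Setup8.redA A (Fbar (M' * p))).codRestrict (modularFunctionFieldFullC (Setup8.kA A) M')
    (ResField4.redA_mem_fullC h.prime h.not_dvd h.four_dvd h.liesOver)

@[simp] theorem coe_redN (h : LevelHyp p M' A) (a : ↥(Setup8.gaussA A (Fbar (M' * p)))) :
    ((redN h a : Fb A M') : LaurentSeries (Setup8.kA A)) = Setup8.redA A (Fbar (M' * p)) a := rfl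

theorem redN_ne_zero_iff (h : LevelHyp p M' A) (a : ↥(Setup8.gaussA A (Fbar (M' * p)))) :
    redN h a ≠ 0 ↔ Setup8.redA A (Fbar (M' * p)) a ≠ 0 := by
  rw [Ne, Ne, ← coe_redN h]
  exact not_congr ⟨fun h' => by rw [h']; rfl, fun h' => Subtype.ext h'⟩

/-- **the Gauss valuation ring `O₁` of the expansion at `∞`**, level `M' p`. -/
def O1 (h : LevelHyp p M' A) : Subring ↥(Fbar (M' * p)) :=
  fracRing (Setup8.gaussA A (Fbar (M' * p))) (redN h)

/-- **the reduction `ρ₁ : O₁ →+* κ·F̃_{M'}`.** -/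
def rho1 (h : LevelHyp p M' A) : ↥(O1 h) →+* Fb A M' :=
  fracRed (Setup8.gaussA A (Fbar (M' * p))) (redN h)

/-- membership in `O₁` in terms of the raw reduction `Setup8.redA` (the form used by
`T33/Psi3C.puOne`). -/
theorem mem_O1_iff_redA (h : LevelHyp p M' A) (f : ↥(Fbar (M' * p))) :
    f ∈ O1 h ↔ ∃ a b : ↥(Setup8.gaussA A (Fbar (M' * p))),
      Setup8.redA A (Fbar (M' * p)) b ≠ 0 ∧ f * (b : ↥(Fbar (M' * p))) = (a : ↥(Fbar (M' * p))) := by
  constructor
  · rintro ⟨a, b, hb, hab⟩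
    exact ⟨a, b, (redN_ne_zero_iff h b).1 hb, hab⟩
  · rintro ⟨a, b, hb, hab⟩
    exact ⟨a, b, (redN_ne_zero_iff h b).2 hb, hab⟩

theorem gaussA_mem_O1 (h : LevelHyp p M' A) (a : ↥(Setup8.gaussA A (Fbar (M' * p)))) :
    (a : ↥(Fbar (M' * p))) ∈ O1 h := coe_mem_fracRing _ _ a

theorem rho1_gaussA (h : LevelHyp p M' A) (a : ↥(Setup8.gaussA A (Fbar (M' * p)))) :
    rho1 h ⟨(a : ↥(Fbar (M' * p))), gaussA_mem_O1 h a⟩ = redN h a := fracRed_mk_coe _ _ a _

theorem const_mem_O1 (h : LevelHyp p M' A) (a : ↥A) :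
    algebraMap Qbar ↥(Fbar (M' * p)) (a : Qbar) ∈ O1 h :=
  gaussA_mem_O1 h ⟨_, Setup8.algebraMap_mem_gaussA A (Fbar (M' * p)) a⟩

theorem rho1_const (h : LevelHyp p M' A) (a : ↥A) :
    rho1 h ⟨algebraMap Qbar ↥(Fbar (M' * p)) (a : Qbar), const_mem_O1 h a⟩ =
      algebraMap (Setup8.kA A) (Fb A M') (residue ↥A a) := by
  have h1 := rho1_gaussA h ⟨_, Setup8.algebraMap_mem_gaussA A (Fbar (M' * p)) a⟩
  refine h1.trans ?_
  apply Subtype.ext
  rw [coe_redN, Setup8.redA_algebraMap]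
  rfl

/-- **Gauss property of `O₁`.** -/
theorem gauss1 (h : LevelHyp p M' A) (f : ↥(Fbar (M' * p))) (hf0 : f ≠ 0) :
    ∃ c : Qbar, c ≠ 0 ∧ ∃ hm : algebraMap Qbar ↥(Fbar (M' * p)) c * f ∈ O1 h,
      rho1 h ⟨_, hm⟩ ≠ 0 := by
  haveI : Fact p.Prime := ⟨h.prime⟩
  obtain ⟨c, a, b, hc0, ha, hb, hrel⟩ :=
    exists_gauss_fraction A (M' * p) p h.liesOver f hf0
  have ha' := (redN_ne_zero_iff h a).2 ha
  have hb' := (redN_ne_zero_iff h b).2 hb
  have hrel' : (algebraMap Qbar ↥(Fbar (M' * p)) c⁻¹ * f) * (b : ↥(Fbar (M' * p))) =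
      (a : ↥(Fbar (M' * p))) := by
    rw [mul_assoc, hrel, ← mul_assoc, ← map_mul, inv_mul_cancel₀ hc0, map_one, one_mul]
  have hmem : algebraMap Qbar ↥(Fbar (M' * p)) c⁻¹ * f ∈ O1 h := ⟨a, b, hb', hrel'⟩
  refine ⟨c⁻¹, inv_ne_zero hc0, hmem, ?_⟩
  show fracRed _ _ ⟨_, hmem⟩ ≠ 0
  rw [fracRed_eq _ _ ⟨_, hmem⟩ a b hb' hrel']
  exact div_ne_zero ha' hb'

theorem smul_mem_O1 (h : LevelHyp p M' A) (a : ↥A) {f : ↥(Fbar (M' * p))} (hf : f ∈ O1 h) :
    algebraMap Qbar ↥(Fbar (M' * p)) (a : Qbar) * f ∈ O1 h :=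
  (O1 h).mul_mem (const_mem_O1 h a) hf

theorem rho1_smul (h : LevelHyp p M' A) (a : ↥A) (y : ↥(O1 h)) :
    rho1 h ⟨algebraMap Qbar ↥(Fbar (M' * p)) (a : Qbar) * (y : ↥(Fbar (M' * p))),
        smul_mem_O1 h a y.2⟩ =
      algebraMap (Setup8.kA A) (Fb A M') (residue ↥A a) * rho1 h y := by
  rw [← rho1_const h a, ← map_mul]
  rfl

/-- **the kernel of `ρ₁` is `𝔪_A · O₁`.** -/
theorem rho1_ker (h : LevelHyp p M' A) (y : ↥(O1 h)) (hy : rho1 h y = 0) :
    ∃ c : ↥A, c ∈ maximalIdeal ↥A ∧ ∃ y' : ↥(O1 h),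
      (y : ↥(Fbar (M' * p))) = algebraMap Qbar ↥(Fbar (M' * p)) (c : Qbar) * (y' : ↥(Fbar (M' * p))) := by
  by_cases hy0 : (y : ↥(Fbar (M' * p))) = 0
  · exact ⟨0, Ideal.zero_mem _, 0, by rw [hy0]; simp⟩
  obtain ⟨d, hd0, hmem, hρ⟩ := gauss1 h (y : ↥(Fbar (M' * p))) hy0
  have hrel : (y : ↥(Fbar (M' * p))) = algebraMap Qbar ↥(Fbar (M' * p)) d⁻¹ *
      (algebraMap Qbar ↥(Fbar (M' * p)) d * (y : ↥(Fbar (M' * p)))) := by
    rw [← mul_assoc, ← map_mul, inv_mul_cancel₀ hd0, map_one, one_mul]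
  have hdA : d⁻¹ ∈ A := by
    by_contra hdA
    have hd : d ∈ A := by
      have := (A.mem_or_inv_mem d⁻¹).resolve_left hdA
      rwa [inv_inv] at this
    apply hρ
    have h1 := rho1_smul h ⟨d, hd⟩ y
    rw [hy, mul_zero] at h1
    exact h1
  refine ⟨⟨d⁻¹, hdA⟩, ?_, ⟨_, hmem⟩, hrel⟩
  rw [mem_maximalIdeal, mem_nonunits_iff]
  intro hu
  have h1 := rho1_smul h ⟨d⁻¹, hdA⟩ ⟨_, hmem⟩
  have h2 : (⟨algebraMap Qbar ↥(Fbar (M' * p)) ((⟨d⁻¹, hdA⟩ : ↥A) : Qbar) *
      ((⟨_, hmem⟩ : ↥(O1 h)) : ↥(Fbar (M' * p))), smul_mem_O1 h ⟨d⁻¹, hdA⟩ hmem⟩ : ↥(O1 h)) = y :=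
    Subtype.ext hrel.symm
  rw [h2, hy] at h1
  have h3 : residue ↥A (⟨d⁻¹, hdA⟩ : ↥A) ≠ 0 := by
    rw [Ne, residue_eq_zero_iff, mem_maximalIdeal, mem_nonunits_iff, not_not]; exact hu
  rcases mul_eq_zero.1 h1.symm with h' | h'
  · rw [map_eq_zero] at h'; exact h3 h'
  · exact hρ h'

/-- **the component `C₁`** (Gauss valuation of the expansion at `∞`). -/
def c1 (h : LevelHyp p M' A) : HalfRed A ↥(Fbar (M' * p)) (Fb A M') where
  O := O1 h
  ρ := rho1 h
  algebraMap_mem := const_mem_O1 h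
  ρ_algebraMap := rho1_const h
  ρ_ker := rho1_ker h
  gauss := gauss1 h

/-- **the component `C₂`** (Gauss valuation of the expansion at the cusp `0`): the Fricke
transport of `c1`. -/
def c2 (h : LevelHyp p M' A) : HalfRed A ↥(Fbar (M' * p)) (Fb A M') :=
  comapHalfRed (c1 h) (frickeBarEquiv (M' * p))

/-- `O₂ = W_N⁻¹ (O₁)`. -/
def O2 (h : LevelHyp p M' A) : Subring ↥(Fbar (M' * p)) := (c2 h).O

/-- `ρ₂ = ρ₁ ∘ W_N`. -/
def rho2 (h : LevelHyp p M' A) : ↥(O2 h) →+* Fb A M' := (c2 h).ρ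

theorem mem_O2_iff (h : LevelHyp p M' A) (f : ↥(Fbar (M' * p))) :
    f ∈ O2 h ↔ frickeBar (M' * p) f ∈ O1 h := Iff.rfl

theorem rho2_apply (h : LevelHyp p M' A) (y : ↥(O2 h)) :
    rho2 h y = rho1 h ⟨frickeBar (M' * p) (y : ↥(Fbar (M' * p))), (mem_O2_iff h _).1 y.2⟩ := rfl

end Fermat.Agent.T33.NodalHalf4
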