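/-
Programme T (S33), nodal layer, chapter (a) (helper1): **first consequences of the axioms of the
nodal reduction context** `NodalCtx1.NodalRed` — the two contracts `SlopeDichotomy` and `WeakGauss`
of `T33/NodalCtx1`, proved from `push₁`, `push₂`, `glue` (and `LHyp` on the three function fields).

* `vanishing_iff_of_compatAt`, `regular_of_compatAt` : what membership in `Nd.compatAt i` means;
* `slope_pos₁`, `slope_pos₂`, `slope_nonneg` : (a1) — if `f` has no pole over the `i`-th node and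
  `c₁ / c₂ ∈ 𝔪_A` then `ρ₁ (c₁ f)` vanishes at `s1 i` (apply `glue` to `y = c₁ f = (c₁/c₂)(c₂ f)`,
  whose second reduction is `0`); mirror; unit case;
* `slopeDichotomy : N.SlopeDichotomy`;
* `weakGauss : N.WeakGauss` : (a2) — a function whose divisor is supported at places of smooth
  reduction and pushes forward to `0` on both components is, up to ONE constant, a unit of
  `O₁ ∩ O₂` reducing to the same nonzero constant on both components.  (The divisor of each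
  normalised reduction is supported on the branches; if the two normalising constants differ by a
  non-unit all the orders at the branches are positive, against degree `0`; if they differ by a unit
  all the orders are nonnegative, hence zero, and the two constant values agree by `glue`.)
-/
import Mathlib
import Fermat.Agent.T33.NodalCtx1
import Fermat.Agent.X0.FFDict
import Fermat.Agent.RR.LSpace

set_option autoImplicit false

open AlgebraicCurve IsLocalRing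

namespace Fermat.Agent.T33.NodalAbs1A

open Fermat.Agent.T33.NodalCtx1 Fermat.Agent.T33.NodalCurve6 Fermat.Agent.X0.FF
  Fermat.Agent.RR.LSpace

/-! ### membership in `compatAt` -/

section Compat

variable {κ F1 F2 : Type*} [Field κ] [Field F1] [Field F2] [Algebra κ F1] [Algebra κ F2]
variable {ι : Type*} (Nd : NodalData κ F1 F2 ι)

theorem const_not_mem_vanishing {F : Type*} [Field F] [Algebra κ F] (v : Place κ F) {c : κ}
    (h : algebraMap κ F c ∈ vanishing v) : c = 0 := by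
  by_contra hc
  rcases h with h0 | hpos
  · exact hc ((map_eq_zero (algebraMap κ F)).1 h0)
  · rw [ord_algebraMap] at hpos
    exact lt_irrefl _ hpos

/-- a compatible pair vanishes at one branch iff it vanishes at the other. -/
theorem vanishing_iff_of_compatAt {i : ι} {g₁ : F1} {g₂ : F2}
    (h : ((g₁, g₂) : F1 × F2) ∈ Nd.compatAt i) :
    g₁ ∈ vanishing (Nd.s1 i) ↔ g₂ ∈ vanishing (Nd.s2 i) := by
  obtain ⟨c, h1, h2⟩ := h
  constructor
  · intro hg
    have hc : algebraMap κ F1 c ∈ vanishing (Nd.s1 i) := by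
      have : algebraMap κ F1 c = g₁ - (g₁ - algebraMap κ F1 c) := by ring
      rw [this]
      exact Submodule.sub_mem _ hg h1
    have hc0 := const_not_mem_vanishing _ hc
    rw [hc0, map_zero, sub_zero] at h2
    exact h2
  · intro hg
    have hc : algebraMap κ F2 c ∈ vanishing (Nd.s2 i) := by
      have : algebraMap κ F2 c = g₂ - (g₂ - algebraMap κ F2 c) := by ring
      rw [this]
      exact Submodule.sub_mem _ hg h2
    have hc0 := const_not_mem_vanishing _ hc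
    rw [hc0, map_zero, sub_zero] at h1
    exact h1

/-- a function with a value at `v` is regular at `v`. -/
theorem ord_nonneg_of_sub_mem_vanishing {F : Type*} [Field F] [Algebra κ F] (v : Place κ F)
    {g : F} (hg : g ≠ 0) {c : κ} (h : g - algebraMap κ F c ∈ vanishing v) : 0 ≤ v.ord g := by
  by_cases hc : c = 0
  · rw [hc, map_zero, sub_zero] at h
    rcases h with h0 | hpos
    · exact absurd h0 hg
    · exact hpos.le
  rcases h with h0 | hpos
  · rw [sub_eq_zero] at h0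
    rw [h0, ord_algebraMap]
  · have hsum : g = (g - algebraMap κ F c) + algebraMap κ F c := by ring
    have hne : (g - algebraMap κ F c) + algebraMap κ F c ≠ 0 := by rwa [← hsum]
    have h1 := ord_add_ge v hne
    rw [← hsum, ord_algebraMap] at h1
    exact le_trans (le_min hpos.le le_rfl) h1

theorem regular_of_compatAt {i : ι} {g₁ : F1} {g₂ : F2}
    (h : ((g₁, g₂) : F1 × F2) ∈ Nd.compatAt i) :
    (g₁ ≠ 0 → 0 ≤ (Nd.s1 i).ord g₁) ∧ (g₂ ≠ 0 → 0 ≤ (Nd.s2 i).ord g₂) := by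
  obtain ⟨c, h1, h2⟩ := h
  exact ⟨fun hg => ord_nonneg_of_sub_mem_vanishing _ hg h1,
    fun hg => ord_nonneg_of_sub_mem_vanishing _ hg h2⟩

end Compat

variable {K : Type*} [Field K] {A : ValuationSubring K}
variable {F : Type*} [Field F] [Algebra K F]

/-! ### one component -/

section Half

variable {Fb : Type*} [Field Fb] [Algebra (ResidueField A) Fb] (c : HalfRed A F Fb)

theorem mul_const_mem {a : K} (ha : a ∈ A) {y : F} (hy : y ∈ c.O) :
    algebraMap K F a * y ∈ c.O :=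
  c.O.mul_mem (c.algebraMap_mem ⟨a, ha⟩) hy

theorem ρ_mul_const {a : K} (ha : a ∈ A) {y : F} (hy : y ∈ c.O) :
    c.ρ ⟨algebraMap K F a * y, mul_const_mem c ha hy⟩ =
      algebraMap (ResidueField A) Fb (residue A ⟨a, ha⟩) * c.ρ ⟨y, hy⟩ := by
  have : (⟨algebraMap K F a * y, mul_const_mem c ha hy⟩ : c.O) =
      ⟨algebraMap K F (a : K), c.algebraMap_mem ⟨a, ha⟩⟩ * ⟨y, hy⟩ := rfl
  rw [this, map_mul]
  congr 1
  exact c.ρ_algebraMap ⟨a, ha⟩

theorem const_ne_zero_of_ρ_ne_zero {a : K} {f : F} (h : algebraMap K F a * f ∈ c.O)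
    (hρ : c.ρ ⟨_, h⟩ ≠ 0) : a ≠ 0 := by
  rintro rfl
  apply hρ
  have : (⟨algebraMap K F 0 * f, h⟩ : c.O) = 0 := Subtype.ext (by simp)
  rw [this, map_zero]

end Half

theorem mem_maximalIdeal_of_inv_not_mem {a : K} (ha : a ∈ A) (hinv : a⁻¹ ∉ A) :
    (⟨a, ha⟩ : A) ∈ maximalIdeal A := by
  rw [IsLocalRing.mem_maximalIdeal, mem_nonunits_iff]
  intro hu
  apply hinv
  obtain ⟨u, hu⟩ := hu
  have h3 : (u : A) * ((u⁻¹ : Aˣ) : A) = 1 := Units.mul_inv u
  have h4 : a * (((u⁻¹ : Aˣ) : A) : K) = 1 := by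
    have := congrArg (Subtype.val) h3
    rw [hu] at this
    simpa using this
  have h5 : (((u⁻¹ : Aˣ) : A) : K) = a⁻¹ := by
    have ha0 : a ≠ 0 := by
      rintro rfl
      simp at h4
    field_simp
    rw [mul_comm]
    exact h4
  rw [← h5]
  exact SetLike.coe_mem _

theorem residue_ne_zero_of_unit {a : K} (ha : a ∈ A) (hinv : a⁻¹ ∈ A) (ha0 : a ≠ 0) :
    residue A ⟨a, ha⟩ ≠ 0 := by
  intro h
  rw [IsLocalRing.residue_eq_zero_iff, IsLocalRing.mem_maximalIdeal, mem_nonunits_iff] at h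
  apply h
  refine ⟨⟨⟨a, ha⟩, ⟨a⁻¹, hinv⟩, ?_, ?_⟩, rfl⟩
  · exact Subtype.ext (by simp [mul_inv_cancel₀ ha0])
  · exact Subtype.ext (by simp [inv_mul_cancel₀ ha0])

/-! ### the slope dichotomy -/

variable {Fb₁ Fb₂ : Type*} [Field Fb₁] [Field Fb₂]
  [Algebra (ResidueField A) Fb₁] [Algebra (ResidueField A) Fb₂]
variable {ι : Type*} {Nd : NodalData (ResidueField A) Fb₁ Fb₂ ι} (N : NodalRed A F Nd)

/-- **(a1), first part**: if `c₁ / c₂ ∈ 𝔪_A` then `ρ₁ (c₁ f)` vanishes at the branch `s1 i`. -/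
theorem slope_pos₁ (i : ι) (f : F) (hf : f ≠ 0)
    (hpole : ∀ P : Place K F, N.RedToNode P i → 0 ≤ P.ord f)
    (c₁ c₂ : K) (h₁ : algebraMap K F c₁ * f ∈ N.c₁.O) (h₂ : algebraMap K F c₂ * f ∈ N.c₂.O)
    (hρ₁ : N.c₁.ρ ⟨_, h₁⟩ ≠ 0) (hρ₂ : N.c₂.ρ ⟨_, h₂⟩ ≠ 0)
    (hA : c₁ / c₂ ∈ A) (hinv : (c₁ / c₂)⁻¹ ∉ A) :
    0 < (Nd.s1 i).ord (N.c₁.ρ ⟨_, h₁⟩) := by
  have hc₂ : c₂ ≠ 0 := const_ne_zero_of_ρ_ne_zero N.c₂ h₂ hρ₂
  have hc₁ : c₁ ≠ 0 := const_ne_zero_of_ρ_ne_zero N.c₁ h₁ hρ₁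
  have hy : algebraMap K F c₁ * f = algebraMap K F (c₁ / c₂) * (algebraMap K F c₂ * f) := by
    rw [← mul_assoc, ← map_mul, div_mul_cancel₀ c₁ hc₂]
  have hy₂ : algebraMap K F c₁ * f ∈ N.c₂.O := by
    rw [hy]
    exact mul_const_mem N.c₂ hA h₂
  have hρy₂ : N.c₂.ρ ⟨_, hy₂⟩ = 0 := by
    have h1 : (⟨algebraMap K F c₁ * f, hy₂⟩ : N.c₂.O) =
        ⟨algebraMap K F (c₁ / c₂) * (algebraMap K F c₂ * f), mul_const_mem N.c₂ hA h₂⟩ :=
      Subtype.ext hy
    rw [h1, ρ_mul_const N.c₂ hA h₂,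
      (IsLocalRing.residue_eq_zero_iff _).2 (mem_maximalIdeal_of_inv_not_mem hA hinv), map_zero,
      zero_mul]
  have hc₁F : algebraMap K F c₁ ≠ 0 := by rwa [ne_eq, _root_.map_eq_zero]
  have hg := N.glue i _ h₁ hy₂ (fun P hP => Or.inr (by
    rw [P.ord_mul hc₁F hf, ord_algebraMap, zero_add]
    exact hpole P hP))
  have hv : N.c₁.ρ ⟨_, h₁⟩ ∈ vanishing (Nd.s1 i) :=
    (vanishing_iff_of_compatAt Nd hg).2 (by rw [hρy₂]; exact Submodule.zero_mem _)
  rcases hv with h0 | hpos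
  · exact absurd h0 hρ₁
  · exact hpos

/-- **(a1), mirror**: if `c₂ / c₁ ∈ 𝔪_A` then `ρ₂ (c₂ f)` vanishes at the branch `s2 i`. -/
theorem slope_pos₂ (i : ι) (f : F) (hf : f ≠ 0)
    (hpole : ∀ P : Place K F, N.RedToNode P i → 0 ≤ P.ord f)
    (c₁ c₂ : K) (h₁ : algebraMap K F c₁ * f ∈ N.c₁.O) (h₂ : algebraMap K F c₂ * f ∈ N.c₂.O)
    (hρ₁ : N.c₁.ρ ⟨_, h₁⟩ ≠ 0) (hρ₂ : N.c₂.ρ ⟨_, h₂⟩ ≠ 0)
    (hA : c₂ / c₁ ∈ A) (hinv : (c₂ / c₁)⁻¹ ∉ A) :
    0 < (Nd.s2 i).ord (N.c₂.ρ ⟨_, h₂⟩) := by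
  have hc₂ : c₂ ≠ 0 := const_ne_zero_of_ρ_ne_zero N.c₂ h₂ hρ₂
  have hc₁ : c₁ ≠ 0 := const_ne_zero_of_ρ_ne_zero N.c₁ h₁ hρ₁
  have hy : algebraMap K F c₂ * f = algebraMap K F (c₂ / c₁) * (algebraMap K F c₁ * f) := by
    rw [← mul_assoc, ← map_mul, div_mul_cancel₀ c₂ hc₁]
  have hy₁ : algebraMap K F c₂ * f ∈ N.c₁.O := by
    rw [hy]
    exact mul_const_mem N.c₁ hA h₁
  have hρy₁ : N.c₁.ρ ⟨_, hy₁⟩ = 0 := by
    have h1 : (⟨algebraMap K F c₂ * f, hy₁⟩ : N.c₁.O) =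
        ⟨algebraMap K F (c₂ / c₁) * (algebraMap K F c₁ * f), mul_const_mem N.c₁ hA h₁⟩ :=
      Subtype.ext hy
    rw [h1, ρ_mul_const N.c₁ hA h₁,
      (IsLocalRing.residue_eq_zero_iff _).2 (mem_maximalIdeal_of_inv_not_mem hA hinv), map_zero,
      zero_mul]
  have hc₂F : algebraMap K F c₂ ≠ 0 := by rwa [ne_eq, _root_.map_eq_zero]
  have hg := N.glue i _ hy₁ h₂ (fun P hP => Or.inr (by
    rw [P.ord_mul hc₂F hf, ord_algebraMap, zero_add]
    exact hpole P hP))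
  have hv : N.c₂.ρ ⟨_, h₂⟩ ∈ vanishing (Nd.s2 i) :=
    (vanishing_iff_of_compatAt Nd hg).1 (by rw [hρy₁]; exact Submodule.zero_mem _)
  rcases hv with h0 | hpos
  · exact absurd h0 hρ₂
  · exact hpos

/-- **(a1), unit case**: if `c₁ / c₂` is a unit of `A` both reductions are regular at the
branches. -/
theorem slope_nonneg (i : ι) (f : F) (hf : f ≠ 0)
    (hpole : ∀ P : Place K F, N.RedToNode P i → 0 ≤ P.ord f)
    (c₁ c₂ : K) (h₁ : algebraMap K F c₁ * f ∈ N.c₁.O) (h₂ : algebraMap K F c₂ * f ∈ N.c₂.O)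
    (hρ₁ : N.c₁.ρ ⟨_, h₁⟩ ≠ 0) (hρ₂ : N.c₂.ρ ⟨_, h₂⟩ ≠ 0)
    (hA : c₁ / c₂ ∈ A) (hA' : c₂ / c₁ ∈ A) :
    0 ≤ (Nd.s1 i).ord (N.c₁.ρ ⟨_, h₁⟩) ∧ 0 ≤ (Nd.s2 i).ord (N.c₂.ρ ⟨_, h₂⟩) := by
  have hc₂ : c₂ ≠ 0 := const_ne_zero_of_ρ_ne_zero N.c₂ h₂ hρ₂
  have hc₁ : c₁ ≠ 0 := const_ne_zero_of_ρ_ne_zero N.c₁ h₁ hρ₁
  have hy : algebraMap K F c₁ * f = algebraMap K F (c₁ / c₂) * (algebraMap K F c₂ * f) := by
    rw [← mul_assoc, ← map_mul, div_mul_cancel₀ c₁ hc₂]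
  have hy₂ : algebraMap K F c₁ * f ∈ N.c₂.O := by
    rw [hy]
    exact mul_const_mem N.c₂ hA h₂
  have hy' : algebraMap K F c₂ * f = algebraMap K F (c₂ / c₁) * (algebraMap K F c₁ * f) := by
    rw [← mul_assoc, ← map_mul, div_mul_cancel₀ c₂ hc₁]
  have hy₁ : algebraMap K F c₂ * f ∈ N.c₁.O := by
    rw [hy']
    exact mul_const_mem N.c₁ hA' h₁
  have hc₁F : algebraMap K F c₁ ≠ 0 := by rwa [ne_eq, _root_.map_eq_zero]
  have hc₂F : algebraMap K F c₂ ≠ 0 := by rwa [ne_eq, _root_.map_eq_zero]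
  have hg₁ := N.glue i _ h₁ hy₂ (fun P hP => Or.inr (by
    rw [P.ord_mul hc₁F hf, ord_algebraMap, zero_add]
    exact hpole P hP))
  have hg₂ := N.glue i _ hy₁ h₂ (fun P hP => Or.inr (by
    rw [P.ord_mul hc₂F hf, ord_algebraMap, zero_add]
    exact hpole P hP))
  exact ⟨(regular_of_compatAt Nd hg₁).1 hρ₁, (regular_of_compatAt Nd hg₂).2 hρ₂⟩

/-- **(a1) the slope dichotomy.** -/
theorem slopeDichotomy : N.SlopeDichotomy := by
  intro i f hf hpole c₁ c₂ h₁ h₂ hρ₁ hρ₂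
  exact ⟨fun h => slope_pos₁ N i f hf hpole c₁ c₂ h₁ h₂ hρ₁ hρ₂ h.1 h.2,
    fun h => slope_pos₂ N i f hf hpole c₁ c₂ h₁ h₂ hρ₁ hρ₂ h.1 h.2,
    fun h => slope_nonneg N i f hf hpole c₁ c₂ h₁ h₂ hρ₁ hρ₂ h.1 h.2⟩

/-! ### the weak Gauss property -/

/-- a place of smooth reduction does not reduce to a node. -/
theorem not_redToNode_of_isSmoothRed {P : Place K F} (hP : N.IsSmoothRed P) (i : ι) :
    ¬ N.RedToNode P i := by
  intro hs
  rcases hP with ⟨Q, hQ, hQb⟩ | ⟨Q, hQ, hQb⟩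
  · have : some Q = some (Nd.s1 i) := hQ.symm.trans hs
    exact hQb i (Option.some.inj this)
  · have h2 := (N.node_iff P i).1 hs
    have : some Q = some (Nd.s2 i) := hQ.symm.trans h2
    exact hQb i (Option.some.inj this)

/-- the divisor of the normalised reduction on `C₁` is supported on the branches. -/
theorem ord_ρ₁_eq_zero_of_smooth (H : LHyp K F) (f : F) (hf : f ≠ 0)
    (hpush : ∀ (Q : Place (ResidueField A) Fb₁) (T : Finset (Place K F)),
      (∀ P, P ∈ T ↔ P.ord f ≠ 0 ∧ N.r₁ P = some Q) → ∑ P ∈ T, P.ord f = 0)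
    (c₁ : K) (hc₁ : c₁ ≠ 0) (h₁ : algebraMap K F c₁ * f ∈ N.c₁.O) (hρ₁ : N.c₁.ρ ⟨_, h₁⟩ ≠ 0)
    (Q : Place (ResidueField A) Fb₁) (hQ : Nd.Smooth1 Q) :
    Q.ord (N.c₁.ρ ⟨_, h₁⟩) = 0 := by
  classical
  have hc₁F : algebraMap K F c₁ ≠ 0 := by rwa [ne_eq, _root_.map_eq_zero]
  set D := divOf H hf with hD
  set T : Finset (Place K F) := D.support.filter (fun P => N.r₁ P = some Q) with hT
  have hTmem : ∀ P, P ∈ T ↔ P ∈ D.support ∧ N.r₁ P = some Q := fun P => Finset.mem_filter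
  have h1 := N.push₁ ⟨_, h₁⟩ hρ₁ Q hQ D (fun P => by
    rw [divOf_apply]
    show P.ord f = P.ord (algebraMap K F c₁ * f)
    rw [P.ord_mul hc₁F hf, ord_algebraMap, zero_add]) T hTmem
  rw [← h1]
  have h2 := hpush Q T (fun P => by
    rw [hTmem, Finsupp.mem_support_iff, divOf_apply])
  rw [← h2]
  exact Finset.sum_congr rfl fun P _ => divOf_apply H hf P

/-- the divisor of the normalised reduction on `C₂` is supported on the branches. -/
theorem ord_ρ₂_eq_zero_of_smooth (H : LHyp K F) (f : F) (hf : f ≠ 0)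
    (hpush : ∀ (Q : Place (ResidueField A) Fb₂) (T : Finset (Place K F)),
      (∀ P, P ∈ T ↔ P.ord f ≠ 0 ∧ N.r₂ P = some Q) → ∑ P ∈ T, P.ord f = 0)
    (c₂ : K) (hc₂ : c₂ ≠ 0) (h₂ : algebraMap K F c₂ * f ∈ N.c₂.O) (hρ₂ : N.c₂.ρ ⟨_, h₂⟩ ≠ 0)
    (Q : Place (ResidueField A) Fb₂) (hQ : Nd.Smooth2 Q) :
    Q.ord (N.c₂.ρ ⟨_, h₂⟩) = 0 := by
  classical
  have hc₂F : algebraMap K F c₂ ≠ 0 := by rwa [ne_eq, _root_.map_eq_zero]
  set D := divOf H hf with hD
  set T : Finset (Place K F) := D.support.filter (fun P => N.r₂ P = some Q) with hT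
  have hTmem : ∀ P, P ∈ T ↔ P ∈ D.support ∧ N.r₂ P = some Q := fun P => Finset.mem_filter
  have h1 := N.push₂ ⟨_, h₂⟩ hρ₂ Q hQ D (fun P => by
    rw [divOf_apply]
    show P.ord f = P.ord (algebraMap K F c₂ * f)
    rw [P.ord_mul hc₂F hf, ord_algebraMap, zero_add]) T hTmem
  rw [← h1]
  have h2 := hpush Q T (fun P => by
    rw [hTmem, Finsupp.mem_support_iff, divOf_apply])
  rw [← h2]
  exact Finset.sum_congr rfl fun P _ => divOf_apply H hf P

/-- a nonzero function on a component whose divisor is supported on the branches, with positive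
orders there, does not exist (a principal divisor has degree zero). -/
theorem false_of_pos_on_branches {κ : Type*} [Field κ] {Fb : Type*} [Field Fb] [Algebra κ Fb]
    (Hb : LHyp κ Fb) {ι : Type*} [Nonempty ι] (b : ι → Place κ Fb) (g : Fb) (hg : g ≠ 0)
    (h0 : ∀ Q : Place κ Fb, (∀ i, Q ≠ b i) → Q.ord g = 0)
    (hpos : ∀ i, 0 < (b i).ord g) : False := by
  classical
  have hdeg := degree_divOf Hb hg
  rw [degree_eq_sum Hb] at hdeg
  obtain ⟨i₀⟩ := ‹Nonempty ι›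
  have hnn : ∀ v ∈ (divOf Hb hg).support, 0 ≤ divOf Hb hg v := by
    intro v _
    rw [divOf_apply]
    by_cases hv : ∃ i, v = b i
    · obtain ⟨i, rfl⟩ := hv
      exact (hpos i).le
    · push Not at hv
      rw [h0 v hv]
  have hmem : b i₀ ∈ (divOf Hb hg).support := by
    rw [Finsupp.mem_support_iff, divOf_apply]
    exact (hpos i₀).ne'
  have h1 := Finset.single_le_sum hnn hmem
  rw [hdeg, divOf_apply] at h1
  exact absurd (hpos i₀) (not_lt.2 h1)

/-- a nonzero function on a component whose divisor is supported on the branches, with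
nonnegative orders there, is a constant. -/
theorem const_of_nonneg_on_branches {κ : Type*} [Field κ] {Fb : Type*} [Field Fb] [Algebra κ Fb]
    (Hb : LHyp κ Fb) {ι : Type*} (b : ι → Place κ Fb) (g : Fb)
    (h0 : ∀ Q : Place κ Fb, (∀ i, Q ≠ b i) → Q.ord g = 0)
    (hnn : ∀ i, 0 ≤ (b i).ord g) : ∃ c : κ, g = algebraMap κ Fb c := by
  apply eq_algebraMap_of_forall_ord_nonneg Hb
  intro v
  by_cases hv : ∃ i, v = b i
  · obtain ⟨i, rfl⟩ := hv
    exact hnn i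
  · push Not at hv
    rw [h0 v hv]

/-- **(a2) the weak Gauss property**, from the axioms of `NodalRed`. -/
theorem weakGauss (H : LHyp K F) (H₁ : LHyp (ResidueField A) Fb₁)
    (H₂ : LHyp (ResidueField A) Fb₂) : N.WeakGauss := by
  intro f hf hsupp hpush₁ hpush₂
  have hne : Nonempty ι := N.node_nonempty
  obtain ⟨c₁, hc₁, h₁, hρ₁⟩ := N.c₁.gauss f hf
  obtain ⟨c₂, hc₂, h₂, hρ₂⟩ := N.c₂.gauss f hf
  have hpole0 : ∀ (i : ι) (P : Place K F), N.RedToNode P i → P.ord f = 0 := by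
    intro i P hP
    by_contra hne
    exact not_redToNode_of_isSmoothRed N (hsupp P hne) i hP
  have hpole : ∀ (i : ι) (P : Place K F), N.RedToNode P i → 0 ≤ P.ord f := fun i P hP =>
    (hpole0 i P hP).ge
  have h0₁ := ord_ρ₁_eq_zero_of_smooth N H f hf hpush₁ c₁ hc₁ h₁ hρ₁
  have h0₂ := ord_ρ₂_eq_zero_of_smooth N H f hf hpush₂ c₂ hc₂ h₂ hρ₂
  have hc₁F : algebraMap K F c₁ ≠ 0 := by rwa [ne_eq, _root_.map_eq_zero]
  -- the unit case
  have hunit : c₁ / c₂ ∈ A → (c₁ / c₂)⁻¹ ∈ A →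
      ∃ (c : K) (h₁ : algebraMap K F c * f ∈ N.c₁.O) (h₂ : algebraMap K F c * f ∈ N.c₂.O)
        (a : A), a ∉ maximalIdeal A ∧
          N.c₁.ρ ⟨_, h₁⟩ = algebraMap (ResidueField A) Fb₁ (residue A a) ∧
          N.c₂.ρ ⟨_, h₂⟩ = algebraMap (ResidueField A) Fb₂ (residue A a) := by
    intro hA hA'
    have hne0 : c₁ / c₂ ≠ 0 := div_ne_zero hc₁ hc₂
    have hy : algebraMap K F c₁ * f = algebraMap K F (c₁ / c₂) * (algebraMap K F c₂ * f) := by
      rw [← mul_assoc, ← map_mul, div_mul_cancel₀ c₁ hc₂]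
    have hy₂ : algebraMap K F c₁ * f ∈ N.c₂.O := by
      rw [hy]
      exact mul_const_mem N.c₂ hA h₂
    have hρy₂ : N.c₂.ρ ⟨_, hy₂⟩ ≠ 0 := by
      have h1 : (⟨algebraMap K F c₁ * f, hy₂⟩ : N.c₂.O) =
          ⟨algebraMap K F (c₁ / c₂) * (algebraMap K F c₂ * f), mul_const_mem N.c₂ hA h₂⟩ :=
        Subtype.ext hy
      rw [h1, ρ_mul_const N.c₂ hA h₂]
      refine mul_ne_zero ?_ hρ₂
      rw [ne_eq, _root_.map_eq_zero]
      exact residue_ne_zero_of_unit hA hA' hne0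
    have h0₂' := ord_ρ₂_eq_zero_of_smooth N H f hf hpush₂ c₁ hc₁ hy₂ hρy₂
    have hglue : ∀ i : ι, 0 ≤ (Nd.s1 i).ord (N.c₁.ρ ⟨_, h₁⟩) ∧
        0 ≤ (Nd.s2 i).ord (N.c₂.ρ ⟨_, hy₂⟩) := by
      intro i
      have hg := N.glue i _ h₁ hy₂ (fun P hP => Or.inr (by
        rw [P.ord_mul hc₁F hf, ord_algebraMap, zero_add]
        exact hpole i P hP))
      exact ⟨(regular_of_compatAt Nd hg).1 hρ₁, (regular_of_compatAt Nd hg).2 hρy₂⟩
    obtain ⟨k₁, hk₁⟩ := const_of_nonneg_on_branches H₁ Nd.s1 _ h0₁ (fun i => (hglue i).1)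
    obtain ⟨k₂, hk₂⟩ := const_of_nonneg_on_branches H₂ Nd.s2 _ h0₂' (fun i => (hglue i).2)
    obtain ⟨a, rfl⟩ := IsLocalRing.residue_surjective k₁
    have ha : a ∉ maximalIdeal A := by
      intro ha
      apply hρ₁
      rw [hk₁, (IsLocalRing.residue_eq_zero_iff a).2 ha, map_zero]
    refine ⟨c₁, h₁, hy₂, a, ha, hk₁, ?_⟩
    -- equality of the two constants, by `glue`
    obtain ⟨i₀⟩ := hne
    have hg := N.glue i₀ _ h₁ hy₂ (fun P hP => Or.inr (by
      rw [P.ord_mul hc₁F hf, ord_algebraMap, zero_add]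
      exact hpole i₀ P hP))
    obtain ⟨c, hc1, hc2⟩ := hg
    have e1 : residue A a = c := by
      have h3 : algebraMap (ResidueField A) Fb₁ (residue A a - c) ∈ vanishing (Nd.s1 i₀) := by
        rw [map_sub, ← hk₁]
        exact hc1
      exact sub_eq_zero.1 (const_not_mem_vanishing _ h3)
    have e2 : k₂ = c := by
      have h3 : algebraMap (ResidueField A) Fb₂ (k₂ - c) ∈ vanishing (Nd.s2 i₀) := by
        rw [map_sub, ← hk₂]
        exact hc2
      exact sub_eq_zero.1 (const_not_mem_vanishing _ h3)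
    rw [hk₂, e2, e1]
  rcases A.mem_or_inv_mem (c₁ / c₂) with hA | hA'
  · by_cases hinv : (c₁ / c₂)⁻¹ ∈ A
    · exact hunit hA hinv
    · exfalso
      exact false_of_pos_on_branches H₁ Nd.s1 _ hρ₁ h0₁ fun i =>
        slope_pos₁ N i f hf (hpole i) c₁ c₂ h₁ h₂ hρ₁ hρ₂ hA hinv
  · by_cases hA : c₁ / c₂ ∈ A
    · exact hunit hA hA'
    · exfalso
      have hA'' : c₂ / c₁ ∈ A := by rwa [inv_div] at hA'
      have hinv : (c₂ / c₁)⁻¹ ∉ A := by rwa [inv_div]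
      exact false_of_pos_on_branches H₂ Nd.s2 _ hρ₂ h0₂ fun i =>
        slope_pos₂ N i f hf (hpole i) c₁ c₂ h₁ h₂ hρ₁ hρ₂ hA'' hinv

end Fermat.Agent.T33.NodalAbs1A
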