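/-
Programme T (S33), nodal layer, chapter N-A continued (helper1): **the kernel of the reduction on
`O₁ ∩ O₂` and the one-sided local theory at a smooth point.**

* `kernel` : `y ∈ O₁ ∩ O₂` with `ρ₁ y = 0` and `ρ₂ y = 0` is `c · y'` with `c ∈ 𝔪_A`,
  `y' ∈ O₁ ∩ O₂` (take the normalising constant of smaller valuation);
* `SidePush c r Sm` : the one-sided push-forward property (the shape of `push₁` / `push₂`), with
  `N.side₁`, `N.side₂`; everything below is proved ONCE for a `SidePush`: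
  - `fibre_sum` : the fibre sum formula, literally in the shape of `FF/UniqueZeroA.RedCtx.fibre_sum`
    (`r P = some Q` instead of `r P = Q`) — the ports of `UniqueZeroA` / `DiscOfRedA` only use this;
  - `ord_ρ_nonneg`, `ord_eq_zero_of_over`, `exists_unique_zero_over`;
  - **evaluation** `value_mem`, `ρ_sub_value` : if `y ∈ O` has no pole over the smooth point `Q` and
    `a` is its value at a place `P` over `Q`, then `a ∈ A` and `ρ y - ā` vanishes at `Q`.
-/
import Mathlib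
import Fermat.Agent.T33.NodalAbs1A

set_option autoImplicit false

open AlgebraicCurve IsLocalRing

namespace Fermat.Agent.T33.NodalAbs1B

open Fermat.Agent.T33.NodalCtx1 Fermat.Agent.T33.NodalCurve6 Fermat.Agent.T33.NodalAbs1A
  Fermat.Agent.X0.FF Fermat.Agent.RR.LSpace

variable {K : Type*} [Field K] {A : ValuationSubring K}
variable {F : Type*} [Field F] [Algebra K F]

/-! ### the kernel of the reduction on `O₁ ∩ O₂` -/

section Kernel

variable {Fb₁ Fb₂ : Type*} [Field Fb₁] [Field Fb₂]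
  [Algebra (ResidueField A) Fb₁] [Algebra (ResidueField A) Fb₂]
variable {ι : Type*} {Nd : NodalData (ResidueField A) Fb₁ Fb₂ ι} (N : NodalRed A F Nd)

/-- **the kernel of `(ρ₁, ρ₂)` on `O₁ ∩ O₂` is `𝔪_A (O₁ ∩ O₂)`.** -/
theorem kernel (y : F) (h₁ : y ∈ N.c₁.O) (h₂ : y ∈ N.c₂.O) (hρ₁ : N.c₁.ρ ⟨y, h₁⟩ = 0)
    (hρ₂ : N.c₂.ρ ⟨y, h₂⟩ = 0) :
    ∃ c : A, c ∈ maximalIdeal A ∧ ∃ y' : F, y' ∈ N.c₁.O ∧ y' ∈ N.c₂.O ∧
      y = algebraMap K F (c : K) * y' := by
  by_cases hy : y = 0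
  · exact ⟨0, Ideal.zero_mem _, 0, N.c₁.O.zero_mem, N.c₂.O.zero_mem, by simp [hy]⟩
  obtain ⟨c, hc, y₁, hy₁⟩ := N.c₁.ρ_ker ⟨y, h₁⟩ hρ₁
  obtain ⟨c', hc', y₂, hy₂⟩ := N.c₂.ρ_ker ⟨y, h₂⟩ hρ₂
  simp only at hy₁ hy₂
  have hc0 : (c : K) ≠ 0 := by
    intro h0
    apply hy
    rw [hy₁, h0, map_zero, zero_mul]
  have hc'0 : (c' : K) ≠ 0 := by
    intro h0
    apply hy
    rw [hy₂, h0, map_zero, zero_mul]
  rcases A.mem_or_inv_mem ((c' : K) / (c : K)) with hA | hA
  · -- `c ∣ c'`: divide by `c`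
    refine ⟨c, hc, (y₁ : F), y₁.2, ?_, hy₁⟩
    have : (y₁ : F) = algebraMap K F ((c' : K) / (c : K)) * (y₂ : F) := by
      have h1 : algebraMap K F (c : K) * (y₁ : F) = algebraMap K F (c' : K) * (y₂ : F) := by
        rw [← hy₁, ← hy₂]
      have hcF : algebraMap K F (c : K) ≠ 0 := by rwa [ne_eq, _root_.map_eq_zero]
      rw [map_div₀]
      field_simp
      rw [mul_comm (y₁ : F), h1, mul_comm]
    rw [this]
    exact mul_const_mem N.c₂ hA y₂.2
  · -- `c' ∣ c`: divide by `c'`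
    rw [inv_div] at hA
    refine ⟨c', hc', (y₂ : F), ?_, y₂.2, hy₂⟩
    have : (y₂ : F) = algebraMap K F ((c : K) / (c' : K)) * (y₁ : F) := by
      have h1 : algebraMap K F (c : K) * (y₁ : F) = algebraMap K F (c' : K) * (y₂ : F) := by
        rw [← hy₁, ← hy₂]
      have hcF : algebraMap K F (c' : K) ≠ 0 := by rwa [ne_eq, _root_.map_eq_zero]
      rw [map_div₀]
      field_simp
      rw [mul_comm (y₂ : F), ← h1, mul_comm]
    rw [this]
    exact mul_const_mem N.c₁ hA y₁.2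

end Kernel

/-! ### the one-sided local theory -/

section Side

variable {Fb : Type*} [Field Fb] [Algebra (ResidueField A) Fb]

/-- the one-sided push-forward property: the shape of `NodalRed.push₁` and `NodalRed.push₂`. -/
structure SidePush (c : HalfRed A F Fb) (r : Place K F → Option (Place (ResidueField A) Fb))
    (Sm : Place (ResidueField A) Fb → Prop) : Prop where
  push : ∀ y : c.O, c.ρ y ≠ 0 → ∀ Q : Place (ResidueField A) Fb, Sm Q →
    ∀ (D : Divisor K F), (∀ P, D P = P.ord (y : F)) →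
      ∀ T : Finset (Place K F), (∀ P, P ∈ T ↔ P ∈ D.support ∧ r P = some Q) →
        ∑ P ∈ T, D P = Q.ord (c.ρ y)

namespace SidePush

variable {c : HalfRed A F Fb} {r : Place K F → Option (Place (ResidueField A) Fb)}
  {Sm : Place (ResidueField A) Fb → Prop} (S : SidePush c r Sm)

theorem coe_ne_zero {y : c.O} (hy : c.ρ y ≠ 0) : (y : F) ≠ 0 := by
  intro h
  apply hy
  have : y = 0 := Subtype.ext h
  rw [this, map_zero]

include S in
/-- **the fibre sum formula** over a smooth point. -/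
theorem fibre_sum (H : LHyp K F) (y : c.O) (hy : c.ρ y ≠ 0) (Q : Place (ResidueField A) Fb)
    (hQ : Sm Q) :
    ∃ s : Finset (Place K F), (∀ P ∈ s, r P = some Q) ∧
      (∀ P, r P = some Q → P ∉ s → P.ord (y : F) = 0) ∧
      ∑ P ∈ s, P.ord (y : F) = Q.ord (c.ρ y) := by
  classical
  set D := divOf H (coe_ne_zero hy) with hD
  refine ⟨D.support.filter (fun P => r P = some Q), fun P hP => (Finset.mem_filter.1 hP).2,
    fun P hP hns => ?_, ?_⟩
  · rw [← divOf_apply H (coe_ne_zero hy) P]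
    by_contra hne
    exact hns (Finset.mem_filter.2 ⟨Finsupp.mem_support_iff.2 hne, hP⟩)
  · rw [← S.push y hy Q hQ D (fun P => divOf_apply H _ P) _ (fun P => Finset.mem_filter)]
    exact Finset.sum_congr rfl fun P _ => (divOf_apply H _ P).symm

include S in
/-- the reduction of a function without poles over `Q` has no pole at `Q`. -/
theorem ord_ρ_nonneg (H : LHyp K F) (y : c.O) (hy : c.ρ y ≠ 0) (Q : Place (ResidueField A) Fb)
    (hQ : Sm Q) (hnn : ∀ P, r P = some Q → 0 ≤ P.ord (y : F)) : 0 ≤ Q.ord (c.ρ y) := by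
  obtain ⟨s, hs, -, hsum⟩ := S.fibre_sum H y hy Q hQ
  rw [← hsum]
  exact Finset.sum_nonneg fun P hP => hnn P (hs P hP)

include S in
/-- if `y` has no poles over `Q` and `ρ y` has neither zero nor pole at `Q`, then `y` has no zero
over `Q`. -/
theorem ord_eq_zero_of_over (H : LHyp K F) (y : c.O) (hy : c.ρ y ≠ 0)
    (Q : Place (ResidueField A) Fb) (hQ : Sm Q) (h0 : Q.ord (c.ρ y) = 0)
    (hnn : ∀ P, r P = some Q → 0 ≤ P.ord (y : F)) (P : Place K F) (hP : r P = some Q) :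
    P.ord (y : F) = 0 := by
  obtain ⟨s, hs, hout, hsum⟩ := S.fibre_sum H y hy Q hQ
  by_cases hPs : P ∈ s
  · exact (Finset.sum_eq_zero_iff_of_nonneg fun P' hP' => hnn P' (hs P' hP')).1
      (hsum.trans h0) P hPs
  · exact hout P hP hPs

include S in
/-- if `y` has no poles over `Q` and `ρ y` has a simple zero at `Q`, then `y` has exactly one zero
over `Q`, and it is simple. -/
theorem exists_unique_zero_over (H : LHyp K F) (y : c.O) (hy : c.ρ y ≠ 0)
    (Q : Place (ResidueField A) Fb) (hQ : Sm Q) (h1 : Q.ord (c.ρ y) = 1)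
    (hnn : ∀ P, r P = some Q → 0 ≤ P.ord (y : F)) :
    ∃ P, r P = some Q ∧ P.ord (y : F) = 1 ∧
      ∀ P', r P' = some Q → P' ≠ P → P'.ord (y : F) = 0 := by
  classical
  obtain ⟨s, hs, hout, hsum⟩ := S.fibre_sum H y hy Q hQ
  have hsum1 : ∑ P ∈ s, P.ord (y : F) = 1 := hsum.trans h1
  have hnn' : ∀ P ∈ s, 0 ≤ P.ord (y : F) := fun P hP => hnn P (hs P hP)
  have hex : ∃ P₀ ∈ s, P₀.ord (y : F) ≠ 0 := by
    by_contra h
    push Not at h
    rw [Finset.sum_eq_zero h] at hsum1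
    exact zero_ne_one hsum1
  obtain ⟨P₀, hP₀, hne⟩ := hex
  have h2 : P₀.ord (y : F) + ∑ P ∈ s.erase P₀, P.ord (y : F) = 1 := by
    rw [Finset.add_sum_erase s (fun P => P.ord (y : F)) hP₀, hsum1]
  have h3 : 0 ≤ ∑ P ∈ s.erase P₀, P.ord (y : F) :=
    Finset.sum_nonneg fun P hP => hnn' P (Finset.mem_of_mem_erase hP)
  have h4 : 0 ≤ P₀.ord (y : F) := hnn' P₀ hP₀
  have h5 : P₀.ord (y : F) = 1 := by omega
  have h6 : ∑ P ∈ s.erase P₀, P.ord (y : F) = 0 := by omega
  refine ⟨P₀, hs P₀ hP₀, h5, fun P' hP' hne' => ?_⟩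
  by_cases hP's : P' ∈ s
  · exact (Finset.sum_eq_zero_iff_of_nonneg fun P hP =>
      hnn' P (Finset.mem_of_mem_erase hP)).1 h6 P' (Finset.mem_erase.2 ⟨hne', hP's⟩)
  · exact hout P' hP' hP's

/-- `y - a` has no pole where `y` has none. -/
theorem ord_sub_const_nonneg {y : F} (a : K) (hne : y - algebraMap K F a ≠ 0) (P : Place K F)
    (hP : 0 ≤ P.ord y) : 0 ≤ P.ord (y - algebraMap K F a) := by
  have h2 := ord_sub_ge P hne
  rw [ord_algebraMap] at h2
  exact le_trans (le_min hP le_rfl) h2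

include S in
/-- **evaluation, integrality**: the value at a place over a smooth point `Q` of a function of `O`
without poles over `Q` lies in `A`. -/
theorem value_mem (H : LHyp K F) (y : c.O) (Q : Place (ResidueField A) Fb) (hQ : Sm Q)
    (hnn : ∀ P, r P = some Q → 0 ≤ P.ord (y : F)) (P : Place K F) (hP : r P = some Q) (a : K)
    (ha : (y : F) = algebraMap K F a ∨ 0 < P.ord ((y : F) - algebraMap K F a)) : a ∈ A := by
  by_contra hnA
  have hinv : a⁻¹ ∈ A := (A.mem_or_inv_mem a).resolve_left hnA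
  have ha0 : a ≠ 0 := fun h => hnA (h ▸ A.zero_mem)
  have hmax : (⟨a⁻¹, hinv⟩ : A) ∈ maximalIdeal A :=
    mem_maximalIdeal_of_inv_not_mem hinv (by rwa [inv_inv])
  have hρc : algebraMap (ResidueField A) Fb (residue A ⟨a⁻¹, hinv⟩) = 0 := by
    rw [(IsLocalRing.residue_eq_zero_iff _).2 hmax, map_zero]
  -- `z = a⁻¹ y - 1`
  have hz : algebraMap K F a⁻¹ * (y : F) - 1 ∈ c.O :=
    c.O.sub_mem (mul_const_mem c hinv y.2) c.O.one_mem
  have hρz : c.ρ ⟨_, hz⟩ = -1 := by
    have : (⟨algebraMap K F a⁻¹ * (y : F) - 1, hz⟩ : c.O) =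
        ⟨_, mul_const_mem c hinv y.2⟩ - 1 := rfl
    rw [this, map_sub, map_one, ρ_mul_const c hinv y.2, hρc, zero_mul, zero_sub]
  have hρz0 : c.ρ ⟨_, hz⟩ ≠ 0 := by rw [hρz]; exact neg_ne_zero.2 one_ne_zero
  have hzF : algebraMap K F a⁻¹ * (y : F) - 1 =
      algebraMap K F a⁻¹ * ((y : F) - algebraMap K F a) := by
    rw [mul_sub, ← map_mul, inv_mul_cancel₀ ha0, map_one]
  have hca : algebraMap K F a⁻¹ ≠ 0 := by
    rw [Ne, _root_.map_eq_zero]; exact inv_ne_zero ha0
  have hnc : (y : F) - algebraMap K F a ≠ 0 := by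
    intro h0
    apply hρz0
    have : (⟨algebraMap K F a⁻¹ * (y : F) - 1, hz⟩ : c.O) = 0 :=
      Subtype.ext (by
        show algebraMap K F a⁻¹ * (y : F) - 1 = 0
        rw [hzF, h0, mul_zero])
    rw [this, map_zero]
  have hord : ∀ P' : Place K F, P'.ord (algebraMap K F a⁻¹ * (y : F) - 1) =
      P'.ord ((y : F) - algebraMap K F a) := by
    intro P'
    rw [hzF, P'.ord_mul hca hnc, ord_algebraMap, zero_add]
  have h0 : Q.ord (c.ρ ⟨_, hz⟩) = 0 := by rw [hρz, ord_neg, Place.ord_one]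
  have := S.ord_eq_zero_of_over H ⟨_, hz⟩ hρz0 Q hQ h0 (fun P' hP' => by
    show 0 ≤ P'.ord (algebraMap K F a⁻¹ * (y : F) - 1)
    rw [hord]
    exact ord_sub_const_nonneg a hnc P' (hnn P' hP')) P hP
  have h1 : P.ord ((y : F) - algebraMap K F a) = 0 := by
    rw [← hord]; exact this
  rcases ha with h | h
  · exact hnc (sub_eq_zero.2 h)
  · omega

include S in
/-- **evaluation, reduction**: the value reduces to the value of the reduction. -/
theorem ρ_sub_value (H : LHyp K F) (y : c.O) (Q : Place (ResidueField A) Fb) (hQ : Sm Q)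
    (hnn : ∀ P, r P = some Q → 0 ≤ P.ord (y : F)) (P : Place K F) (hP : r P = some Q) (a : A)
    (ha : (y : F) = algebraMap K F (a : K) ∨ 0 < P.ord ((y : F) - algebraMap K F (a : K))) :
    c.ρ y - algebraMap (ResidueField A) Fb (residue A a) ∈ vanishing Q := by
  classical
  have hz : (y : F) - algebraMap K F (a : K) ∈ c.O := c.O.sub_mem y.2 (c.algebraMap_mem a)
  have hρz : c.ρ ⟨_, hz⟩ = c.ρ y - algebraMap (ResidueField A) Fb (residue A a) := by
    have : (⟨(y : F) - algebraMap K F (a : K), hz⟩ : c.O) =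
        y - ⟨_, c.algebraMap_mem a⟩ := rfl
    rw [this, map_sub, c.ρ_algebraMap]
  rw [← hρz]
  by_cases hρ0 : c.ρ ⟨_, hz⟩ = 0
  · exact Or.inl hρ0
  right
  have hz0 : (y : F) - algebraMap K F (a : K) ≠ 0 := coe_ne_zero (y := ⟨_, hz⟩) hρ0
  have hpos : 0 < P.ord ((y : F) - algebraMap K F (a : K)) := by
    rcases ha with h | h
    · exact absurd (sub_eq_zero.2 h) hz0
    · exact h
  obtain ⟨s, hs, hout, hsum⟩ := S.fibre_sum H ⟨_, hz⟩ hρ0 Q hQ
  have hPs : P ∈ s := by
    by_contra hPs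
    have := hout P hP hPs
    simp only at this
    omega
  have hnn' : ∀ P' ∈ s, 0 ≤ P'.ord ((y : F) - algebraMap K F (a : K)) := fun P' hP' =>
    ord_sub_const_nonneg _ hz0 P' (hnn P' (hs P' hP'))
  have := Finset.single_le_sum hnn' hPs
  rw [← hsum]
  simp only
  omega

end SidePush

end Side

/-! ### the two sides of a nodal reduction context -/

section Sides

variable {Fb₁ Fb₂ : Type*} [Field Fb₁] [Field Fb₂]
  [Algebra (ResidueField A) Fb₁] [Algebra (ResidueField A) Fb₂]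
variable {ι : Type*} {Nd : NodalData (ResidueField A) Fb₁ Fb₂ ι} (N : NodalRed A F Nd)

theorem side₁ : SidePush N.c₁ N.r₁ Nd.Smooth1 := ⟨N.push₁⟩

theorem side₂ : SidePush N.c₂ N.r₂ Nd.Smooth2 := ⟨N.push₂⟩

end Sides

end Fermat.Agent.T33.NodalAbs1B
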