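/-
Programme T (S33), nodal layer, contract (a), supplement (helper1): **the nodal reduction context
WITHOUT the connectedness field.**

`NodalCtx1.NodalRed` carries the field `node_nonempty : Nonempty ι` (the special fibre is
connected).  For `X₀(pM')` this has no direct source; it is a CONSEQUENCE of the lifting bound
`LiftBound` (`g_a ≥ g` with `g_a = 2 g' + #ι - 1`) and of the two genus formulas
(`#ι ≥ g(pM') - 2 g(M') + 1 > 0`).  The lifting chapter (N1′) must therefore be proved for a context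
that does not yet know `Nonempty ι`.  This file provides that context:

* `NodalPre A F Nd` : all the fields of `NodalRed A F Nd` except `node_nonempty`;
* `NodalRed.toPre`, `NodalPre.toRed (h : Nonempty ι)` and the projections lemmas;
* `kernel_half` : the kernel of `(ρ₁, ρ₂)` on `O₁ ∩ O₂` is `𝔪_A (O₁ ∩ O₂)`, for a bare pair of
  `HalfRed`s (this is `NodalAbs1B.kernel`, which never used the rest of the context);
* `NodalPre.side₁`, `NodalPre.side₂` : the one-sided push-forward packages `NodalAbs1B.SidePush`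
  (so `fibre_sum`, `ord_ρ_nonneg`, `ord_eq_zero_of_over`, `exists_unique_zero_over`, `value_mem`,
  `ρ_sub_value` are available for a `NodalPre`).
-/
import Mathlib
import Fermat.Agent.T33.NodalAbs1B

set_option autoImplicit false

open AlgebraicCurve IsLocalRing

namespace Fermat.Agent.T33.NodalCtx1B

open Fermat.Agent.T33.NodalCtx1 Fermat.Agent.T33.NodalCurve6 Fermat.Agent.T33.NodalAbs1A
  Fermat.Agent.T33.NodalAbs1B

variable {K : Type*} [Field K] (A : ValuationSubring K)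
variable (F : Type*) [Field F] [Algebra K F]
variable {Fb₁ Fb₂ : Type*} [Field Fb₁] [Field Fb₂]
  [Algebra (ResidueField A) Fb₁] [Algebra (ResidueField A) Fb₂]
variable {ι : Type*}

/-- **the two-component nodal reduction context, without connectedness**: the fields of
`NodalCtx1.NodalRed` except `node_nonempty`. -/
structure NodalPre (Nd : NodalData (ResidueField A) Fb₁ Fb₂ ι) where
  /-- the component `C₁`. -/
  c₁ : HalfRed A F Fb₁
  /-- the component `C₂`. -/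
  c₂ : HalfRed A F Fb₂
  /-- the point of `C₁` to which a place reduces, if it reduces to `C₁`. -/
  r₁ : Place K F → Option (Place (ResidueField A) Fb₁)
  /-- the point of `C₂` to which a place reduces, if it reduces to `C₂`. -/
  r₂ : Place K F → Option (Place (ResidueField A) Fb₂)
  total : ∀ P : Place K F, r₁ P ≠ none ∨ r₂ P ≠ none
  node_iff : ∀ (P : Place K F) (i : ι), r₁ P = some (Nd.s1 i) ↔ r₂ P = some (Nd.s2 i)
  smooth₁ : ∀ (P : Place K F) (Q : Place (ResidueField A) Fb₁), r₁ P = some Q →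
    Nd.Smooth1 Q → r₂ P = none
  smooth₂ : ∀ (P : Place K F) (Q : Place (ResidueField A) Fb₂), r₂ P = some Q →
    Nd.Smooth2 Q → r₁ P = none
  push₁ : ∀ y : c₁.O, c₁.ρ y ≠ 0 → ∀ Q : Place (ResidueField A) Fb₁, Nd.Smooth1 Q →
    ∀ (D : Divisor K F), (∀ P, D P = P.ord (y : F)) →
      ∀ T : Finset (Place K F), (∀ P, P ∈ T ↔ P ∈ D.support ∧ r₁ P = some Q) →
        ∑ P ∈ T, D P = Q.ord (c₁.ρ y)
  push₂ : ∀ y : c₂.O, c₂.ρ y ≠ 0 → ∀ Q : Place (ResidueField A) Fb₂, Nd.Smooth2 Q →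
    ∀ (D : Divisor K F), (∀ P, D P = P.ord (y : F)) →
      ∀ T : Finset (Place K F), (∀ P, P ∈ T ↔ P ∈ D.support ∧ r₂ P = some Q) →
        ∑ P ∈ T, D P = Q.ord (c₂.ρ y)
  glue : ∀ (i : ι) (y : F) (h₁ : y ∈ c₁.O) (h₂ : y ∈ c₂.O),
    (∀ P : Place K F, r₁ P = some (Nd.s1 i) → y = 0 ∨ 0 ≤ P.ord y) →
      ((c₁.ρ ⟨y, h₁⟩, c₂.ρ ⟨y, h₂⟩) : Fb₁ × Fb₂) ∈ Nd.compatAt i

variable {A F}
variable {Nd : NodalData (ResidueField A) Fb₁ Fb₂ ι}

/-- forget connectedness. -/
def toPre (N : NodalRed A F Nd) : NodalPre A F Nd where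
  c₁ := N.c₁
  c₂ := N.c₂
  r₁ := N.r₁
  r₂ := N.r₂
  total := N.total
  node_iff := N.node_iff
  smooth₁ := N.smooth₁
  smooth₂ := N.smooth₂
  push₁ := N.push₁
  push₂ := N.push₂
  glue := N.glue

namespace NodalPre

variable (P : NodalPre A F Nd)

/-- a context with at least one node is a `NodalRed`. -/
def toRed (h : Nonempty ι) : NodalRed A F Nd where
  c₁ := P.c₁
  c₂ := P.c₂
  node_nonempty := h
  r₁ := P.r₁
  r₂ := P.r₂
  total := P.total
  node_iff := P.node_iff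
  smooth₁ := P.smooth₁
  smooth₂ := P.smooth₂
  push₁ := P.push₁
  push₂ := P.push₂
  glue := P.glue

@[simp] theorem toRed_c₁ (h : Nonempty ι) : (P.toRed h).c₁ = P.c₁ := rfl
@[simp] theorem toRed_c₂ (h : Nonempty ι) : (P.toRed h).c₂ = P.c₂ := rfl
@[simp] theorem toRed_r₁ (h : Nonempty ι) : (P.toRed h).r₁ = P.r₁ := rfl
@[simp] theorem toRed_r₂ (h : Nonempty ι) : (P.toRed h).r₂ = P.r₂ := rfl
@[simp] theorem toPre_toRed (h : Nonempty ι) : toPre (P.toRed h) = P := rfl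

/-- the semilocal ring `O₁ ∩ O₂`. -/
def O : Subring F := P.c₁.O ⊓ P.c₂.O

theorem side₁ : SidePush P.c₁ P.r₁ Nd.Smooth1 := ⟨P.push₁⟩

theorem side₂ : SidePush P.c₂ P.r₂ Nd.Smooth2 := ⟨P.push₂⟩

end NodalPre

@[simp] theorem toPre_c₁ (N : NodalRed A F Nd) : (toPre N).c₁ = N.c₁ := rfl
@[simp] theorem toPre_c₂ (N : NodalRed A F Nd) : (toPre N).c₂ = N.c₂ := rfl
@[simp] theorem toPre_r₁ (N : NodalRed A F Nd) : (toPre N).r₁ = N.r₁ := rfl
@[simp] theorem toPre_r₂ (N : NodalRed A F Nd) : (toPre N).r₂ = N.r₂ := rfl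
@[simp] theorem toPre_O (N : NodalRed A F Nd) : (toPre N).O = N.O := rfl

/-- **the kernel of `(ρ₁, ρ₂)` on `O₁ ∩ O₂` is `𝔪_A (O₁ ∩ O₂)`**, for a bare pair of Gauss rings
(`NodalAbs1B.kernel` without the rest of the context). -/
theorem kernel_half (c₁ : HalfRed A F Fb₁) (c₂ : HalfRed A F Fb₂) (y : F) (h₁ : y ∈ c₁.O)
    (h₂ : y ∈ c₂.O) (hρ₁ : c₁.ρ ⟨y, h₁⟩ = 0) (hρ₂ : c₂.ρ ⟨y, h₂⟩ = 0) :
    ∃ c : A, c ∈ maximalIdeal A ∧ ∃ y' : F, y' ∈ c₁.O ∧ y' ∈ c₂.O ∧
      y = algebraMap K F (c : K) * y' := by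
  by_cases hy : y = 0
  · exact ⟨0, Ideal.zero_mem _, 0, c₁.O.zero_mem, c₂.O.zero_mem, by simp [hy]⟩
  obtain ⟨c, hc, y₁, hy₁⟩ := c₁.ρ_ker ⟨y, h₁⟩ hρ₁
  obtain ⟨c', hc', y₂, hy₂⟩ := c₂.ρ_ker ⟨y, h₂⟩ hρ₂
  simp only at hy₁ hy₂
  have hc0 : (c : K) ≠ 0 := by
    intro h0
    apply hy
    rw [hy₁, h0, map_zero, zero_mul]
  have hc'0 : (c' : K) ≠ 0 := by
    intro h0
    apply hy
    rw [hy₂, h0, map_zero, zero_mul]
  rcases A.mem_or_inv_mem ((c' : K) / (c : K)) with hA | hA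
  · refine ⟨c, hc, (y₁ : F), y₁.2, ?_, hy₁⟩
    have : (y₁ : F) = algebraMap K F ((c' : K) / (c : K)) * (y₂ : F) := by
      have h1 : algebraMap K F (c : K) * (y₁ : F) = algebraMap K F (c' : K) * (y₂ : F) := by
        rw [← hy₁, ← hy₂]
      have hcF : algebraMap K F (c : K) ≠ 0 := by rwa [ne_eq, _root_.map_eq_zero]
      rw [map_div₀]
      field_simp
      rw [mul_comm (y₁ : F), h1, mul_comm]
    rw [this]
    exact mul_const_mem c₂ hA y₂.2
  · rw [inv_div] at hA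
    refine ⟨c', hc', (y₂ : F), ?_, y₂.2, hy₂⟩
    have : (y₂ : F) = algebraMap K F ((c : K) / (c' : K)) * (y₁ : F) := by
      have h1 : algebraMap K F (c : K) * (y₁ : F) = algebraMap K F (c' : K) * (y₂ : F) := by
        rw [← hy₁, ← hy₂]
      have hcF : algebraMap K F (c' : K) ≠ 0 := by rwa [ne_eq, _root_.map_eq_zero]
      rw [map_div₀]
      field_simp
      rw [mul_comm (y₂ : F), ← h1, mul_comm]
    rw [this]
    exact mul_const_mem c₁ hA y₁.2

end Fermat.Agent.T33.NodalCtx1B
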