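/-
Programme T (S33), chapter (e) "N34 over ℚ̄", block (R) (helper1), abstract half: **from a centre
map to the partial reductions of places.**

The model side of chapter (e) produces, for the two-chart model of `X₀(M'p)` over a valuation ring
`A` of `ℚ̄`: a set `Pt` of closed points of the special fibre, the CENTRE `ctr P : Pt` of every place
`P` of the generic fibre, the two components `On₁`, `On₂ ⊆ Pt` (closed points containing the vertical
prime `𝔭₁`, resp. `𝔭₂`), covering all centres, and the identifications `e_j` of the points of the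
`j`-th component with places of its function field `Fb_j` (injective).  This file turns such a
`CentreData` into the bookkeeping fields of `NodalCtx1.NodalRed`:

* `CentreData.Node := {x // On₁ x ∧ On₂ x}`, `CentreData.nodalData : NodalData κ Fb₁ Fb₂ Node`
  (`s1 i = e₁ i`, `s2 i = e₂ i`);
* `CentreData.r₁`, `r₂ : Place K F → Option (Place κ Fb_j)` (`r_j P = some (e_j (ctr P))` if
  `ctr P` lies on the `j`-th component), with `r₁_eq_some_iff`, `r₁_eq_none_iff`, …;
* `total`, `node_iff`, `smooth₁`, `smooth₂` (the literal fields of `NodalRed`);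
* fibres: `r₁_eq_some_e₁_iff : r₁ P = some (e₁ x) ↔ ctr P = x`, `smooth1_iff`, `redToNode_iff`;
* `CentreData.mkNodalRed` : the `NodalRed` (and `mkNodalPre` : the `NodalPre`) of a `CentreData`, two
  Gauss rings, and the three geometric axioms `push₁`, `push₂`, `glue` STATED ON CENTRES:
  `push_j` at a point `x` of the `j`-th component only, `glue` at a point of both.

RAW FORM (no type of closed points): `RawRed A F Fb₁ Fb₂` = two partial reductions `r₁`, `r₂` with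
`total` and the uniqueness property `(U)`: `r_j P = r_j P' = some Q` implies `r_k P = r_k P'`
(the closed point of the model is determined by its image on either component through it).
`RawRed.Node := {(Q₁, Q₂) | ∃ P, r₁ P = some Q₁ ∧ r₂ P = some Q₂}`, `RawRed.nodalData`,
`node_iff`, `smooth1_iff : Smooth1 Q ↔ ∀ P, r₁ P = some Q → r₂ P = none`, `smooth₁/₂`,
`finite_node`, `RawRed.mkNodalPre` / `mkNodalRed` (the geometric axioms asked WITHOUT reference to
the gluing datum: `push_j` at the points over which nothing reduces to the other component, `glue`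
at every pair of branches with a witness place), `RawRed.compat_of` (`NodalRed.Compat` from the
seven invariance statements).
-/
import Mathlib
import Fermat.Agent.T33.NodalCtx1B

set_option autoImplicit false

open AlgebraicCurve IsLocalRing

namespace Fermat.Agent.T33.NodalPlaces1

open Fermat.Agent.T33.NodalCtx1 Fermat.Agent.T33.NodalCtx1B Fermat.Agent.T33.NodalCurve6

variable {K : Type*} [Field K] (A : ValuationSubring K)
variable (F : Type*) [Field F] [Algebra K F]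
variable (Fb₁ Fb₂ : Type*) [Field Fb₁] [Field Fb₂]
  [Algebra (ResidueField A) Fb₁] [Algebra (ResidueField A) Fb₂]

/-- **centres of the places of the generic fibre on a two-component special fibre.** -/
structure CentreData (Pt : Type*) where
  /-- the closed point of the special fibre to which a place specialises. -/
  ctr : Place K F → Pt
  /-- the point lies on the first component. -/
  On₁ : Pt → Prop
  /-- the point lies on the second component. -/
  On₂ : Pt → Prop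
  total : ∀ P : Place K F, On₁ (ctr P) ∨ On₂ (ctr P)
  /-- the points of the first component, as places of its function field. -/
  e₁ : {x : Pt // On₁ x} → Place (ResidueField A) Fb₁
  /-- the points of the second component, as places of its function field. -/
  e₂ : {x : Pt // On₂ x} → Place (ResidueField A) Fb₂
  e₁_inj : Function.Injective e₁
  e₂_inj : Function.Injective e₂
  /-- the components are complete: every place of `Fb₁` is a point of the first component. -/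
  e₁_surj : Function.Surjective e₁
  e₂_surj : Function.Surjective e₂

namespace CentreData

variable {A F Fb₁ Fb₂}
variable {Pt : Type*} (C : CentreData A F Fb₁ Fb₂ Pt)

/-- the nodes: the points lying on both components. -/
abbrev Node : Type _ := {x : Pt // C.On₁ x ∧ C.On₂ x}

/-- the gluing datum of the special fibre. -/
def nodalData : NodalData (ResidueField A) Fb₁ Fb₂ C.Node where
  s1 i := C.e₁ ⟨i.1, i.2.1⟩
  s2 i := C.e₂ ⟨i.1, i.2.2⟩
  s1_inj _ _ h := Subtype.ext (congrArg (fun z : {x : Pt // C.On₁ x} => z.1) (C.e₁_inj h))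
  s2_inj _ _ h := Subtype.ext (congrArg (fun z : {x : Pt // C.On₂ x} => z.1) (C.e₂_inj h))

@[simp] theorem nodalData_s1 (i : C.Node) : C.nodalData.s1 i = C.e₁ ⟨i.1, i.2.1⟩ := rfl
@[simp] theorem nodalData_s2 (i : C.Node) : C.nodalData.s2 i = C.e₂ ⟨i.1, i.2.2⟩ := rfl

open Classical in
/-- the point of the first component to which `P` reduces, if any. -/
noncomputable def r₁ (P : Place K F) : Option (Place (ResidueField A) Fb₁) :=
  if h : C.On₁ (C.ctr P) then some (C.e₁ ⟨C.ctr P, h⟩) else none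

open Classical in
/-- the point of the second component to which `P` reduces, if any. -/
noncomputable def r₂ (P : Place K F) : Option (Place (ResidueField A) Fb₂) :=
  if h : C.On₂ (C.ctr P) then some (C.e₂ ⟨C.ctr P, h⟩) else none

theorem r₁_eq_some_iff (P : Place K F) (Q : Place (ResidueField A) Fb₁) :
    C.r₁ P = some Q ↔ ∃ h : C.On₁ (C.ctr P), C.e₁ ⟨C.ctr P, h⟩ = Q := by
  unfold r₁
  constructor
  · intro h
    split_ifs at h with h1
    exact ⟨h1, Option.some.inj h⟩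
  · rintro ⟨h1, rfl⟩
    rw [dif_pos h1]

theorem r₂_eq_some_iff (P : Place K F) (Q : Place (ResidueField A) Fb₂) :
    C.r₂ P = some Q ↔ ∃ h : C.On₂ (C.ctr P), C.e₂ ⟨C.ctr P, h⟩ = Q := by
  unfold r₂
  constructor
  · intro h
    split_ifs at h with h1
    exact ⟨h1, Option.some.inj h⟩
  · rintro ⟨h1, rfl⟩
    rw [dif_pos h1]

theorem r₁_eq_none_iff (P : Place K F) : C.r₁ P = none ↔ ¬ C.On₁ (C.ctr P) := by
  unfold r₁
  constructor
  · intro h h1
    rw [dif_pos h1] at h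
    exact absurd h (by simp)
  · intro h1
    rw [dif_neg h1]

theorem r₂_eq_none_iff (P : Place K F) : C.r₂ P = none ↔ ¬ C.On₂ (C.ctr P) := by
  unfold r₂
  constructor
  · intro h h1
    rw [dif_pos h1] at h
    exact absurd h (by simp)
  · intro h1
    rw [dif_neg h1]

/-- the fibre of `r₁` over the point `x` of the first component is the set of places centred at
`x`. -/
theorem r₁_eq_some_e₁_iff (P : Place K F) (x : {x : Pt // C.On₁ x}) :
    C.r₁ P = some (C.e₁ x) ↔ C.ctr P = x.1 := by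
  rw [r₁_eq_some_iff]
  constructor
  · rintro ⟨h, he⟩
    exact congrArg Subtype.val (C.e₁_inj he)
  · intro h
    have h1 : C.On₁ (C.ctr P) := by rw [h]; exact x.2
    exact ⟨h1, congrArg C.e₁ (Subtype.ext h)⟩

theorem r₂_eq_some_e₂_iff (P : Place K F) (x : {x : Pt // C.On₂ x}) :
    C.r₂ P = some (C.e₂ x) ↔ C.ctr P = x.1 := by
  rw [r₂_eq_some_iff]
  constructor
  · rintro ⟨h, he⟩
    exact congrArg Subtype.val (C.e₂_inj he)
  · intro h
    have h1 : C.On₂ (C.ctr P) := by rw [h]; exact x.2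
    exact ⟨h1, congrArg C.e₂ (Subtype.ext h)⟩

theorem total' (P : Place K F) : C.r₁ P ≠ none ∨ C.r₂ P ≠ none := by
  rcases C.total P with h | h
  · left
    rw [Ne, r₁_eq_none_iff]
    exact fun hn => hn h
  · right
    rw [Ne, r₂_eq_none_iff]
    exact fun hn => hn h

/-- a place reduces to the first branch of the node `i` iff it is centred at `i`. -/
theorem r₁_eq_s1_iff (P : Place K F) (i : C.Node) :
    C.r₁ P = some (C.nodalData.s1 i) ↔ C.ctr P = i.1 :=
  C.r₁_eq_some_e₁_iff P ⟨i.1, i.2.1⟩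

theorem r₂_eq_s2_iff (P : Place K F) (i : C.Node) :
    C.r₂ P = some (C.nodalData.s2 i) ↔ C.ctr P = i.1 :=
  C.r₂_eq_some_e₂_iff P ⟨i.1, i.2.2⟩

theorem node_iff (P : Place K F) (i : C.Node) :
    C.r₁ P = some (C.nodalData.s1 i) ↔ C.r₂ P = some (C.nodalData.s2 i) := by
  rw [r₁_eq_s1_iff, r₂_eq_s2_iff]

/-- the point `e₁ x` is a smooth point of the first component iff `x` does not lie on the
second. -/
theorem smooth1_iff (x : {x : Pt // C.On₁ x}) : C.nodalData.Smooth1 (C.e₁ x) ↔ ¬ C.On₂ x.1 := by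
  constructor
  · intro h h2
    exact h ⟨x.1, x.2, h2⟩ rfl
  · intro h i hi
    apply h
    have : x = ⟨i.1, i.2.1⟩ := C.e₁_inj hi
    rw [this]
    exact i.2.2

theorem smooth2_iff (x : {x : Pt // C.On₂ x}) : C.nodalData.Smooth2 (C.e₂ x) ↔ ¬ C.On₁ x.1 := by
  constructor
  · intro h h1
    exact h ⟨x.1, h1, x.2⟩ rfl
  · intro h i hi
    apply h
    have : x = ⟨i.1, i.2.2⟩ := C.e₂_inj hi
    rw [this]
    exact i.2.1

theorem smooth₁ (P : Place K F) (Q : Place (ResidueField A) Fb₁) (h : C.r₁ P = some Q)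
    (hQ : C.nodalData.Smooth1 Q) : C.r₂ P = none := by
  obtain ⟨h1, rfl⟩ := (C.r₁_eq_some_iff P Q).1 h
  rw [r₂_eq_none_iff]
  exact (C.smooth1_iff ⟨C.ctr P, h1⟩).1 hQ

theorem smooth₂ (P : Place K F) (Q : Place (ResidueField A) Fb₂) (h : C.r₂ P = some Q)
    (hQ : C.nodalData.Smooth2 Q) : C.r₁ P = none := by
  obtain ⟨h2, rfl⟩ := (C.r₂_eq_some_iff P Q).1 h
  rw [r₁_eq_none_iff]
  exact (C.smooth2_iff ⟨C.ctr P, h2⟩).1 hQ

/-- **the nodal reduction context (without connectedness) of a centre map**: the bookkeeping fields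
are formal; the three geometric axioms are asked ON CENTRES — `push_j` at every point of the `j`-th
component not on the other one, `glue` at every point of both. -/
noncomputable def mkNodalPre (c₁ : HalfRed A F Fb₁) (c₂ : HalfRed A F Fb₂)
    (hpush₁ : ∀ (x : Pt) (hx : C.On₁ x), ¬ C.On₂ x → ∀ y : c₁.O, c₁.ρ y ≠ 0 →
      ∀ (D : Divisor K F), (∀ P, D P = P.ord (y : F)) →
        ∀ T : Finset (Place K F), (∀ P, P ∈ T ↔ P ∈ D.support ∧ C.ctr P = x) →
          ∑ P ∈ T, D P = (C.e₁ ⟨x, hx⟩).ord (c₁.ρ y))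
    (hpush₂ : ∀ (x : Pt) (hx : C.On₂ x), ¬ C.On₁ x → ∀ y : c₂.O, c₂.ρ y ≠ 0 →
      ∀ (D : Divisor K F), (∀ P, D P = P.ord (y : F)) →
        ∀ T : Finset (Place K F), (∀ P, P ∈ T ↔ P ∈ D.support ∧ C.ctr P = x) →
          ∑ P ∈ T, D P = (C.e₂ ⟨x, hx⟩).ord (c₂.ρ y))
    (hglue : ∀ (i : C.Node) (y : F) (h₁ : y ∈ c₁.O) (h₂ : y ∈ c₂.O),
      (∀ P : Place K F, C.ctr P = i.1 → y = 0 ∨ 0 ≤ P.ord y) →
        ((c₁.ρ ⟨y, h₁⟩, c₂.ρ ⟨y, h₂⟩) : Fb₁ × Fb₂) ∈ C.nodalData.compatAt i) :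
    NodalPre A F C.nodalData where
  c₁ := c₁
  c₂ := c₂
  r₁ := C.r₁
  r₂ := C.r₂
  total := C.total'
  node_iff := C.node_iff
  smooth₁ := C.smooth₁
  smooth₂ := C.smooth₂
  push₁ y hy Q hQ D hD T hT := by
    obtain ⟨x, rfl⟩ := C.e₁_surj Q
    exact hpush₁ x.1 x.2 ((C.smooth1_iff x).1 hQ) y hy D hD T (fun P => by
      rw [hT P, r₁_eq_some_e₁_iff])
  push₂ y hy Q hQ D hD T hT := by
    obtain ⟨x, rfl⟩ := C.e₂_surj Q
    exact hpush₂ x.1 x.2 ((C.smooth2_iff x).1 hQ) y hy D hD T (fun P => by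
      rw [hT P, r₂_eq_some_e₂_iff])
  glue i y h₁ h₂ hpole :=
    hglue i y h₁ h₂ (fun P hP => hpole P ((C.r₁_eq_s1_iff P i).2 hP))

/-- **the nodal reduction context of a centre map** with at least one node. -/
noncomputable def mkNodalRed (c₁ : HalfRed A F Fb₁) (c₂ : HalfRed A F Fb₂)
    (hnode : ∃ x : Pt, C.On₁ x ∧ C.On₂ x)
    (hpush₁ : ∀ (x : Pt) (hx : C.On₁ x), ¬ C.On₂ x → ∀ y : c₁.O, c₁.ρ y ≠ 0 →
      ∀ (D : Divisor K F), (∀ P, D P = P.ord (y : F)) →
        ∀ T : Finset (Place K F), (∀ P, P ∈ T ↔ P ∈ D.support ∧ C.ctr P = x) →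
          ∑ P ∈ T, D P = (C.e₁ ⟨x, hx⟩).ord (c₁.ρ y))
    (hpush₂ : ∀ (x : Pt) (hx : C.On₂ x), ¬ C.On₁ x → ∀ y : c₂.O, c₂.ρ y ≠ 0 →
      ∀ (D : Divisor K F), (∀ P, D P = P.ord (y : F)) →
        ∀ T : Finset (Place K F), (∀ P, P ∈ T ↔ P ∈ D.support ∧ C.ctr P = x) →
          ∑ P ∈ T, D P = (C.e₂ ⟨x, hx⟩).ord (c₂.ρ y))
    (hglue : ∀ (i : C.Node) (y : F) (h₁ : y ∈ c₁.O) (h₂ : y ∈ c₂.O),
      (∀ P : Place K F, C.ctr P = i.1 → y = 0 ∨ 0 ≤ P.ord y) →
        ((c₁.ρ ⟨y, h₁⟩, c₂.ρ ⟨y, h₂⟩) : Fb₁ × Fb₂) ∈ C.nodalData.compatAt i) :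
    NodalRed A F C.nodalData :=
  (C.mkNodalPre c₁ c₂ hpush₁ hpush₂ hglue).toRed
    (by obtain ⟨x, hx⟩ := hnode; exact ⟨⟨x, hx⟩⟩)

@[simp] theorem mkNodalRed_r₁ (c₁ : HalfRed A F Fb₁) (c₂ : HalfRed A F Fb₂) (hnode) (hpush₁)
    (hpush₂) (hglue) : (C.mkNodalRed c₁ c₂ hnode hpush₁ hpush₂ hglue).r₁ = C.r₁ := rfl

@[simp] theorem mkNodalRed_r₂ (c₁ : HalfRed A F Fb₁) (c₂ : HalfRed A F Fb₂) (hnode) (hpush₁)
    (hpush₂) (hglue) : (C.mkNodalRed c₁ c₂ hnode hpush₁ hpush₂ hglue).r₂ = C.r₂ := rfl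

@[simp] theorem mkNodalRed_c₁ (c₁ : HalfRed A F Fb₁) (c₂ : HalfRed A F Fb₂) (hnode) (hpush₁)
    (hpush₂) (hglue) : (C.mkNodalRed c₁ c₂ hnode hpush₁ hpush₂ hglue).c₁ = c₁ := rfl

@[simp] theorem mkNodalRed_c₂ (c₁ : HalfRed A F Fb₁) (c₂ : HalfRed A F Fb₂) (hnode) (hpush₁)
    (hpush₂) (hglue) : (C.mkNodalRed c₁ c₂ hnode hpush₁ hpush₂ hglue).c₂ = c₂ := rfl

end CentreData


/-! ### the raw form: two partial reductions with the uniqueness property -/

/-- **two partial reductions of places with the uniqueness property** `(U)`: two places with the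
same reduction on one component have the same reduction on the other (the closed point of the model
is determined by its image on either component through it). -/
structure RawRed where
  r₁ : Place K F → Option (Place (ResidueField A) Fb₁)
  r₂ : Place K F → Option (Place (ResidueField A) Fb₂)
  total : ∀ P : Place K F, r₁ P ≠ none ∨ r₂ P ≠ none
  uniq₁ : ∀ (P P' : Place K F) (Q : Place (ResidueField A) Fb₁), r₁ P = some Q → r₁ P' = some Q →
    r₂ P = r₂ P'
  uniq₂ : ∀ (P P' : Place K F) (Q : Place (ResidueField A) Fb₂), r₂ P = some Q → r₂ P' = some Q →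
    r₁ P = r₁ P'

namespace RawRed

variable {A F Fb₁ Fb₂}
variable (R : RawRed A F Fb₁ Fb₂)

/-- the nodes: the pairs of branches `(Q₁, Q₂)` to which some place reduces simultaneously. -/
abbrev Node : Type _ :=
  {q : Place (ResidueField A) Fb₁ × Place (ResidueField A) Fb₂ //
    ∃ P : Place K F, R.r₁ P = some q.1 ∧ R.r₂ P = some q.2}

/-- the gluing datum of the special fibre. -/
def nodalData : NodalData (ResidueField A) Fb₁ Fb₂ R.Node where
  s1 i := i.1.1
  s2 i := i.1.2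
  s1_inj := by
    rintro ⟨⟨Q₁, Q₂⟩, P, h1, h2⟩ ⟨⟨Q₁', Q₂'⟩, P', h1', h2'⟩ h
    simp only at h h1 h2 h1' h2'
    subst h
    have := R.uniq₁ P P' Q₁ h1 h1'
    rw [h2, h2'] at this
    have h3 : Q₂ = Q₂' := Option.some.inj this
    subst h3
    rfl
  s2_inj := by
    rintro ⟨⟨Q₁, Q₂⟩, P, h1, h2⟩ ⟨⟨Q₁', Q₂'⟩, P', h1', h2'⟩ h
    simp only at h h1 h2 h1' h2'
    subst h
    have := R.uniq₂ P P' Q₂ h2 h2'
    rw [h1, h1'] at this
    have h3 : Q₁ = Q₁' := Option.some.inj this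
    subst h3
    rfl

@[simp] theorem nodalData_s1 (i : R.Node) : R.nodalData.s1 i = i.1.1 := rfl
@[simp] theorem nodalData_s2 (i : R.Node) : R.nodalData.s2 i = i.1.2 := rfl

theorem node_iff (P : Place K F) (i : R.Node) :
    R.r₁ P = some (R.nodalData.s1 i) ↔ R.r₂ P = some (R.nodalData.s2 i) := by
  obtain ⟨⟨Q₁, Q₂⟩, P₀, h1, h2⟩ := i
  simp only [nodalData_s1, nodalData_s2] at h1 h2 ⊢
  constructor
  · intro h
    rw [R.uniq₁ P P₀ Q₁ h h1, h2]
  · intro h
    rw [R.uniq₂ P P₀ Q₂ h h2, h1]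

/-- `Q` is a smooth point of the first component iff no place reducing to it reduces to the second
component. -/
theorem smooth1_iff (Q : Place (ResidueField A) Fb₁) :
    R.nodalData.Smooth1 Q ↔ ∀ P : Place K F, R.r₁ P = some Q → R.r₂ P = none := by
  constructor
  · intro h P hP
    by_contra hne
    obtain ⟨Q₂, hQ₂⟩ := Option.ne_none_iff_exists'.1 hne
    exact h ⟨(Q, Q₂), P, hP, hQ₂⟩ rfl
  · rintro h ⟨⟨Q₁, Q₂⟩, P, h1, h2⟩ hQ
    simp only [nodalData_s1] at hQ
    subst hQ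
    have := h P h1
    rw [h2] at this
    exact absurd this (by simp)

theorem smooth2_iff (Q : Place (ResidueField A) Fb₂) :
    R.nodalData.Smooth2 Q ↔ ∀ P : Place K F, R.r₂ P = some Q → R.r₁ P = none := by
  constructor
  · intro h P hP
    by_contra hne
    obtain ⟨Q₁, hQ₁⟩ := Option.ne_none_iff_exists'.1 hne
    exact h ⟨(Q₁, Q), P, hQ₁, hP⟩ rfl
  · rintro h ⟨⟨Q₁, Q₂⟩, P, h1, h2⟩ hQ
    simp only [nodalData_s2] at hQ
    subst hQ
    have := h P h2
    rw [h1] at this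
    exact absurd this (by simp)

theorem smooth₁ (P : Place K F) (Q : Place (ResidueField A) Fb₁) (h : R.r₁ P = some Q)
    (hQ : R.nodalData.Smooth1 Q) : R.r₂ P = none := (R.smooth1_iff Q).1 hQ P h

theorem smooth₂ (P : Place K F) (Q : Place (ResidueField A) Fb₂) (h : R.r₂ P = some Q)
    (hQ : R.nodalData.Smooth2 Q) : R.r₁ P = none := (R.smooth2_iff Q).1 hQ P h

/-- the nodes are finite as soon as their first branches lie in a finite set (e.g. the zeros of
`ρ₁ e` for one `e ∈ 𝔭₂ ∖ 𝔭₁`). -/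
theorem finite_node (S : Set (Place (ResidueField A) Fb₁)) (hS : S.Finite)
    (h : ∀ (P : Place K F) (Q₁ : Place (ResidueField A) Fb₁), R.r₁ P = some Q₁ → R.r₂ P ≠ none →
      Q₁ ∈ S) : Finite R.Node := by
  have : Finite S := hS
  refine Finite.of_injective (fun i : R.Node => (⟨R.nodalData.s1 i, ?_⟩ : S)) ?_
  · obtain ⟨⟨Q₁, Q₂⟩, P, h1, h2⟩ := i
    exact h P Q₁ h1 (by rw [h2]; simp)
  · intro i j hij
    exact R.nodalData.s1_inj (congrArg Subtype.val hij)

/-- **the nodal reduction context (without connectedness) of two partial reductions with `(U)`**: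
the three geometric axioms are asked without reference to the gluing datum — `push_j` at the points
over which no place reduces to the other component, `glue` at every pair of branches. -/
def mkNodalPre (c₁ : HalfRed A F Fb₁) (c₂ : HalfRed A F Fb₂)
    (hpush₁ : ∀ y : c₁.O, c₁.ρ y ≠ 0 → ∀ Q : Place (ResidueField A) Fb₁,
      (∀ P : Place K F, R.r₁ P = some Q → R.r₂ P = none) →
      ∀ (D : Divisor K F), (∀ P, D P = P.ord (y : F)) →
        ∀ T : Finset (Place K F), (∀ P, P ∈ T ↔ P ∈ D.support ∧ R.r₁ P = some Q) →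
          ∑ P ∈ T, D P = Q.ord (c₁.ρ y))
    (hpush₂ : ∀ y : c₂.O, c₂.ρ y ≠ 0 → ∀ Q : Place (ResidueField A) Fb₂,
      (∀ P : Place K F, R.r₂ P = some Q → R.r₁ P = none) →
      ∀ (D : Divisor K F), (∀ P, D P = P.ord (y : F)) →
        ∀ T : Finset (Place K F), (∀ P, P ∈ T ↔ P ∈ D.support ∧ R.r₂ P = some Q) →
          ∑ P ∈ T, D P = Q.ord (c₂.ρ y))
    (hglue : ∀ (P₀ : Place K F) (Q₁ : Place (ResidueField A) Fb₁)
      (Q₂ : Place (ResidueField A) Fb₂), R.r₁ P₀ = some Q₁ → R.r₂ P₀ = some Q₂ →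
      ∀ (y : F) (h₁ : y ∈ c₁.O) (h₂ : y ∈ c₂.O),
        (∀ P : Place K F, R.r₁ P = some Q₁ → y = 0 ∨ 0 ≤ P.ord y) →
        ∃ b : ResidueField A,
          c₁.ρ ⟨y, h₁⟩ - algebraMap (ResidueField A) Fb₁ b ∈ vanishing Q₁ ∧
          c₂.ρ ⟨y, h₂⟩ - algebraMap (ResidueField A) Fb₂ b ∈ vanishing Q₂) :
    NodalPre A F R.nodalData where
  c₁ := c₁
  c₂ := c₂
  r₁ := R.r₁
  r₂ := R.r₂
  total := R.total
  node_iff := R.node_iff
  smooth₁ := R.smooth₁
  smooth₂ := R.smooth₂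
  push₁ y hy Q hQ := hpush₁ y hy Q ((R.smooth1_iff Q).1 hQ)
  push₂ y hy Q hQ := hpush₂ y hy Q ((R.smooth2_iff Q).1 hQ)
  glue := by
    rintro ⟨⟨Q₁, Q₂⟩, P₀, h1, h2⟩ y h₁ h₂ hpole
    exact hglue P₀ Q₁ Q₂ h1 h2 y h₁ h₂ hpole

/-- **the nodal reduction context of two partial reductions with `(U)`** and at least one node. -/
def mkNodalRed (c₁ : HalfRed A F Fb₁) (c₂ : HalfRed A F Fb₂)
    (hnode : ∃ P : Place K F, R.r₁ P ≠ none ∧ R.r₂ P ≠ none)
    (hpush₁ : ∀ y : c₁.O, c₁.ρ y ≠ 0 → ∀ Q : Place (ResidueField A) Fb₁,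
      (∀ P : Place K F, R.r₁ P = some Q → R.r₂ P = none) →
      ∀ (D : Divisor K F), (∀ P, D P = P.ord (y : F)) →
        ∀ T : Finset (Place K F), (∀ P, P ∈ T ↔ P ∈ D.support ∧ R.r₁ P = some Q) →
          ∑ P ∈ T, D P = Q.ord (c₁.ρ y))
    (hpush₂ : ∀ y : c₂.O, c₂.ρ y ≠ 0 → ∀ Q : Place (ResidueField A) Fb₂,
      (∀ P : Place K F, R.r₂ P = some Q → R.r₁ P = none) →
      ∀ (D : Divisor K F), (∀ P, D P = P.ord (y : F)) →
        ∀ T : Finset (Place K F), (∀ P, P ∈ T ↔ P ∈ D.support ∧ R.r₂ P = some Q) →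
          ∑ P ∈ T, D P = Q.ord (c₂.ρ y))
    (hglue : ∀ (P₀ : Place K F) (Q₁ : Place (ResidueField A) Fb₁)
      (Q₂ : Place (ResidueField A) Fb₂), R.r₁ P₀ = some Q₁ → R.r₂ P₀ = some Q₂ →
      ∀ (y : F) (h₁ : y ∈ c₁.O) (h₂ : y ∈ c₂.O),
        (∀ P : Place K F, R.r₁ P = some Q₁ → y = 0 ∨ 0 ≤ P.ord y) →
        ∃ b : ResidueField A,
          c₁.ρ ⟨y, h₁⟩ - algebraMap (ResidueField A) Fb₁ b ∈ vanishing Q₁ ∧
          c₂.ρ ⟨y, h₂⟩ - algebraMap (ResidueField A) Fb₂ b ∈ vanishing Q₂) :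
    NodalRed A F R.nodalData :=
  (R.mkNodalPre c₁ c₂ hpush₁ hpush₂ hglue).toRed (by
    obtain ⟨P, h1, h2⟩ := hnode
    obtain ⟨Q₁, hQ₁⟩ := Option.ne_none_iff_exists'.1 h1
    obtain ⟨Q₂, hQ₂⟩ := Option.ne_none_iff_exists'.1 h2
    exact ⟨⟨(Q₁, Q₂), P, hQ₁, hQ₂⟩⟩)

section Simp

variable (c₁ : HalfRed A F Fb₁) (c₂ : HalfRed A F Fb₂)

@[simp] theorem mkNodalRed_r₁ (hnode) (hpush₁) (hpush₂) (hglue) :
    (R.mkNodalRed c₁ c₂ hnode hpush₁ hpush₂ hglue).r₁ = R.r₁ := rfl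

@[simp] theorem mkNodalRed_r₂ (hnode) (hpush₁) (hpush₂) (hglue) :
    (R.mkNodalRed c₁ c₂ hnode hpush₁ hpush₂ hglue).r₂ = R.r₂ := rfl

@[simp] theorem mkNodalRed_c₁ (hnode) (hpush₁) (hpush₂) (hglue) :
    (R.mkNodalRed c₁ c₂ hnode hpush₁ hpush₂ hglue).c₁ = c₁ := rfl

@[simp] theorem mkNodalRed_c₂ (hnode) (hpush₁) (hpush₂) (hglue) :
    (R.mkNodalRed c₁ c₂ hnode hpush₁ hpush₂ hglue).c₂ = c₂ := rfl

end Simp

/-- **`Compat` of a family of semilinear automorphisms** (the inertia group) for the context of a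
`RawRed`: the place-fields are the invariance of the two partial reductions. -/
theorem compat_of (c₁ : HalfRed A F Fb₁) (c₂ : HalfRed A F Fb₂) (hnode) (hpush₁) (hpush₂) (hglue)
    {Γ : Type*} (γ : Γ → SemilinearAut K F)
    (baseAut_mem : ∀ (σ : Γ) (a : K), a ∈ A → SemilinearAut.baseAut (γ σ) a ∈ A)
    (smul_mem₁ : ∀ (σ : Γ) (y : F), y ∈ c₁.O → γ σ • y ∈ c₁.O)
    (smul_mem₂ : ∀ (σ : Γ) (y : F), y ∈ c₂.O → γ σ • y ∈ c₂.O)
    (ρ₁_smul : ∀ (σ : Γ) (y : F) (h : y ∈ c₁.O) (h' : γ σ • y ∈ c₁.O),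
      c₁.ρ ⟨γ σ • y, h'⟩ = c₁.ρ ⟨y, h⟩)
    (ρ₂_smul : ∀ (σ : Γ) (y : F) (h : y ∈ c₂.O) (h' : γ σ • y ∈ c₂.O),
      c₂.ρ ⟨γ σ • y, h'⟩ = c₂.ρ ⟨y, h⟩)
    (r₁_smul : ∀ (σ : Γ) (P : Place K F), R.r₁ (γ σ • P) = R.r₁ P)
    (r₂_smul : ∀ (σ : Γ) (P : Place K F), R.r₂ (γ σ • P) = R.r₂ P) :
    (R.mkNodalRed c₁ c₂ hnode hpush₁ hpush₂ hglue).Compat γ where
  baseAut_mem := baseAut_mem
  smul_mem₁ := smul_mem₁
  smul_mem₂ := smul_mem₂
  ρ₁_smul := ρ₁_smul
  ρ₂_smul := ρ₂_smul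
  r₁_smul := r₁_smul
  r₂_smul := r₂_smul

end RawRed

end Fermat.Agent.T33.NodalPlaces1
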