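/-
Programme T (S33), chapter (e) "N34 over ℚ̄", block (R) (helper1), part B: **total and the
uniqueness property `(U)` from two charts with their closed points.**

Abstract `A`-level vocabulary (no N34 object appears).  `c₁, c₂ : HalfRed A F Fb_j` are the two Gauss
rings.  A CHART is a subring `B ≤ O₁ ⊓ O₂` containing the constants `A`, SATURATED:
`B ∩ ker ρ₁ ∩ ker ρ₂ = 𝔪_A B`.  A POINT of the chart is a ring homomorphism `χ : B → κ` extending
the residue map of `A`; it LIES ON the `j`-th component (`On_j`) if it kills `B ∩ ker ρ_j`, and then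
`Val_j χ Q` says that `Q : Place κ Fb_j` is the corresponding point of the component:
`ρ_j b - χ b` vanishes at `Q` for all `b ∈ B`.  A place `P` of `F / K` is CENTRED at `χ` if every
`b ∈ B` has a value `a ∈ A` at `P` with `χ b = ā`.

* `HasValue P f a`, `HasValue.unique`;
* `Chart`, `Chart.Pt`, `Chart.On₁/On₂`, `Chart.Val₁/Val₂`, `Chart.Centred`;
  `Chart.on_total` (from saturation: the two vertical primes meet in `𝔪_A B`),
  `Chart.centred_unique`, `Chart.pt_eq_of_val₁/₂` (a point on the component is determined by its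
  place: THE source of `(U)`);
* `TwoCharts` : two charts `B0 ∋ t`, `B1 ∋ t⁻¹`, every place centred on `B0` (if `t` has an integral
  value) or on `B1` at a point with `t⁻¹ ↦ 0` (otherwise); the place of a point on a component
  exists and is unique (`val_unique`: `ρ_j (B_k)` separates the places of `Fb_j` — it contains the
  full special chart of level `M'`);
* `TwoCharts.rawRed : RawRed A F Fb₁ Fb₂` — the two partial reductions with `total` and `(U)`;
  fibres: `r₁_eq_some_iff₀`, `r₁_eq_some_iff₁` (the places reducing to `Q` are the places centred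
  at the point of `Q`).
-/
import Mathlib
import Fermat.Agent.T33.NodalPlaces1A
import Fermat.Agent.T33.NodalAbs1A

set_option autoImplicit false

open AlgebraicCurve IsLocalRing

noncomputable section

namespace Fermat.Agent.T33.NodalPlaces1

open Fermat.Agent.T33.NodalCtx1 Fermat.Agent.T33.NodalCurve6 Fermat.Agent.T33.NodalAbs1A
  Fermat.Agent.X0.FF

variable {K : Type*} [Field K] {A : ValuationSubring K}
variable {F : Type*} [Field F] [Algebra K F]

/-! ### values -/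

/-- `f` takes the value `a` at the place `P`. -/
def HasValue (P : Place K F) (f : F) (a : K) : Prop :=
  f = algebraMap K F a ∨ 0 < P.ord (f - algebraMap K F a)

theorem HasValue.unique {P : Place K F} {f : F} {a a' : K} (h : HasValue P f a)
    (h' : HasValue P f a') : a = a' := by
  by_contra hne
  have hd : algebraMap K F (a' - a) ≠ 0 := by
    rw [Ne, map_eq_zero, sub_eq_zero]; exact fun h => hne h.symm
  have h3 : (f - algebraMap K F a) - (f - algebraMap K F a') = algebraMap K F (a' - a) := by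
    rw [map_sub]; ring
  rcases h with h | h
  · rcases h' with h' | h'
    · apply hne
      exact (algebraMap K F).injective (h.symm.trans h')
    · rw [h, ← map_sub, ord_algebraMap] at h'
      exact lt_irrefl _ h'
  · rcases h' with h' | h'
    · rw [h', ← map_sub, ord_algebraMap] at h
      exact lt_irrefl _ h
    · have h4 := ord_sub_ge P (f := f - algebraMap K F a) (g := f - algebraMap K F a')
        (by rw [h3]; exact hd)
      rw [h3, ord_algebraMap] at h4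
      have := lt_min h h'
      omega

theorem hasValue_algebraMap (P : Place K F) (a : K) : HasValue P (algebraMap K F a) a :=
  Or.inl rfl

/-! ### one chart -/

variable {Fb₁ Fb₂ : Type*} [Field Fb₁] [Field Fb₂]
  [Algebra (ResidueField A) Fb₁] [Algebra (ResidueField A) Fb₂]

/-- **a chart of the two-component model**: a saturated subring of `O₁ ⊓ O₂` containing the
constants. -/
structure Chart (c₁ : HalfRed A F Fb₁) (c₂ : HalfRed A F Fb₂) where
  B : Subring F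
  le₁ : B ≤ c₁.O
  le₂ : B ≤ c₂.O
  algebraMap_mem : ∀ a : A, algebraMap K F (a : K) ∈ B
  /-- `B ∩ ker ρ₁ ∩ ker ρ₂ = 𝔪_A B`. -/
  sat : ∀ (b : F) (hb : b ∈ B), c₁.ρ ⟨b, le₁ hb⟩ = 0 → c₂.ρ ⟨b, le₂ hb⟩ = 0 →
    ∃ c : A, c ∈ maximalIdeal A ∧ ∃ b' ∈ B, b = algebraMap K F (c : K) * b'

namespace Chart

variable {c₁ : HalfRed A F Fb₁} {c₂ : HalfRed A F Fb₂} (C : Chart c₁ c₂)

/-- the constant `a`, in the chart. -/
def const (a : A) : C.B := ⟨algebraMap K F (a : K), C.algebraMap_mem a⟩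

/-- the first reduction on the chart. -/
def ρ₁ : C.B →+* Fb₁ := c₁.ρ.comp (Subring.inclusion C.le₁)

/-- the second reduction on the chart. -/
def ρ₂ : C.B →+* Fb₂ := c₂.ρ.comp (Subring.inclusion C.le₂)

theorem ρ₁_apply (b : C.B) : C.ρ₁ b = c₁.ρ ⟨(b : F), C.le₁ b.2⟩ := rfl

theorem ρ₂_apply (b : C.B) : C.ρ₂ b = c₂.ρ ⟨(b : F), C.le₂ b.2⟩ := rfl

/-- **the closed points of the chart**: characters with values in `κ` extending the residue map. -/
def Pt : Type _ := {χ : C.B →+* ResidueField A // ∀ a : A, χ (C.const a) = residue A a}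

instance : CoeFun C.Pt (fun _ => C.B → ResidueField A) := ⟨fun χ => χ.1⟩

theorem Pt.ext' {χ χ' : C.Pt} (h : ∀ b : C.B, χ b = χ' b) : χ = χ' :=
  Subtype.ext (RingHom.ext h)

/-- the point lies on the first component. -/
def On₁ (χ : C.Pt) : Prop := ∀ b : C.B, C.ρ₁ b = 0 → χ b = 0

/-- the point lies on the second component. -/
def On₂ (χ : C.Pt) : Prop := ∀ b : C.B, C.ρ₂ b = 0 → χ b = 0

/-- `Q` is the point `χ` of the first component. -/
def Val₁ (χ : C.Pt) (Q : Place (ResidueField A) Fb₁) : Prop :=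
  ∀ b : C.B, C.ρ₁ b - algebraMap (ResidueField A) Fb₁ (χ b) ∈ vanishing Q

/-- `Q` is the point `χ` of the second component. -/
def Val₂ (χ : C.Pt) (Q : Place (ResidueField A) Fb₂) : Prop :=
  ∀ b : C.B, C.ρ₂ b - algebraMap (ResidueField A) Fb₂ (χ b) ∈ vanishing Q

/-- the place `P` is centred at the point `χ`. -/
def Centred (P : Place K F) (χ : C.Pt) : Prop :=
  ∀ b : C.B, ∃ a : A, HasValue P (b : F) (a : K) ∧ χ b = residue A a

/-- a point kills `𝔪_A B`. -/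
theorem pt_mul_const (χ : C.Pt) {c : A} (hc : c ∈ maximalIdeal A) (b' : C.B) :
    χ (C.const c * b') = 0 := by
  rw [map_mul, χ.2 c, (IsLocalRing.residue_eq_zero_iff c).2 hc, zero_mul]

/-- **every point lies on one of the two components** (`𝔭₁ ∩ 𝔭₂ = 𝔪_A B` and `ker χ` is prime). -/
theorem on_total (χ : C.Pt) : C.On₁ χ ∨ C.On₂ χ := by
  by_contra hno
  push Not at hno
  obtain ⟨h1, h2⟩ := hno
  unfold On₁ at h1
  unfold On₂ at h2
  push Not at h1 h2
  obtain ⟨b₁, hb₁, hχ₁⟩ := h1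
  obtain ⟨b₂, hb₂, hχ₂⟩ := h2
  have hprod : χ (b₁ * b₂) ≠ 0 := by
    rw [map_mul]; exact mul_ne_zero hχ₁ hχ₂
  apply hprod
  have e1 : C.ρ₁ (b₁ * b₂) = 0 := by rw [map_mul, hb₁, zero_mul]
  have e2 : C.ρ₂ (b₁ * b₂) = 0 := by rw [map_mul, hb₂, mul_zero]
  obtain ⟨c, hc, b', hb', hbb⟩ := C.sat ((b₁ * b₂ : C.B) : F) (b₁ * b₂).2 e1 e2
  have : b₁ * b₂ = C.const c * ⟨b', hb'⟩ := Subtype.ext hbb
  rw [this]
  exact C.pt_mul_const χ hc _

/-- a place is centred at most at one point. -/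
theorem centred_unique {P : Place K F} {χ χ' : C.Pt} (h : C.Centred P χ) (h' : C.Centred P χ') :
    χ = χ' := by
  apply Pt.ext'
  intro b
  obtain ⟨a, ha, hχ⟩ := h b
  obtain ⟨a', ha', hχ'⟩ := h' b
  have : (a : K) = (a' : K) := ha.unique ha'
  rw [hχ, hχ', Subtype.ext this]

/-- **a point of the first component is determined by its place.** -/
theorem pt_eq_of_val₁ {χ χ' : C.Pt} {Q : Place (ResidueField A) Fb₁} (h : C.Val₁ χ Q)
    (h' : C.Val₁ χ' Q) : χ = χ' := by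
  apply Pt.ext'
  intro b
  have h3 : algebraMap (ResidueField A) Fb₁ (χ' b - χ b) ∈ vanishing Q := by
    have : algebraMap (ResidueField A) Fb₁ (χ' b - χ b) =
        (C.ρ₁ b - algebraMap (ResidueField A) Fb₁ (χ b)) -
          (C.ρ₁ b - algebraMap (ResidueField A) Fb₁ (χ' b)) := by
      rw [map_sub]; ring
    rw [this]
    exact Submodule.sub_mem _ (h b) (h' b)
  have := const_not_mem_vanishing Q h3
  exact (sub_eq_zero.1 this).symm

/-- **a point of the second component is determined by its place.** -/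
theorem pt_eq_of_val₂ {χ χ' : C.Pt} {Q : Place (ResidueField A) Fb₂} (h : C.Val₂ χ Q)
    (h' : C.Val₂ χ' Q) : χ = χ' := by
  apply Pt.ext'
  intro b
  have h3 : algebraMap (ResidueField A) Fb₂ (χ' b - χ b) ∈ vanishing Q := by
    have : algebraMap (ResidueField A) Fb₂ (χ' b - χ b) =
        (C.ρ₂ b - algebraMap (ResidueField A) Fb₂ (χ b)) -
          (C.ρ₂ b - algebraMap (ResidueField A) Fb₂ (χ' b)) := by
      rw [map_sub]; ring
    rw [this]
    exact Submodule.sub_mem _ (h b) (h' b)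
  have := const_not_mem_vanishing Q h3
  exact (sub_eq_zero.1 this).symm

/-- a point with a place on the first component lies on it. -/
theorem on₁_of_val₁ {χ : C.Pt} {Q : Place (ResidueField A) Fb₁} (h : C.Val₁ χ Q) : C.On₁ χ := by
  intro b hb
  have h1 := h b
  rw [hb, zero_sub] at h1
  have h2 : algebraMap (ResidueField A) Fb₁ (χ b) ∈ vanishing Q := by
    have := Submodule.neg_mem _ h1
    rwa [neg_neg] at this
  exact const_not_mem_vanishing Q h2

theorem on₂_of_val₂ {χ : C.Pt} {Q : Place (ResidueField A) Fb₂} (h : C.Val₂ χ Q) : C.On₂ χ := by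
  intro b hb
  have h1 := h b
  rw [hb, zero_sub] at h1
  have h2 : algebraMap (ResidueField A) Fb₂ (χ b) ∈ vanishing Q := by
    have := Submodule.neg_mem _ h1
    rwa [neg_neg] at this
  exact const_not_mem_vanishing Q h2

end Chart


/-! ### two charts -/

/-- **the two charts of the model with their closed points.** -/
structure TwoCharts (c₁ : HalfRed A F Fb₁) (c₂ : HalfRed A F Fb₂) where
  /-- the chart `t ≠ ∞`. -/
  C0 : Chart c₁ c₂
  /-- the chart `t ≠ 0`. -/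
  C1 : Chart c₁ c₂
  t : F
  t_ne : t ≠ 0
  t_mem : t ∈ C0.B
  s_mem : t⁻¹ ∈ C1.B
  /-- a place at which `t` has an integral value is centred on the chart `0`. -/
  centred₀ : ∀ P : Place K F, (∃ a : A, HasValue P t (a : K)) → ∃ χ : C0.Pt, C0.Centred P χ
  /-- the other places are centred on the chart `1`, at a point with `t⁻¹ ↦ 0`. -/
  centred₁ : ∀ P : Place K F, (¬ ∃ a : A, HasValue P t (a : K)) →
    ∃ χ : C1.Pt, C1.Centred P χ ∧ χ ⟨t⁻¹, s_mem⟩ = 0
  /-- the place of a point on a component: existence. -/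
  val₁_exists₀ : ∀ χ : C0.Pt, C0.On₁ χ → ∃ Q, C0.Val₁ χ Q
  val₂_exists₀ : ∀ χ : C0.Pt, C0.On₂ χ → ∃ Q, C0.Val₂ χ Q
  val₁_exists₁ : ∀ χ : C1.Pt, C1.On₁ χ → ∃ Q, C1.Val₁ χ Q
  val₂_exists₁ : ∀ χ : C1.Pt, C1.On₂ χ → ∃ Q, C1.Val₂ χ Q
  /-- the place of a point on a component: uniqueness (`ρ_j (B_k)` separates the places). -/
  val₁_unique₀ : ∀ (χ : C0.Pt) (Q Q' : Place (ResidueField A) Fb₁),
    C0.Val₁ χ Q → C0.Val₁ χ Q' → Q = Q'
  val₂_unique₀ : ∀ (χ : C0.Pt) (Q Q' : Place (ResidueField A) Fb₂),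
    C0.Val₂ χ Q → C0.Val₂ χ Q' → Q = Q'
  val₁_unique₁ : ∀ (χ : C1.Pt) (Q Q' : Place (ResidueField A) Fb₁),
    C1.Val₁ χ Q → C1.Val₁ χ Q' → Q = Q'
  val₂_unique₁ : ∀ (χ : C1.Pt) (Q Q' : Place (ResidueField A) Fb₂),
    C1.Val₂ χ Q → C1.Val₂ χ Q' → Q = Q'

namespace TwoCharts

variable {c₁ : HalfRed A F Fb₁} {c₂ : HalfRed A F Fb₂} (T : TwoCharts c₁ c₂)

/-- `t` has an integral value at `P`: the centre of `P` lies in the chart `0`. -/
def Fin0 (P : Place K F) : Prop := ∃ a : A, HasValue P T.t (a : K)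

/-- `t`, in the chart `0`. -/
def t0 : T.C0.B := ⟨T.t, T.t_mem⟩

/-- `t⁻¹`, in the chart `1`. -/
def s1 : T.C1.B := ⟨T.t⁻¹, T.s_mem⟩

theorem centred₀' (P : Place K F) (hP : T.Fin0 P) : ∃ χ : T.C0.Pt, T.C0.Centred P χ :=
  T.centred₀ P hP

theorem centred₁' (P : Place K F) (hP : ¬ T.Fin0 P) :
    ∃ χ : T.C1.Pt, T.C1.Centred P χ ∧ χ T.s1 = 0 :=
  T.centred₁ P hP

/-- `P` reduces to the point `Q` of the first component. -/
def Red₁ (P : Place K F) (Q : Place (ResidueField A) Fb₁) : Prop :=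
  (T.Fin0 P ∧ ∃ χ : T.C0.Pt, T.C0.Centred P χ ∧ T.C0.Val₁ χ Q) ∨
    (¬ T.Fin0 P ∧ ∃ χ : T.C1.Pt, T.C1.Centred P χ ∧ χ T.s1 = 0 ∧ T.C1.Val₁ χ Q)

/-- `P` reduces to the point `Q` of the second component. -/
def Red₂ (P : Place K F) (Q : Place (ResidueField A) Fb₂) : Prop :=
  (T.Fin0 P ∧ ∃ χ : T.C0.Pt, T.C0.Centred P χ ∧ T.C0.Val₂ χ Q) ∨
    (¬ T.Fin0 P ∧ ∃ χ : T.C1.Pt, T.C1.Centred P χ ∧ χ T.s1 = 0 ∧ T.C1.Val₂ χ Q)

theorem red₁_iff₀ {P : Place K F} (hP : T.Fin0 P) {χ : T.C0.Pt} (hχ : T.C0.Centred P χ)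
    (Q : Place (ResidueField A) Fb₁) : T.Red₁ P Q ↔ T.C0.Val₁ χ Q := by
  constructor
  · rintro (⟨-, χ', hχ', hv⟩ | ⟨hn, -⟩)
    · rwa [T.C0.centred_unique hχ hχ']
    · exact absurd hP hn
  · intro hv
    exact Or.inl ⟨hP, χ, hχ, hv⟩

theorem red₂_iff₀ {P : Place K F} (hP : T.Fin0 P) {χ : T.C0.Pt} (hχ : T.C0.Centred P χ)
    (Q : Place (ResidueField A) Fb₂) : T.Red₂ P Q ↔ T.C0.Val₂ χ Q := by
  constructor
  · rintro (⟨-, χ', hχ', hv⟩ | ⟨hn, -⟩)
    · rwa [T.C0.centred_unique hχ hχ']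
    · exact absurd hP hn
  · intro hv
    exact Or.inl ⟨hP, χ, hχ, hv⟩

theorem red₁_iff₁ {P : Place K F} (hP : ¬ T.Fin0 P) {χ : T.C1.Pt} (hχ : T.C1.Centred P χ)
    (hs : χ T.s1 = 0) (Q : Place (ResidueField A) Fb₁) : T.Red₁ P Q ↔ T.C1.Val₁ χ Q := by
  constructor
  · rintro (⟨h, -⟩ | ⟨-, χ', hχ', -, hv⟩)
    · exact absurd h hP
    · rwa [T.C1.centred_unique hχ hχ']
  · intro hv
    exact Or.inr ⟨hP, χ, hχ, hs, hv⟩

theorem red₂_iff₁ {P : Place K F} (hP : ¬ T.Fin0 P) {χ : T.C1.Pt} (hχ : T.C1.Centred P χ)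
    (hs : χ T.s1 = 0) (Q : Place (ResidueField A) Fb₂) : T.Red₂ P Q ↔ T.C1.Val₂ χ Q := by
  constructor
  · rintro (⟨h, -⟩ | ⟨-, χ', hχ', -, hv⟩)
    · exact absurd h hP
    · rwa [T.C1.centred_unique hχ hχ']
  · intro hv
    exact Or.inr ⟨hP, χ, hχ, hs, hv⟩

theorem red₁_unique {P : Place K F} {Q Q' : Place (ResidueField A) Fb₁} (h : T.Red₁ P Q)
    (h' : T.Red₁ P Q') : Q = Q' := by
  by_cases hP : T.Fin0 P
  · obtain ⟨χ, hχ⟩ := T.centred₀ P hP
    exact T.val₁_unique₀ χ Q Q' ((T.red₁_iff₀ hP hχ Q).1 h) ((T.red₁_iff₀ hP hχ Q').1 h')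
  · obtain ⟨χ, hχ, hs⟩ := T.centred₁' P hP
    exact T.val₁_unique₁ χ Q Q' ((T.red₁_iff₁ hP hχ hs Q).1 h) ((T.red₁_iff₁ hP hχ hs Q').1 h')

theorem red₂_unique {P : Place K F} {Q Q' : Place (ResidueField A) Fb₂} (h : T.Red₂ P Q)
    (h' : T.Red₂ P Q') : Q = Q' := by
  by_cases hP : T.Fin0 P
  · obtain ⟨χ, hχ⟩ := T.centred₀ P hP
    exact T.val₂_unique₀ χ Q Q' ((T.red₂_iff₀ hP hχ Q).1 h) ((T.red₂_iff₀ hP hχ Q').1 h')
  · obtain ⟨χ, hχ, hs⟩ := T.centred₁' P hP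
    exact T.val₂_unique₁ χ Q Q' ((T.red₂_iff₁ hP hχ hs Q).1 h) ((T.red₂_iff₁ hP hχ hs Q').1 h')

/-- every place reduces somewhere. -/
theorem red_total (P : Place K F) : (∃ Q, T.Red₁ P Q) ∨ (∃ Q, T.Red₂ P Q) := by
  by_cases hP : T.Fin0 P
  · obtain ⟨χ, hχ⟩ := T.centred₀ P hP
    rcases T.C0.on_total χ with h | h
    · obtain ⟨Q, hQ⟩ := T.val₁_exists₀ χ h
      exact Or.inl ⟨Q, (T.red₁_iff₀ hP hχ Q).2 hQ⟩
    · obtain ⟨Q, hQ⟩ := T.val₂_exists₀ χ h
      exact Or.inr ⟨Q, (T.red₂_iff₀ hP hχ Q).2 hQ⟩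
  · obtain ⟨χ, hχ, hs⟩ := T.centred₁' P hP
    rcases T.C1.on_total χ with h | h
    · obtain ⟨Q, hQ⟩ := T.val₁_exists₁ χ h
      exact Or.inl ⟨Q, (T.red₁_iff₁ hP hχ hs Q).2 hQ⟩
    · obtain ⟨Q, hQ⟩ := T.val₂_exists₁ χ h
      exact Or.inr ⟨Q, (T.red₂_iff₁ hP hχ hs Q).2 hQ⟩

/-- the reductions of `t` and `t⁻¹` on the first component are inverse to each other. -/
theorem ρ₁_t_mul_s : T.C0.ρ₁ T.t0 * T.C1.ρ₁ T.s1 = 1 := by
  rw [Chart.ρ₁_apply, Chart.ρ₁_apply, ← map_mul]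
  have : (⟨(T.t0 : F), T.C0.le₁ T.t0.2⟩ : c₁.O) * ⟨(T.s1 : F), T.C1.le₁ T.s1.2⟩ = 1 :=
    Subtype.ext (mul_inv_cancel₀ T.t_ne)
  rw [this, map_one]

theorem ρ₂_t_mul_s : T.C0.ρ₂ T.t0 * T.C1.ρ₂ T.s1 = 1 := by
  rw [Chart.ρ₂_apply, Chart.ρ₂_apply, ← map_mul]
  have : (⟨(T.t0 : F), T.C0.le₂ T.t0.2⟩ : c₂.O) * ⟨(T.s1 : F), T.C1.le₂ T.s1.2⟩ = 1 :=
    Subtype.ext (mul_inv_cancel₀ T.t_ne)
  rw [this, map_one]

/-- a place of a component cannot be a point of the chart `0` and a point at `t = ∞` of the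
chart `1` at the same time. -/
theorem false_of_val_both {Fb : Type*} [Field Fb] [Algebra (ResidueField A) Fb]
    (Q : Place (ResidueField A) Fb) {u w : Fb} (huw : u * w = 1) {a : ResidueField A}
    (hu : u - algebraMap (ResidueField A) Fb a ∈ vanishing Q) (hw : w ∈ vanishing Q) : False := by
  have hu0 : u ≠ 0 := left_ne_zero_of_mul_eq_one huw
  have hw0 : w ≠ 0 := right_ne_zero_of_mul_eq_one huw
  have h1 : 0 ≤ Q.ord u := ord_nonneg_of_sub_mem_vanishing Q hu0 hu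
  rcases hw with hw | hw
  · exact hw0 hw
  · have h2 := Q.ord_mul hu0 hw0
    rw [huw, Place.ord_one] at h2
    omega

/-- **`(U)`, first half**: two places with the same reduction on the first component have the
same reductions on the second. -/
theorem red₂_iff_of_red₁ {P P' : Place K F} {Q : Place (ResidueField A) Fb₁} (h : T.Red₁ P Q)
    (h' : T.Red₁ P' Q) (Q₂ : Place (ResidueField A) Fb₂) : T.Red₂ P Q₂ ↔ T.Red₂ P' Q₂ := by
  by_cases hP : T.Fin0 P
  · obtain ⟨χ, hχ⟩ := T.centred₀ P hP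
    have hv := (T.red₁_iff₀ hP hχ Q).1 h
    by_cases hP' : T.Fin0 P'
    · obtain ⟨χ', hχ'⟩ := T.centred₀ P' hP'
      have hv' := (T.red₁_iff₀ hP' hχ' Q).1 h'
      have : χ = χ' := T.C0.pt_eq_of_val₁ hv hv'
      subst this
      rw [T.red₂_iff₀ hP hχ, T.red₂_iff₀ hP' hχ']
    · obtain ⟨χ', hχ', hs'⟩ := T.centred₁' P' hP'
      have hv' := (T.red₁_iff₁ hP' hχ' hs' Q).1 h'
      exfalso
      have hw := hv' T.s1
      rw [hs', map_zero, sub_zero] at hw
      exact false_of_val_both Q T.ρ₁_t_mul_s (hv T.t0) hw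
  · obtain ⟨χ, hχ, hs⟩ := T.centred₁' P hP
    have hv := (T.red₁_iff₁ hP hχ hs Q).1 h
    by_cases hP' : T.Fin0 P'
    · obtain ⟨χ', hχ'⟩ := T.centred₀ P' hP'
      have hv' := (T.red₁_iff₀ hP' hχ' Q).1 h'
      exfalso
      have hw := hv T.s1
      rw [hs, map_zero, sub_zero] at hw
      exact false_of_val_both Q T.ρ₁_t_mul_s (hv' T.t0) hw
    · obtain ⟨χ', hχ', hs'⟩ := T.centred₁' P' hP'
      have hv' := (T.red₁_iff₁ hP' hχ' hs' Q).1 h'
      have : χ = χ' := T.C1.pt_eq_of_val₁ hv hv'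
      subst this
      rw [T.red₂_iff₁ hP hχ hs, T.red₂_iff₁ hP' hχ' hs']

/-- **`(U)`, second half.** -/
theorem red₁_iff_of_red₂ {P P' : Place K F} {Q : Place (ResidueField A) Fb₂} (h : T.Red₂ P Q)
    (h' : T.Red₂ P' Q) (Q₁ : Place (ResidueField A) Fb₁) : T.Red₁ P Q₁ ↔ T.Red₁ P' Q₁ := by
  by_cases hP : T.Fin0 P
  · obtain ⟨χ, hχ⟩ := T.centred₀ P hP
    have hv := (T.red₂_iff₀ hP hχ Q).1 h
    by_cases hP' : T.Fin0 P'
    · obtain ⟨χ', hχ'⟩ := T.centred₀ P' hP'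
      have hv' := (T.red₂_iff₀ hP' hχ' Q).1 h'
      have : χ = χ' := T.C0.pt_eq_of_val₂ hv hv'
      subst this
      rw [T.red₁_iff₀ hP hχ, T.red₁_iff₀ hP' hχ']
    · obtain ⟨χ', hχ', hs'⟩ := T.centred₁' P' hP'
      have hv' := (T.red₂_iff₁ hP' hχ' hs' Q).1 h'
      exfalso
      have hw := hv' T.s1
      rw [hs', map_zero, sub_zero] at hw
      exact false_of_val_both Q T.ρ₂_t_mul_s (hv T.t0) hw
  · obtain ⟨χ, hχ, hs⟩ := T.centred₁' P hP
    have hv := (T.red₂_iff₁ hP hχ hs Q).1 h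
    by_cases hP' : T.Fin0 P'
    · obtain ⟨χ', hχ'⟩ := T.centred₀ P' hP'
      have hv' := (T.red₂_iff₀ hP' hχ' Q).1 h'
      exfalso
      have hw := hv T.s1
      rw [hs, map_zero, sub_zero] at hw
      exact false_of_val_both Q T.ρ₂_t_mul_s (hv' T.t0) hw
    · obtain ⟨χ', hχ', hs'⟩ := T.centred₁' P' hP'
      have hv' := (T.red₂_iff₁ hP' hχ' hs' Q).1 h'
      have : χ = χ' := T.C1.pt_eq_of_val₂ hv hv'
      subst this
      rw [T.red₁_iff₁ hP hχ hs, T.red₁_iff₁ hP' hχ' hs']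

open Classical in
/-- the first partial reduction. -/
def r₁ (P : Place K F) : Option (Place (ResidueField A) Fb₁) :=
  if h : ∃ Q, T.Red₁ P Q then some h.choose else none

open Classical in
/-- the second partial reduction. -/
def r₂ (P : Place K F) : Option (Place (ResidueField A) Fb₂) :=
  if h : ∃ Q, T.Red₂ P Q then some h.choose else none

theorem r₁_eq_some_iff (P : Place K F) (Q : Place (ResidueField A) Fb₁) :
    T.r₁ P = some Q ↔ T.Red₁ P Q := by
  unfold r₁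
  constructor
  · intro h
    split_ifs at h with hex
    rw [← Option.some.inj h]
    exact hex.choose_spec
  · intro h
    have hex : ∃ Q, T.Red₁ P Q := ⟨Q, h⟩
    rw [dif_pos hex]
    exact congrArg some (T.red₁_unique hex.choose_spec h)

theorem r₂_eq_some_iff (P : Place K F) (Q : Place (ResidueField A) Fb₂) :
    T.r₂ P = some Q ↔ T.Red₂ P Q := by
  unfold r₂
  constructor
  · intro h
    split_ifs at h with hex
    rw [← Option.some.inj h]
    exact hex.choose_spec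
  · intro h
    have hex : ∃ Q, T.Red₂ P Q := ⟨Q, h⟩
    rw [dif_pos hex]
    exact congrArg some (T.red₂_unique hex.choose_spec h)

theorem option_ext {α : Type*} {o o' : Option α} (h : ∀ a, o = some a ↔ o' = some a) : o = o' := by
  cases o with
  | none =>
    cases o' with
    | none => rfl
    | some a' => exact absurd ((h a').2 rfl) (by simp)
  | some a => exact ((h a).1 rfl).symm

/-- **the two partial reductions of places of a two-chart model**, with `total` and `(U)`. -/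
def rawRed : RawRed A F Fb₁ Fb₂ where
  r₁ := T.r₁
  r₂ := T.r₂
  total P := by
    rcases T.red_total P with ⟨Q, hQ⟩ | ⟨Q, hQ⟩
    · left
      rw [(T.r₁_eq_some_iff P Q).2 hQ]
      simp
    · right
      rw [(T.r₂_eq_some_iff P Q).2 hQ]
      simp
  uniq₁ P P' Q h h' := by
    apply option_ext
    intro Q₂
    rw [r₂_eq_some_iff, r₂_eq_some_iff]
    exact T.red₂_iff_of_red₁ ((T.r₁_eq_some_iff P Q).1 h) ((T.r₁_eq_some_iff P' Q).1 h') Q₂
  uniq₂ P P' Q h h' := by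
    apply option_ext
    intro Q₁
    rw [r₁_eq_some_iff, r₁_eq_some_iff]
    exact T.red₁_iff_of_red₂ ((T.r₂_eq_some_iff P Q).1 h) ((T.r₂_eq_some_iff P' Q).1 h') Q₁

@[simp] theorem rawRed_r₁ : T.rawRed.r₁ = T.r₁ := rfl
@[simp] theorem rawRed_r₂ : T.rawRed.r₂ = T.r₂ := rfl

/-- the fibre of `r₁` over the place of a point of the chart `0`: the places centred there. -/
theorem r₁_eq_some_iff₀ {χ : T.C0.Pt} {Q : Place (ResidueField A) Fb₁} (hQ : T.C0.Val₁ χ Q)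
    (P : Place K F) : T.r₁ P = some Q ↔ T.Fin0 P ∧ T.C0.Centred P χ := by
  rw [r₁_eq_some_iff]
  constructor
  · rintro (⟨hP, χ', hχ', hv⟩ | ⟨hP, χ', hχ', hs', hv⟩)
    · rw [T.C0.pt_eq_of_val₁ hQ hv]
      exact ⟨hP, hχ'⟩
    · exfalso
      have hw := hv T.s1
      rw [hs', map_zero, sub_zero] at hw
      exact false_of_val_both Q T.ρ₁_t_mul_s (hQ T.t0) hw
  · rintro ⟨hP, hχ⟩
    exact Or.inl ⟨hP, χ, hχ, hQ⟩

/-- the fibre of `r₁` over the place of a point at `t = ∞` of the chart `1`. -/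
theorem r₁_eq_some_iff₁ {χ : T.C1.Pt} (hs : χ T.s1 = 0) {Q : Place (ResidueField A) Fb₁}
    (hQ : T.C1.Val₁ χ Q) (P : Place K F) : T.r₁ P = some Q ↔ ¬ T.Fin0 P ∧ T.C1.Centred P χ := by
  rw [r₁_eq_some_iff]
  constructor
  · rintro (⟨hP, χ', hχ', hv⟩ | ⟨hP, χ', hχ', hs', hv⟩)
    · exfalso
      have hw := hQ T.s1
      rw [hs, map_zero, sub_zero] at hw
      exact false_of_val_both Q T.ρ₁_t_mul_s (hv T.t0) hw
    · rw [T.C1.pt_eq_of_val₁ hQ hv]
      exact ⟨hP, hχ'⟩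
  · rintro ⟨hP, hχ⟩
    exact Or.inr ⟨hP, χ, hχ, hs, hQ⟩

theorem r₂_eq_some_iff₀ {χ : T.C0.Pt} {Q : Place (ResidueField A) Fb₂} (hQ : T.C0.Val₂ χ Q)
    (P : Place K F) : T.r₂ P = some Q ↔ T.Fin0 P ∧ T.C0.Centred P χ := by
  rw [r₂_eq_some_iff]
  constructor
  · rintro (⟨hP, χ', hχ', hv⟩ | ⟨hP, χ', hχ', hs', hv⟩)
    · rw [T.C0.pt_eq_of_val₂ hQ hv]
      exact ⟨hP, hχ'⟩
    · exfalso
      have hw := hv T.s1
      rw [hs', map_zero, sub_zero] at hw
      exact false_of_val_both Q T.ρ₂_t_mul_s (hQ T.t0) hw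
  · rintro ⟨hP, hχ⟩
    exact Or.inl ⟨hP, χ, hχ, hQ⟩

theorem r₂_eq_some_iff₁ {χ : T.C1.Pt} (hs : χ T.s1 = 0) {Q : Place (ResidueField A) Fb₂}
    (hQ : T.C1.Val₂ χ Q) (P : Place K F) : T.r₂ P = some Q ↔ ¬ T.Fin0 P ∧ T.C1.Centred P χ := by
  rw [r₂_eq_some_iff]
  constructor
  · rintro (⟨hP, χ', hχ', hv⟩ | ⟨hP, χ', hχ', hs', hv⟩)
    · exfalso
      have hw := hQ T.s1
      rw [hs, map_zero, sub_zero] at hw
      exact false_of_val_both Q T.ρ₂_t_mul_s (hv T.t0) hw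
    · rw [T.C1.pt_eq_of_val₂ hQ hv]
      exact ⟨hP, hχ'⟩
  · rintro ⟨hP, hχ⟩
    exact Or.inr ⟨hP, χ, hχ, hs, hQ⟩

end TwoCharts

end Fermat.Agent.T33.NodalPlaces1
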