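/-
Programme T (S33), chapter (e) "N34 over ℚ̄", block (C) (helper1): **invariance of the partial
reductions of places under semilinear automorphisms** (the place-fields `r₁_smul`, `r₂_smul` of
`NodalRed.Compat`), for the partial reductions `TwoCharts.rawRed` of `NodalPlaces1B`.

A semilinear automorphism `g` of `F / K` FIXES the two-chart model `T` (`T.Fixes g`) if its base
automorphism preserves `A` and is trivial on the residue field, `g • t = t`, `g` preserves the two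
chart rings and every closed point (`χ (g • b) = χ b`).  If `g` and `g⁻¹` fix `T` then
`r_j (g • P) = r_j P`.

The last condition of `Fixes` follows from the invariance of the two reductions
(`ρ_j (g • b) = ρ_j b`, which `NodalRed.Compat` asks anyway): `fixes_of_ρ_smul`.

* `HasValue.smul`, `Chart.centred_smul`;
* `TwoCharts.Fixes`, `fin0_smul_iff`, `red₁_smul`, `red₂_smul`, `r₁_smul`, `r₂_smul`;
* `TwoCharts.fixes_of_ρ_smul`;
* `TwoCharts.compat` : `NodalRed.Compat` for `T.rawRed.mkNodalRed …`.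
-/
import Mathlib
import Fermat.Agent.T33.NodalPlaces1B

set_option autoImplicit false

open AlgebraicCurve IsLocalRing

noncomputable section

namespace Fermat.Agent.T33.NodalPlaces1

open Fermat.Agent.T33.NodalCtx1 Fermat.Agent.T33.NodalCurve6 Fermat.Agent.T33.NodalAbs1A
  Fermat.Agent.X0.FF AlgebraicCurve.SemilinearAut

variable {K : Type*} [Field K] {A : ValuationSubring K}
variable {F : Type*} [Field F] [Algebra K F]

theorem HasValue.smul (g : SemilinearAut K F) {P : Place K F} {f : F} {a : K}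
    (h : HasValue P f a) : HasValue (g • P) (g • f) (baseAut g a) := by
  rcases h with h | h
  · left
    rw [h, SemilinearAut.smul_algebraMap]
  · right
    rw [← SemilinearAut.smul_algebraMap, ← smul_sub, SemilinearAut.ord_smul]
    exact h

variable {Fb₁ Fb₂ : Type*} [Field Fb₁] [Field Fb₂]
  [Algebra (ResidueField A) Fb₁] [Algebra (ResidueField A) Fb₂]
variable {c₁ : HalfRed A F Fb₁} {c₂ : HalfRed A F Fb₂}

/-- if `g` and `g⁻¹` preserve the chart, the residue field and the closed point `χ`, then `g • P` is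
centred at `χ` as soon as `P` is. -/
theorem Chart.centred_smul (C : Chart c₁ c₂) (g : SemilinearAut K F)
    (hA : ∀ a : K, a ∈ A → baseAut g a ∈ A)
    (hres : ∀ (a : K) (ha : a ∈ A) (ha' : baseAut g a ∈ A),
      residue A ⟨baseAut g a, ha'⟩ = residue A ⟨a, ha⟩)
    (hB : ∀ b : F, b ∈ C.B → g⁻¹ • b ∈ C.B) (χ : C.Pt)
    (hχ : ∀ (b : F) (hb : b ∈ C.B), χ ⟨g⁻¹ • b, hB b hb⟩ = χ ⟨b, hb⟩)
    {P : Place K F} (h : C.Centred P χ) : C.Centred (g • P) χ := by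
  intro b
  obtain ⟨a', ha', hχa'⟩ := h ⟨g⁻¹ • (b : F), hB b b.2⟩
  refine ⟨⟨baseAut g (a' : K), hA _ a'.2⟩, ?_, ?_⟩
  · have := ha'.smul g
    simp only [smul_inv_smul] at this
    exact this
  · rw [hres (a' : K) a'.2 (hA _ a'.2)]
    rw [← hχ (b : F) b.2]
    exact hχa'

namespace TwoCharts

variable (T : TwoCharts c₁ c₂)

/-- **the semilinear automorphism `g` fixes the two-chart model.** -/
structure Fixes (g : SemilinearAut K F) : Prop where
  mem_A : ∀ a : K, a ∈ A → baseAut g a ∈ A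
  res : ∀ (a : K) (ha : a ∈ A) (ha' : baseAut g a ∈ A),
    residue A ⟨baseAut g a, ha'⟩ = residue A ⟨a, ha⟩
  smul_t : g • T.t = T.t
  mem₀ : ∀ b : F, b ∈ T.C0.B → g • b ∈ T.C0.B
  mem₁ : ∀ b : F, b ∈ T.C1.B → g • b ∈ T.C1.B
  pt₀ : ∀ (χ : T.C0.Pt) (b : F) (hb : b ∈ T.C0.B), χ ⟨g • b, mem₀ b hb⟩ = χ ⟨b, hb⟩
  pt₁ : ∀ (χ : T.C1.Pt) (b : F) (hb : b ∈ T.C1.B), χ ⟨g • b, mem₁ b hb⟩ = χ ⟨b, hb⟩

variable {T}

theorem fin0_smul {g : SemilinearAut K F} (hg : T.Fixes g) {P : Place K F} (h : T.Fin0 P) :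
    T.Fin0 (g • P) := by
  obtain ⟨a, ha⟩ := h
  refine ⟨⟨baseAut g (a : K), hg.mem_A _ a.2⟩, ?_⟩
  have := ha.smul g
  rwa [hg.smul_t] at this

theorem fin0_smul_iff {g : SemilinearAut K F} (hg : T.Fixes g) (hg' : T.Fixes g⁻¹)
    (P : Place K F) : T.Fin0 (g • P) ↔ T.Fin0 P := by
  constructor
  · intro h
    have := fin0_smul hg' h
    rwa [inv_smul_smul] at this
  · exact fin0_smul hg

theorem centred₀_smul {g : SemilinearAut K F} (hg : T.Fixes g) (hg' : T.Fixes g⁻¹)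
    {P : Place K F} {χ : T.C0.Pt} (h : T.C0.Centred P χ) : T.C0.Centred (g • P) χ :=
  T.C0.centred_smul g hg.mem_A hg.res hg'.mem₀ χ (hg'.pt₀ χ) h

theorem centred₁_smul {g : SemilinearAut K F} (hg : T.Fixes g) (hg' : T.Fixes g⁻¹)
    {P : Place K F} {χ : T.C1.Pt} (h : T.C1.Centred P χ) : T.C1.Centred (g • P) χ :=
  T.C1.centred_smul g hg.mem_A hg.res hg'.mem₁ χ (hg'.pt₁ χ) h

theorem red₁_smul {g : SemilinearAut K F} (hg : T.Fixes g) (hg' : T.Fixes g⁻¹)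
    {P : Place K F} {Q : Place (ResidueField A) Fb₁} (h : T.Red₁ P Q) : T.Red₁ (g • P) Q := by
  rcases h with ⟨hP, χ, hχ, hv⟩ | ⟨hP, χ, hχ, hs, hv⟩
  · exact Or.inl ⟨fin0_smul hg hP, χ, centred₀_smul hg hg' hχ, hv⟩
  · exact Or.inr ⟨fun h => hP ((fin0_smul_iff hg hg' P).1 h), χ, centred₁_smul hg hg' hχ, hs, hv⟩

theorem red₂_smul {g : SemilinearAut K F} (hg : T.Fixes g) (hg' : T.Fixes g⁻¹)
    {P : Place K F} {Q : Place (ResidueField A) Fb₂} (h : T.Red₂ P Q) : T.Red₂ (g • P) Q := by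
  rcases h with ⟨hP, χ, hχ, hv⟩ | ⟨hP, χ, hχ, hs, hv⟩
  · exact Or.inl ⟨fin0_smul hg hP, χ, centred₀_smul hg hg' hχ, hv⟩
  · exact Or.inr ⟨fun h => hP ((fin0_smul_iff hg hg' P).1 h), χ, centred₁_smul hg hg' hχ, hs, hv⟩

theorem fixes_inv_inv {g : SemilinearAut K F} (hg : T.Fixes g) : T.Fixes (g⁻¹)⁻¹ := by
  rwa [inv_inv]

/-- **`r₁ (g • P) = r₁ P`.** -/
theorem r₁_smul {g : SemilinearAut K F} (hg : T.Fixes g) (hg' : T.Fixes g⁻¹) (P : Place K F) :
    T.r₁ (g • P) = T.r₁ P := by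
  apply option_ext
  intro Q
  rw [r₁_eq_some_iff, r₁_eq_some_iff]
  constructor
  · intro h
    have := red₁_smul hg' (fixes_inv_inv hg) h
    rwa [inv_smul_smul] at this
  · exact red₁_smul hg hg'

/-- **`r₂ (g • P) = r₂ P`.** -/
theorem r₂_smul {g : SemilinearAut K F} (hg : T.Fixes g) (hg' : T.Fixes g⁻¹) (P : Place K F) :
    T.r₂ (g • P) = T.r₂ P := by
  apply option_ext
  intro Q
  rw [r₂_eq_some_iff, r₂_eq_some_iff]
  constructor
  · intro h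
    have := red₂_smul hg' (fixes_inv_inv hg) h
    rwa [inv_smul_smul] at this
  · exact red₂_smul hg hg'

/-- **the closed points are fixed as soon as the two reductions are invariant**: a point lies on
one of the two components, where it is determined by the values of the reductions at its place. -/
theorem fixes_of_ρ_smul (g : SemilinearAut K F)
    (mem_A : ∀ a : K, a ∈ A → baseAut g a ∈ A)
    (res : ∀ (a : K) (ha : a ∈ A) (ha' : baseAut g a ∈ A),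
      residue A ⟨baseAut g a, ha'⟩ = residue A ⟨a, ha⟩)
    (smul_t : g • T.t = T.t)
    (mem₀ : ∀ b : F, b ∈ T.C0.B → g • b ∈ T.C0.B)
    (mem₁ : ∀ b : F, b ∈ T.C1.B → g • b ∈ T.C1.B)
    (ρ₁_smul : ∀ (y : F) (h : y ∈ c₁.O) (h' : g • y ∈ c₁.O), c₁.ρ ⟨g • y, h'⟩ = c₁.ρ ⟨y, h⟩)
    (ρ₂_smul : ∀ (y : F) (h : y ∈ c₂.O) (h' : g • y ∈ c₂.O), c₂.ρ ⟨g • y, h'⟩ = c₂.ρ ⟨y, h⟩) :
    T.Fixes g where
  mem_A := mem_A
  res := res
  smul_t := smul_t
  mem₀ := mem₀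
  mem₁ := mem₁
  pt₀ χ b hb := by
    rcases T.C0.on_total χ with h | h
    · obtain ⟨Q, hQ⟩ := T.val₁_exists₀ χ h
      have h1 := hQ ⟨g • b, mem₀ b hb⟩
      have h2 := hQ ⟨b, hb⟩
      rw [Chart.ρ₁_apply] at h1 h2
      rw [ρ₁_smul b (T.C0.le₁ hb) (T.C0.le₁ (mem₀ b hb))] at h1
      have h3 := Submodule.sub_mem _ h2 h1
      rw [sub_sub_sub_cancel_left, ← map_sub] at h3
      exact sub_eq_zero.1 (const_not_mem_vanishing Q h3)
    · obtain ⟨Q, hQ⟩ := T.val₂_exists₀ χ h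
      have h1 := hQ ⟨g • b, mem₀ b hb⟩
      have h2 := hQ ⟨b, hb⟩
      rw [Chart.ρ₂_apply] at h1 h2
      rw [ρ₂_smul b (T.C0.le₂ hb) (T.C0.le₂ (mem₀ b hb))] at h1
      have h3 := Submodule.sub_mem _ h2 h1
      rw [sub_sub_sub_cancel_left, ← map_sub] at h3
      exact sub_eq_zero.1 (const_not_mem_vanishing Q h3)
  pt₁ χ b hb := by
    rcases T.C1.on_total χ with h | h
    · obtain ⟨Q, hQ⟩ := T.val₁_exists₁ χ h
      have h1 := hQ ⟨g • b, mem₁ b hb⟩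
      have h2 := hQ ⟨b, hb⟩
      rw [Chart.ρ₁_apply] at h1 h2
      rw [ρ₁_smul b (T.C1.le₁ hb) (T.C1.le₁ (mem₁ b hb))] at h1
      have h3 := Submodule.sub_mem _ h2 h1
      rw [sub_sub_sub_cancel_left, ← map_sub] at h3
      exact sub_eq_zero.1 (const_not_mem_vanishing Q h3)
    · obtain ⟨Q, hQ⟩ := T.val₂_exists₁ χ h
      have h1 := hQ ⟨g • b, mem₁ b hb⟩
      have h2 := hQ ⟨b, hb⟩
      rw [Chart.ρ₂_apply] at h1 h2
      rw [ρ₂_smul b (T.C1.le₂ hb) (T.C1.le₂ (mem₁ b hb))] at h1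
      have h3 := Submodule.sub_mem _ h2 h1
      rw [sub_sub_sub_cancel_left, ← map_sub] at h3
      exact sub_eq_zero.1 (const_not_mem_vanishing Q h3)


/-- **`NodalRed.Compat` for the context of a two-chart model**, for a family of semilinear
automorphisms closed under inverses (the inertia group) preserving `A`, trivial on the residue
field, fixing `t`, preserving the two Gauss rings with their reductions and the two charts. -/
theorem compat (hnode) (hpush₁) (hpush₂) (hglue)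
    {Γ : Type*} (γ : Γ → SemilinearAut K F)
    (hinv : ∀ σ : Γ, ∃ τ : Γ, γ τ = (γ σ)⁻¹)
    (baseAut_mem : ∀ (σ : Γ) (a : K), a ∈ A → baseAut (γ σ) a ∈ A)
    (hres : ∀ (σ : Γ) (a : K) (ha : a ∈ A) (ha' : baseAut (γ σ) a ∈ A),
      residue A ⟨baseAut (γ σ) a, ha'⟩ = residue A ⟨a, ha⟩)
    (smul_mem₁ : ∀ (σ : Γ) (y : F), y ∈ c₁.O → γ σ • y ∈ c₁.O)
    (smul_mem₂ : ∀ (σ : Γ) (y : F), y ∈ c₂.O → γ σ • y ∈ c₂.O)
    (ρ₁_smul : ∀ (σ : Γ) (y : F) (h : y ∈ c₁.O) (h' : γ σ • y ∈ c₁.O),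
      c₁.ρ ⟨γ σ • y, h'⟩ = c₁.ρ ⟨y, h⟩)
    (ρ₂_smul : ∀ (σ : Γ) (y : F) (h : y ∈ c₂.O) (h' : γ σ • y ∈ c₂.O),
      c₂.ρ ⟨γ σ • y, h'⟩ = c₂.ρ ⟨y, h⟩)
    (smul_t : ∀ σ : Γ, γ σ • T.t = T.t)
    (mem₀ : ∀ (σ : Γ) (b : F), b ∈ T.C0.B → γ σ • b ∈ T.C0.B)
    (mem₁ : ∀ (σ : Γ) (b : F), b ∈ T.C1.B → γ σ • b ∈ T.C1.B) :
    (T.rawRed.mkNodalRed c₁ c₂ hnode hpush₁ hpush₂ hglue).Compat γ := by
  have hfix : ∀ σ : Γ, T.Fixes (γ σ) := fun σ =>
    fixes_of_ρ_smul (γ σ) (baseAut_mem σ) (hres σ) (smul_t σ) (mem₀ σ) (mem₁ σ) (ρ₁_smul σ)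
      (ρ₂_smul σ)
  have hfix' : ∀ σ : Γ, T.Fixes (γ σ)⁻¹ := fun σ => by
    obtain ⟨τ, hτ⟩ := hinv σ
    rw [← hτ]
    exact hfix τ
  exact T.rawRed.compat_of c₁ c₂ hnode hpush₁ hpush₂ hglue γ baseAut_mem smul_mem₁ smul_mem₂
    ρ₁_smul ρ₂_smul (fun σ P => r₁_smul (hfix σ) (hfix' σ) P)
    (fun σ P => r₂_smul (hfix σ) (hfix' σ) P)

end TwoCharts

end Fermat.Agent.T33.NodalPlaces1
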