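/-
Programme T (S33 via a trichotomy), chapter T5, file F (helper3): **`ker Ψ` for an abstract nodal
reduction context** (`T33/NodalCtx1`), so that the abstract nodal chapters ((d) θ-surjectivity,
(NF)) and the concrete `Ψ` of `Psi3D` speak about THE SAME subgroup.

For a component `c : HalfRed A F Fb`:
* `inv_mem_of_ρ_ne_zero`, `ρ_inv` : an element of `c.O` with nonzero reduction is a unit of `c.O`
  (from the Gauss property);
* `pu c : Subgroup Fˣ` — the principal units `{u ∈ c.O | c.ρ u = 1}`;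
* `quot_mem` : if a semilinear automorphism `g` preserves `A`, `c.O` and `c.ρ`, then
  `g f = const · u · f` with `u ∈ pu c`, for every `f ∈ Fˣ`.

For `N : NodalRed A F Nd`:
* `formalN N p : AddSubgroup (Pic0 K F)` — `Psi3B.formal p` for the two subgroups `pu N.c₁`, `pu N.c₂`:
  classes `[D]` with `p^m D = div f`, `f ∈ Kˣ (Fˣ)^{p^m} (1 + ker ρ_i)` for `i = 1, 2`, some `m`
  (= `ker Ψ_m`, all `m` at once);
* `smul_sub_mem_formalN` : under `N.Compat γ`, `γ σ • y - y ∈ formalN N p` for every `p`-power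
  torsion class `y` (inertia acts trivially modulo `ker Ψ`); `smul_mem_formalN`.

`pu_eq_of_forall` : a criterion to identify `pu c` with a concretely defined subgroup (used to
identify `pu N.c₁`, `pu N.c₂` with `Psi3C.puOne`, `Psi3C.puTwo` once chapter (e) instantiates `N`).
-/
import Mathlib
import Fermat.Agent.T33.NodalCtx1
import Fermat.Agent.T33.Psi3B

set_option autoImplicit false

open AlgebraicCurve IsLocalRing

noncomputable section

namespace Fermat.Agent.T33.Psi3F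

open Fermat.Agent.T33.NodalCtx1 Fermat.Agent.T33.NodalCurve6 Fermat.Agent.T33.Psi3B

variable {K : Type*} [Field K] {A : ValuationSubring K}
variable {F : Type*} [Field F] [Algebra K F]

section Half

variable {Fb : Type*} [Field Fb] [Algebra (ResidueField A) Fb] (c : HalfRed A F Fb)

/-- a constant lying in `c.O` with nonzero reduction has its inverse in `A`. -/
theorem inv_mem_of_const {a : K} (h : algebraMap K F a ∈ c.O) (hρ : c.ρ ⟨_, h⟩ ≠ 0) :
    a⁻¹ ∈ A := by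
  by_contra hinv
  have ha : a ∈ A := (A.mem_or_inv_mem a).resolve_right hinv
  have hm : (⟨a, ha⟩ : A) ∈ maximalIdeal A := by
    rw [IsLocalRing.mem_maximalIdeal, mem_nonunits_iff]
    intro hu
    apply hinv
    obtain ⟨u, hu⟩ := hu
    have h3 : (u : A) * ((u⁻¹ : Aˣ) : A) = 1 := Units.mul_inv u
    have h4 : a * (((u⁻¹ : Aˣ) : A) : K) = 1 := by
      have := congrArg (Subtype.val) h3
      rw [hu] at this
      simpa using this
    have h5 : (((u⁻¹ : Aˣ) : A) : K) = a⁻¹ := eq_inv_of_mul_eq_one_right h4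
    rw [← h5]
    exact SetLike.coe_mem _
  apply hρ
  have h1 := c.ρ_algebraMap ⟨a, ha⟩
  rw [(IsLocalRing.residue_eq_zero_iff _).mpr hm, map_zero] at h1
  exact h1

/-- **an element of `c.O` with nonzero reduction is a unit of `c.O`.** -/
theorem inv_mem_of_ρ_ne_zero {y : F} (hy : y ∈ c.O) (hρ : c.ρ ⟨y, hy⟩ ≠ 0) : y⁻¹ ∈ c.O := by
  have hy0 : y ≠ 0 := by
    rintro rfl
    apply hρ
    have : (⟨(0 : F), hy⟩ : c.O) = 0 := rfl
    rw [this, map_zero]
  obtain ⟨a, ha0, h, hρa⟩ := c.gauss y⁻¹ (inv_ne_zero hy0)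
  -- `a = (a y⁻¹) y ∈ O` with nonzero reduction
  have hmem : algebraMap K F a ∈ c.O := by
    have h1 := c.O.mul_mem h hy
    rwa [mul_assoc, inv_mul_cancel₀ hy0, mul_one] at h1
  have hρ' : c.ρ ⟨_, hmem⟩ ≠ 0 := by
    have h2 : (⟨algebraMap K F a, hmem⟩ : c.O) = ⟨algebraMap K F a * y⁻¹, h⟩ * ⟨y, hy⟩ :=
      Subtype.ext (by
        show algebraMap K F a = algebraMap K F a * y⁻¹ * y
        rw [mul_assoc, inv_mul_cancel₀ hy0, mul_one])
    rw [h2, map_mul]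
    exact mul_ne_zero hρa hρ
  have hinv := inv_mem_of_const c hmem hρ'
  have h3 := c.O.mul_mem (c.algebraMap_mem ⟨a⁻¹, hinv⟩) h
  have h4 : algebraMap K F (a⁻¹) * (algebraMap K F a * y⁻¹) = y⁻¹ := by
    rw [← mul_assoc, ← map_mul, inv_mul_cancel₀ ha0, map_one, one_mul]
  rwa [h4] at h3

theorem ρ_inv {y : F} (hy : y ∈ c.O) (hρ : c.ρ ⟨y, hy⟩ ≠ 0) :
    c.ρ ⟨y⁻¹, inv_mem_of_ρ_ne_zero c hy hρ⟩ = (c.ρ ⟨y, hy⟩)⁻¹ := by
  have hy0 : y ≠ 0 := by
    rintro rfl
    apply hρ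
    have : (⟨(0 : F), hy⟩ : c.O) = 0 := rfl
    rw [this, map_zero]
  have h1 : (⟨y, hy⟩ : c.O) * ⟨y⁻¹, inv_mem_of_ρ_ne_zero c hy hρ⟩ = 1 :=
    Subtype.ext (mul_inv_cancel₀ hy0)
  have h2 := congrArg c.ρ h1
  rw [map_mul, map_one] at h2
  exact eq_inv_of_mul_eq_one_right h2

/-- **the principal units** `{u ∈ c.O | c.ρ u = 1}` of a component. -/
def pu : Subgroup Fˣ where
  carrier := {u | ∃ h : (u : F) ∈ c.O, c.ρ ⟨(u : F), h⟩ = 1}
  one_mem' := ⟨c.O.one_mem, map_one c.ρ⟩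
  mul_mem' := by
    rintro u v ⟨hu, hρu⟩ ⟨hv, hρv⟩
    refine ⟨c.O.mul_mem hu hv, ?_⟩
    have : (⟨((u * v : Fˣ) : F), c.O.mul_mem hu hv⟩ : c.O) = ⟨(u : F), hu⟩ * ⟨(v : F), hv⟩ := rfl
    rw [this, map_mul, hρu, hρv, one_mul]
  inv_mem' := by
    rintro u ⟨hu, hρu⟩
    have hne : c.ρ ⟨(u : F), hu⟩ ≠ 0 := by rw [hρu]; exact one_ne_zero
    have h1 := inv_mem_of_ρ_ne_zero c hu hne
    have h2 := ρ_inv c hu hne
    rw [hρu, inv_one] at h2
    have hcoe : ((u⁻¹ : Fˣ) : F) = (u : F)⁻¹ := Units.val_inv_eq_inv_val u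
    refine ⟨by rw [hcoe]; exact h1, ?_⟩
    have : (⟨((u⁻¹ : Fˣ) : F), by rw [hcoe]; exact h1⟩ : c.O) = ⟨(u : F)⁻¹, h1⟩ :=
      Subtype.ext hcoe
    rw [this, h2]

theorem mem_pu_iff {u : Fˣ} : u ∈ pu c ↔ ∃ h : (u : F) ∈ c.O, c.ρ ⟨(u : F), h⟩ = 1 := Iff.rfl

/-- identification of `pu c` with a concretely given subgroup. -/
theorem pu_eq_of_forall (U : Subgroup Fˣ)
    (h : ∀ u : Fˣ, u ∈ U ↔ ∃ h : (u : F) ∈ c.O, c.ρ ⟨(u : F), h⟩ = 1) : pu c = U := by
  ext u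
  rw [mem_pu_iff, h u]

/-- **the quotient `g f / f` of a Galois conjugate is a constant times a principal unit**, for a
semilinear automorphism `g` preserving `A`, `c.O` and the reduction. -/
theorem quot_mem (g : SemilinearAut K F)
    (hO : ∀ y : F, y ∈ c.O → g • y ∈ c.O)
    (hρ : ∀ (y : F) (h : y ∈ c.O) (h' : g • y ∈ c.O), c.ρ ⟨g • y, h'⟩ = c.ρ ⟨y, h⟩)
    (f : Fˣ) : ∃ (a : Kˣ) (u : Fˣ), u ∈ pu c ∧ unitsSMul g f = constUnit K a * u * f := by
  obtain ⟨a, ha0, h, hρa⟩ := c.gauss (f : F) f.ne_zero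
  set y : F := algebraMap K F a * (f : F) with hy
  have hy0 : y ≠ 0 := mul_ne_zero (by rw [Ne, map_eq_zero]; exact ha0) f.ne_zero
  have hgy : g • y ∈ c.O := hO y h
  have hρgy : c.ρ ⟨g • y, hgy⟩ = c.ρ ⟨y, h⟩ := hρ y h hgy
  have hinv := inv_mem_of_ρ_ne_zero c h hρa
  have hρinv := ρ_inv c h hρa
  -- the constant `a / g a`
  have hga0 : SemilinearAut.baseAut g a ≠ 0 :=
    (map_ne_zero_iff _ (SemilinearAut.baseAut g).injective).mpr ha0
  set a' : Kˣ := Units.mk0 (a / SemilinearAut.baseAut g a) (div_ne_zero ha0 hga0) with ha'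
  set u : Fˣ := unitsSMul g f * f⁻¹ * (constUnit K a')⁻¹ with hu
  refine ⟨a', u, ?_, ?_⟩
  · -- `u = (g y) y⁻¹`
    have hgy_eq : g • y = algebraMap K F (SemilinearAut.baseAut g a) * g • (f : F) := by
      rw [hy, smul_mul', SemilinearAut.smul_algebraMap]
    have hucoe : (u : F) = g • y * y⁻¹ := by
      rw [hu, Units.val_mul, Units.val_mul, coe_unitsSMul, Units.val_inv_eq_inv_val,
        Units.val_inv_eq_inv_val, coe_constUnit, ha', Units.val_mk0, map_div₀, hgy_eq, hy]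
      have h1 : algebraMap K F a ≠ 0 := by rw [Ne, map_eq_zero]; exact ha0
      have h2 : algebraMap K F (SemilinearAut.baseAut g a) ≠ 0 := by
        rw [Ne, map_eq_zero]; exact hga0
      have h3 : (f : F) ≠ 0 := f.ne_zero
      field_simp
    have hmem : (u : F) ∈ c.O := by
      rw [hucoe]
      exact c.O.mul_mem hgy hinv
    refine ⟨hmem, ?_⟩
    have : (⟨(u : F), hmem⟩ : c.O) = ⟨g • y, hgy⟩ * ⟨y⁻¹, hinv⟩ := Subtype.ext hucoe
    rw [this, map_mul, hρgy, hρinv, mul_inv_cancel₀ hρa]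
  · rw [mul_comm (constUnit K a') u, hu, inv_mul_cancel_right, inv_mul_cancel_right]

/-- a semilinear automorphism preserving `c.O` and commuting with `c.ρ` up to a ring automorphism
of the target preserves the principal units. -/
theorem smul_mem_pu (g : SemilinearAut K F) (hO : ∀ y : F, y ∈ c.O → g • y ∈ c.O)
    (hρ : ∀ (y : F) (h : y ∈ c.O) (h' : g • y ∈ c.O), c.ρ ⟨y, h⟩ = 1 → c.ρ ⟨g • y, h'⟩ = 1)
    {u : Fˣ} (hu : u ∈ pu c) : unitsSMul g u ∈ pu c := by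
  obtain ⟨h, h1⟩ := hu
  exact ⟨hO _ h, hρ _ h (hO _ h) h1⟩

end Half

/-! ### the nodal context -/

variable {Fb₁ Fb₂ : Type*} [Field Fb₁] [Field Fb₂]
  [Algebra (ResidueField A) Fb₁] [Algebra (ResidueField A) Fb₂]
variable {ι : Type*} {Nd : NodalData (ResidueField A) Fb₁ Fb₂ ι} (N : NodalRed A F Nd)

/-- the two subgroups of principal units of a nodal context. -/
def puN : Bool → Subgroup Fˣ := fun b => bif b then pu N.c₂ else pu N.c₁

/-- **`ker Ψ` of a nodal reduction context**: the classes `[D]` with `p^m D = div f` for some `m` and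
some `f ∈ Kˣ (Fˣ)^{p^m} (1 + ker ρ_i)`, `i = 1, 2`. -/
def formalN (p : ℕ) : AddSubgroup (Pic0 K F) := formal p (puN N)

theorem mem_formalN_iff {p : ℕ} {y : Pic0 K F} :
    y ∈ formalN N p ↔ ∃ (m : ℕ) (f : Fˣ) (D : Divisor.degZero (K := K) (F := F)),
      f ∈ RC K (pu N.c₁) (p ^ m) ∧ f ∈ RC K (pu N.c₂) (p ^ m) ∧
      (∀ v : Place K F, ((p ^ m : ℕ) : ℤ) * (D : Divisor K F) v = v.ord (f : F)) ∧
      y = Pic0.mk D := by
  constructor
  · rintro ⟨m, f, D, hf, hD, rfl⟩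
    exact ⟨m, f, D, hf false, hf true, hD, rfl⟩
  · rintro ⟨m, f, D, hf1, hf2, hD, rfl⟩
    refine ⟨m, f, D, fun b => ?_, hD, rfl⟩
    cases b
    · exact hf1
    · exact hf2

/-- **inertia acts trivially modulo `ker Ψ`**: under `N.Compat γ`, `γ σ • y - y ∈ formalN N p` for
every `p`-power torsion class `y`. -/
theorem smul_sub_mem_formalN {Γ : Type*} {γ : Γ → SemilinearAut K F} (hC : N.Compat γ) (σ : Γ)
    {p : ℕ} (k : ℕ) (y : Pic0 K F) (hy : p ^ k • y = 0) : γ σ • y - y ∈ formalN N p := by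
  refine smul_sub_mem_formal (γ σ) (fun f b => ?_) k y hy
  cases b
  · exact quot_mem N.c₁ (γ σ) (hC.smul_mem₁ σ) (fun y h h' => hC.ρ₁_smul σ y h h') f
  · exact quot_mem N.c₂ (γ σ) (hC.smul_mem₂ σ) (fun y h h' => hC.ρ₂_smul σ y h h') f

/-- `ker Ψ` is stable under the automorphisms of a compatible family. -/
theorem smul_mem_formalN {Γ : Type*} {γ : Γ → SemilinearAut K F} (hC : N.Compat γ) (σ : Γ)
    {p : ℕ} {y : Pic0 K F} (hy : y ∈ formalN N p) : γ σ • y ∈ formalN N p := by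
  refine smul_mem_formal (γ σ) (fun b u hu => ?_) hy
  cases b
  · exact smul_mem_pu N.c₁ (γ σ) (hC.smul_mem₁ σ)
      (fun y h h' h1 => by rw [hC.ρ₁_smul σ y h h', h1]) hu
  · exact smul_mem_pu N.c₂ (γ σ) (hC.smul_mem₂ σ)
      (fun y h h' h1 => by rw [hC.ρ₂_smul σ y h h', h1]) hu

end Fermat.Agent.T33.Psi3F
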