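/-
Programme T (S33 via a trichotomy), chapter T5, file G (helper3): **the two concrete components
`halfOne`, `halfTwo : HalfRed A (Fbar N) κ((q))` of `X₀(N)`, ANY level `N`**, in the literal shape
asked for by chapter (e):

* `intF_eq_gaussA`, `redSeries_eq_redA` : `ChartIntegralA1.intF A N = Setup8.gaussA A (Fbar N)`
  (the functions with `A`-integral `q`-expansion), with the same coefficientwise reduction;
* `OOne A N := GaussOv1.fracRing (intF A N) (redSeries A N)`, `rhoOne A N := GaussOv1.fracRed …` (the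
  Gauss valuation ring at `∞` and its reduction to `κ((q))`);
  `OTwo A N := (OOne A N).comap W_N`, `rhoTwo A N := rhoOne ∘ W_N`  (`W_N = frickeBarEquiv N`);
* generic operations on `NodalCtx1.HalfRed`: `mkHalf` (the field `ρ_ker` FOLLOWS from the other three),
  `comapHalf` (transport along a `K`-automorphism of `F`), `factorHalf` (restriction of the target to
  a subfield `Fb ↪ Fb'` through which the reduction factors), with `pu_comapHalf`, `pu_factorHalf`;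
* `halfOne A N p hA`, `halfTwo A N p hA : HalfRed A (Fbar N) κ((q))` for `A` over `p` (no hypothesis
  `p ∤ N`) with `O = OOne/OTwo`, `ρ = rhoOne/rhoTwo` definitionally;
* `pu_halfOne : pu (halfOne …) = puOne A N`, `pu_halfTwo : pu (halfTwo …) = puTwo A N`;
  `pu_eq_puOne_of`, `pu_eq_puTwo_of` : the same for ANY `c : HalfRed A (Fbar N) Fb` with `c.O = OOne`
  and `j ∘ c.ρ = rhoOne` for a ring homomorphism `j : Fb →+* κ((q))` (chapter (e): `Fb` = the residue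
  function field of level `M'`, `j` its inclusion);
* `formalN_eq_formalTwo` : for such a nodal context `Nn`, `Psi3F.formalN Nn p = Psi3D.formalTwo A N p`
  (the abstract `ker Ψ` IS the kernel of the `Ψ` of `Psi3D`);
* inertia: `inertia_smul_mem_OOne`, `rhoOne_inertia_smul`, `inertia_smul_mem_OTwo`,
  `rhoTwo_inertia_smul`, `baseAut_gal_mem` (the `O`/`ρ` fields of `NodalRed.Compat`).
-/
import Mathlib
import Fermat.Agent.ES.RED.ChartIntegralA1
import Fermat.Agent.T33.Psi3D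
import Fermat.Agent.T33.Psi3F

set_option autoImplicit false
set_option linter.unusedSectionVars false
set_option synthInstance.maxHeartbeats 400000

noncomputable section

namespace Fermat.Agent.T33.Psi3G

open HahnSeries ModularCurve AlgebraicCurve IsLocalRing
open Fermat.Agent.RED.Interface4 Fermat.Agent.ES.RED Fermat.Agent.ES.RED.GaloisRed21
open Fermat.Agent.ES.N34.FrickeFK8 Fermat.Agent.FF
open Fermat.Agent.T33.Psi3B Fermat.Agent.T33.Psi3C Fermat.Agent.T33.Psi3D Fermat.Agent.T33.Psi3F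
open Fermat.Agent.T33.NodalCtx1 Fermat.Agent.T33.NodalCurve6

/-! ### generic operations on `HalfRed` -/

section Generic

variable {K : Type*} [Field K] {A : ValuationSubring K}
variable {F : Type*} [Field F] [Algebra K F]
variable {Fb : Type*} [Field Fb] [Algebra (ResidueField A) Fb]

/-- **a `HalfRed` from the Gauss property alone**: the description `ker ρ = 𝔪_A O` follows. -/
def mkHalf (O : Subring F) (ρ : O →+* Fb)
    (algebraMap_mem : ∀ a : A, algebraMap K F (a : K) ∈ O)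
    (ρ_algebraMap : ∀ a : A, ρ ⟨algebraMap K F (a : K), algebraMap_mem a⟩ =
      algebraMap (ResidueField A) Fb (residue A a))
    (gauss : ∀ f : F, f ≠ 0 → ∃ c : K, c ≠ 0 ∧ ∃ h : algebraMap K F c * f ∈ O,
      ρ ⟨algebraMap K F c * f, h⟩ ≠ 0) : HalfRed A F Fb where
  O := O
  ρ := ρ
  algebraMap_mem := algebraMap_mem
  ρ_algebraMap := ρ_algebraMap
  gauss := gauss
  ρ_ker := by
    intro y hy
    by_cases hy0 : (y : F) = 0
    · exact ⟨0, Ideal.zero_mem _, 0, by rw [hy0]; simp⟩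
    obtain ⟨d, hd0, hmem, hρ⟩ := gauss (y : F) hy0
    have hdA : d ∉ A := by
      intro hd
      apply hρ
      have h1 : (⟨algebraMap K F d * (y : F), hmem⟩ : O) =
          ⟨algebraMap K F ((⟨d, hd⟩ : A) : K), algebraMap_mem ⟨d, hd⟩⟩ * y := Subtype.ext rfl
      rw [h1, map_mul, hy, mul_zero]
    have hdinv : d⁻¹ ∈ A := (A.mem_or_inv_mem d).resolve_left hdA
    refine ⟨⟨d⁻¹, hdinv⟩, ?_, ⟨_, hmem⟩, ?_⟩
    · rw [IsLocalRing.mem_maximalIdeal, mem_nonunits_iff]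
      intro hu
      apply hdA
      obtain ⟨v, hv⟩ := hu.exists_right_inv
      have hv' : d⁻¹ * (v : K) = 1 := by
        have := congrArg Subtype.val hv
        simpa using this
      have : (v : K) = d := by
        have h2 := eq_inv_of_mul_eq_one_right hv'
        rwa [inv_inv] at h2
      rw [← this]; exact v.2
    · show (y : F) = algebraMap K F d⁻¹ * (algebraMap K F d * (y : F))
      rw [← mul_assoc, ← map_mul, inv_mul_cancel₀ hd0, map_one, one_mul]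

/-- **transport of a component along a `K`-automorphism `w` of `F`**: `O' = w⁻¹(O)`, `ρ' = ρ ∘ w`. -/
def comapHalf (c : HalfRed A F Fb) (w : F ≃ₐ[K] F) : HalfRed A F Fb :=
  mkHalf (c.O.comap (w : F →+* F))
    (c.ρ.comp ((w : F →+* F).restrict (c.O.comap (w : F →+* F)) c.O (fun _ hx => hx)))
    (fun a => by
      show (w : F →+* F) (algebraMap K F (a : K)) ∈ c.O
      have : (w : F →+* F) (algebraMap K F (a : K)) = algebraMap K F (a : K) := w.commutes _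
      rw [this]; exact c.algebraMap_mem a)
    (fun a => by
      rw [← c.ρ_algebraMap a]
      show c.ρ _ = c.ρ _
      congr 1
      exact Subtype.ext (w.commutes _))
    (fun f hf => by
      obtain ⟨d, hd0, h, hρ⟩ := c.gauss (w f) (by rwa [Ne, map_eq_zero_iff _ w.injective])
      have hw : (w : F →+* F) (algebraMap K F d * f) = algebraMap K F d * w f := by
        show w (algebraMap K F d * f) = _
        rw [map_mul, w.commutes]
      refine ⟨d, hd0, (by show (w : F →+* F) _ ∈ c.O; rw [hw]; exact h), ?_⟩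
      intro h0
      apply hρ
      rw [← h0]
      show c.ρ _ = c.ρ _
      congr 1
      exact Subtype.ext hw.symm)

theorem mem_comapHalf_O (c : HalfRed A F Fb) (w : F ≃ₐ[K] F) (y : F) :
    y ∈ (comapHalf c w).O ↔ w y ∈ c.O := Iff.rfl

theorem comapHalf_ρ (c : HalfRed A F Fb) (w : F ≃ₐ[K] F) (y : F) (h : y ∈ (comapHalf c w).O) :
    (comapHalf c w).ρ ⟨y, h⟩ = c.ρ ⟨w y, h⟩ := rfl

theorem pu_comapHalf (c : HalfRed A F Fb) (w : F ≃ₐ[K] F) :
    pu (comapHalf c w) = (pu c).comap (Units.map ((w : F ≃ₐ[K] F) : F →* F)) := by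
  ext u
  rfl

/-- **restriction of the target**: if the reduction factors through a field `Fb` embedded in `Fb'`,
we get a component with target `Fb`. -/
def factorHalf {Fb' : Type*} [Field Fb'] [Algebra (ResidueField A) Fb'] (c : HalfRed A F Fb')
    (j : Fb →ₐ[ResidueField A] Fb') (ρ' : c.O →+* Fb) (h : ∀ y, j (ρ' y) = c.ρ y) :
    HalfRed A F Fb :=
  mkHalf c.O ρ' c.algebraMap_mem
    (fun a => by
      apply j.injective
      show j _ = j _
      rw [h, c.ρ_algebraMap a, j.commutes])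
    (fun f hf => by
      obtain ⟨d, hd0, hm, hρ⟩ := c.gauss f hf
      refine ⟨d, hd0, hm, fun h0 => hρ ?_⟩
      rw [← h, h0, map_zero])

theorem pu_factorHalf {Fb' : Type*} [Field Fb'] [Algebra (ResidueField A) Fb']
    (c : HalfRed A F Fb') (j : Fb →ₐ[ResidueField A] Fb') (ρ' : c.O →+* Fb)
    (h : ∀ y, j (ρ' y) = c.ρ y) : pu (factorHalf c j ρ' h) = pu c := by
  ext u
  constructor
  · rintro ⟨hu, h1⟩
    refine ⟨hu, ?_⟩
    have h2 : ρ' ⟨(u : F), hu⟩ = 1 := h1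
    rw [← h, h2, map_one]
  · rintro ⟨hu, h1⟩
    refine ⟨hu, ?_⟩
    show ρ' ⟨(u : F), hu⟩ = 1
    apply j.injective
    show j _ = j _
    rw [h, h1, map_one]

/-- identification of principal units through an embedding of the targets (ring homomorphism
version, no algebra structure needed). -/
theorem pu_eq_of_comp {Fb' : Type*} [Field Fb'] [Algebra (ResidueField A) Fb']
    (c : HalfRed A F Fb) (c' : HalfRed A F Fb') (j : Fb →+* Fb') (hO : c.O = c'.O)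
    (hρ : ∀ (y : F) (h : y ∈ c.O) (h' : y ∈ c'.O), j (c.ρ ⟨y, h⟩) = c'.ρ ⟨y, h'⟩) :
    pu c = pu c' := by
  ext u
  constructor
  · rintro ⟨hu, h1⟩
    have hu' : (u : F) ∈ c'.O := hO ▸ hu
    refine ⟨hu', ?_⟩
    rw [← hρ _ hu hu', h1, map_one]
  · rintro ⟨hu', h1⟩
    have hu : (u : F) ∈ c.O := hO ▸ hu'
    refine ⟨hu, ?_⟩
    apply j.injective
    rw [hρ _ hu hu', h1, map_one]

end Generic

/-! ### the concrete Gauss ring at `∞` -/

variable (A : ValuationSubring Qbar) (N : ℕ) [NeZero N]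

/-- `intF` (chapter ES/RED) and `gaussA` (Setup8) are the same subring of `Fbar N`. -/
theorem intF_eq_gaussA : ChartIntegralA1.intF A N = Setup8.gaussA A (Fbar N) := by
  ext y
  exact Iff.rfl

theorem mem_gaussA_of_mem_intF {y : ↥(Fbar N)} (h : y ∈ ChartIntegralA1.intF A N) :
    y ∈ Setup8.gaussA A (Fbar N) := h

theorem mem_intF_of_mem_gaussA {y : ↥(Fbar N)} (h : y ∈ Setup8.gaussA A (Fbar N)) :
    y ∈ ChartIntegralA1.intF A N := h

/-- the two coefficientwise reductions agree. -/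
theorem redSeries_eq_redA (y : ↥(Fbar N)) (h : y ∈ ChartIntegralA1.intF A N)
    (h' : y ∈ Setup8.gaussA A (Fbar N)) :
    ChartIntegralA1.redSeries A N ⟨y, h⟩ = Setup8.redA A (Fbar N) ⟨y, h'⟩ := by
  rw [Setup8.redA_eq A (Fbar N) ⟨y, h'⟩ (Y := ChartIntegralA1.seriesHom A N ⟨y, h⟩)
    (ChartIntegralA1.coeffMap_seriesHom A N ⟨y, h⟩)]
  rfl

/-- **`O₁`**: the Gauss valuation ring of `Fbar N` at the cusp `∞`, over `A`. -/
def OOne : Subring ↥(Fbar N) :=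
  GaussOv1.fracRing (ChartIntegralA1.intF A N) (ChartIntegralA1.redSeries A N)

/-- **`ρ₁ : O₁ →+* κ((q))`**, the reduction of `q`-expansions. -/
def rhoOne : ↥(OOne A N) →+* LaurentSeries (ResidueField ↥A) :=
  GaussOv1.fracRed (ChartIntegralA1.intF A N) (ChartIntegralA1.redSeries A N)

/-- **`O₂ = W_N⁻¹ (O₁)`**. -/
def OTwo : Subring ↥(Fbar N) :=
  (OOne A N).comap ((frickeBarEquiv N : ↥(Fbar N) ≃ₐ[Qbar] ↥(Fbar N)) : ↥(Fbar N) →+* ↥(Fbar N))

/-- **`ρ₂ = ρ₁ ∘ W_N`**. -/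
def rhoTwo : ↥(OTwo A N) →+* LaurentSeries (ResidueField ↥A) :=
  (rhoOne A N).comp
    (((frickeBarEquiv N : ↥(Fbar N) ≃ₐ[Qbar] ↥(Fbar N)) : ↥(Fbar N) →+* ↥(Fbar N)).restrict
      (OTwo A N) (OOne A N) (fun _ hx => hx))

theorem mem_OOne_iff {y : ↥(Fbar N)} :
    y ∈ OOne A N ↔ ∃ a b : ↥(ChartIntegralA1.intF A N),
      ChartIntegralA1.redSeries A N b ≠ 0 ∧ y * (b : ↥(Fbar N)) = (a : ↥(Fbar N)) := Iff.rfl

theorem mem_OTwo_iff {y : ↥(Fbar N)} :
    y ∈ OTwo A N ↔ frickeBarEquiv N y ∈ OOne A N := Iff.rfl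

theorem rhoTwo_apply (y : ↥(Fbar N)) (h : y ∈ OTwo A N) :
    rhoTwo A N ⟨y, h⟩ = rhoOne A N ⟨frickeBarEquiv N y, h⟩ := rfl

theorem rhoOne_eq (y : ↥(Fbar N)) (h : y ∈ OOne A N) (a b : ↥(ChartIntegralA1.intF A N))
    (hb : ChartIntegralA1.redSeries A N b ≠ 0) (hab : y * (b : ↥(Fbar N)) = (a : ↥(Fbar N))) :
    rhoOne A N ⟨y, h⟩ = ChartIntegralA1.redSeries A N a / ChartIntegralA1.redSeries A N b :=
  GaussOv1.fracRed_eq _ _ ⟨y, h⟩ a b hb hab

/-- the Gauss-integral functions lie in `O₁`, with the expected reduction. -/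
theorem gaussA_mem_OOne (a : ↥(Setup8.gaussA A (Fbar N))) : (a : ↥(Fbar N)) ∈ OOne A N :=
  GaussOv1.coe_mem_fracRing _ _ ⟨(a : ↥(Fbar N)), a.2⟩

theorem rhoOne_gaussA (a : ↥(Setup8.gaussA A (Fbar N))) :
    rhoOne A N ⟨(a : ↥(Fbar N)), gaussA_mem_OOne A N a⟩ = Setup8.redA A (Fbar N) a := by
  have h := GaussOv1.fracRed_mk_coe (ChartIntegralA1.intF A N) (ChartIntegralA1.redSeries A N)
    ⟨(a : ↥(Fbar N)), a.2⟩ (gaussA_mem_OOne A N a)
  exact h.trans (redSeries_eq_redA A N _ _ _)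

/-- `O₁` is also the fraction ring of `(gaussA, redA)`. -/
theorem OOne_eq_fracRing_gaussA :
    OOne A N = GaussOv1.fracRing (Setup8.gaussA A (Fbar N)) (Setup8.redA A (Fbar N)) := by
  ext y
  constructor
  · rintro ⟨a, b, hb, hab⟩
    refine ⟨⟨(a : ↥(Fbar N)), a.2⟩, ⟨(b : ↥(Fbar N)), b.2⟩, ?_, hab⟩
    rwa [← redSeries_eq_redA A N _ b.2]
  · rintro ⟨a, b, hb, hab⟩
    refine ⟨⟨(a : ↥(Fbar N)), a.2⟩, ⟨(b : ↥(Fbar N)), b.2⟩, ?_, hab⟩
    rwa [redSeries_eq_redA A N _ _ b.2]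

/-- **the principal units of `Psi3C` are those of `(O₁, ρ₁)`.** -/
theorem mem_puOne_iff_rhoOne {u : (↥(Fbar N))ˣ} :
    u ∈ puOne A N ↔ ∃ h : (u : ↥(Fbar N)) ∈ OOne A N, rhoOne A N ⟨(u : ↥(Fbar N)), h⟩ = 1 := by
  constructor
  · rintro ⟨a, b, hb, hab, h⟩
    have hb' : ChartIntegralA1.redSeries A N ⟨(b : ↥(Fbar N)), b.2⟩ ≠ 0 := by
      rwa [redSeries_eq_redA A N _ _ b.2]
    have hmem : (u : ↥(Fbar N)) ∈ OOne A N :=
      ⟨⟨(a : ↥(Fbar N)), a.2⟩, ⟨(b : ↥(Fbar N)), b.2⟩, hb', h⟩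
    refine ⟨hmem, ?_⟩
    rw [rhoOne_eq A N _ hmem ⟨(a : ↥(Fbar N)), a.2⟩ ⟨(b : ↥(Fbar N)), b.2⟩ hb' h,
      redSeries_eq_redA A N _ _ a.2, redSeries_eq_redA A N _ _ b.2]
    show Setup8.redA A (Fbar N) a / Setup8.redA A (Fbar N) b = 1
    rw [hab, div_self hb]
  · rintro ⟨hmem, h1⟩
    obtain ⟨a, b, hb, hab, hρ⟩ := GaussOv1.exists_num_den (ChartIntegralA1.intF A N)
      (ChartIntegralA1.redSeries A N) ⟨(u : ↥(Fbar N)), hmem⟩
    have h2 : ChartIntegralA1.redSeries A N a = ChartIntegralA1.redSeries A N b := by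
      have h3 : ChartIntegralA1.redSeries A N a / ChartIntegralA1.redSeries A N b = 1 :=
        hρ.symm.trans h1
      rwa [div_eq_one_iff_eq hb] at h3
    refine ⟨⟨(a : ↥(Fbar N)), a.2⟩, ⟨(b : ↥(Fbar N)), b.2⟩, ?_, ?_, hab⟩
    · rwa [← redSeries_eq_redA A N _ b.2]
    · rw [← redSeries_eq_redA A N _ a.2, ← redSeries_eq_redA A N _ b.2]
      exact h2

theorem mem_puTwo_iff_rhoTwo {u : (↥(Fbar N))ˣ} :
    u ∈ puTwo A N ↔ ∃ h : (u : ↥(Fbar N)) ∈ OTwo A N, rhoTwo A N ⟨(u : ↥(Fbar N)), h⟩ = 1 := by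
  rw [mem_puTwo_iff, mem_puOne_iff_rhoOne]
  rfl

/-! ### the two components as `HalfRed` -/

variable (p : ℕ) [Fact p.Prime] (hA : A.LiesOverPrime p)

/-- **the component at `∞`** of `X₀(N)` over `A` (any `N`), with target `κ((q))`. -/
def halfOne : HalfRed A ↥(Fbar N) (LaurentSeries (ResidueField ↥A)) :=
  mkHalf (OOne A N) (rhoOne A N)
    (fun a => gaussA_mem_OOne A N ⟨_, Setup8.algebraMap_mem_gaussA A (Fbar N) a⟩)
    (fun a => by
      have h := rhoOne_gaussA A N ⟨_, Setup8.algebraMap_mem_gaussA A (Fbar N) a⟩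
      rw [Setup8.redA_algebraMap] at h
      exact h)
    (fun f hf0 => by
      obtain ⟨c, a, b, hc0, ha, hb, hrel⟩ := GaussOv1.exists_gauss_fraction A N p hA f hf0
      have ha' : ChartIntegralA1.redSeries A N ⟨(a : ↥(Fbar N)), a.2⟩ ≠ 0 := by
        rwa [redSeries_eq_redA A N _ _ a.2]
      have hb' : ChartIntegralA1.redSeries A N ⟨(b : ↥(Fbar N)), b.2⟩ ≠ 0 := by
        rwa [redSeries_eq_redA A N _ _ b.2]
      have hrel' : (algebraMap Qbar ↥(Fbar N) c⁻¹ * f) * (b : ↥(Fbar N)) = (a : ↥(Fbar N)) := by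
        rw [mul_assoc, hrel, ← mul_assoc, ← map_mul, inv_mul_cancel₀ hc0, map_one, one_mul]
      have hmem : algebraMap Qbar ↥(Fbar N) c⁻¹ * f ∈ OOne A N :=
        ⟨⟨(a : ↥(Fbar N)), a.2⟩, ⟨(b : ↥(Fbar N)), b.2⟩, hb', hrel'⟩
      refine ⟨c⁻¹, inv_ne_zero hc0, hmem, ?_⟩
      rw [rhoOne_eq A N _ hmem _ _ hb' hrel']
      exact div_ne_zero ha' hb')

/-- **the component at `0`**: the Fricke transport of `halfOne`. -/
def halfTwo : HalfRed A ↥(Fbar N) (LaurentSeries (ResidueField ↥A)) :=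
  comapHalf (halfOne A N p hA) (frickeBarEquiv N)

theorem halfOne_O : (halfOne A N p hA).O = OOne A N := rfl

theorem halfOne_ρ : (halfOne A N p hA).ρ = rhoOne A N := rfl

theorem halfTwo_O : (halfTwo A N p hA).O = OTwo A N := rfl

theorem halfTwo_ρ : (halfTwo A N p hA).ρ = rhoTwo A N := rfl

theorem pu_halfOne : pu (halfOne A N p hA) = puOne A N := by
  ext u
  rw [mem_puOne_iff_rhoOne]
  rfl

theorem pu_halfTwo : pu (halfTwo A N p hA) = puTwo A N := by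
  ext u
  rw [mem_puTwo_iff_rhoTwo]
  rfl

variable {A N}

/-- **identification for chapter (e), component 1**: any `HalfRed` on `Fbar N` whose Gauss ring is
`O₁` and whose reduction becomes `ρ₁` after an embedding `j` of its target into `κ((q))` has the
principal units `puOne A N`. -/
theorem pu_eq_puOne_of {Fb : Type*} [Field Fb] [Algebra (ResidueField ↥A) Fb]
    (c : HalfRed A ↥(Fbar N) Fb) (j : Fb →+* LaurentSeries (ResidueField ↥A))
    (hO : c.O = OOne A N)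
    (hρ : ∀ (y : ↥(Fbar N)) (h : y ∈ c.O) (h' : y ∈ OOne A N), j (c.ρ ⟨y, h⟩) = rhoOne A N ⟨y, h'⟩) :
    pu c = puOne A N := by
  ext u
  rw [mem_puOne_iff_rhoOne, mem_pu_iff]
  constructor
  · rintro ⟨hu, h1⟩
    have hu' : (u : ↥(Fbar N)) ∈ OOne A N := hO ▸ hu
    exact ⟨hu', by rw [← hρ _ hu hu', h1, map_one]⟩
  · rintro ⟨hu', h1⟩
    have hu : (u : ↥(Fbar N)) ∈ c.O := hO ▸ hu'
    refine ⟨hu, j.injective ?_⟩
    rw [hρ _ hu hu', h1, map_one]

/-- **identification for chapter (e), component 2.** -/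
theorem pu_eq_puTwo_of {Fb : Type*} [Field Fb] [Algebra (ResidueField ↥A) Fb]
    (c : HalfRed A ↥(Fbar N) Fb) (j : Fb →+* LaurentSeries (ResidueField ↥A))
    (hO : c.O = OTwo A N)
    (hρ : ∀ (y : ↥(Fbar N)) (h : y ∈ c.O) (h' : y ∈ OTwo A N), j (c.ρ ⟨y, h⟩) = rhoTwo A N ⟨y, h'⟩) :
    pu c = puTwo A N := by
  ext u
  rw [mem_puTwo_iff_rhoTwo, mem_pu_iff]
  constructor
  · rintro ⟨hu, h1⟩
    have hu' : (u : ↥(Fbar N)) ∈ OTwo A N := hO ▸ hu
    exact ⟨hu', by rw [← hρ _ hu hu', h1, map_one]⟩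
  · rintro ⟨hu', h1⟩
    have hu : (u : ↥(Fbar N)) ∈ c.O := hO ▸ hu'
    refine ⟨hu, j.injective ?_⟩
    rw [hρ _ hu hu', h1, map_one]

/-- **the abstract `ker Ψ` of a nodal context on `Fbar N` with components `(O₁, ρ₁)`, `(O₂, ρ₂)` is
the kernel of the concrete `Ψ` of `Psi3D`.** -/
theorem formalN_eq_formalTwo {Fb₁ Fb₂ : Type*} [Field Fb₁] [Field Fb₂]
    [Algebra (ResidueField ↥A) Fb₁] [Algebra (ResidueField ↥A) Fb₂] {ι : Type*}
    {Nd : NodalData (ResidueField ↥A) Fb₁ Fb₂ ι} (Nn : NodalRed A ↥(Fbar N) Nd)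
    (h₁ : pu Nn.c₁ = puOne A N) (h₂ : pu Nn.c₂ = puTwo A N) (q : ℕ) :
    formalN Nn q = formalTwo A N q := by
  have : puN Nn = Utwo A N := by
    funext b
    cases b
    · exact h₁
    · exact h₂
  show formal q (puN Nn) = formal q (Utwo A N)
  rw [this]

/-! ### inertia and decomposition groups: the `O`/`ρ` fields of `NodalRed.Compat` -/

variable (A N) in
/-- the reduction of a quotient of Gauss-integral functions. -/
theorem rhoOne_eq' (y : ↥(Fbar N)) (h : y ∈ OOne A N) (a b : ↥(Setup8.gaussA A (Fbar N)))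
    (hb : Setup8.redA A (Fbar N) b ≠ 0) (hab : y * (b : ↥(Fbar N)) = (a : ↥(Fbar N))) :
    rhoOne A N ⟨y, h⟩ = Setup8.redA A (Fbar N) a / Setup8.redA A (Fbar N) b := by
  have hb' : ChartIntegralA1.redSeries A N ⟨(b : ↥(Fbar N)), b.2⟩ ≠ 0 := by
    rwa [redSeries_eq_redA A N _ _ b.2]
  rw [rhoOne_eq A N y h ⟨(a : ↥(Fbar N)), a.2⟩ ⟨(b : ↥(Fbar N)), b.2⟩ hb' hab,
    redSeries_eq_redA A N _ _ a.2, redSeries_eq_redA A N _ _ b.2]

theorem exists_gaussA_fraction {y : ↥(Fbar N)} (hy : y ∈ OOne A N) :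
    ∃ a b : ↥(Setup8.gaussA A (Fbar N)), Setup8.redA A (Fbar N) b ≠ 0 ∧
      y * (b : ↥(Fbar N)) = (a : ↥(Fbar N)) := by
  rw [OOne_eq_fracRing_gaussA] at hy
  exact hy

theorem baseAut_gal_mem (g : A.decompositionSubgroup ℚ) (a : Qbar) (ha : a ∈ A) :
    SemilinearAut.baseAut (gal N (g : Qbar ≃ₐ[ℚ] Qbar)) a ∈ A :=
  (sigmaA A g ⟨a, ha⟩).2

/-- the decomposition group preserves `O₁`. -/
theorem decomp_smul_mem_OOne (g : A.decompositionSubgroup ℚ) {y : ↥(Fbar N)} (hy : y ∈ OOne A N) :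
    gal N (g : Qbar ≃ₐ[ℚ] Qbar) • y ∈ OOne A N := by
  obtain ⟨a, b, hb, hab⟩ := exists_gaussA_fraction hy
  rw [OOne_eq_fracRing_gaussA]
  refine ⟨⟨_, smul_mem_gaussA g a⟩, ⟨_, smul_mem_gaussA g b⟩, ?_, ?_⟩
  · rw [redA_smul]
    exact coeffMap_ne_zero_of_injective _ (psiRes A g).injective hb
  · show gal N (g : Qbar ≃ₐ[ℚ] Qbar) • y * gal N (g : Qbar ≃ₐ[ℚ] Qbar) • (b : ↥(Fbar N)) =
      gal N (g : Qbar ≃ₐ[ℚ] Qbar) • (a : ↥(Fbar N))
    rw [← smul_mul', hab]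

/-- **the decomposition group acts on `ρ₁` through the residue field.** -/
theorem rhoOne_decomp_smul (g : A.decompositionSubgroup ℚ) (y : ↥(Fbar N)) (h : y ∈ OOne A N)
    (h' : gal N (g : Qbar ≃ₐ[ℚ] Qbar) • y ∈ OOne A N) :
    rhoOne A N ⟨gal N (g : Qbar ≃ₐ[ℚ] Qbar) • y, h'⟩ =
      coeffMap ((psiRes A g : _ ≃+* _) : _ →+* _) (rhoOne A N ⟨y, h⟩) := by
  obtain ⟨a, b, hb, hab⟩ := exists_gaussA_fraction h
  have hb' : Setup8.redA A (Fbar N) ⟨_, smul_mem_gaussA g b⟩ ≠ 0 := by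
    rw [redA_smul]
    exact coeffMap_ne_zero_of_injective _ (psiRes A g).injective hb
  have hab' : gal N (g : Qbar ≃ₐ[ℚ] Qbar) • y *
      ((⟨_, smul_mem_gaussA g b⟩ : ↥(Setup8.gaussA A (Fbar N))) : ↥(Fbar N)) =
      ((⟨_, smul_mem_gaussA g a⟩ : ↥(Setup8.gaussA A (Fbar N))) : ↥(Fbar N)) := by
    show gal N (g : Qbar ≃ₐ[ℚ] Qbar) • y * gal N (g : Qbar ≃ₐ[ℚ] Qbar) • (b : ↥(Fbar N)) =
      gal N (g : Qbar ≃ₐ[ℚ] Qbar) • (a : ↥(Fbar N))
    rw [← smul_mul', hab]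
  rw [rhoOne_eq' A N _ h' _ _ hb' hab', rhoOne_eq' A N y h a b hb hab, redA_smul, redA_smul,
    map_div₀]

/-- **inertia preserves `O₁` and acts trivially on `ρ₁`.** -/
theorem inertia_smul_mem_OOne {τ : Qbar ≃ₐ[ℚ] Qbar} (hτ : τ ∈ A.inertiaSubgroupIn ℚ)
    {y : ↥(Fbar N)} (hy : y ∈ OOne A N) : gal N τ • y ∈ OOne A N := by
  obtain ⟨hD, -⟩ := psiRes_eq_one_of_mem_inertia A hτ
  exact decomp_smul_mem_OOne ⟨τ, hD⟩ hy

theorem rhoOne_inertia_smul {τ : Qbar ≃ₐ[ℚ] Qbar} (hτ : τ ∈ A.inertiaSubgroupIn ℚ)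
    (y : ↥(Fbar N)) (h : y ∈ OOne A N) (h' : gal N τ • y ∈ OOne A N) :
    rhoOne A N ⟨gal N τ • y, h'⟩ = rhoOne A N ⟨y, h⟩ := by
  obtain ⟨hD, hψ⟩ := psiRes_eq_one_of_mem_inertia A hτ
  have := rhoOne_decomp_smul (⟨τ, hD⟩ : A.decompositionSubgroup ℚ) y h h'
  rw [this, hψ]
  exact (coeffMap_congr (RingHom.ext fun _ => rfl) _).trans (coeffMap_id _)

/-- the decomposition group preserves `O₂`. -/
theorem decomp_smul_mem_OTwo (g : A.decompositionSubgroup ℚ) {y : ↥(Fbar N)} (hy : y ∈ OTwo A N) :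
    gal N (g : Qbar ≃ₐ[ℚ] Qbar) • y ∈ OTwo A N := by
  show frickeBar N (gal N (g : Qbar ≃ₐ[ℚ] Qbar) • y) ∈ OOne A N
  rw [frickeBar_smul]
  exact decomp_smul_mem_OOne g hy

theorem rhoTwo_decomp_smul (g : A.decompositionSubgroup ℚ) (y : ↥(Fbar N)) (h : y ∈ OTwo A N)
    (h' : gal N (g : Qbar ≃ₐ[ℚ] Qbar) • y ∈ OTwo A N) :
    rhoTwo A N ⟨gal N (g : Qbar ≃ₐ[ℚ] Qbar) • y, h'⟩ =
      coeffMap ((psiRes A g : _ ≃+* _) : _ →+* _) (rhoTwo A N ⟨y, h⟩) := by
  rw [rhoTwo_apply, rhoTwo_apply, ← rhoOne_decomp_smul g (frickeBarEquiv N y) h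
    (decomp_smul_mem_OOne g h)]
  congr 1
  exact Subtype.ext (frickeBar_smul _ _)

theorem inertia_smul_mem_OTwo {τ : Qbar ≃ₐ[ℚ] Qbar} (hτ : τ ∈ A.inertiaSubgroupIn ℚ)
    {y : ↥(Fbar N)} (hy : y ∈ OTwo A N) : gal N τ • y ∈ OTwo A N := by
  obtain ⟨hD, -⟩ := psiRes_eq_one_of_mem_inertia A hτ
  exact decomp_smul_mem_OTwo ⟨τ, hD⟩ hy

theorem rhoTwo_inertia_smul {τ : Qbar ≃ₐ[ℚ] Qbar} (hτ : τ ∈ A.inertiaSubgroupIn ℚ)
    (y : ↥(Fbar N)) (h : y ∈ OTwo A N) (h' : gal N τ • y ∈ OTwo A N) :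
    rhoTwo A N ⟨gal N τ • y, h'⟩ = rhoTwo A N ⟨y, h⟩ := by
  obtain ⟨hD, hψ⟩ := psiRes_eq_one_of_mem_inertia A hτ
  have := rhoTwo_decomp_smul (⟨τ, hD⟩ : A.decompositionSubgroup ℚ) y h h'
  rw [this, hψ]
  exact (coeffMap_congr (RingHom.ext fun _ => rfl) _).trans (coeffMap_id _)

end Fermat.Agent.T33.Psi3G
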