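/-
Programme T (S33), chapter (e) "N34 over ℚ̄", block (C) (helper1), concrete half: **the inertia
group and the two Gauss rings `c1 h`, `c2 h` of `NodalHalf4`** — `NodalRed.Compat` for the context
built from a two-chart model (`NodalPlaces1.TwoCharts (c1 h) (c2 h)`), from helper3's `Psi3G`
inertia lemmas.

* `O1_eq_OOne`, `coe_rho1` : helper4's `O1 h`, `rho1 h` (values in `κ·F̃_{M'}`) are helper3's
  `OOne A (M'p)`, `rhoOne A (M'p)` (values in `κ((q))`); `O2_eq_OTwo`, `coe_rho2`;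
* `inertia_smul_mem_c1`, `c1_ρ_inertia_smul`, `inertia_smul_mem_c2`, `c2_ρ_inertia_smul`;
* `baseAut_inertia_mem`, `residue_baseAut_inertia` (the inertia group preserves `A` and acts trivially
  on the residue field);
* `gamma A N : ↥(A.inertiaSubgroupIn ℚ) → SemilinearAut ℚ̄ (Fbar N)`, `gamma_inv`, `baseAut_gamma`;
* generic: `smul_mem_chart`, `smul_mem_chart_inv` (a semilinear automorphism preserving `R` and fixing
  `t` preserves the integral closures of `R[t]`, `R[t⁻¹]`); `gal_smul_tA` (the Hauptmodul is rational);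
* `compat_of_twoCharts` : for a two-chart model `T : TwoCharts (c1 h) (c2 h)` whose coordinate and chart
  rings are stable under the inertia group, the context `T.rawRed.mkNodalRed (c1 h) (c2 h) …` is
  `Compat (gamma A (M'p))`;
* `compat_of_twoCharts_tA` : the same with NO remaining hypothesis when `T.t = tA h`, `T.C0.B = B0A h`,
  `T.C1.B = B1A h` as sets (helper4's `NodalBase4A` vocabulary).
-/
import Mathlib
import Fermat.Agent.T33.NodalHalf4
import Fermat.Agent.T33.NodalBase4A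
import Fermat.Agent.T33.Psi3G
import Fermat.Agent.T33.NodalPlaces1C
import Fermat.Agent.FF.InertiaWire8

set_option autoImplicit false
set_option linter.unusedSectionVars false
set_option synthInstance.maxHeartbeats 400000

noncomputable section

namespace Fermat.Agent.T33.NodalCompat1

open HahnSeries ModularCurve AlgebraicCurve IsLocalRing
open Fermat.Agent.RED.Interface4 Fermat.Agent.ES.RED Fermat.Agent.ES.RED.GaloisRed21
open Fermat.Agent.ES.N34.FrickeFK8 Fermat.Agent.FF Fermat.Agent.FF.GaussOv1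
open Fermat.Agent.T33.NodalCtx1 Fermat.Agent.T33.NodalHalf4 Fermat.Agent.T33.Psi3C
  Fermat.Agent.T33.Psi3G Fermat.Agent.T33.NodalPlaces1

variable {p M' : ℕ} [NeZero M'] [NeZero p] {A : ValuationSubring Qbar}

/-- helper4's `O₁` is helper3's `O₁`. -/
theorem mem_O1_iff_mem_OOne (h : LevelHyp p M' A) (y : ↥(Fbar (M' * p))) :
    y ∈ O1 h ↔ y ∈ OOne A (M' * p) := by
  rw [mem_O1_iff_redA, OOne_eq_fracRing_gaussA]
  rfl

theorem O1_eq_OOne (h : LevelHyp p M' A) : O1 h = OOne A (M' * p) :=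
  SetLike.ext (mem_O1_iff_mem_OOne h)

/-- helper4's `ρ₁` is helper3's `ρ₁`, inside `κ((q))`. -/
theorem coe_rho1 (h : LevelHyp p M' A) (y : ↥(Fbar (M' * p))) (hy : y ∈ O1 h)
    (hy' : y ∈ OOne A (M' * p)) :
    ((rho1 h ⟨y, hy⟩ : Fb A M') : LaurentSeries (Setup8.kA A)) = rhoOne A (M' * p) ⟨y, hy'⟩ := by
  obtain ⟨a, b, hb, hab⟩ := (mem_O1_iff_redA h y).1 hy
  have hb' := (redN_ne_zero_iff h b).2 hb
  have h1 : rho1 h ⟨y, hy⟩ = redN h a / redN h b := fracRed_eq _ _ ⟨y, hy⟩ a b hb' hab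
  rw [h1, rhoOne_eq' A (M' * p) y hy' a b hb hab]
  rfl

/-- helper4's `O₂` is helper3's `O₂`. -/
theorem mem_O2_iff_mem_OTwo (h : LevelHyp p M' A) (y : ↥(Fbar (M' * p))) :
    y ∈ O2 h ↔ y ∈ OTwo A (M' * p) := by
  rw [mem_O2_iff, mem_OTwo_iff, mem_O1_iff_mem_OOne]
  rfl

theorem O2_eq_OTwo (h : LevelHyp p M' A) : O2 h = OTwo A (M' * p) :=
  SetLike.ext (mem_O2_iff_mem_OTwo h)

/-- helper4's `ρ₂` is helper3's `ρ₂`, inside `κ((q))`. -/
theorem coe_rho2 (h : LevelHyp p M' A) (y : ↥(Fbar (M' * p))) (hy : y ∈ O2 h)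
    (hy' : y ∈ OTwo A (M' * p)) :
    ((rho2 h ⟨y, hy⟩ : Fb A M') : LaurentSeries (Setup8.kA A)) = rhoTwo A (M' * p) ⟨y, hy'⟩ := by
  rw [rho2_apply, rhoTwo_apply]
  exact coe_rho1 h _ _ hy'

/-! ### the inertia group on the two components -/

theorem inertia_smul_mem_c1 (h : LevelHyp p M' A) {τ : Qbar ≃ₐ[ℚ] Qbar}
    (hτ : τ ∈ A.inertiaSubgroupIn ℚ) (y : ↥(Fbar (M' * p))) (hy : y ∈ (c1 h).O) :
    gal (M' * p) τ • y ∈ (c1 h).O :=
  (mem_O1_iff_mem_OOne h _).2 (inertia_smul_mem_OOne hτ ((mem_O1_iff_mem_OOne h y).1 hy))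

theorem c1_ρ_inertia_smul (h : LevelHyp p M' A) {τ : Qbar ≃ₐ[ℚ] Qbar}
    (hτ : τ ∈ A.inertiaSubgroupIn ℚ) (y : ↥(Fbar (M' * p))) (hy : y ∈ (c1 h).O)
    (hy' : gal (M' * p) τ • y ∈ (c1 h).O) :
    (c1 h).ρ ⟨gal (M' * p) τ • y, hy'⟩ = (c1 h).ρ ⟨y, hy⟩ := by
  apply Subtype.ext
  have h1 := coe_rho1 h _ hy' ((mem_O1_iff_mem_OOne h _).1 hy')
  have h2 := coe_rho1 h _ hy ((mem_O1_iff_mem_OOne h _).1 hy)
  exact h1.trans ((rhoOne_inertia_smul hτ y _ _).trans h2.symm)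

theorem inertia_smul_mem_c2 (h : LevelHyp p M' A) {τ : Qbar ≃ₐ[ℚ] Qbar}
    (hτ : τ ∈ A.inertiaSubgroupIn ℚ) (y : ↥(Fbar (M' * p))) (hy : y ∈ (c2 h).O) :
    gal (M' * p) τ • y ∈ (c2 h).O :=
  (mem_O2_iff_mem_OTwo h _).2 (inertia_smul_mem_OTwo hτ ((mem_O2_iff_mem_OTwo h y).1 hy))

theorem c2_ρ_inertia_smul (h : LevelHyp p M' A) {τ : Qbar ≃ₐ[ℚ] Qbar}
    (hτ : τ ∈ A.inertiaSubgroupIn ℚ) (y : ↥(Fbar (M' * p))) (hy : y ∈ (c2 h).O)
    (hy' : gal (M' * p) τ • y ∈ (c2 h).O) :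
    (c2 h).ρ ⟨gal (M' * p) τ • y, hy'⟩ = (c2 h).ρ ⟨y, hy⟩ := by
  apply Subtype.ext
  have h1 := coe_rho2 h _ hy' ((mem_O2_iff_mem_OTwo h _).1 hy')
  have h2 := coe_rho2 h _ hy ((mem_O2_iff_mem_OTwo h _).1 hy)
  exact h1.trans ((rhoTwo_inertia_smul hτ y _ _).trans h2.symm)

/-! ### the inertia group on the constants -/

theorem baseAut_inertia_mem (N : ℕ) [NeZero N] {τ : Qbar ≃ₐ[ℚ] Qbar}
    (hτ : τ ∈ A.inertiaSubgroupIn ℚ) (a : Qbar) (ha : a ∈ A) :
    SemilinearAut.baseAut (gal N τ) a ∈ A := by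
  obtain ⟨hD, -⟩ := psiRes_eq_one_of_mem_inertia A hτ
  exact baseAut_gal_mem (N := N) (⟨τ, hD⟩ : A.decompositionSubgroup ℚ) a ha

theorem residue_baseAut_inertia (N : ℕ) [NeZero N] {τ : Qbar ≃ₐ[ℚ] Qbar}
    (hτ : τ ∈ A.inertiaSubgroupIn ℚ) (a : Qbar) (ha : a ∈ A)
    (ha' : SemilinearAut.baseAut (gal N τ) a ∈ A) :
    residue ↥A ⟨SemilinearAut.baseAut (gal N τ) a, ha'⟩ = residue ↥A ⟨a, ha⟩ := by
  obtain ⟨hD, hψ⟩ := psiRes_eq_one_of_mem_inertia A hτ
  have h1 := psiRes_residue A (⟨τ, hD⟩ : A.decompositionSubgroup ℚ) ⟨a, ha⟩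
  rw [hψ] at h1
  exact h1.symm

/-- **the inertia group as a family of semilinear automorphisms of `ℚ̄·F_N`.** -/
def gamma (A : ValuationSubring Qbar) (N : ℕ) [NeZero N] :
    ↥(A.inertiaSubgroupIn ℚ) → SemilinearAut Qbar ↥(Fbar N) :=
  fun σ => gal N (σ : Qbar ≃ₐ[ℚ] Qbar)

theorem gamma_apply (N : ℕ) [NeZero N] (σ : ↥(A.inertiaSubgroupIn ℚ)) :
    gamma A N σ = gal N (σ : Qbar ≃ₐ[ℚ] Qbar) := rfl

theorem gamma_inv (N : ℕ) [NeZero N] (σ : ↥(A.inertiaSubgroupIn ℚ)) :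
    ∃ τ : ↥(A.inertiaSubgroupIn ℚ), gamma A N τ = (gamma A N σ)⁻¹ :=
  ⟨σ⁻¹, map_inv (arithmeticGalois (modularFunctionFieldFull N)) (σ : Qbar ≃ₐ[ℚ] Qbar)⟩

theorem baseAut_gamma (N : ℕ) [NeZero N] (σ : ↥(A.inertiaSubgroupIn ℚ)) (a : Qbar) :
    SemilinearAut.baseAut (gamma A N σ) a = (σ : Qbar ≃ₐ[ℚ] Qbar) a := rfl

/-! ### stability of the charts -/

section Generic

variable {K : Type*} [Field K] {R : ValuationSubring K} {F : Type*} [Field F] [Algebra K F]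

/-- a semilinear automorphism preserving `R` and fixing `t` preserves `R[t]`. -/
theorem smul_mem_adjoin (g : SemilinearAut K F)
    (hR : ∀ a : K, a ∈ R → SemilinearAut.baseAut g a ∈ R) {t : F} (ht : g • t = t) {x : F}
    (hx : x ∈ Algebra.adjoin ↥R {t}) : g • x ∈ Algebra.adjoin ↥R {t} := by
  induction hx using Algebra.adjoin_induction with
  | mem x hx =>
    rw [Set.mem_singleton_iff.1 hx, ht]
    exact Algebra.self_mem_adjoin_singleton _ _
  | algebraMap a =>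
    have h1 : g • (algebraMap ↥R F a) =
        algebraMap ↥R F ⟨SemilinearAut.baseAut g (a : K), hR _ a.2⟩ :=
      SemilinearAut.smul_algebraMap g (a : K)
    rw [h1]
    exact Subalgebra.algebraMap_mem _ _
  | add x y _ _ hx hy =>
    rw [smul_add]
    exact add_mem hx hy
  | mul x y _ _ hx hy =>
    rw [smul_mul']
    exact mul_mem hx hy

/-- **a semilinear automorphism preserving `R` and fixing `t` preserves the chart of `t`.** -/
theorem smul_mem_chart (g : SemilinearAut K F)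
    (hR : ∀ a : K, a ∈ R → SemilinearAut.baseAut g a ∈ R) {t : F} (ht : g • t = t) {b : F}
    (hb : b ∈ Fermat.Agent.RED.PUR.ChartGeneric22.chart ↥R t) :
    g • b ∈ Fermat.Agent.RED.PUR.ChartGeneric22.chart ↥R t := by
  rw [Fermat.Agent.RED.PUR.ChartGeneric22.mem_chart_iff,
    Fermat.Agent.RED.PUR.ChartGeneric22.isIntegral_subalgebra_iff] at hb ⊢
  obtain ⟨P, hP, hcoeff, hx⟩ := hb
  refine ⟨P.map ((SemilinearAut.toRingAut g : F ≃+* F) : F →+* F), hP.map _, fun i => ?_, ?_⟩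
  · rw [Polynomial.coeff_map]
    exact smul_mem_adjoin g hR ht (hcoeff i)
  · have h1 : g • b = ((SemilinearAut.toRingAut g : F ≃+* F) : F →+* F) b := rfl
    rw [h1, Polynomial.eval_map_apply, hx, map_zero]

theorem smul_mem_chart_inv (g : SemilinearAut K F)
    (hR : ∀ a : K, a ∈ R → SemilinearAut.baseAut g a ∈ R) {t : F} (ht : g • t = t) {b : F}
    (hb : b ∈ Fermat.Agent.RED.PUR.ChartGeneric22.chart ↥R t⁻¹) :
    g • b ∈ Fermat.Agent.RED.PUR.ChartGeneric22.chart ↥R t⁻¹ :=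
  smul_mem_chart g hR (by rw [smul_inv'', ht]) hb

end Generic

/-- the Hauptmodul has rational coefficients: it is fixed by the Galois action. -/
theorem gal_smul_tA (h : LevelHyp p M' A) (τ : Qbar ≃ₐ[ℚ] Qbar) :
    gal (M' * p) τ • NodalBase4A.tA h = NodalBase4A.tA h := by
  apply Subtype.ext
  rw [coe_gal_smul, NodalBase4A.coe_tA]
  exact Fermat.Agent.RED.BASE.EtaQuot12.coeffMap_tq Qbar (τ : Qbar →+* Qbar) 4 8

/-! ### `Compat` for the two-chart model -/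

/-- **`NodalRed.Compat` for a two-chart model on the components `c1 h`, `c2 h`**, for the inertia
group: only the stability of the coordinate and of the two chart rings remains to be checked. -/
theorem compat_of_twoCharts (h : LevelHyp p M' A) (T : TwoCharts (c1 h) (c2 h))
    (hnode) (hpush₁) (hpush₂) (hglue)
    (smul_t : ∀ σ : ↥(A.inertiaSubgroupIn ℚ), gamma A (M' * p) σ • T.t = T.t)
    (mem₀ : ∀ (σ : ↥(A.inertiaSubgroupIn ℚ)) (b : ↥(Fbar (M' * p))), b ∈ T.C0.B →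
      gamma A (M' * p) σ • b ∈ T.C0.B)
    (mem₁ : ∀ (σ : ↥(A.inertiaSubgroupIn ℚ)) (b : ↥(Fbar (M' * p))), b ∈ T.C1.B →
      gamma A (M' * p) σ • b ∈ T.C1.B) :
    (T.rawRed.mkNodalRed (c1 h) (c2 h) hnode hpush₁ hpush₂ hglue).Compat (gamma A (M' * p)) :=
  T.compat hnode hpush₁ hpush₂ hglue (gamma A (M' * p)) (gamma_inv (M' * p))
    (fun σ a ha => baseAut_inertia_mem (M' * p) σ.2 a ha)
    (fun σ a ha ha' => residue_baseAut_inertia (M' * p) σ.2 a ha ha')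
    (fun σ y hy => inertia_smul_mem_c1 h σ.2 y hy)
    (fun σ y hy => inertia_smul_mem_c2 h σ.2 y hy)
    (fun σ y hy hy' => c1_ρ_inertia_smul h σ.2 y hy hy')
    (fun σ y hy hy' => c2_ρ_inertia_smul h σ.2 y hy hy')
    smul_t mem₀ mem₁

/-- **`Compat` for THE two-chart model of chapter (e)**: coordinate `tA h`, chart rings `B0A h`,
`B1A h` (helper4's `NodalBase4A`) — nothing remains to be checked. -/
theorem compat_of_twoCharts_tA (h : LevelHyp p M' A) (T : TwoCharts (c1 h) (c2 h))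
    (ht : T.t = NodalBase4A.tA h)
    (h0 : ∀ b : ↥(Fbar (M' * p)), b ∈ T.C0.B ↔ b ∈ NodalBase4A.B0A h)
    (h1 : ∀ b : ↥(Fbar (M' * p)), b ∈ T.C1.B ↔ b ∈ NodalBase4A.B1A h)
    (hnode) (hpush₁) (hpush₂) (hglue) :
    (T.rawRed.mkNodalRed (c1 h) (c2 h) hnode hpush₁ hpush₂ hglue).Compat (gamma A (M' * p)) := by
  refine compat_of_twoCharts h T hnode hpush₁ hpush₂ hglue (fun σ => ?_) (fun σ b hb => ?_)
    (fun σ b hb => ?_)
  · rw [ht]
    exact gal_smul_tA h _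
  · rw [h0] at hb ⊢
    exact smul_mem_chart _ (fun a ha => baseAut_inertia_mem (M' * p) σ.2 a ha)
      (gal_smul_tA h _) hb
  · rw [h1] at hb ⊢
    exact smul_mem_chart_inv _ (fun a ha => baseAut_inertia_mem (M' * p) σ.2 a ha)
      (gal_smul_tA h _) hb

end Fermat.Agent.T33.NodalCompat1
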