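/-
Programme T (S33), nodal layer, chapter (c) (helper6), part A: **`L^nod(D)` as the kernel of the
difference of the evaluations at the nodes**, and the resulting dimension count.

For a nodal divisor `D` avoiding the nodes:
* `Phi N HL1 HL2 D hav : L(D₁) × L(D₂) →ₗ[κ] (ι → κ)`, `(u, w) ↦ (u(s1 i) - w(s2 i))_i`;
* `L_eq_map`      : `L^nod(D)` is the image of `ker Φ` in `F1 × F2`;
* `ell_eq_ker`    : `l^nod(D) = dim ker Φ`;
* `ell_ge`        : `l^nod(D) ≥ l(D₁) + l(D₂) - t`  (`t` = number of nodes);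
* `ell_eq_of_surjective` : equality if the evaluation on the first component is onto;
* `ker_ev1`       : the kernel of the evaluation on the first component is `L(D₁ - ∑ s1 i)`;
* `ev1_surjective_of_finrank` : the evaluation is onto if `l(D₁ - ∑ s1 i) + t ≤ l(D₁)`.
-/
import Mathlib
import Fermat.Agent.T33.NodalCurve6

set_option autoImplicit false
set_option linter.unusedSectionVars false

open AlgebraicCurve

noncomputable section

namespace Fermat.Agent.T33.NodalRR6

open Fermat.Agent.X0.FF Fermat.Agent.RR.LSpace Fermat.Agent.FF.RedLat2 Fermat.Agent.FF.SpecRR1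
  Fermat.Agent.T33.NodalCurve6

section Field

variable {K F : Type*} [Field K] [Field F] [Algebra K F]

/-- `u - c` vanishes at `P` iff `u(P) = c`. -/
theorem sub_mem_vanishing_iff (H : LHyp K F) (D : Divisor K F) (P : Place K F) (hP : D P = 0)
    (u : riemannRochSpace D) (c : K) :
    (u : F) - algebraMap K F c ∈ vanishing P ↔ evalL H D P hP u = c := by
  rw [mem_vanishing, sub_eq_zero]
  exact (valueAt_eq_iff H P ⟨(u : F), mem_valuationSubring_of_mem_L hP u.2⟩ c).symm

end Field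

variable {κ F1 F2 : Type*} [Field κ] [Field F1] [Field F2] [Algebra κ F1] [Algebra κ F2]
variable {ι : Type*} (N : NodalData κ F1 F2 ι)
variable (HL1 : LHyp κ F1) (HL2 : LHyp κ F2)

/-- evaluation at the nodes, first component. -/
def ev1 (D : NDiv κ F1 F2) (h : ∀ i, D.1 (N.s1 i) = 0) : riemannRochSpace D.1 →ₗ[κ] (ι → κ) :=
  LinearMap.pi fun i => evalL HL1 D.1 (N.s1 i) (h i)

/-- evaluation at the nodes, second component. -/
def ev2 (D : NDiv κ F1 F2) (h : ∀ i, D.2 (N.s2 i) = 0) : riemannRochSpace D.2 →ₗ[κ] (ι → κ) :=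
  LinearMap.pi fun i => evalL HL2 D.2 (N.s2 i) (h i)

theorem ev1_apply (D : NDiv κ F1 F2) (h : ∀ i, D.1 (N.s1 i) = 0) (u : riemannRochSpace D.1)
    (i : ι) : ev1 N HL1 D h u i = evalL HL1 D.1 (N.s1 i) (h i) u := rfl

theorem ev2_apply (D : NDiv κ F1 F2) (h : ∀ i, D.2 (N.s2 i) = 0) (w : riemannRochSpace D.2)
    (i : ι) : ev2 N HL2 D h w i = evalL HL2 D.2 (N.s2 i) (h i) w := rfl

/-- the difference of the evaluations at the nodes. -/
def Phi (D : NDiv κ F1 F2) (hav : N.Avoids D) :
    (riemannRochSpace D.1 × riemannRochSpace D.2) →ₗ[κ] (ι → κ) :=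
  (ev1 N HL1 D hav.1).coprod (-(ev2 N HL2 D hav.2))

theorem Phi_apply (D : NDiv κ F1 F2) (hav : N.Avoids D)
    (x : riemannRochSpace D.1 × riemannRochSpace D.2) (i : ι) :
    Phi N HL1 HL2 D hav x i =
      evalL HL1 D.1 (N.s1 i) (hav.1 i) x.1 - evalL HL2 D.2 (N.s2 i) (hav.2 i) x.2 := by
  unfold Phi
  rw [LinearMap.coprod_apply, Pi.add_apply, LinearMap.neg_apply, Pi.neg_apply, ev1_apply,
    ev2_apply, sub_eq_add_neg]

/-- the inclusion `L(D₁) × L(D₂) → F1 × F2`. -/
def incl (D : NDiv κ F1 F2) : (riemannRochSpace D.1 × riemannRochSpace D.2) →ₗ[κ] (F1 × F2) :=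
  (riemannRochSpace D.1).subtype.prodMap (riemannRochSpace D.2).subtype

theorem incl_apply (D : NDiv κ F1 F2) (x : riemannRochSpace D.1 × riemannRochSpace D.2) :
    incl D x = ((x.1 : F1), (x.2 : F2)) := rfl

theorem incl_injective (D : NDiv κ F1 F2) : Function.Injective (incl (κ := κ) D) := by
  intro x y h
  rw [incl_apply, incl_apply, Prod.mk.injEq] at h
  exact Prod.ext (Subtype.ext h.1) (Subtype.ext h.2)

/-- compatibility at a node in terms of the evaluations. -/
theorem mem_compatAt_iff (D : NDiv κ F1 F2) (hav : N.Avoids D)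
    (x : riemannRochSpace D.1 × riemannRochSpace D.2) (i : ι) :
    incl D x ∈ N.compatAt i ↔
      evalL HL1 D.1 (N.s1 i) (hav.1 i) x.1 = evalL HL2 D.2 (N.s2 i) (hav.2 i) x.2 := by
  constructor
  · rintro ⟨c, h1, h2⟩
    rw [incl_apply] at h1 h2
    rw [(sub_mem_vanishing_iff HL1 D.1 (N.s1 i) (hav.1 i) x.1 c).1 h1,
      (sub_mem_vanishing_iff HL2 D.2 (N.s2 i) (hav.2 i) x.2 c).1 h2]
  · intro h
    refine ⟨evalL HL1 D.1 (N.s1 i) (hav.1 i) x.1, ?_, ?_⟩
    · rw [incl_apply]
      exact (sub_mem_vanishing_iff HL1 D.1 (N.s1 i) (hav.1 i) x.1 _).2 rfl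
    · rw [incl_apply]
      exact (sub_mem_vanishing_iff HL2 D.2 (N.s2 i) (hav.2 i) x.2 _).2 h.symm

/-- **`L^nod(D)` is the image of `ker Φ`.** -/
theorem L_eq_map (D : NDiv κ F1 F2) (hav : N.Avoids D) :
    N.L D = Submodule.map (incl D) (LinearMap.ker (Phi N HL1 HL2 D hav)) := by
  ext f
  rw [NodalData.mem_L, Submodule.mem_map]
  constructor
  · rintro ⟨h1, h2, h3⟩
    refine ⟨(⟨f.1, h1⟩, ⟨f.2, h2⟩), ?_, rfl⟩
    rw [LinearMap.mem_ker]
    funext i
    rw [Phi_apply, Pi.zero_apply, sub_eq_zero]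
    exact (mem_compatAt_iff N HL1 HL2 D hav (⟨f.1, h1⟩, ⟨f.2, h2⟩) i).1 (h3 i)
  · rintro ⟨x, hx, rfl⟩
    rw [LinearMap.mem_ker] at hx
    refine ⟨x.1.2, x.2.2, fun i => ?_⟩
    rw [mem_compatAt_iff N HL1 HL2 D hav x i]
    have := congrFun hx i
    rw [Phi_apply, Pi.zero_apply, sub_eq_zero] at this
    exact this

/-- `l^nod(D) = dim ker Φ`. -/
theorem ell_eq_ker (D : NDiv κ F1 F2) (hav : N.Avoids D) :
    N.ell D = (Module.finrank κ (LinearMap.ker (Phi N HL1 HL2 D hav)) : ℤ) := by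
  unfold NodalData.ell
  rw [L_eq_map N HL1 HL2 D hav]
  exact_mod_cast (LinearEquiv.finrank_eq
    (Submodule.equivMapOfInjective (incl D) (incl_injective D)
      (LinearMap.ker (Phi N HL1 HL2 D hav)))).symm

include HL1 HL2 in
theorem finiteDimensional_L (D : NDiv κ F1 F2) : FiniteDimensional κ (N.L D) := by
  have h1 := Fermat.Agent.RR.LSpace.finiteDimensional_L HL1 D.1
  have h2 := Fermat.Agent.RR.LSpace.finiteDimensional_L HL2 D.2
  have hle : N.L D ≤ LinearMap.range (incl (κ := κ) D) := by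
    intro f hf
    rw [NodalData.mem_L] at hf
    exact ⟨(⟨f.1, hf.1⟩, ⟨f.2, hf.2.1⟩), rfl⟩
  exact Submodule.finiteDimensional_of_le hle

variable [Fintype ι]

include HL1 HL2 in
/-- **`l^nod(D) ≥ l(D₁) + l(D₂) - t`.** -/
theorem ell_ge (D : NDiv κ F1 F2) (hav : N.Avoids D) :
    ell D.1 + ell D.2 - (Fintype.card ι : ℤ) ≤ N.ell D := by
  have h1 := Fermat.Agent.RR.LSpace.finiteDimensional_L HL1 D.1
  have h2 := Fermat.Agent.RR.LSpace.finiteDimensional_L HL2 D.2
  rw [ell_eq_ker N HL1 HL2 D hav]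
  have h3 := LinearMap.finrank_range_add_finrank_ker (Phi N HL1 HL2 D hav)
  rw [Module.finrank_prod] at h3
  have h4 : Module.finrank κ (LinearMap.range (Phi N HL1 HL2 D hav)) ≤ Fintype.card ι := by
    have := Submodule.finrank_le (LinearMap.range (Phi N HL1 HL2 D hav))
    rwa [Module.finrank_fintype_fun_eq_card] at this
  unfold ell
  omega

include HL1 HL2 in
/-- equality if `Φ` is onto. -/
theorem ell_eq_of_surjective (D : NDiv κ F1 F2) (hav : N.Avoids D)
    (hsurj : Function.Surjective (Phi N HL1 HL2 D hav)) :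
    N.ell D = ell D.1 + ell D.2 - (Fintype.card ι : ℤ) := by
  have h1 := Fermat.Agent.RR.LSpace.finiteDimensional_L HL1 D.1
  have h2 := Fermat.Agent.RR.LSpace.finiteDimensional_L HL2 D.2
  rw [ell_eq_ker N HL1 HL2 D hav]
  have h3 := LinearMap.finrank_range_add_finrank_ker (Phi N HL1 HL2 D hav)
  rw [Module.finrank_prod, LinearMap.range_eq_top.2 hsurj, finrank_top,
    Module.finrank_fintype_fun_eq_card] at h3
  unfold ell
  omega

/-- `Φ` is onto as soon as the evaluation on the first component is. -/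
theorem Phi_surjective_of_ev1 (D : NDiv κ F1 F2) (hav : N.Avoids D)
    (h : Function.Surjective (ev1 N HL1 D hav.1)) :
    Function.Surjective (Phi N HL1 HL2 D hav) := by
  intro y
  obtain ⟨u, hu⟩ := h y
  refine ⟨(u, 0), ?_⟩
  unfold Phi
  rw [LinearMap.coprod_apply, map_zero, add_zero, hu]

/-! ### the kernel of the evaluation at the nodes -/

open Classical in
/-- the reduced divisor of the nodes on the first component. -/
def nodeDiv1 : Divisor κ F1 := pts (Finset.univ.image N.s1)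

open Classical in
theorem nodeDiv1_apply (v : Place κ F1) :
    nodeDiv1 N v = if ∃ i, N.s1 i = v then 1 else 0 := by
  unfold nodeDiv1
  rw [pts_apply]
  simp only [Finset.mem_image, Finset.mem_univ, true_and]

theorem nodeDiv1_apply_node (i : ι) : nodeDiv1 N (N.s1 i) = 1 := by
  classical
  rw [nodeDiv1_apply, if_pos ⟨i, rfl⟩]

theorem nodeDiv1_apply_of_smooth {v : Place κ F1} (hv : N.Smooth1 v) : nodeDiv1 N v = 0 := by
  classical
  rw [nodeDiv1_apply, if_neg]
  rintro ⟨i, hi⟩
  exact hv i hi.symm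

include HL1 in
theorem degree_nodeDiv1 : Divisor.degree (nodeDiv1 N) = (Fintype.card ι : ℤ) := by
  classical
  unfold nodeDiv1
  rw [degree_pts HL1, Finset.card_image_of_injective _ N.s1_inj, Finset.card_univ]

theorem nodeDiv1_nonneg : 0 ≤ nodeDiv1 N := by
  classical
  intro v
  rw [nodeDiv1_apply]
  split_ifs <;> simp

/-- **the kernel of the evaluation at the nodes is `L(D₁ - ∑ s1 i)`.** -/
theorem ev1_eq_zero_iff (D : NDiv κ F1 F2) (h : ∀ i, D.1 (N.s1 i) = 0)
    (u : riemannRochSpace D.1) :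
    ev1 N HL1 D h u = 0 ↔ (u : F1) ∈ riemannRochSpace (D.1 - nodeDiv1 N) := by
  classical
  have hkey : ∀ i, evalL HL1 D.1 (N.s1 i) (h i) u = 0 ↔
      ((u : F1) = 0 ∨ 0 < (N.s1 i).ord (u : F1)) := by
    intro i
    have := sub_mem_vanishing_iff HL1 D.1 (N.s1 i) (h i) u 0
    rw [map_zero, sub_zero, mem_vanishing] at this
    exact this.symm
  constructor
  · intro h0
    rw [mem_riemannRochSpace_iff]
    intro v
    by_cases hu : (u : F1) = 0
    · exact Or.inl hu
    right
    rw [Finsupp.sub_apply, nodeDiv1_apply]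
    split_ifs with hv
    · obtain ⟨i, rfl⟩ := hv
      have h1 := (hkey i).1 (by rw [← ev1_apply N HL1 D h u i, h0]; rfl)
      rcases h1 with h1 | h1
      · exact absurd h1 hu
      · rw [h i]; omega
    · rcases (mem_riemannRochSpace_iff.1 u.2) v with h1 | h1
      · exact absurd h1 hu
      · omega
  · intro hmem
    funext i
    rw [ev1_apply, Pi.zero_apply, hkey i]
    by_cases hu : (u : F1) = 0
    · exact Or.inl hu
    right
    rcases (mem_riemannRochSpace_iff.1 hmem) (N.s1 i) with h1 | h1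
    · exact absurd h1 hu
    · rw [Finsupp.sub_apply, nodeDiv1_apply_node, h i] at h1
      omega

include HL1 in
/-- `dim ker ev1 = l(D₁ - ∑ s1 i)`. -/
theorem finrank_ker_ev1 (D : NDiv κ F1 F2) (h : ∀ i, D.1 (N.s1 i) = 0) :
    Module.finrank κ (LinearMap.ker (ev1 N HL1 D h)) =
      Module.finrank κ (riemannRochSpace (D.1 - nodeDiv1 N)) := by
  have hle : riemannRochSpace (D.1 - nodeDiv1 N) ≤ riemannRochSpace D.1 :=
    L_mono (sub_le_self _ (nodeDiv1_nonneg N))
  have hker : LinearMap.ker (ev1 N HL1 D h) =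
      Submodule.comap (riemannRochSpace D.1).subtype (riemannRochSpace (D.1 - nodeDiv1 N)) := by
    ext u
    rw [LinearMap.mem_ker, Submodule.mem_comap]
    exact ev1_eq_zero_iff N HL1 D h u
  rw [hker]
  exact LinearEquiv.finrank_eq (Submodule.comapSubtypeEquivOfLe hle)

include HL1 in
/-- **the evaluation at the nodes is onto** as soon as `l(D₁) ≥ l(D₁ - ∑ s1 i) + t`. -/
theorem ev1_surjective_of_finrank (D : NDiv κ F1 F2) (h : ∀ i, D.1 (N.s1 i) = 0)
    (hdim : ell (D.1 - nodeDiv1 N) + (Fintype.card ι : ℤ) ≤ ell D.1) :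
    Function.Surjective (ev1 N HL1 D h) := by
  have h1 := Fermat.Agent.RR.LSpace.finiteDimensional_L HL1 D.1
  have h3 := LinearMap.finrank_range_add_finrank_ker (ev1 N HL1 D h)
  rw [finrank_ker_ev1 N HL1 D h] at h3
  unfold ell at hdim
  have h4 : Module.finrank κ (LinearMap.range (ev1 N HL1 D h)) ≤ Fintype.card ι := by
    have := Submodule.finrank_le (LinearMap.range (ev1 N HL1 D h))
    rwa [Module.finrank_fintype_fun_eq_card] at this
  have h5 : Module.finrank κ (LinearMap.range (ev1 N HL1 D h)) = Module.finrank κ (ι → κ) := by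
    rw [Module.finrank_fintype_fun_eq_card]
    omega
  rw [← LinearMap.range_eq_top]
  exact Submodule.eq_top_of_finrank_eq h5

end Fermat.Agent.T33.NodalRR6
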