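/-
Programme T (S33), nodal layer, chapter (c) (helper6), part B: **the nodal Riemann inequality and
Riemann's theorem in large bidegree**, with the arithmetic genus `g_a = g₁ + g₂ + t - 1`, from
Riemann's theorem on the two components.

Inputs on each component `F_k / κ` (`k = 1, 2`): `LHyp`, the Riemann inequality with a constant
`g_k` and ONE divisor `D0_k` with `δ_{g_k}(D0_k) = 0` (at level `M'` these are
`SpecialRR6.riemann_inequality_special_genus` and `SpecialRR6.exists_delta_eq_zero_base`).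

* `riemannNod`     : contract (C1) `NodalData.RiemannNod (g₁ + g₂ + t - 1)`;
* `riemannEqLarge` : contract (C2) `NodalData.RiemannEqLarge (g₁ + g₂ + t - 1)`;
* `delta_eq_zero_large` : `δ_{g_a}(D) = 0` in large bidegree.
-/
import Mathlib
import Fermat.Agent.T33.NodalRR6A

set_option autoImplicit false
set_option linter.unusedSectionVars false

open AlgebraicCurve

noncomputable section

namespace Fermat.Agent.T33.NodalRR6

open Fermat.Agent.X0.FF Fermat.Agent.RR.LSpace Fermat.Agent.FF.RedLat2 Fermat.Agent.FF.SpecRR1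
  Fermat.Agent.T33.NodalCurve6

variable {κ F1 F2 : Type*} [Field κ] [Field F1] [Field F2] [Algebra κ F1] [Algebra κ F2]
variable {ι : Type*} [Fintype ι] (N : NodalData κ F1 F2 ι)
variable (HL1 : LHyp κ F1) (HL2 : LHyp κ F2)
variable (g1 g2 : ℤ)
variable (hR1 : ∀ D : Divisor κ F1, Divisor.degree D + 1 - g1 ≤ ell D)
variable (hR2 : ∀ D : Divisor κ F2, Divisor.degree D + 1 - g2 ≤ ell D)

/-- the arithmetic genus of the nodal curve. -/
def ga (ι : Type*) [Fintype ι] (g1 g2 : ℤ) : ℤ := g1 + g2 + (Fintype.card ι : ℤ) - 1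

include HL1 HL2 hR1 hR2 in
/-- **(C1) the nodal Riemann inequality** with `g_a = g₁ + g₂ + t - 1`. -/
theorem riemannNod : N.RiemannNod (ga ι g1 g2) := by
  intro D hav
  have h1 := ell_ge N HL1 HL2 D hav
  have h2 := hR1 D.1
  have h3 := hR2 D.2
  unfold NDiv.degree ga
  omega

variable {D01 : Divisor κ F1} (h01 : delta g1 D01 = 0)
variable {D02 : Divisor κ F2} (h02 : delta g2 D02 = 0)

include HL1 HL2 hR1 hR2 h01 h02 in
/-- `l^nod(D) = deg D + 1 - g_a` with an explicit bound on the bidegree. -/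
theorem ell_eq_large (D : NDiv κ F1 F2) (hav : N.Avoids D)
    (hd1 : Divisor.degree D01 + g1 + (Fintype.card ι : ℤ) ≤ Divisor.degree D.1)
    (hd2 : Divisor.degree D02 + g2 ≤ Divisor.degree D.2) :
    N.ell D = NDiv.degree D + 1 - ga ι g1 g2 := by
  have ht : (0 : ℤ) ≤ (Fintype.card ι : ℤ) := Int.natCast_nonneg _
  have e1 := delta_eq_zero_of_degree_ge HL1 g1 hR1 h01 D.1 (by omega)
  have e2 := delta_eq_zero_of_degree_ge HL2 g2 hR2 h02 D.2 hd2
  have hdeg : Divisor.degree (D.1 - nodeDiv1 N) = Divisor.degree D.1 - (Fintype.card ι : ℤ) := by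
    rw [map_sub, degree_nodeDiv1 N HL1]
  have e3 := delta_eq_zero_of_degree_ge HL1 g1 hR1 h01 (D.1 - nodeDiv1 N) (by rw [hdeg]; omega)
  unfold delta at e1 e2 e3
  rw [hdeg] at e3
  have hsurj := ev1_surjective_of_finrank N HL1 D hav.1 (by omega)
  rw [ell_eq_of_surjective N HL1 HL2 D hav (Phi_surjective_of_ev1 N HL1 HL2 D hav hsurj)]
  unfold NDiv.degree ga
  omega

include HL1 HL2 hR1 hR2 h01 h02 in
/-- **(C2) Riemann's theorem on the nodal curve in large bidegree.** -/
theorem riemannEqLarge : N.RiemannEqLarge (ga ι g1 g2) := by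
  refine ⟨max (Divisor.degree D01 + g1 + (Fintype.card ι : ℤ)) (Divisor.degree D02 + g2),
    fun D hav hd1 hd2 => ?_⟩
  exact ell_eq_large N HL1 HL2 g1 g2 hR1 hR2 h01 h02 D hav (le_trans (le_max_left _ _) hd1)
    (le_trans (le_max_right _ _) hd2)

include HL1 HL2 hR1 hR2 h01 h02 in
/-- `δ_{g_a}(D) = 0` in large bidegree. -/
theorem delta_eq_zero_large (D : NDiv κ F1 F2) (hav : N.Avoids D)
    (hd1 : Divisor.degree D01 + g1 + (Fintype.card ι : ℤ) ≤ Divisor.degree D.1)
    (hd2 : Divisor.degree D02 + g2 ≤ Divisor.degree D.2) :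
    N.delta (ga ι g1 g2) D = 0 := by
  unfold NodalData.delta
  rw [ell_eq_large N HL1 HL2 g1 g2 hR1 hR2 h01 h02 D hav hd1 hd2]
  ring

end Fermat.Agent.T33.NodalRR6
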