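/-
Programme T (S33), nodal layer, chapter (c) / (N1′) (helper6), part A: **the two charts of the
nodal curve, on the `κ`-side.**

Data: the nodal curve `N : NodalData κ F1 F2 ι`; on each component a separating generator `x_k`
of `F_k / κ`, regular and nonvanishing at the nodes, and exponents `m_k ≥ 1`; the coordinate of
the special fibre is `tb = (x₁ ^ m₁, x₂ ^ m₂)`, `sb = tb⁻¹`, both assumed compatible at the nodes
(for `X₀(pM')`: `x₁ = ρ₁ t`, `m₁ = 1`, `x₂ = ρ₂ (w_N t)`, `m₂ = p`).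

* `compatAt_mul`, `NC0`, `NC1`  : `N.compat` is multiplicatively closed; the nodal chart rings
  `NC0 = {(f₁,f₂) ∈ compat : f_k ∈ chart κ x_k}`, `NC1` (with `x_k⁻¹`) as `κ`-subalgebras of
  `F1 × F2`;
* `Lb_eq_L`   : `GoodRed8.Lb NC0 NC1 sb n = N.L (n • (m₁ (x₁)_∞, m₂ (x₂)_∞))`  (chart dictionary);
* `exists_H1` : `GoodRed8.H1 NC0 NC1 tb c` for some `c`  (from `H1` on the components and the
  surjectivity of the evaluation at the nodes in large degree);
* `exists_PT`, `Lb_fg` : the inputs `hPT`, `hfin` of `GoodRed8.lifting`.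
-/
import Mathlib
import Fermat.Agent.T33.NodalRR6B
import Fermat.Agent.FF.SpecialRR6H

set_option autoImplicit false
set_option linter.unusedSectionVars false
set_option linter.style.haveILetI false

open AlgebraicCurve IntermediateField

noncomputable section

namespace Fermat.Agent.T33.NodalLift6

open Fermat.Agent.X0 Fermat.Agent.X0.FF Fermat.Agent.RR.LSpace Fermat.Agent.RR.Riemann
  Fermat.Agent.FF.RedLat2 Fermat.Agent.FF.SpecRR1 Fermat.Agent.FF.GoodRed8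
  Fermat.Agent.RED.PUR.ChartGeneric22 Fermat.Agent.T33.NodalCurve6 Fermat.Agent.T33.NodalRR6

/-! ### functions vanishing at a place, products -/

section Vanishing

variable {K F : Type*} [Field K] [Field F] [Algebra K F]

theorem mem_valuationSubring_of_mem_vanishing {v : Place K F} {x : F} (hx : x ∈ vanishing v) :
    x ∈ v.toValuationSubring := by
  rcases hx with rfl | hx
  · exact zero_mem _
  · exact mem_of_ord_nonneg v hx.le

theorem mul_mem_vanishing {v : Place K F} {x y : F} (hx : x ∈ vanishing v)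
    (hy : y ∈ v.toValuationSubring) : x * y ∈ vanishing v := by
  by_cases hx0 : x = 0
  · rw [hx0, zero_mul]; exact Submodule.zero_mem _
  by_cases hy0 : y = 0
  · rw [hy0, mul_zero]; exact Submodule.zero_mem _
  rcases hx with rfl | hx
  · exact absurd rfl hx0
  right
  rw [v.ord_mul hx0 hy0]
  have := ord_nonneg_of_mem v hy
  omega

/-- `f - c ∈ 𝔪_v` implies `f ∈ O_v`. -/
theorem mem_valuationSubring_of_sub_mem {v : Place K F} {f : F} {c : K}
    (h : f - algebraMap K F c ∈ vanishing v) : f ∈ v.toValuationSubring := by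
  have h1 := mem_valuationSubring_of_mem_vanishing h
  have h2 : f = (f - algebraMap K F c) + algebraMap K F c := by ring
  rw [h2]
  exact v.toValuationSubring.add_mem _ _ h1 (v.algebraMap_mem' c)

/-- `f ≡ c`, `f' ≡ c'` modulo `𝔪_v` imply `f f' ≡ c c'`. -/
theorem mul_sub_mem_vanishing {v : Place K F} {f f' : F} {c c' : K}
    (h : f - algebraMap K F c ∈ vanishing v) (h' : f' - algebraMap K F c' ∈ vanishing v) :
    f * f' - algebraMap K F (c * c') ∈ vanishing v := by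
  have e : f * f' - algebraMap K F (c * c') =
      (f - algebraMap K F c) * f' + c • (f' - algebraMap K F c') := by
    rw [map_mul, Algebra.smul_def]; ring
  rw [e]
  exact Submodule.add_mem _ (mul_mem_vanishing h (mem_valuationSubring_of_sub_mem h'))
    (Submodule.smul_mem _ c h')

end Vanishing

variable {κ F1 F2 : Type*} [Field κ] [Field F1] [Field F2] [Algebra κ F1] [Algebra κ F2]
variable {ι : Type*} (N : NodalData κ F1 F2 ι)

/-! ### `N.compat` is a subalgebra -/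

theorem compatAt_mul {i : ι} {f f' : F1 × F2} (hf : f ∈ N.compatAt i) (hf' : f' ∈ N.compatAt i) :
    f * f' ∈ N.compatAt i := by
  obtain ⟨c, h1, h2⟩ := hf
  obtain ⟨c', h1', h2'⟩ := hf'
  exact ⟨c * c', mul_sub_mem_vanishing h1 h1', mul_sub_mem_vanishing h2 h2'⟩

theorem algebraMap_mem_compatAt (i : ι) (a : κ) : algebraMap κ (F1 × F2) a ∈ N.compatAt i := by
  refine ⟨a, ?_, ?_⟩
  · show algebraMap κ F1 a - algebraMap κ F1 a ∈ vanishing (N.s1 i)
    rw [sub_self]; exact Submodule.zero_mem _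
  · show algebraMap κ F2 a - algebraMap κ F2 a ∈ vanishing (N.s2 i)
    rw [sub_self]; exact Submodule.zero_mem _

theorem mem_compat {f : F1 × F2} : f ∈ N.compat ↔ ∀ i, f ∈ N.compatAt i := by
  unfold NodalData.compat
  rw [Submodule.mem_iInf]

theorem compat_mul {f f' : F1 × F2} (hf : f ∈ N.compat) (hf' : f' ∈ N.compat) :
    f * f' ∈ N.compat := by
  rw [mem_compat] at hf hf' ⊢
  exact fun i => compatAt_mul N (hf i) (hf' i)

theorem algebraMap_mem_compat (a : κ) : algebraMap κ (F1 × F2) a ∈ N.compat := by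
  rw [mem_compat]
  exact fun i => algebraMap_mem_compatAt N i a

theorem one_mem_compat : (1 : F1 × F2) ∈ N.compat := by
  have := algebraMap_mem_compat N (1 : κ)
  rwa [map_one] at this

theorem compat_pow {f : F1 × F2} (hf : f ∈ N.compat) (n : ℕ) : f ^ n ∈ N.compat := by
  induction n with
  | zero => rw [pow_zero]; exact one_mem_compat N
  | succ n ih => rw [pow_succ]; exact compat_mul N ih hf

/-- regularity at the nodes of a compatible pair. -/
theorem fst_mem_of_compat {f : F1 × F2} (hf : f ∈ N.compat) (i : ι) :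
    f.1 ∈ (N.s1 i).toValuationSubring := by
  rw [mem_compat] at hf
  obtain ⟨c, h1, -⟩ := hf i
  exact mem_valuationSubring_of_sub_mem h1

theorem snd_mem_of_compat {f : F1 × F2} (hf : f ∈ N.compat) (i : ι) :
    f.2 ∈ (N.s2 i).toValuationSubring := by
  rw [mem_compat] at hf
  obtain ⟨c, -, h2⟩ := hf i
  exact mem_valuationSubring_of_sub_mem h2

/-! ### the nodal chart rings -/

/-- the nodal chart ring: compatible pairs of functions integral over `κ[x₁]`, `κ[x₂]`. -/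
def NC (x1 : F1) (x2 : F2) : Subalgebra κ (F1 × F2) where
  carrier := {f | f.1 ∈ chart κ x1 ∧ f.2 ∈ chart κ x2 ∧ f ∈ N.compat}
  mul_mem' := by
    rintro f f' ⟨h1, h2, h3⟩ ⟨h1', h2', h3'⟩
    exact ⟨(chart κ x1).mul_mem h1 h1', (chart κ x2).mul_mem h2 h2', compat_mul N h3 h3'⟩
  add_mem' := by
    rintro f f' ⟨h1, h2, h3⟩ ⟨h1', h2', h3'⟩
    exact ⟨(chart κ x1).add_mem h1 h1', (chart κ x2).add_mem h2 h2', Submodule.add_mem _ h3 h3'⟩
  algebraMap_mem' := by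
    intro a
    exact ⟨(chart κ x1).algebraMap_mem a, (chart κ x2).algebraMap_mem a,
      algebraMap_mem_compat N a⟩

theorem mem_NC {x1 : F1} {x2 : F2} {f : F1 × F2} :
    f ∈ NC N x1 x2 ↔ f.1 ∈ chart κ x1 ∧ f.2 ∈ chart κ x2 ∧ f ∈ N.compat := Iff.rfl

/-! ### the coordinate of the special fibre -/

section Coord

variable (x1 : F1) (x2 : F2) (m1 m2 : ℕ)

/-- the coordinate `t̄ = (x₁ ^ m₁, x₂ ^ m₂)` of the special fibre. -/
def tb : F1 × F2 := (x1 ^ m1, x2 ^ m2)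

/-- its inverse `s̄ = (x₁⁻¹ ^ m₁, x₂⁻¹ ^ m₂)`. -/
def sb : F1 × F2 := (x1⁻¹ ^ m1, x2⁻¹ ^ m2)

variable {x1 x2}

theorem tb_mul_sb (hx10 : x1 ≠ 0) (hx20 : x2 ≠ 0) : tb x1 x2 m1 m2 * sb x1 x2 m1 m2 = 1 := by
  unfold tb sb
  rw [Prod.mk_mul_mk, ← mul_pow, ← mul_pow, mul_inv_cancel₀ hx10, mul_inv_cancel₀ hx20, one_pow,
    one_pow]
  rfl

theorem sb_pow_mul_tb_pow (hx10 : x1 ≠ 0) (hx20 : x2 ≠ 0) (n : ℕ) :
    sb x1 x2 m1 m2 ^ n * tb x1 x2 m1 m2 ^ n = 1 := by
  rw [← mul_pow, mul_comm, tb_mul_sb m1 m2 hx10 hx20, one_pow]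

theorem fst_sb_pow_mul (n : ℕ) (f : F1 × F2) :
    (sb x1 x2 m1 m2 ^ n * f).1 = x1⁻¹ ^ (n * m1) * f.1 := by
  rw [Prod.fst_mul, Prod.pow_fst, mul_comm n m1, pow_mul]
  rfl

theorem snd_sb_pow_mul (n : ℕ) (f : F1 × F2) :
    (sb x1 x2 m1 m2 ^ n * f).2 = x2⁻¹ ^ (n * m2) * f.2 := by
  rw [Prod.snd_mul, Prod.pow_snd, mul_comm n m2, pow_mul]
  rfl

theorem fst_tb_pow_mul (n : ℕ) (f : F1 × F2) :
    (tb x1 x2 m1 m2 ^ n * f).1 = (x1 ^ m1) ^ n * f.1 := by
  rw [Prod.fst_mul, Prod.pow_fst]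
  rfl

theorem snd_tb_pow_mul (n : ℕ) (f : F1 × F2) :
    (tb x1 x2 m1 m2 ^ n * f).2 = (x2 ^ m2) ^ n * f.2 := by
  rw [Prod.snd_mul, Prod.pow_snd]
  rfl

end Coord

/-! ### the chart dictionary -/

section Dict

variable [IsAlgClosed κ] (HL1 : LHyp κ F1) (HL2 : LHyp κ F2)
variable {x1 : F1} {x2 : F2} (hx1 : IsGen κ x1) (hx2 : IsGen κ x2)
  [Algebra.IsSeparable κ⟮x1⟯ F1] [Algebra.IsSeparable κ⟮x2⟯ F2]
  (hx10 : x1 ≠ 0) (hx20 : x2 ≠ 0) (m1 m2 : ℕ)

/-- the pole divisor of `t̄` on the nodal curve. -/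
def Dt : NDiv κ F1 F2 := (m1 • poleDiv HL1 hx10, m2 • poleDiv HL2 hx20)

theorem nsmul_Dt_fst (n : ℕ) :
    (n • Dt HL1 HL2 hx10 hx20 m1 m2).1 = (n * m1) • poleDiv HL1 hx10 := by
  show n • (m1 • poleDiv HL1 hx10) = _
  rw [mul_smul]

theorem nsmul_Dt_snd (n : ℕ) :
    (n • Dt HL1 HL2 hx10 hx20 m1 m2).2 = (n * m2) • poleDiv HL2 hx20 := by
  show n • (m2 • poleDiv HL2 hx20) = _
  rw [mul_smul]

include hx1 hx2 in
/-- **the chart dictionary on the nodal curve.** -/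
theorem Lb_eq_L (hsb : sb x1 x2 m1 m2 ∈ N.compat) (n : ℕ) :
    Lb (NC N x1 x2) (NC N x1⁻¹ x2⁻¹) (sb x1 x2 m1 m2) n =
      N.L (n • Dt HL1 HL2 hx10 hx20 m1 m2) := by
  ext f
  rw [mem_Lb, mem_NC, mem_NC, NodalData.mem_L, nsmul_Dt_fst, nsmul_Dt_snd, fst_sb_pow_mul,
    snd_sb_pow_mul, ← mem_compat,
    ← Fermat.Agent.FF.SpecialRR6.Lb_eq_L HL1 hx1 hx10 (n * m1),
    ← Fermat.Agent.FF.SpecialRR6.Lb_eq_L HL2 hx2 hx20 (n * m2), mem_Lb, mem_Lb]
  constructor
  · rintro ⟨⟨h1, h2, h3⟩, h4, h5, -⟩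
    exact ⟨⟨h1, h4⟩, ⟨h2, h5⟩, h3⟩
  · rintro ⟨⟨h1, h4⟩, ⟨h2, h5⟩, h3⟩
    exact ⟨⟨h1, h2, h3⟩, h4, h5, compat_mul N (compat_pow N hsb n) h3⟩

include HL1 HL2 hx1 hx2 hx10 hx20 in
/-- **finite generation of the sections** (input `hfin` of `GoodRed8.lifting`). -/
theorem Lb_fg (hsb : sb x1 x2 m1 m2 ∈ N.compat) (n : ℕ) :
    (Lb (NC N x1 x2) (NC N x1⁻¹ x2⁻¹) (sb x1 x2 m1 m2) n).FG := by
  rw [Lb_eq_L N HL1 HL2 hx1 hx2 hx10 hx20 m1 m2 hsb n]
  haveI := Fermat.Agent.T33.NodalRR6.finiteDimensional_L N HL1 HL2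
    (n • Dt HL1 HL2 hx10 hx20 m1 m2)
  exact (Submodule.fg_iff_finiteDimensional _).mpr inferInstance

end Dict

end Fermat.Agent.T33.NodalLift6
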