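/-
Programme T (S33), chapter (e), GLUE block, abstract algebra (helper5): **the node axiom `glue` of
`NodalCtx1.NodalRed` from LOCAL REGULARITY at the node + VALUE COMPATIBILITY on the chart.**

`c₁`, `c₂` two Gauss rings of `F` with reductions to `Fb₁`, `Fb₂` (`NodalCtx1.HalfRed`), `s1`, `s2`
the two branches of a node (places of `Fb₁`, `Fb₂`), `BA ⊆ c₁.O ⊓ c₂.O` a chart containing the node,
`χ : BA →+* κ` the evaluation at the node, with

  (VAL)  `ρ₁ b - χ b ∈ vanishing s1`,  `ρ₂ b - χ b ∈ vanishing s2`   for all `b ∈ BA`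

(the two branches lie over the SAME closed point `ker χ` of the chart).  If `y ∈ c₁.O ⊓ c₂.O` is
regular at the node, `y * d = a` with `a, d ∈ BA`, `χ d ≠ 0` (conclusion of (LR), `LocalReg5`),
then `ρ₁ y`, `ρ₂ y` are regular at `s1`, `s2` with the common value `χ a / χ d`
(`exists_common_value`), i.e. `(ρ₁ y, ρ₂ y) ∈ Nd.compatAt i` (`mem_compatAt_of_local`).

* `sub_div_mem_vanishing` : one branch, pure function-field statement.
-/
import Mathlib
import Fermat.Agent.T33.NodalCtx1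
import Fermat.Agent.T33.NodalLift6A

set_option autoImplicit false
set_option linter.unusedSectionVars false

open AlgebraicCurve IsLocalRing

namespace Fermat.Agent.T33.GlueAbs5

open Fermat.Agent.X0.FF Fermat.Agent.T33.NodalCurve6 Fermat.Agent.T33.NodalCtx1
  Fermat.Agent.T33.NodalLift6

section OneBranch

variable {κ Fb : Type*} [Field κ] [Field Fb] [Algebra κ Fb]

/-- a function congruent to a nonzero constant at `s` is a unit at `s`. -/
theorem ord_eq_zero_of_sub_const_mem_vanishing {s : Place κ Fb} {δ : Fb} {cd : κ} (hcd : cd ≠ 0)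
    (hδ : δ - algebraMap κ Fb cd ∈ vanishing s) : δ ≠ 0 ∧ s.ord δ = 0 := by
  have hc0 : algebraMap κ Fb cd ≠ 0 := by rw [Ne, map_eq_zero]; exact hcd
  rcases hδ with h0 | hpos
  · have : δ = algebraMap κ Fb cd := sub_eq_zero.1 h0
    rw [this]
    exact ⟨hc0, ord_algebraMap s cd⟩
  · have h1 : δ = algebraMap κ Fb cd + (δ - algebraMap κ Fb cd) := by ring
    have hlt : s.ord (algebraMap κ Fb cd) < s.ord (δ - algebraMap κ Fb cd) := by
      rw [ord_algebraMap]; exact hpos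
    have h2 := ord_add_eq_of_lt s hc0 hlt
    rw [← h1, ord_algebraMap] at h2
    refine ⟨?_, h2⟩
    intro hδ0
    rw [hδ0, zero_sub, ord_neg, ord_algebraMap] at hpos
    exact lt_irrefl _ hpos

/-- **one branch**: if `ρy * δ = α` with `α ≡ ca`, `δ ≡ cd ≠ 0` modulo the maximal ideal of `s`,
then `ρy ≡ ca / cd`. -/
theorem sub_div_mem_vanishing {s : Place κ Fb} {ρy α δ : Fb} {ca cd : κ} (hcd : cd ≠ 0)
    (hα : α - algebraMap κ Fb ca ∈ vanishing s) (hδ : δ - algebraMap κ Fb cd ∈ vanishing s)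
    (h : ρy * δ = α) : ρy - algebraMap κ Fb (ca / cd) ∈ vanishing s := by
  obtain ⟨hδ0, hδord⟩ := ord_eq_zero_of_sub_const_mem_vanishing hcd hδ
  have hc0 : algebraMap κ Fb cd ≠ 0 := by rw [Ne, map_eq_zero]; exact hcd
  -- `δ⁻¹ ≡ cd⁻¹`
  have hinv_mem : δ⁻¹ * (algebraMap κ Fb cd)⁻¹ ∈ s.toValuationSubring := by
    apply mem_of_ord_nonneg s
    rw [s.ord_mul (inv_ne_zero hδ0) (inv_ne_zero hc0), s.ord_inv, s.ord_inv, hδord,
      ord_algebraMap]
    norm_num
  have hinv : δ⁻¹ - algebraMap κ Fb cd⁻¹ ∈ vanishing s := by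
    have e : δ⁻¹ - algebraMap κ Fb cd⁻¹ =
        (-(δ - algebraMap κ Fb cd)) * (δ⁻¹ * (algebraMap κ Fb cd)⁻¹) := by
      rw [map_inv₀]
      field_simp
      ring
    rw [e]
    exact mul_mem_vanishing (Submodule.neg_mem _ hδ) hinv_mem
  have hy : ρy = α * δ⁻¹ := by
    rw [← h, mul_assoc, mul_inv_cancel₀ hδ0, mul_one]
  rw [hy, div_eq_mul_inv]
  exact mul_sub_mem_vanishing hα hinv

end OneBranch

section Glue

variable {K : Type*} [Field K] {A : ValuationSubring K}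
variable {F : Type*} [Field F] [Algebra K F]
variable {Fb₁ Fb₂ : Type*} [Field Fb₁] [Field Fb₂]
  [Algebra (ResidueField A) Fb₁] [Algebra (ResidueField A) Fb₂]
variable {RA : Type*} [CommRing RA] [Algebra RA F]

/-- **the common value at a node**: local regularity + value compatibility on the chart give the
regularity of both reductions at the two branches, with the same value. -/
theorem exists_common_value (c₁ : HalfRed A F Fb₁) (c₂ : HalfRed A F Fb₂)
    (s1 : Place (ResidueField A) Fb₁) (s2 : Place (ResidueField A) Fb₂)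
    (BA : Subalgebra RA F) (hB1 : ∀ b ∈ BA, b ∈ c₁.O) (hB2 : ∀ b ∈ BA, b ∈ c₂.O)
    (χ : BA →+* ResidueField A)
    (hval1 : ∀ b : BA, c₁.ρ ⟨(b : F), hB1 _ b.2⟩ - algebraMap (ResidueField A) Fb₁ (χ b) ∈
      vanishing s1)
    (hval2 : ∀ b : BA, c₂.ρ ⟨(b : F), hB2 _ b.2⟩ - algebraMap (ResidueField A) Fb₂ (χ b) ∈
      vanishing s2)
    (y : F) (h₁ : y ∈ c₁.O) (h₂ : y ∈ c₂.O) (a d : BA) (hd : χ d ≠ 0)
    (hyd : y * (d : F) = (a : F)) :
    ∃ c : ResidueField A,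
      c₁.ρ ⟨y, h₁⟩ - algebraMap (ResidueField A) Fb₁ c ∈ vanishing s1 ∧
      c₂.ρ ⟨y, h₂⟩ - algebraMap (ResidueField A) Fb₂ c ∈ vanishing s2 := by
  refine ⟨χ a / χ d, ?_, ?_⟩
  · refine sub_div_mem_vanishing hd (hval1 a) (hval1 d) ?_
    rw [← map_mul]
    congr 1
    exact Subtype.ext hyd
  · refine sub_div_mem_vanishing hd (hval2 a) (hval2 d) ?_
    rw [← map_mul]
    congr 1
    exact Subtype.ext hyd

variable {ι : Type*}

/-- **`glue` at the `i`-th node** in the literal shape of `NodalCtx1.NodalRed.glue`'s conclusion. -/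
theorem mem_compatAt_of_local (Nd : NodalData (ResidueField A) Fb₁ Fb₂ ι) (i : ι)
    (c₁ : HalfRed A F Fb₁) (c₂ : HalfRed A F Fb₂)
    (BA : Subalgebra RA F) (hB1 : ∀ b ∈ BA, b ∈ c₁.O) (hB2 : ∀ b ∈ BA, b ∈ c₂.O)
    (χ : BA →+* ResidueField A)
    (hval1 : ∀ b : BA, c₁.ρ ⟨(b : F), hB1 _ b.2⟩ - algebraMap (ResidueField A) Fb₁ (χ b) ∈
      vanishing (Nd.s1 i))
    (hval2 : ∀ b : BA, c₂.ρ ⟨(b : F), hB2 _ b.2⟩ - algebraMap (ResidueField A) Fb₂ (χ b) ∈
      vanishing (Nd.s2 i))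
    (y : F) (h₁ : y ∈ c₁.O) (h₂ : y ∈ c₂.O) (a d : BA) (hd : χ d ≠ 0)
    (hyd : y * (d : F) = (a : F)) :
    ((c₁.ρ ⟨y, h₁⟩, c₂.ρ ⟨y, h₂⟩) : Fb₁ × Fb₂) ∈ Nd.compatAt i :=
  exists_common_value c₁ c₂ (Nd.s1 i) (Nd.s2 i) BA hB1 hB2 χ hval1 hval2 y h₁ h₂ a d hd hyd

end Glue

end Fermat.Agent.T33.GlueAbs5
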