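/-
Programme T (S33), chapter (e) "N34 over ℚ̄", key lemma (LR) LOCAL REGULARITY, abstract part
(helper5).

TOP LEVEL: `Fb / Kb` a function field (`Place Kb Fb`), `BA` a chart (a subalgebra of `Fb` over some
base ring `RA`, e.g. `chart A t` over the valuation ring `A` of `ℚ̄`), `𝔪` a prime of `BA` (a closed
point of the special fibre).  A place `P` of `Fb / Kb` PASSES THROUGH `𝔪` (`Thru BA 𝔪 P`) if
`BA ⊆ O_P` and the elements of `BA ∖ 𝔪` are units of `O_P` (for `Kb` algebraically closed: the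
point `P` of the generic fibre specialises to `𝔪`; vocabulary of `N34/LocNodePlace6.Through`).

FINITE LEVEL: `(R, K, F, π, t, B, O1, O2)` a nodal chart in the vocabulary of `N34/NodalCore13`
(`B` noetherian, integrally closed in `F = Frac B`, integral over `R[t]`, `π`-saturated in
`O1 ⊓ O2`), `f : F →+* Fb` with `f B ⊆ BA`, such that every place of `F / K` extends along `f`.

`localReg_of_level` (**(LR) at one adapted level**): let `y = f yK`.  Assume
* for each component `j`: `yK ∈ O_j`, or the component `j` does not pass through `𝔪_K := f⁻¹ 𝔪`;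
* (witnesses) every place `P` of `Fb / Kb` with `y ∉ O_P` (every pole of `y`) is seen NOT to pass
  through `𝔪` by an element of the finite level: `f b ∉ O_P` for some `b ∈ B`, or `(f b)⁻¹ ∉ O_P` for
  some `b ∈ B` with `f b ∉ 𝔪`.
Then `y ∈ (BA)_𝔪`: `y * d = a` with `a, d ∈ BA`, `d ∉ 𝔪`.

Proof: N34's local Hartogs lemma `NodalStart13.exists_den_of_horizontal` with
`HorizPlace13.hhor_of_places` at the finite level; a place `v` of `F / K` through `𝔪_K` at which `yK`
has a pole would extend to a pole `P` of `y`, and either witness of `P` contradicts `v` through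
`𝔪_K`.  No rationality of places, no conjugacy of points and no base-change compatibility of the
models is needed: the level only has to contain `yK` and the finitely many witnesses.

`thru_witness` : the witnesses exist at the top level for every place NOT through `𝔪`.
-/
import Mathlib
import Fermat.Prelude.Def_AlgebraicCurve_DivisorClassGroup
import Fermat.Agent.ES.N34.NodalStart13
import Fermat.Agent.ES.N34.HorizPlace13

set_option autoImplicit false
set_option linter.unusedSectionVars false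

namespace Fermat.Agent.T33.LocalReg5

open AlgebraicCurve Fermat.Agent.ES.N34.NodalCore13 Fermat.Agent.ES.N34.NodalStart13
  Fermat.Agent.ES.N34.HorizPlace13

section Top

variable {Kb Fb : Type*} [Field Kb] [Field Fb] [Algebra Kb Fb]
variable {RA : Type*} [CommRing RA] [Algebra RA Fb]

/-- the place `P` passes through the prime `𝔪` of the chart `BA`. -/
def Thru (BA : Subalgebra RA Fb) (𝔪 : Ideal BA) (P : Place Kb Fb) : Prop :=
  (∀ b : BA, (b : Fb) ∈ P.toValuationSubring) ∧
    ∀ b : BA, b ∉ 𝔪 → ((b : Fb))⁻¹ ∈ P.toValuationSubring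

/-- a place which does not pass through `𝔪` has a witness in the chart. -/
theorem thru_witness (BA : Subalgebra RA Fb) (𝔪 : Ideal BA) (P : Place Kb Fb)
    (h : ¬ Thru BA 𝔪 P) :
    (∃ b : BA, (b : Fb) ∉ P.toValuationSubring) ∨
      ∃ b : BA, b ∉ 𝔪 ∧ ((b : Fb))⁻¹ ∉ P.toValuationSubring := by
  by_contra hcon
  push Not at hcon
  exact h ⟨hcon.1, hcon.2⟩

end Top

section Level

variable {R K F : Type*} [CommRing R] [Field K] [Field F] [Algebra R K] [Algebra K F]
  [Algebra R F] [IsScalarTower R K F]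
variable {Kb Fb : Type*} [Field Kb] [Field Fb] [Algebra Kb Fb]
variable {RA : Type*} [CommRing RA] [Algebra RA Fb]

/-- the restriction of `f` to the charts. -/
def chartHom (f : F →+* Fb) (B : Subalgebra R F) (BA : Subalgebra RA Fb)
    (hfB : ∀ b ∈ B, f b ∈ BA) : B →+* BA where
  toFun b := ⟨f (b : F), hfB _ b.2⟩
  map_one' := Subtype.ext (by simp)
  map_mul' a b := Subtype.ext (by simp)
  map_zero' := Subtype.ext (by simp)
  map_add' a b := Subtype.ext (by simp)

@[simp] theorem coe_chartHom (f : F →+* Fb) (B : Subalgebra R F) (BA : Subalgebra RA Fb)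
    (hfB : ∀ b ∈ B, f b ∈ BA) (b : B) :
    ((chartHom f B BA hfB b : BA) : Fb) = f (b : F) := rfl

/-- **(LR) LOCAL REGULARITY at one adapted finite level.** -/
theorem localReg_of_level (π : R) (t : F) (B : Subalgebra R F) (O1 O2 : ValuationSubring F)
    (ht : t ∈ B) (noethB : IsNoetherianRing B) (fracR : IsFractionRing R K)
    (dvrR : ∀ r : R, r ≠ 0 → ∃ (k : ℕ) (v : Rˣ), r = π ^ k * v)
    (pi_ne : algebraMap R F π ≠ 0)
    (intcl : ∀ x : F, IsIntegral B x → x ∈ B)
    (int0 : ∀ x ∈ B, IsIntegral (Algebra.adjoin R {t}) x)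
    (frac : ∀ x : F, ∃ a ∈ B, ∃ b ∈ B, b ≠ 0 ∧ x * b = a)
    (leO1 : ∀ x ∈ B, x ∈ O1) (leO2 : ∀ x ∈ B, x ∈ O2)
    (arch1 : ∀ x : F, ∃ k : ℕ, algebraMap R F π ^ k * x ∈ O1)
    (arch2 : ∀ x : F, ∃ k : ℕ, algebraMap R F π ^ k * x ∈ O2)
    (sat : ∀ b ∈ B, ∀ c : F, c ∈ O1 → c ∈ O2 → b = algebraMap R F π * c → c ∈ B)
    (f : F →+* Fb) (BA : Subalgebra RA Fb) (hfB : ∀ b ∈ B, f b ∈ BA)
    (𝔪 : Ideal BA) [h𝔪 : 𝔪.IsPrime]
    (hext : ∀ w : Place K F, ∃ P : Place Kb Fb,
      ∀ z : F, f z ∈ P.toValuationSubring ↔ z ∈ w.toValuationSubring)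
    (yK : F)
    (hG1 : yK ∈ O1 ∨ OffBranch π B O1 (𝔪.comap (chartHom f B BA hfB)))
    (hG2 : yK ∈ O2 ∨ OffBranch π B O2 (𝔪.comap (chartHom f B BA hfB)))
    (hwit : ∀ P : Place Kb Fb, f yK ∉ P.toValuationSubring →
      (∃ b : B, f (b : F) ∉ P.toValuationSubring) ∨
        ∃ b : B, chartHom f B BA hfB b ∉ 𝔪 ∧ (f (b : F))⁻¹ ∉ P.toValuationSubring) :
    ∃ a d : BA, d ∉ 𝔪 ∧ f yK * (d : Fb) = (a : Fb) := by
  haveI : (𝔪.comap (chartHom f B BA hfB)).IsPrime := Ideal.comap_isPrime _ _
  have hε : ∀ v : Place K F, (∀ b ∈ B, b ∈ v.toValuationSubring) →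
      (∀ b : B, ((b : F))⁻¹ ∉ v.toValuationSubring → b ∈ 𝔪.comap (chartHom f B BA hfB)) →
      yK ∈ v.toValuationSubring := by
    intro v hvB hvm
    by_contra hy
    obtain ⟨P, hP⟩ := hext v
    have hyP : f yK ∉ P.toValuationSubring := fun h => hy ((hP yK).1 h)
    rcases hwit P hyP with ⟨b, hb⟩ | ⟨b, hb𝔪, hb⟩
    · exact hb ((hP _).2 (hvB _ b.2))
    · apply hb𝔪
      have : b ∈ 𝔪.comap (chartHom f B BA hfB) := by
        apply hvm
        intro hinv
        apply hb
        rw [← map_inv₀]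
        exact (hP _).2 hinv
      exact this
  obtain ⟨a, d, hd, had⟩ := exists_den_of_horizontal π B O1 O2 leO1 leO2 arch1 arch2 sat frac
    (𝔪.comap (chartHom f B BA hfB)) yK
    (hhor_of_places (K := K) π t B ht noethB fracR dvrR pi_ne intcl int0 frac
      (𝔪.comap (chartHom f B BA hfB)) yK hε) hG1 hG2
  refine ⟨chartHom f B BA hfB a, chartHom f B BA hfB d, hd, ?_⟩
  rw [coe_chartHom, coe_chartHom, ← map_mul, had]

end Level

end Fermat.Agent.T33.LocalReg5
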