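/-
Programme T (S33), chapter (e) "N34 over ℚ̄", key lemma (LR) LOCAL REGULARITY, the level choice
(helper5): **descent of the finitely many data of (LR) to all large number fields.**

`A ≤ ℚ̄` a valuation subring, `N` a level, `f_K = baseChangeHom N K : K·F_N → ℚ̄·F_N`.  In the
calculus `ModelN4.Large` ("for all sufficiently large number fields `K ⊂ ℚ̄` normal over `ℚ`"):

* `large_descent` : `y = f_K y_K`;
* `large_mem_gauss` : if `y ∈ O₁(A)` (a fraction of `A`-integral series with Gauss-unit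
  denominator) then `y_K ∈ gaussRing (A ∩ K)` — i.e. `y_K ∈ O₁(K)`;
* `large_mem_gauss_fricke` : if `W_N y ∈ O₁(A)` then `iotaTwo y_K ∈ gaussRing (A ∩ K)` — i.e.
  `y_K ∈ O₂(K)`;
* `large_const` : a constant `c ∈ 𝔪_A` lies in `π_K · (A ∩ K)` for every uniformiser `π_K`;
* `large_chart` : `b ∈ chart A s` comes from `chart (A ∩ K) s_K`;
* `Large.exists_field`, `Large.all` (finite conjunctions).
-/
import Mathlib
import Fermat.Agent.ES.N34.ModelN4
import Fermat.Agent.ES.N34.FrickeFK8
import Fermat.Agent.ES.RED.ChartUnion1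
import Fermat.Agent.ES.RED.ChartIntegralA1
import Fermat.Agent.ES.RED.GaussUnit25
import Fermat.Agent.ES.RED.Setup8
import Fermat.Agent.Lib.FrobeniusExists

set_option autoImplicit false
set_option linter.unusedSectionVars false
set_option linter.style.haveILetI false
set_option linter.unusedVariables false
set_option synthInstance.maxHeartbeats 400000

noncomputable section

namespace Fermat.Agent.T33.LocalReg5B

open HahnSeries ModularCurve IntermediateField
open Fermat.Agent.RED.Interface4 Fermat.Agent.RED.PUR.GaussGen8 Fermat.Agent.RED.DESC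
  Fermat.Agent.RED.DESC.PlaceExtend27 Fermat.Agent.RED.DESC.NumberFieldDVR27
  Fermat.Agent.RED.PUR.ChartGeneric22
  Fermat.Agent.ES.RED Fermat.Agent.ES.N34.ModelN4 Fermat.Agent.ES.N34.FrickeFK8

/-! ### the `Large` calculus -/

/-- a `Large` property holds at some number field normal over `ℚ`. -/
theorem Large.exists_field {P : IntermediateField ℚ Qbar → Prop} (h : Large P) :
    ∃ (K : IntermediateField ℚ Qbar) (_ : Normal ℚ K) (_ : FiniteDimensional ℚ K), P K := by
  obtain ⟨K₀, hK₀, hP⟩ := h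
  haveI := hK₀
  have hgal : IsGalois ℚ Qbar := Fermat.Agent.Lib.FrobeniusExists.isGalois_Qbar
  have hnorQ : Normal ℚ Qbar := hgal.to_normal
  have halgQ : Algebra.IsAlgebraic ℚ Qbar := NumberFieldDVR27.isAlgebraic_Qbar
  let K : IntermediateField ℚ Qbar := IntermediateField.normalClosure ℚ K₀ Qbar
  have hK₀K : K₀ ≤ K := IntermediateField.le_normalClosure K₀
  haveI hfinK : FiniteDimensional ℚ K := normalClosure.is_finiteDimensional ℚ K₀ Qbar
  haveI hnorK : Normal ℚ K := normalClosure.normal ℚ K₀ Qbar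
  exact ⟨K, hnorK, hfinK, hP K hfinK hK₀K⟩

/-- the trivial `Large` property. -/
theorem Large.of_forall {P : IntermediateField ℚ Qbar → Prop}
    (h : ∀ K : IntermediateField ℚ Qbar, P K) : Large P :=
  ⟨⊥, inferInstance, fun K _ _ _ => h K⟩

/-- a finite conjunction of `Large` properties is `Large`. -/
theorem Large.all {ι : Type*} (s : Finset ι) (P : ι → IntermediateField ℚ Qbar → Prop)
    (h : ∀ i ∈ s, Large (P i)) : Large fun K => ∀ i ∈ s, P i K := by
  classical
  induction s using Finset.induction_on with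
  | empty => exact Large.of_forall fun K i hi => absurd hi (Finset.notMem_empty i)
  | insert i s _ ih =>
    have h1 := ih fun j hj => h j (Finset.mem_insert_of_mem hj)
    have h2 := h i (Finset.mem_insert_self i s)
    refine (h1.and h2).mono fun K hK j hj => ?_
    rcases Finset.mem_insert.mp hj with rfl | hj
    · exact hK.2
    · exact hK.1 j hj

variable (A : ValuationSubring Qbar) (N : ℕ)

/-- every element of `ℚ̄·F_N` comes from all large number fields. -/
theorem large_descent (y : Fbar N) :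
    Large fun K => ∃ yK : FK N K, baseChangeHom N K yK = y := by
  obtain ⟨K₁, hfin, -, H⟩ := UnifDescent14.exists_descent_ge N ⊥ y
  exact Large.of_all ⟨K₁, hfin, fun K _ hK => H K hK⟩

/-- **descent of `O₁`-membership**: a fraction of `A`-integral series with Gauss-unit denominator
descends to the Gauss ring of `A ∩ K`. -/
theorem large_mem_gauss (y : Fbar N)
    (hy : ∃ a b : ↥(Setup8.gaussA A (Fbar N)), Setup8.redA A (Fbar N) b ≠ 0 ∧
      y * (b : ↥(Fbar N)) = (a : ↥(Fbar N))) :
    Large fun K => ∀ yK : FK N K, baseChangeHom N K yK = y →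
      ((yK : FK N K) : LaurentSeries K) ∈ gaussRing (AK A K) := by
  obtain ⟨a, b, hb, hab⟩ := hy
  refine ((large_descent N (a : ↥(Fbar N))).and (large_descent N (b : ↥(Fbar N)))).mono ?_
  rintro K ⟨⟨aK, haK⟩, ⟨bK, hbK⟩⟩ yK hyK
  obtain ⟨Ya, hYa, hYa'⟩ := ChartIntegralA1.exists_embK_of_baseChangeHom A N K aK
    (Setup8.liftA A (Fbar N) a) (by rw [Setup8.coeffMap_liftA, haK])
  obtain ⟨Yb, hYb, hYb'⟩ := ChartIntegralA1.exists_embK_of_baseChangeHom A N K bK
    (Setup8.liftA A (Fbar N) b) (by rw [Setup8.coeffMap_liftA, hbK])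
  refine ⟨Ya, Yb, ?_, ?_⟩
  · intro h0
    apply hb
    rw [Setup8.redA_eq A (Fbar N) b (Setup8.coeffMap_liftA A (Fbar N) b), ← hYb']
    rw [GaussUnit25.coeffMap_residue_incl, h0, map_zero]
  · rw [hYa, hYb]
    have h1 : baseChangeHom N K (yK * bK) = baseChangeHom N K aK := by
      rw [map_mul, hyK, hbK, haK, hab]
    have h2 := baseChangeHom_injective N K h1
    exact congrArg (fun w : FK N K => (w : LaurentSeries K)) h2

/-- **descent of `O₂`-membership** (`O₂ = W_N⁻¹ O₁`). -/
theorem large_mem_gauss_fricke [NeZero N] (y : Fbar N)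
    (hy : ∃ a b : ↥(Setup8.gaussA A (Fbar N)), Setup8.redA A (Fbar N) b ≠ 0 ∧
      frickeBar N y * (b : ↥(Fbar N)) = (a : ↥(Fbar N))) :
    Large fun K => ∀ yK : FK N K, baseChangeHom N K yK = y →
      iotaTwo N K yK ∈ gaussRing (AK A K) := by
  refine (large_mem_gauss A N (frickeBar N y) hy).mono ?_
  intro K hK yK hyK
  exact hK (frickeFK N K yK) (by rw [baseChangeHom_frickeFK, hyK])

/-- **descent of a constant of `𝔪_A`**: it lies in the maximal ideal of `A ∩ K`. -/
theorem large_const (c : ↥A) (hc : c ∈ IsLocalRing.maximalIdeal ↥A) :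
    Large fun K => ∃ cK : ↥(AK A K), incl A K cK = c ∧ cK ∈ IsLocalRing.maximalIdeal ↥(AK A K) := by
  classical
  obtain ⟨K₁, hfin, -, hS⟩ := NumberFieldDVR27.exists_numberField ⊥ {(c : Qbar)}
  refine Large.of_all ⟨K₁, hfin, fun K _ hK => ?_⟩
  have hcK : (c : Qbar) ∈ K := hK (hS _ (Finset.mem_singleton_self _))
  refine ⟨⟨⟨(c : Qbar), hcK⟩, (mem_AK_iff A K _).2 c.2⟩, Subtype.ext rfl, ?_⟩
  rw [IsLocalRing.mem_maximalIdeal, mem_nonunits_iff]
  intro hu
  have h1 : IsUnit (incl A K ⟨⟨(c : Qbar), hcK⟩, (mem_AK_iff A K _).2 c.2⟩) := hu.map (incl A K)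
  have h2 : incl A K ⟨⟨(c : Qbar), hcK⟩, (mem_AK_iff A K _).2 c.2⟩ = c := Subtype.ext rfl
  rw [h2] at h1
  exact (IsLocalRing.mem_maximalIdeal c).1 hc h1

/-- **descent of chart elements.** -/
theorem large_chart (s y : Fbar N) (hy : y ∈ chart ↥A s) :
    Large fun K => ∀ sK : FK N K, baseChangeHom N K sK = s →
      ∃ x ∈ chart ↥(AK A K) sK, baseChangeHom N K x = y := by
  obtain ⟨K₁, hfin, -, H⟩ := ChartUnion1.exists_chart_descent A N ⊥ s y hy
  exact Large.of_all ⟨K₁, hfin, fun K _ hK => H K hK⟩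

end Fermat.Agent.T33.LocalReg5B
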