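/-
Programme T (S33), chapter (e) "N34 over ℚ̄", key lemma (LR) LOCAL REGULARITY over `ℚ̄`
(helper5): **a function of `ℚ̄·F_{M'p}` which is regular along the components through a closed
point `𝔪` of a chart of the nodal model over `A`, and has no pole passing through `𝔪`, lies in the
local ring of the chart at `𝔪`.**

Vocabulary: `T33/NodalHalf4` (`LevelHyp p M' A`, the two components `c1 h`, `c2 h` of the special
fibre of `X₀(M'p)` over `A`), the chart `chart ↥A s ⊆ ℚ̄·F_{M'p}` (`s = t` or `t⁻¹`, `t` the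
Hauptmodul `tq ℚ̄ 4 8`), `LocalReg5.Thru` (a place passes through a prime of the chart).

* `OffA c BA 𝔪` : the component `c` does not pass through `𝔪`: some `e ∈ BA ∖ 𝔪` has `c.ρ e = 0`.
* `large_off` : descent of `OffA` to `N34`'s `OffBranch` at all large number fields.
* `ChartFields`, `chartFields_zero`, `chartFields_one` : the fields of `NumData13.NodalNumData`
  used by (LR), for the chart `0` and the chart `1`.
* `ChartModelAt`, `large_chartModel_zero`, `large_chartModel_one` : the finite-level models, from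
  `ModelEnd4.modelInput_four`.
* **`localReg_chart`** : (LR) for a chart with finite-level models;
  **`localReg_zero`**, **`localReg_one`** : (LR) for `chart ↥A t` and `chart ↥A t⁻¹`.
-/
import Mathlib
import Fermat.Agent.T33.LocalReg5A
import Fermat.Agent.T33.LocalReg5B
import Fermat.Agent.T33.NodalHalf4
import Fermat.Agent.ES.N34.ModelEnd4
import Fermat.Agent.RED.TOP.FbarFacts20

set_option autoImplicit false
set_option linter.unusedSectionVars false
set_option linter.style.haveILetI false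
set_option linter.unusedVariables false
set_option synthInstance.maxHeartbeats 400000

noncomputable section

namespace Fermat.Agent.T33.LocalReg5C

open HahnSeries ModularCurve IntermediateField AlgebraicCurve IsLocalRing
open Fermat.Agent.RED.Interface4 Fermat.Agent.RED.PUR.GaussGen8 Fermat.Agent.RED.DESC
  Fermat.Agent.RED.DESC.PlaceExtend27 Fermat.Agent.RED.DESC.NumberFieldDVR27
  Fermat.Agent.RED.PUR.ChartGeneric22 Fermat.Agent.RED.BASE.EtaQuot12
  Fermat.Agent.ES.RED Fermat.Agent.ES.N34.ModelN4 Fermat.Agent.ES.N34.FrickeFK8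
  Fermat.Agent.ES.N34.NodalCore13 Fermat.Agent.ES.N34.NumData13 Fermat.Agent.ES.N34.ModelDefs9
  Fermat.Agent.ES.N34.ModelInput13
  Fermat.Agent.T33.NodalCtx1 Fermat.Agent.T33.NodalHalf4 Fermat.Agent.T33.LocalReg5
  Fermat.Agent.T33.LocalReg5B

/-! ### the component does not pass through a point, over `A` -/

section OffA

variable {A : ValuationSubring Qbar} {F : Type*} [Field F] [Algebra Qbar F]
  {Fb : Type*} [Field Fb] [Algebra (ResidueField A) Fb]

/-- the component `c` does not pass through the prime `𝔪` of the chart `BA`. -/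
def OffA {RA : Type*} [CommRing RA] [Algebra RA F] (c : HalfRed A F Fb) (BA : Subalgebra RA F)
    (𝔪 : Ideal BA) : Prop :=
  ∃ e : BA, e ∉ 𝔪 ∧ ∃ he : (e : F) ∈ c.O, c.ρ ⟨(e : F), he⟩ = 0

end OffA

section Off

variable (A : ValuationSubring Qbar) (N : ℕ)
  {Fb : Type*} [Field Fb] [Algebra (ResidueField A) Fb]

/-- **descent of `OffA`**: an element `e` of the chart with `c.ρ e = 0` is, at all large number
fields, `π_K` times an element of the finite-level Gauss ring. -/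
theorem large_off (c : HalfRed A ↥(Fbar N) Fb)
    (G : ∀ K : IntermediateField ℚ Qbar, FK N K → Prop)
    (hG : ∀ y : Fbar N, y ∈ c.O →
      Large fun K => ∀ yK : FK N K, baseChangeHom N K yK = y → G K yK)
    (hGmul : ∀ (K : IntermediateField ℚ Qbar) (u : ↥(AK A K)) (x : FK N K), G K x →
      G K (algebraMap ↥(AK A K) ↥(FK N K) u * x))
    (s e : Fbar N) (he : e ∈ chart ↥A s) (heO : e ∈ c.O) (hρ : c.ρ ⟨e, heO⟩ = 0) :
    Large fun K => ∀ sK : FK N K, baseChangeHom N K sK = s →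
      ∃ eK ∈ chart ↥(AK A K) sK, baseChangeHom N K eK = e ∧
        ∀ π : ↥(AK A K), IsUnif (AK A K) π →
          ∃ c' : FK N K, G K c' ∧ eK = algebraMap ↥(AK A K) ↥(FK N K) π * c' := by
  obtain ⟨c0, hc0, e', he'⟩ := c.ρ_ker ⟨e, heO⟩ hρ
  refine ((((large_chart A N s e he).and (large_const A c0 hc0)).and
    (large_descent N (e' : ↥(Fbar N)))).and (hG (e' : ↥(Fbar N)) e'.2)).mono ?_
  rintro K ⟨⟨⟨hch, ⟨cK, hcK, hcKm⟩⟩, ⟨e'K, he'K⟩⟩, hGK⟩ sK hsK
  obtain ⟨eK, heK, heK'⟩ := hch sK hsK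
  refine ⟨eK, heK, heK', fun π hπ => ?_⟩
  rw [hπ.max_eq, Ideal.mem_span_singleton'] at hcKm
  obtain ⟨u, hu⟩ := hcKm
  refine ⟨algebraMap ↥(AK A K) ↥(FK N K) u * e'K, hGmul K u e'K (hGK e'K he'K), ?_⟩
  apply baseChangeHom_injective N K
  rw [← mul_assoc, ← map_mul, map_mul, ChartUnion1.baseChangeHom_algebraMap_AK, he'K, heK',
    mul_comm π u, hu, hcK]
  exact he'

end Off

/-! ### the finite-level fields used by (LR) -/

section Generic

variable {Kt : Type*} [Field Kt] (O : ValuationSubring Kt)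
  (E : IntermediateField Kt (LaurentSeries Kt))

/-- the fields of `NumData13.NodalNumData` used by (LR), for one chart `B` with coordinate `t`. -/
structure ChartFields (π : O) (t : E) (B : Subalgebra ↥O ↥E) (O1 O2 : ValuationSubring ↥E) :
    Prop where
  ht : t ∈ B
  noethB : IsNoetherianRing B
  fracR : IsFractionRing ↥O Kt
  dvrR : ∀ r : O, r ≠ 0 → ∃ (k : ℕ) (v : (↥O)ˣ), r = π ^ k * v
  pi_ne : algebraMap ↥O ↥E π ≠ 0
  intcl : ∀ x : E, IsIntegral B x → x ∈ B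
  int0 : ∀ x ∈ B, IsIntegral (Algebra.adjoin ↥O {t}) x
  frac : ∀ x : E, ∃ a ∈ B, ∃ b ∈ B, b ≠ 0 ∧ x * b = a
  leO1 : ∀ x ∈ B, x ∈ O1
  leO2 : ∀ x ∈ B, x ∈ O2
  arch1 : ∀ x : E, ∃ k : ℕ, algebraMap ↥O ↥E π ^ k * x ∈ O1
  arch2 : ∀ x : E, ∃ k : ℕ, algebraMap ↥O ↥E π ^ k * x ∈ O2
  sat : ∀ b ∈ B, ∀ c : E, c ∈ O1 → c ∈ O2 → b = algebraMap ↥O ↥E π * c → c ∈ B

variable {O E}

theorem chartFields_zero {π : O} {t : E} {B0 B1 : Subalgebra ↥O ↥E} {O1 O2 : ValuationSubring ↥E}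
    (D : NodalDataAt O E π t B0 B1 O1 O2) : ChartFields O E π t B0 O1 O2 := by
  haveI := Fermat.Agent.RED.NumInst4.isScalarTower_OE O E
  have D' : NodalNumData ↥O Kt ↥E π t B0 B1 O1 O2 := D
  exact
    { ht := D'.model.t_mem
      noethB := D'.noeth0
      fracR := D'.fracR
      dvrR := D'.dvrR
      pi_ne := D'.model.pi_ne
      intcl := D'.model.intcl0
      int0 := D'.model.int0
      frac := D'.frac0
      leO1 := D'.model.le_O1_0
      leO2 := D'.model.le_O2_0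
      arch1 := D'.model.arch1
      arch2 := D'.model.arch2
      sat := D'.model.sat0 }

theorem chartFields_one {π : O} {t : E} {B0 B1 : Subalgebra ↥O ↥E} {O1 O2 : ValuationSubring ↥E}
    (D : NodalDataAt O E π t B0 B1 O1 O2) : ChartFields O E π t⁻¹ B1 O1 O2 := by
  haveI := Fermat.Agent.RED.NumInst4.isScalarTower_OE O E
  have D' : NodalNumData ↥O Kt ↥E π t B0 B1 O1 O2 := D
  exact
    { ht := D'.model.tinv_mem
      noethB := D'.noeth1
      fracR := D'.fracR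
      dvrR := D'.dvrR
      pi_ne := D'.model.pi_ne
      intcl := D'.model.intcl1
      int0 := D'.model.int1
      frac := D'.frac1
      leO1 := D'.model.le_O1_1
      leO2 := D'.model.le_O2_1
      arch1 := D'.model.arch1
      arch2 := D'.model.arch2
      sat := D'.model.sat1 }

/-- (LR) at one level, in the `(Kt, O, E)` vocabulary. -/
theorem localReg_at {π : O} {t : E} {B : Subalgebra ↥O ↥E} {O1 O2 : ValuationSubring ↥E}
    (C : ChartFields O E π t B O1 O2)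
    {Kb Fb : Type*} [Field Kb] [Field Fb] [Algebra Kb Fb]
    {RA : Type*} [CommRing RA] [Algebra RA Fb]
    (f : ↥E →+* Fb) (BA : Subalgebra RA Fb) (hfB : ∀ b ∈ B, f b ∈ BA)
    (𝔪 : Ideal BA) [h𝔪 : 𝔪.IsPrime]
    (hext : ∀ w : Place Kt ↥E, ∃ P : Place Kb Fb,
      ∀ z : ↥E, f z ∈ P.toValuationSubring ↔ z ∈ w.toValuationSubring)
    (yK : ↥E)
    (hG1 : yK ∈ O1 ∨ OffBranch π B O1 (𝔪.comap (chartHom f B BA hfB)))
    (hG2 : yK ∈ O2 ∨ OffBranch π B O2 (𝔪.comap (chartHom f B BA hfB)))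
    (hwit : ∀ P : Place Kb Fb, f yK ∉ P.toValuationSubring →
      (∃ b : B, f (b : ↥E) ∉ P.toValuationSubring) ∨
        ∃ b : B, chartHom f B BA hfB b ∉ 𝔪 ∧ (f (b : ↥E))⁻¹ ∉ P.toValuationSubring) :
    ∃ a d : BA, d ∉ 𝔪 ∧ f yK * (d : Fb) = (a : Fb) := by
  haveI := Fermat.Agent.RED.NumInst4.isScalarTower_OE O E
  exact localReg_of_level (K := Kt) π t B O1 O2 C.ht C.noethB C.fracR C.dvrR C.pi_ne C.intcl C.int0
    C.frac C.leO1 C.leO2 C.arch1 C.arch2 C.sat f BA hfB 𝔪 hext yK hG1 hG2 hwit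

end Generic

/-! ### the finite-level models of a chart -/

section Concrete

variable {p M' : ℕ} [NeZero M'] [NeZero p] {A : ValuationSubring Qbar}

/-- the chart `chart ↥A s` has a finite-level model at `K`: `s` comes from `s_K ∈ K·F_{M'p}` and
`chart (A ∩ K) s_K` with the two Gauss valuation rings of `ModelDefs9` satisfies `ChartFields` for
every uniformiser. -/
def ChartModelAt (p M' : ℕ) [NeZero M'] [NeZero p] (A : ValuationSubring Qbar)
    (s : Fbar (M' * p)) (K : IntermediateField ℚ Qbar) : Prop :=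
  ∃ (sK : FK (M' * p) K) (hE : FK (M' * p) K ≤ fracField (AK A K)),
    baseChangeHom (M' * p) K sK = s ∧
      ∀ (π : ↥(AK A K)) (hπ : IsUnif (AK A K) π),
        ChartFields (AK A K) (FK (M' * p) K) π sK (chart ↥(AK A K) sK)
          (O1 M' p hπ hE) (O2 M' p hπ hE)

/-- the base change of the finite-level Hauptmodul is the Hauptmodul over `ℚ̄`. -/
theorem baseChangeHom_tN (K : IntermediateField ℚ Qbar) (ht : tq (↥K) 4 8 ∈ FK M' K)
    (t : Fbar (M' * p)) (htq : ((t : Fbar (M' * p)) : LaurentSeries Qbar) = tq Qbar 4 8) :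
    baseChangeHom (M' * p) K (tN p ht) = t := by
  apply Subtype.ext
  rw [coe_baseChangeHom, coe_tN, htq]
  exact coeffMap_tq _ (algebraMap ↥K Qbar) 4 8

/-- **the finite-level models of the chart `0`.** -/
theorem large_chartModel_zero (h : LevelHyp p M' A) (t : Fbar (M' * p))
    (htq : ((t : Fbar (M' * p)) : LaurentSeries Qbar) = tq Qbar 4 8) :
    Large (ChartModelAt p M' A t) := by
  obtain ⟨K₀, hK₀, H⟩ := Fermat.Agent.ES.N34.ModelEnd4.modelInput_four p M' A h.prime h.not_dvd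
    h.ne_two h.four_dvd h.liesOver
  refine ⟨K₀, hK₀, fun K _ hfd hle => ?_⟩
  obtain ⟨ht, hE, HD⟩ := H K hfd hle
  exact ⟨tN p ht, hE, baseChangeHom_tN K ht t htq, fun π hπ => chartFields_zero (HD π hπ)⟩

/-- **the finite-level models of the chart `1`.** -/
theorem large_chartModel_one (h : LevelHyp p M' A) (t : Fbar (M' * p))
    (htq : ((t : Fbar (M' * p)) : LaurentSeries Qbar) = tq Qbar 4 8) :
    Large (ChartModelAt p M' A t⁻¹) := by
  obtain ⟨K₀, hK₀, H⟩ := Fermat.Agent.ES.N34.ModelEnd4.modelInput_four p M' A h.prime h.not_dvd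
    h.ne_two h.four_dvd h.liesOver
  refine ⟨K₀, hK₀, fun K _ hfd hle => ?_⟩
  obtain ⟨ht, hE, HD⟩ := H K hfd hle
  refine ⟨(tN p ht)⁻¹, hE, ?_, fun π hπ => chartFields_one (HD π hπ)⟩
  rw [map_inv₀, baseChangeHom_tN K ht t htq]

/-! ### (LR) over `ℚ̄` -/

/-- the poles of a function of `ℚ̄·F_N` are finite in number. -/
theorem finite_poles (N : ℕ) [NeZero N] (y : Fbar N) :
    {P : Place Qbar (Fbar N) | y ∉ P.toValuationSubring}.Finite := by
  rcases eq_or_ne y 0 with rfl | hy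
  · convert Set.finite_empty
    ext P
    simp
  obtain ⟨D, hD, -⟩ := (Fermat.Agent.RED.TOP.FbarFacts20.hasPrincipalDivisors_bar N).exists_divisor
    y hy
  refine D.support.finite_toSet.subset fun P hP => ?_
  simp only [Finset.mem_coe, Finsupp.mem_support_iff, hD P]
  intro h0
  apply hP
  rw [Fermat.Agent.X0.FF.ffp_mem_iff_ord_nonneg, h0]

/-- descent of the hypothesis on the component `c1`. -/
theorem large_G1 (h : LevelHyp p M' A) (s : Fbar (M' * p)) (𝔪 : Ideal ↥(chart ↥A s))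
    (y : Fbar (M' * p)) (hG : y ∈ (c1 h).O ∨ OffA (c1 h) (chart ↥A s) 𝔪) :
    Large fun K =>
      (∀ yK : FK (M' * p) K, baseChangeHom (M' * p) K yK = y →
        ((yK : FK (M' * p) K) : LaurentSeries K) ∈ gaussRing (AK A K)) ∨
      ∃ e : ↥(chart ↥A s), e ∉ 𝔪 ∧ ∀ sK : FK (M' * p) K, baseChangeHom (M' * p) K sK = s →
        ∃ eK ∈ chart ↥(AK A K) sK, baseChangeHom (M' * p) K eK = (e : Fbar (M' * p)) ∧
          ∀ π : ↥(AK A K), IsUnif (AK A K) π → ∃ c' : FK (M' * p) K,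
            ((c' : FK (M' * p) K) : LaurentSeries K) ∈ gaussRing (AK A K) ∧
              eK = algebraMap ↥(AK A K) ↥(FK (M' * p) K) π * c' := by
  have hdesc : ∀ z : Fbar (M' * p), z ∈ (c1 h).O →
      Large fun K => ∀ zK : FK (M' * p) K, baseChangeHom (M' * p) K zK = z →
        ((zK : FK (M' * p) K) : LaurentSeries K) ∈ gaussRing (AK A K) :=
    fun z hz => large_mem_gauss A (M' * p) z ((mem_O1_iff_redA h z).1 hz)
  rcases hG with hy | ⟨e, he𝔪, heO, hρ⟩
  · exact (hdesc y hy).mono fun K hK => Or.inl hK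
  · refine (large_off A (M' * p) (c1 h)
      (fun K x => ((x : FK (M' * p) K) : LaurentSeries K) ∈ gaussRing (AK A K)) hdesc ?_ s
      (e : Fbar (M' * p)) e.2 heO hρ).mono fun K hK => Or.inr ⟨e, he𝔪, hK⟩
    intro K u x hx
    have h1 : ((algebraMap ↥(AK A K) ↥(FK (M' * p) K) u * x : FK (M' * p) K) : LaurentSeries K) =
        HahnSeries.C ((u : ↥(AK A K)) : ↥K) * ((x : FK (M' * p) K) : LaurentSeries K) := by
      rw [MulMemClass.coe_mul, Fermat.Agent.RED.NumInst4.coe_algebraMap_OE]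
    rw [h1]
    exact mul_mem (C_mem (AK A K) u) hx

/-- descent of the hypothesis on the component `c2`. -/
theorem large_G2 (h : LevelHyp p M' A) (s : Fbar (M' * p)) (𝔪 : Ideal ↥(chart ↥A s))
    (y : Fbar (M' * p)) (hG : y ∈ (c2 h).O ∨ OffA (c2 h) (chart ↥A s) 𝔪) :
    Large fun K =>
      (∀ yK : FK (M' * p) K, baseChangeHom (M' * p) K yK = y →
        iotaTwo (M' * p) K yK ∈ gaussRing (AK A K)) ∨
      ∃ e : ↥(chart ↥A s), e ∉ 𝔪 ∧ ∀ sK : FK (M' * p) K, baseChangeHom (M' * p) K sK = s →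
        ∃ eK ∈ chart ↥(AK A K) sK, baseChangeHom (M' * p) K eK = (e : Fbar (M' * p)) ∧
          ∀ π : ↥(AK A K), IsUnif (AK A K) π → ∃ c' : FK (M' * p) K,
            iotaTwo (M' * p) K c' ∈ gaussRing (AK A K) ∧
              eK = algebraMap ↥(AK A K) ↥(FK (M' * p) K) π * c' := by
  have hdesc : ∀ z : Fbar (M' * p), z ∈ (c2 h).O →
      Large fun K => ∀ zK : FK (M' * p) K, baseChangeHom (M' * p) K zK = z →
        iotaTwo (M' * p) K zK ∈ gaussRing (AK A K) :=
    fun z hz => large_mem_gauss_fricke A (M' * p) z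
      ((mem_O1_iff_redA h _).1 ((mem_O2_iff h z).1 hz))
  rcases hG with hy | ⟨e, he𝔪, heO, hρ⟩
  · exact (hdesc y hy).mono fun K hK => Or.inl hK
  · refine (large_off A (M' * p) (c2 h)
      (fun K x => iotaTwo (M' * p) K x ∈ gaussRing (AK A K)) hdesc ?_ s
      (e : Fbar (M' * p)) e.2 heO hρ).mono fun K hK => Or.inr ⟨e, he𝔪, hK⟩
    intro K u x hx
    show iotaTwo (M' * p) K (algebraMap ↥(AK A K) ↥(FK (M' * p) K) u * x) ∈ gaussRing (AK A K)
    have h2 : algebraMap ↥(AK A K) ↥(FK (M' * p) K) u =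
        algebraMap ↥K ↥(FK (M' * p) K) ((u : ↥(AK A K)) : ↥K) := rfl
    have h1 : iotaTwo (M' * p) K (algebraMap ↥(AK A K) ↥(FK (M' * p) K) u * x) =
        HahnSeries.C ((u : ↥(AK A K)) : ↥K) * iotaTwo (M' * p) K x := by
      rw [map_mul, h2]
      congr 1
      show ((frickeFK (M' * p) K (algebraMap ↥K ↥(FK (M' * p) K) ((u : ↥(AK A K)) : ↥K)) :
        FK (M' * p) K) : LaurentSeries K) = _
      rw [(frickeFK (M' * p) K).commutes]
      exact Fermat.Agent.RED.NumInst4.coe_algebraMap_OE (AK A K) (FK (M' * p) K) u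
    rw [h1]
    exact mul_mem (C_mem (AK A K) u) hx

/-- **(LR) LOCAL REGULARITY over `ℚ̄`, for a chart with finite-level models.** -/
theorem localReg_chart (h : LevelHyp p M' A) (s : Fbar (M' * p))
    (hmodel : Large (ChartModelAt p M' A s))
    (𝔪 : Ideal ↥(chart ↥A s)) [h𝔪 : 𝔪.IsPrime] (y : Fbar (M' * p))
    (hG1 : y ∈ (c1 h).O ∨ OffA (c1 h) (chart ↥A s) 𝔪)
    (hG2 : y ∈ (c2 h).O ∨ OffA (c2 h) (chart ↥A s) 𝔪)
    (hpole : ∀ P : Place Qbar (Fbar (M' * p)), y ∉ P.toValuationSubring →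
      ¬ Thru (chart ↥A s) 𝔪 P) :
    ∃ a d : ↥(chart ↥A s), d ∉ 𝔪 ∧ y * (d : Fbar (M' * p)) = (a : Fbar (M' * p)) := by
  classical
  have hfin := finite_poles (M' * p) y
  -- the witnesses
  have hw : ∀ P : Place Qbar (Fbar (M' * p)), ∃ b : ↥(chart ↥A s),
      y ∉ P.toValuationSubring →
        ((b : Fbar (M' * p)) ∉ P.toValuationSubring ∨
          (b ∉ 𝔪 ∧ ((b : Fbar (M' * p)))⁻¹ ∉ P.toValuationSubring)) := by
    intro P
    by_cases hP : y ∉ P.toValuationSubring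
    · rcases thru_witness (chart ↥A s) 𝔪 P (hpole P hP) with ⟨b, hb⟩ | ⟨b, hb1, hb2⟩
      · exact ⟨b, fun _ => Or.inl hb⟩
      · exact ⟨b, fun _ => Or.inr ⟨hb1, hb2⟩⟩
    · exact ⟨0, fun h' => absurd h' hP⟩
  choose w hw using hw
  have L3 : Large fun K => ∀ P ∈ hfin.toFinset, ∀ sK : FK (M' * p) K,
      baseChangeHom (M' * p) K sK = s →
        ∃ x ∈ chart ↥(AK A K) sK, baseChangeHom (M' * p) K x = (w P : Fbar (M' * p)) :=
    Large.all _ _ fun P _ => large_chart A (M' * p) s (w P : Fbar (M' * p)) (w P).2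
  obtain ⟨K, hnor, hfd, ⟨⟨⟨⟨hM, ⟨yK, hyK⟩⟩, hQ1⟩, hQ2⟩, hW⟩⟩ :=
    Large.exists_field ((((hmodel.and (large_descent (M' * p) y)).and
      (large_G1 h s 𝔪 y hG1)).and (large_G2 h s 𝔪 y hG2)).and L3)
  obtain ⟨sK, hE, hsK, hC⟩ := hM
  haveI := hfd
  haveI hdvr : IsDiscreteValuationRing ↥(AK A K) :=
    isDiscreteValuationRing_AK A K h.prime.ne_zero h.liesOver
  obtain ⟨π, hπirr⟩ := IsDiscreteValuationRing.exists_irreducible ↥(AK A K)
  have hπ : IsUnif (AK A K) π := isUnif_of_irreducible (AK A K) hπirr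
  have C := hC π hπ
  have hfB : ∀ b ∈ chart ↥(AK A K) sK, baseChangeHom (M' * p) K b ∈ chart ↥A s := by
    intro b hb
    have := ChartUnion1.baseChangeHom_mem_chart A (M' * p) K sK b hb
    rwa [hsK] at this
  have hext : ∀ w : Place ↥K ↥(FK (M' * p) K), ∃ P : Place Qbar (Fbar (M' * p)),
      ∀ z : ↥(FK (M' * p) K), baseChangeHom (M' * p) K z ∈ P.toValuationSubring ↔
        z ∈ w.toValuationSubring := by
    intro w
    obtain ⟨v, e, -, -, hv⟩ := exists_place_above_mem (M' * p) K w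
    exact ⟨v, hv⟩
  have hG1' : yK ∈ O1 M' p hπ hE ∨ OffBranch π (chart ↥(AK A K) sK) (O1 M' p hπ hE)
      (𝔪.comap (chartHom (baseChangeHom (M' * p) K) (chart ↥(AK A K) sK) (chart ↥A s) hfB)) := by
    rcases hQ1 with hQ | ⟨e, he𝔪, hQ⟩
    · exact Or.inl ((mem_O1_iff M' p hπ hE yK).2 (hQ yK hyK))
    · obtain ⟨eK, heK, heK', hπe⟩ := hQ sK hsK
      obtain ⟨c', hc', hec'⟩ := hπe π hπ
      refine Or.inr ⟨⟨eK, heK⟩, ?_, c', (mem_O1_iff M' p hπ hE c').2 hc', hec'⟩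
      rw [Ideal.mem_comap]
      have : chartHom (baseChangeHom (M' * p) K) (chart ↥(AK A K) sK) (chart ↥A s) hfB ⟨eK, heK⟩
          = e := Subtype.ext heK'
      rwa [this]
  have hG2' : yK ∈ O2 M' p hπ hE ∨ OffBranch π (chart ↥(AK A K) sK) (O2 M' p hπ hE)
      (𝔪.comap (chartHom (baseChangeHom (M' * p) K) (chart ↥(AK A K) sK) (chart ↥A s) hfB)) := by
    rcases hQ2 with hQ | ⟨e, he𝔪, hQ⟩
    · exact Or.inl ((mem_O2_iff M' p hπ hE yK).2 (hQ yK hyK))
    · obtain ⟨eK, heK, heK', hπe⟩ := hQ sK hsK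
      obtain ⟨c', hc', hec'⟩ := hπe π hπ
      refine Or.inr ⟨⟨eK, heK⟩, ?_, c', (mem_O2_iff M' p hπ hE c').2 hc', hec'⟩
      rw [Ideal.mem_comap]
      have : chartHom (baseChangeHom (M' * p) K) (chart ↥(AK A K) sK) (chart ↥A s) hfB ⟨eK, heK⟩
          = e := Subtype.ext heK'
      rwa [this]
  have hwit : ∀ P : Place Qbar (Fbar (M' * p)),
      baseChangeHom (M' * p) K yK ∉ P.toValuationSubring →
      (∃ b : ↥(chart ↥(AK A K) sK),
        baseChangeHom (M' * p) K (b : ↥(FK (M' * p) K)) ∉ P.toValuationSubring) ∨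
        ∃ b : ↥(chart ↥(AK A K) sK),
          chartHom (baseChangeHom (M' * p) K) (chart ↥(AK A K) sK) (chart ↥A s) hfB b ∉ 𝔪 ∧
            (baseChangeHom (M' * p) K (b : ↥(FK (M' * p) K)))⁻¹ ∉ P.toValuationSubring := by
    intro P hP
    rw [hyK] at hP
    obtain ⟨x, hx, hx'⟩ := hW P (hfin.mem_toFinset.2 hP) sK hsK
    rcases hw P hP with hb | ⟨hb1, hb2⟩
    · exact Or.inl ⟨⟨x, hx⟩, by rw [hx']; exact hb⟩
    · refine Or.inr ⟨⟨x, hx⟩, ?_, by rw [hx']; exact hb2⟩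
      have : chartHom (baseChangeHom (M' * p) K) (chart ↥(AK A K) sK) (chart ↥A s) hfB ⟨x, hx⟩
          = w P := Subtype.ext hx'
      rwa [this]
  have hmain := localReg_at C (baseChangeHom (M' * p) K) (chart ↥A s) hfB 𝔪 hext yK hG1' hG2' hwit
  rwa [hyK] at hmain

/-- **(LR) for the chart `0`** `chart ↥A t`, `t` the Hauptmodul. -/
theorem localReg_zero (h : LevelHyp p M' A) (t : Fbar (M' * p))
    (htq : ((t : Fbar (M' * p)) : LaurentSeries Qbar) = tq Qbar 4 8)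
    (𝔪 : Ideal ↥(chart ↥A t)) [h𝔪 : 𝔪.IsPrime] (y : Fbar (M' * p))
    (hG1 : y ∈ (c1 h).O ∨ OffA (c1 h) (chart ↥A t) 𝔪)
    (hG2 : y ∈ (c2 h).O ∨ OffA (c2 h) (chart ↥A t) 𝔪)
    (hpole : ∀ P : Place Qbar (Fbar (M' * p)), y ∉ P.toValuationSubring →
      ¬ Thru (chart ↥A t) 𝔪 P) :
    ∃ a d : ↥(chart ↥A t), d ∉ 𝔪 ∧ y * (d : Fbar (M' * p)) = (a : Fbar (M' * p)) :=
  localReg_chart h t (large_chartModel_zero h t htq) 𝔪 y hG1 hG2 hpole

/-- **(LR) for the chart `1`** `chart ↥A t⁻¹`. -/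
theorem localReg_one (h : LevelHyp p M' A) (t : Fbar (M' * p))
    (htq : ((t : Fbar (M' * p)) : LaurentSeries Qbar) = tq Qbar 4 8)
    (𝔪 : Ideal ↥(chart ↥A t⁻¹)) [h𝔪 : 𝔪.IsPrime] (y : Fbar (M' * p))
    (hG1 : y ∈ (c1 h).O ∨ OffA (c1 h) (chart ↥A t⁻¹) 𝔪)
    (hG2 : y ∈ (c2 h).O ∨ OffA (c2 h) (chart ↥A t⁻¹) 𝔪)
    (hpole : ∀ P : Place Qbar (Fbar (M' * p)), y ∉ P.toValuationSubring →
      ¬ Thru (chart ↥A t⁻¹) 𝔪 P) :
    ∃ a d : ↥(chart ↥A t⁻¹), d ∉ 𝔪 ∧ y * (d : Fbar (M' * p)) = (a : Fbar (M' * p)) :=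
  localReg_chart h t⁻¹ (large_chartModel_one h t htq) 𝔪 y hG1 hG2 hpole

end Concrete

end Fermat.Agent.T33.LocalReg5C
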