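/-
Programme T (S33), chapter (e) "N34 over ℚ̄", GLUE block (helper5): **the node axiom of
`NodalCtx1.NodalRed` at the level `M'p` over `ℚ̄`, from (LR) + value compatibility at the node.**

`h : LevelHyp p M' A`, `c1 h`, `c2 h` the two components (`T33/NodalHalf4`), `s` a chart coordinate
with finite-level models (`s = t` or `t⁻¹`: `LocalReg5C.large_chartModel_zero/_one`), `BA = chart ↥A s`
(contained in `O₁ ⊓ O₂`), `χ : BA →+* κ` the evaluation at a closed point of the chart, `Q₁`, `Q₂`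
places of the two components with

  (VAL)  `ρ₁ b - χ b ∈ vanishing Q₁`,  `ρ₂ b - χ b ∈ vanishing Q₂`   for all `b ∈ BA`

(`Q₁`, `Q₂` are the two branches over the closed point `ker χ`).

`glue_at` : if `y ∈ O₁ ⊓ O₂` is regular at every place passing through `ker χ`
(`LocalReg5.Thru`), then `ρ₁ y`, `ρ₂ y` are regular at `Q₁`, `Q₂` with a common value — the
conclusion of the hypothesis `hglue` of `NodalPlaces1.RawRed.mkNodalRed`; `glue_compatAt` : the same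
in the shape `(ρ₁ y, ρ₂ y) ∈ Nd.compatAt i` of `NodalRed.glue` / `CentreData.mkNodalRed`.
-/
import Mathlib
import Fermat.Agent.T33.LocalReg5C
import Fermat.Agent.T33.GlueAbs5

set_option autoImplicit false
set_option linter.unusedSectionVars false
set_option linter.style.haveILetI false
set_option linter.unusedVariables false
set_option synthInstance.maxHeartbeats 400000

noncomputable section

namespace Fermat.Agent.T33.GlueInst5

open HahnSeries ModularCurve AlgebraicCurve IsLocalRing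
open Fermat.Agent.RED.Interface4 Fermat.Agent.RED.PUR.ChartGeneric22
  Fermat.Agent.ES.RED Fermat.Agent.ES.N34.ModelN4
  Fermat.Agent.T33.NodalCurve6 Fermat.Agent.T33.NodalCtx1 Fermat.Agent.T33.NodalHalf4
  Fermat.Agent.T33.LocalReg5 Fermat.Agent.T33.LocalReg5C Fermat.Agent.T33.NodalLift6

variable {p M' : ℕ} [NeZero M'] [NeZero p] {A : ValuationSubring Qbar}

/-- **(LR) at the kernel of an evaluation**: a function of `O₁ ⊓ O₂` regular at every place
through `ker χ` is a fraction `a / d` of the chart with `χ d ≠ 0`. -/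
theorem exists_frac_of_regular (h : LevelHyp p M' A) (s : Fbar (M' * p))
    (hmodel : Large (ChartModelAt p M' A s))
    (χ : ↥(chart ↥A s) →+* Setup8.kA A)
    (y : Fbar (M' * p)) (h₁ : y ∈ (c1 h).O) (h₂ : y ∈ (c2 h).O)
    (hreg : ∀ P : Place Qbar (Fbar (M' * p)), Thru (chart ↥A s) (RingHom.ker χ) P →
      y = 0 ∨ 0 ≤ P.ord y) :
    ∃ a d : ↥(chart ↥A s), χ d ≠ 0 ∧ y * (d : Fbar (M' * p)) = (a : Fbar (M' * p)) := by
  haveI : (RingHom.ker χ).IsPrime := RingHom.ker_isPrime χ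
  obtain ⟨a, d, hd, had⟩ := localReg_chart h s hmodel (RingHom.ker χ) y (Or.inl h₁) (Or.inl h₂)
    (by
      intro P hP hthru
      rcases hreg P hthru with h0 | h0
      · exact hP (by rw [h0]; exact zero_mem _)
      · exact hP ((Fermat.Agent.X0.FF.ffp_mem_iff_ord_nonneg P).2 h0))
  exact ⟨a, d, fun h0 => hd ((RingHom.mem_ker).2 h0), had⟩

/-- **the node axiom at one closed point**, in the shape of `hglue` of
`NodalPlaces1.RawRed.mkNodalRed`. -/
theorem glue_at (h : LevelHyp p M' A) (s : Fbar (M' * p))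
    (hmodel : Large (ChartModelAt p M' A s))
    (hB1 : ∀ b ∈ chart ↥A s, b ∈ (c1 h).O) (hB2 : ∀ b ∈ chart ↥A s, b ∈ (c2 h).O)
    (χ : ↥(chart ↥A s) →+* Setup8.kA A)
    (Q₁ Q₂ : Place (Setup8.kA A) (Fb A M'))
    (hval1 : ∀ b : ↥(chart ↥A s), (c1 h).ρ ⟨(b : Fbar (M' * p)), hB1 _ b.2⟩ -
      algebraMap (Setup8.kA A) (Fb A M') (χ b) ∈ vanishing Q₁)
    (hval2 : ∀ b : ↥(chart ↥A s), (c2 h).ρ ⟨(b : Fbar (M' * p)), hB2 _ b.2⟩ -
      algebraMap (Setup8.kA A) (Fb A M') (χ b) ∈ vanishing Q₂)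
    (y : Fbar (M' * p)) (h₁ : y ∈ (c1 h).O) (h₂ : y ∈ (c2 h).O)
    (hreg : ∀ P : Place Qbar (Fbar (M' * p)), Thru (chart ↥A s) (RingHom.ker χ) P →
      y = 0 ∨ 0 ≤ P.ord y) :
    ∃ b : Setup8.kA A,
      (c1 h).ρ ⟨y, h₁⟩ - algebraMap (Setup8.kA A) (Fb A M') b ∈ vanishing Q₁ ∧
      (c2 h).ρ ⟨y, h₂⟩ - algebraMap (Setup8.kA A) (Fb A M') b ∈ vanishing Q₂ := by
  obtain ⟨a, d, hd, had⟩ := exists_frac_of_regular h s hmodel χ y h₁ h₂ hreg
  exact GlueAbs5.exists_common_value (c1 h) (c2 h) Q₁ Q₂ (chart ↥A s) hB1 hB2 χ hval1 hval2 y h₁ h₂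
    a d hd had

/-- **the node axiom at the `i`-th node**, in the shape of `NodalRed.glue`. -/
theorem glue_compatAt {ι : Type*} (h : LevelHyp p M' A)
    (Nd : NodalData (Setup8.kA A) (Fb A M') (Fb A M') ι) (i : ι) (s : Fbar (M' * p))
    (hmodel : Large (ChartModelAt p M' A s))
    (hB1 : ∀ b ∈ chart ↥A s, b ∈ (c1 h).O) (hB2 : ∀ b ∈ chart ↥A s, b ∈ (c2 h).O)
    (χ : ↥(chart ↥A s) →+* Setup8.kA A)
    (hval1 : ∀ b : ↥(chart ↥A s), (c1 h).ρ ⟨(b : Fbar (M' * p)), hB1 _ b.2⟩ -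
      algebraMap (Setup8.kA A) (Fb A M') (χ b) ∈ vanishing (Nd.s1 i))
    (hval2 : ∀ b : ↥(chart ↥A s), (c2 h).ρ ⟨(b : Fbar (M' * p)), hB2 _ b.2⟩ -
      algebraMap (Setup8.kA A) (Fb A M') (χ b) ∈ vanishing (Nd.s2 i))
    (y : Fbar (M' * p)) (h₁ : y ∈ (c1 h).O) (h₂ : y ∈ (c2 h).O)
    (hreg : ∀ P : Place Qbar (Fbar (M' * p)), Thru (chart ↥A s) (RingHom.ker χ) P →
      y = 0 ∨ 0 ≤ P.ord y) :
    (((c1 h).ρ ⟨y, h₁⟩, (c2 h).ρ ⟨y, h₂⟩) : Fb A M' × Fb A M') ∈ Nd.compatAt i := by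
  obtain ⟨a, d, hd, had⟩ := exists_frac_of_regular h s hmodel χ y h₁ h₂ hreg
  exact GlueAbs5.mem_compatAt_of_local Nd i (c1 h) (c2 h) (chart ↥A s) hB1 hB2 χ hval1 hval2 y h₁
    h₂ a d hd had

end Fermat.Agent.T33.GlueInst5
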