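/-
Programme T (S33), chapter (e), PUSH block, ABSTRACT part (lead).

The push-forward formula at a smooth point of one component, from LOCAL data only
(no global degree count as in `ES/RED/R2Abstract14`: in the nodal model the fibre of the chart
coordinate through the point may contain nodes).

`c : HalfRed A F Fb` a component (Gauss ring `O`, reduction `ρ`), `Q` a place of `Fb`, `S` a set of
places of `F` ("the residue disc of `Q`": the places reducing to `Q`).  `LocalPeel c S Q` is the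
list of local facts at the closed point `x` of the model under `Q`, in terms of a subring
`B ⊆ O` ("the local ring of the model at `x`"):
* (L1) `B ⊆ O_P` for `P ∈ S`; (L2) `ρ b` is regular at `Q` for `b ∈ B`;
* (L3) `b ∈ B` with `ρ b` a unit at `Q` is a unit of `B`;
* (L4) every element of `O` of nonzero reduction is a fraction `a / d`, `a, d ∈ B ∖ ker ρ`;
* (L5) LOCAL EXISTENCE OF A ZERO: `a ∈ B` with `ρ a` vanishing at `Q` has a zero in `S`
  (from local regularity (LR) applied to `1 / a`);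
* (L6) PEEL: for `P ∈ S` a local parameter `u ∈ B` (`ord_P u = 1`, no other zero in `S`,
  `ord_Q (ρ u) = 1`) dividing in `B` every element of `B` vanishing at `P`.

`LocalPeel.sum_ord` : `∑ᶠ P ∈ S, ord_P y = ord_Q (ρ y)` for all `y ∈ O` with `ρ y ≠ 0`;
`sidePush_of_localPeel` : helper1's `NodalAbs1B.SidePush c r Sm` (= the literal shape of the fields
`push₁`, `push₂` of `NodalCtx1.NodalRed`) from a `LocalPeel` at every `Q` with `Sm Q`.
-/
import Mathlib
import Fermat.Agent.T33.NodalAbs1B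

set_option autoImplicit false

open AlgebraicCurve IsLocalRing

namespace Fermat.Agent.T33.PushPeel0

open Fermat.Agent.T33.NodalCtx1 Fermat.Agent.T33.NodalAbs1B

variable {K : Type*} [Field K] {A : ValuationSubring K} {F : Type*} [Field F] [Algebra K F]
variable {Fb : Type*} [Field Fb] [Algebra (ResidueField A) Fb]

/-! ### sums of orders over a set of places -/

section Sum

variable (K F) in
/-- every nonzero function has finitely many zeros and poles. -/
def FinDiv : Prop := ∀ f : F, f ≠ 0 → {P : Place K F | P.ord f ≠ 0}.Finite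

/-- `∑_{P ∈ S} ord_P y`. -/
noncomputable def sumOrd (S : Set (Place K F)) (y : F) : ℤ := ∑ᶠ P ∈ S, P.ord y

theorem sumOrd_mul (hfin : FinDiv K F) (S : Set (Place K F)) {a b : F} (ha : a ≠ 0)
    (hb : b ≠ 0) : sumOrd S (a * b) = sumOrd S a + sumOrd S b := by
  unfold sumOrd
  rw [← finsum_mem_add_distrib' ((hfin a ha).subset Set.inter_subset_right)
    ((hfin b hb).subset Set.inter_subset_right)]
  exact finsum_mem_congr rfl fun P _ => P.ord_mul ha hb

theorem sumOrd_eq_zero (S : Set (Place K F)) {a : F} (h : ∀ P ∈ S, P.ord a = 0) :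
    sumOrd S a = 0 := by
  unfold sumOrd
  rw [finsum_mem_congr (s := S) (t := S) (g := fun _ => (0 : ℤ)) rfl h]
  simp

theorem sumOrd_eq_of_unique (S : Set (Place K F)) {u : F} {P₀ : Place K F} (hP₀ : P₀ ∈ S)
    (h : ∀ P ∈ S, P ≠ P₀ → P.ord u = 0) : sumOrd S u = P₀.ord u := by
  unfold sumOrd
  have h1 : S ∩ Function.support (fun P : Place K F => P.ord u) =
      {P₀} ∩ Function.support (fun P : Place K F => P.ord u) := by
    ext P
    simp only [Set.mem_inter_iff, Function.mem_support, Set.mem_singleton_iff]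
    constructor
    · rintro ⟨hPS, hP⟩
      refine ⟨?_, hP⟩
      by_contra hne
      exact hP (h P hPS hne)
    · rintro ⟨rfl, hP⟩
      exact ⟨hP₀, hP⟩
  rw [finsum_mem_inter_support_eq _ S {P₀} h1, finsum_mem_singleton]

/-- comparison with the `Finset` form used in the contract. -/
theorem sum_eq_sumOrd (S : Set (Place K F)) (y : F) (D : Divisor K F)
    (hD : ∀ P, D P = P.ord y) (T : Finset (Place K F))
    (hT : ∀ P, P ∈ T ↔ P ∈ D.support ∧ P ∈ S) : ∑ P ∈ T, D P = sumOrd S y := by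
  unfold sumOrd
  have h1 : S ∩ Function.support (fun P : Place K F => P.ord y) =
      (T : Set (Place K F)) ∩ Function.support (fun P : Place K F => P.ord y) := by
    ext P
    simp only [Set.mem_inter_iff, Function.mem_support, Finset.mem_coe, hT, Finsupp.mem_support_iff,
      hD]
    tauto
  rw [finsum_mem_inter_support_eq _ S (T : Set (Place K F)) h1, finsum_mem_coe_finset]
  exact Finset.sum_congr rfl fun P _ => hD P

end Sum

/-! ### the local data -/

/-- **the local facts at a smooth point `Q` of the component `c`**, `S` = the places over `Q`. -/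
structure LocalPeel (c : HalfRed A F Fb) (S : Set (Place K F))
    (Q : Place (ResidueField A) Fb) where
  /-- the local ring of the model at the point. -/
  B : Subring F
  B_le : B ≤ c.O
  /-- (L1) -/
  ord_nonneg : ∀ P ∈ S, ∀ b ∈ B, 0 ≤ P.ord b
  /-- (L2) -/
  ord_ρ_nonneg : ∀ (b : F) (hb : b ∈ B), 0 ≤ Q.ord (c.ρ ⟨b, B_le hb⟩)
  /-- (L3) -/
  inv_mem : ∀ (b : F) (hb : b ∈ B), c.ρ ⟨b, B_le hb⟩ ≠ 0 → Q.ord (c.ρ ⟨b, B_le hb⟩) = 0 →
    b⁻¹ ∈ B
  /-- (L4) -/
  frac : ∀ y : c.O, c.ρ y ≠ 0 → ∃ (a d : F) (ha : a ∈ B) (hd : d ∈ B),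
    c.ρ ⟨a, B_le ha⟩ ≠ 0 ∧ c.ρ ⟨d, B_le hd⟩ ≠ 0 ∧ (y : F) * d = a
  /-- (L5) local existence of a zero. -/
  exists_zero : ∀ (a : F) (ha : a ∈ B), c.ρ ⟨a, B_le ha⟩ ≠ 0 →
    0 < Q.ord (c.ρ ⟨a, B_le ha⟩) → ∃ P ∈ S, 0 < P.ord a
  /-- (L6) peeling. -/
  peel : ∀ P ∈ S, ∃ (u : F) (hu : u ∈ B), P.ord u = 1 ∧ c.ρ ⟨u, B_le hu⟩ ≠ 0 ∧
    Q.ord (c.ρ ⟨u, B_le hu⟩) = 1 ∧ (∀ P' ∈ S, P' ≠ P → P'.ord u = 0) ∧
      ∀ a ∈ B, a ≠ 0 → 0 < P.ord a → ∃ a' ∈ B, a = u * a'

namespace LocalPeel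

variable {c : HalfRed A F Fb} {S : Set (Place K F)} {Q : Place (ResidueField A) Fb}
  (L : LocalPeel c S Q)

theorem ne_zero_of_ρ_ne_zero {a : F} (ha : a ∈ c.O) (h : c.ρ ⟨a, ha⟩ ≠ 0) : a ≠ 0 := by
  rintro rfl
  apply h
  have : (⟨0, ha⟩ : c.O) = 0 := rfl
  rw [this, map_zero]

include L in
/-- the formula for the elements of the local ring, by induction on `ord_Q (ρ a)`. -/
theorem sum_ord_of_mem (hfin : FinDiv K F) :
    ∀ (n : ℕ) (a : F) (ha : a ∈ L.B), c.ρ ⟨a, L.B_le ha⟩ ≠ 0 →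
      Q.ord (c.ρ ⟨a, L.B_le ha⟩) = n → sumOrd S a = n := by
  intro n
  induction n with
  | zero =>
    intro a ha hρ hn
    rw [Nat.cast_zero] at hn ⊢
    have hinv := L.inv_mem a ha hρ hn
    apply sumOrd_eq_zero
    intro P hP
    have h1 := L.ord_nonneg P hP a ha
    have h2 := L.ord_nonneg P hP a⁻¹ hinv
    rw [P.ord_inv] at h2
    omega
  | succ n ih =>
    intro a ha hρ hn
    have ha0 : a ≠ 0 := ne_zero_of_ρ_ne_zero (L.B_le ha) hρ
    obtain ⟨P, hPS, hPa⟩ := L.exists_zero a ha hρ (by rw [hn]; positivity)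
    obtain ⟨u, hu, hPu, hρu, hQu, huniq, hdiv⟩ := L.peel P hPS
    obtain ⟨a', ha', rfl⟩ := hdiv a ha ha0 hPa
    have hu0 : u ≠ 0 := ne_zero_of_ρ_ne_zero (L.B_le hu) hρu
    have ha'0 : a' ≠ 0 := right_ne_zero_of_mul ha0
    have hmul : c.ρ ⟨u * a', L.B_le ha⟩ = c.ρ ⟨u, L.B_le hu⟩ * c.ρ ⟨a', L.B_le ha'⟩ := by
      rw [← map_mul]; rfl
    have hρa' : c.ρ ⟨a', L.B_le ha'⟩ ≠ 0 := by
      intro h0
      apply hρ
      rw [hmul, h0, mul_zero]
    have hn' : Q.ord (c.ρ ⟨a', L.B_le ha'⟩) = n := by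
      rw [hmul, Q.ord_mul hρu hρa', hQu] at hn
      push_cast at hn
      omega
    rw [sumOrd_mul hfin S hu0 ha'0, ih a' ha' hρa' hn', sumOrd_eq_of_unique S hPS huniq, hPu]
    push_cast
    ring

include L in
/-- **the local push-forward formula**: `∑_{P ∈ S} ord_P y = ord_Q (ρ y)`. -/
theorem sum_ord (hfin : FinDiv K F) (y : c.O) (hy : c.ρ y ≠ 0) :
    sumOrd S (y : F) = Q.ord (c.ρ y) := by
  obtain ⟨a, d, ha, hd, hρa, hρd, hyd⟩ := L.frac y hy
  have hd0 : d ≠ 0 := ne_zero_of_ρ_ne_zero (L.B_le hd) hρd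
  have hy0 : (y : F) ≠ 0 := ne_zero_of_ρ_ne_zero y.2 hy
  obtain ⟨na, hna⟩ := Int.eq_ofNat_of_zero_le (L.ord_ρ_nonneg a ha)
  obtain ⟨nd, hnd⟩ := Int.eq_ofNat_of_zero_le (L.ord_ρ_nonneg d hd)
  have h1 := L.sum_ord_of_mem hfin na a ha hρa hna
  have h2 := L.sum_ord_of_mem hfin nd d hd hρd hnd
  have h3 : sumOrd S a = sumOrd S (y : F) + sumOrd S d := by
    rw [← hyd, sumOrd_mul hfin S hy0 hd0]
  have hmul : c.ρ ⟨a, L.B_le ha⟩ = c.ρ y * c.ρ ⟨d, L.B_le hd⟩ := by
    rw [← map_mul]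
    congr 1
    exact Subtype.ext hyd.symm
  have h4 : Q.ord (c.ρ ⟨a, L.B_le ha⟩) = Q.ord (c.ρ y) + Q.ord (c.ρ ⟨d, L.B_le hd⟩) := by
    rw [hmul, Q.ord_mul hy hρd]
  omega

end LocalPeel

/-- **`SidePush` from local data at every smooth point.** -/
theorem sidePush_of_localPeel (hfin : FinDiv K F) (c : HalfRed A F Fb)
    (r : Place K F → Option (Place (ResidueField A) Fb))
    (Sm : Place (ResidueField A) Fb → Prop)
    (h : ∀ Q, Sm Q → Nonempty (LocalPeel c {P | r P = some Q} Q)) : SidePush c r Sm where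
  push y hy Q hQ D hD T hT := by
    obtain ⟨L⟩ := h Q hQ
    rw [sum_eq_sumOrd {P | r P = some Q} (y : F) D hD T hT]
    exact L.sum_ord hfin y hy

end Fermat.Agent.T33.PushPeel0
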