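/-
T33/PushLoc9A (helper9): Programme T (S33), nodal layer, chapter (e), block PUSH, layer (P-loc),
ABSTRACT part: **the local data `PushPeel0.LocalPeel` at a closed point of an `A`-level chart lying
on ONE component**, from
  (VAL)   `O_Q` = the reduced local ring of the model at the point,
  (SAT)   strong saturation of the local ring of the model at the point,
  (FRAC)  `F = Frac B₀`,
  (LR)    local regularity (helper5's `LocalReg5`): a function of the Gauss ring without poles through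
          the point lies in the local ring of the model,
  (PEEL-a) in the shape delivered by `ES/RED/LevelPeel22.LevelSystem.peel_a`.

Setting: `c : HalfRed A F Fb` (one Gauss ring with its reduction), `X : PointChart c` = a subring
`B₀ ⊆ c.O` (the `A`-level chart) with a ring homomorphism `χ : B₀ →+* κ` (the closed point `x`,
`𝔪_x = ker χ`) such that `ρ b = 0 → χ b = 0` (the point lies on the component).
* `X.Bx = GaussOv1.fracRing B₀ χ` — the local ring `B₀_x ⊆ F`; `X.χx : X.Bx →+* κ`;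
* `X.S` — the places of `F` THROUGH `x` (`B₀ ⊆ O_P` and `B₀ ∖ 𝔪_x ⊆ O_Pˣ`; = `LocalReg5.Thru`);
* `X.exists_value` : for `P ∈ X.S` the values of `X.Bx` at `P` lie in `A` and reduce to `χx`;
* `PointData X Q` : the five hypotheses above (Prop-valued structure);
* **`localPeel`** : `LHyp K F → PointData X Q → LocalPeel c X.S Q`;
* **`sidePush_of_pointData`** : `SidePush c r Sm` (= the shape of `push₁`/`push₂` of `NodalRed`) as
  soon as every `Q` with `Sm Q` has a point `X` with `PointData X Q` and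
  `r P = some Q ↔ P ∈ X.S`.
The proof of (L6) ports `ES/RED/R2Adapter9.peel_pow`, `sep_of_peelA` and `R2Peel14.peel_full`
(`ord_P u = 1`, uniqueness of the zero of the local parameter) to the local ring, with values taken
from `LHyp.residue`.  Nothing here distinguishes the two charts or the two components.
-/
import Mathlib
import Fermat.Agent.T33.PushPeel0
import Fermat.Agent.T33.Psi3F
import Fermat.Agent.FF.GaussOv1A
import Fermat.Agent.ES.HECKE.FundIdentity19

set_option autoImplicit false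
set_option linter.unusedSectionVars false

open AlgebraicCurve IsLocalRing

noncomputable section

namespace Fermat.Agent.T33.PushLoc9

open Fermat.Agent.T33.NodalCtx1 Fermat.Agent.T33.NodalAbs1A Fermat.Agent.T33.NodalAbs1B
  Fermat.Agent.T33.PushPeel0 Fermat.Agent.FF.GaussOv1 Fermat.Agent.X0.FF
  Fermat.Agent.RR.LSpace

variable {K : Type*} [Field K] {A : ValuationSubring K}
variable {F : Type*} [Field F] [Algebra K F]
variable {Fb : Type*} [Field Fb] [Algebra (ResidueField A) Fb]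

/-- **a closed point of an `A`-level chart, lying on the component `c`.** -/
structure PointChart (c : HalfRed A F Fb) where
  /-- the chart ring. -/
  B₀ : Subring F
  le : B₀ ≤ c.O
  const_mem : ∀ a : A, algebraMap K F (a : K) ∈ B₀
  /-- the closed point, as a ring homomorphism to the residue field. -/
  χ : B₀ →+* ResidueField A
  χ_const : ∀ a : A, χ ⟨algebraMap K F (a : K), const_mem a⟩ = residue A a
  /-- the point lies on the component. -/
  χ_of_ρ : ∀ b : B₀, c.ρ ⟨(b : F), le b.2⟩ = 0 → χ b = 0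

namespace PointChart

variable {c : HalfRed A F Fb} (X : PointChart c)

/-- **the local ring of the model at the point**, inside `F`. -/
def Bx : Subring F := fracRing X.B₀ X.χ

/-- the residue map of the local ring. -/
noncomputable def χx : X.Bx →+* ResidueField A := fracRed X.B₀ X.χ

/-- **the places through the point.** -/
def S : Set (Place K F) :=
  {P | (∀ b : X.B₀, (b : F) ∈ P.toValuationSubring) ∧
    ∀ b : X.B₀, X.χ b ≠ 0 → ((b : F))⁻¹ ∈ P.toValuationSubring}

theorem mem_Bx_iff {y : F} : y ∈ X.Bx ↔ ∃ a d : X.B₀, X.χ d ≠ 0 ∧ y * (d : F) = (a : F) :=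
  Iff.rfl

theorem B₀_le_Bx : X.B₀ ≤ X.Bx := fun b hb => coe_mem_fracRing X.B₀ X.χ ⟨b, hb⟩

theorem χx_coe (b : X.B₀) : X.χx ⟨(b : F), X.B₀_le_Bx b.2⟩ = X.χ b :=
  fracRed_mk_coe X.B₀ X.χ b _

theorem χx_eq (y : X.Bx) (a d : X.B₀) (hd : X.χ d ≠ 0) (h : (y : F) * (d : F) = (a : F)) :
    X.χx y = X.χ a / X.χ d :=
  fracRed_eq X.B₀ X.χ y a d hd h

theorem const_mem_Bx (a : A) : algebraMap K F (a : K) ∈ X.Bx := X.B₀_le_Bx (X.const_mem a)

theorem χx_const (a : A) : X.χx ⟨algebraMap K F (a : K), X.const_mem_Bx a⟩ = residue A a := by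
  rw [← X.χ_const a]
  exact X.χx_coe ⟨_, X.const_mem a⟩

/-- units of the local ring. -/
theorem inv_mem_Bx (y : X.Bx) (hy : X.χx y ≠ 0) : ((y : F))⁻¹ ∈ X.Bx :=
  inv_mem_fracRing X.B₀ X.χ y hy

theorem ρ_ne_zero_of_χ {d : X.B₀} (hd : X.χ d ≠ 0) : c.ρ ⟨(d : F), X.le d.2⟩ ≠ 0 :=
  fun h => hd (X.χ_of_ρ d h)

/-- the local ring of the model lies in the Gauss ring. -/
theorem Bx_le : X.Bx ≤ c.O := by
  rintro y ⟨a, d, hd, h⟩
  have hρd := X.ρ_ne_zero_of_χ hd
  have hd0 : (d : F) ≠ 0 := by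
    intro h0
    apply hρd
    have : (⟨(d : F), X.le d.2⟩ : c.O) = 0 := Subtype.ext h0
    rw [this, map_zero]
  have hinv := Psi3F.inv_mem_of_ρ_ne_zero c (X.le d.2) hρd
  have : y = (a : F) * ((d : F))⁻¹ := by
    rw [← h, mul_assoc, mul_inv_cancel₀ hd0, mul_one]
  rw [this]
  exact c.O.mul_mem (X.le a.2) hinv

/-- the reduction on the local ring. -/
noncomputable def ρx : X.Bx →+* Fb := c.ρ.comp (Subring.inclusion X.Bx_le)

theorem ρx_apply (y : X.Bx) : X.ρx y = c.ρ ⟨(y : F), X.Bx_le y.2⟩ := rfl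

theorem ρx_mul_eq (y : X.Bx) (a d : X.B₀) (h : (y : F) * (d : F) = (a : F)) :
    X.ρx y * c.ρ ⟨(d : F), X.le d.2⟩ = c.ρ ⟨(a : F), X.le a.2⟩ := by
  rw [ρx_apply, ← map_mul]
  exact congrArg c.ρ (Subtype.ext h)

/-- `ρ y = 0 → χx y = 0` on the local ring. -/
theorem χx_of_ρx (y : X.Bx) (hy : X.ρx y = 0) : X.χx y = 0 := by
  obtain ⟨a, d, hd, h, hχ⟩ := exists_num_den X.B₀ X.χ y
  have h1 := X.ρx_mul_eq y a d h
  rw [hy, zero_mul] at h1
  have h2 : X.χx y = X.χ a / X.χ d := hχ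
  rw [h2, X.χ_of_ρ a h1.symm, zero_div]

/-! ### places through the point -/

theorem mem_place {P : Place K F} (hP : P ∈ X.S) {y : F} (hy : y ∈ X.Bx) :
    y ∈ P.toValuationSubring := by
  obtain ⟨a, d, hd, h⟩ := hy
  have hd0 : (d : F) ≠ 0 := coe_ne_zero_of_map_ne_zero X.B₀ X.χ hd
  have : y = (a : F) * ((d : F))⁻¹ := by
    rw [← h, mul_assoc, mul_inv_cancel₀ hd0, mul_one]
  rw [this]
  exact P.toValuationSubring.mul_mem _ _ (hP.1 a) (hP.2 d hd)

theorem ord_nonneg {P : Place K F} (hP : P ∈ X.S) {y : F} (hy : y ∈ X.Bx) : 0 ≤ P.ord y :=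
  ord_nonneg_of_mem P (X.mem_place hP hy)

/-- a unit of the local ring has neither zero nor pole at a place through the point. -/
theorem ord_eq_zero_of_χx {P : Place K F} (hP : P ∈ X.S) (y : X.Bx) (hy : X.χx y ≠ 0) :
    P.ord (y : F) = 0 := by
  have h1 := X.ord_nonneg hP y.2
  have h2 := X.ord_nonneg hP (X.inv_mem_Bx y hy)
  rw [P.ord_inv] at h2
  omega

/-- **values at a place through the point**: the value of `y ∈ B₀_x` at `P` lies in `A` and its
residue class is `χx y`. -/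
theorem exists_value (H : LHyp K F) {P : Place K F} (hP : P ∈ X.S) (y : X.Bx) :
    ∃ a : A, ((y : F) = algebraMap K F (a : K) ∨ 0 < P.ord ((y : F) - algebraMap K F (a : K))) ∧
      X.χx y = residue A a := by
  obtain ⟨k, hk⟩ := H.residue P (y : F) (X.mem_place hP y.2)
  -- `k ∈ A`
  have hkA : k ∈ A := by
    by_contra hnA
    have hinv : k⁻¹ ∈ A := (A.mem_or_inv_mem k).resolve_left hnA
    have hk0 : k ≠ 0 := fun h => hnA (h ▸ A.zero_mem)
    have hmax : (⟨k⁻¹, hinv⟩ : A) ∈ maximalIdeal A :=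
      mem_maximalIdeal_of_inv_not_mem hinv (by rwa [inv_inv])
    -- `z = 1 - k⁻¹ y` is a unit of the local ring vanishing at `P`
    set z : X.Bx := 1 - ⟨algebraMap K F ((⟨k⁻¹, hinv⟩ : A) : K), X.const_mem_Bx _⟩ * y with hz
    have hχz : X.χx z = 1 := by
      rw [hz, map_sub, map_one, map_mul, X.χx_const, (residue_eq_zero_iff _).2 hmax, zero_mul,
        sub_zero]
    have hzord := X.ord_eq_zero_of_χx hP z (by rw [hχz]; exact one_ne_zero)
    have hzF : (z : F) = -(algebraMap K F k⁻¹) * ((y : F) - algebraMap K F k) := by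
      have hkF : algebraMap K F k ≠ 0 := by rwa [ne_eq, _root_.map_eq_zero]
      show (1 : F) - algebraMap K F k⁻¹ * (y : F) = _
      rw [map_inv₀]
      field_simp
      ring
    rcases hk with hk | hk
    · rw [hk, sub_self, mul_zero] at hzF
      have : z = 0 := Subtype.ext hzF
      rw [this, map_zero] at hχz
      exact zero_ne_one hχz
    · have hne : (y : F) - algebraMap K F k ≠ 0 := by
        intro h0
        rw [h0, Place.ord_zero] at hk
        exact lt_irrefl _ hk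
      have hcne : -(algebraMap K F k⁻¹) ≠ 0 := by
        rw [neg_ne_zero, ne_eq, _root_.map_eq_zero]
        exact inv_ne_zero hk0
      rw [hzF, P.ord_mul hcne hne, ord_neg, ord_algebraMap, zero_add] at hzord
      omega
  refine ⟨⟨k, hkA⟩, hk, ?_⟩
  -- `χx (y - k) = 0`
  set w : X.Bx := y - ⟨algebraMap K F ((⟨k, hkA⟩ : A) : K), X.const_mem_Bx _⟩ with hw
  have hχw : X.χx w = 0 := by
    by_contra hne
    have hword := X.ord_eq_zero_of_χx hP w hne
    have hwF : (w : F) = (y : F) - algebraMap K F k := rfl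
    rcases hk with hk | hk
    · apply hne
      have : w = 0 := Subtype.ext (by rw [hwF, hk, sub_self]; rfl)
      rw [this, map_zero]
    · rw [hwF] at hword
      omega
  rw [hw, map_sub, X.χx_const, sub_eq_zero] at hχw
  exact hχw

end PointChart

/-! ### the hypotheses at the point -/

/-- **the local hypotheses at a closed point `x` of the chart lying under the place `Q` of the
component**: (VAL), (FRAC), (SAT), (LR), (PEEL-a). -/
structure PointData {c : HalfRed A F Fb} (X : PointChart c) (Q : Place (ResidueField A) Fb) :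
    Prop where
  /-- (VAL): `O_Q` is the reduced local ring of the model at the point. -/
  hQ : ∀ y : Fb, y ∈ Q.toValuationSubring ↔
    ∃ a d : X.B₀, X.χ d ≠ 0 ∧ y * c.ρ ⟨(d : F), X.le d.2⟩ = c.ρ ⟨(a : F), X.le a.2⟩
  /-- (FRAC): `F = Frac B₀`. -/
  frac : ∀ y : F, ∃ a b : X.B₀, (b : F) ≠ 0 ∧ y * (b : F) = (a : F)
  /-- (SAT): strong saturation of the local ring of the model at the point. -/
  sat : ∀ b : X.Bx, (b : F) ≠ 0 → ∃ (a : A) (b' : X.Bx),
    (b : F) = algebraMap K F (a : K) * (b' : F) ∧ X.ρx b' ≠ 0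
  /-- (LR): local regularity. -/
  lr : ∀ y : F, y ∈ c.O → (∀ P ∈ X.S, y ∈ P.toValuationSubring) → y ∈ X.Bx
  /-- (PEEL-a), local-ring form. -/
  peelA : ∀ P ∈ X.S, ∃ u : X.Bx, 0 < P.ord (u : F) ∧ X.ρx u ≠ 0 ∧ Q.ord (X.ρx u) = 1 ∧
    ∀ z : X.Bx, 0 < P.ord (z : F) → ∃ z' : X.Bx, (z : F) = (u : F) * (z' : F)

namespace PointData

variable {c : HalfRed A F Fb} {X : PointChart c} {Q : Place (ResidueField A) Fb}

theorem coe_ne_zero_of_ρx {y : X.Bx} (h : X.ρx y ≠ 0) : (y : F) ≠ 0 := by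
  intro h0
  apply h
  have : y = 0 := Subtype.ext h0
  rw [this, map_zero]

/-- (L2): the reductions of the local ring are regular at `Q`. -/
theorem ρx_mem (D : PointData X Q) (y : X.Bx) : X.ρx y ∈ Q.toValuationSubring := by
  obtain ⟨a, d, hd, h⟩ := y.2
  exact (D.hQ _).2 ⟨a, d, hd, X.ρx_mul_eq y a d h⟩

/-- (L3): an element of the local ring whose reduction is a unit at `Q` is a unit. -/
theorem χx_ne_zero_of_ord (D : PointData X Q) (y : X.Bx) (hρ : X.ρx y ≠ 0)
    (hord : Q.ord (X.ρx y) = 0) : X.χx y ≠ 0 := by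
  intro hχ
  obtain ⟨a, d, hd, h, hχy⟩ := exists_num_den X.B₀ X.χ y
  have hχa : X.χ a = 0 := by
    have h2 : X.χx y = X.χ a / X.χ d := hχy
    rw [hχ] at h2
    exact (div_eq_zero_iff.1 h2.symm).resolve_right hd
  have hinv : (X.ρx y)⁻¹ ∈ Q.toValuationSubring := by
    apply mem_of_ord_nonneg
    rw [Q.ord_inv, hord, neg_zero]
  obtain ⟨a', d', hd', h'⟩ := (D.hQ _).1 hinv
  have h1 := X.ρx_mul_eq y a d h
  have h3 : c.ρ ⟨((d' * d - a * a' : X.B₀) : F), X.le (d' * d - a * a').2⟩ = 0 := by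
    have e : (⟨((d' * d - a * a' : X.B₀) : F), X.le (d' * d - a * a').2⟩ : c.O) =
        ⟨(d' : F), X.le d'.2⟩ * ⟨(d : F), X.le d.2⟩ - ⟨(a : F), X.le a.2⟩ * ⟨(a' : F), X.le a'.2⟩ :=
      rfl
    rw [e, map_sub, map_mul, map_mul, ← h1, ← h']
    field_simp
    ring
  have h4 := X.χ_of_ρ _ h3
  rw [map_sub, map_mul, map_mul, hχa, zero_mul, sub_zero] at h4
  exact mul_ne_zero hd' hd h4

/-- iterated peeling in the local ring. -/
theorem peel_pow {P : Place K F} (hP : P ∈ X.S) (u : X.Bx) (hu : 0 < P.ord (u : F))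
    (hdiv : ∀ z : X.Bx, 0 < P.ord (z : F) → ∃ z' : X.Bx, (z : F) = (u : F) * (z' : F))
    (z : X.Bx) (hz : (z : F) ≠ 0) :
    ∃ (j : ℕ) (w : X.Bx), (w : F) ≠ 0 ∧ P.ord (w : F) = 0 ∧ (z : F) = (u : F) ^ j * (w : F) := by
  obtain ⟨n, hn⟩ : ∃ n : ℕ, P.ord (z : F) = n := Int.eq_ofNat_of_zero_le (X.ord_nonneg hP z.2)
  induction n using Nat.strong_induction_on generalizing z with
  | _ n ih =>
    by_cases hpos : 0 < P.ord (z : F)
    · obtain ⟨z', e⟩ := hdiv z hpos
      have hu0 : (u : F) ≠ 0 := left_ne_zero_of_mul (e ▸ hz)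
      have hz'0 : (z' : F) ≠ 0 := right_ne_zero_of_mul (e ▸ hz)
      have hord : P.ord (z : F) = P.ord (u : F) + P.ord (z' : F) := by
        rw [e, P.ord_mul hu0 hz'0]
      obtain ⟨m, hm⟩ : ∃ m : ℕ, P.ord (z' : F) = m :=
        Int.eq_ofNat_of_zero_le (X.ord_nonneg hP z'.2)
      have hmn : m < n := by omega
      obtain ⟨j, w, hw0, hw, e₂⟩ := ih m hmn z' hz'0 hm
      refine ⟨j + 1, w, hw0, hw, ?_⟩
      rw [e, e₂, pow_succ]
      ring
    · refine ⟨0, z, hz, ?_, by rw [pow_zero, one_mul]⟩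
      have := X.ord_nonneg hP z.2
      omega

/-- the local parameter has order one at `P`. -/
theorem ord_eq_one (D : PointData X Q) {P : Place K F} (hP : P ∈ X.S) (u : X.Bx)
    (hu : 0 < P.ord (u : F))
    (hdiv : ∀ z : X.Bx, 0 < P.ord (z : F) → ∃ z' : X.Bx, (z : F) = (u : F) * (z' : F)) :
    P.ord (u : F) = 1 := by
  obtain ⟨π, hπ⟩ := IsDiscreteValuationRing.exists_irreducible P.toValuationSubring
  have hπ1 : P.ord (π : F) = 1 := P.ord_coe_irreducible hπ
  have hπF : (π : F) ≠ 0 := by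
    intro h0
    rw [h0, Place.ord_zero] at hπ1
    exact zero_ne_one hπ1
  obtain ⟨a, b, hb0, e⟩ := D.frac (π : F)
  have haF : (a : F) ≠ 0 := by
    rw [← e]
    exact mul_ne_zero hπF hb0
  obtain ⟨j, w₁, hw₁0, hw₁, e₁⟩ := peel_pow hP u hu hdiv ⟨(a : F), X.B₀_le_Bx a.2⟩ haF
  obtain ⟨k, w₂, hw₂0, hw₂, e₂⟩ := peel_pow hP u hu hdiv ⟨(b : F), X.B₀_le_Bx b.2⟩ hb0
  have e₁' : (a : F) = (u : F) ^ j * (w₁ : F) := e₁
  have e₂' : (b : F) = (u : F) ^ k * (w₂ : F) := e₂
  have huj : (u : F) ^ j ≠ 0 := left_ne_zero_of_mul (e₁' ▸ haF)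
  have huk : (u : F) ^ k ≠ 0 := left_ne_zero_of_mul (e₂' ▸ hb0)
  have ha : P.ord (a : F) = j * P.ord (u : F) := by
    rw [e₁', P.ord_mul huj hw₁0, hw₁, add_zero, ord_pow]
  have hb : P.ord (b : F) = k * P.ord (u : F) := by
    rw [e₂', P.ord_mul huk hw₂0, hw₂, add_zero, ord_pow]
  have hord := congrArg P.ord e
  rw [P.ord_mul hπF hb0, hπ1, ha, hb] at hord
  have hdvd : P.ord (u : F) ∣ 1 := ⟨(j : ℤ) - k, by rw [mul_sub]; linarith [mul_comm (P.ord (u : F)) (j : ℤ), mul_comm (P.ord (u : F)) (k : ℤ)]⟩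
  exact Int.eq_one_of_dvd_one hu.le hdvd

/-- the local parameter at `P` has no other zero through the point. -/
theorem eq_of_ord_pos (H : LHyp K F) (D : PointData X Q) {P P' : Place K F} (hP : P ∈ X.S)
    (hP' : P' ∈ X.S) (u : X.Bx) (hu : 0 < P.ord (u : F))
    (hdiv : ∀ z : X.Bx, 0 < P.ord (z : F) → ∃ z' : X.Bx, (z : F) = (u : F) * (z' : F))
    (hu' : 0 < P'.ord (u : F)) : P' = P := by
  have huF : (u : F) ≠ 0 := by
    intro h0
    rw [h0, Place.ord_zero] at hu
    exact lt_irrefl _ hu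
  -- every element of the local ring vanishing at `P` vanishes at `P'`
  have hA : ∀ z : X.Bx, 0 < P.ord (z : F) → 0 < P'.ord (z : F) := by
    intro z hz
    have hz0 : (z : F) ≠ 0 := by
      intro h0
      rw [h0, Place.ord_zero] at hz
      exact lt_irrefl _ hz
    obtain ⟨z', e⟩ := hdiv z hz
    have hz'0 : (z' : F) ≠ 0 := right_ne_zero_of_mul (e ▸ hz0)
    have h1 := X.ord_nonneg hP' z'.2
    rw [e, P'.ord_mul huF hz'0]
    omega
  -- units at `P` are units at `P'`
  have hB : ∀ w : X.Bx, (w : F) ≠ 0 → P.ord (w : F) = 0 → P'.ord (w : F) = 0 := by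
    intro w hw0 hw
    obtain ⟨a, ha, -⟩ := X.exists_value H hP w
    rcases ha with ha | ha
    · rw [ha, ord_algebraMap]
    · set v : X.Bx := w - ⟨algebraMap K F (a : K), X.const_mem_Bx a⟩ with hv
      have hvF : (v : F) = (w : F) - algebraMap K F (a : K) := rfl
      have hvpos : 0 < P'.ord (v : F) := hA v (by rw [hvF]; exact ha)
      have hcne : algebraMap K F (a : K) ≠ 0 := by
        intro h0
        rw [h0, sub_zero] at ha
        omega
      have hw' : (w : F) = algebraMap K F (a : K) + (v : F) := by rw [hvF]; ring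
      rw [hw', ord_add_eq_of_lt P' hcne (by rw [ord_algebraMap]; exact hvpos), ord_algebraMap]
  -- `O_P ≤ O_{P'}`
  have hle : P.toValuationSubring ≤ P'.toValuationSubring := by
    intro f hf
    rcases eq_or_ne f 0 with rfl | hf0
    · exact zero_mem _
    obtain ⟨a, b, hb0, e⟩ := D.frac f
    have haF : (a : F) ≠ 0 := by
      rw [← e]
      exact mul_ne_zero hf0 hb0
    obtain ⟨j, w₁, hw₁0, hw₁, e₁⟩ := peel_pow hP u hu hdiv ⟨(a : F), X.B₀_le_Bx a.2⟩ haF
    obtain ⟨k, w₂, hw₂0, hw₂, e₂⟩ := peel_pow hP u hu hdiv ⟨(b : F), X.B₀_le_Bx b.2⟩ hb0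
    have e₁' : (a : F) = (u : F) ^ j * (w₁ : F) := e₁
    have e₂' : (b : F) = (u : F) ^ k * (w₂ : F) := e₂
    have huj : (u : F) ^ j ≠ 0 := left_ne_zero_of_mul (e₁' ▸ haF)
    have huk : (u : F) ^ k ≠ 0 := left_ne_zero_of_mul (e₂' ▸ hb0)
    have key : ∀ R : Place K F, R.ord (w₁ : F) = 0 → R.ord (w₂ : F) = 0 →
        R.ord f + k * R.ord (u : F) = j * R.ord (u : F) := by
      intro R h1 h2
      have ha : R.ord (a : F) = j * R.ord (u : F) := by
        rw [e₁', R.ord_mul huj hw₁0, h1, add_zero, ord_pow]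
      have hb : R.ord (b : F) = k * R.ord (u : F) := by
        rw [e₂', R.ord_mul huk hw₂0, h2, add_zero, ord_pow]
      have hord := congrArg R.ord e
      rw [R.ord_mul hf0 hb0, ha, hb] at hord
      exact hord
    have keyP := key P hw₁ hw₂
    have keyP' := key P' (hB w₁ hw₁0 hw₁) (hB w₂ hw₂0 hw₂)
    have hfP : 0 ≤ P.ord f := ord_nonneg_of_mem P hf
    apply mem_of_ord_nonneg
    have hjk : (k : ℤ) ≤ j := by
      by_contra hlt
      rw [not_le] at hlt
      have : (j : ℤ) * P.ord (u : F) < k * P.ord (u : F) := mul_lt_mul_of_pos_right hlt hu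
      omega
    have : (k : ℤ) * P'.ord (u : F) ≤ j * P'.ord (u : F) :=
      mul_le_mul_of_nonneg_right hjk hu'.le
    omega
  exact Place.ext
    (Fermat.Agent.ES.HECKE.FundIdentity19.valuationSubring_eq_of_le P P'.toValuationSubring hle
      P'.ne_top')

/-- (L4): every element of the Gauss ring with nonzero reduction is a fraction of elements of the
local ring with nonzero reductions. -/
theorem exists_frac (D : PointData X Q) (y : c.O) (hy : c.ρ y ≠ 0) :
    ∃ a d : X.Bx, X.ρx a ≠ 0 ∧ X.ρx d ≠ 0 ∧ (y : F) * (d : F) = (a : F) := by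
  have hy0 : (y : F) ≠ 0 := by
    intro h0
    apply hy
    have : y = 0 := Subtype.ext h0
    rw [this, map_zero]
  obtain ⟨a₀, b, hb0, e⟩ := D.frac (y : F)
  have ha₀F : (a₀ : F) ≠ 0 := by
    rw [← e]
    exact mul_ne_zero hy0 hb0
  obtain ⟨α, b', eb, hb'⟩ := D.sat ⟨(b : F), X.B₀_le_Bx b.2⟩ hb0
  obtain ⟨α', a', ea, ha'⟩ := D.sat ⟨(a₀ : F), X.B₀_le_Bx a₀.2⟩ ha₀F
  have eb' : (b : F) = algebraMap K F (α : K) * (b' : F) := eb
  have ea' : (a₀ : F) = algebraMap K F (α' : K) * (a' : F) := ea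
  have hα0 : (α : K) ≠ 0 := by
    intro h0
    apply hb0
    rw [eb', h0, map_zero, zero_mul]
  have hα'0 : (α' : K) ≠ 0 := by
    intro h0
    apply ha₀F
    rw [ea', h0, map_zero, zero_mul]
  have hαF : algebraMap K F (α : K) ≠ 0 := by rwa [ne_eq, _root_.map_eq_zero]
  -- `y b' = const (α'/α) a'`
  have hyb' : (y : F) * (b' : F) ∈ c.O := c.O.mul_mem y.2 (X.Bx_le b'.2)
  have hρyb' : c.ρ ⟨(y : F) * (b' : F), hyb'⟩ ≠ 0 := by
    have : (⟨(y : F) * (b' : F), hyb'⟩ : c.O) = y * ⟨(b' : F), X.Bx_le b'.2⟩ := rfl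
    rw [this, map_mul]
    exact mul_ne_zero hy hb'
  have key : (y : F) * (b' : F) = algebraMap K F ((α' : K) / (α : K)) * (a' : F) := by
    have h1 : algebraMap K F (α : K) * ((y : F) * (b' : F)) =
        algebraMap K F (α' : K) * (a' : F) := by
      rw [← ea', ← e, eb']
      ring
    rw [map_div₀, div_mul_eq_mul_div, eq_div_iff hαF, ← h1]
    ring
  by_cases ht : (α' : K) / (α : K) ∈ A
  · refine ⟨⟨algebraMap K F ((⟨_, ht⟩ : A) : K), X.const_mem_Bx _⟩ * a', b', ?_, hb', ?_⟩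
    · have : X.ρx (⟨algebraMap K F ((⟨_, ht⟩ : A) : K), X.const_mem_Bx _⟩ * a') =
          c.ρ ⟨(y : F) * (b' : F), hyb'⟩ := by
        rw [PointChart.ρx_apply]
        congr 1
        exact Subtype.ext key.symm
      rw [this]
      exact hρyb'
    · exact key
  · exfalso
    have hinv : ((α' : K) / (α : K))⁻¹ ∈ A := (A.mem_or_inv_mem _).resolve_left ht
    have hmax : (⟨((α' : K) / (α : K))⁻¹, hinv⟩ : A) ∈ maximalIdeal A :=
      mem_maximalIdeal_of_inv_not_mem hinv (by rwa [inv_inv])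
    have ht0 : (α' : K) / (α : K) ≠ 0 := div_ne_zero hα'0 hα0
    have e2 : (a' : F) = algebraMap K F ((α' : K) / (α : K))⁻¹ * ((y : F) * (b' : F)) := by
      rw [key, ← mul_assoc, ← map_mul, inv_mul_cancel₀ ht0, map_one, one_mul]
    apply ha'
    have h3 := ρ_mul_const c hinv hyb'
    rw [(residue_eq_zero_iff _).2 hmax, map_zero, zero_mul] at h3
    rw [PointChart.ρx_apply, ← h3]
    congr 1
    exact Subtype.ext e2

/-- (L5): local existence of a zero. -/
theorem exists_zero (D : PointData X Q) (a : X.Bx) (hρ : X.ρx a ≠ 0) (hpos : 0 < Q.ord (X.ρx a)) :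
    ∃ P ∈ X.S, 0 < P.ord (a : F) := by
  by_contra hno'
  have hno : ∀ P ∈ X.S, P.ord (a : F) ≤ 0 := fun P hP => not_lt.1 fun h => hno' ⟨P, hP, h⟩
  have ha0 : (a : F) ≠ 0 := coe_ne_zero_of_ρx hρ
  have hinvO : ((a : F))⁻¹ ∈ c.O := Psi3F.inv_mem_of_ρ_ne_zero c (X.Bx_le a.2) hρ
  have hinvB : ((a : F))⁻¹ ∈ X.Bx := by
    apply D.lr _ hinvO
    intro P hP
    apply mem_of_ord_nonneg
    have h1 := X.ord_nonneg hP a.2
    have h2 := hno P hP
    rw [P.ord_inv]
    omega
  have h3 := ord_nonneg_of_mem Q (D.ρx_mem ⟨_, hinvB⟩)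
  have h4 : X.ρx ⟨((a : F))⁻¹, hinvB⟩ = (X.ρx a)⁻¹ := Psi3F.ρ_inv c (X.Bx_le a.2) hρ
  rw [h4, Q.ord_inv] at h3
  omega

end PointData

/-- **the local data of `PushPeel0` at the point.** -/
def localPeel (H : LHyp K F) {c : HalfRed A F Fb} (X : PointChart c)
    {Q : Place (ResidueField A) Fb} (D : PointData X Q) : LocalPeel c X.S Q where
  B := X.Bx
  B_le := X.Bx_le
  ord_nonneg P hP b hb := X.ord_nonneg hP hb
  ord_ρ_nonneg b hb := ord_nonneg_of_mem Q (D.ρx_mem ⟨b, hb⟩)
  inv_mem b hb hρ hord := X.inv_mem_Bx ⟨b, hb⟩ (D.χx_ne_zero_of_ord ⟨b, hb⟩ hρ hord)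
  frac y hy := by
    obtain ⟨a, d, ha, hd, e⟩ := D.exists_frac y hy
    exact ⟨(a : F), (d : F), a.2, d.2, ha, hd, e⟩
  exists_zero a ha hρ hpos := D.exists_zero ⟨a, ha⟩ hρ hpos
  peel P hP := by
    obtain ⟨u, hu, hρu, hQu, hdiv⟩ := D.peelA P hP
    refine ⟨(u : F), u.2, D.ord_eq_one hP u hu hdiv, hρu, hQu, ?_, ?_⟩
    · intro P' hP' hne
      by_contra h0
      have h1 := X.ord_nonneg hP' u.2
      exact hne (PointData.eq_of_ord_pos H D hP hP' u hu hdiv (by omega))
    · intro a ha _ hpos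
      obtain ⟨z', e⟩ := hdiv ⟨a, ha⟩ hpos
      exact ⟨(z' : F), z'.2, e⟩

/-- finiteness of divisors, from `LHyp.principal`. -/
theorem finDiv_of_lhyp (H : LHyp K F) : FinDiv K F := by
  intro f hf
  obtain ⟨D, hD, -⟩ := H.principal f hf
  refine D.support.finite_toSet.subset ?_
  intro P hP
  rw [Finset.mem_coe, Finsupp.mem_support_iff, hD]
  exact hP

/-- **`SidePush` from the local hypotheses at every smooth point**: if above every `Q` with
`Sm Q` there is a closed point `x` of an `A`-level chart with `PointData` and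
`{P | r P = some Q}` = the places through `x`, then `SidePush c r Sm` (= the shape of the fields
`push₁`, `push₂` of `NodalCtx1.NodalRed`). -/
theorem sidePush_of_pointData (H : LHyp K F) (c : HalfRed A F Fb)
    (r : Place K F → Option (Place (ResidueField A) Fb))
    (Sm : Place (ResidueField A) Fb → Prop)
    (h : ∀ Q, Sm Q → ∃ X : PointChart c, PointData X Q ∧ ∀ P, r P = some Q ↔ P ∈ X.S) :
    SidePush c r Sm := by
  refine sidePush_of_localPeel (finDiv_of_lhyp H) c r Sm ?_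
  intro Q hQ
  obtain ⟨X, D, hS⟩ := h Q hQ
  have hset : {P | r P = some Q} = X.S := Set.ext hS
  rw [hset]
  exact ⟨localPeel H X D⟩

end Fermat.Agent.T33.PushLoc9

end
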