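/-
Programme T (S33), chapter (e) "N34 over ℚ̄", WIRING of the blocks (LR)/GLUE (helper5) with the
blocks (R) (helper1, `T33/NodalPlaces1B`) and PUSH (helper9, `T33/PushLoc9A`).

Generic part (`K`, `A`, `F` arbitrary, `H : LHyp K F`):
* `centred_of_thru` / `thru_of_centred` : for a chart `C : NodalPlaces1.Chart c₁ c₂` and a point
  `χ : C.Pt`, a place `P` is centred at `χ` (all elements of the chart take at `P` values in `A`
  reducing to `χ`) iff it passes through `ker χ` (`C.B ⊆ O_P` and `χ b ≠ 0 → b⁻¹ ∈ O_P`; this is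
  `LocalReg5.Thru` / `PushLoc9.PointChart.S`).

Concrete part (`h : LevelHyp p M' A`, level `M'p`, `c1 h`, `c2 h`):
* `subringHom` : transport of characters between a subring of `Fbar (M'p)` and the chart
  `chart ↥A s` with the same elements;
* `glue_chart` : `GlueInst5.glue_at` for a `Chart` whose ring is `chart ↥A s`, a point `χ` with its
  two branches `Val₁ χ Q₁`, `Val₂ χ Q₂`, and regularity at the places CENTRED at `χ`;
* **`hglue_twoCharts`** : the hypothesis `hglue` of `NodalPlaces1.RawRed.mkNodalRed` for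
  `T.rawRed`, `T : TwoCharts (c1 h) (c2 h)` with `C0.B = chart ↥A t`, `C1.B = chart ↥A t⁻¹`;
* **`lr_pointChart₁`**, **`lr_pointChart₂`** : the field `lr` of `PushLoc9.PointData` (local
  regularity at a one-branch point) for a `PointChart` whose ring is `chart ↥A s`.
-/
import Mathlib
import Fermat.Agent.T33.GlueInst5
import Fermat.Agent.T33.NodalPlaces1B
import Fermat.Agent.T33.PushLoc9A

set_option autoImplicit false
set_option linter.unusedSectionVars false
set_option linter.style.haveILetI false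
set_option linter.unusedVariables false
set_option synthInstance.maxHeartbeats 400000

noncomputable section

namespace Fermat.Agent.T33.GlueWire5

open AlgebraicCurve IsLocalRing
open Fermat.Agent.T33.NodalCtx1 Fermat.Agent.T33.NodalPlaces1 Fermat.Agent.T33.PushLoc9
  Fermat.Agent.RR.LSpace Fermat.Agent.X0.FF

/-! ### centred ⟺ through -/

section Generic

variable {K : Type*} [Field K] {A : ValuationSubring K}
variable {F : Type*} [Field F] [Algebra K F]
variable {Fb₁ Fb₂ : Type*} [Field Fb₁] [Field Fb₂]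
  [Algebra (ResidueField A) Fb₁] [Algebra (ResidueField A) Fb₂]
variable {c₁ : HalfRed A F Fb₁} {c₂ : HalfRed A F Fb₂}

/-- a place centred at `χ` passes through `ker χ`. -/
theorem thru_of_centred (C : Chart c₁ c₂) (χ : C.Pt) (P : Place K F) (h : C.Centred P χ) :
    (∀ b : C.B, (b : F) ∈ P.toValuationSubring) ∧
      ∀ b : C.B, χ b ≠ 0 → ((b : F))⁻¹ ∈ P.toValuationSubring := by
  have hmem : ∀ b : C.B, (b : F) ∈ P.toValuationSubring := by
    intro b
    obtain ⟨a, ha, -⟩ := h b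
    rcases ha with ha | ha
    · rw [ha]
      exact mem_of_ord_nonneg P (by rw [ord_algebraMap])
    · have h1 : (b : F) = ((b : F) - algebraMap K F (a : K)) + algebraMap K F (a : K) := by ring
      rw [h1]
      exact P.toValuationSubring.add_mem _ _ (mem_of_ord_nonneg P ha.le)
        (mem_of_ord_nonneg P (by rw [ord_algebraMap]))
  refine ⟨hmem, fun b hb => ?_⟩
  obtain ⟨a, ha, hχ⟩ := h b
  have ha0 : (a : K) ≠ 0 := by
    intro h0
    apply hb
    rw [hχ]
    have : a = 0 := Subtype.ext h0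
    rw [this, map_zero]
  have hc0 : algebraMap K F (a : K) ≠ 0 := by rwa [Ne, map_eq_zero]
  apply mem_of_ord_nonneg P
  rw [P.ord_inv]
  rcases ha with ha | ha
  · rw [ha, ord_algebraMap, neg_zero]
  · have h1 : (b : F) = algebraMap K F (a : K) + ((b : F) - algebraMap K F (a : K)) := by ring
    have hlt : P.ord (algebraMap K F (a : K)) < P.ord ((b : F) - algebraMap K F (a : K)) := by
      rw [ord_algebraMap]; exact ha
    have h2 := ord_add_eq_of_lt P hc0 hlt
    rw [← h1, ord_algebraMap] at h2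
    rw [h2, neg_zero]

/-- **a place through `ker χ` is centred at `χ`.** -/
theorem centred_of_thru (H : LHyp K F) (C : Chart c₁ c₂) (χ : C.Pt) (P : Place K F)
    (h1 : ∀ b : C.B, (b : F) ∈ P.toValuationSubring)
    (h2 : ∀ b : C.B, χ b ≠ 0 → ((b : F))⁻¹ ∈ P.toValuationSubring) : C.Centred P χ := by
  intro b
  rcases C.on_total χ with hon | hon
  · let X : PointChart c₁ :=
      { B₀ := C.B
        le := C.le₁
        const_mem := C.algebraMap_mem
        χ := χ.1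
        χ_const := χ.2
        χ_of_ρ := hon }
    have hP : P ∈ X.S := ⟨h1, h2⟩
    obtain ⟨a, ha, hχ⟩ := X.exists_value H hP ⟨(b : F), X.B₀_le_Bx b.2⟩
    refine ⟨a, ha, ?_⟩
    rw [← hχ]
    exact (X.χx_coe b).symm
  · let X : PointChart c₂ :=
      { B₀ := C.B
        le := C.le₂
        const_mem := C.algebraMap_mem
        χ := χ.1
        χ_const := χ.2
        χ_of_ρ := hon }
    have hP : P ∈ X.S := ⟨h1, h2⟩
    obtain ⟨a, ha, hχ⟩ := X.exists_value H hP ⟨(b : F), X.B₀_le_Bx b.2⟩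
    refine ⟨a, ha, ?_⟩
    rw [← hχ]
    exact (X.χx_coe b).symm

/-- a function with a positive order at `P` has the value `0` there. -/
theorem hasValue_zero_of_pos {P : Place K F} {f : F} (h : 0 < P.ord f) : HasValue P f 0 := by
  right
  rwa [map_zero, sub_zero]

end Generic

/-! ### transport between a subring and a subalgebra with the same elements -/

section Transport

variable {F : Type*} [Field F] {RA : Type*} [CommRing RA] [Algebra RA F]

/-- the identity `BA → B` for a subring `B` with the same elements as the subalgebra `BA`. -/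
def subringHom (B : Subring F) (BA : Subalgebra RA F) (hB : ∀ x, x ∈ B ↔ x ∈ BA) : BA →+* B where
  toFun b := ⟨(b : F), (hB _).2 b.2⟩
  map_one' := Subtype.ext rfl
  map_mul' a b := Subtype.ext rfl
  map_zero' := Subtype.ext rfl
  map_add' a b := Subtype.ext rfl

@[simp] theorem coe_subringHom (B : Subring F) (BA : Subalgebra RA F)
    (hB : ∀ x, x ∈ B ↔ x ∈ BA) (b : BA) : ((subringHom B BA hB b : B) : F) = (b : F) := rfl

end Transport

/-! ### the level `M'p` -/

section Concrete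

open HahnSeries ModularCurve
open Fermat.Agent.RED.Interface4 Fermat.Agent.RED.PUR.ChartGeneric22
  Fermat.Agent.RED.BASE.EtaQuot12
  Fermat.Agent.ES.RED Fermat.Agent.ES.N34.ModelN4
  Fermat.Agent.T33.NodalCurve6 Fermat.Agent.T33.NodalHalf4
  Fermat.Agent.T33.LocalReg5 Fermat.Agent.T33.LocalReg5C Fermat.Agent.T33.NodalLift6
  Fermat.Agent.T33.GlueInst5

variable {p M' : ℕ} [NeZero M'] [NeZero p] {A : ValuationSubring Qbar}

/-- **`glue` at a point of a chart, in the vocabulary of `NodalPlaces1B`.** -/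
theorem glue_chart (h : LevelHyp p M' A) (H : LHyp Qbar (Fbar (M' * p))) (s : Fbar (M' * p))
    (hmodel : Large (ChartModelAt p M' A s))
    (C : Chart (c1 h) (c2 h)) (hB : ∀ x, x ∈ C.B ↔ x ∈ chart ↥A s) (χ : C.Pt)
    (Q₁ Q₂ : Place (Setup8.kA A) (Fb A M')) (hv1 : C.Val₁ χ Q₁) (hv2 : C.Val₂ χ Q₂)
    (y : Fbar (M' * p)) (h₁ : y ∈ (c1 h).O) (h₂ : y ∈ (c2 h).O)
    (hreg : ∀ P : Place Qbar (Fbar (M' * p)), C.Centred P χ → y = 0 ∨ 0 ≤ P.ord y) :
    ∃ b : Setup8.kA A,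
      (c1 h).ρ ⟨y, h₁⟩ - algebraMap (Setup8.kA A) (Fb A M') b ∈ vanishing Q₁ ∧
      (c2 h).ρ ⟨y, h₂⟩ - algebraMap (Setup8.kA A) (Fb A M') b ∈ vanishing Q₂ := by
  have hB1 : ∀ b ∈ chart ↥A s, b ∈ (c1 h).O := fun b hb => C.le₁ ((hB b).2 hb)
  have hB2 : ∀ b ∈ chart ↥A s, b ∈ (c2 h).O := fun b hb => C.le₂ ((hB b).2 hb)
  refine glue_at h s hmodel hB1 hB2 (χ.1.comp (subringHom C.B (chart ↥A s) hB)) Q₁ Q₂
    (fun b => hv1 (subringHom C.B (chart ↥A s) hB b))
    (fun b => hv2 (subringHom C.B (chart ↥A s) hB b)) y h₁ h₂ ?_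
  rintro P ⟨hP1, hP2⟩
  apply hreg P
  apply centred_of_thru H C χ P
  · intro b
    exact hP1 ⟨(b : Fbar (M' * p)), (hB _).1 b.2⟩
  · intro b hb
    refine hP2 ⟨(b : Fbar (M' * p)), (hB _).1 b.2⟩ ?_
    rw [RingHom.mem_ker]
    exact hb

/-- a place centred on the chart `1` at a point with `t⁻¹ ↦ 0` is not centred on the chart `0`. -/
theorem not_fin0_of_centred₁ {K : Type*} [Field K] {A : ValuationSubring K}
    {F : Type*} [Field F] [Algebra K F] {Fb₁ Fb₂ : Type*} [Field Fb₁] [Field Fb₂]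
    [Algebra (ResidueField A) Fb₁] [Algebra (ResidueField A) Fb₂]
    {c₁ : HalfRed A F Fb₁} {c₂ : HalfRed A F Fb₂} (T : TwoCharts c₁ c₂)
    {P : Place K F} {χ : T.C1.Pt} (hχ : T.C1.Centred P χ) (hs : χ T.s1 = 0) : ¬ T.Fin0 P := by
  rintro ⟨a, ha⟩
  -- `b = 1 - a t⁻¹ = t⁻¹ (t - a)` has `χ b = 1` but vanishes at `P`
  set b : T.C1.B := 1 - T.C1.const a * T.s1 with hb
  have hχb : χ b = 1 := by
    rw [hb, map_sub, map_one, map_mul, hs, mul_zero, sub_zero]
  obtain ⟨a'', ha'', hχ''⟩ := hχ b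
  have hbF : (b : F) = T.t⁻¹ * (T.t - algebraMap K F (a : K)) := by
    show (1 : F) - algebraMap K F (a : K) * T.t⁻¹ = _
    have := T.t_ne
    field_simp
  have ha''1 : residue A a'' = 1 := by rw [← hχ'', hχb]
  have ha''0 : (a'' : K) ≠ 0 := by
    intro h0
    have : a'' = 0 := Subtype.ext h0
    rw [this, map_zero] at ha''1
    exact zero_ne_one ha''1
  -- the value of `b` at `P` is `0`
  have hval0 : HasValue P (b : F) 0 := by
    rcases ha with ha | ha
    · left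
      rw [hbF, ha, sub_self, mul_zero, map_zero]
    · obtain ⟨a', ha', -⟩ := hχ T.s1
      have hsmem : T.t⁻¹ ∈ P.toValuationSubring := by
        rcases ha' with ha' | ha'
        · have : ((T.s1 : T.C1.B) : F) = T.t⁻¹ := rfl
          rw [← this, ha']
          exact mem_of_ord_nonneg P (by rw [ord_algebraMap])
        · have h1 : T.t⁻¹ = (((T.s1 : T.C1.B) : F) - algebraMap K F (a' : K)) +
              algebraMap K F (a' : K) := by
            show T.t⁻¹ = (T.t⁻¹ - algebraMap K F (a' : K)) + algebraMap K F (a' : K)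
            ring
          rw [h1]
          exact P.toValuationSubring.add_mem _ _ (mem_of_ord_nonneg P ha'.le)
            (mem_of_ord_nonneg P (by rw [ord_algebraMap]))
      have hne : T.t - algebraMap K F (a : K) ≠ 0 := by
        intro h0
        rw [h0, Place.ord_zero] at ha
        exact lt_irrefl _ ha
      apply hasValue_zero_of_pos
      rw [hbF, P.ord_mul (inv_ne_zero T.t_ne) hne]
      have := ord_nonneg_of_mem P hsmem
      omega
  exact ha''0 (ha''.unique hval0)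

/-- **the hypothesis `hglue` of `NodalPlaces1.RawRed.mkNodalRed` for the partial reductions of a
two-chart model whose charts are `chart ↥A t`, `chart ↥A t⁻¹`.** -/
theorem hglue_twoCharts (h : LevelHyp p M' A) (H : LHyp Qbar (Fbar (M' * p)))
    (t : Fbar (M' * p)) (htq : ((t : Fbar (M' * p)) : LaurentSeries Qbar) = tq Qbar 4 8)
    (T : TwoCharts (c1 h) (c2 h))
    (hB0 : ∀ x, x ∈ T.C0.B ↔ x ∈ chart ↥A t) (hB1 : ∀ x, x ∈ T.C1.B ↔ x ∈ chart ↥A t⁻¹)
    (P₀ : Place Qbar (Fbar (M' * p))) (Q₁ Q₂ : Place (Setup8.kA A) (Fb A M'))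
    (hr1 : T.rawRed.r₁ P₀ = some Q₁) (hr2 : T.rawRed.r₂ P₀ = some Q₂)
    (y : Fbar (M' * p)) (h₁ : y ∈ (c1 h).O) (h₂ : y ∈ (c2 h).O)
    (hpole : ∀ P : Place Qbar (Fbar (M' * p)), T.rawRed.r₁ P = some Q₁ → y = 0 ∨ 0 ≤ P.ord y) :
    ∃ b : Setup8.kA A,
      (c1 h).ρ ⟨y, h₁⟩ - algebraMap (Setup8.kA A) (Fb A M') b ∈ vanishing Q₁ ∧
      (c2 h).ρ ⟨y, h₂⟩ - algebraMap (Setup8.kA A) (Fb A M') b ∈ vanishing Q₂ := by
  rw [TwoCharts.rawRed_r₁] at hr1 hpole
  rw [TwoCharts.rawRed_r₂] at hr2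
  have hR1 := (T.r₁_eq_some_iff P₀ Q₁).1 hr1
  have hR2 := (T.r₂_eq_some_iff P₀ Q₂).1 hr2
  by_cases hP : T.Fin0 P₀
  · obtain ⟨χ, hχ⟩ := T.centred₀ P₀ hP
    have hv1 := (T.red₁_iff₀ hP hχ Q₁).1 hR1
    have hv2 := (T.red₂_iff₀ hP hχ Q₂).1 hR2
    refine glue_chart h H t (large_chartModel_zero h t htq) T.C0 hB0 χ Q₁ Q₂ hv1 hv2 y h₁ h₂ ?_
    intro P hPχ
    apply hpole P
    rw [T.r₁_eq_some_iff₀ hv1 P]
    refine ⟨?_, hPχ⟩
    obtain ⟨a, ha, -⟩ := hPχ T.t0
    exact ⟨a, ha⟩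
  · obtain ⟨χ, hχ, hs⟩ := T.centred₁' P₀ hP
    have hv1 := (T.red₁_iff₁ hP hχ hs Q₁).1 hR1
    have hv2 := (T.red₂_iff₁ hP hχ hs Q₂).1 hR2
    refine glue_chart h H t⁻¹ (large_chartModel_one h t htq) T.C1 hB1 χ Q₁ Q₂ hv1 hv2 y h₁ h₂ ?_
    intro P hPχ
    apply hpole P
    rw [T.r₁_eq_some_iff₁ hs hv1 P]
    exact ⟨not_fin0_of_centred₁ T hPχ hs, hPχ⟩

/-- **the field `lr` of `PushLoc9.PointData` at a point of the FIRST component off the second**:
local regularity in the local ring `X.Bx` of a `PointChart (c1 h)` whose ring is `chart ↥A s`. -/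
theorem lr_pointChart₁ (h : LevelHyp p M' A) (s : Fbar (M' * p))
    (hmodel : Large (ChartModelAt p M' A s))
    (X : PointChart (c1 h)) (hB : ∀ x, x ∈ X.B₀ ↔ x ∈ chart ↥A s)
    (hoff : ∃ e : X.B₀, X.χ e ≠ 0 ∧ ∃ he : (e : Fbar (M' * p)) ∈ (c2 h).O,
      (c2 h).ρ ⟨(e : Fbar (M' * p)), he⟩ = 0)
    (y : Fbar (M' * p)) (hy : y ∈ (c1 h).O)
    (hreg : ∀ P ∈ X.S, y ∈ P.toValuationSubring) : y ∈ X.Bx := by
  set χ' : ↥(chart ↥A s) →+* Setup8.kA A := X.χ.comp (subringHom X.B₀ (chart ↥A s) hB) with hχ'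
  haveI : (RingHom.ker χ').IsPrime := RingHom.ker_isPrime χ'
  obtain ⟨e, heχ, heO, heρ⟩ := hoff
  have hG2 : y ∈ (c2 h).O ∨ OffA (c2 h) (chart ↥A s) (RingHom.ker χ') := by
    refine Or.inr ⟨⟨(e : Fbar (M' * p)), (hB _).1 e.2⟩, ?_, heO, heρ⟩
    rw [RingHom.mem_ker]
    exact heχ
  obtain ⟨a, d, hd, had⟩ := localReg_chart h s hmodel (RingHom.ker χ') y (Or.inl hy) hG2 (by
    intro P hP hthru
    apply hP
    apply hreg P
    refine ⟨fun b => hthru.1 ⟨(b : Fbar (M' * p)), (hB _).1 b.2⟩, fun b hb => ?_⟩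
    refine hthru.2 ⟨(b : Fbar (M' * p)), (hB _).1 b.2⟩ ?_
    rw [RingHom.mem_ker]
    exact hb)
  refine ⟨subringHom X.B₀ (chart ↥A s) hB a, subringHom X.B₀ (chart ↥A s) hB d, ?_, had⟩
  intro h0
  exact hd (RingHom.mem_ker.2 h0)

/-- **the field `lr` of `PushLoc9.PointData` at a point of the SECOND component off the first.** -/
theorem lr_pointChart₂ (h : LevelHyp p M' A) (s : Fbar (M' * p))
    (hmodel : Large (ChartModelAt p M' A s))
    (X : PointChart (c2 h)) (hB : ∀ x, x ∈ X.B₀ ↔ x ∈ chart ↥A s)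
    (hoff : ∃ e : X.B₀, X.χ e ≠ 0 ∧ ∃ he : (e : Fbar (M' * p)) ∈ (c1 h).O,
      (c1 h).ρ ⟨(e : Fbar (M' * p)), he⟩ = 0)
    (y : Fbar (M' * p)) (hy : y ∈ (c2 h).O)
    (hreg : ∀ P ∈ X.S, y ∈ P.toValuationSubring) : y ∈ X.Bx := by
  set χ' : ↥(chart ↥A s) →+* Setup8.kA A := X.χ.comp (subringHom X.B₀ (chart ↥A s) hB) with hχ'
  haveI : (RingHom.ker χ').IsPrime := RingHom.ker_isPrime χ'
  obtain ⟨e, heχ, heO, heρ⟩ := hoff
  have hG1 : y ∈ (c1 h).O ∨ OffA (c1 h) (chart ↥A s) (RingHom.ker χ') := by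
    refine Or.inr ⟨⟨(e : Fbar (M' * p)), (hB _).1 e.2⟩, ?_, heO, heρ⟩
    rw [RingHom.mem_ker]
    exact heχ
  obtain ⟨a, d, hd, had⟩ := localReg_chart h s hmodel (RingHom.ker χ') y hG1 (Or.inl hy) (by
    intro P hP hthru
    apply hP
    apply hreg P
    refine ⟨fun b => hthru.1 ⟨(b : Fbar (M' * p)), (hB _).1 b.2⟩, fun b hb => ?_⟩
    refine hthru.2 ⟨(b : Fbar (M' * p)), (hB _).1 b.2⟩ ?_
    rw [RingHom.mem_ker]
    exact hb)
  refine ⟨subringHom X.B₀ (chart ↥A s) hB a, subringHom X.B₀ (chart ↥A s) hB d, ?_, had⟩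
  intro h0
  exact hd (RingHom.mem_ker.2 h0)

end Concrete

end Fermat.Agent.T33.GlueWire5
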