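/-
Programme T (S33), chapter (e) "N34 over Qbar", file 3 (helper4): **THE VOCABULARY of the nodal model
of `X₀(M'p)` over the valuation ring `A ⊂ ℚ̄`** — definitions and `rfl`-level lemmas only; every seat
working on chapter (e) states its results against the names of this file.

Standing data: `h : LevelHyp p M' A` (`NodalHalf4`), `N = M' * p`, `F = ↥(Fbar N)`, `κ = kA A`,
`Fb A M' = ↥(modularFunctionFieldFullC κ M')`; `O1 h, O2 h, rho1 h, rho2 h, c1 h, c2 h` from `NodalHalf4`.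

* level maps `alphaA M' p, betaA M' p : ↥(Fbar M') →ₐ[ℚ̄] ↥(Fbar N)` (Prelude's `heckeAlphaBar/BetaBar`),
  integral (`alphaA_isIntegral h`), restriction of places `restrAlpha h P`, `restrBeta h P`;
* the Hauptmodul `tM h : ↥(Fbar M')`, `tA h : ↥(Fbar N)` (`= alphaA (tM h)`), `yA h = betaA (tM h)`;
* **the two charts** `B0A h = chart ↥A (tA h)`, `B1A h = chart ↥A (tA h)⁻¹ : Subalgebra ↥A F` (same shape as
  the finite-level `ModelDefs9.B0/B1`; `baseChangeHom_mem_B0A/B1A` = the level maps `B_j(K) → B_j(A)`);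
  `B0A_le_O1`, `B1A_le_O1` (the inclusions into `O2 h` are proved in the transfer file `NodalBase4B`);
* `ChartOK h B` (`B ≤ O1 h ⊓ O2 h`), the reductions `red1 h hB, red2 h hB : ↥B →+* Fb A M'` and the
  **vertical primes** `vert1 h hB = ker red1`, `vert2 h hB = ker red2`;
* **values and centres**: `valA h P : O_P →ₐ[ℚ̄] ℚ̄`, `InChart h s P` (`s(P) ∈ A`),
  `evA h s P hP : ↥(chart ↥A s) →+* ↥A`, `chiA h s P hP : ↥(chart ↥A s) →+* κ` (the centre as a point),
  `centreA h s P hP = ker chiA` (the centre as a maximal ideal); every place is in chart `0` or in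
  chart `1` (`inChart_tinv_of_not`); `thru_centreA` (value-free form, `LocalReg5.Thru`);
* **reduction of places** (definition = value compatibility): for a chart `B` and a point
  `χ : ↥B →+* κ`, `IsRedAt1 h B χ Q` says that the place `Q` of the component `C₁` is centred at `χ`:
  `(ρ₁ b)(Q) = χ b` for all `b ∈ B`; `IsRed1 h P Q` uses the CANONICAL chart of `P` (chart `0` if
  `t(P) ∈ A`, chart `1` otherwise); `r1 h P : Option (Place κ (Fb A M'))` is the place `Q` with
  `IsRed1 h P Q` if there is one; the same on the component `C₂` (`IsRedAt2`, `IsRed2`, `r2`);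
* the nodes `NodeSet h = {(Q₁, Q₂) | ∃ P, r1 h P = some Q₁ ∧ r2 h P = some Q₂}`.
-/
import Mathlib
import Fermat.Agent.T33.NodalHalf4
import Fermat.Agent.T33.Psi3G
import Fermat.Agent.ES.RED.ChartSpecOf25
import Fermat.Agent.ES.RED.ChartUnion1
import Fermat.Agent.ES.RED.TqIntF5
import Fermat.Agent.ES.RED.SpecialInv25
import Fermat.Agent.ES.HECKE.AlongDegree25
import Fermat.Agent.ES.N34.ModelDefs9
import Fermat.Agent.RED.BASE.MainCusp12

set_option autoImplicit false
set_option linter.unusedSectionVars false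
set_option linter.style.haveILetI false
set_option linter.unusedVariables false
set_option synthInstance.maxHeartbeats 400000

noncomputable section

namespace Fermat.Agent.T33.NodalBase4A

open HahnSeries ModularCurve AlgebraicCurve IsLocalRing
open Fermat.Agent.RED.Interface4 Fermat.Agent.ES.RED Fermat.Agent.T33.NodalHalf4
  Fermat.Agent.RED.PUR.ChartGeneric22 Fermat.Agent.RED.BASE.Interface12
  Fermat.Agent.ES.RED.PlaceValue13 Fermat.Agent.T33.NodalCurve6

variable {p M' : ℕ} [NeZero M'] [NeZero p] {A : ValuationSubring Qbar}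

/-- shortcut instance (typeclass search takes 2.5 s to find it). -/
local instance (priority := high) algebraAFbarN : Algebra ↥A ↥(Fbar (M' * p)) := inferInstance

/-- shortcut instance. -/
local instance (priority := high) algebraAFbarM : Algebra ↥A ↥(Fbar M') := inferInstance

/-- shortcut instance (typeclass search takes 3 s to find it). -/
local instance (priority := high) algebraKFb : Algebra (Setup8.kA A) (Fb A M') := inferInstance

/-! ### the two degeneracy maps -/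

/-- first degeneracy map (inclusion) `ℚ̄·F_{M'} → ℚ̄·F_{M'p}`. -/
def alphaA (M' p : ℕ) [NeZero M'] [NeZero p] : ↥(Fbar M') →ₐ[Qbar] ↥(Fbar (M' * p)) :=
  heckeAlphaBar Qbar M' p

/-- second degeneracy map (`𝐪 ↦ 𝐪^p`). -/
def betaA (M' p : ℕ) [NeZero M'] [NeZero p] : ↥(Fbar M') →ₐ[Qbar] ↥(Fbar (M' * p)) :=
  heckeBetaBar Qbar M' p

@[simp] theorem coe_alphaA (x : ↥(Fbar M')) :
    ((alphaA M' p x : ↥(Fbar (M' * p))) : LaurentSeries Qbar) = (x : LaurentSeries Qbar) :=
  coe_heckeAlphaBar M' p x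

@[simp] theorem coe_betaA (x : ↥(Fbar M')) :
    ((betaA M' p x : ↥(Fbar (M' * p))) : LaurentSeries Qbar) =
      qExpand Qbar p (x : LaurentSeries Qbar) := rfl

theorem alphaA_isIntegral (h : LevelHyp p M' A) : (alphaA M' p).toRingHom.IsIntegral :=
  Fermat.Agent.ES.HECKE.AlongDegree25.heckeAlphaBarIntegral Qbar M' p h.prime h.not_dvd

theorem betaA_isIntegral (h : LevelHyp p M' A) : (betaA M' p).toRingHom.IsIntegral :=
  Fermat.Agent.ES.HECKE.AlongDegree25.heckeBetaBarIntegral Qbar M' p h.prime h.not_dvd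

/-- the place `P ∘ α` of level `M'` below a place of level `M' p`. -/
def restrAlpha (h : LevelHyp p M' A) (P : Place Qbar ↥(Fbar (M' * p))) : Place Qbar ↥(Fbar M') :=
  P.restrictAlong (alphaA M' p) (alphaA_isIntegral h)

/-- the place `P ∘ β` of level `M'` below a place of level `M' p`. -/
def restrBeta (h : LevelHyp p M' A) (P : Place Qbar ↥(Fbar (M' * p))) : Place Qbar ↥(Fbar M') :=
  P.restrictAlong (betaA M' p) (betaA_isIntegral h)

/-! ### the Hauptmodul -/

theorem tMemM (h : LevelHyp p M' A) : TMem 4 8 M' :=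
  (Fermat.Agent.RED.BASE.MainCusp12.base_four M' h.four_dvd).1.mem

theorem tMemN (h : LevelHyp p M' A) : TMem 4 8 (M' * p) :=
  (Fermat.Agent.RED.BASE.MainCusp12.base_four (M' * p) (Dvd.dvd.mul_right h.four_dvd p)).1.mem

/-- the Hauptmodul `t = (η(q)/η(q⁴))⁸` at the good level `M'`. -/
def tM (h : LevelHyp p M' A) : ↥(Fbar M') := tF M' (tMemM h)

/-- the Hauptmodul `t` at the bad level `N = M' p` (the coordinate of the model). -/
def tA (h : LevelHyp p M' A) : ↥(Fbar (M' * p)) := tF (M' * p) (tMemN h)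

/-- `y = t(q^p)` at the bad level. -/
def yA (h : LevelHyp p M' A) : ↥(Fbar (M' * p)) := betaA M' p (tM h)

@[simp] theorem coe_tM (h : LevelHyp p M' A) :
    ((tM h : ↥(Fbar M')) : LaurentSeries Qbar) =
      Fermat.Agent.RED.BASE.EtaQuot12.tq Qbar 4 8 := TqIntF5.coe_tF M' (tMemM h)

@[simp] theorem coe_tA (h : LevelHyp p M' A) :
    ((tA h : ↥(Fbar (M' * p))) : LaurentSeries Qbar) =
      Fermat.Agent.RED.BASE.EtaQuot12.tq Qbar 4 8 := TqIntF5.coe_tF (M' * p) (tMemN h)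

theorem tA_eq_alphaA (h : LevelHyp p M' A) : tA h = alphaA M' p (tM h) :=
  Subtype.ext (by rw [coe_alphaA, coe_tA, coe_tM])

theorem isGen_tA (h : LevelHyp p M' A) : Fermat.Agent.X0.FF.IsGen Qbar (tA h) :=
  Fermat.Agent.ES.RED.SpecialInv25.isGen_tF 4 8 (M' * p) (tMemN h)

theorem isGen_tM (h : LevelHyp p M' A) : Fermat.Agent.X0.FF.IsGen Qbar (tM h) :=
  Fermat.Agent.ES.RED.SpecialInv25.isGen_tF 4 8 M' (tMemM h)

theorem tA_mem_intF (h : LevelHyp p M' A) : tA h ∈ ChartIntegralA1.intF A (M' * p) :=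
  TqIntF5.tF_mem_intF A (M' * p) (tMemN h)

theorem tA_inv_mem_intF (h : LevelHyp p M' A) : (tA h)⁻¹ ∈ ChartIntegralA1.intF A (M' * p) :=
  TqIntF5.tF_inv_mem_intF A (M' * p) (tMemN h)

/-! ### the two charts of the model -/

/-- **chart `0` over `A`**: the integral closure of `A[t]` in `ℚ̄·F_N`. -/
def B0A (h : LevelHyp p M' A) : Subalgebra ↥A ↥(Fbar (M' * p)) := chart ↥A (tA h)

/-- **chart `1` over `A`**: the integral closure of `A[t⁻¹]` in `ℚ̄·F_N`. -/
def B1A (h : LevelHyp p M' A) : Subalgebra ↥A ↥(Fbar (M' * p)) := chart ↥A (tA h)⁻¹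

/-- the level-`M'` charts over `A` (Program H's smooth model). -/
def B0M (h : LevelHyp p M' A) : Subalgebra ↥A ↥(Fbar M') := chart ↥A (tM h)

/-- the level-`M'` chart `1` over `A`. -/
def B1M (h : LevelHyp p M' A) : Subalgebra ↥A ↥(Fbar M') := chart ↥A (tM h)⁻¹

/-- a chart element has an `A`-integral `q`-expansion, hence lies in `O₁`. -/
theorem mem_O1_of_mem_chart (h : LevelHyp p M' A) {s : ↥(Fbar (M' * p))}
    (hs : s ∈ ChartIntegralA1.intF A (M' * p)) {b : ↥(Fbar (M' * p))} (hb : b ∈ chart ↥A s) :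
    b ∈ O1 h := by
  haveI : Fact p.Prime := ⟨h.prime⟩
  have h1 : b ∈ ChartIntegralA1.intF A (M' * p) :=
    ChartIntegralA1.chart_le_intF A (M' * p) p h.liesOver hs hb
  rw [Fermat.Agent.T33.Psi3G.intF_eq_gaussA] at h1
  exact gaussA_mem_O1 h ⟨b, h1⟩

theorem B0A_le_O1 (h : LevelHyp p M' A) : ∀ b ∈ B0A h, b ∈ O1 h :=
  fun b hb => mem_O1_of_mem_chart h (tA_mem_intF h) hb

theorem B1A_le_O1 (h : LevelHyp p M' A) : ∀ b ∈ B1A h, b ∈ O1 h :=
  fun b hb => mem_O1_of_mem_chart h (tA_inv_mem_intF h) hb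

/-- **`B` is a chart of the model**: it lies in both Gauss rings. -/
structure ChartOK (h : LevelHyp p M' A) (B : Subalgebra ↥A ↥(Fbar (M' * p))) : Prop where
  le1 : ∀ b ∈ B, b ∈ O1 h
  le2 : ∀ b ∈ B, b ∈ O2 h

/-- the inclusion `B → O₁`. -/
def incl1 (h : LevelHyp p M' A) {B : Subalgebra ↥A ↥(Fbar (M' * p))} (hB : ChartOK h B) :
    ↥B →+* ↥(O1 h) where
  toFun b := ⟨(b : ↥(Fbar (M' * p))), hB.le1 _ b.2⟩
  map_one' := rfl
  map_mul' _ _ := rfl
  map_zero' := rfl
  map_add' _ _ := rfl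

/-- the inclusion `B → O₂`. -/
def incl2 (h : LevelHyp p M' A) {B : Subalgebra ↥A ↥(Fbar (M' * p))} (hB : ChartOK h B) :
    ↥B →+* ↥(O2 h) where
  toFun b := ⟨(b : ↥(Fbar (M' * p))), hB.le2 _ b.2⟩
  map_one' := rfl
  map_mul' _ _ := rfl
  map_zero' := rfl
  map_add' _ _ := rfl

/-- **the reduction of the chart on the component `C₁`.** -/
def red1 (h : LevelHyp p M' A) {B : Subalgebra ↥A ↥(Fbar (M' * p))} (hB : ChartOK h B) :
    ↥B →+* Fb A M' := (rho1 h).comp (incl1 h hB)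

/-- **the reduction of the chart on the component `C₂`.** -/
def red2 (h : LevelHyp p M' A) {B : Subalgebra ↥A ↥(Fbar (M' * p))} (hB : ChartOK h B) :
    ↥B →+* Fb A M' := (rho2 h).comp (incl2 h hB)

theorem red1_apply (h : LevelHyp p M' A) {B : Subalgebra ↥A ↥(Fbar (M' * p))} (hB : ChartOK h B)
    (b : ↥B) : red1 h hB b = rho1 h ⟨(b : ↥(Fbar (M' * p))), hB.le1 _ b.2⟩ := rfl

theorem red2_apply (h : LevelHyp p M' A) {B : Subalgebra ↥A ↥(Fbar (M' * p))} (hB : ChartOK h B)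
    (b : ↥B) : red2 h hB b = rho2 h ⟨(b : ↥(Fbar (M' * p))), hB.le2 _ b.2⟩ := rfl

/-- **the vertical prime `𝔭₁ = B ∩ 𝔪_A O₁`** of the chart `B` (the component `C₁`). -/
def vert1 (h : LevelHyp p M' A) {B : Subalgebra ↥A ↥(Fbar (M' * p))} (hB : ChartOK h B) :
    Ideal ↥B := RingHom.ker (red1 h hB)

/-- **the vertical prime `𝔭₂ = B ∩ 𝔪_A O₂`** of the chart `B` (the component `C₂`). -/
def vert2 (h : LevelHyp p M' A) {B : Subalgebra ↥A ↥(Fbar (M' * p))} (hB : ChartOK h B) :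
    Ideal ↥B := RingHom.ker (red2 h hB)

theorem mem_vert1_iff (h : LevelHyp p M' A) {B : Subalgebra ↥A ↥(Fbar (M' * p))}
    (hB : ChartOK h B) (b : ↥B) : b ∈ vert1 h hB ↔ red1 h hB b = 0 := RingHom.mem_ker

theorem mem_vert2_iff (h : LevelHyp p M' A) {B : Subalgebra ↥A ↥(Fbar (M' * p))}
    (hB : ChartOK h B) (b : ↥B) : b ∈ vert2 h hB ↔ red2 h hB b = 0 := RingHom.mem_ker

instance vert1_isPrime (h : LevelHyp p M' A) {B : Subalgebra ↥A ↥(Fbar (M' * p))}
    (hB : ChartOK h B) : (vert1 h hB).IsPrime := RingHom.ker_isPrime _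

instance vert2_isPrime (h : LevelHyp p M' A) {B : Subalgebra ↥A ↥(Fbar (M' * p))}
    (hB : ChartOK h B) : (vert2 h hB).IsPrime := RingHom.ker_isPrime _

/-- a closed point of the special fibre of the chart `B`: a maximal ideal over `𝔪_A`. -/
def IsClosedPt (B : Subalgebra ↥A ↥(Fbar (M' * p))) (𝔪 : Ideal ↥B) : Prop :=
  𝔪.IsMaximal ∧ ∀ a ∈ maximalIdeal ↥A, algebraMap ↥A ↥B a ∈ 𝔪

/-! ### the level maps `B_j(K) → B_j(A)` from the number-field levels -/

section Levels

open Fermat.Agent.ES.N34.ModelDefs9 Fermat.Agent.RED.DESC.PlaceExtend27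

variable {K : IntermediateField ℚ Qbar}

/-- the level-`K` Hauptmodul maps to `tA`. -/
theorem baseChangeHom_tN (h : LevelHyp p M' A)
    (ht : Fermat.Agent.RED.BASE.EtaQuot12.tq (↥K) 4 8 ∈ FK M' K) :
    baseChangeHom (M' * p) K (tN p ht) = tA h := by
  apply Subtype.ext
  rw [coe_baseChangeHom, coe_tN, coe_tA]
  exact Fermat.Agent.RED.BASE.EtaQuot12.coeffMap_tq (↥K) (algebraMap (↥K) Qbar) 4 8

/-- **the level map `B₀(K) → B₀(A)`.** -/
theorem baseChangeHom_mem_B0A (h : LevelHyp p M' A)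
    (ht : Fermat.Agent.RED.BASE.EtaQuot12.tq (↥K) 4 8 ∈ FK M' K) {x : FK (M' * p) K}
    (hx : x ∈ B0 A p ht) : baseChangeHom (M' * p) K x ∈ B0A h := by
  have := ChartUnion1.baseChangeHom_mem_chart A (M' * p) K (tN p ht) x hx
  rwa [baseChangeHom_tN h ht] at this

/-- **the level map `B₁(K) → B₁(A)`.** -/
theorem baseChangeHom_mem_B1A (h : LevelHyp p M' A)
    (ht : Fermat.Agent.RED.BASE.EtaQuot12.tq (↥K) 4 8 ∈ FK M' K) {x : FK (M' * p) K}
    (hx : x ∈ B1 A p ht) : baseChangeHom (M' * p) K x ∈ B1A h := by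
  have := ChartUnion1.baseChangeHom_mem_chart A (M' * p) K (tN p ht)⁻¹ x hx
  rwa [map_inv₀, baseChangeHom_tN h ht] at this

end Levels

/-! ### values and centres of places -/

/-- **the value map** `f ↦ f(P)` of a place of `ℚ̄·F_N`. -/
def valA (h : LevelHyp p M' A) (P : Place Qbar ↥(Fbar (M' * p))) :
    ↥P.toValuationSubring →ₐ[Qbar] Qbar := valueHom (isGen_tA h) P

/-- **`P` lies in the chart of `s`**: `s` is regular at `P` with value in `A`. -/
def InChart (h : LevelHyp p M' A) (s : ↥(Fbar (M' * p))) (P : Place Qbar ↥(Fbar (M' * p))) :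
    Prop := ∃ hs : s ∈ P.toValuationSubring, valA h P ⟨s, hs⟩ ∈ A

theorem mem_place_of_inChart (h : LevelHyp p M' A) {s : ↥(Fbar (M' * p))}
    {P : Place Qbar ↥(Fbar (M' * p))} (hP : InChart h s P) {b : ↥(Fbar (M' * p))}
    (hb : b ∈ chart ↥A s) : b ∈ P.toValuationSubring :=
  ChartSpecOf25.mem_place_chart A P hP.1 hb

theorem valA_mem_of_inChart (h : LevelHyp p M' A) {s : ↥(Fbar (M' * p))}
    {P : Place Qbar ↥(Fbar (M' * p))} (hP : InChart h s P) {b : ↥(Fbar (M' * p))}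
    (hb : b ∈ chart ↥A s) : valA h P ⟨b, mem_place_of_inChart h hP hb⟩ ∈ A :=
  ChartSpecOf25.val_mem_chart A (isGen_tA h) P hP.1 hP.2 hb

/-- the inclusion of the chart into `O_P`. -/
def toPlaceA (h : LevelHyp p M' A) (s : ↥(Fbar (M' * p))) (P : Place Qbar ↥(Fbar (M' * p)))
    (hP : InChart h s P) : ↥(chart ↥A s) →+* ↥P.toValuationSubring where
  toFun b := ⟨(b : ↥(Fbar (M' * p))), mem_place_of_inChart h hP b.2⟩
  map_one' := rfl
  map_mul' _ _ := rfl
  map_zero' := rfl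
  map_add' _ _ := rfl

/-- **the value map `b ↦ b(P) ∈ A` on the chart.** -/
def evA (h : LevelHyp p M' A) (s : ↥(Fbar (M' * p))) (P : Place Qbar ↥(Fbar (M' * p)))
    (hP : InChart h s P) : ↥(chart ↥A s) →+* ↥A :=
  ((valA h P : ↥P.toValuationSubring →+* Qbar).comp (toPlaceA h s P hP)).codRestrict A.toSubring
    (fun b => valA_mem_of_inChart h hP b.2)

theorem coe_evA (h : LevelHyp p M' A) (s : ↥(Fbar (M' * p))) (P : Place Qbar ↥(Fbar (M' * p)))
    (hP : InChart h s P) (b : ↥(chart ↥A s)) :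
    ((evA h s P hP b : ↥A) : Qbar) =
      valA h P ⟨(b : ↥(Fbar (M' * p))), mem_place_of_inChart h hP b.2⟩ := rfl

/-- **the centre of `P` on the chart, as a point `χ_P : B →+* κ`.** -/
def chiA (h : LevelHyp p M' A) (s : ↥(Fbar (M' * p))) (P : Place Qbar ↥(Fbar (M' * p)))
    (hP : InChart h s P) : ↥(chart ↥A s) →+* Setup8.kA A :=
  (residue ↥A).comp (evA h s P hP)

theorem chiA_apply (h : LevelHyp p M' A) (s : ↥(Fbar (M' * p))) (P : Place Qbar ↥(Fbar (M' * p)))
    (hP : InChart h s P) (b : ↥(chart ↥A s)) :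
    chiA h s P hP b = residue ↥A (evA h s P hP b) := rfl

/-- **the centre of `P` on the chart, as a maximal ideal.** -/
def centreA (h : LevelHyp p M' A) (s : ↥(Fbar (M' * p))) (P : Place Qbar ↥(Fbar (M' * p)))
    (hP : InChart h s P) : Ideal ↥(chart ↥A s) := RingHom.ker (chiA h s P hP)

theorem evA_algebraMap (h : LevelHyp p M' A) (s : ↥(Fbar (M' * p)))
    (P : Place Qbar ↥(Fbar (M' * p))) (hP : InChart h s P) (a : ↥A) :
    evA h s P hP (algebraMap ↥A ↥(chart ↥A s) a) = a := by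
  apply Subtype.ext
  rw [coe_evA]
  exact (valA h P).commutes (a : Qbar)

theorem chiA_algebraMap (h : LevelHyp p M' A) (s : ↥(Fbar (M' * p)))
    (P : Place Qbar ↥(Fbar (M' * p))) (hP : InChart h s P) (a : ↥A) :
    chiA h s P hP (algebraMap ↥A ↥(chart ↥A s) a) = residue ↥A a := by
  rw [chiA_apply, evA_algebraMap]

theorem chiA_surjective (h : LevelHyp p M' A) (s : ↥(Fbar (M' * p)))
    (P : Place Qbar ↥(Fbar (M' * p))) (hP : InChart h s P) :
    Function.Surjective (chiA h s P hP) := fun c => by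
  obtain ⟨a, rfl⟩ := residue_surjective c
  exact ⟨_, chiA_algebraMap h s P hP a⟩

instance centreA_isMaximal (h : LevelHyp p M' A) (s : ↥(Fbar (M' * p)))
    (P : Place Qbar ↥(Fbar (M' * p))) (hP : InChart h s P) : (centreA h s P hP).IsMaximal :=
  RingHom.ker_isMaximal_of_surjective _ (chiA_surjective h s P hP)

/-- the centre is a closed point of the special fibre. -/
theorem isClosedPt_centreA (h : LevelHyp p M' A) (s : ↥(Fbar (M' * p)))
    (P : Place Qbar ↥(Fbar (M' * p))) (hP : InChart h s P) :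
    IsClosedPt (chart ↥A s) (centreA h s P hP) := by
  refine ⟨inferInstance, fun a ha => ?_⟩
  show _ ∈ RingHom.ker _
  rw [RingHom.mem_ker, chiA_algebraMap, residue_eq_zero_iff]
  exact ha

/-- `b(P) = 0 ↔ b = 0 ∨ ord_P b > 0`. -/
theorem evA_eq_zero_iff (h : LevelHyp p M' A) (s : ↥(Fbar (M' * p)))
    (P : Place Qbar ↥(Fbar (M' * p))) (hP : InChart h s P) (b : ↥(chart ↥A s)) :
    evA h s P hP b = 0 ↔
      ((b : ↥(Fbar (M' * p))) = 0 ∨ 0 < P.ord (b : ↥(Fbar (M' * p)))) := by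
  rw [← valueHom_eq_zero_iff_ord (isGen_tA h) P
    ⟨(b : ↥(Fbar (M' * p))), mem_place_of_inChart h hP b.2⟩]
  constructor
  · intro h0
    have := congrArg (Subtype.val) h0
    rwa [coe_evA] at this
  · intro h0
    apply Subtype.ext
    rw [coe_evA]
    exact h0

/-- **value-free form of the centre** (`LocalReg5.Thru`): `B ⊆ O_P` and every `b ∉ centre` is a unit
at `P`. -/
theorem thru_centreA (h : LevelHyp p M' A) (s : ↥(Fbar (M' * p)))
    (P : Place Qbar ↥(Fbar (M' * p))) (hP : InChart h s P) :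
    (∀ b : ↥(chart ↥A s), (b : ↥(Fbar (M' * p))) ∈ P.toValuationSubring) ∧
      ∀ b : ↥(chart ↥A s), b ∉ centreA h s P hP →
        (b : ↥(Fbar (M' * p)))⁻¹ ∈ P.toValuationSubring := by
  refine ⟨fun b => mem_place_of_inChart h hP b.2, fun b hb => ?_⟩
  have h1 : evA h s P hP b ≠ 0 := by
    intro h0
    apply hb
    show _ ∈ RingHom.ker _
    rw [RingHom.mem_ker, chiA_apply, h0, map_zero]
  have h2 : valA h P ⟨(b : ↥(Fbar (M' * p))), mem_place_of_inChart h hP b.2⟩ ≠ 0 := by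
    intro h0
    apply h1
    apply Subtype.ext
    rw [coe_evA]
    exact h0
  have h3 := (valueHom_ne_zero_iff (isGen_tA h) P
    ⟨(b : ↥(Fbar (M' * p))), mem_place_of_inChart h hP b.2⟩).1 h2
  obtain ⟨u, hu⟩ := h3
  have h4 : ((↑u⁻¹ : ↥P.toValuationSubring) : ↥(Fbar (M' * p))) =
      (b : ↥(Fbar (M' * p)))⁻¹ := by
    have h5 : (u : ↥P.toValuationSubring) * ↑u⁻¹ = 1 := Units.mul_inv u
    have h6 := congrArg (Subtype.val) h5
    rw [hu] at h6
    exact eq_inv_of_mul_eq_one_right h6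
  rw [← h4]
  exact (↑u⁻¹ : ↥P.toValuationSubring).2

/-- **every place lies in chart `0` or in chart `1`.** -/
theorem inChart_tinv_of_not (h : LevelHyp p M' A) {P : Place Qbar ↥(Fbar (M' * p))}
    (hP : ¬ InChart h (tA h) P) : InChart h (tA h)⁻¹ P := by
  by_cases ht : tA h ∈ P.toValuationSubring
  · -- `t` is regular at `P` with value `c ∉ A`
    have hc : valA h P ⟨tA h, ht⟩ ∉ A := fun hc => hP ⟨ht, hc⟩
    have hc0 : valA h P ⟨tA h, ht⟩ ≠ 0 := fun h0 => hc (h0 ▸ A.zero_mem)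
    obtain ⟨u, hu⟩ := (valueHom_ne_zero_iff (isGen_tA h) P ⟨tA h, ht⟩).1 hc0
    have h5 : (u : ↥P.toValuationSubring) * ↑u⁻¹ = 1 := Units.mul_inv u
    have h4 : ((↑u⁻¹ : ↥P.toValuationSubring) : ↥(Fbar (M' * p))) = (tA h)⁻¹ := by
      have h6 := congrArg (Subtype.val) h5
      rw [hu] at h6
      exact eq_inv_of_mul_eq_one_right h6
    have hmem : (tA h)⁻¹ ∈ P.toValuationSubring := by
      rw [← h4]; exact (↑u⁻¹ : ↥P.toValuationSubring).2
    refine ⟨hmem, ?_⟩
    have h7 : (⟨(tA h)⁻¹, hmem⟩ : ↥P.toValuationSubring) = ↑u⁻¹ := Subtype.ext h4.symm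
    have h8 : valA h P ⟨tA h, ht⟩ * valA h P ⟨(tA h)⁻¹, hmem⟩ = 1 := by
      rw [h7, ← hu, ← map_mul, h5, map_one]
    have h9 : valA h P ⟨(tA h)⁻¹, hmem⟩ = (valA h P ⟨tA h, ht⟩)⁻¹ :=
      eq_inv_of_mul_eq_one_right h8
    rw [h9]
    exact (A.mem_or_inv_mem _).resolve_left hc
  · -- `t` has a pole at `P`: `t⁻¹(P) = 0`
    have hmem : (tA h)⁻¹ ∈ P.toValuationSubring := by
      have := P.toValuationSubring.mem_or_inv_mem (tA h)
      exact this.resolve_left ht
    refine ⟨hmem, ?_⟩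
    have h0 : valA h P ⟨(tA h)⁻¹, hmem⟩ = 0 := by
      by_contra hne
      obtain ⟨u, hu⟩ := (valueHom_ne_zero_iff (isGen_tA h) P ⟨(tA h)⁻¹, hmem⟩).1 hne
      apply ht
      have h5 : (u : ↥P.toValuationSubring) * ↑u⁻¹ = 1 := Units.mul_inv u
      have h6 := congrArg (Subtype.val) h5
      rw [hu] at h6
      have h7 : ((↑u⁻¹ : ↥P.toValuationSubring) : ↥(Fbar (M' * p))) = tA h := by
        have := eq_inv_of_mul_eq_one_right h6
        rwa [inv_inv] at this
      rw [← h7]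
      exact (↑u⁻¹ : ↥P.toValuationSubring).2
    rw [h0]
    exact A.zero_mem

/-! ### reduction of places: the definition IS the value compatibility -/

/-- **the place `Q` of the component `C₁` is centred at the point `χ` of the chart `B`**:
`(ρ₁ b)(Q) = χ b` for every `b ∈ B` (`b ∈ O₁` is automatic for the charts of the model,
`ChartOK.le1`). -/
def IsRedAt1 (h : LevelHyp p M' A) (B : Subalgebra ↥A ↥(Fbar (M' * p)))
    (χ : ↥B →+* Setup8.kA A) (Q : Place (Setup8.kA A) (Fb A M')) : Prop :=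
  ∀ (b : ↥B) (hb : (b : ↥(Fbar (M' * p))) ∈ O1 h),
    rho1 h ⟨(b : ↥(Fbar (M' * p))), hb⟩ - algebraMap (Setup8.kA A) (Fb A M') (χ b) ∈ vanishing Q

/-- **the place `Q` of the component `C₂` is centred at the point `χ` of the chart `B`.** -/
def IsRedAt2 (h : LevelHyp p M' A) (B : Subalgebra ↥A ↥(Fbar (M' * p)))
    (χ : ↥B →+* Setup8.kA A) (Q : Place (Setup8.kA A) (Fb A M')) : Prop :=
  ∀ (b : ↥B) (hb : (b : ↥(Fbar (M' * p))) ∈ O2 h),
    rho2 h ⟨(b : ↥(Fbar (M' * p))), hb⟩ - algebraMap (Setup8.kA A) (Fb A M') (χ b) ∈ vanishing Q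

open Classical in
/-- **`Q ∈ C₁` is the reduction of the place `P`** (canonical chart of `P`: chart `0` if
`t(P) ∈ A`, chart `1` otherwise). -/
def IsRed1 (h : LevelHyp p M' A) (P : Place Qbar ↥(Fbar (M' * p)))
    (Q : Place (Setup8.kA A) (Fb A M')) : Prop :=
  if hP : InChart h (tA h) P then IsRedAt1 h (B0A h) (chiA h (tA h) P hP) Q
  else IsRedAt1 h (B1A h) (chiA h (tA h)⁻¹ P (inChart_tinv_of_not h hP)) Q

open Classical in
/-- **`Q ∈ C₂` is the reduction of the place `P`.** -/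
def IsRed2 (h : LevelHyp p M' A) (P : Place Qbar ↥(Fbar (M' * p)))
    (Q : Place (Setup8.kA A) (Fb A M')) : Prop :=
  if hP : InChart h (tA h) P then IsRedAt2 h (B0A h) (chiA h (tA h) P hP) Q
  else IsRedAt2 h (B1A h) (chiA h (tA h)⁻¹ P (inChart_tinv_of_not h hP)) Q

theorem isRed1_iff_of_inChart (h : LevelHyp p M' A) {P : Place Qbar ↥(Fbar (M' * p))}
    (hP : InChart h (tA h) P) (Q : Place (Setup8.kA A) (Fb A M')) :
    IsRed1 h P Q ↔ IsRedAt1 h (B0A h) (chiA h (tA h) P hP) Q := by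
  rw [IsRed1, dif_pos hP]

theorem isRed1_iff_of_not_inChart (h : LevelHyp p M' A) {P : Place Qbar ↥(Fbar (M' * p))}
    (hP : ¬ InChart h (tA h) P) (Q : Place (Setup8.kA A) (Fb A M')) :
    IsRed1 h P Q ↔ IsRedAt1 h (B1A h) (chiA h (tA h)⁻¹ P (inChart_tinv_of_not h hP)) Q := by
  rw [IsRed1, dif_neg hP]

theorem isRed2_iff_of_inChart (h : LevelHyp p M' A) {P : Place Qbar ↥(Fbar (M' * p))}
    (hP : InChart h (tA h) P) (Q : Place (Setup8.kA A) (Fb A M')) :
    IsRed2 h P Q ↔ IsRedAt2 h (B0A h) (chiA h (tA h) P hP) Q := by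
  rw [IsRed2, dif_pos hP]

theorem isRed2_iff_of_not_inChart (h : LevelHyp p M' A) {P : Place Qbar ↥(Fbar (M' * p))}
    (hP : ¬ InChart h (tA h) P) (Q : Place (Setup8.kA A) (Fb A M')) :
    IsRed2 h P Q ↔ IsRedAt2 h (B1A h) (chiA h (tA h)⁻¹ P (inChart_tinv_of_not h hP)) Q := by
  rw [IsRed2, dif_neg hP]

open Classical in
/-- **the reduction of places to the component `C₁`** (field `r₁` of `NodalCtx1.NodalRed`). -/
def r1 (h : LevelHyp p M' A) (P : Place Qbar ↥(Fbar (M' * p))) :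
    Option (Place (Setup8.kA A) (Fb A M')) :=
  if hQ : ∃ Q, IsRed1 h P Q then some hQ.choose else none

open Classical in
/-- **the reduction of places to the component `C₂`** (field `r₂` of `NodalCtx1.NodalRed`). -/
def r2 (h : LevelHyp p M' A) (P : Place Qbar ↥(Fbar (M' * p))) :
    Option (Place (Setup8.kA A) (Fb A M')) :=
  if hQ : ∃ Q, IsRed2 h P Q then some hQ.choose else none

theorem isRed1_of_r1_eq_some (h : LevelHyp p M' A) {P : Place Qbar ↥(Fbar (M' * p))}
    {Q : Place (Setup8.kA A) (Fb A M')} (hr : r1 h P = some Q) : IsRed1 h P Q := by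
  classical
  unfold r1 at hr
  split_ifs at hr with hQ
  · rw [← Option.some.inj hr]
    exact hQ.choose_spec

theorem isRed2_of_r2_eq_some (h : LevelHyp p M' A) {P : Place Qbar ↥(Fbar (M' * p))}
    {Q : Place (Setup8.kA A) (Fb A M')} (hr : r2 h P = some Q) : IsRed2 h P Q := by
  classical
  unfold r2 at hr
  split_ifs at hr with hQ
  · rw [← Option.some.inj hr]
    exact hQ.choose_spec

theorem r1_ne_none_iff (h : LevelHyp p M' A) (P : Place Qbar ↥(Fbar (M' * p))) :
    r1 h P ≠ none ↔ ∃ Q, IsRed1 h P Q := by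
  classical
  unfold r1
  split_ifs with hQ
  · exact ⟨fun _ => hQ, fun _ => Option.some_ne_none _⟩
  · exact ⟨fun h' => absurd rfl h', fun h' => absurd h' hQ⟩

theorem r2_ne_none_iff (h : LevelHyp p M' A) (P : Place Qbar ↥(Fbar (M' * p))) :
    r2 h P ≠ none ↔ ∃ Q, IsRed2 h P Q := by
  classical
  unfold r2
  split_ifs with hQ
  · exact ⟨fun _ => hQ, fun _ => Option.some_ne_none _⟩
  · exact ⟨fun h' => absurd rfl h', fun h' => absurd h' hQ⟩

/-- given uniqueness of the reduction, `r1 h P = some Q ↔ IsRed1 h P Q`. -/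
theorem r1_eq_some_iff (h : LevelHyp p M' A)
    (huniq : ∀ P Q Q', IsRed1 h P Q → IsRed1 h P Q' → Q = Q')
    (P : Place Qbar ↥(Fbar (M' * p))) (Q : Place (Setup8.kA A) (Fb A M')) :
    r1 h P = some Q ↔ IsRed1 h P Q := by
  classical
  refine ⟨isRed1_of_r1_eq_some h, fun hQ => ?_⟩
  have hex : ∃ Q, IsRed1 h P Q := ⟨Q, hQ⟩
  unfold r1
  rw [dif_pos hex]
  exact congrArg some (huniq P _ _ hex.choose_spec hQ)

/-- given uniqueness of the reduction, `r2 h P = some Q ↔ IsRed2 h P Q`. -/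
theorem r2_eq_some_iff (h : LevelHyp p M' A)
    (huniq : ∀ P Q Q', IsRed2 h P Q → IsRed2 h P Q' → Q = Q')
    (P : Place Qbar ↥(Fbar (M' * p))) (Q : Place (Setup8.kA A) (Fb A M')) :
    r2 h P = some Q ↔ IsRed2 h P Q := by
  classical
  refine ⟨isRed2_of_r2_eq_some h, fun hQ => ?_⟩
  have hex : ∃ Q, IsRed2 h P Q := ⟨Q, hQ⟩
  unfold r2
  rw [dif_pos hex]
  exact congrArg some (huniq P _ _ hex.choose_spec hQ)

/-- **the nodes**: the pairs of points of the two components to which one place reduces. -/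
def NodeSet (h : LevelHyp p M' A) :
    Set (Place (Setup8.kA A) (Fb A M') × Place (Setup8.kA A) (Fb A M')) :=
  {x | ∃ P : Place Qbar ↥(Fbar (M' * p)), r1 h P = some x.1 ∧ r2 h P = some x.2}

end Fermat.Agent.T33.NodalBase4A
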