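/-
Programme T (S33), chapter (e), helper4: **the bridge between the components `c1 h`, `c2 h` of
`NodalHalf4` (reductions with values in the residue function field `Fb A M'` of level `M'`) and
helper3's `Psi3G.OOne / OTwo / rhoOne / rhoTwo` (reductions with values in `κ((q))`).**

* `O1_eq_OOne h : O1 h = Psi3G.OOne A (M' * p)`, `O2_eq_OTwo h : O2 h = Psi3G.OTwo A (M' * p)`;
* `coe_rho1 h`, `coe_rho2 h` : `rho_j` followed by the inclusion `Fb A M' ⊂ κ((q))` is `rhoOne`, `rhoTwo`;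
* `pu_c1 h : Psi3F.pu (c1 h) = Psi3C.puOne A (M' * p)`, `pu_c2 h : Psi3F.pu (c2 h) = Psi3C.puTwo A (M' * p)`
  — the hypotheses `h₁ h₂` of `Psi3G.formalN_eq_formalTwo` for ANY nodal context
  `Nn : NodalRed A (Fbar (M' * p)) Nd` with `Nn.c₁ = c1 h`, `Nn.c₂ = c2 h`:
  `formalN_eq (Nn) (e₁ : Nn.c₁ = c1 h) (e₂ : Nn.c₂ = c2 h) q : formalN Nn q = formalTwo A (M' * p) q`.
-/
import Mathlib
import Fermat.Agent.T33.NodalHalf4
import Fermat.Agent.T33.Psi3G

set_option autoImplicit false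
set_option linter.unusedSectionVars false
set_option linter.style.haveILetI false
set_option linter.unusedVariables false
set_option synthInstance.maxHeartbeats 400000

noncomputable section

namespace Fermat.Agent.T33.NodalBridge4

open HahnSeries ModularCurve AlgebraicCurve IsLocalRing
open Fermat.Agent.RED.Interface4 Fermat.Agent.ES.RED Fermat.Agent.FF.GaussOv1
  Fermat.Agent.ES.N34.FrickeFK8 Fermat.Agent.T33.NodalCtx1 Fermat.Agent.T33.NodalHalf4
  Fermat.Agent.T33.Psi3G Fermat.Agent.T33.Psi3F Fermat.Agent.T33.Psi3C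

variable {p M' : ℕ} [NeZero M'] [NeZero p] {A : ValuationSubring Qbar}

/-- shortcut instance (typeclass search takes 3 s to find it). -/
local instance (priority := high) algebraKFb' : Algebra (Setup8.kA A) (Fb A M') := inferInstance

/-- the inclusion `κ·F̃_{M'} ⊂ κ((q))`. -/
def inclFb (A : ValuationSubring Qbar) (M' : ℕ) : Fb A M' →+* LaurentSeries (Setup8.kA A) :=
  (modularFunctionFieldFullC (Setup8.kA A) M').val.toRingHom

@[simp] theorem inclFb_apply (z : Fb A M') : inclFb A M' z = (z : LaurentSeries (Setup8.kA A)) := rfl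

theorem O1_eq_OOne (h : LevelHyp p M' A) : O1 h = OOne A (M' * p) := by
  ext y
  rw [mem_O1_iff_redA, OOne_eq_fracRing_gaussA]
  exact Iff.rfl

theorem O2_eq_OTwo (h : LevelHyp p M' A) : O2 h = OTwo A (M' * p) := by
  show (O1 h).comap _ = (OOne A (M' * p)).comap _
  rw [O1_eq_OOne]

/-- `ρ₁` of `NodalHalf4`, read in `κ((q))`, is `Psi3G.rhoOne`. -/
theorem coe_rho1 (h : LevelHyp p M' A) (y : ↥(Fbar (M' * p))) (hy : y ∈ O1 h)
    (hy' : y ∈ OOne A (M' * p)) :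
    inclFb A M' (rho1 h ⟨y, hy⟩) = rhoOne A (M' * p) ⟨y, hy'⟩ := by
  obtain ⟨a, b, hb, hab⟩ := (mem_O1_iff_redA h y).1 hy
  have hb' : redN h b ≠ 0 := (redN_ne_zero_iff h b).2 hb
  have h1 : rho1 h ⟨y, hy⟩ = redN h a / redN h b :=
    fracRed_eq _ _ ⟨y, hy⟩ a b hb' hab
  rw [h1, map_div₀, inclFb_apply, inclFb_apply, coe_redN, coe_redN]
  exact (rhoOne_eq' A (M' * p) y hy' a b hb hab).symm

/-- `ρ₂` of `NodalHalf4`, read in `κ((q))`, is `Psi3G.rhoTwo`. -/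
theorem coe_rho2 (h : LevelHyp p M' A) (y : ↥(Fbar (M' * p))) (hy : y ∈ O2 h)
    (hy' : y ∈ OTwo A (M' * p)) :
    inclFb A M' (rho2 h ⟨y, hy⟩) = rhoTwo A (M' * p) ⟨y, hy'⟩ := by
  rw [rho2_apply, rhoTwo_apply]
  exact coe_rho1 h _ _ _

/-- **the principal units of `c1 h` are `Psi3C.puOne`.** -/
theorem pu_c1 (h : LevelHyp p M' A) : pu (c1 h) = puOne A (M' * p) :=
  pu_eq_puOne_of (c1 h) (inclFb A M') (O1_eq_OOne h) (fun y hy hy' => coe_rho1 h y hy hy')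

/-- **the principal units of `c2 h` are `Psi3C.puTwo`.** -/
theorem pu_c2 (h : LevelHyp p M' A) : pu (c2 h) = puTwo A (M' * p) :=
  pu_eq_puTwo_of (c2 h) (inclFb A M') (O2_eq_OTwo h) (fun y hy hy' => coe_rho2 h y hy hy')

/-- **for every nodal context on `Fbar (M' p)` whose components are `c1 h`, `c2 h`, the abstract
`ker Ψ` is `Psi3D.formalTwo`.** -/
theorem formalN_eq (h : LevelHyp p M' A) {Fb₂' : Type*} {ι : Type*}
    {Nd : NodalCurve6.NodalData (ResidueField ↥A) (Fb A M') (Fb A M') ι}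
    (Nn : NodalRed A ↥(Fbar (M' * p)) Nd) (e₁ : Nn.c₁ = c1 h) (e₂ : Nn.c₂ = c2 h) (q : ℕ) :
    formalN Nn q = Fermat.Agent.T33.Psi3D.formalTwo A (M' * p) q :=
  formalN_eq_formalTwo Nn (by rw [e₁]; exact pu_c1 h) (by rw [e₂]; exact pu_c2 h) q

/-! ### the inertia fields of `NodalRed.Compat` for `c1 h`, `c2 h` -/

theorem inertia_smul_mem_O1 (h : LevelHyp p M' A) {τ : Qbar ≃ₐ[ℚ] Qbar}
    (hτ : τ ∈ A.inertiaSubgroupIn ℚ) {y : ↥(Fbar (M' * p))} (hy : y ∈ O1 h) :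
    Fermat.Agent.T33.Psi3C.gal (M' * p) τ • y ∈ O1 h := by
  rw [O1_eq_OOne] at hy ⊢
  exact inertia_smul_mem_OOne hτ hy

theorem inertia_smul_mem_O2 (h : LevelHyp p M' A) {τ : Qbar ≃ₐ[ℚ] Qbar}
    (hτ : τ ∈ A.inertiaSubgroupIn ℚ) {y : ↥(Fbar (M' * p))} (hy : y ∈ O2 h) :
    Fermat.Agent.T33.Psi3C.gal (M' * p) τ • y ∈ O2 h := by
  rw [O2_eq_OTwo] at hy ⊢
  exact inertia_smul_mem_OTwo hτ hy

end Fermat.Agent.T33.NodalBridge4
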