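/-
Programme T (S33), chapter (e), block [B-3] (helper4), abstract half: **the point of a component
attached to a closed point of a chart.**

`κ` algebraically closed, `Fb / κ` a function field with a separating generator `x`
(`IsGen κ x`, `Fb / κ(x)` separable), `ρ : B →+* Fb` a ring homomorphism whose image is the affine
coordinate ring `intRing κ x` (the integral closure of `κ[x]` in `Fb`), `χ : B →+* κ` a character
which factors through `ρ` (`ρ b = 0 → χ b = 0`) and is compatible with the constants.  Then there is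
exactly one place `Q` of `Fb` with `(ρ b)(Q) = χ b` for all `b`, i.e.
`ρ b - χ b ∈ NodalCurve6.vanishing Q`.

* `exists_place_of_range`, `place_unique_of_range` — the generic statements;
* `Chart.val₁_exists_of_range` … : the fields `val_j_exists_k`, `val_j_unique_k` of helper1's
  `NodalPlaces1.TwoCharts`, for a chart `C` whose `j`-th reduction has image `intRing κ x_j`.
-/
import Mathlib
import Fermat.Agent.ES.RED.SpecialFibre13
import Fermat.Agent.T33.NodalPlaces1B

set_option autoImplicit false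
set_option linter.unusedSectionVars false
set_option linter.style.haveILetI false
set_option linter.unusedVariables false

open AlgebraicCurve IsLocalRing IntermediateField

noncomputable section

namespace Fermat.Agent.T33.NodalPts4A

open Fermat.Agent.X0.FF Fermat.Agent.ES.RED.SpecialFibre13
  Fermat.Agent.ES.RED.PlaceValue13 Fermat.Agent.T33.NodalCurve6

section Generic

variable {κ Fb : Type*} [Field κ] [IsAlgClosed κ] [Field Fb] [Algebra κ Fb] {x : Fb}
  (hx : IsGen κ x) [Algebra.IsSeparable κ⟮x⟯ Fb]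
variable {B : Type*} [CommRing B] (ρ : B →+* Fb) (χ : B →+* κ)

/-- the induced character of the coordinate ring, as a function. -/
def barFun (hsurj : ∀ f : Fb, IsIntegral (polyRing κ x) f → ∃ b, ρ b = f)
    (f : intRing κ x) : κ := χ (hsurj (f : Fb) f.2).choose

theorem barFun_eq (hsurj : ∀ f : Fb, IsIntegral (polyRing κ x) f → ∃ b, ρ b = f)
    (hker : ∀ b, ρ b = 0 → χ b = 0) (f : intRing κ x) {b : B} (hb : ρ b = (f : Fb)) :
    barFun ρ χ hsurj f = χ b := by
  have h1 := (hsurj (f : Fb) f.2).choose_spec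
  have h2 : ρ ((hsurj (f : Fb) f.2).choose - b) = 0 := by rw [map_sub, h1, hb, sub_self]
  have h3 := hker _ h2
  rw [map_sub, sub_eq_zero] at h3
  exact h3

/-- **the induced character `χ̄ : intRing κ x →ₐ[κ] κ`.** -/
def barHom (hsurj : ∀ f : Fb, IsIntegral (polyRing κ x) f → ∃ b, ρ b = f)
    (hker : ∀ b, ρ b = 0 → χ b = 0)
    (hconst : ∀ c : κ, ∃ b : B, ρ b = algebraMap κ Fb c ∧ χ b = c) :
    intRing κ x →ₐ[κ] κ where
  toFun := barFun ρ χ hsurj
  map_one' := by
    rw [barFun_eq ρ χ hsurj hker 1 (b := 1) (by rw [map_one]; rfl), map_one]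
  map_mul' f g := by
    obtain ⟨a, ha⟩ := hsurj (f : Fb) f.2
    obtain ⟨b, hb⟩ := hsurj (g : Fb) g.2
    rw [barFun_eq ρ χ hsurj hker f ha, barFun_eq ρ χ hsurj hker g hb,
      barFun_eq ρ χ hsurj hker (f * g) (b := a * b) (by rw [map_mul, ha, hb]; rfl), map_mul]
  map_zero' := by
    rw [barFun_eq ρ χ hsurj hker 0 (b := 0) (by rw [map_zero]; rfl), map_zero]
  map_add' f g := by
    obtain ⟨a, ha⟩ := hsurj (f : Fb) f.2
    obtain ⟨b, hb⟩ := hsurj (g : Fb) g.2
    rw [barFun_eq ρ χ hsurj hker f ha, barFun_eq ρ χ hsurj hker g hb,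
      barFun_eq ρ χ hsurj hker (f + g) (b := a + b) (by rw [map_add, ha, hb]; rfl), map_add]
  commutes' c := by
    obtain ⟨b, hb, hχ⟩ := hconst c
    rw [barFun_eq ρ χ hsurj hker _ (b := b) (by rw [hb]; rfl), hχ]
    rfl

theorem barHom_apply (hsurj : ∀ f : Fb, IsIntegral (polyRing κ x) f → ∃ b, ρ b = f)
    (hker : ∀ b, ρ b = 0 → χ b = 0)
    (hconst : ∀ c : κ, ∃ b : B, ρ b = algebraMap κ Fb c ∧ χ b = c) (f : intRing κ x) {b : B}
    (hb : ρ b = (f : Fb)) : barHom ρ χ hsurj hker hconst f = χ b :=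
  barFun_eq ρ χ hsurj hker f hb

include hx in
/-- **existence of the point**: a character of `B` factoring through `ρ`, `ρ(B) = intRing κ x`,
is the evaluation at a place of `Fb`. -/
theorem exists_place_of_range (hint : ∀ b, IsIntegral (polyRing κ x) (ρ b))
    (hsurj : ∀ f : Fb, IsIntegral (polyRing κ x) f → ∃ b, ρ b = f)
    (hker : ∀ b, ρ b = 0 → χ b = 0)
    (hconst : ∀ c : κ, ∃ b : B, ρ b = algebraMap κ Fb c ∧ χ b = c) :
    ∃ Q : Place κ Fb, ∀ b, ρ b - algebraMap κ Fb (χ b) ∈ vanishing Q := by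
  refine ⟨chartPlace hx (barHom ρ χ hsurj hker hconst), fun b => ?_⟩
  have h1 := chartPoint_chartPlace hx (barHom ρ χ hsurj hker hconst)
  have h2 : chartPoint hx (chartPlace hx (barHom ρ χ hsurj hker hconst))
      (mem_chartPlace hx (barHom ρ χ hsurj hker hconst)) ⟨ρ b, hint b⟩ =
      barHom ρ χ hsurj hker hconst ⟨ρ b, hint b⟩ := by rw [h1]
  rw [barHom_apply ρ χ hsurj hker hconst ⟨ρ b, hint b⟩ (b := b) rfl] at h2
  have h3 := (chartPoint_eq_iff hx _ (mem_chartPlace hx _) ⟨ρ b, hint b⟩ (χ b)).1 h2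
  rcases h3 with h3 | h3
  · left
    rw [sub_eq_zero]
    exact h3
  · right
    exact h3

omit [IsAlgClosed κ] [Algebra.IsSeparable κ⟮x⟯ Fb] in
theorem mem_of_mem_vanishing (Q : Place κ Fb) {z : Fb} (hz : z ∈ vanishing Q) :
    z ∈ Q.toValuationSubring := by
  rcases hz with hz | hz
  · rw [hz]; exact Q.toValuationSubring.zero_mem
  · exact mem_of_ord_nonneg Q hz.le

include hx in
/-- **uniqueness of the point.** -/
theorem place_unique_of_range (hint : ∀ b, IsIntegral (polyRing κ x) (ρ b))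
    (hsurj : ∀ f : Fb, IsIntegral (polyRing κ x) f → ∃ b, ρ b = f)
    (Q Q' : Place κ Fb) (hQ : ∀ b, ρ b - algebraMap κ Fb (χ b) ∈ vanishing Q)
    (hQ' : ∀ b, ρ b - algebraMap κ Fb (χ b) ∈ vanishing Q') : Q = Q' := by
  -- `ρ b` is regular at both places
  have hmem : ∀ (R : Place κ Fb), (∀ b, ρ b - algebraMap κ Fb (χ b) ∈ vanishing R) →
      ∀ b, ρ b ∈ R.toValuationSubring := by
    intro R hR b
    have h1 := mem_of_mem_vanishing R (hR b)
    have h2 : ρ b = (ρ b - algebraMap κ Fb (χ b)) + algebraMap κ Fb (χ b) := by ring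
    rw [h2]
    exact add_mem h1 (R.algebraMap_mem' _)
  obtain ⟨bx, hbx⟩ := hsurj x (genB κ x).2
  have hv : x ∈ Q.toValuationSubring := hbx ▸ hmem Q hQ bx
  have hw : x ∈ Q'.toValuationSubring := hbx ▸ hmem Q' hQ' bx
  apply eq_of_chart_values_eq hx Q Q' hv hw
  intro f
  obtain ⟨b, hb⟩ := hsurj (f : Fb) f.2
  have e1 : chartPoint hx Q hv f = χ b := by
    rw [chartPoint_eq_iff]
    rcases hQ b with h | h
    · left
      rw [← hb]
      exact sub_eq_zero.1 h
    · right
      rw [← hb]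
      exact h
  have e2 : chartPoint hx Q' hw f = χ b := by
    rw [chartPoint_eq_iff]
    rcases hQ' b with h | h
    · left
      rw [← hb]
      exact sub_eq_zero.1 h
    · right
      rw [← hb]
      exact h
  rw [e1, e2]

end Generic

/-! ### the fields of `NodalPlaces1.TwoCharts` -/

section Charts

open Fermat.Agent.T33.NodalCtx1 Fermat.Agent.T33.NodalPlaces1

variable {K : Type*} [Field K] {A : ValuationSubring K} {F : Type*} [Field F] [Algebra K F]
  {Fb₁ Fb₂ : Type*} [Field Fb₁] [Field Fb₂] [Algebra (ResidueField A) Fb₁]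
  [Algebra (ResidueField A) Fb₂] [IsAlgClosed (ResidueField A)]
  {c₁ : HalfRed A F Fb₁} {c₂ : HalfRed A F Fb₂} (C : Chart c₁ c₂)

theorem hconst₁ (χ : C.Pt) (c : ResidueField A) :
    ∃ b : C.B, C.ρ₁ b = algebraMap (ResidueField A) Fb₁ c ∧ χ b = c := by
  obtain ⟨a, rfl⟩ := residue_surjective c
  exact ⟨C.const a, c₁.ρ_algebraMap a, χ.2 a⟩

theorem hconst₂ (χ : C.Pt) (c : ResidueField A) :
    ∃ b : C.B, C.ρ₂ b = algebraMap (ResidueField A) Fb₂ c ∧ χ b = c := by
  obtain ⟨a, rfl⟩ := residue_surjective c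
  exact ⟨C.const a, c₂.ρ_algebraMap a, χ.2 a⟩

/-- **`val₁_exists`** for a chart whose first reduction has image `intRing κ x₁`. -/
theorem val₁_exists_of_range {x₁ : Fb₁} (hx : IsGen (ResidueField A) x₁)
    [Algebra.IsSeparable (ResidueField A)⟮x₁⟯ Fb₁]
    (hint : ∀ b, IsIntegral (polyRing (ResidueField A) x₁) (C.ρ₁ b))
    (hsurj : ∀ f : Fb₁, IsIntegral (polyRing (ResidueField A) x₁) f → ∃ b, C.ρ₁ b = f)
    (χ : C.Pt) (hχ : C.On₁ χ) : ∃ Q, C.Val₁ χ Q :=
  exists_place_of_range hx C.ρ₁ χ.1 hint hsurj hχ (hconst₁ C χ)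

/-- **`val₂_exists`** for a chart whose second reduction has image `intRing κ x₂`. -/
theorem val₂_exists_of_range {x₂ : Fb₂} (hx : IsGen (ResidueField A) x₂)
    [Algebra.IsSeparable (ResidueField A)⟮x₂⟯ Fb₂]
    (hint : ∀ b, IsIntegral (polyRing (ResidueField A) x₂) (C.ρ₂ b))
    (hsurj : ∀ f : Fb₂, IsIntegral (polyRing (ResidueField A) x₂) f → ∃ b, C.ρ₂ b = f)
    (χ : C.Pt) (hχ : C.On₂ χ) : ∃ Q, C.Val₂ χ Q :=
  exists_place_of_range hx C.ρ₂ χ.1 hint hsurj hχ (hconst₂ C χ)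

/-- **`val₁_unique`**. -/
theorem val₁_unique_of_range {x₁ : Fb₁} (hx : IsGen (ResidueField A) x₁)
    [Algebra.IsSeparable (ResidueField A)⟮x₁⟯ Fb₁]
    (hint : ∀ b, IsIntegral (polyRing (ResidueField A) x₁) (C.ρ₁ b))
    (hsurj : ∀ f : Fb₁, IsIntegral (polyRing (ResidueField A) x₁) f → ∃ b, C.ρ₁ b = f)
    (χ : C.Pt) (Q Q' : Place (ResidueField A) Fb₁) (h : C.Val₁ χ Q) (h' : C.Val₁ χ Q') :
    Q = Q' :=
  place_unique_of_range hx C.ρ₁ χ.1 hint hsurj Q Q' h h'

/-- **`val₂_unique`**. -/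
theorem val₂_unique_of_range {x₂ : Fb₂} (hx : IsGen (ResidueField A) x₂)
    [Algebra.IsSeparable (ResidueField A)⟮x₂⟯ Fb₂]
    (hint : ∀ b, IsIntegral (polyRing (ResidueField A) x₂) (C.ρ₂ b))
    (hsurj : ∀ f : Fb₂, IsIntegral (polyRing (ResidueField A) x₂) f → ∃ b, C.ρ₂ b = f)
    (χ : C.Pt) (Q Q' : Place (ResidueField A) Fb₂) (h : C.Val₂ χ Q) (h' : C.Val₂ χ Q') :
    Q = Q' :=
  place_unique_of_range hx C.ρ₂ χ.1 hint hsurj Q Q' h h'

end Charts

end Fermat.Agent.T33.NodalPts4A
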