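/-
Programme T (S33), nodal layer, chapter N-D (helper8): **one residue disc over a smooth point of one
component** — port of `FF/UniqueZeroA` (§Disc) and `FF/DiscOfRedA` to a ONE-SIDED context
`SideCtx` = a Gauss ring with its reduction (`NodalCtx1.HalfRed`), a PARTIAL reduction of places
with the push-forward formula at the smooth points (`NodalAbs1B.SidePush`), and `LHyp` on `F`.

For `φ ∈ O`, `P̄` a smooth point which is a simple zero of `ρ φ`, without poles of `φ` over `P̄`: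
* `discPoint t` : the unique zero of `φ - t` over `P̄` (`t ∈ 𝔪_A`); every place over `P̄` is one;
* for any subring `O' ≤ O` containing the constants in which `φ` is a unit: the expansion
  `expand : discRing A O' discPoint →+* A⟦T⟧` (`ExpandA`), `expand φ = T`, `expand a = a`;
* `le_ord_ρ_of_coeff_mem` : if the first `k` coefficients of `expand y` lie in `𝔪_A` then
  `ρ y = 0 ∨ k ≤ ord_{P̄} (ρ y)`.
-/
import Mathlib
import Fermat.Agent.T33.NodalAbs1B
import Fermat.Agent.FF.GeomIface8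
import Fermat.Agent.FF.ExpandA

set_option autoImplicit false

open AlgebraicCurve IsLocalRing

namespace Fermat.Agent.T33.NodalDisc8A

open Fermat.Agent.X0.FF Fermat.Agent.FF.GeomIface8 Fermat.Agent.FF.ExpandA
  Fermat.Agent.RR.LSpace Fermat.Agent.FF.RedLat2 Fermat.Agent.T33.NodalCtx1
  Fermat.Agent.T33.NodalAbs1B

variable {K : Type*} [Field K] {A : ValuationSubring K}
variable {F : Type*} [Field F] [Algebra K F]
variable {Fb : Type*} [Field Fb] [Algebra (ResidueField A) Fb]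

/-! ### API of `HalfRed` (as `RedLat2.AbsRed`) -/

namespace HalfRedApi

variable (R : HalfRed A F Fb)

/-- the constant `a ∈ A` as an element of `O`. -/
def const (a : A) : R.O := ⟨algebraMap K F (a : K), R.algebraMap_mem a⟩

@[simp] theorem coe_const (a : A) : ((const R a : R.O) : F) = algebraMap K F (a : K) := rfl

theorem ρ_const (a : A) : R.ρ (const R a) = algebraMap (ResidueField A) Fb (residue A a) :=
  R.ρ_algebraMap a

theorem ρ_const_eq_zero {a : A} (ha : a ∈ maximalIdeal A) : R.ρ (const R a) = 0 := by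
  rw [ρ_const, (IsLocalRing.residue_eq_zero_iff a).2 ha, map_zero]

theorem ρ_const_ne_zero {a : A} (ha : a ∉ maximalIdeal A) : R.ρ (const R a) ≠ 0 := by
  rw [ρ_const]
  intro h
  apply ha
  rw [← IsLocalRing.residue_eq_zero_iff]
  exact (algebraMap (ResidueField A) Fb).injective (by rw [h, map_zero])

/-- `O ∩ K = A`. -/
theorem mem_of_algebraMap_mem {c : K} (h : algebraMap K F c ∈ R.O) : c ∈ A := by
  by_contra hc
  have hc0 : c ≠ 0 := fun h0 => hc (h0 ▸ A.zero_mem)
  have hinv : c⁻¹ ∈ A := (A.mem_or_inv_mem c).resolve_left hc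
  have hmax : (⟨c⁻¹, hinv⟩ : A) ∈ maximalIdeal A := by
    rw [IsLocalRing.mem_maximalIdeal, mem_nonunits_iff]
    intro hu
    apply hc
    obtain ⟨u, hu⟩ := hu
    have h3 : ((u⁻¹ : Aˣ) : A) * (u : A) = 1 := Units.inv_mul u
    have h4 : (((u⁻¹ : Aˣ) : A) : K) * c⁻¹ = 1 := by
      have := congrArg (Subtype.val) h3
      rw [hu] at this
      simpa using this
    have h5 : (((u⁻¹ : Aˣ) : A) : K) = c := by
      field_simp at h4
      exact h4
    rw [← h5]
    exact SetLike.coe_mem _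
  have h1 : (⟨algebraMap K F c, h⟩ : R.O) * const R ⟨c⁻¹, hinv⟩ = 1 := by
    apply Subtype.ext
    show algebraMap K F c * algebraMap K F c⁻¹ = 1
    rw [← map_mul, mul_inv_cancel₀ hc0, map_one]
  have h2 := congrArg R.ρ h1
  rw [map_mul, ρ_const_eq_zero R hmax, mul_zero, map_one] at h2
  exact zero_ne_one h2

/-- an element of `O` with nonzero reduction is a unit of `O`. -/
theorem inv_mem_of_ρ_ne_zero {y : R.O} (hy : R.ρ y ≠ 0) : (y : F)⁻¹ ∈ R.O := by
  have hy0 : (y : F) ≠ 0 := by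
    intro h0
    apply hy
    have : y = 0 := Subtype.ext h0
    rw [this, map_zero]
  obtain ⟨c, hc0, hmem, hne⟩ := R.gauss (y : F)⁻¹ (inv_ne_zero hy0)
  -- `c = y * (c y⁻¹) ∈ O ∩ K = A`, with nonzero reduction, hence a unit of `A`
  have hc : algebraMap K F c ∈ R.O := by
    have : algebraMap K F c = (y : F) * (algebraMap K F c * (y : F)⁻¹) := by
      field_simp
    rw [this]
    exact R.O.mul_mem y.2 hmem
  have hcA : c ∈ A := mem_of_algebraMap_mem R hc
  have hprod : const R ⟨c, hcA⟩ = y * ⟨algebraMap K F c * (y : F)⁻¹, hmem⟩ := by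
    apply Subtype.ext
    show algebraMap K F c = (y : F) * (algebraMap K F c * (y : F)⁻¹)
    field_simp
  have hρc : R.ρ (const R ⟨c, hcA⟩) ≠ 0 := by
    rw [hprod, map_mul]
    exact mul_ne_zero hy hne
  have hunit : (⟨c, hcA⟩ : A) ∉ maximalIdeal A := fun h => hρc (ρ_const_eq_zero R h)
  have hcinv : c⁻¹ ∈ A := by
    rw [IsLocalRing.mem_maximalIdeal, mem_nonunits_iff, not_not] at hunit
    obtain ⟨u, hu⟩ := hunit
    have h3 : (u : A) * ((u⁻¹ : Aˣ) : A) = 1 := Units.mul_inv u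
    have h4 : c * (((u⁻¹ : Aˣ) : A) : K) = 1 := by
      have := congrArg (Subtype.val) h3
      rw [hu] at this
      simpa using this
    have h5 : (((u⁻¹ : Aˣ) : A) : K) = c⁻¹ := by
      field_simp
      rw [mul_comm]
      exact h4
    rw [← h5]
    exact SetLike.coe_mem _
  have : (y : F)⁻¹ = algebraMap K F c⁻¹ * (algebraMap K F c * (y : F)⁻¹) := by
    rw [← mul_assoc, ← map_mul, inv_mul_cancel₀ hc0, map_one, one_mul]
  rw [this]
  exact R.O.mul_mem (R.algebraMap_mem ⟨c⁻¹, hcinv⟩) hmem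


end HalfRedApi

/-! ### the one-sided context -/

/-- a Gauss ring with its reduction, a partial reduction of places with the push-forward formula
at the points of `Sm`, and `LHyp` on the generic fibre. -/
structure SideCtx (A : ValuationSubring K) (F : Type*) [Field F] [Algebra K F]
    (Fb : Type*) [Field Fb] [Algebra (ResidueField A) Fb] where
  c : HalfRed A F Fb
  r : Place K F → Option (Place (ResidueField A) Fb)
  Sm : Place (ResidueField A) Fb → Prop
  side : SidePush c r Sm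
  H : LHyp K F

namespace SideCtx

variable (C : SideCtx A F Fb)

/-- the Gauss ring. -/
abbrev O : Subring F := C.c.O

/-- the reduction. -/
abbrev ρ : C.O →+* Fb := C.c.ρ

theorem const_mem (a : A) : algebraMap K F (a : K) ∈ C.O := C.c.algebraMap_mem a

/-- the constant `a`, as an element of the Gauss ring. -/
def const (a : A) : C.O := ⟨algebraMap K F (a : K), C.const_mem a⟩

theorem coe_const (a : A) : ((C.const a : C.O) : F) = algebraMap K F (a : K) := rfl

theorem ρ_const_max (a : A) (ha : a ∈ maximalIdeal A) :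
    C.ρ ⟨algebraMap K F (a : K), C.const_mem a⟩ = 0 :=
  HalfRedApi.ρ_const_eq_zero C.c ha

theorem ρ_const_unit (a : A) (ha : IsUnit a) :
    ∃ u : ResidueField A, u ≠ 0 ∧
      C.ρ ⟨algebraMap K F (a : K), C.const_mem a⟩ = algebraMap (ResidueField A) Fb u := by
  refine ⟨residue A a, ?_, C.c.ρ_algebraMap a⟩
  intro h
  rw [IsLocalRing.residue_eq_zero_iff, mem_maximalIdeal, mem_nonunits_iff] at h
  exact h ha

theorem coe_ne_zero {y : C.O} (hy : C.ρ y ≠ 0) : (y : F) ≠ 0 := SidePush.coe_ne_zero hy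

theorem inv_mem (y : C.O) (hy : C.ρ y ≠ 0) : ((y : F))⁻¹ ∈ C.O :=
  HalfRedApi.inv_mem_of_ρ_ne_zero C.c hy

theorem isOUnit_of_ρ_ne_zero (y : C.O) (hy : C.ρ y ≠ 0) : IsOUnit C.O (y : F) :=
  ⟨C.coe_ne_zero hy, y.2, C.inv_mem y hy⟩

theorem fibre_sum (y : C.O) (hy : C.ρ y ≠ 0) (Pb : Place (ResidueField A) Fb) (hSm : C.Sm Pb) :
    ∃ s : Finset (Place K F), (∀ P ∈ s, C.r P = some Pb) ∧
      (∀ P, C.r P = some Pb → P ∉ s → P.ord (y : F) = 0) ∧
      ∑ P ∈ s, P.ord (y : F) = Pb.ord (C.ρ y) :=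
  C.side.fibre_sum C.H y hy Pb hSm

theorem ord_ρ_nonneg (y : C.O) (hy : C.ρ y ≠ 0) (Pb : Place (ResidueField A) Fb) (hSm : C.Sm Pb)
    (hnn : ∀ P, C.r P = some Pb → 0 ≤ P.ord (y : F)) : 0 ≤ Pb.ord (C.ρ y) :=
  C.side.ord_ρ_nonneg C.H y hy Pb hSm hnn

theorem ord_eq_zero_of_over (y : C.O) (hy : C.ρ y ≠ 0) (Pb : Place (ResidueField A) Fb)
    (hSm : C.Sm Pb) (h0 : Pb.ord (C.ρ y) = 0) (hnn : ∀ P, C.r P = some Pb → 0 ≤ P.ord (y : F))
    (Q : Place K F) (hQ : C.r Q = some Pb) : Q.ord (y : F) = 0 :=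
  C.side.ord_eq_zero_of_over C.H y hy Pb hSm h0 hnn Q hQ

theorem exists_unique_zero_over (y : C.O) (hy : C.ρ y ≠ 0) (Pb : Place (ResidueField A) Fb)
    (hSm : C.Sm Pb) (h1 : Pb.ord (C.ρ y) = 1)
    (hnn : ∀ P, C.r P = some Pb → 0 ≤ P.ord (y : F)) :
    ∃ P, C.r P = some Pb ∧ P.ord (y : F) = 1 ∧
      ∀ P', C.r P' = some Pb → P' ≠ P → P'.ord (y : F) = 0 :=
  C.side.exists_unique_zero_over C.H y hy Pb hSm h1 hnn

include C in
/-- places have degree one: every function regular at `Q` has a value. -/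
theorem exists_value (Q : Place K F) (f : F) (hf : 0 ≤ Q.ord f) :
    ∃ a : K, f - algebraMap K F a = 0 ∨ 0 < Q.ord (f - algebraMap K F a) := by
  obtain ⟨a, ha⟩ := C.H.residue Q f (mem_of_ord_nonneg Q hf)
  exact ⟨a, ha.imp (fun h => sub_eq_zero.2 h) id⟩

section Disc

variable (φ : C.O) (Pb : Place (ResidueField A) Fb) (hSm : C.Sm Pb) (hPb : Pb.ord (C.ρ φ) = 1)
variable (hnp : ∀ P, C.r P = some Pb → 0 ≤ P.ord (φ : F))

include hPb in
theorem ρ_φ_ne_zero : C.ρ φ ≠ 0 := by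
  intro h
  rw [h, Place.ord_zero] at hPb
  exact zero_ne_one hPb

theorem ρ_sub_const (t : A) (ht : t ∈ maximalIdeal A) : C.ρ (φ - C.const t) = C.ρ φ := by
  rw [map_sub, const, C.ρ_const_max t ht, sub_zero]

include hPb hnp in
theorem ord_sub_const_nonneg (t : A) (ht : t ∈ maximalIdeal A) (P : Place K F)
    (hP : C.r P = some Pb) : 0 ≤ P.ord ((φ - C.const t : C.O) : F) := by
  have hne : ((φ - C.const t : C.O) : F) ≠ 0 :=
    C.coe_ne_zero (by rw [C.ρ_sub_const φ t ht]; exact C.ρ_φ_ne_zero φ Pb hPb)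
  have h1 : ((φ - C.const t : C.O) : F) = (φ : F) - algebraMap K F (t : K) := rfl
  rw [h1] at hne ⊢
  have h2 := ord_sub_ge P hne
  rw [ord_algebraMap] at h2
  exact le_trans (le_min (hnp P hP) le_rfl) h2

include hSm hPb hnp in
/-- **unique zero.** -/
theorem exists_disc_point (t : A) (ht : t ∈ maximalIdeal A) :
    ∃ P, C.r P = some Pb ∧ P.ord ((φ : F) - algebraMap K F (t : K)) = 1 ∧
      ∀ P', C.r P' = some Pb → P' ≠ P → P'.ord ((φ : F) - algebraMap K F (t : K)) = 0 := by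
  have hρ : C.ρ (φ - C.const t) ≠ 0 := by
    rw [C.ρ_sub_const φ t ht]; exact C.ρ_φ_ne_zero φ Pb hPb
  exact C.exists_unique_zero_over (φ - C.const t) hρ Pb hSm
    (by rw [C.ρ_sub_const φ t ht]; exact hPb)
    (fun P hP => C.ord_sub_const_nonneg φ Pb hPb hnp t ht P hP)

/-- the point of the disc over `P̄` with `φ = t`. -/
noncomputable def discPoint (t : A) : Place K F := by
  classical
  exact if ht : t ∈ maximalIdeal A then (C.exists_disc_point φ Pb hSm hPb hnp t ht).choose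
    else Classical.choice ⟨(C.exists_disc_point φ Pb hSm hPb hnp 0 (Ideal.zero_mem _)).choose⟩

theorem discPoint_spec (t : A) (ht : t ∈ maximalIdeal A) :
    C.r (C.discPoint φ Pb hSm hPb hnp t) = some Pb ∧
    (C.discPoint φ Pb hSm hPb hnp t).ord ((φ : F) - algebraMap K F (t : K)) = 1 ∧
      ∀ P', C.r P' = some Pb → P' ≠ C.discPoint φ Pb hSm hPb hnp t →
        P'.ord ((φ : F) - algebraMap K F (t : K)) = 0 := by
  unfold discPoint
  rw [dif_pos ht]
  exact (C.exists_disc_point φ Pb hSm hPb hnp t ht).choose_spec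

theorem r_discPoint (t : A) (ht : t ∈ maximalIdeal A) : C.r (C.discPoint φ Pb hSm hPb hnp t) = some Pb :=
  (C.discPoint_spec φ Pb hSm hPb hnp t ht).1

theorem ord_discPoint_self (t : A) (ht : t ∈ maximalIdeal A) :
    (C.discPoint φ Pb hSm hPb hnp t).ord ((φ : F) - algebraMap K F (t : K)) = 1 :=
  (C.discPoint_spec φ Pb hSm hPb hnp t ht).2.1

/-- a place over `P̄` where `φ - t` vanishes is `P(t)`. -/
theorem eq_discPoint (t : A) (ht : t ∈ maximalIdeal A) (Q : Place K F) (hQ : C.r Q = some Pb)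
    (hpos : 0 < Q.ord ((φ : F) - algebraMap K F (t : K))) : Q = C.discPoint φ Pb hSm hPb hnp t := by
  by_contra hne
  have := (C.discPoint_spec φ Pb hSm hPb hnp t ht).2.2 Q hQ hne
  omega

theorem ord_discPoint_of_ne (t t' : A) (ht : t ∈ maximalIdeal A) (_ht' : t' ∈ maximalIdeal A)
    (hne : t ≠ t') :
    (C.discPoint φ Pb hSm hPb hnp t).ord ((φ : F) - algebraMap K F (t' : K)) = 0 := by
  set P := C.discPoint φ Pb hSm hPb hnp t
  have h1 : P.ord ((φ : F) - algebraMap K F (t : K)) = 1 := C.ord_discPoint_self φ Pb hSm hPb hnp t ht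
  have hc : algebraMap K F ((t : K) - (t' : K)) ≠ 0 := by
    rw [Ne, map_eq_zero, sub_eq_zero]
    exact fun h => hne (Subtype.ext h)
  have h2 : (φ : F) - algebraMap K F (t' : K) =
      algebraMap K F ((t : K) - (t' : K)) + ((φ : F) - algebraMap K F (t : K)) := by
    rw [map_sub]; ring
  rw [h2, ord_add_eq_of_lt P hc (by rw [ord_algebraMap, h1]; exact zero_lt_one), ord_algebraMap]

include hSm hPb hnp in
/-- **every place over `P̄` is a point of the disc.** -/
theorem exists_eq_discPoint (Q : Place K F) (hQ : C.r Q = some Pb) :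
    ∃ t : A, t ∈ maximalIdeal A ∧ Q = C.discPoint φ Pb hSm hPb hnp t := by
  obtain ⟨a, ha⟩ := C.exists_value Q (φ : F) (hnp Q hQ)
  have hφne : C.ρ φ ≠ 0 := C.ρ_φ_ne_zero φ Pb hPb
  -- `φ` is not constant
  have hnc : (φ : F) - algebraMap K F a ≠ 0 := by
    intro h0
    have hφa : (φ : F) = algebraMap K F a := sub_eq_zero.1 h0
    rcases A.mem_or_inv_mem a with haA | haA
    · by_cases hu : IsUnit (⟨a, haA⟩ : A)
      · obtain ⟨u, hu0, hu1⟩ := C.ρ_const_unit ⟨a, haA⟩ hu
        have : φ = C.const ⟨a, haA⟩ := Subtype.ext hφa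
        rw [this, const, hu1] at hPb
        rw [ord_algebraMap] at hPb
        exact zero_ne_one hPb
      · have : φ = C.const ⟨a, haA⟩ := Subtype.ext hφa
        apply hφne
        rw [this, const]
        exact C.ρ_const_max _ ((mem_maximalIdeal _).2 hu)
    · -- `a⁻¹ ∈ A`, `a ∉ A` or `a` a unit; then `a⁻¹ φ = 1`
      have ha0 : a ≠ 0 := by
        intro h
        apply hφne
        have : φ = 0 := Subtype.ext (by rw [hφa, h, map_zero]; rfl)
        rw [this, map_zero]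
      have h1 : C.const ⟨a⁻¹, haA⟩ * φ = 1 := by
        apply Subtype.ext
        show algebraMap K F a⁻¹ * (φ : F) = 1
        rw [hφa, ← map_mul, inv_mul_cancel₀ ha0, map_one]
      have h2 := congrArg C.ρ h1
      rw [map_mul, map_one] at h2
      by_cases hu : IsUnit (⟨a⁻¹, haA⟩ : A)
      · obtain ⟨u, hu0, hu1⟩ := C.ρ_const_unit ⟨a⁻¹, haA⟩ hu
        rw [const, hu1] at h2
        have h3 : C.ρ φ = algebraMap (ResidueField A) Fb u⁻¹ := by
          rw [map_inv₀]
          exact eq_inv_of_mul_eq_one_right h2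
        rw [h3, ord_algebraMap] at hPb
        exact zero_ne_one hPb
      · rw [const, C.ρ_const_max _ ((mem_maximalIdeal _).2 hu), zero_mul] at h2
        exact zero_ne_one h2
  have hpos : 0 < Q.ord ((φ : F) - algebraMap K F a) := ha.resolve_left hnc
  -- `a ∈ A`
  have haA : a ∈ A := by
    by_contra hnA
    have hinv : a⁻¹ ∈ A := (A.mem_or_inv_mem a).resolve_left hnA
    have ha0 : a ≠ 0 := fun h => hnA (h ▸ A.zero_mem)
    have hnu : ¬ IsUnit (⟨a⁻¹, hinv⟩ : A) := by
      intro hu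
      apply hnA
      obtain ⟨v, hv⟩ := hu.exists_right_inv
      have hv' : a⁻¹ * (v : K) = 1 := by
        have := congrArg Subtype.val hv
        simpa using this
      have : (v : K) = a := by
        field_simp at hv'
        exact hv'
      rw [← this]; exact v.2
    set y : C.O := C.const ⟨a⁻¹, hinv⟩ * φ - 1 with hy
    have hρy : C.ρ y = -1 := by
      rw [hy, map_sub, map_mul, map_one, const, C.ρ_const_max _ ((mem_maximalIdeal _).2 hnu),
        zero_mul, zero_sub]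
    have hρy0 : C.ρ y ≠ 0 := by rw [hρy]; exact neg_ne_zero.2 one_ne_zero
    have hyF : (y : F) = algebraMap K F a⁻¹ * ((φ : F) - algebraMap K F a) := by
      show algebraMap K F a⁻¹ * (φ : F) - 1 = _
      rw [mul_sub, ← map_mul, inv_mul_cancel₀ ha0, map_one]
    have hca : algebraMap K F a⁻¹ ≠ 0 := by
      rw [Ne, map_eq_zero]; exact inv_ne_zero ha0
    have hord : ∀ P : Place K F, P.ord (y : F) = P.ord ((φ : F) - algebraMap K F a) := by
      intro P
      rw [hyF, P.ord_mul hca hnc, ord_algebraMap, zero_add]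
    have hnn : ∀ P, C.r P = some Pb → 0 ≤ P.ord (y : F) := by
      intro P hP
      rw [hord]
      have h2 := ord_sub_ge P hnc
      rw [ord_algebraMap] at h2
      exact le_trans (le_min (hnp P hP) le_rfl) h2
    have h0 : Pb.ord (C.ρ y) = 0 := by
      rw [hρy, ord_neg, Place.ord_one]
    have := C.ord_eq_zero_of_over y hρy0 Pb hSm h0 hnn Q hQ
    rw [hord] at this
    omega
  -- `a ∈ 𝔪_A`
  have hmax : (⟨a, haA⟩ : A) ∈ maximalIdeal A := by
    rw [mem_maximalIdeal]
    intro hu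
    obtain ⟨u, hu0, hu1⟩ := C.ρ_const_unit ⟨a, haA⟩ hu
    set y : C.O := φ - C.const ⟨a, haA⟩ with hy
    have hρy : C.ρ y = C.ρ φ - algebraMap (ResidueField A) Fb u := by
      rw [hy, map_sub, const, hu1]
    have hcu : algebraMap (ResidueField A) Fb u ≠ 0 := by
      rw [Ne, map_eq_zero]; exact hu0
    have h0 : Pb.ord (C.ρ y) = 0 := by
      rw [hρy, sub_eq_add_neg, add_comm,
        ord_add_eq_of_lt Pb (neg_ne_zero.2 hcu) (by rw [ord_neg, ord_algebraMap, hPb]; exact zero_lt_one),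
        ord_neg, ord_algebraMap]
    have hρy0 : C.ρ y ≠ 0 := by
      intro h
      rw [hρy, sub_eq_zero] at h
      rw [h, ord_algebraMap] at hPb
      exact zero_ne_one hPb
    have hnn : ∀ P, C.r P = some Pb → 0 ≤ P.ord (y : F) := by
      intro P hP
      have h2 := ord_sub_ge P hnc
      rw [ord_algebraMap] at h2
      exact le_trans (le_min (hnp P hP) le_rfl) h2
    have := C.ord_eq_zero_of_over y hρy0 Pb hSm h0 hnn Q hQ
    have h3 : ((y : C.O) : F) = (φ : F) - algebraMap K F a := rfl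
    rw [h3] at this
    omega
  exact ⟨⟨a, haA⟩, hmax, C.eq_discPoint φ Pb hSm hPb hnp ⟨a, haA⟩ hmax Q hQ hpos⟩

end Disc

/-! ### the expansion on the disc -/

section Exp

open PowerSeries

variable (φ : C.O) (Pb : Place (ResidueField A) Fb) (hSm : C.Sm Pb) (hPb : Pb.ord (C.ρ φ) = 1)
variable (hnp : ∀ P, C.r P = some Pb → 0 ≤ P.ord (φ : F))
variable (O' : Subring F) (hO' : O' ≤ C.O) (hconst : ∀ a : A, algebraMap K F (a : K) ∈ O')
variable (hφO : (φ : F) ∈ O') (hφu : ((φ : F))⁻¹ ∈ O')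

open Classical in
theorem ord_discPoint_φ (t : A) (ht : t ∈ maximalIdeal A) :
    (C.discPoint φ Pb hSm hPb hnp t).ord (φ : F) = if t = 0 then 1 else 0 := by
  split_ifs with h
  · have := C.ord_discPoint_self φ Pb hSm hPb hnp t ht
    rw [h] at this ⊢
    simpa using this
  · have := C.ord_discPoint_of_ne φ Pb hSm hPb hnp t 0 ht (Ideal.zero_mem _) h
    simpa using this

/-- the disc ring (inside the subring `O'`). -/
noncomputable abbrev Rj : Subring F := discRing A O' (C.discPoint φ Pb hSm hPb hnp)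

include hO' in
theorem mem_O_of_mem_Rj {h : F} (hh : h ∈ C.Rj φ Pb hSm hPb hnp O') : h ∈ C.O :=
  hO' (mem_discRing_iff.1 hh).1

/-- a function of the disc ring has no pole over `P̄`. -/
theorem ord_nonneg_of_mem_Rj {h : F} (hh : h ∈ C.Rj φ Pb hSm hPb hnp O') (P : Place K F)
    (hP : C.r P = some Pb) : 0 ≤ P.ord h := by
  obtain ⟨t, ht, rfl⟩ := C.exists_eq_discPoint φ Pb hSm hPb hnp P hP
  exact (mem_discRing_iff.1 hh).2 t ht

theorem mem_centre_of_mem_Rj {h : F} (hh : h ∈ C.Rj φ Pb hSm hPb hnp O') :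
    h ∈ (C.discPoint φ Pb hSm hPb hnp 0).toValuationSubring :=
  mem_of_ord_nonneg _ ((mem_discRing_iff.1 hh).2 0 (Ideal.zero_mem _))

include hφO in
theorem φ_mem_Rj : (φ : F) ∈ C.Rj φ Pb hSm hPb hnp O' := by
  rw [mem_discRing_iff]
  refine ⟨hφO, fun t ht => ?_⟩
  exact hnp _ (C.r_discPoint φ Pb hSm hPb hnp t ht)

include hconst in
theorem const_mem_Rj (a : A) : algebraMap K F (a : K) ∈ C.Rj φ Pb hSm hPb hnp O' := by
  rw [mem_discRing_iff]
  refine ⟨hconst a, fun t _ => ?_⟩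
  rw [ord_algebraMap]

/-- the value at the centre of the disc, as a ring hom to `K`. -/
noncomputable def εK : C.Rj φ Pb hSm hPb hnp O' →+* K :=
  (valueAt C.H (C.discPoint φ Pb hSm hPb hnp 0)).comp
    (Subring.inclusion (fun _ hh => C.mem_centre_of_mem_Rj φ Pb hSm hPb hnp O' hh :
      C.Rj φ Pb hSm hPb hnp O' ≤ (C.discPoint φ Pb hSm hPb hnp 0).toValuationSubring.toSubring))

theorem εK_apply (h : C.Rj φ Pb hSm hPb hnp O') :
    C.εK φ Pb hSm hPb hnp O' h =
      valueAt C.H (C.discPoint φ Pb hSm hPb hnp 0)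
        ⟨(h : F), C.mem_centre_of_mem_Rj φ Pb hSm hPb hnp O' h.2⟩ := rfl

include hO' in
theorem εK_mem (h : C.Rj φ Pb hSm hPb hnp O') : C.εK φ Pb hSm hPb hnp O' h ∈ A := by
  rw [εK_apply]
  exact C.side.value_mem C.H ⟨(h : F), C.mem_O_of_mem_Rj φ Pb hSm hPb hnp O' hO' h.2⟩ Pb hSm
    (fun P hP => C.ord_nonneg_of_mem_Rj φ Pb hSm hPb hnp O' h.2 P hP) _
    (C.r_discPoint φ Pb hSm hPb hnp 0 (Ideal.zero_mem _)) _
    (sub_valueAt C.H _ ⟨(h : F), C.mem_centre_of_mem_Rj φ Pb hSm hPb hnp O' h.2⟩)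

/-- the value at the centre of the disc. -/
noncomputable def εA : C.Rj φ Pb hSm hPb hnp O' →+* A where
  toFun h := ⟨C.εK φ Pb hSm hPb hnp O' h, C.εK_mem φ Pb hSm hPb hnp O' hO' h⟩
  map_one' := Subtype.ext (map_one _)
  map_mul' a b := Subtype.ext (map_mul _ a b)
  map_zero' := Subtype.ext (map_zero _)
  map_add' a b := Subtype.ext (map_add _ a b)

/-- the constants. -/
noncomputable def ιA : A →+* C.Rj φ Pb hSm hPb hnp O' where
  toFun a := ⟨algebraMap K F (a : K), C.const_mem_Rj φ Pb hSm hPb hnp O' hconst a⟩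
  map_one' := Subtype.ext (by simp)
  map_mul' a b := Subtype.ext (by simp)
  map_zero' := Subtype.ext (by simp)
  map_add' a b := Subtype.ext (by simp)

/-- the parameter, in the disc ring. -/
noncomputable def φR : C.Rj φ Pb hSm hPb hnp O' := ⟨(φ : F), C.φ_mem_Rj φ Pb hSm hPb hnp O' hφO⟩

include hPb in
theorem coe_φ_ne_zero : (φ : F) ≠ 0 := C.coe_ne_zero (C.ρ_φ_ne_zero φ Pb hPb)

/-- the expansion data of the disc. -/
noncomputable def expData : ExpData (C.Rj φ Pb hSm hPb hnp O') A where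
  φ := C.φR φ Pb hSm hPb hnp O' hφO
  ε := C.εA φ Pb hSm hPb hnp O' hO'
  ι := C.ιA φ Pb hSm hPb hnp O' hconst
  ε_ι a := by
    apply Subtype.ext
    show C.εK φ Pb hSm hPb hnp O' (C.ιA φ Pb hSm hPb hnp O' hconst a) = (a : K)
    rw [εK_apply]
    exact valueAt_algebraMap C.H _ _
  ε_φ := by
    apply Subtype.ext
    show C.εK φ Pb hSm hPb hnp O' (C.φR φ Pb hSm hPb hnp O' hφO) = 0
    rw [εK_apply, valueAt_eq_zero_iff]
    right
    have := C.ord_discPoint_self φ Pb hSm hPb hnp 0 (Ideal.zero_mem _)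
    simp only [ZeroMemClass.coe_zero, map_zero, sub_zero] at this
    show 0 < (C.discPoint φ Pb hSm hPb hnp 0).ord (φ : F)
    rw [this]; exact zero_lt_one
  ker h hh := by
    have h1 : C.εK φ Pb hSm hPb hnp O' h = 0 := congrArg Subtype.val hh
    rw [εK_apply, valueAt_eq_zero_iff] at h1
    have hφ0 : (φ : F) ≠ 0 := C.coe_φ_ne_zero φ Pb hPb
    have hmem : (h : F) / (φ : F) ∈ C.Rj φ Pb hSm hPb hnp O' := by
      rw [mem_discRing_iff]
      refine ⟨?_, fun t ht => ?_⟩
      · rw [div_eq_mul_inv]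
        exact O'.mul_mem (mem_discRing_iff.1 h.2).1 hφu
      · by_cases hh0 : (h : F) = 0
        · rw [hh0, zero_div, Place.ord_zero]
        · rw [ord_div _ hh0 hφ0, C.ord_discPoint_φ φ Pb hSm hPb hnp t ht]
          have hnn := (mem_discRing_iff.1 h.2).2 t ht
          split_ifs with ht0
          · subst ht0
            rcases h1 with h1 | h1
            · exact absurd h1 hh0
            · have : 0 < (C.discPoint φ Pb hSm hPb hnp 0).ord (h : F) := h1
              omega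
          · omega
    refine ⟨⟨(h : F) / (φ : F), hmem⟩, ?_⟩
    apply Subtype.ext
    show (h : F) = (φ : F) * ((h : F) / (φ : F))
    rw [mul_div_cancel₀ _ hφ0]
  reg a b hab := by
    have hφ0 : C.φR φ Pb hSm hPb hnp O' hφO ≠ 0 := by
      intro h0
      exact C.coe_φ_ne_zero φ Pb hPb (congrArg Subtype.val h0)
    exact mul_left_cancel₀ hφ0 hab

/-- **the expansion on the disc.** -/
noncomputable def expand : C.Rj φ Pb hSm hPb hnp O' →+* PowerSeries A :=
  (C.expData φ Pb hSm hPb hnp O' hO' hconst hφO hφu).expand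

theorem expand_φ (h : C.Rj φ Pb hSm hPb hnp O') (hh : (h : F) = (φ : F)) :
    C.expand φ Pb hSm hPb hnp O' hO' hconst hφO hφu h = X := by
  have : h = (C.expData φ Pb hSm hPb hnp O' hO' hconst hφO hφu).φ := Subtype.ext hh
  rw [this]
  exact (C.expData φ Pb hSm hPb hnp O' hO' hconst hφO hφu).expand_φ

theorem expand_const (h : C.Rj φ Pb hSm hPb hnp O') (a : A)
    (hh : (h : F) = algebraMap K F (a : K)) :
    C.expand φ Pb hSm hPb hnp O' hO' hconst hφO hφu h = PowerSeries.C a := by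
  have : h = (C.expData φ Pb hSm hPb hnp O' hO' hconst hφO hφu).ι a := Subtype.ext hh
  rw [this]
  exact (C.expData φ Pb hSm hPb hnp O' hO' hconst hφO hφu).expand_ι a

/-- **reduction of the expansion**: if the first `k` coefficients of `expand y` lie in `𝔪_A`, then
`ρ y = 0` or `ρ y` vanishes to order at least `k` at `P̄`. -/
theorem le_ord_ρ_of_coeff_mem (y : F) (hy : y ∈ C.Rj φ Pb hSm hPb hnp O') (k : ℕ)
    (hk : ∀ n < k, PowerSeries.coeff n
      (C.expand φ Pb hSm hPb hnp O' hO' hconst hφO hφu ⟨y, hy⟩) ∈ maximalIdeal A) :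
    C.ρ ⟨y, C.mem_O_of_mem_Rj φ Pb hSm hPb hnp O' hO' hy⟩ = 0 ∨
      (k : ℤ) ≤ Pb.ord (C.ρ ⟨y, C.mem_O_of_mem_Rj φ Pb hSm hPb hnp O' hO' hy⟩) := by
  by_cases hρ : C.ρ ⟨y, C.mem_O_of_mem_Rj φ Pb hSm hPb hnp O' hO' hy⟩ = 0
  · exact Or.inl hρ
  right
  set E := C.expData φ Pb hSm hPb hnp O' hO' hconst hφO hφu with hE
  -- the reduction on the disc ring
  let θ : C.Rj φ Pb hSm hPb hnp O' →+* Fb :=
    C.ρ.comp (Subring.inclusion (fun _ hh => C.mem_O_of_mem_Rj φ Pb hSm hPb hnp O' hO' hh :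
      C.Rj φ Pb hSm hPb hnp O' ≤ C.O))
  have hθ : ∀ h : C.Rj φ Pb hSm hPb hnp O',
      θ h = C.ρ ⟨(h : F), C.mem_O_of_mem_Rj φ Pb hSm hPb hnp O' hO' h.2⟩ := fun h => rfl
  have hc : ∀ n < k, θ (E.ι (PowerSeries.coeff n (E.expand ⟨y, hy⟩))) = 0 := by
    intro n hn
    rw [hθ]
    exact C.ρ_const_max _ (hk n hn)
  have h1 := E.map_eq_pow_mul_of_coeff θ k ⟨y, hy⟩ hc
  rw [hθ, hθ, hθ] at h1
  set q : C.Rj φ Pb hSm hPb hnp O' := E.quo^[k] ⟨y, hy⟩ with hq
  have hφR : C.ρ ⟨((E.φ : C.Rj φ Pb hSm hPb hnp O') : F),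
      C.mem_O_of_mem_Rj φ Pb hSm hPb hnp O' hO' (E.φ).2⟩ = C.ρ φ := rfl
  rw [hφR] at h1
  change C.ρ ⟨y, _⟩ = _ at h1
  have hφne : C.ρ φ ≠ 0 := C.ρ_φ_ne_zero φ Pb hPb
  have hρq : C.ρ ⟨(q : F), C.mem_O_of_mem_Rj φ Pb hSm hPb hnp O' hO' q.2⟩ ≠ 0 := by
    intro h0
    apply hρ
    rw [h1, h0, mul_zero]
  have hnn : 0 ≤ Pb.ord (C.ρ ⟨(q : F), C.mem_O_of_mem_Rj φ Pb hSm hPb hnp O' hO' q.2⟩) :=
    C.ord_ρ_nonneg ⟨(q : F), _⟩ hρq Pb hSm
      (fun P hP => C.ord_nonneg_of_mem_Rj φ Pb hSm hPb hnp O' q.2 P hP)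
  rw [h1, Pb.ord_mul (pow_ne_zero _ hφne) hρq, ord_pow, hPb]
  omega

end Exp

end SideCtx

end Fermat.Agent.T33.NodalDisc8A
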