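/-
Programme T (S33), chapter (e) "N34 over ℚ̄", block [B-2] (helper8): **the place side of the two
charts** — the centre of a place on a chart, in helper1's vocabulary (`NodalPlaces1.Chart`,
`Chart.Pt`, `Chart.Centred`, `TwoCharts.centred₀/centred₁`).  Generic `K, A, F` with `LHyp K F`
(all places rational); no N34 object appears.

* `compVal H P : ValuationSubring F` — the composite `V_P = {f ∈ O_P | f(P) ∈ A}` of the place `P`
  and the valuation ring `A`; `mem_compVal_iff : f ∈ V_P ↔ ∃ a : A, HasValue P f a`;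
* `Chart.ptOfPlace`, `Chart.centred_ptOfPlace` : if `B ⊆ V_P`, the character
  `χ_P : B → κ`, `b ↦ residue (b(P))`, is a point of the chart at which `P` is centred;
* `Chart.centred_iff_thru` : DICTIONARY with `LocalReg5.Thru` —
  `Centred P χ ↔ (B ⊆ O_P) ∧ (∀ b, χ b ≠ 0 → b⁻¹ ∈ O_P)`; in particular a place passes through at most
  one closed point of the chart;
* `centred₀_of_chart`, `centred₁_of_chart` : the fields `centred₀`, `centred₁` of `TwoCharts` for charts
  contained in `chart ↥A t`, `chart ↥A t⁻¹` (integral closures of `A[t]`, `A[t⁻¹]`): a place at which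
  `t` has an integral value is centred on the chart `0`; the others are centred on the chart `1` at
  a point with `t⁻¹ ↦ 0`.
-/
import Mathlib
import Fermat.Agent.T33.NodalPlaces1B
import Fermat.Agent.T33.NodalDisc8A
import Fermat.Agent.FF.RedLat2A
import Fermat.Agent.RED.PUR.ChartGeneric22

set_option autoImplicit false

open AlgebraicCurve IsLocalRing

noncomputable section

namespace Fermat.Agent.T33.PlaceCentre8

open Fermat.Agent.X0.FF Fermat.Agent.RR.LSpace Fermat.Agent.FF.RedLat2
  Fermat.Agent.T33.NodalCtx1 Fermat.Agent.T33.NodalPlaces1 Fermat.Agent.T33.NodalDisc8A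
  Fermat.Agent.RED.PUR.ChartGeneric22

variable {K : Type*} [Field K] {A : ValuationSubring K} {F : Type*} [Field F] [Algebra K F]
variable (H : LHyp K F)

/-! ### values -/

theorem hasValue_valueAt (P : Place K F) {f : F} (hf : f ∈ P.toValuationSubring) :
    HasValue P f (valueAt H P ⟨f, hf⟩) :=
  sub_valueAt H P ⟨f, hf⟩

theorem mem_of_hasValue {P : Place K F} {f : F} {a : K} (h : HasValue P f a) :
    f ∈ P.toValuationSubring := by
  rcases h with h | h
  · rw [h]
    exact P.algebraMap_mem' a
  · have h1 : f - algebraMap K F a ∈ P.toValuationSubring := mem_of_ord_nonneg P h.le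
    have : f = (f - algebraMap K F a) + algebraMap K F a := by ring
    rw [this]
    exact P.toValuationSubring.add_mem _ _ h1 (P.algebraMap_mem' a)

theorem valueAt_eq_of_hasValue {P : Place K F} {f : F} {a : K} (h : HasValue P f a) :
    valueAt H P ⟨f, mem_of_hasValue h⟩ = a :=
  (valueAt_eq_iff H P ⟨f, mem_of_hasValue h⟩ a).2 h

/-- a function with a nonzero value at `P` is a unit at `P`. -/
theorem inv_mem_of_hasValue {P : Place K F} {f : F} {a : K} (h : HasValue P f a) (ha : a ≠ 0) :
    f⁻¹ ∈ P.toValuationSubring := by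
  have hc : algebraMap K F a ≠ 0 := by rwa [Ne, map_eq_zero]
  rcases h with h | h
  · rw [h, ← map_inv₀]
    exact P.algebraMap_mem' a⁻¹
  · have e : f = algebraMap K F a + (f - algebraMap K F a) := by ring
    have h0 : P.ord f = 0 := by
      rw [e, ord_add_eq_of_lt P hc (by rw [ord_algebraMap]; exact h), ord_algebraMap]
    exact mem_of_ord_nonneg P (by rw [P.ord_inv, h0, neg_zero])

/-- a nonzero function with the value `0` at `P` is not a unit at `P`. -/
theorem inv_not_mem_of_hasValue_zero {P : Place K F} {f : F} (hf : f ≠ 0) (h : HasValue P f 0) :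
    f⁻¹ ∉ P.toValuationSubring := by
  intro hmem
  rcases h with h | h
  · rw [map_zero] at h
    exact hf h
  · rw [map_zero, sub_zero] at h
    have := ord_nonneg_of_mem P hmem
    rw [P.ord_inv] at this
    omega

/-! ### the composite valuation ring -/

/-- the composite `V_P` of the place `P` and the valuation ring `A`: the functions regular at `P`
with value in `A`. -/
def compVal (P : Place K F) : ValuationSubring F where
  carrier := {f | ∃ h : f ∈ P.toValuationSubring, valueAt H P ⟨f, h⟩ ∈ A}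
  mul_mem' := by
    rintro f g ⟨hf, hfa⟩ ⟨hg, hga⟩
    refine ⟨P.toValuationSubring.mul_mem _ _ hf hg, ?_⟩
    have : (⟨f * g, P.toValuationSubring.mul_mem _ _ hf hg⟩ : P.toValuationSubring) =
        ⟨f, hf⟩ * ⟨g, hg⟩ := rfl
    rw [this, map_mul]
    exact A.mul_mem _ _ hfa hga
  one_mem' := by
    refine ⟨P.toValuationSubring.one_mem, ?_⟩
    have : (⟨1, P.toValuationSubring.one_mem⟩ : P.toValuationSubring) = 1 := rfl
    rw [this, map_one]
    exact A.one_mem
  add_mem' := by
    rintro f g ⟨hf, hfa⟩ ⟨hg, hga⟩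
    refine ⟨P.toValuationSubring.add_mem _ _ hf hg, ?_⟩
    have : (⟨f + g, P.toValuationSubring.add_mem _ _ hf hg⟩ : P.toValuationSubring) =
        ⟨f, hf⟩ + ⟨g, hg⟩ := rfl
    rw [this, map_add]
    exact A.add_mem _ _ hfa hga
  zero_mem' := by
    refine ⟨P.toValuationSubring.zero_mem, ?_⟩
    have : (⟨0, P.toValuationSubring.zero_mem⟩ : P.toValuationSubring) = 0 := rfl
    rw [this, map_zero]
    exact A.zero_mem
  neg_mem' := by
    rintro f ⟨hf, hfa⟩
    refine ⟨P.toValuationSubring.neg_mem _ hf, ?_⟩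
    have : (⟨-f, P.toValuationSubring.neg_mem _ hf⟩ : P.toValuationSubring) = -⟨f, hf⟩ := rfl
    rw [this, map_neg]
    exact A.neg_mem _ hfa
  mem_or_inv_mem' := by
    intro f
    by_cases hf : f ∈ P.toValuationSubring
    · by_cases hfa : valueAt H P ⟨f, hf⟩ ∈ A
      · exact Or.inl ⟨hf, hfa⟩
      · right
        have ha0 : valueAt H P ⟨f, hf⟩ ≠ 0 := fun h0 => hfa (h0 ▸ A.zero_mem)
        have hinv : f⁻¹ ∈ P.toValuationSubring :=
          inv_mem_of_hasValue (hasValue_valueAt H P hf) ha0
        refine ⟨hinv, ?_⟩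
        have h1 : (⟨f, hf⟩ : P.toValuationSubring) * ⟨f⁻¹, hinv⟩ = 1 := by
          apply Subtype.ext
          have hf0 : f ≠ 0 := by
            rintro rfl
            apply ha0
            have : (⟨0, hf⟩ : P.toValuationSubring) = 0 := rfl
            rw [this, map_zero]
          exact mul_inv_cancel₀ hf0
        have h2 := congrArg (valueAt H P) h1
        rw [map_mul, map_one] at h2
        rw [eq_inv_of_mul_eq_one_right h2]
        exact (A.mem_or_inv_mem _).resolve_left hfa
    · right
      have hinv : f⁻¹ ∈ P.toValuationSubring :=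
        (P.toValuationSubring.mem_or_inv_mem f).resolve_left hf
      refine ⟨hinv, ?_⟩
      have h0 : valueAt H P ⟨f⁻¹, hinv⟩ = 0 := by
        rw [valueAt_eq_zero_iff]
        right
        show 0 < P.ord f⁻¹
        rw [P.ord_inv]
        by_contra hcon
        exact hf (mem_of_ord_nonneg P (by omega))
      rw [h0]
      exact A.zero_mem

theorem mem_compVal_iff (P : Place K F) (f : F) :
    f ∈ compVal (A := A) H P ↔ ∃ a : A, HasValue P f (a : K) := by
  constructor
  · rintro ⟨hf, hfa⟩
    exact ⟨⟨_, hfa⟩, hasValue_valueAt H P hf⟩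
  · rintro ⟨a, ha⟩
    refine ⟨mem_of_hasValue ha, ?_⟩
    rw [valueAt_eq_of_hasValue H ha]
    exact a.2

theorem algebraMap_mem_compVal (P : Place K F) (a : A) :
    algebraMap K F (a : K) ∈ compVal (A := A) H P :=
  (mem_compVal_iff H P _).2 ⟨a, hasValue_algebraMap P a⟩

/-- the value map on `V_P`, with values in `A`. -/
def valA (P : Place K F) : compVal (A := A) H P →+* A where
  toFun f := ⟨valueAt H P ⟨(f : F), f.2.1⟩, f.2.2⟩
  map_one' := Subtype.ext (by
    show valueAt H P ⟨(1 : F), _⟩ = 1
    exact map_one (valueAt H P))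
  map_mul' f g := Subtype.ext (by
    show valueAt H P ⟨(f : F) * (g : F), _⟩ = valueAt H P ⟨f, _⟩ * valueAt H P ⟨g, _⟩
    exact map_mul (valueAt H P) ⟨(f : F), f.2.1⟩ ⟨(g : F), g.2.1⟩)
  map_zero' := Subtype.ext (by
    show valueAt H P ⟨(0 : F), _⟩ = 0
    exact map_zero (valueAt H P))
  map_add' f g := Subtype.ext (by
    show valueAt H P ⟨(f : F) + (g : F), _⟩ = valueAt H P ⟨f, _⟩ + valueAt H P ⟨g, _⟩
    exact map_add (valueAt H P) ⟨(f : F), f.2.1⟩ ⟨(g : F), g.2.1⟩)

theorem hasValue_valA (P : Place K F) (f : compVal (A := A) H P) :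
    HasValue P (f : F) ((valA H P f : A) : K) :=
  hasValue_valueAt H P f.2.1

theorem valA_const (P : Place K F) (a : A) :
    valA H P ⟨algebraMap K F (a : K), algebraMap_mem_compVal H P a⟩ = a := by
  apply Subtype.ext
  show valueAt H P ⟨algebraMap K F (a : K), _⟩ = a
  exact valueAt_algebraMap H P a

/-! ### the point of a place on a chart -/

variable {Fb₁ Fb₂ : Type*} [Field Fb₁] [Field Fb₂]
  [Algebra (ResidueField A) Fb₁] [Algebra (ResidueField A) Fb₂]
variable {c₁ : HalfRed A F Fb₁} {c₂ : HalfRed A F Fb₂} (C : Chart c₁ c₂)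

/-- **the point `χ_P` of the chart at which `P` is centred**, when `B ⊆ V_P`. -/
def ptOfPlace (P : Place K F) (hle : ∀ b ∈ C.B, b ∈ compVal (A := A) H P) : C.Pt :=
  ⟨(residue A).comp ((valA H P).comp
      (Subring.inclusion (fun b hb => hle b hb : C.B ≤ (compVal (A := A) H P).toSubring))),
    fun a => by
      show residue A (valA H P ⟨algebraMap K F (a : K), _⟩) = residue A a
      rw [valA_const]⟩

theorem ptOfPlace_apply (P : Place K F) (hle : ∀ b ∈ C.B, b ∈ compVal (A := A) H P) (b : C.B) :
    ptOfPlace H C P hle b = residue A (valA H P ⟨(b : F), hle b b.2⟩) := rfl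

theorem centred_ptOfPlace (P : Place K F) (hle : ∀ b ∈ C.B, b ∈ compVal (A := A) H P) :
    C.Centred P (ptOfPlace H C P hle) := fun b =>
  ⟨valA H P ⟨(b : F), hle b b.2⟩, hasValue_valA H P ⟨(b : F), hle b b.2⟩, rfl⟩

/-- if `P` is centred somewhere on the chart, then `B ⊆ V_P`. -/
theorem le_compVal_of_centred {P : Place K F} {χ : C.Pt} (h : C.Centred P χ) :
    ∀ b ∈ C.B, b ∈ compVal (A := A) H P := by
  intro b hb
  obtain ⟨a, ha, -⟩ := h ⟨b, hb⟩
  exact (mem_compVal_iff H P b).2 ⟨a, ha⟩

/-- a place is centred on the chart iff `B ⊆ V_P`. -/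
theorem exists_centred_iff (P : Place K F) :
    (∃ χ : C.Pt, C.Centred P χ) ↔ ∀ b ∈ C.B, b ∈ compVal (A := A) H P :=
  ⟨fun ⟨_, h⟩ => le_compVal_of_centred H C h, fun h => ⟨_, centred_ptOfPlace H C P h⟩⟩

/-! ### the dictionary with `LocalReg5.Thru` -/

/-- **`Centred P χ ⟹ Thru`**: the chart is regular at `P`, and the functions with `χ b ≠ 0` are units
at `P`. -/
theorem thru_of_centred {P : Place K F} {χ : C.Pt} (h : C.Centred P χ) :
    (∀ b ∈ C.B, b ∈ P.toValuationSubring) ∧
      ∀ b : C.B, χ b ≠ 0 → ((b : F))⁻¹ ∈ P.toValuationSubring := by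
  refine ⟨fun b hb => ?_, fun b hb => ?_⟩
  · obtain ⟨a, ha, -⟩ := h ⟨b, hb⟩
    exact mem_of_hasValue ha
  · obtain ⟨a, ha, hχ⟩ := h b
    refine inv_mem_of_hasValue ha ?_
    intro h0
    apply hb
    have : a = 0 := Subtype.ext h0
    rw [hχ, this, map_zero]

include H in
/-- **`Thru ⟹ Centred`**. -/
theorem centred_of_thru {P : Place K F} {χ : C.Pt}
    (h₁ : ∀ b ∈ C.B, b ∈ P.toValuationSubring)
    (h₂ : ∀ b : C.B, χ b ≠ 0 → ((b : F))⁻¹ ∈ P.toValuationSubring) : C.Centred P χ := by
  -- a function of `B` with value `0` at `P` lies in `ker χ`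
  have key : ∀ b : C.B, HasValue P (b : F) 0 → χ b = 0 := by
    intro b hb
    by_contra hχ
    by_cases hb0 : (b : F) = 0
    · apply hχ
      have : b = 0 := Subtype.ext hb0
      rw [this, map_zero]
    · exact inv_not_mem_of_hasValue_zero hb0 hb (h₂ b hχ)
  -- all the values lie in `A`
  have hval : ∀ b ∈ C.B, b ∈ compVal (A := A) H P := by
    intro b hb
    refine ⟨h₁ b hb, ?_⟩
    by_contra hnA
    set a := valueAt H P ⟨b, h₁ b hb⟩ with ha
    have ha0 : a ≠ 0 := fun h0 => hnA (h0 ▸ A.zero_mem)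
    have hinv : a⁻¹ ∈ A := (A.mem_or_inv_mem a).resolve_left hnA
    have hmax : (⟨a⁻¹, hinv⟩ : A) ∈ maximalIdeal A := by
      rw [mem_maximalIdeal, mem_nonunits_iff]
      intro hu
      apply hnA
      obtain ⟨v, hv⟩ := hu.exists_right_inv
      have hv' : a⁻¹ * (v : K) = 1 := by
        have := congrArg Subtype.val hv
        simpa using this
      have : (v : K) = a := by
        field_simp at hv'
        exact hv'
      rw [← this]
      exact v.2
    -- `b' = a⁻¹ b - 1` has the value `0` at `P` and `χ b' = -1`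
    set b' : C.B := C.const ⟨a⁻¹, hinv⟩ * ⟨b, hb⟩ - 1 with hb'
    have hb'F : (b' : F) = algebraMap K F a⁻¹ * b - 1 := rfl
    have hχb' : χ b' = -1 := by
      rw [hb', map_sub, map_mul, map_one, χ.2, (residue_eq_zero_iff _).2 hmax, zero_mul,
        zero_sub]
    have hv0 : HasValue P (b' : F) 0 := by
      have hbv : HasValue P b a := hasValue_valueAt H P (h₁ b hb)
      have hca : algebraMap K F a⁻¹ ≠ 0 := by
        rw [Ne, map_eq_zero]
        exact inv_ne_zero ha0
      have e : (b' : F) - algebraMap K F 0 = algebraMap K F a⁻¹ * (b - algebraMap K F a) := by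
        rw [hb'F, map_zero, sub_zero, mul_sub, ← map_mul, inv_mul_cancel₀ ha0, map_one]
      rcases hbv with hbv | hbv
      · left
        rw [map_zero, ← sub_eq_zero, ← sub_zero ((b' : F) - 0), ← map_zero (algebraMap K F)]
        rw [map_zero, sub_zero, sub_zero, hb'F, hbv, ← map_mul, inv_mul_cancel₀ ha0, map_one,
          sub_self]
      · by_cases hne : (b' : F) - algebraMap K F 0 = 0
        · left
          exact sub_eq_zero.1 hne
        · right
          have hne' : b - algebraMap K F a ≠ 0 := by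
            intro h0
            apply hne
            rw [e, h0, mul_zero]
          rw [e, P.ord_mul hca hne', ord_algebraMap, zero_add]
          exact hbv
    have := key b' hv0
    rw [hχb'] at this
    exact absurd this (neg_ne_zero.2 one_ne_zero)
  -- `χ = χ_P`
  intro b
  refine ⟨valA H P ⟨(b : F), hval b b.2⟩, hasValue_valA H P ⟨(b : F), hval b b.2⟩, ?_⟩
  set a := valA H P ⟨(b : F), hval b b.2⟩ with ha
  have hv0 : HasValue P ((b - C.const a : C.B) : F) 0 := by
    have hbv : HasValue P (b : F) (a : K) := hasValue_valA H P ⟨(b : F), hval b b.2⟩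
    show HasValue P ((b : F) - algebraMap K F (a : K)) 0
    rcases hbv with hbv | hbv
    · left
      rw [hbv, sub_self, map_zero]
    · right
      rw [map_zero, sub_zero]
      exact hbv
  have h0 := key (b - C.const a) hv0
  rw [map_sub, χ.2, sub_eq_zero] at h0
  exact h0

include H in
/-- **the dictionary**: `P` is centred at `χ` iff it passes through `ker χ` in the sense of
`LocalReg5.Thru`. -/
theorem centred_iff_thru (P : Place K F) (χ : C.Pt) :
    C.Centred P χ ↔ (∀ b ∈ C.B, b ∈ P.toValuationSubring) ∧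
      ∀ b : C.B, χ b ≠ 0 → ((b : F))⁻¹ ∈ P.toValuationSubring :=
  ⟨thru_of_centred C, fun h => centred_of_thru H C h.1 h.2⟩

/-! ### the charts `chart ↥A t`, `chart ↥A t⁻¹` -/

include H in
/-- **`centred₀`**: a place at which `t` has an integral value is centred on a chart contained in the
integral closure of `A[t]`. -/
theorem centred₀_of_chart {t : F} (hB : ∀ b ∈ C.B, b ∈ chart (↥A) t) (P : Place K F)
    (hP : ∃ a : A, HasValue P t (a : K)) : ∃ χ : C.Pt, C.Centred P χ := by
  refine ⟨_, centred_ptOfPlace H C P fun b hb => ?_⟩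
  exact chart_le_valuationSubring (compVal (A := A) H P)
    (fun r => algebraMap_mem_compVal H P r) ((mem_compVal_iff H P t).2 hP) b (hB b hb)

include H in
/-- **`centred₁`**: a place at which `t` has no integral value is centred on a chart contained in
the integral closure of `A[t⁻¹]`, at a point with `t⁻¹ ↦ 0`. -/
theorem centred₁_of_chart {t : F} (hB : ∀ b ∈ C.B, b ∈ chart (↥A) t⁻¹) (hs : t⁻¹ ∈ C.B)
    (P : Place K F) (hP : ¬ ∃ a : A, HasValue P t (a : K)) :
    ∃ χ : C.Pt, C.Centred P χ ∧ χ ⟨t⁻¹, hs⟩ = 0 := by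
  have htV : t ∉ compVal (A := A) H P := fun h => hP ((mem_compVal_iff H P t).1 h)
  have hsV : t⁻¹ ∈ compVal (A := A) H P :=
    ((compVal (A := A) H P).mem_or_inv_mem t).resolve_left htV
  have hle : ∀ b ∈ C.B, b ∈ compVal (A := A) H P := fun b hb =>
    chart_le_valuationSubring (compVal (A := A) H P)
      (fun r => algebraMap_mem_compVal H P r) hsV b (hB b hb)
  refine ⟨_, centred_ptOfPlace H C P hle, ?_⟩
  rw [ptOfPlace_apply, residue_eq_zero_iff, mem_maximalIdeal, mem_nonunits_iff]
  intro hu
  -- if the value of `t⁻¹` were a unit of `A`, `t` would have an integral value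
  apply htV
  set a := valA H P ⟨t⁻¹, hle t⁻¹ hs⟩ with ha
  obtain ⟨v, hv⟩ := hu.exists_right_inv
  have hav : (a : K) * (v : K) = 1 := by
    have := congrArg Subtype.val hv
    simpa using this
  have ha0 : (a : K) ≠ 0 := left_ne_zero_of_mul_eq_one hav
  have hval : HasValue P t⁻¹ (a : K) := hasValue_valA H P ⟨t⁻¹, hle t⁻¹ hs⟩
  have hinv := inv_mem_of_hasValue hval ha0
  rw [inv_inv] at hinv
  refine ⟨hinv, ?_⟩
  have h1 : (⟨t, hinv⟩ : P.toValuationSubring) * ⟨t⁻¹, hsV.1⟩ = 1 := by
    apply Subtype.ext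
    have ht0 : t ≠ 0 := by
      rintro rfl
      exact htV (compVal (A := A) H P).zero_mem
    exact mul_inv_cancel₀ ht0
  have h2 := congrArg (valueAt H P) h1
  rw [map_mul, map_one] at h2
  have h3 : valueAt H P ⟨t⁻¹, hsV.1⟩ = (a : K) := rfl
  rw [h3] at h2
  have h4 : valueAt H P ⟨t, hinv⟩ = (v : K) := by
    calc valueAt H P ⟨t, hinv⟩ = valueAt H P ⟨t, hinv⟩ * ((a : K) * (v : K)) := by
          rw [hav, mul_one]
      _ = (valueAt H P ⟨t, hinv⟩ * (a : K)) * (v : K) := by ring
      _ = (v : K) := by rw [h2, one_mul]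
  rw [h4]
  exact v.2

end Fermat.Agent.T33.PlaceCentre8
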