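/-
Programme T (S33), chapter (e), ASSEMBLY part A (helper4): **the two-chart model
`NodalPlaces1.TwoCharts (c1 h) (c2 h)` of `X₀(M'p)` over `A` and its nodal reduction context, from
the blocks.**

`Inputs h` bundles what the blocks [B-1] deliver:
* the two charts `C0, C1 : Chart (c1 h) (c2 h)` on `chart ↥A (tA h)`, `chart ↥A (tA h)⁻¹`
  (helper5, `ChartOK5`: inclusion in `O₂`, saturation);
* the coordinates `x₁, x₂` of the two components (`x₁ = ρ₁ t`, `x₂ = ρ₂ y_N`), separating generators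
  of `Fb A M'`, and the RANGES of the four reductions `ρ_j (B_k) = intRing κ x_j^{±1}`
  (helper2, [B-1](ii)).

From `I : Inputs h`:
* `twoCharts I : TwoCharts (c1 h) (c2 h)` — `centred₀/₁` from helper8's `PlaceCentre8`, the eight
  `val` fields from `NodalPts4A`;
* `hglue I` — helper5's `GlueWire5.hglue_twoCharts`;
* `nodalRed I hnode hpush₁ hpush₂ : NodalRed A (Fbar (M' * p)) (twoCharts I).rawRed.nodalData`
  with `nodalRed_c₁ = c1 h`, `nodalRed_c₂ = c2 h` (`rfl`), and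
  `formalN_nodalRed : formalN (nodalRed …) q = Psi3D.formalTwo A (M' * p) q`.
-/
import Mathlib
import Fermat.Agent.T33.NodalBase4A
import Fermat.Agent.T33.NodalBridge4
import Fermat.Agent.T33.NodalPts4A
import Fermat.Agent.T33.PlaceCentre8
import Fermat.Agent.T33.GlueWire5
import Fermat.Agent.ES.KRON.KronInst10
import Fermat.Agent.RR.LHypGen

set_option autoImplicit false
set_option linter.unusedSectionVars false
set_option linter.style.haveILetI false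
set_option linter.unusedVariables false
set_option synthInstance.maxHeartbeats 400000

noncomputable section

namespace Fermat.Agent.T33.NodalInst4A

open HahnSeries ModularCurve AlgebraicCurve IsLocalRing IntermediateField
open Fermat.Agent.RED.Interface4 Fermat.Agent.ES.RED Fermat.Agent.T33.NodalHalf4
  Fermat.Agent.RED.PUR.ChartGeneric22 Fermat.Agent.T33.NodalCurve6 Fermat.Agent.T33.NodalCtx1
  Fermat.Agent.T33.NodalPlaces1 Fermat.Agent.T33.NodalBase4A Fermat.Agent.X0.FF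
  Fermat.Agent.RR.LSpace

variable {p M' : ℕ} [NeZero M'] [NeZero p] {A : ValuationSubring Qbar}

/-- shortcut instance. -/
local instance (priority := high) algebraAFbarN' : Algebra ↥A ↥(Fbar (M' * p)) := inferInstance

/-- shortcut instance. -/
local instance (priority := high) algebraKFb'' : Algebra (Setup8.kA A) (Fb A M') := inferInstance

instance isAlgClosed_kA : IsAlgClosed (Setup8.kA A) :=
  Fermat.Agent.ES.KRON.KronInst10.isAlgClosed_residueField A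

/-- **what the blocks [B-1] deliver.** -/
structure Inputs (h : LevelHyp p M' A) where
  /-- the chart `t ≠ ∞`. -/
  C0 : Chart (c1 h) (c2 h)
  /-- the chart `t ≠ 0`. -/
  C1 : Chart (c1 h) (c2 h)
  hB0 : ∀ x, x ∈ C0.B ↔ x ∈ chart ↥A (tA h)
  hB1 : ∀ x, x ∈ C1.B ↔ x ∈ chart ↥A (tA h)⁻¹
  /-- the coordinate of the component `C₁` (`ρ₁ t`). -/
  x₁ : Fb A M'
  /-- the coordinate of the component `C₂` (`ρ₂ y_N`; `ρ₂ t = x₂ ^ p`). -/
  x₂ : Fb A M'
  gen₁ : IsGen (Setup8.kA A) x₁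
  gen₂ : IsGen (Setup8.kA A) x₂
  sep₁ : Algebra.IsSeparable (Setup8.kA A)⟮x₁⟯ (Fb A M')
  sep₂ : Algebra.IsSeparable (Setup8.kA A)⟮x₂⟯ (Fb A M')
  int₁₀ : ∀ b : C0.B, IsIntegral (polyRing (Setup8.kA A) x₁) (C0.ρ₁ b)
  surj₁₀ : ∀ f : Fb A M', IsIntegral (polyRing (Setup8.kA A) x₁) f → ∃ b : C0.B, C0.ρ₁ b = f
  int₂₀ : ∀ b : C0.B, IsIntegral (polyRing (Setup8.kA A) x₂) (C0.ρ₂ b)
  surj₂₀ : ∀ f : Fb A M', IsIntegral (polyRing (Setup8.kA A) x₂) f → ∃ b : C0.B, C0.ρ₂ b = f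
  int₁₁ : ∀ b : C1.B, IsIntegral (polyRing (Setup8.kA A) x₁⁻¹) (C1.ρ₁ b)
  surj₁₁ : ∀ f : Fb A M', IsIntegral (polyRing (Setup8.kA A) x₁⁻¹) f → ∃ b : C1.B, C1.ρ₁ b = f
  int₂₁ : ∀ b : C1.B, IsIntegral (polyRing (Setup8.kA A) x₂⁻¹) (C1.ρ₂ b)
  surj₂₁ : ∀ f : Fb A M', IsIntegral (polyRing (Setup8.kA A) x₂⁻¹) f → ∃ b : C1.B, C1.ρ₂ b = f

variable {h : LevelHyp p M' A}

/-- the `L`-hypotheses of the generic fibre. -/
theorem lHyp (h : LevelHyp p M' A) : LHyp Qbar ↥(Fbar (M' * p)) :=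
  Fermat.Agent.RR.LHypGen.lHyp_of_isGen (isGen_tA h)

theorem tA_ne_zero (h : LevelHyp p M' A) : tA h ≠ 0 := by
  intro h0
  have := (isGen_tA h).transcendental
  rw [h0] at this
  exact this (isAlgebraic_zero)

namespace Inputs

variable (I : Inputs h)

/-- **the two-chart model of `X₀(M'p)` over `A`.** -/
def twoCharts : TwoCharts (c1 h) (c2 h) where
  C0 := I.C0
  C1 := I.C1
  t := tA h
  t_ne := tA_ne_zero h
  t_mem := (I.hB0 _).2 (self_mem_chart (R := ↥A) (tA h))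
  s_mem := (I.hB1 _).2 (self_mem_chart (R := ↥A) (tA h)⁻¹)
  centred₀ := fun P hP =>
    Fermat.Agent.T33.PlaceCentre8.centred₀_of_chart (lHyp h) I.C0
      (fun b hb => (I.hB0 b).1 hb) P hP
  centred₁ := fun P hP =>
    Fermat.Agent.T33.PlaceCentre8.centred₁_of_chart (lHyp h) I.C1
      (fun b hb => (I.hB1 b).1 hb) ((I.hB1 _).2 (self_mem_chart (R := ↥A) (tA h)⁻¹)) P hP
  val₁_exists₀ := by
    haveI := I.sep₁
    exact NodalPts4A.val₁_exists_of_range I.C0 I.gen₁ I.int₁₀ I.surj₁₀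
  val₂_exists₀ := by
    haveI := I.sep₂
    exact NodalPts4A.val₂_exists_of_range I.C0 I.gen₂ I.int₂₀ I.surj₂₀
  val₁_exists₁ := by
    haveI := I.sep₁
    haveI := Fermat.Agent.ES.RED.SumOrdSep15.isSeparable_inv (K := Setup8.kA A) I.x₁
    exact NodalPts4A.val₁_exists_of_range I.C1
      (Fermat.Agent.ES.RED.SpecialFibre13.isGen_inv I.gen₁) I.int₁₁ I.surj₁₁
  val₂_exists₁ := by
    haveI := I.sep₂
    haveI := Fermat.Agent.ES.RED.SumOrdSep15.isSeparable_inv (K := Setup8.kA A) I.x₂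
    exact NodalPts4A.val₂_exists_of_range I.C1
      (Fermat.Agent.ES.RED.SpecialFibre13.isGen_inv I.gen₂) I.int₂₁ I.surj₂₁
  val₁_unique₀ := by
    haveI := I.sep₁
    exact NodalPts4A.val₁_unique_of_range I.C0 I.gen₁ I.int₁₀ I.surj₁₀
  val₂_unique₀ := by
    haveI := I.sep₂
    exact NodalPts4A.val₂_unique_of_range I.C0 I.gen₂ I.int₂₀ I.surj₂₀
  val₁_unique₁ := by
    haveI := I.sep₁
    haveI := Fermat.Agent.ES.RED.SumOrdSep15.isSeparable_inv (K := Setup8.kA A) I.x₁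
    exact NodalPts4A.val₁_unique_of_range I.C1
      (Fermat.Agent.ES.RED.SpecialFibre13.isGen_inv I.gen₁) I.int₁₁ I.surj₁₁
  val₂_unique₁ := by
    haveI := I.sep₂
    haveI := Fermat.Agent.ES.RED.SumOrdSep15.isSeparable_inv (K := Setup8.kA A) I.x₂
    exact NodalPts4A.val₂_unique_of_range I.C1
      (Fermat.Agent.ES.RED.SpecialFibre13.isGen_inv I.gen₂) I.int₂₁ I.surj₂₁

@[simp] theorem twoCharts_C0 : I.twoCharts.C0 = I.C0 := rfl
@[simp] theorem twoCharts_C1 : I.twoCharts.C1 = I.C1 := rfl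
@[simp] theorem twoCharts_t : I.twoCharts.t = tA h := rfl

/-- **GLUE** (helper5): the hypothesis `hglue` of `RawRed.mkNodalRed`. -/
theorem hglue (P₀ : Place Qbar ↥(Fbar (M' * p))) (Q₁ Q₂ : Place (Setup8.kA A) (Fb A M'))
    (hr1 : I.twoCharts.rawRed.r₁ P₀ = some Q₁) (hr2 : I.twoCharts.rawRed.r₂ P₀ = some Q₂)
    (y : ↥(Fbar (M' * p))) (h₁ : y ∈ (c1 h).O) (h₂ : y ∈ (c2 h).O)
    (hpole : ∀ P : Place Qbar ↥(Fbar (M' * p)), I.twoCharts.rawRed.r₁ P = some Q₁ →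
      y = 0 ∨ 0 ≤ P.ord y) :
    ∃ b : Setup8.kA A,
      (c1 h).ρ ⟨y, h₁⟩ - algebraMap (Setup8.kA A) (Fb A M') b ∈ vanishing Q₁ ∧
      (c2 h).ρ ⟨y, h₂⟩ - algebraMap (Setup8.kA A) (Fb A M') b ∈ vanishing Q₂ :=
  Fermat.Agent.T33.GlueWire5.hglue_twoCharts h (lHyp h) (tA h) (coe_tA h) I.twoCharts I.hB0 I.hB1
    P₀ Q₁ Q₂ hr1 hr2 y h₁ h₂ hpole

/-- **the nodal reduction context of `X₀(M'p)` over `A`**, from the blocks: the two-chart model
(`Inputs`), one node (`hnode`) and PUSH on the two components (helper9). -/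
def nodalRed
    (hnode : ∃ P : Place Qbar ↥(Fbar (M' * p)),
      I.twoCharts.rawRed.r₁ P ≠ none ∧ I.twoCharts.rawRed.r₂ P ≠ none)
    (hpush₁ : ∀ y : (c1 h).O, (c1 h).ρ y ≠ 0 → ∀ Q : Place (Setup8.kA A) (Fb A M'),
      (∀ P : Place Qbar ↥(Fbar (M' * p)), I.twoCharts.rawRed.r₁ P = some Q →
        I.twoCharts.rawRed.r₂ P = none) →
      ∀ (D : Divisor Qbar ↥(Fbar (M' * p))), (∀ P, D P = P.ord (y : ↥(Fbar (M' * p)))) →
        ∀ T : Finset (Place Qbar ↥(Fbar (M' * p))),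
          (∀ P, P ∈ T ↔ P ∈ D.support ∧ I.twoCharts.rawRed.r₁ P = some Q) →
          ∑ P ∈ T, D P = Q.ord ((c1 h).ρ y))
    (hpush₂ : ∀ y : (c2 h).O, (c2 h).ρ y ≠ 0 → ∀ Q : Place (Setup8.kA A) (Fb A M'),
      (∀ P : Place Qbar ↥(Fbar (M' * p)), I.twoCharts.rawRed.r₂ P = some Q →
        I.twoCharts.rawRed.r₁ P = none) →
      ∀ (D : Divisor Qbar ↥(Fbar (M' * p))), (∀ P, D P = P.ord (y : ↥(Fbar (M' * p)))) →
        ∀ T : Finset (Place Qbar ↥(Fbar (M' * p))),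
          (∀ P, P ∈ T ↔ P ∈ D.support ∧ I.twoCharts.rawRed.r₂ P = some Q) →
          ∑ P ∈ T, D P = Q.ord ((c2 h).ρ y)) :
    NodalRed A ↥(Fbar (M' * p)) I.twoCharts.rawRed.nodalData :=
  I.twoCharts.rawRed.mkNodalRed (c1 h) (c2 h) hnode hpush₁ hpush₂ I.hglue

@[simp] theorem nodalRed_c₁ (hnode) (hpush₁) (hpush₂) :
    (I.nodalRed hnode hpush₁ hpush₂).c₁ = c1 h := rfl

@[simp] theorem nodalRed_c₂ (hnode) (hpush₁) (hpush₂) :
    (I.nodalRed hnode hpush₁ hpush₂).c₂ = c2 h := rfl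

@[simp] theorem nodalRed_r₁ (hnode) (hpush₁) (hpush₂) :
    (I.nodalRed hnode hpush₁ hpush₂).r₁ = I.twoCharts.rawRed.r₁ := rfl

@[simp] theorem nodalRed_r₂ (hnode) (hpush₁) (hpush₂) :
    (I.nodalRed hnode hpush₁ hpush₂).r₂ = I.twoCharts.rawRed.r₂ := rfl

/-- **the abstract `ker Ψ` of the nodal context is `Psi3D.formalTwo`.** -/
theorem formalN_nodalRed (hnode) (hpush₁) (hpush₂) (q : ℕ) :
    Fermat.Agent.T33.Psi3F.formalN (I.nodalRed hnode hpush₁ hpush₂) q =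
      Fermat.Agent.T33.Psi3D.formalTwo A (M' * p) q :=
  Fermat.Agent.T33.Psi3G.formalN_eq_formalTwo (I.nodalRed hnode hpush₁ hpush₂)
    (Fermat.Agent.T33.NodalBridge4.pu_c1 h) (Fermat.Agent.T33.NodalBridge4.pu_c2 h) q

end Inputs

end Fermat.Agent.T33.NodalInst4A
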