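/-
Programme T (S33), chapter (e), ASSEMBLY part B (helper4): **finiteness of the nodes of a two-chart
model.**

Abstract: `T : NodalPlaces1.TwoCharts c₁ c₂`.  If each chart `B_k` contains an element `e_k` of the
second vertical prime which is not in the first (`ρ₂ e_k = 0`, `ρ₁ e_k ≠ 0` — for `X₀(M'p)`:
`e₀ = t − y_N^p`, `e₁ = t⁻¹ − y_N^{-p}`, Kronecker's congruence on the component `C₂`), then every node
`(Q₁, Q₂)` has `Q₁` among the finitely many zeros of `ρ₁ e₀`, `ρ₁ e₁`; hence `T.rawRed.Node` is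
finite (`NodalPlaces1.RawRed.finite_node`).

* `zeros_finite` : the zeros of a nonzero function of a function field with `LHyp` are finite;
* `TwoCharts.mem_zeros_of_node` ; `TwoCharts.finite_node_of_witness`.
-/
import Mathlib
import Fermat.Agent.T33.NodalPlaces1B
import Fermat.Agent.RR.LSpace

set_option autoImplicit false
set_option linter.unusedSectionVars false
set_option linter.unusedVariables false

open AlgebraicCurve IsLocalRing

noncomputable section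

namespace Fermat.Agent.T33.NodalInst4B

open Fermat.Agent.T33.NodalCtx1 Fermat.Agent.T33.NodalCurve6 Fermat.Agent.T33.NodalPlaces1
  Fermat.Agent.RR.LSpace

/-- the zeros of a nonzero function are finite. -/
theorem zeros_finite {κ Fb : Type*} [Field κ] [Field Fb] [Algebra κ Fb] (HL : LHyp κ Fb) {f : Fb}
    (hf : f ≠ 0) : {Q : Place κ Fb | 0 < Q.ord f}.Finite := by
  obtain ⟨D, hD, -⟩ := HL.principal f hf
  refine Set.Finite.subset D.support.finite_toSet fun Q hQ => ?_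
  have hQ' : 0 < Q.ord f := hQ
  rw [Finset.mem_coe, Finsupp.mem_support_iff, hD Q]
  omega

variable {K : Type*} [Field K] {A : ValuationSubring K} {F : Type*} [Field F] [Algebra K F]
  {Fb₁ Fb₂ : Type*} [Field Fb₁] [Field Fb₂] [Algebra (ResidueField A) Fb₁]
  [Algebra (ResidueField A) Fb₂] {c₁ : HalfRed A F Fb₁} {c₂ : HalfRed A F Fb₂}

/-- on a chart: a point with places on both components is a zero of `ρ₁ e` for every `e` of the
second vertical prime. -/
theorem Chart.mem_vanishing_of_both (C : Chart c₁ c₂) {χ : C.Pt}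
    {Q₁ : Place (ResidueField A) Fb₁} {Q₂ : Place (ResidueField A) Fb₂} (h₁ : C.Val₁ χ Q₁)
    (h₂ : C.Val₂ χ Q₂) (e : C.B) (he : C.ρ₂ e = 0) : C.ρ₁ e ∈ vanishing Q₁ := by
  have hχ : χ e = 0 := C.on₂_of_val₂ h₂ e he
  have := h₁ e
  rwa [hχ, map_zero, sub_zero] at this

namespace TwoCharts

variable (T : TwoCharts c₁ c₂)

/-- the first branch of a node is a zero of `ρ₁ e₀` or of `ρ₁ e₁`. -/
theorem mem_zeros_of_node (e0 : T.C0.B) (h0 : T.C0.ρ₂ e0 = 0) (h0' : T.C0.ρ₁ e0 ≠ 0)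
    (e1 : T.C1.B) (h1 : T.C1.ρ₂ e1 = 0) (h1' : T.C1.ρ₁ e1 ≠ 0) (P : Place K F)
    (Q₁ : Place (ResidueField A) Fb₁) (hr₁ : T.rawRed.r₁ P = some Q₁)
    (hr₂ : T.rawRed.r₂ P ≠ none) :
    Q₁ ∈ {Q : Place (ResidueField A) Fb₁ | 0 < Q.ord (T.C0.ρ₁ e0)} ∪
      {Q : Place (ResidueField A) Fb₁ | 0 < Q.ord (T.C1.ρ₁ e1)} := by
  obtain ⟨Q₂, hQ₂⟩ := Option.ne_none_iff_exists'.1 hr₂
  rw [TwoCharts.rawRed_r₁] at hr₁
  rw [TwoCharts.rawRed_r₂] at hQ₂
  have hR1 := (T.r₁_eq_some_iff P Q₁).1 hr₁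
  have hR2 := (T.r₂_eq_some_iff P Q₂).1 hQ₂
  by_cases hP : T.Fin0 P
  · obtain ⟨χ, hχ⟩ := T.centred₀ P hP
    have hv1 := (T.red₁_iff₀ hP hχ Q₁).1 hR1
    have hv2 := (T.red₂_iff₀ hP hχ Q₂).1 hR2
    left
    rcases Chart.mem_vanishing_of_both T.C0 hv1 hv2 e0 h0 with h | h
    · exact absurd h h0'
    · exact h
  · obtain ⟨χ, hχ, hs⟩ := T.centred₁' P hP
    have hv1 := (T.red₁_iff₁ hP hχ hs Q₁).1 hR1
    have hv2 := (T.red₂_iff₁ hP hχ hs Q₂).1 hR2
    right
    rcases Chart.mem_vanishing_of_both T.C1 hv1 hv2 e1 h1 with h | h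
    · exact absurd h h1'
    · exact h

/-- **the nodes are finite** as soon as each chart contains an element of the second vertical
prime outside the first. -/
theorem finite_node_of_witness (HL₁ : LHyp (ResidueField A) Fb₁)
    (e0 : T.C0.B) (h0 : T.C0.ρ₂ e0 = 0) (h0' : T.C0.ρ₁ e0 ≠ 0)
    (e1 : T.C1.B) (h1 : T.C1.ρ₂ e1 = 0) (h1' : T.C1.ρ₁ e1 ≠ 0) : Finite T.rawRed.Node :=
  T.rawRed.finite_node _ ((zeros_finite HL₁ h0').union (zeros_finite HL₁ h1'))
    (fun P Q₁ hr₁ hr₂ => mem_zeros_of_node T e0 h0 h0' e1 h1 h1' P Q₁ hr₁ hr₂)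

end TwoCharts

end Fermat.Agent.T33.NodalInst4B
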