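/-
Programme T (S33), chapter (e), assembly (helper4): **the second Hauptmodul lies in the charts.**

`yA h = t(𝐪^p) ∈ B0A h` and `(yA h)⁻¹ ∈ B1A h` — the base change to `A` of the finite-level
statement `ModelN4.ModEqItems` (the level-`M'p` modular equation, Program N, chapter MODEL, S2).
-/
import Mathlib
import Fermat.Agent.T33.NodalBase4A
import Fermat.Agent.T33.LocalReg5B
import Fermat.Agent.ES.N34.ModelEnd4
import Fermat.Agent.ES.P36.CoeffField4
import Fermat.Agent.ES.RED.ResidueUnion1

set_option autoImplicit false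
set_option linter.unusedSectionVars false
set_option linter.style.haveILetI false
set_option linter.unusedVariables false
set_option synthInstance.maxHeartbeats 400000

noncomputable section

namespace Fermat.Agent.T33.NodalWit4A

open HahnSeries ModularCurve IntermediateField AlgebraicCurve IsLocalRing
open Fermat.Agent.RED.Interface4 Fermat.Agent.RED.DESC
  Fermat.Agent.RED.DESC.PlaceExtend27 Fermat.Agent.RED.BASE.EtaQuot12
  Fermat.Agent.ES.RED Fermat.Agent.ES.N34.ModelN4 Fermat.Agent.ES.N34.ModelDefs9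
  Fermat.Agent.T33.NodalHalf4 Fermat.Agent.T33.NodalBase4A Fermat.Agent.T33.LocalReg5B

variable {p M' : ℕ} [NeZero M'] [NeZero p] {A : ValuationSubring Qbar}

/-- the level-`K` second Hauptmodul maps to `yA`. -/
theorem baseChangeHom_yN (h : LevelHyp p M' A) {K : IntermediateField ℚ Qbar}
    (ht : tq (↥K) 4 8 ∈ FK M' K) :
    baseChangeHom (M' * p) K (yN p ht) = yA h := by
  apply Subtype.ext
  rw [coe_baseChangeHom, coe_yN, yA, coe_betaA, NodalBase4A.coe_tM,
    ResidueUnion1.coeffMap_qExpand', coeffMap_tq]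

/-- the finite-level statement at some number field. -/
theorem exists_level_modEq (h : LevelHyp p M' A) :
    ∃ (K : IntermediateField ℚ Qbar) (ht : tq (↥K) 4 8 ∈ FK M' K),
      yN p ht ∈ B0 A p ht ∧ (yN p ht)⁻¹ ∈ B1 A p ht := by
  have hJ := Fermat.Agent.RED.ModelFinal4.jTarget
    (Fermat.Agent.RED.BASE.MainCusp12.base_four M' h.four_dvd).1.genBase
  have hL : Large (ModEqItems 4 8 p M' A) :=
    Fermat.Agent.ES.N34.ItemsAd6.modEqItems_four h.prime h.ne_two h.not_dvd h.liesOver
      (Fermat.Agent.ES.N34.ModelTop4.chartItems_four h.four_dvd h.prime h.liesOver)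
      (Fermat.Agent.ES.N34.ModelEnd4.glueItems h.prime h.not_dvd h.liesOver hJ)
  obtain ⟨K, -, -, hK⟩ := Large.exists_field hL
  have ht : tq (↥K) 4 8 ∈ FK M' K :=
    Fermat.Agent.ES.P36.CoeffField4.tq_mem_FK 4 8 M' (tMemM h) K
  exact ⟨K, ht, hK ht⟩

/-- **`y = t(𝐪^p)` lies in the chart `0`.** -/
theorem yA_mem_B0A (h : LevelHyp p M' A) : yA h ∈ B0A h := by
  obtain ⟨K, ht, h0, -⟩ := exists_level_modEq h
  have := baseChangeHom_mem_B0A h ht h0
  rwa [baseChangeHom_yN h ht] at this

/-- **`y⁻¹` lies in the chart `1`.** -/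
theorem yA_inv_mem_B1A (h : LevelHyp p M' A) : (yA h)⁻¹ ∈ B1A h := by
  obtain ⟨K, ht, -, h1⟩ := exists_level_modEq h
  have := baseChangeHom_mem_B1A h ht h1
  rwa [map_inv₀, baseChangeHom_yN h ht] at this

end Fermat.Agent.T33.NodalWit4A
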