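/-
Programme T (S33), chapter (e) "N34 over Qbar", ASSEMBLY part C (helper4): **the (e)-package**.

From `I : NodalInst4A.Inputs h` (the two charts with their special-fibre ranges), the four reduction
values of the two Hauptmoduln (`RhoVals I` — helper3's `FrickeRed3B`), one node (`hnode`) and PUSH on the two
components (`hpush₁`, `hpush₂`) we get everything the final integration (`NodalFinal8C`) needs from chapter (e):

* `lHypFb h : LHyp κ (Fb A M')` (the `L`-hypotheses of the special-fibre field at the good level);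
* `finite_node I V : Finite I.twoCharts.rawRed.Node` (witnesses `t - y^p ∈ B₀`, `t⁻¹ - y⁻ᵖ ∈ B₁`);
* `compat I … : (I.nodalRed …).Compat (fun σ : Iner A => gal (M' * p) σ)`;
* `pu₁`, `pu₂` (principal units `puOne`, `puTwo`);
* **`exists_package`** : the existential statement bundling all of this.
-/
import Mathlib
import Fermat.Agent.T33.NodalInst4A
import Fermat.Agent.T33.NodalInst4B
import Fermat.Agent.T33.NodalWit4A
import Fermat.Agent.T33.NodalCompat1
import Fermat.Agent.T33.NodalBridge0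
import Fermat.Agent.FF.RedIface9
import Fermat.Agent.FF.SpecialRR6G

set_option autoImplicit false
set_option linter.unusedSectionVars false
set_option linter.style.haveILetI false
set_option linter.unusedVariables false
set_option synthInstance.maxHeartbeats 400000

noncomputable section

namespace Fermat.Agent.T33.NodalInst4C

open HahnSeries ModularCurve AlgebraicCurve IsLocalRing IntermediateField
open Fermat.Agent.RED.Interface4 Fermat.Agent.ES.RED Fermat.Agent.T33.NodalHalf4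
  Fermat.Agent.RED.PUR.ChartGeneric22 Fermat.Agent.T33.NodalCurve6 Fermat.Agent.T33.NodalCtx1
  Fermat.Agent.T33.NodalPlaces1 Fermat.Agent.T33.NodalBase4A Fermat.Agent.X0.FF
  Fermat.Agent.RR.LSpace Fermat.Agent.T33.NodalInst4A Fermat.Agent.T33.NodalWit4A

variable {p M' : ℕ} [NeZero M'] [NeZero p] {A : ValuationSubring Qbar}

/-- shortcut instance. -/
local instance (priority := high) algebraAFbarNC : Algebra ↥A ↥(Fbar (M' * p)) := inferInstance

/-- shortcut instance. -/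
local instance (priority := high) algebraKFbC : Algebra (Setup8.kA A) (Fb A M') := inferInstance

/-! ### the `L`-hypotheses of the special-fibre field -/

/-- **`LHyp` for the special-fibre field at the good level `M'`.** -/
theorem lHypFb (h : LevelHyp p M' A) : LHyp (Setup8.kA A) (Fb A M') := by
  haveI : Fact p.Prime := ⟨h.prime⟩
  let m := Fermat.Agent.FF.RedIface9.redModel p h.prime A h.liesOver M'
    (Fermat.Agent.FF.RedIface9.hauptLevel_of_four_dvd h.four_dvd h.not_dvd)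
  exact Fermat.Agent.FF.SpecialRR6.lHyp_special m.n m.e M' p h.not_dvd m.tMem
    (Fermat.Agent.RED.BASE.Hauptmodul12.tGenBase' m.hb) A h.liesOver m.rPl
    (m.isPlaceReduction h.liesOver)

/-! ### reduction of an inverse -/

section Generic

variable {K : Type*} [Field K] {A' : ValuationSubring K} {F : Type*} [Field F] [Algebra K F]
  {Fb' : Type*} [Field Fb'] [Algebra (ResidueField A') Fb']

theorem HalfRed.ρ_inv (c : HalfRed A' F Fb') {u : F} (hu : u ≠ 0) (h1 : u ∈ c.O)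
    (h2 : u⁻¹ ∈ c.O) : c.ρ ⟨u⁻¹, h2⟩ = (c.ρ ⟨u, h1⟩)⁻¹ := by
  apply eq_inv_of_mul_eq_one_left
  rw [← map_mul]
  have : (⟨u⁻¹, h2⟩ : c.O) * ⟨u, h1⟩ = 1 := Subtype.ext (inv_mul_cancel₀ hu)
  rw [this, map_one]

end Generic

/-! ### the reduction values of the two Hauptmoduln -/

variable {h : LevelHyp p M' A}

/-- **the four reduction values** (`FrickeRed3B`): `ρ₁ t = x₁`, `ρ₁ y = x₁ ^ p`, `ρ₂ y = x₂`,
`ρ₂ t = x₂ ^ p`. -/
structure RhoVals (I : Inputs h) : Prop where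
  t₁ : ∀ ht : tA h ∈ (c1 h).O, (c1 h).ρ ⟨tA h, ht⟩ = I.x₁
  y₁ : ∀ hy : yA h ∈ (c1 h).O, (c1 h).ρ ⟨yA h, hy⟩ = I.x₁ ^ p
  y₂ : ∀ hy : yA h ∈ (c2 h).O, (c2 h).ρ ⟨yA h, hy⟩ = I.x₂
  t₂ : ∀ ht : tA h ∈ (c2 h).O, (c2 h).ρ ⟨tA h, ht⟩ = I.x₂ ^ p

theorem yA_ne_zero (h : LevelHyp p M' A) : yA h ≠ 0 := by
  intro h0
  have h1 : tM h = 0 := (betaA M' p).toRingHom.injective (by rw [AlgHom.toRingHom_eq_coe, RingHom.coe_coe, map_zero]; exact h0)
  have := (isGen_tM h).transcendental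
  rw [h1] at this
  exact this isAlgebraic_zero

/-- a transcendental element is not a root of `X - X ^ n`, `n ≥ 2`. -/
theorem sub_pow_ne_zero {κ Fb' : Type*} [Field κ] [Field Fb'] [Algebra κ Fb'] {x : Fb'}
    (hx : Transcendental κ x) {n : ℕ} (hn : 2 ≤ n) : x - x ^ n ≠ 0 := by
  intro h0
  apply hx
  refine ⟨Polynomial.X - Polynomial.X ^ n, ?_, ?_⟩
  · intro hX
    have := congrArg (fun q => Polynomial.coeff q 1) hX
    simp only [Polynomial.coeff_sub, Polynomial.coeff_X_one, Polynomial.coeff_X_pow,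
      Polynomial.coeff_zero] at this
    rw [if_neg (by omega)] at this
    simp at this
  · simp [h0]

section Witness

variable (I : Inputs h)

/-- `t`, in the chart `0`. -/
def tB : I.C0.B := ⟨tA h, (I.hB0 _).2 (self_mem_chart (R := ↥A) (tA h))⟩

/-- `y`, in the chart `0`. -/
def yB : I.C0.B := ⟨yA h, (I.hB0 _).2 (yA_mem_B0A h)⟩

/-- `t⁻¹`, in the chart `1`. -/
def sB : I.C1.B := ⟨(tA h)⁻¹, (I.hB1 _).2 (self_mem_chart (R := ↥A) (tA h)⁻¹)⟩

/-- `y⁻¹`, in the chart `1`. -/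
def zB : I.C1.B := ⟨(yA h)⁻¹, (I.hB1 _).2 (yA_inv_mem_B1A h)⟩

variable {I}

theorem ρ₁_tB (V : RhoVals I) : I.C0.ρ₁ (tB I) = I.x₁ := V.t₁ _
theorem ρ₂_tB (V : RhoVals I) : I.C0.ρ₂ (tB I) = I.x₂ ^ p := V.t₂ _
theorem ρ₁_yB (V : RhoVals I) : I.C0.ρ₁ (yB I) = I.x₁ ^ p := V.y₁ _
theorem ρ₂_yB (V : RhoVals I) : I.C0.ρ₂ (yB I) = I.x₂ := V.y₂ _

theorem ρ₁_sB (V : RhoVals I) : I.C1.ρ₁ (sB I) = I.x₁⁻¹ := by
  have h1 : tA h ∈ (c1 h).O := I.C0.le₁ (tB I).2
  rw [← V.t₁ h1]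
  exact HalfRed.ρ_inv (c1 h) (tA_ne_zero h) h1 _

theorem ρ₂_sB (V : RhoVals I) : I.C1.ρ₂ (sB I) = (I.x₂ ^ p)⁻¹ := by
  have h1 : tA h ∈ (c2 h).O := I.C0.le₂ (tB I).2
  rw [← V.t₂ h1]
  exact HalfRed.ρ_inv (c2 h) (tA_ne_zero h) h1 _

theorem ρ₁_zB (V : RhoVals I) : I.C1.ρ₁ (zB I) = (I.x₁ ^ p)⁻¹ := by
  have h1 : yA h ∈ (c1 h).O := I.C0.le₁ (yB I).2
  rw [← V.y₁ h1]
  exact HalfRed.ρ_inv (c1 h) (yA_ne_zero h) h1 _

theorem ρ₂_zB (V : RhoVals I) : I.C1.ρ₂ (zB I) = I.x₂⁻¹ := by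
  have h1 : yA h ∈ (c2 h).O := I.C0.le₂ (yB I).2
  rw [← V.y₂ h1]
  exact HalfRed.ρ_inv (c2 h) (yA_ne_zero h) h1 _

variable (I)

/-- **the nodes are finite.** -/
theorem finite_node (V : RhoVals I) : Finite I.twoCharts.rawRed.Node := by
  have hp2 : 2 ≤ p * p := by
    have := h.prime.two_le
    nlinarith
  refine NodalInst4B.TwoCharts.finite_node_of_witness I.twoCharts (lHypFb h)
    ((tB I) - (yB I) ^ p) ?_ ?_ ((sB I) - (zB I) ^ p) ?_ ?_
  · show I.C0.ρ₂ ((tB I) - (yB I) ^ p) = 0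
    rw [map_sub, map_pow, ρ₂_tB V, ρ₂_yB V, sub_self]
  · show I.C0.ρ₁ ((tB I) - (yB I) ^ p) ≠ 0
    rw [map_sub, map_pow, ρ₁_tB V, ρ₁_yB V, ← pow_mul]
    exact sub_pow_ne_zero I.gen₁.transcendental hp2
  · show I.C1.ρ₂ ((sB I) - (zB I) ^ p) = 0
    rw [map_sub, map_pow, ρ₂_sB V, ρ₂_zB V, inv_pow, sub_self]
  · show I.C1.ρ₁ ((sB I) - (zB I) ^ p) ≠ 0
    rw [map_sub, map_pow, ρ₁_sB V, ρ₁_zB V, ← inv_pow, ← pow_mul]
    exact sub_pow_ne_zero (Fermat.Agent.ES.RED.SpecialFibre13.isGen_inv I.gen₁).transcendental hp2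

end Witness

/-! ### inertia compatibility, principal units, the package -/

section Package

open Fermat.Agent.FF.InertiaWire8 Fermat.Agent.T33.Psi3C

variable (I : Inputs h)

/-- **the inertia group preserves the nodal reduction** (helper1's `NodalCompat1`). -/
theorem compat (hnode) (hpush₁) (hpush₂) :
    (I.nodalRed hnode hpush₁ hpush₂).Compat (fun σ : Iner A => gal (M' * p) (σ : GQ)) :=
  Fermat.Agent.T33.NodalCompat1.compat_of_twoCharts_tA h I.twoCharts rfl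
    (fun b => I.hB0 b) (fun b => I.hB1 b) hnode hpush₁ hpush₂ I.hglue

/-- the principal units of the first component. -/
theorem pu₁ (hnode) (hpush₁) (hpush₂) :
    Fermat.Agent.T33.Psi3F.pu (I.nodalRed hnode hpush₁ hpush₂).c₁ = puOne A (M' * p) :=
  Fermat.Agent.T33.NodalBridge0.pu_c1 h

/-- the principal units of the second component. -/
theorem pu₂ (hnode) (hpush₁) (hpush₂) :
    Fermat.Agent.T33.Psi3F.pu (I.nodalRed hnode hpush₁ hpush₂).c₂ =
      puTwo A (M' * p) :=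
  Fermat.Agent.T33.NodalBridge0.pu_c2 h

/-- **THE (e)-PACKAGE**: the nodal reduction context of `X₀(M'p)` over `A` with finitely many nodes,
the two components `c1 h`, `c2 h` (principal units `puOne`, `puTwo`), compatible with the inertia
group. -/
theorem exists_package (V : RhoVals I)
    (hnode : ∃ P : Place Qbar ↥(Fbar (M' * p)),
      I.twoCharts.rawRed.r₁ P ≠ none ∧ I.twoCharts.rawRed.r₂ P ≠ none)
    (hpush₁ : ∀ y : (c1 h).O, (c1 h).ρ y ≠ 0 → ∀ Q : Place (Setup8.kA A) (Fb A M'),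
      (∀ P : Place Qbar ↥(Fbar (M' * p)), I.twoCharts.rawRed.r₁ P = some Q →
        I.twoCharts.rawRed.r₂ P = none) →
      ∀ (D : Divisor Qbar ↥(Fbar (M' * p))), (∀ P, D P = P.ord (y : ↥(Fbar (M' * p)))) →
        ∀ T : Finset (Place Qbar ↥(Fbar (M' * p))),
          (∀ P, P ∈ T ↔ P ∈ D.support ∧ I.twoCharts.rawRed.r₁ P = some Q) →
          ∑ P ∈ T, D P = Q.ord ((c1 h).ρ y))
    (hpush₂ : ∀ y : (c2 h).O, (c2 h).ρ y ≠ 0 → ∀ Q : Place (Setup8.kA A) (Fb A M'),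
      (∀ P : Place Qbar ↥(Fbar (M' * p)), I.twoCharts.rawRed.r₂ P = some Q →
        I.twoCharts.rawRed.r₁ P = none) →
      ∀ (D : Divisor Qbar ↥(Fbar (M' * p))), (∀ P, D P = P.ord (y : ↥(Fbar (M' * p)))) →
        ∀ T : Finset (Place Qbar ↥(Fbar (M' * p))),
          (∀ P, P ∈ T ↔ P ∈ D.support ∧ I.twoCharts.rawRed.r₂ P = some Q) →
          ∑ P ∈ T, D P = Q.ord ((c2 h).ρ y)) :
    ∃ (ι : Type) (_ : Finite ι) (Nd : NodalData (Setup8.kA A) (Fb A M') (Fb A M') ι)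
      (Nr : NodalRed A ↥(Fbar (M' * p)) Nd),
      Nr.c₁ = c1 h ∧ Nr.c₂ = c2 h ∧
      Fermat.Agent.T33.Psi3F.pu Nr.c₁ = puOne A (M' * p) ∧
      Fermat.Agent.T33.Psi3F.pu Nr.c₂ = puTwo A (M' * p) ∧
      Nr.Compat (fun σ : Iner A => gal (M' * p) (σ : GQ)) :=
  ⟨I.twoCharts.rawRed.Node, finite_node I V, I.twoCharts.rawRed.nodalData,
    I.nodalRed hnode hpush₁ hpush₂, rfl, rfl, pu₁ I hnode hpush₁ hpush₂,
    pu₂ I hnode hpush₁ hpush₂, compat I hnode hpush₁ hpush₂⟩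

end Package

end Fermat.Agent.T33.NodalInst4C
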