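/-
Programme T (S33), chapter N-F / (e), file A (helper3): **the Fricke involution of a GOOD level
reduces to an automorphism of the special fibre, over `ℚ̄`.**

`A` a valuation subring of `ℚ̄` over `ℓ`, `M` a level with `ℓ ∤ M`, `Ov = GaussOv1.Ov A M ℓ hA hℓM` the
Gauss valuation ring of `Fbar M = ℚ̄·F_M` (expansion at `∞`), `ρ : Ov →+* Fb := κ·F̃_M` its reduction,
`W = frickeBar M` the Fricke involution.

* `frickeBar_mem_Ov` : **`W (Ov) ⊆ Ov`** (the `ℚ̄`-level form of `ES/N34/IsoM25.isoM`: the two Gauss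
  valuations of a good level coincide) — transfer from the number-field levels through helper5's
  `LocalReg5B.Large` calculus;
* `ρ_frickeBar_eq_zero_iff` : `W` preserves the maximal ideal `ker ρ = 𝔪_A Ov`;
* for a level with a Hauptmodul (`ρ` surjective): `Wbar : Fb →+* Fb` with
  `ρ (W y) = Wbar (ρ y)` (`ρ_frickeBar`), `Wbar_Wbar`, `Wbar_algebraMap`, and
  `WbarEquiv : Fb ≃ₐ[κ] Fb` — **the reduction `W̄_M` of the Fricke involution**;
* transport of generators: `isGen_Wbar`, `isSeparable_Wbar` (if `x` is a separating generator of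
  `Fb/κ`, so is `W̄ x`), `finrank_Wbar`.
-/
import Mathlib
import Fermat.Agent.T33.LocalReg5B
import Fermat.Agent.ES.N34.IsoM25
import Fermat.Agent.FF.GaussOv1B
import Fermat.Agent.X0.FFDefs

set_option autoImplicit false
set_option linter.unusedSectionVars false
set_option linter.style.haveILetI false
set_option synthInstance.maxHeartbeats 400000

noncomputable section

namespace Fermat.Agent.T33.FrickeRed3

open HahnSeries ModularCurve IntermediateField IsLocalRing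
open Fermat.Agent.RED.Interface4 Fermat.Agent.RED.PUR.GaussGen8 Fermat.Agent.RED.DESC
  Fermat.Agent.RED.DESC.PlaceExtend27 Fermat.Agent.RED.DESC.NumberFieldDVR27
  Fermat.Agent.ES.RED Fermat.Agent.ES.N34.ModelN4 Fermat.Agent.ES.N34.FrickeFK8
  Fermat.Agent.FF.GaussOv1 Fermat.Agent.T33.LocalReg5B

variable (A : ValuationSubring Qbar) (M : ℕ) [NeZero M] (ℓ : ℕ) [Fact ℓ.Prime]
  (hA : A.LiesOverPrime ℓ) (hℓM : ¬ ℓ ∣ M)

/-- membership in `Ov` in the raw form used by `LocalReg5B.large_mem_gauss`. -/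
theorem exists_raw_of_mem_Ov {y : ↥(Fbar M)} (hy : y ∈ Ov A M ℓ hA hℓM) :
    ∃ a b : ↥(Setup8.gaussA A (Fbar M)), Setup8.redA A (Fbar M) b ≠ 0 ∧
      y * (b : ↥(Fbar M)) = (a : ↥(Fbar M)) := by
  obtain ⟨a, b, hb, hab⟩ := hy
  exact ⟨a, b, (redFb_ne_zero_iff A M ℓ hA hℓM b).1 hb, hab⟩

/-- **the Fricke involution of a good level preserves the Gauss valuation ring** (over `ℚ̄`). -/
theorem frickeBar_mem_Ov {y : ↥(Fbar M)} (hy : y ∈ Ov A M ℓ hA hℓM) :
    frickeBar M y ∈ Ov A M ℓ hA hℓM := by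
  by_contra hz
  have hz0 : frickeBar M y ≠ 0 := fun h0 => hz (h0 ▸ (Ov A M ℓ hA hℓM).zero_mem)
  have hzinv : (frickeBar M y)⁻¹ ∈ Ov A M ℓ hA hℓM :=
    (mem_or_inv_mem A M ℓ hA hℓM (frickeBar M y)).resolve_left hz
  have hρ0 : ρ A M ℓ hA hℓM ⟨(frickeBar M y)⁻¹, hzinv⟩ = 0 := by
    by_contra hne
    have h1 := inv_mem A M ℓ hA hℓM ⟨(frickeBar M y)⁻¹, hzinv⟩ hne
    rw [inv_inv] at h1
    exact hz h1
  obtain ⟨c, z₁, hc, -, -, hrel⟩ := exists_eq_smul_of_ρ_eq_zero A M ℓ hA hℓM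
    ⟨(frickeBar M y)⁻¹, hzinv⟩ (inv_ne_zero hz0) hρ0
  -- `W y * (c * z₁) = 1`
  have hone : frickeBar M y * (algebraMap Qbar ↥(Fbar M) (c : Qbar) * (z₁ : ↥(Fbar M))) = 1 := by
    have h2 : (frickeBar M y)⁻¹ =
        algebraMap Qbar ↥(Fbar M) (c : Qbar) * (z₁ : ↥(Fbar M)) := hrel
    rw [← h2, mul_inv_cancel₀ hz0]
  -- descend everything to a large number field
  have hL := (large_descent M y).and ((large_descent M (z₁ : ↥(Fbar M))).and
    ((large_mem_gauss A M y (exists_raw_of_mem_Ov A M ℓ hA hℓM hy)).and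
      ((large_mem_gauss A M (z₁ : ↥(Fbar M)) (exists_raw_of_mem_Ov A M ℓ hA hℓM z₁.2)).and
        (large_const A c hc))))
  obtain ⟨K, hnor, hfin, ⟨yK, hyK⟩, ⟨zK, hzK⟩, hgy, hgz, ⟨cK, hcK, hcKm⟩⟩ := Large.exists_field hL
  haveI := hnor
  haveI := hfin
  have hℓ : ℓ.Prime := Fact.out
  haveI : IsDiscreteValuationRing ↥(AK A K) := isDiscreteValuationRing_AK A K hℓ.ne_zero hA
  haveI : CharP (Res (AK A K)) ℓ := NumberFieldDVR27.charP_residueField_AK A K hℓ hA
  obtain ⟨π, hπ⟩ := IsDiscreteValuationRing.exists_irreducible ↥(AK A K)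
  have h1 : ((frickeFK M K yK : FK M K) : LaurentSeries K) ∈ gaussRing (AK A K) :=
    (Fermat.Agent.ES.N34.IsoM25.isoM A K M ℓ hπ hℓM yK).mp (hgy yK hyK)
  have h2 : ((zK : FK M K) : LaurentSeries K) ∈ gaussRing (AK A K) := hgz zK hzK
  -- the relation at level `K`
  have hrelK : frickeFK M K yK * (algebraMap K (FK M K) ((cK : ↥(AK A K)) : K) * zK) = 1 := by
    apply baseChangeHom_injective M K
    rw [map_mul, map_mul, baseChangeHom_frickeFK, hyK, hzK, baseChangeHom_algebraMap, map_one]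
    have h3 : (((cK : ↥(AK A K)) : K) : Qbar) = (c : Qbar) := congrArg Subtype.val hcK
    rw [h3]
    exact hone
  have hcoe : ((frickeFK M K yK : FK M K) : LaurentSeries K) *
      (HahnSeries.C (((cK : ↥(AK A K)) : K)) * ((zK : FK M K) : LaurentSeries K)) = 1 := by
    have h4 := congrArg (fun w : FK M K => (w : LaurentSeries K)) hrelK
    simp only [MulMemClass.coe_mul, OneMemClass.coe_one] at h4
    rw [← algebraMap_eq_C]
    exact h4
  have hG : (⟨_, h1⟩ : gaussRing (AK A K)) * (constG (AK A K) cK * ⟨_, h2⟩) = 1 :=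
    Subtype.ext hcoe
  have h5 := congrArg (gaussRed (AK A K)) hG
  rw [map_mul, map_mul, gaussRed_constG, map_one] at h5
  have h6 : res0 (AK A K) cK = 0 := (IsLocalRing.residue_eq_zero_iff _).2 hcKm
  rw [h6, map_zero, zero_mul, mul_zero] at h5
  exact zero_ne_one h5

/-- `W` preserves the maximal ideal of `Ov`. -/
theorem ρ_frickeBar_eq_zero {y : ↥(Fbar M)} (hy : y ∈ Ov A M ℓ hA hℓM)
    (h0 : ρ A M ℓ hA hℓM ⟨y, hy⟩ = 0) :
    ρ A M ℓ hA hℓM ⟨frickeBar M y, frickeBar_mem_Ov A M ℓ hA hℓM hy⟩ = 0 := by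
  by_cases hy0 : y = 0
  · have : (⟨frickeBar M y, frickeBar_mem_Ov A M ℓ hA hℓM hy⟩ : ↥(Ov A M ℓ hA hℓM)) = 0 := by
      apply Subtype.ext
      show frickeBar M y = 0
      rw [hy0, map_zero]
    rw [this, map_zero]
  obtain ⟨c, y₁, hc, -, -, hrel⟩ := exists_eq_smul_of_ρ_eq_zero A M ℓ hA hℓM ⟨y, hy⟩ hy0 h0
  have h1 : (⟨frickeBar M y, frickeBar_mem_Ov A M ℓ hA hℓM hy⟩ : ↥(Ov A M ℓ hA hℓM)) =
      ⟨algebraMap Qbar ↥(Fbar M) (c : Qbar) * frickeBar M (y₁ : ↥(Fbar M)),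
        smul_mem A M ℓ hA hℓM c (frickeBar_mem_Ov A M ℓ hA hℓM y₁.2)⟩ := by
    apply Subtype.ext
    show frickeBar M y = algebraMap Qbar ↥(Fbar M) (c : Qbar) * frickeBar M (y₁ : ↥(Fbar M))
    have h2 : y = algebraMap Qbar ↥(Fbar M) (c : Qbar) * (y₁ : ↥(Fbar M)) := hrel
    rw [h2, map_mul, (frickeBar M).commutes]
  rw [h1, ρ_smul A M ℓ hA hℓM c ⟨_, frickeBar_mem_Ov A M ℓ hA hℓM y₁.2⟩,
    (IsLocalRing.residue_eq_zero_iff _).2 hc, map_zero, zero_mul]

/-- the restriction of `W` to `Ov`. -/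
def frickeOv : ↥(Ov A M ℓ hA hℓM) →+* ↥(Ov A M ℓ hA hℓM) where
  toFun y := ⟨frickeBar M (y : ↥(Fbar M)), frickeBar_mem_Ov A M ℓ hA hℓM y.2⟩
  map_one' := Subtype.ext (map_one (frickeBar M))
  map_mul' a b := Subtype.ext (map_mul (frickeBar M) _ _)
  map_zero' := Subtype.ext (map_zero (frickeBar M))
  map_add' a b := Subtype.ext (map_add (frickeBar M) _ _)

@[simp] theorem coe_frickeOv (y : ↥(Ov A M ℓ hA hℓM)) :
    ((frickeOv A M ℓ hA hℓM y : ↥(Ov A M ℓ hA hℓM)) : ↥(Fbar M)) = frickeBar M (y : ↥(Fbar M)) :=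
  rfl

theorem frickeOv_frickeOv (y : ↥(Ov A M ℓ hA hℓM)) :
    frickeOv A M ℓ hA hℓM (frickeOv A M ℓ hA hℓM y) = y :=
  Subtype.ext (frickeBar_frickeBar M _)

theorem ker_le_ker_comp :
    RingHom.ker (ρ A M ℓ hA hℓM) ≤
      RingHom.ker ((ρ A M ℓ hA hℓM).comp (frickeOv A M ℓ hA hℓM)) := by
  intro y hy
  rw [RingHom.mem_ker] at hy ⊢
  exact ρ_frickeBar_eq_zero A M ℓ hA hℓM y.2 hy

/-! ### the reduction of `W` (levels with surjective `ρ`) -/

variable (hsurj : Function.Surjective (ρ A M ℓ hA hℓM))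

/-- **the reduction `W̄` of the Fricke involution**, as a ring endomorphism of the special fibre
field. -/
def Wbar : ↥(modularFunctionFieldFullC (Setup8.kA A) M) →+*
    ↥(modularFunctionFieldFullC (Setup8.kA A) M) :=
  RingHom.liftOfSurjective (ρ A M ℓ hA hℓM) hsurj
    ⟨(ρ A M ℓ hA hℓM).comp (frickeOv A M ℓ hA hℓM), ker_le_ker_comp A M ℓ hA hℓM⟩

/-- **`ρ (W y) = W̄ (ρ y)`.** -/
theorem ρ_frickeBar (y : ↥(Ov A M ℓ hA hℓM)) :
    ρ A M ℓ hA hℓM (frickeOv A M ℓ hA hℓM y) = Wbar A M ℓ hA hℓM hsurj (ρ A M ℓ hA hℓM y) :=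
  (RingHom.liftOfRightInverse_comp_apply (ρ A M ℓ hA hℓM) (Function.surjInv hsurj)
    (Function.rightInverse_surjInv hsurj)
    ⟨(ρ A M ℓ hA hℓM).comp (frickeOv A M ℓ hA hℓM), ker_le_ker_comp A M ℓ hA hℓM⟩ y).symm

theorem Wbar_Wbar (x : ↥(modularFunctionFieldFullC (Setup8.kA A) M)) :
    Wbar A M ℓ hA hℓM hsurj (Wbar A M ℓ hA hℓM hsurj x) = x := by
  obtain ⟨y, rfl⟩ := hsurj x
  rw [← ρ_frickeBar, ← ρ_frickeBar, frickeOv_frickeOv]

theorem Wbar_algebraMap (a : Setup8.kA A) :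
    Wbar A M ℓ hA hℓM hsurj (algebraMap (Setup8.kA A) _ a) = algebraMap (Setup8.kA A) _ a := by
  obtain ⟨a, rfl⟩ := IsLocalRing.residue_surjective a
  rw [← ρ_const A M ℓ hA hℓM a, ← ρ_frickeBar]
  congr 1
  apply Subtype.ext
  show frickeBar M (algebraMap Qbar ↥(Fbar M) (a : Qbar)) = algebraMap Qbar ↥(Fbar M) (a : Qbar)
  exact (frickeBar M).commutes _

/-- **`W̄` as a `κ`-algebra automorphism of the special fibre field.** -/
def WbarEquiv : ↥(modularFunctionFieldFullC (Setup8.kA A) M) ≃ₐ[Setup8.kA A]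
    ↥(modularFunctionFieldFullC (Setup8.kA A) M) :=
  AlgEquiv.ofAlgHom
    { Wbar A M ℓ hA hℓM hsurj with commutes' := Wbar_algebraMap A M ℓ hA hℓM hsurj }
    { Wbar A M ℓ hA hℓM hsurj with commutes' := Wbar_algebraMap A M ℓ hA hℓM hsurj }
    (AlgHom.ext (Wbar_Wbar A M ℓ hA hℓM hsurj))
    (AlgHom.ext (Wbar_Wbar A M ℓ hA hℓM hsurj))

@[simp] theorem WbarEquiv_apply (x : ↥(modularFunctionFieldFullC (Setup8.kA A) M)) :
    WbarEquiv A M ℓ hA hℓM hsurj x = Wbar A M ℓ hA hℓM hsurj x := rfl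

end Fermat.Agent.T33.FrickeRed3

/-! ### transport of separating generators along a field automorphism (generic) -/

namespace Fermat.Agent.T33.FrickeRed3

open IntermediateField Fermat.Agent.X0.FF

section Transport

variable {k F : Type*} [Field k] [Field F] [Algebra k F] (w : F ≃ₐ[k] F)

theorem map_adjoin_simple (x : F) :
    (k⟮x⟯ : IntermediateField k F).map (w : F →ₐ[k] F) = k⟮w x⟯ := by
  rw [IntermediateField.adjoin_map, Set.image_singleton]
  rfl

/-- the image of a generator under an automorphism is a generator. -/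
theorem isGen_map {x : F} (hx : IsGen k x) : IsGen k (w x) := by
  classical
  refine ⟨?_, ?_⟩
  · intro halg
    apply hx.1
    exact (isAlgebraic_algHom_iff (w : F →ₐ[k] F) w.injective).1 halg
  · haveI := hx.2
    -- `F` is finite over `k⟮x⟯`, transport the finite spanning set
    obtain ⟨s, hs⟩ := (Module.finite_def (R := k⟮x⟯) (M := F)).1 hx.2
    refine Module.finite_def.2 ⟨s.image w, ?_⟩
    rw [eq_top_iff]
    intro y _
    have hy : w.symm y ∈ Submodule.span (↥k⟮x⟯) (↑s : Set F) := by rw [hs]; trivial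
    -- induction on the span
    have key : ∀ z : F, z ∈ Submodule.span (↥k⟮x⟯) (↑s : Set F) →
        w z ∈ Submodule.span (↥k⟮w x⟯) (↑(s.image w) : Set F) := by
      intro z hz
      induction hz using Submodule.span_induction with
      | mem z hz =>
        apply Submodule.subset_span
        rw [Finset.coe_image]
        exact ⟨z, hz, rfl⟩
      | zero => rw [map_zero]; exact Submodule.zero_mem _
      | add a b _ _ ha hb => rw [map_add]; exact Submodule.add_mem _ ha hb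
      | smul c a _ ha =>
        have hc : w (c : F) ∈ k⟮w x⟯ := by
          rw [← map_adjoin_simple w x]
          exact ⟨(c : F), c.2, rfl⟩
        have : w (c • a) = (⟨w (c : F), hc⟩ : ↥k⟮w x⟯) • w a := by
          rw [IntermediateField.smul_def, IntermediateField.smul_def, smul_eq_mul, smul_eq_mul,
            map_mul]
        rw [this]
        exact Submodule.smul_mem _ _ ha
    have := key (w.symm y) hy
    rwa [w.apply_symm_apply] at this

/-- the isomorphism `k(x) ≃ k(w x)` induced by `w`. -/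
def adjoinMapEquiv (x : F) : ↥k⟮x⟯ ≃+* ↥k⟮w x⟯ :=
  ((k⟮x⟯).equivMap (w : F →ₐ[k] F)).toRingEquiv.trans
    (IntermediateField.equivOfEq (map_adjoin_simple w x)).toRingEquiv

theorem coe_adjoinMapEquiv (x : F) (c : ↥k⟮x⟯) :
    ((adjoinMapEquiv w x c : ↥k⟮w x⟯) : F) = w (c : F) := rfl

theorem adjoinMapEquiv_comm (x : F) :
    (algebraMap ↥k⟮w x⟯ F).comp ((adjoinMapEquiv w x : ↥k⟮x⟯ ≃+* ↥k⟮w x⟯) : ↥k⟮x⟯ →+* ↥k⟮w x⟯) =
      ((w : F ≃+* F) : F →+* F).comp (algebraMap ↥k⟮x⟯ F) := by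
  ext c
  rfl

/-- the image of a separating element under an automorphism is separating. -/
theorem isSeparable_map (x : F) [Algebra.IsSeparable ↥k⟮x⟯ F] :
    Algebra.IsSeparable ↥k⟮w x⟯ F :=
  Algebra.IsSeparable.of_equiv_equiv (adjoinMapEquiv w x) (w : F ≃+* F) (adjoinMapEquiv_comm w x)

theorem finrank_map (x : F) : Module.finrank ↥k⟮w x⟯ F = Module.finrank ↥k⟮x⟯ F :=
  (Algebra.finrank_eq_of_equiv_equiv (adjoinMapEquiv w x) (w : F ≃+* F)
    (adjoinMapEquiv_comm w x)).symm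

end Transport

end Fermat.Agent.T33.FrickeRed3
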