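/-
Programme T (S33), chapter N-F / (e), file B (helper3): **the reductions of the two coordinates
`t = α(t₀)`, `y = β(t₀)` of `X₀(M'p)` on the two components.**

`h : LevelHyp p M' A`, `N = M' p`, `Fb = κ·F̃_{M'}`, `c1 h, c2 h` (`NodalHalf4`), `alphaA, betaA, tM, tA, yA`
(`NodalBase4A`), `Ov₀ = GaussOv1.Ov A M' p ..` the Gauss valuation ring of the GOOD level `M'` with its
reduction `ρ₀ : Ov₀ →+* Fb`, `W̄ = FrickeRed3.WbarEquiv` the reduction of `W_{M'}`.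

* `frickeBar_alphaA`, `frickeBar_betaA` : `W_N ∘ α = β ∘ W_{M'}`, `W_N ∘ β = α ∘ W_{M'}` over `ℚ̄`;
* `rho1_alphaA` : `ρ₁ (α y) = ρ₀ y`, `coe_rho1_betaA` : `ρ₁ (β y) = (ρ₀ y)(q^p)` for `y ∈ Ov₀`;
* `rho2_betaA` : `ρ₂ (β y) = W̄ (ρ₀ y)`, `coe_rho2_alphaA` : `ρ₂ (α y) = (W̄ (ρ₀ y))(q^p)`;
* `xOne h = tRes` and `xTwo h = W̄ (tRes)` : the separating generators of the two components;
  `rho1_tA : ρ₁ t = x₁`, `rho1_yA : ρ₁ y = x₁^p`, `rho2_yA : ρ₂ y = x₂`, `rho2_tA : ρ₂ t = x₂^p`;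
* `isGen_xOne/xTwo`, `isSeparable_xOne/xTwo`, `finrank_xOne`, `finrank_xTwo`;
* `rho0_surjective`, `rho1_surjective`, `rho2_surjective` (`c1_ρ_surjective`, `c2_ρ_surjective`);
* `Ov0 h`, `rho0 h`, `Wb h` : the good-level data with the `Fact p.Prime` instance built from `h`;
  `coe_rho0` : `ρ₀` is the restriction of `Psi3G.rhoOne A M'`; `coeffMap_frobenius_xTwo`.
-/
import Mathlib
import Fermat.Agent.T33.FrickeRed3A
import Fermat.Agent.T33.NodalBase4A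
import Fermat.Agent.ES.N34.FrickeV11
import Fermat.Agent.ES.N35.NormBC1
import Fermat.Agent.ES.RED.SpecialGen25
import Fermat.Agent.ES.KRON.KronCong24
import Fermat.Agent.ES.FROB.FrobFacts12

set_option autoImplicit false
set_option linter.unusedSectionVars false
set_option linter.style.haveILetI false
set_option linter.unusedVariables false
set_option synthInstance.maxHeartbeats 400000

noncomputable section

namespace Fermat.Agent.T33.FrickeRed3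

open HahnSeries ModularCurve IntermediateField IsLocalRing
open Fermat.Agent.RED.Interface4 Fermat.Agent.RED.DESC.PlaceExtend27
  Fermat.Agent.ES.RED Fermat.Agent.ES.N34.ModelN4 Fermat.Agent.ES.N34.FrickeFK8
  Fermat.Agent.FF.GaussOv1 Fermat.Agent.T33.LocalReg5B Fermat.Agent.T33.NodalHalf4
  Fermat.Agent.T33.NodalBase4A Fermat.Agent.RED.BASE.Interface12

variable {p M' : ℕ} [NeZero M'] [NeZero p] {A : ValuationSubring Qbar}

/-! ### Fricke and the degeneracy maps over `ℚ̄` -/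

/-- **`W_{M'p} ∘ α = β ∘ W_{M'}`** over `ℚ̄`. -/
theorem frickeBar_alphaA (x : ↥(Fbar M')) :
    frickeBar (M' * p) (alphaA M' p x) = betaA M' p (frickeBar M' x) := by
  obtain ⟨K, hnor, hfin, xK, rfl⟩ := Large.exists_field (large_descent M' x)
  show frickeBar (M' * p) (heckeAlphaBar Qbar M' p (baseChangeHom M' K xK)) =
    heckeBetaBar Qbar M' p (frickeBar M' (baseChangeHom M' K xK))
  rw [← Fermat.Agent.ES.N35.NormBC1.baseChangeHom_alpha, ← baseChangeHom_frickeFK,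
    Fermat.Agent.ES.N34.FrickeV11.frickeFK_alpha, Fermat.Agent.ES.N35.NormBC1.baseChangeHom_beta,
    baseChangeHom_frickeFK]

/-- **`W_{M'p} ∘ β = α ∘ W_{M'}`** over `ℚ̄`. -/
theorem frickeBar_betaA (x : ↥(Fbar M')) :
    frickeBar (M' * p) (betaA M' p x) = alphaA M' p (frickeBar M' x) := by
  obtain ⟨K, hnor, hfin, xK, rfl⟩ := Large.exists_field (large_descent M' x)
  show frickeBar (M' * p) (heckeBetaBar Qbar M' p (baseChangeHom M' K xK)) =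
    heckeAlphaBar Qbar M' p (frickeBar M' (baseChangeHom M' K xK))
  rw [← Fermat.Agent.ES.N35.NormBC1.baseChangeHom_beta, ← baseChangeHom_frickeFK,
    Fermat.Agent.ES.N34.FrickeV11.frickeFK_beta, Fermat.Agent.ES.N35.NormBC1.baseChangeHom_alpha,
    baseChangeHom_frickeFK]

/-! ### `α`, `β` on Gauss-integral functions -/

theorem alphaA_mem_gaussA (a : ↥(Setup8.gaussA A (Fbar M'))) :
    alphaA M' p (a : ↥(Fbar M')) ∈ Setup8.gaussA A (Fbar (M' * p)) := by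
  obtain ⟨Y, hY⟩ := a.2
  exact ⟨Y, by rw [hY, coe_alphaA]⟩

theorem redA_alphaA (a : ↥(Setup8.gaussA A (Fbar M'))) :
    Setup8.redA A (Fbar (M' * p)) ⟨_, alphaA_mem_gaussA (p := p) a⟩ =
      Setup8.redA A (Fbar M') a := by
  rw [Setup8.redA_eq A (Fbar (M' * p)) ⟨_, alphaA_mem_gaussA (p := p) a⟩
    (Y := Setup8.liftA A (Fbar M') a)
    (by rw [Setup8.coeffMap_liftA]; exact (coe_alphaA _).symm)]
  rfl

theorem betaA_mem_gaussA (a : ↥(Setup8.gaussA A (Fbar M'))) :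
    betaA M' p (a : ↥(Fbar M')) ∈ Setup8.gaussA A (Fbar (M' * p)) := by
  obtain ⟨Y, hY⟩ := a.2
  exact ⟨qExpand ↥A p Y, by rw [ModularCurve.coeffMap_qExpand, hY, coe_betaA]⟩

theorem redA_betaA (a : ↥(Setup8.gaussA A (Fbar M'))) :
    Setup8.redA A (Fbar (M' * p)) ⟨_, betaA_mem_gaussA (p := p) a⟩ =
      qExpand (Setup8.kA A) p (Setup8.redA A (Fbar M') a) := by
  rw [Setup8.redA_eq A (Fbar (M' * p)) ⟨_, betaA_mem_gaussA (p := p) a⟩
    (Y := qExpand ↥A p (Setup8.liftA A (Fbar M') a))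
    (by rw [ModularCurve.coeffMap_qExpand, Setup8.coeffMap_liftA]; exact (coe_betaA _).symm)]
  rw [ModularCurve.coeffMap_qExpand]
  rfl

/-! ### the good level `M'`: `Ov₀`, `ρ₀`, `W̄` -/

section Level

variable (h : LevelHyp p M' A)

/-- the Gauss valuation ring of the good level `M'`. -/
def Ov0 : Subring ↥(Fbar M') :=
  haveI : Fact p.Prime := ⟨h.prime⟩
  Ov A M' p h.liesOver h.not_dvd

/-- the reduction at the good level. -/
def rho0 : ↥(Ov0 h) →+* Fb A M' :=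
  haveI : Fact p.Prime := ⟨h.prime⟩
  ρ A M' p h.liesOver h.not_dvd

theorem tGenBase4 : TGenBase 4 8 :=
  (Fermat.Agent.RED.BASE.MainCusp12.base_four 4 (dvd_refl 4)).1.genBase

theorem rho0_surjective : Function.Surjective (rho0 h) :=
  haveI : Fact p.Prime := ⟨h.prime⟩
  ρ_surjective A M' p h.liesOver h.not_dvd 4 8 (tMemM h) tGenBase4

/-- **`W̄`**, the reduction of the Fricke involution of the good level `M'`. -/
def Wb : Fb A M' ≃ₐ[Setup8.kA A] Fb A M' :=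
  haveI : Fact p.Prime := ⟨h.prime⟩
  WbarEquiv A M' p h.liesOver h.not_dvd (rho0_surjective h)

theorem mem_Ov0_iff (y : ↥(Fbar M')) : y ∈ Ov0 h ↔ ∃ a b : ↥(Setup8.gaussA A (Fbar M')),
    Setup8.redA A (Fbar M') b ≠ 0 ∧ y * (b : ↥(Fbar M')) = (a : ↥(Fbar M')) := by
  haveI : Fact p.Prime := ⟨h.prime⟩
  constructor
  · rintro ⟨a, b, hb, hab⟩
    exact ⟨a, b, (redFb_ne_zero_iff A M' p h.liesOver h.not_dvd b).1 hb, hab⟩
  · rintro ⟨a, b, hb, hab⟩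
    exact ⟨a, b, (redFb_ne_zero_iff A M' p h.liesOver h.not_dvd b).2 hb, hab⟩

theorem coe_rho0_eq (y : ↥(Ov0 h)) (a b : ↥(Setup8.gaussA A (Fbar M')))
    (hb : Setup8.redA A (Fbar M') b ≠ 0)
    (hab : (y : ↥(Fbar M')) * (b : ↥(Fbar M')) = (a : ↥(Fbar M'))) :
    ((rho0 h y : Fb A M') : LaurentSeries (Setup8.kA A)) =
      Setup8.redA A (Fbar M') a / Setup8.redA A (Fbar M') b := by
  haveI : Fact p.Prime := ⟨h.prime⟩
  have h1 : rho0 h y = redFb A M' p h.liesOver h.not_dvd a / redFb A M' p h.liesOver h.not_dvd b :=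
    fracRed_eq _ _ y a b ((redFb_ne_zero_iff A M' p h.liesOver h.not_dvd b).2 hb) hab
  rw [h1]
  rfl

theorem coe_rho1_eq (y : ↥(O1 h)) (a b : ↥(Setup8.gaussA A (Fbar (M' * p))))
    (hb : Setup8.redA A (Fbar (M' * p)) b ≠ 0)
    (hab : (y : ↥(Fbar (M' * p))) * (b : ↥(Fbar (M' * p))) = (a : ↥(Fbar (M' * p)))) :
    ((rho1 h y : Fb A M') : LaurentSeries (Setup8.kA A)) =
      Setup8.redA A (Fbar (M' * p)) a / Setup8.redA A (Fbar (M' * p)) b := by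
  have h1 : rho1 h y = redN h a / redN h b :=
    fracRed_eq _ _ y a b ((redN_ne_zero_iff h b).2 hb) hab
  rw [h1]
  rfl

theorem gaussA_mem_Ov0 (a : ↥(Setup8.gaussA A (Fbar M'))) : (a : ↥(Fbar M')) ∈ Ov0 h :=
  coe_mem_fracRing _ _ a

theorem coe_rho0_gaussA (a : ↥(Setup8.gaussA A (Fbar M'))) :
    ((rho0 h ⟨(a : ↥(Fbar M')), gaussA_mem_Ov0 h a⟩ : Fb A M') : LaurentSeries (Setup8.kA A)) =
      Setup8.redA A (Fbar M') a := by
  haveI : Fact p.Prime := ⟨h.prime⟩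
  have h1 := ρ_gaussA A M' p h.liesOver h.not_dvd a
  show ((ρ A M' p h.liesOver h.not_dvd ⟨(a : ↥(Fbar M')), _⟩ :
    ↥(modularFunctionFieldFullC (Setup8.kA A) M')) : LaurentSeries (Setup8.kA A)) = _
  rw [h1]
  rfl

/-! ### `α` and `β` on the Gauss valuation rings -/

theorem alphaA_mem_O1 {y : ↥(Fbar M')} (hy : y ∈ Ov0 h) : alphaA M' p y ∈ O1 h := by
  obtain ⟨a, b, hb, hab⟩ := (mem_Ov0_iff h y).1 hy
  refine (mem_O1_iff_redA h _).2 ⟨⟨_, alphaA_mem_gaussA (p := p) a⟩,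
    ⟨_, alphaA_mem_gaussA (p := p) b⟩, ?_, ?_⟩
  · rw [redA_alphaA]; exact hb
  · show alphaA M' p y * alphaA M' p (b : ↥(Fbar M')) = alphaA M' p (a : ↥(Fbar M'))
    rw [← map_mul, hab]

/-- **`ρ₁ (α y) = ρ₀ y`.** -/
theorem rho1_alphaA (y : ↥(Ov0 h)) :
    rho1 h ⟨alphaA M' p (y : ↥(Fbar M')), alphaA_mem_O1 h y.2⟩ = rho0 h y := by
  obtain ⟨a, b, hb, hab⟩ := (mem_Ov0_iff h _).1 y.2
  apply Subtype.ext
  rw [coe_rho0_eq h y a b hb hab,
    coe_rho1_eq h ⟨_, alphaA_mem_O1 h y.2⟩ ⟨_, alphaA_mem_gaussA (p := p) a⟩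
      ⟨_, alphaA_mem_gaussA (p := p) b⟩ (by rw [redA_alphaA]; exact hb)
      (by show alphaA M' p (y : ↥(Fbar M')) * alphaA M' p (b : ↥(Fbar M')) =
            alphaA M' p (a : ↥(Fbar M'))
          rw [← map_mul, hab]),
    redA_alphaA, redA_alphaA]

theorem qExpand_ne_zero {x : LaurentSeries (Setup8.kA A)} (hx : x ≠ 0) :
    qExpand (Setup8.kA A) p x ≠ 0 := by
  rwa [Ne, map_eq_zero]

theorem betaA_mem_O1 {y : ↥(Fbar M')} (hy : y ∈ Ov0 h) : betaA M' p y ∈ O1 h := by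
  obtain ⟨a, b, hb, hab⟩ := (mem_Ov0_iff h y).1 hy
  refine (mem_O1_iff_redA h _).2 ⟨⟨_, betaA_mem_gaussA (p := p) a⟩,
    ⟨_, betaA_mem_gaussA (p := p) b⟩, ?_, ?_⟩
  · rw [redA_betaA]; exact qExpand_ne_zero hb
  · show betaA M' p y * betaA M' p (b : ↥(Fbar M')) = betaA M' p (a : ↥(Fbar M'))
    rw [← map_mul, hab]

/-- **`ρ₁ (β y) = (ρ₀ y)(q^p)`.** -/
theorem coe_rho1_betaA (y : ↥(Ov0 h)) :
    ((rho1 h ⟨betaA M' p (y : ↥(Fbar M')), betaA_mem_O1 h y.2⟩ : Fb A M') :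
        LaurentSeries (Setup8.kA A)) =
      qExpand (Setup8.kA A) p ((rho0 h y : Fb A M') : LaurentSeries (Setup8.kA A)) := by
  obtain ⟨a, b, hb, hab⟩ := (mem_Ov0_iff h _).1 y.2
  rw [coe_rho0_eq h y a b hb hab,
    coe_rho1_eq h ⟨_, betaA_mem_O1 h y.2⟩ ⟨_, betaA_mem_gaussA (p := p) a⟩
      ⟨_, betaA_mem_gaussA (p := p) b⟩ (by rw [redA_betaA]; exact qExpand_ne_zero hb)
      (by show betaA M' p (y : ↥(Fbar M')) * betaA M' p (b : ↥(Fbar M')) =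
            betaA M' p (a : ↥(Fbar M'))
          rw [← map_mul, hab]),
    redA_betaA, redA_betaA, map_div₀]

/-! ### the second component -/

theorem frickeBar_mem_Ov0 {y : ↥(Fbar M')} (hy : y ∈ Ov0 h) : frickeBar M' y ∈ Ov0 h :=
  haveI : Fact p.Prime := ⟨h.prime⟩
  frickeBar_mem_Ov A M' p h.liesOver h.not_dvd hy

/-- **`ρ₀ (W_{M'} y) = W̄ (ρ₀ y)`.** -/
theorem rho0_frickeBar (y : ↥(Ov0 h)) :
    rho0 h ⟨frickeBar M' (y : ↥(Fbar M')), frickeBar_mem_Ov0 h y.2⟩ = Wb h (rho0 h y) :=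
  haveI : Fact p.Prime := ⟨h.prime⟩
  ρ_frickeBar A M' p h.liesOver h.not_dvd (rho0_surjective h) y

theorem betaA_mem_O2 {y : ↥(Fbar M')} (hy : y ∈ Ov0 h) : betaA M' p y ∈ O2 h := by
  rw [mem_O2_iff, frickeBar_betaA]
  exact alphaA_mem_O1 h (frickeBar_mem_Ov0 h hy)

theorem alphaA_mem_O2 {y : ↥(Fbar M')} (hy : y ∈ Ov0 h) : alphaA M' p y ∈ O2 h := by
  rw [mem_O2_iff, frickeBar_alphaA]
  exact betaA_mem_O1 h (frickeBar_mem_Ov0 h hy)

theorem rho1_congr {x x' : ↥(Fbar (M' * p))} (hxx : x = x') (hx : x ∈ O1 h) (hx' : x' ∈ O1 h) :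
    rho1 h ⟨x, hx⟩ = rho1 h ⟨x', hx'⟩ := by
  subst hxx; rfl

theorem rho2_congr {x x' : ↥(Fbar (M' * p))} (hxx : x = x') (hx : x ∈ O2 h) (hx' : x' ∈ O2 h) :
    rho2 h ⟨x, hx⟩ = rho2 h ⟨x', hx'⟩ := by
  subst hxx; rfl

/-- **`ρ₂ (β y) = W̄ (ρ₀ y)`.** -/
theorem rho2_betaA (y : ↥(Ov0 h)) :
    rho2 h ⟨betaA M' p (y : ↥(Fbar M')), betaA_mem_O2 h y.2⟩ = Wb h (rho0 h y) :=
  calc rho2 h ⟨betaA M' p (y : ↥(Fbar M')), betaA_mem_O2 h y.2⟩
      = rho1 h ⟨frickeBar (M' * p) (betaA M' p (y : ↥(Fbar M'))),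
          (mem_O2_iff h _).1 (betaA_mem_O2 h y.2)⟩ := rho2_apply h _
    _ = rho1 h ⟨alphaA M' p (frickeBar M' (y : ↥(Fbar M'))),
          alphaA_mem_O1 h (frickeBar_mem_Ov0 h y.2)⟩ := rho1_congr h (frickeBar_betaA _) _ _
    _ = rho0 h ⟨frickeBar M' (y : ↥(Fbar M')), frickeBar_mem_Ov0 h y.2⟩ :=
          rho1_alphaA h ⟨_, frickeBar_mem_Ov0 h y.2⟩
    _ = Wb h (rho0 h y) := rho0_frickeBar h y

/-- **`ρ₂ (α y) = (W̄ (ρ₀ y))(q^p)`.** -/
theorem coe_rho2_alphaA (y : ↥(Ov0 h)) :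
    ((rho2 h ⟨alphaA M' p (y : ↥(Fbar M')), alphaA_mem_O2 h y.2⟩ : Fb A M') :
        LaurentSeries (Setup8.kA A)) =
      qExpand (Setup8.kA A) p ((Wb h (rho0 h y) : Fb A M') : LaurentSeries (Setup8.kA A)) := by
  have h1 : rho2 h ⟨alphaA M' p (y : ↥(Fbar M')), alphaA_mem_O2 h y.2⟩ =
      rho1 h ⟨betaA M' p (frickeBar M' (y : ↥(Fbar M'))),
          betaA_mem_O1 h (frickeBar_mem_Ov0 h y.2)⟩ :=
    (rho2_apply h _).trans (rho1_congr h (frickeBar_alphaA _) _ _)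
  rw [h1, coe_rho1_betaA h ⟨_, frickeBar_mem_Ov0 h y.2⟩, rho0_frickeBar]

/-! ### surjectivity of the two reductions -/

theorem rho1_surjective : Function.Surjective (rho1 h) := by
  intro z
  obtain ⟨y, rfl⟩ := rho0_surjective h z
  exact ⟨_, rho1_alphaA h y⟩

theorem rho2_surjective : Function.Surjective (rho2 h) := by
  intro z
  obtain ⟨y, hy⟩ := rho0_surjective h ((Wb h).symm z)
  refine ⟨_, (rho2_betaA h y).trans ?_⟩
  rw [hy, AlgEquiv.apply_symm_apply]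

theorem c1_ρ_surjective : Function.Surjective (c1 h).ρ := rho1_surjective h

theorem c2_ρ_surjective : Function.Surjective (c2 h).ρ := rho2_surjective h

/-! ### the two separating generators `x₁ = t̃`, `x₂ = W̄ t̃` -/

/-- **`x₁ = t̃`**, the reduction of the Hauptmodul of the good level. -/
def xOne : Fb A M' :=
  haveI : Fact p.Prime := ⟨h.prime⟩
  SpecialGen25.tRes 4 8 M' p h.not_dvd (tMemM h) tGenBase4 A h.liesOver

@[simp] theorem coe_xOne :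
    ((xOne h : Fb A M') : LaurentSeries (Setup8.kA A)) =
      Fermat.Agent.RED.BASE.EtaQuot12.tq (Setup8.kA A) 4 8 := rfl

/-- **`x₂ = W̄ t̃`**. -/
def xTwo : Fb A M' := Wb h (xOne h)

theorem tM_mem_gaussA : tM h ∈ Setup8.gaussA A (Fbar M') :=
  Psi3G.mem_gaussA_of_mem_intF A M' (TqIntF5.tF_mem_intF A M' (tMemM h))

theorem redA_tM :
    Setup8.redA A (Fbar M') ⟨tM h, tM_mem_gaussA h⟩ =
      Fermat.Agent.RED.BASE.EtaQuot12.tq (Setup8.kA A) 4 8 :=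
  (Psi3G.redSeries_eq_redA A M' (tF M' (tMemM h)) (TqIntF5.tF_mem_intF A M' (tMemM h))
    (tM_mem_gaussA h)).symm.trans (TqIntF5.redSeries_tF A M' (tMemM h))

theorem tM_mem_Ov0 : tM h ∈ Ov0 h := gaussA_mem_Ov0 h ⟨_, tM_mem_gaussA h⟩

/-- **`ρ₀ t = x₁`.** -/
theorem rho0_tM : rho0 h ⟨tM h, tM_mem_Ov0 h⟩ = xOne h := by
  apply Subtype.ext
  rw [coe_rho0_gaussA h ⟨_, tM_mem_gaussA h⟩, redA_tM]
  rfl

theorem tA_mem_O1 : tA h ∈ O1 h := by
  rw [tA_eq_alphaA]; exact alphaA_mem_O1 h (tM_mem_Ov0 h)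

theorem yA_mem_O1 : yA h ∈ O1 h := betaA_mem_O1 h (tM_mem_Ov0 h)

theorem tA_mem_O2 : tA h ∈ O2 h := by
  rw [tA_eq_alphaA]; exact alphaA_mem_O2 h (tM_mem_Ov0 h)

theorem yA_mem_O2 : yA h ∈ O2 h := betaA_mem_O2 h (tM_mem_Ov0 h)

/-- **`ρ₁ t = x₁`.** -/
theorem rho1_tA : rho1 h ⟨tA h, tA_mem_O1 h⟩ = xOne h :=
  (rho1_congr h (tA_eq_alphaA h) _ (alphaA_mem_O1 h (tM_mem_Ov0 h))).trans
    ((rho1_alphaA h ⟨tM h, tM_mem_Ov0 h⟩).trans (rho0_tM h))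

/-- in characteristic `p`: `f(q^p) = f^p` for `f` with coefficients in `𝔽_p`. -/
theorem qExpand_eq_pow [Fact p.Prime] [CharP (Setup8.kA A) p] {f : LaurentSeries (Setup8.kA A)}
    (hf : coeffMap (frobenius (Setup8.kA A) p) f = f) : qExpand (Setup8.kA A) p f = f ^ p := by
  rw [Fermat.Agent.ES.KRON.KronCong24.pow_char p f, hf]

/-- **`ρ₁ y = x₁^p`.** -/
theorem rho1_yA : rho1 h ⟨yA h, yA_mem_O1 h⟩ = xOne h ^ p := by
  haveI : Fact p.Prime := ⟨h.prime⟩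
  haveI : CharP (Setup8.kA A) p :=
    Fermat.Agent.ES.KRON.KronInst10.charP_residueField A h.prime h.liesOver
  apply Subtype.ext
  have h1 := coe_rho1_betaA h ⟨tM h, tM_mem_Ov0 h⟩
  rw [rho0_tM] at h1
  refine h1.trans ?_
  rw [qExpand_eq_pow (by rw [coe_xOne]; exact Fermat.Agent.RED.BASE.EtaQuot12.coeffMap_tq _ _ 4 8)]
  rfl

/-- **`ρ₂ y = x₂`.** -/
theorem rho2_yA : rho2 h ⟨yA h, yA_mem_O2 h⟩ = xTwo h := by
  have h1 := rho2_betaA h ⟨tM h, tM_mem_Ov0 h⟩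
  rw [rho0_tM] at h1
  exact h1

/-! ### `x₂` has coefficients in `𝔽_p` -/

theorem mem_OOne_of_mem_Ov0 {y : ↥(Fbar M')} (hy : y ∈ Ov0 h) : y ∈ Psi3G.OOne A M' := by
  rw [Psi3G.OOne_eq_fracRing_gaussA]
  exact (mem_Ov0_iff h y).1 hy

theorem mem_Ov0_of_mem_OOne {y : ↥(Fbar M')} (hy : y ∈ Psi3G.OOne A M') : y ∈ Ov0 h := by
  rw [Psi3G.OOne_eq_fracRing_gaussA] at hy
  exact (mem_Ov0_iff h y).2 hy

/-- `ρ₀` is the restriction of `Psi3G.rhoOne` (reduction of `q`-expansions). -/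
theorem coe_rho0 (y : ↥(Ov0 h)) :
    ((rho0 h y : Fb A M') : LaurentSeries (Setup8.kA A)) =
      Psi3G.rhoOne A M' ⟨(y : ↥(Fbar M')), mem_OOne_of_mem_Ov0 h y.2⟩ := by
  obtain ⟨a, b, hb, hab⟩ := (mem_Ov0_iff h _).1 y.2
  rw [coe_rho0_eq h y a b hb hab, Psi3G.rhoOne_eq' A M' _ _ a b hb hab]

theorem gal_smul_tM (τ : Qbar ≃ₐ[ℚ] Qbar) : Psi3C.gal M' τ • tM h = tM h := by
  apply Subtype.ext
  rw [Psi3C.coe_gal_smul, coe_tM]
  exact Fermat.Agent.RED.BASE.EtaQuot12.coeffMap_tq Qbar (τ : Qbar →+* Qbar) 4 8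

theorem xTwo_eq_rho0 :
    xTwo h = rho0 h ⟨frickeBar M' (tM h), frickeBar_mem_Ov0 h (tM_mem_Ov0 h)⟩ := by
  rw [rho0_frickeBar h ⟨tM h, tM_mem_Ov0 h⟩, rho0_tM]
  rfl

/-- **`x₂` is fixed by the coefficientwise Frobenius.** -/
theorem coeffMap_frobenius_xTwo [Fact p.Prime] [CharP (Setup8.kA A) p] :
    coeffMap (frobenius (Setup8.kA A) p) ((xTwo h : Fb A M') : LaurentSeries (Setup8.kA A)) =
      ((xTwo h : Fb A M') : LaurentSeries (Setup8.kA A)) := by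
  obtain ⟨σ, hσ⟩ := Fermat.Agent.ES.FROB.FrobFacts12.exists_isFrobeniusAt_of p h.prime A h.liesOver
  have hz : frickeBar M' (tM h) ∈ Ov0 h := frickeBar_mem_Ov0 h (tM_mem_Ov0 h)
  have hfix : Psi3C.gal M' σ • frickeBar M' (tM h) = frickeBar M' (tM h) := by
    rw [← Psi3C.frickeBar_smul, gal_smul_tM]
  have hz' : Psi3C.gal M' σ • frickeBar M' (tM h) ∈ Psi3G.OOne A M' := by
    rw [hfix]; exact mem_OOne_of_mem_Ov0 h hz
  have h1 := Psi3G.rhoOne_decomp_smul (A := A) (N := M')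
    (⟨σ, hσ.mem_decompositionSubgroup⟩ : A.decompositionSubgroup ℚ)
    (frickeBar M' (tM h)) (mem_OOne_of_mem_Ov0 h hz) hz'
  have h2 : (⟨Psi3C.gal M' σ • frickeBar M' (tM h), hz'⟩ : ↥(Psi3G.OOne A M')) =
      ⟨frickeBar M' (tM h), mem_OOne_of_mem_Ov0 h hz⟩ := Subtype.ext hfix
  rw [h2] at h1
  rw [xTwo_eq_rho0, coe_rho0 h ⟨_, hz⟩]
  refine Eq.trans (coeffMap_congr (RingHom.ext fun x => ?_) _) h1.symm
  exact (Fermat.Agent.ES.RED.GaloisRed21.psiRes_of_isFrobeniusAt A hσ x).symm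

/-- **`ρ₂ t = x₂^p`.** -/
theorem rho2_tA : rho2 h ⟨tA h, tA_mem_O2 h⟩ = xTwo h ^ p := by
  haveI : Fact p.Prime := ⟨h.prime⟩
  haveI : CharP (Setup8.kA A) p :=
    Fermat.Agent.ES.KRON.KronInst10.charP_residueField A h.prime h.liesOver
  apply Subtype.ext
  have h0 : rho2 h ⟨tA h, tA_mem_O2 h⟩ =
      rho2 h ⟨alphaA M' p (tM h), alphaA_mem_O2 h (tM_mem_Ov0 h)⟩ :=
    rho2_congr h (tA_eq_alphaA h) _ _
  have h1 : ((rho2 h ⟨alphaA M' p (tM h), alphaA_mem_O2 h (tM_mem_Ov0 h)⟩ : Fb A M') :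
      LaurentSeries (Setup8.kA A)) =
      qExpand (Setup8.kA A) p ((xTwo h : Fb A M') : LaurentSeries (Setup8.kA A)) := by
    have h2 := coe_rho2_alphaA h ⟨tM h, tM_mem_Ov0 h⟩
    rw [rho0_tM] at h2
    exact h2
  rw [h0]
  refine h1.trans ?_
  rw [qExpand_eq_pow (coeffMap_frobenius_xTwo h)]
  rfl

/-! ### both are separating generators of `κ·F̃_{M'}` -/

theorem isGen_xOne : Fermat.Agent.X0.FF.IsGen (Setup8.kA A) (xOne h) :=
  haveI : Fact p.Prime := ⟨h.prime⟩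
  SpecialGen25.isGen_tRes 4 8 M' p h.not_dvd (tMemM h) tGenBase4 A h.liesOver

theorem isGen_xTwo : Fermat.Agent.X0.FF.IsGen (Setup8.kA A) (xTwo h) :=
  isGen_map (Wb h) (isGen_xOne h)

instance isSeparable_xOne :
    Algebra.IsSeparable ↥((Setup8.kA A)⟮xOne h⟯) (Fb A M') :=
  haveI : Fact p.Prime := ⟨h.prime⟩
  SpecialGen25.isSeparable_tRes 4 8 M' p h.not_dvd (tMemM h) tGenBase4 A h.liesOver

instance isSeparable_xTwo :
    Algebra.IsSeparable ↥((Setup8.kA A)⟮xTwo h⟯) (Fb A M') :=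
  isSeparable_map (Wb h) (xOne h)

theorem finrank_xOne :
    Module.finrank ↥((Setup8.kA A)⟮xOne h⟯) (Fb A M') =
      Module.finrank ↥(Qbar⟮tM h⟯ : IntermediateField Qbar ↥(Fbar M')) ↥(Fbar M') :=
  haveI : Fact p.Prime := ⟨h.prime⟩
  SpecialGen25.finrank_tRes 4 8 M' p h.not_dvd (tMemM h) tGenBase4 A h.liesOver

theorem finrank_xTwo :
    Module.finrank ↥((Setup8.kA A)⟮xTwo h⟯) (Fb A M') =
      Module.finrank ↥((Setup8.kA A)⟮xOne h⟯) (Fb A M') :=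
  finrank_map (Wb h) (xOne h)

end Level

end Fermat.Agent.T33.FrickeRed3
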