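/-
Programme T (S33), chapter (e) "N34 over ℚ̄", block [B-1](i) (helper5): **the charts of the nodal
model over `A` lie in both Gauss rings and are saturated.**

* `gauss_ascent` (any level `N`, `A` over `ℓ`): an element `x` of `K·F_N` lying in the Gauss ring
  `gaussRing (A ∩ K)` of `K((q))` (a fraction of INTEGRAL SERIES with Gauss-unit denominator) maps to
  a fraction of `A`-integral FUNCTIONS of `ℚ̄·F_N` with Gauss-unit denominator — the converse
  ("ascent") of `LocalReg5B.large_mem_gauss`;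
* `mem_O1_of_level`, `mem_O2_of_level` : `O_j(K) → O_j(A)` along `baseChangeHom`;
* **`chartOK_B0A`, `chartOK_B1A`** : `NodalBase4A.ChartOK h (B0A h)`, `ChartOK h (B1A h)`;
* **`sat_B0A`, `sat_B1A`** : `b ∈ B_j(A)`, `ρ₁ b = 0`, `ρ₂ b = 0` ⟹ `b = c · b'` with `c ∈ 𝔪_A`,
  `b' ∈ B_j(A)` (the special fibre of the model over `A` is reduced with exactly the two components);
* `C0A h`, `C1A h : NodalPlaces1.Chart (c1 h) (c2 h)` — the two charts in helper1's vocabulary.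
-/
import Mathlib
import Fermat.Agent.T33.LocalReg5C
import Fermat.Agent.T33.NodalBase4A
import Fermat.Agent.T33.NodalPlaces1B
import Fermat.Agent.FF.GaussOv1B

set_option autoImplicit false
set_option linter.unusedSectionVars false
set_option linter.style.haveILetI false
set_option linter.unusedVariables false
set_option synthInstance.maxHeartbeats 400000

noncomputable section

namespace Fermat.Agent.T33.ChartOK5

open HahnSeries ModularCurve IntermediateField AlgebraicCurve IsLocalRing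
open Fermat.Agent.RED.Interface4 Fermat.Agent.RED.PUR.GaussGen8 Fermat.Agent.RED.DESC
  Fermat.Agent.RED.DESC.PlaceExtend27 Fermat.Agent.RED.DESC.NumberFieldDVR27
  Fermat.Agent.RED.PUR.ChartGeneric22 Fermat.Agent.RED.BASE.EtaQuot12
  Fermat.Agent.ES.RED Fermat.Agent.ES.N34.ModelN4 Fermat.Agent.ES.N34.FrickeFK8
  Fermat.Agent.ES.N34.NodalCore13 Fermat.Agent.ES.N34.NumData13 Fermat.Agent.ES.N34.ModelDefs9
  Fermat.Agent.T33.NodalCtx1 Fermat.Agent.T33.NodalHalf4 Fermat.Agent.T33.NodalBase4A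
  Fermat.Agent.T33.LocalReg5 Fermat.Agent.T33.LocalReg5B Fermat.Agent.T33.LocalReg5C

/-! ### ascent of the Gauss ring -/

section Ascent

variable (A : ValuationSubring Qbar) (N : ℕ) [NeZero N] (ℓ : ℕ) [Fact ℓ.Prime]
  (hA : A.LiesOverPrime ℓ)

include hA in
/-- **ascent**: `O₁(K) → O₁(A)`. -/
theorem gauss_ascent (K : IntermediateField ℚ Qbar) (x : FK N K)
    (hx : ((x : FK N K) : LaurentSeries K) ∈ gaussRing (AK A K)) :
    ∃ a b : ↥(Setup8.gaussA A (Fbar N)), Setup8.redA A (Fbar N) b ≠ 0 ∧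
      baseChangeHom N K x * (b : ↥(Fbar N)) = (a : ↥(Fbar N)) := by
  by_cases hx0 : x = 0
  · refine ⟨0, 1, ?_, ?_⟩
    · rw [map_one]; exact one_ne_zero
    · rw [hx0, map_zero, zero_mul]; rfl
  have hy0 : baseChangeHom N K x ≠ 0 := fun h0 =>
    hx0 (baseChangeHom_injective N K (by rw [h0, map_zero]))
  obtain ⟨a₀, s, hs, hrel⟩ := hx
  obtain ⟨c, a, b, hc0, ha, hb, hrel2⟩ :=
    Fermat.Agent.FF.GaussOv1.exists_gauss_fraction A N ℓ hA (baseChangeHom N K x) hy0
  by_cases hcA : c ∈ A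
  · refine ⟨⟨algebraMap Qbar ↥(Fbar N) c, Setup8.algebraMap_mem_gaussA A (Fbar N) ⟨c, hcA⟩⟩ * a,
      b, hb, ?_⟩
    rw [hrel2]
    rfl
  · exfalso
    have hcinv : c⁻¹ ∈ A := (A.mem_or_inv_mem c).resolve_left hcA
    have hcmax : (⟨c⁻¹, hcinv⟩ : ↥A) ∈ maximalIdeal ↥A := by
      rw [mem_maximalIdeal, mem_nonunits_iff]
      intro hu
      apply hcA
      obtain ⟨u, hu⟩ := hu
      have h1 : ((u⁻¹ : (↥A)ˣ) : ↥A) * ⟨c⁻¹, hcinv⟩ = 1 := by rw [← hu]; exact u.inv_mul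
      have h2 : (((u⁻¹ : (↥A)ˣ) : ↥A) : Qbar) * c⁻¹ = 1 := congrArg Subtype.val h1
      have h3 : (((u⁻¹ : (↥A)ˣ) : ↥A) : Qbar) = c := by
        field_simp at h2
        exact h2
      rw [← h3]
      exact ((u⁻¹ : (↥A)ˣ) : ↥A).2
    -- the series
    set S' : LaurentSeries ↥A := coeffMap (incl A K) s with hS'
    set A₀' : LaurentSeries ↥A := coeffMap (incl A K) a₀ with hA₀'
    have hinj := Setup8.coeffMap_subtype_injective A
    have E1 : ((baseChangeHom N K x : Fbar N) : LaurentSeries Qbar) * coeffMap A.subtype S' =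
        coeffMap A.subtype A₀' := by
      rw [hS', hA₀', GaussUnit25.coeffMap_subtype_incl, GaussUnit25.coeffMap_subtype_incl,
        coe_baseChangeHom, ← map_mul, hrel]
    have E2 : ((baseChangeHom N K x : Fbar N) : LaurentSeries Qbar) *
        coeffMap A.subtype (Setup8.liftA A (Fbar N) b) =
        HahnSeries.C c * coeffMap A.subtype (Setup8.liftA A (Fbar N) a) := by
      rw [Setup8.coeffMap_liftA, Setup8.coeffMap_liftA]
      have h1 := congrArg (fun w : Fbar N => (w : LaurentSeries Qbar)) hrel2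
      simp only [MulMemClass.coe_mul] at h1
      rw [h1]
      congr 1
      exact algebraMap_eq_C c
    have hC : HahnSeries.C c * HahnSeries.C c⁻¹ = (1 : LaurentSeries Qbar) := by
      rw [← map_mul, mul_inv_cancel₀ hc0, map_one]
    have E3 : coeffMap A.subtype (Setup8.liftA A (Fbar N) a * S') =
        coeffMap A.subtype (HahnSeries.C (⟨c⁻¹, hcinv⟩ : ↥A) * (A₀' * Setup8.liftA A (Fbar N) b)) := by
      rw [map_mul, map_mul, map_mul]
      have hCc : coeffMap A.subtype (HahnSeries.C (⟨c⁻¹, hcinv⟩ : ↥A)) =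
          (HahnSeries.C c⁻¹ : LaurentSeries Qbar) := coeffMap_C _ _
      rw [hCc, ← E1]
      calc coeffMap A.subtype (Setup8.liftA A (Fbar N) a) * coeffMap A.subtype S'
          = (HahnSeries.C c * HahnSeries.C c⁻¹) *
              (coeffMap A.subtype (Setup8.liftA A (Fbar N) a) * coeffMap A.subtype S') := by
            rw [hC, one_mul]
        _ = HahnSeries.C c⁻¹ * ((HahnSeries.C c *
              coeffMap A.subtype (Setup8.liftA A (Fbar N) a)) * coeffMap A.subtype S') := by ring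
        _ = _ := by rw [← E2]; ring
    have E4 := hinj E3
    have E5 := congrArg (coeffMap (Setup8.resA A)) E4
    rw [map_mul, map_mul, coeffMap_C, (residue_eq_zero_iff _).2 hcmax, map_zero, zero_mul] at E5
    have hred_a : coeffMap (Setup8.resA A) (Setup8.liftA A (Fbar N) a) ≠ 0 := ha
    have hred_S : coeffMap (Setup8.resA A) S' ≠ 0 := by
      rw [hS', GaussUnit25.coeffMap_residue_incl]
      intro h0
      apply hs
      apply CoeffDescent1.coeffMap_injective_of_injective (resMap A K) (resMap_injective A K)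
      rw [h0, map_zero]
    exact (mul_ne_zero hred_a hred_S) E5

end Ascent

/-! ### the charts lie in both Gauss rings -/

section Concrete

variable {p M' : ℕ} [NeZero M'] [NeZero p] {A : ValuationSubring Qbar}

/-- `O₁(K) → O₁(A)`. -/
theorem mem_O1_of_level (h : LevelHyp p M' A) (K : IntermediateField ℚ Qbar)
    (x : FK (M' * p) K) (hx : ((x : FK (M' * p) K) : LaurentSeries K) ∈ gaussRing (AK A K)) :
    baseChangeHom (M' * p) K x ∈ O1 h := by
  haveI : Fact p.Prime := ⟨h.prime⟩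
  exact (mem_O1_iff_redA h _).2 (gauss_ascent A (M' * p) p h.liesOver K x hx)

/-- `O₂(K) → O₂(A)`. -/
theorem mem_O2_of_level (h : LevelHyp p M' A) (K : IntermediateField ℚ Qbar)
    (x : FK (M' * p) K) (hx : iotaTwo (M' * p) K x ∈ gaussRing (AK A K)) :
    baseChangeHom (M' * p) K x ∈ O2 h := by
  rw [NodalHalf4.mem_O2_iff, ← baseChangeHom_frickeFK]
  exact mem_O1_of_level h K (frickeFK (M' * p) K x) hx

/-- a uniformiser of `A ∩ K`. -/
theorem exists_unif (h : LevelHyp p M' A) (K : IntermediateField ℚ Qbar)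
    [FiniteDimensional ℚ K] : ∃ π : ↥(AK A K), IsUnif (AK A K) π := by
  haveI hdvr : IsDiscreteValuationRing ↥(AK A K) :=
    isDiscreteValuationRing_AK A K h.prime.ne_zero h.liesOver
  obtain ⟨π, hπirr⟩ := IsDiscreteValuationRing.exists_irreducible ↥(AK A K)
  exact ⟨π, isUnif_of_irreducible (AK A K) hπirr⟩

/-- **a chart with finite-level models lies in `O₁ ⊓ O₂`.** -/
theorem chartOK_of_model (h : LevelHyp p M' A) (s : Fbar (M' * p))
    (hmodel : Large (ChartModelAt p M' A s)) : ChartOK h (chart ↥A s) := by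
  have key : ∀ b ∈ chart ↥A s, b ∈ O1 h ∧ b ∈ O2 h := by
    intro b hb
    obtain ⟨K, hnor, hfd, ⟨hM, hb'⟩⟩ :=
      Large.exists_field (hmodel.and (large_chart A (M' * p) s b hb))
    obtain ⟨sK, hE, hsK, hC⟩ := hM
    haveI := hfd
    obtain ⟨π, hπ⟩ := exists_unif h K
    obtain ⟨x, hx, hxb⟩ := hb' sK hsK
    have C := hC π hπ
    rw [← hxb]
    exact ⟨mem_O1_of_level h K x ((Fermat.Agent.ES.N34.ModelDefs9.mem_O1_iff M' p hπ hE x).1 (C.leO1 x hx)),
      mem_O2_of_level h K x ((Fermat.Agent.ES.N34.ModelDefs9.mem_O2_iff M' p hπ hE x).1 (C.leO2 x hx))⟩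
  exact ⟨fun b hb => (key b hb).1, fun b hb => (key b hb).2⟩

/-- **the chart `0` lies in `O₁ ⊓ O₂`.** -/
theorem chartOK_B0A (h : LevelHyp p M' A) : ChartOK h (B0A h) :=
  chartOK_of_model h (tA h) (large_chartModel_zero h (tA h) (coe_tA h))

/-- **the chart `1` lies in `O₁ ⊓ O₂`.** -/
theorem chartOK_B1A (h : LevelHyp p M' A) : ChartOK h (B1A h) :=
  chartOK_of_model h (tA h)⁻¹ (large_chartModel_one h (tA h) (coe_tA h))

/-! ### saturation -/

section SatGeneric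

variable {Kt : Type*} [Field Kt] {O : ValuationSubring Kt}
  {E : IntermediateField Kt (LaurentSeries Kt)}

/-- iterated saturation at one level: `π ^ k * z ∈ B`, `z ∈ O₁ ⊓ O₂` ⟹ `z ∈ B`. -/
theorem mem_of_pow_mul_mem {π : O} {t : E} {B : Subalgebra ↥O ↥E} {O1 O2 : ValuationSubring ↥E}
    (C : ChartFields O E π t B O1 O2) (k : ℕ) (z : E) (h1 : z ∈ O1) (h2 : z ∈ O2)
    (hz : algebraMap ↥O ↥E π ^ k * z ∈ B) : z ∈ B := by
  induction k generalizing z with
  | zero => simpa using hz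
  | succ k ih =>
    have hπ1 : algebraMap ↥O ↥E π ∈ O1 := C.leO1 _ (Subalgebra.algebraMap_mem B π)
    have hπ2 : algebraMap ↥O ↥E π ∈ O2 := C.leO2 _ (Subalgebra.algebraMap_mem B π)
    have h3 : algebraMap ↥O ↥E π ^ k * z ∈ B := by
      refine C.sat _ hz _ (O1.mul_mem _ _ (pow_mem hπ1 k) h1)
        (O2.mul_mem _ _ (pow_mem hπ2 k) h2) ?_
      rw [pow_succ]; ring
    exact ih z h1 h2 h3

end SatGeneric

section Sat

variable {p M' : ℕ} [NeZero M'] [NeZero p] {A : ValuationSubring Qbar}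

/-- **saturation of a chart with finite-level models**: an element of the chart killed by both
reductions is `c · b'` with `c ∈ 𝔪_A` and `b'` in the chart. -/
theorem sat_of_model (h : LevelHyp p M' A) (s : Fbar (M' * p))
    (hmodel : Large (ChartModelAt p M' A s)) (b : Fbar (M' * p)) (hb : b ∈ chart ↥A s)
    (h1 : b ∈ (c1 h).O) (h2 : b ∈ (c2 h).O) (hρ1 : (c1 h).ρ ⟨b, h1⟩ = 0)
    (hρ2 : (c2 h).ρ ⟨b, h2⟩ = 0) :
    ∃ c : ↥A, c ∈ maximalIdeal ↥A ∧ ∃ b' ∈ chart ↥A s,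
      b = algebraMap Qbar ↥(Fbar (M' * p)) (c : Qbar) * b' := by
  by_cases hb0 : b = 0
  · exact ⟨0, Ideal.zero_mem _, 0, zero_mem _, by rw [hb0]; simp⟩
  obtain ⟨c, hc, y, hy1, hy2, hby⟩ :=
    Fermat.Agent.T33.NodalCtx1B.kernel_half (c1 h) (c2 h) b h1 h2 hρ1 hρ2
  have hc0 : (c : Qbar) ≠ 0 := by
    intro h0
    apply hb0
    rw [hby, h0, map_zero, zero_mul]
  refine ⟨c, hc, y, ?_, hby⟩
  obtain ⟨K, hnor, hfd, ⟨⟨⟨⟨⟨hM, hbK⟩, hcK⟩, ⟨yK, hyK⟩⟩, hy1K⟩, hy2K⟩⟩ :=
    Large.exists_field (((((hmodel.and (large_chart A (M' * p) s b hb)).and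
      (large_const A c hc)).and (large_descent (M' * p) y)).and
      (large_mem_gauss A (M' * p) y ((mem_O1_iff_redA h y).1 hy1))).and
      (large_mem_gauss_fricke A (M' * p) y
        ((mem_O1_iff_redA h _).1 ((NodalHalf4.mem_O2_iff h y).1 hy2))))
  obtain ⟨sK, hE, hsK, hC⟩ := hM
  haveI := hfd
  obtain ⟨π, hπ⟩ := exists_unif h K
  have C := hC π hπ
  obtain ⟨x, hx, hxb⟩ := hbK sK hsK
  obtain ⟨cK, hcK1, hcK2⟩ := hcK
  have hy1' : yK ∈ Fermat.Agent.ES.N34.ModelDefs9.O1 M' p hπ hE :=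
    (Fermat.Agent.ES.N34.ModelDefs9.mem_O1_iff M' p hπ hE yK).2 (hy1K yK hyK)
  have hy2' : yK ∈ Fermat.Agent.ES.N34.ModelDefs9.O2 M' p hπ hE :=
    (Fermat.Agent.ES.N34.ModelDefs9.mem_O2_iff M' p hπ hE yK).2 (hy2K yK hyK)
  have hx_eq : x = algebraMap ↥(AK A K) ↥(FK (M' * p) K) cK * yK := by
    apply baseChangeHom_injective (M' * p) K
    rw [map_mul, ChartUnion1.baseChangeHom_algebraMap_AK, hcK1, hyK, hxb]
    exact hby
  have hcK0 : cK ≠ 0 := by
    intro h0
    apply hc0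
    rw [← hcK1, h0, map_zero]
    rfl
  obtain ⟨k, v, hkv⟩ := C.dvrR cK hcK0
  have hv1 : algebraMap ↥(AK A K) ↥(FK (M' * p) K) (v : ↥(AK A K)) * yK ∈
      Fermat.Agent.ES.N34.ModelDefs9.O1 M' p hπ hE :=
    (Fermat.Agent.ES.N34.ModelDefs9.O1 M' p hπ hE).mul_mem _ _ (C.leO1 _ (Subalgebra.algebraMap_mem _ _)) hy1'
  have hv2 : algebraMap ↥(AK A K) ↥(FK (M' * p) K) (v : ↥(AK A K)) * yK ∈
      Fermat.Agent.ES.N34.ModelDefs9.O2 M' p hπ hE :=
    (Fermat.Agent.ES.N34.ModelDefs9.O2 M' p hπ hE).mul_mem _ _ (C.leO2 _ (Subalgebra.algebraMap_mem _ _)) hy2'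
  have hz : algebraMap ↥(AK A K) ↥(FK (M' * p) K) π ^ k *
      (algebraMap ↥(AK A K) ↥(FK (M' * p) K) (v : ↥(AK A K)) * yK) ∈ chart ↥(AK A K) sK := by
    have : algebraMap ↥(AK A K) ↥(FK (M' * p) K) π ^ k *
        (algebraMap ↥(AK A K) ↥(FK (M' * p) K) (v : ↥(AK A K)) * yK) = x := by
      rw [hx_eq, hkv, map_mul, map_pow]; ring
    rw [this]
    exact hx
  have hvy := mem_of_pow_mul_mem C k _ hv1 hv2 hz
  have hyB : yK ∈ chart ↥(AK A K) sK := by
    have h3 : yK = algebraMap ↥(AK A K) ↥(FK (M' * p) K) ((v⁻¹ : (↥(AK A K))ˣ) : ↥(AK A K)) *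
        (algebraMap ↥(AK A K) ↥(FK (M' * p) K) (v : ↥(AK A K)) * yK) := by
      rw [← mul_assoc, ← map_mul, Units.inv_mul, map_one, one_mul]
    rw [h3]
    exact (chart ↥(AK A K) sK).mul_mem (Subalgebra.algebraMap_mem _ _) hvy
  rw [← hyK]
  have h4 := ChartUnion1.baseChangeHom_mem_chart A (M' * p) K sK yK hyB
  rwa [hsK] at h4

/-- **the chart `0` is saturated.** -/
theorem sat_B0A (h : LevelHyp p M' A) (b : Fbar (M' * p)) (hb : b ∈ B0A h)
    (hρ1 : (c1 h).ρ ⟨b, (chartOK_B0A h).le1 b hb⟩ = 0)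
    (hρ2 : (c2 h).ρ ⟨b, (chartOK_B0A h).le2 b hb⟩ = 0) :
    ∃ c : ↥A, c ∈ maximalIdeal ↥A ∧ ∃ b' ∈ B0A h,
      b = algebraMap Qbar ↥(Fbar (M' * p)) (c : Qbar) * b' :=
  sat_of_model h (tA h) (large_chartModel_zero h (tA h) (coe_tA h)) b hb _ _ hρ1 hρ2

/-- **the chart `1` is saturated.** -/
theorem sat_B1A (h : LevelHyp p M' A) (b : Fbar (M' * p)) (hb : b ∈ B1A h)
    (hρ1 : (c1 h).ρ ⟨b, (chartOK_B1A h).le1 b hb⟩ = 0)
    (hρ2 : (c2 h).ρ ⟨b, (chartOK_B1A h).le2 b hb⟩ = 0) :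
    ∃ c : ↥A, c ∈ maximalIdeal ↥A ∧ ∃ b' ∈ B1A h,
      b = algebraMap Qbar ↥(Fbar (M' * p)) (c : Qbar) * b' :=
  sat_of_model h (tA h)⁻¹ (large_chartModel_one h (tA h) (coe_tA h)) b hb _ _ hρ1 hρ2

/-! ### the two charts in the vocabulary of `NodalPlaces1B` -/

/-- constants lie in every chart. -/
theorem const_mem_chart (s : Fbar (M' * p)) (a : ↥A) :
    algebraMap Qbar ↥(Fbar (M' * p)) (a : Qbar) ∈ chart ↥A s :=
  Subalgebra.algebraMap_mem (chart ↥A s) a

/-- **the chart `0` of the model**, as a `NodalPlaces1.Chart`. -/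
def C0A (h : LevelHyp p M' A) : Fermat.Agent.T33.NodalPlaces1.Chart (c1 h) (c2 h) where
  B := (B0A h).toSubring
  le₁ := fun b hb => (chartOK_B0A h).le1 b hb
  le₂ := fun b hb => (chartOK_B0A h).le2 b hb
  algebraMap_mem := fun a => const_mem_chart (tA h) a
  sat := fun b hb hρ1 hρ2 => sat_B0A h b hb hρ1 hρ2

/-- **the chart `1` of the model**, as a `NodalPlaces1.Chart`. -/
def C1A (h : LevelHyp p M' A) : Fermat.Agent.T33.NodalPlaces1.Chart (c1 h) (c2 h) where
  B := (B1A h).toSubring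
  le₁ := fun b hb => (chartOK_B1A h).le1 b hb
  le₂ := fun b hb => (chartOK_B1A h).le2 b hb
  algebraMap_mem := fun a => const_mem_chart (tA h)⁻¹ a
  sat := fun b hb hρ1 hρ2 => sat_B1A h b hb hρ1 hρ2

theorem mem_C0A_iff (h : LevelHyp p M' A) (x : Fbar (M' * p)) :
    x ∈ (C0A h).B ↔ x ∈ chart ↥A (tA h) := Iff.rfl

theorem mem_C1A_iff (h : LevelHyp p M' A) (x : Fbar (M' * p)) :
    x ∈ (C1A h).B ↔ x ∈ chart ↥A (tA h)⁻¹ := Iff.rfl

end Sat

end Concrete

end Fermat.Agent.T33.ChartOK5
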