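/-
Programme T (S33), chapter (e), brick `node_nonempty` at FINITE level (lead).

For the nodal two-chart model of Programme N (`ES/N34/NumData13.NodalNumData`: charts `B0 ∋ t`,
`B1 ∋ t⁻¹` over the DVR `R`, two Gauss valuation rings `O1`, `O2`, reduced special fibre with
exactly these two components) the special fibre is CONNECTED: some maximal ideal `𝔪 ∋ π` of one
of the two charts lies on both components (`¬ OffBranch` for `O1` and for `O2`), i.e. there is a
node.

Proof.  Let `𝔭_j = vert π B O_j = B ∩ π O_j` be the two vertical primes of a chart.  If no maximal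
ideal of `B` contains `𝔭_1 + 𝔭_2` then `a₁ + a₂ = 1` with `a_j ∈ 𝔭_j`; `a₁` is an idempotent modulo
`π B` (`𝔭_1 ∩ 𝔭_2 = π B`, saturation).  If this happens in both charts the two idempotents agree
modulo `π` on the overlap (saturation again), so by Programme H's completion-free "Zariski
connectedness by Čech" (`RED/CORE/IdemGlue14.connected`) `a₁ ∈ π B0` or `a₁ - 1 ∈ π B0`; both
contradict `π⁻¹ ∉ O_j`.
-/
import Mathlib
import Fermat.Agent.ES.N34.NumData13
import Fermat.Agent.ES.N34.NodeCoords29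
import Fermat.Agent.RED.CORE.IdemGlue14
import Fermat.Agent.RED.CORE.Constants18

set_option autoImplicit false

namespace Fermat.Agent.T33.NodeExists0

open Polynomial
open Fermat.Agent.ES.N34.NodalCore13 Fermat.Agent.ES.N34.NumData13
open Fermat.Agent.ES.N34.NodeCoords29 Fermat.Agent.RED.CORE

section OneChart

variable {R F : Type*} [CommRing R] [Field F] [Algebra R F]

/-- "`𝔪` is a node of the chart `B`": a maximal ideal above `π` through which both components
pass. -/
def IsNode (π : R) (B : Subalgebra R F) (O1 O2 : ValuationSubring F) (𝔪 : Ideal B) : Prop :=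
  𝔪.IsMaximal ∧ algebraMap R B π ∈ 𝔪 ∧ ¬ OffBranch π B O1 𝔪 ∧ ¬ OffBranch π B O2 𝔪

/-- On one chart: either there is a node, or the two vertical primes are comaximal. -/
theorem exists_node_or_comax (π : R) (B : Subalgebra R F) (O1 O2 : ValuationSubring F)
    (leO1 : ∀ x ∈ B, x ∈ O1) (leO2 : ∀ x ∈ B, x ∈ O2) :
    (∃ 𝔪 : Ideal B, IsNode π B O1 O2 𝔪) ∨
      ∃ a₁ a₂ : B, a₁ ∈ vert π B O1 leO1 ∧ a₂ ∈ vert π B O2 leO2 ∧ a₁ + a₂ = 1 := by
  by_cases h : vert π B O1 leO1 ⊔ vert π B O2 leO2 = ⊤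
  · right
    have h1 : (1 : B) ∈ vert π B O1 leO1 ⊔ vert π B O2 leO2 := by rw [h]; exact Submodule.mem_top
    obtain ⟨a₁, ha₁, a₂, ha₂, h12⟩ := Submodule.mem_sup.mp h1
    exact ⟨a₁, a₂, ha₁, ha₂, h12⟩
  · left
    obtain ⟨𝔪, h𝔪, hle⟩ := Ideal.exists_le_maximal _ h
    refine ⟨𝔪, h𝔪, ?_, ?_, ?_⟩
    · apply hle
      apply Ideal.mem_sup_left
      exact ⟨1, O1.one_mem, by simp [Algebra.algebraMap_eq_smul_one]⟩
    · rintro ⟨e, he, c, hc, hec⟩
      exact he (hle (Ideal.mem_sup_left ⟨c, hc, hec⟩))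
    · rintro ⟨e, he, c, hc, hec⟩
      exact he (hle (Ideal.mem_sup_right ⟨c, hc, hec⟩))

end OneChart

section Main

variable {R K F : Type*} [CommRing R] [Field K] [Field F] [Algebra R K] [Algebra K F]
  [Algebra R F] [IsScalarTower R K F]

/-- **The special fibre of the nodal two-chart model is connected: there is a node.** -/
theorem exists_node {π : R} {t : F} {B0 B1 : Subalgebra R F} {O1 O2 : ValuationSubring F}
    (D : NodalNumData R K F π t B0 B1 O1 O2) :
    (∃ 𝔪 : Ideal B0, IsNode π B0 O1 O2 𝔪) ∨ (∃ 𝔪 : Ideal B1, IsNode π B1 O1 O2 𝔪) := by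
  have M := D.model
  have := M.noethR
  set p : F := algebraMap R F π with hp
  have hp0 : p ≠ 0 := M.pi_ne
  have ht0 : t ≠ 0 := M.t_ne
  rcases exists_node_or_comax π B0 O1 O2 M.le_O1_0 M.le_O2_0 with h0 | ⟨a₁, a₂, ha₁, ha₂, ha⟩
  · exact Or.inl h0
  rcases exists_node_or_comax π B1 O1 O2 M.le_O1_1 M.le_O2_1 with h1 | ⟨b₁, b₂, hb₁, hb₂, hb⟩
  · exact Or.inr h1
  exfalso
  -- constants of `R` in the valuation rings
  have hRO1 : ∀ r : R, algebraMap R F r ∈ O1 := fun r => M.le_O1_0 _ (B0.algebraMap_mem r)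
  have hRO2 : ∀ r : R, algebraMap R F r ∈ O2 := fun r => M.le_O2_0 _ (B0.algebraMap_mem r)
  have hunitO1 : ∀ v : Rˣ, (algebraMap R F (v : R))⁻¹ ∈ O1 := by
    intro v
    have : (algebraMap R F (v : R))⁻¹ = algebraMap R F ((v⁻¹ : Rˣ) : R) := by
      apply inv_eq_of_mul_eq_one_right
      rw [← map_mul, Units.mul_inv, map_one]
    rw [this]
    exact hRO1 _
  -- `π` is not a unit of `R`
  have hπnu : ¬ IsUnit π := by
    intro hu
    obtain ⟨v, hv⟩ := hu
    apply M.pi_nonunit1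
    rw [← hv]
    exact hunitO1 v
  -- a nonzero element of `R` not divisible by `π` is a unit
  have hdvd_or_unit : ∀ a : R, π ∣ a ∨ IsUnit a := by
    intro a
    rcases eq_or_ne a 0 with rfl | ha0
    · exact Or.inl (dvd_zero π)
    obtain ⟨k, v, hkv⟩ := D.dvrR a ha0
    rcases Nat.eq_zero_or_pos k with rfl | hk
    · right
      rw [hkv, pow_zero, one_mul]
      exact v.isUnit
    · left
      rw [hkv]
      exact Dvd.dvd.mul_right (dvd_pow_self π hk.ne') _
  -- the three ring-theoretic hypotheses of `IdemGlue14.connected`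
  have hsat : ∀ a : R, (∃ b ∈ B0, algebraMap R F a = algebraMap R F π * b) → π ∣ a := by
    rintro a ⟨b, hbB, hab⟩
    rcases hdvd_or_unit a with h | ⟨v, rfl⟩
    · exact h
    · exfalso
      apply M.pi_nonunit1
      have hv0 : algebraMap R F (v : R) ≠ 0 := by
        intro h0
        have : (1 : F) = 0 := by
          rw [← map_one (algebraMap R F), ← Units.mul_inv v, map_mul, h0, zero_mul]
        exact one_ne_zero this
      have hb0 : b ≠ 0 := by
        rintro rfl
        rw [mul_zero] at hab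
        exact hv0 hab
      have : (algebraMap R F π)⁻¹ = b * (algebraMap R F (v : R))⁻¹ := by
        rw [hab]
        field_simp
      rw [this]
      exact O1.mul_mem _ _ (M.le_O1_0 _ hbB) (hunitO1 v)
  have hidem : ∀ a : R, π ∣ a * a - a → π ∣ a ∨ π ∣ a - 1 := by
    intro a haa
    rcases hdvd_or_unit a with h | hu
    · exact Or.inl h
    rcases hdvd_or_unit (a - 1) with h | hu'
    · exact Or.inr h
    exfalso
    apply hπnu
    have : IsUnit (a * a - a) := by
      have e : a * a - a = a * (a - 1) := by ring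
      rw [e]
      exact hu.mul hu'
    exact isUnit_of_dvd_unit haa this
  have hH0 : ∀ x : F, x ∈ B0 → x ∈ B1 → ∃ a : R, algebraMap R F a = x := by
    intro x hx0 hx1
    obtain ⟨c, hc⟩ := Constants18.exists_algebraMap_eq_of_isIntegral_both (R₀ := R) D.algClosed t x
      (M.int0 x hx0) (M.int1 x hx1)
    have := D.fracR
    have : Nontrivial R := ⟨⟨0, 1, fun h => by
      have h1 : algebraMap R K 0 = algebraMap R K 1 := by rw [h]
      rw [map_zero, map_one] at h1
      exact zero_ne_one h1⟩⟩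
    obtain ⟨a, b, hb0, hab⟩ := IsFractionRing.div_surjective (A := R) c
    have hb0' : b ≠ 0 := nonZeroDivisors.ne_zero hb0
    rcases eq_or_ne a 0 with rfl | ha0
    · refine ⟨0, ?_⟩
      rw [← hc, ← hab]; simp
    obtain ⟨k, v, hkv⟩ := D.dvrR a ha0
    obtain ⟨j, w, hjw⟩ := D.dvrR b hb0'
    have hbK : algebraMap R K b ≠ 0 := by
      intro h0
      exact hb0' ((IsFractionRing.injective R K) (by rw [h0, map_zero]))
    -- `c * b = a` in `K`, hence `x * b = a` in `F`
    have hcb : c * algebraMap R K b = algebraMap R K a := by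
      rw [← hab]; field_simp
    have hxb : x * algebraMap R F b = algebraMap R F a := by
      rw [← hc, IsScalarTower.algebraMap_apply R K F b, IsScalarTower.algebraMap_apply R K F a,
        ← map_mul, hcb]
    rcases le_or_gt j k with hjk | hjk
    · -- `x = π^(k-j) v w⁻¹`
      refine ⟨π ^ (k - j) * v * ((w⁻¹ : Rˣ) : R), ?_⟩
      have hbF : algebraMap R F b ≠ 0 := by
        intro h0
        apply hbK
        have : algebraMap K F (algebraMap R K b) = 0 := by
          rw [← IsScalarTower.algebraMap_apply R K F b, h0]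
        exact (map_eq_zero (algebraMap K F)).mp this
      have key : π ^ (k - j) * v * ((w⁻¹ : Rˣ) : R) * b = a := by
        rw [hkv, hjw]
        have h1 : π ^ k = π ^ (k - j) * π ^ j := by rw [← pow_add, Nat.sub_add_cancel hjk]
        have hw : ((w⁻¹ : Rˣ) : R) * (w : R) = 1 := Units.inv_mul w
        rw [h1]
        calc π ^ (k - j) * ↑v * ↑w⁻¹ * (π ^ j * ↑w)
            = π ^ (k - j) * π ^ j * ↑v * (((w⁻¹ : Rˣ) : R) * (w : R)) := by ring
          _ = π ^ (k - j) * π ^ j * ↑v := by rw [hw, mul_one]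
      apply mul_right_cancel₀ hbF
      rw [hxb, ← map_mul, key]
    · -- impossible: `π⁻¹ ∈ O1`
      exfalso
      apply M.pi_nonunit1
      obtain ⟨d, hd⟩ : ∃ d, j = k + 1 + d := ⟨j - k - 1, by omega⟩
      -- `x * π^(d+1) * w = v`
      have hrel : x * (p ^ (d + 1) * algebraMap R F (w : R)) * p ^ k
          = algebraMap R F (v : R) * p ^ k := by
        have h1 : x * algebraMap R F b = algebraMap R F a := hxb
        rw [hkv, hjw, hd] at h1
        simp only [map_mul, map_pow] at h1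
        rw [← hp] at h1
        calc x * (p ^ (d + 1) * algebraMap R F (w : R)) * p ^ k
            = x * (p ^ (k + 1 + d) * algebraMap R F (w : R)) := by ring
          _ = p ^ k * algebraMap R F (v : R) := h1
          _ = algebraMap R F (v : R) * p ^ k := by ring
      have hrel' : x * (p ^ (d + 1) * algebraMap R F (w : R)) = algebraMap R F (v : R) :=
        mul_right_cancel₀ (pow_ne_zero k hp0) hrel
      have hv0 : algebraMap R F (v : R) ≠ 0 := by
        intro h0
        have : (1 : F) = 0 := by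
          rw [← map_one (algebraMap R F), ← Units.mul_inv v, map_mul, h0, zero_mul]
        exact one_ne_zero this
      have : p⁻¹ = x * p ^ d * algebraMap R F (w : R) * (algebraMap R F (v : R))⁻¹ := by
        field_simp
        rw [← hrel']; ring
      rw [this]
      exact O1.mul_mem _ _ (O1.mul_mem _ _ (O1.mul_mem _ _ (M.le_O1_0 _ hx0)
        (pow_mem (hRO1 π) d)) (hRO1 _)) (hunitO1 v)
  -- the overlap chart
  set B01 := CoreB24.overlap t B0 M.t_mem with hB01
  have h0le : B0 ≤ B01 := fun x hx => ⟨0, by simpa using hx⟩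
  have h1le : B1 ≤ B01 := fun x hx => M.ov0 x hx
  obtain ⟨r, e, he, hgen⟩ := M.fin0
  -- a common exponent for the generators
  have hN : ∃ N : ℕ, ∀ i, t⁻¹ ^ N * e i ∈ B1 := by
    choose k hk using fun i => M.ov1 (e i) (he i)
    refine ⟨Finset.univ.sup k, fun i => ?_⟩
    have hle : k i ≤ Finset.univ.sup k := Finset.le_sup (Finset.mem_univ i)
    obtain ⟨d, hd⟩ := Nat.exists_eq_add_of_le hle
    have h1 : t⁻¹ ^ (Finset.univ.sup k) * e i = t⁻¹ ^ d * (t⁻¹ ^ k i * e i) := by
      rw [hd, pow_add]; ring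
    rw [h1]
    exact B1.mul_mem (B1.pow_mem M.tinv_mem d) (hk i)
  obtain ⟨N, hN⟩ := hN
  -- the idempotents
  obtain ⟨c₁, hc₁, hac₁⟩ := ha₁
  obtain ⟨c₂, hc₂, hac₂⟩ := ha₂
  obtain ⟨d₁, hd₁, hbd₁⟩ := hb₁
  obtain ⟨d₂, hd₂, hbd₂⟩ := hb₂
  have haF : (a₁ : F) + (a₂ : F) = 1 := by
    have := congrArg (fun z : B0 => (z : F)) ha
    simpa using this
  have hbF : (b₁ : F) + (b₂ : F) = 1 := by
    have := congrArg (fun z : B1 => (z : F)) hb
    simpa using this
  have hid₁ : ∃ b ∈ B0, (a₁ : F) * (a₁ : F) - (a₁ : F) = p * b := by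
    obtain ⟨e', he'⟩ := vert_inf π B0 O1 O2 M.le_O1_0 M.le_O2_0 M.sat0 M.pi_ne (a₁ * a₂)
      (Ideal.mul_mem_right _ _ ⟨c₁, hc₁, hac₁⟩) (Ideal.mul_mem_left _ _ ⟨c₂, hc₂, hac₂⟩)
    refine ⟨-(e' : F), B0.neg_mem e'.2, ?_⟩
    have h1 : (a₁ : F) * (a₂ : F) = p * (e' : F) := by
      have := congrArg (fun z : B0 => (z : F)) he'
      simpa using this
    have h2 : (a₂ : F) = 1 - (a₁ : F) := by rw [← haF]; ring
    rw [h2] at h1
    linear_combination -h1
  have hid₂ : ∃ b ∈ B1, (b₁ : F) * (b₁ : F) - (b₁ : F) = p * b := by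
    obtain ⟨e', he'⟩ := vert_inf π B1 O1 O2 M.le_O1_1 M.le_O2_1 M.sat1 M.pi_ne (b₁ * b₂)
      (Ideal.mul_mem_right _ _ ⟨d₁, hd₁, hbd₁⟩) (Ideal.mul_mem_left _ _ ⟨d₂, hd₂, hbd₂⟩)
    refine ⟨-(e' : F), B1.neg_mem e'.2, ?_⟩
    have h1 : (b₁ : F) * (b₂ : F) = p * (e' : F) := by
      have := congrArg (fun z : B1 => (z : F)) he'
      simpa using this
    have h2 : (b₂ : F) = 1 - (b₁ : F) := by rw [← hbF]; ring
    rw [h2] at h1
    linear_combination -h1
  have hcomp : ∃ b ∈ B01, (a₁ : F) - (b₁ : F) = p * b := by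
    refine ⟨c₁ - d₁, ?_, by rw [hac₁, hbd₁]; ring⟩
    -- `c₁ - d₁ = d₂ - c₂ ∈ O1 ⊓ O2`
    have hcd : c₁ - d₁ = d₂ - c₂ := by
      apply mul_left_cancel₀ hp0
      have e1 : p * (c₁ - d₁) = (a₁ : F) - (b₁ : F) := by rw [hac₁, hbd₁]; ring
      have e2 : p * (d₂ - c₂) = (b₂ : F) - (a₂ : F) := by rw [hac₂, hbd₂]; ring
      rw [e1, e2]
      linear_combination haF - hbF
    have hO1 : c₁ - d₁ ∈ O1 := sub_mem hc₁ hd₁
    have hO2 : c₁ - d₁ ∈ O2 := by rw [hcd]; exact sub_mem hd₂ hc₂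
    obtain ⟨k, hk⟩ := M.ov0 (b₁ : F) b₁.2
    refine ⟨k, M.sat0 (t ^ k * ((a₁ : F) - (b₁ : F))) ?_ (t ^ k * (c₁ - d₁)) ?_ ?_ ?_⟩
    · rw [mul_sub]
      exact B0.sub_mem (B0.mul_mem (B0.pow_mem M.t_mem k) a₁.2) hk
    · exact O1.mul_mem _ _ (pow_mem (M.le_O1_0 _ M.t_mem) k) hO1
    · exact O2.mul_mem _ _ (pow_mem (M.le_O2_0 _ M.t_mem) k) hO2
    · rw [hac₁, hbd₁]; ring
  rcases IdemGlue14.connected π t t⁻¹ (mul_inv_cancel₀ ht0) B0 B1 B01 h0le h1le M.t_mem M.tinv_mem
    e he hgen (fun x hx => hx) N hN hH0 hsat hidem (a₁ : F) (b₁ : F) a₁.2 b₁.2 hid₁ hid₂ hcomp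
    with ⟨b, hbB, hab⟩ | ⟨b, hbB, hab⟩
  · -- `1 = a₁ + a₂ = π (b + c₂)`, so `π⁻¹ ∈ O2`
    apply M.pi_nonunit2
    have : p⁻¹ = b + c₂ := by
      field_simp
      rw [mul_add, ← hab, ← hac₂, haF]
    rw [this]
    exact O2.add_mem _ _ (M.le_O2_0 _ hbB) hc₂
  · -- `1 = a₁ - π b = π (c₁ - b)`, so `π⁻¹ ∈ O1`
    apply M.pi_nonunit1
    have : p⁻¹ = c₁ - b := by
      field_simp
      rw [mul_sub, ← hab, ← hac₁]; ring
    rw [this]
    exact sub_mem hc₁ (M.le_O1_0 _ hbB)

end Main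

end Fermat.Agent.T33.NodeExists0
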