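/-
Programme T (S33), chapter (e) "N34 over ℚ̄", brick `hnode`, ideal part (helper5): **in one of the
two charts of the nodal model over `A` the two vertical primes are not comaximal.**

`h : LevelHyp p M' A`; `vert1 h hB`, `vert2 h hB` the vertical primes of the chart `B`
(`T33/NodalBase4A`), `chartOK_B0A h`, `chartOK_B1A h` (`T33/ChartOK5`).

* **`vert_sup_ne_top`** : `vert1 ⊔ vert2 ≠ ⊤` in `B0A h` or in `B1A h`.
  Proof: otherwise `1 = e₁ + e₂` in `B0A h` and `1 = e₁' + e₂'` in `B1A h` with `ρ₁ e₁ = ρ₂ e₂ = 0`,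
  `ρ₁ e₁' = ρ₂ e₂' = 0`; the four elements descend to one large number field `K`
  (`LocalReg5C.large_off`), where they lie in `π_K O_j(K)`; the node of the finite-level model given
  by `NodeExists0.exists_node` (connectedness of the special fibre) contains `e₁_K` and `e₂_K`
  (resp. `e₁'_K`, `e₂'_K`), hence `1`.
* **`exists_maximal_vert_sup_le`** : a maximal ideal containing both vertical primes, in one of the
  two charts (a node of the model over `A`, as a closed point).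
-/
import Mathlib
import Fermat.Agent.T33.ChartOK5
import Fermat.Agent.T33.NodeExists0

set_option autoImplicit false
set_option linter.unusedSectionVars false
set_option linter.style.haveILetI false
set_option linter.unusedVariables false
set_option synthInstance.maxHeartbeats 400000

noncomputable section

namespace Fermat.Agent.T33.NodeExist5

open HahnSeries ModularCurve IntermediateField AlgebraicCurve IsLocalRing
open Fermat.Agent.RED.Interface4 Fermat.Agent.RED.PUR.GaussGen8 Fermat.Agent.RED.DESC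
  Fermat.Agent.RED.DESC.PlaceExtend27 Fermat.Agent.RED.DESC.NumberFieldDVR27
  Fermat.Agent.RED.PUR.ChartGeneric22 Fermat.Agent.RED.BASE.EtaQuot12
  Fermat.Agent.ES.RED Fermat.Agent.ES.N34.ModelN4 Fermat.Agent.ES.N34.FrickeFK8
  Fermat.Agent.ES.N34.NodalCore13 Fermat.Agent.ES.N34.NumData13 Fermat.Agent.ES.N34.ModelDefs9
  Fermat.Agent.ES.N34.ModelInput13
  Fermat.Agent.T33.NodalCtx1 Fermat.Agent.T33.NodalHalf4 Fermat.Agent.T33.NodalBase4A
  Fermat.Agent.T33.LocalReg5 Fermat.Agent.T33.LocalReg5B Fermat.Agent.T33.LocalReg5C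
  Fermat.Agent.T33.ChartOK5 Fermat.Agent.T33.NodeExists0

section Generic

variable {Kt : Type*} [Field Kt] {O : ValuationSubring Kt}
  {E : IntermediateField Kt (LaurentSeries Kt)}

/-- at one level: a decomposition `1 = e₁ + e₂` with `e_j ∈ π O_j` in a chart excludes a node of
that chart. -/
theorem not_isNode_of_decomp {π : O} {B : Subalgebra ↥O ↥E} {O1 O2 : ValuationSubring ↥E}
    (e₁ e₂ : B) (h12 : (e₁ : ↥E) + (e₂ : ↥E) = 1)
    (h1 : ∃ c ∈ O1, (e₁ : ↥E) = algebraMap ↥O ↥E π * c)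
    (h2 : ∃ c ∈ O2, (e₂ : ↥E) = algebraMap ↥O ↥E π * c) (𝔪 : Ideal B) :
    ¬ IsNode π B O1 O2 𝔪 := by
  rintro ⟨hmax, -, hn1, hn2⟩
  have he1 : e₁ ∈ 𝔪 := by
    by_contra hne
    exact hn1 ⟨e₁, hne, h1⟩
  have he2 : e₂ ∈ 𝔪 := by
    by_contra hne
    exact hn2 ⟨e₂, hne, h2⟩
  have h1m : (1 : B) ∈ 𝔪 := by
    have : (1 : B) = e₁ + e₂ := Subtype.ext h12.symm
    rw [this]
    exact 𝔪.add_mem he1 he2
  exact hmax.ne_top ((Ideal.eq_top_iff_one 𝔪).2 h1m)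

/-- the finite-level model has a node in one of its two charts. -/
theorem exists_node_at {π : O} {t : E} {B0 B1 : Subalgebra ↥O ↥E} {O1 O2 : ValuationSubring ↥E}
    (D : NodalDataAt O E π t B0 B1 O1 O2) :
    (∃ 𝔪 : Ideal B0, IsNode π B0 O1 O2 𝔪) ∨ (∃ 𝔪 : Ideal B1, IsNode π B1 O1 O2 𝔪) := by
  haveI := Fermat.Agent.RED.NumInst4.isScalarTower_OE O E
  have D' : NodalNumData ↥O Kt ↥E π t B0 B1 O1 O2 := D
  exact exists_node D'

end Generic

variable {p M' : ℕ} [NeZero M'] [NeZero p] {A : ValuationSubring Qbar}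

/-- **in one of the two charts the vertical primes are not comaximal.** -/
theorem vert_sup_ne_top (h : LevelHyp p M' A) :
    vert1 h (chartOK_B0A h) ⊔ vert2 h (chartOK_B0A h) ≠ ⊤ ∨
      vert1 h (chartOK_B1A h) ⊔ vert2 h (chartOK_B1A h) ≠ ⊤ := by
  by_contra hcon
  push Not at hcon
  obtain ⟨h0, h1⟩ := hcon
  -- the two decompositions of `1`
  have h0' : (1 : ↥(B0A h)) ∈ vert1 h (chartOK_B0A h) ⊔ vert2 h (chartOK_B0A h) := by
    rw [h0]; exact Submodule.mem_top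
  have h1' : (1 : ↥(B1A h)) ∈ vert1 h (chartOK_B1A h) ⊔ vert2 h (chartOK_B1A h) := by
    rw [h1]; exact Submodule.mem_top
  obtain ⟨e₁, he₁, e₂, he₂, he⟩ := Submodule.mem_sup.mp h0'
  obtain ⟨f₁, hf₁, f₂, hf₂, hf⟩ := Submodule.mem_sup.mp h1'
  rw [mem_vert1_iff] at he₁ hf₁
  rw [mem_vert2_iff] at he₂ hf₂
  -- Gauss-ring descent for the two components
  have hdesc1 : ∀ z : Fbar (M' * p), z ∈ (c1 h).O →
      Large fun K => ∀ zK : FK (M' * p) K, baseChangeHom (M' * p) K zK = z →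
        ((zK : FK (M' * p) K) : LaurentSeries K) ∈ gaussRing (AK A K) :=
    fun z hz => large_mem_gauss A (M' * p) z ((mem_O1_iff_redA h z).1 hz)
  have hdesc2 : ∀ z : Fbar (M' * p), z ∈ (c2 h).O →
      Large fun K => ∀ zK : FK (M' * p) K, baseChangeHom (M' * p) K zK = z →
        iotaTwo (M' * p) K zK ∈ gaussRing (AK A K) :=
    fun z hz => large_mem_gauss_fricke A (M' * p) z
      ((mem_O1_iff_redA h _).1 ((NodalHalf4.mem_O2_iff h z).1 hz))
  have hmul1 : ∀ (K : IntermediateField ℚ Qbar) (u : ↥(AK A K)) (x : FK (M' * p) K),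
      ((x : FK (M' * p) K) : LaurentSeries K) ∈ gaussRing (AK A K) →
      ((algebraMap ↥(AK A K) ↥(FK (M' * p) K) u * x : FK (M' * p) K) : LaurentSeries K) ∈
        gaussRing (AK A K) := by
    intro K u x hx
    have h1 : ((algebraMap ↥(AK A K) ↥(FK (M' * p) K) u * x : FK (M' * p) K) : LaurentSeries K) =
        HahnSeries.C ((u : ↥(AK A K)) : ↥K) * ((x : FK (M' * p) K) : LaurentSeries K) := by
      rw [MulMemClass.coe_mul, Fermat.Agent.RED.NumInst4.coe_algebraMap_OE]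
    rw [h1]
    exact mul_mem (C_mem (AK A K) u) hx
  have hmul2 : ∀ (K : IntermediateField ℚ Qbar) (u : ↥(AK A K)) (x : FK (M' * p) K),
      iotaTwo (M' * p) K x ∈ gaussRing (AK A K) →
      iotaTwo (M' * p) K (algebraMap ↥(AK A K) ↥(FK (M' * p) K) u * x) ∈ gaussRing (AK A K) := by
    intro K u x hx
    have h2 : algebraMap ↥(AK A K) ↥(FK (M' * p) K) u =
        algebraMap ↥K ↥(FK (M' * p) K) ((u : ↥(AK A K)) : ↥K) := rfl
    have h1 : iotaTwo (M' * p) K (algebraMap ↥(AK A K) ↥(FK (M' * p) K) u * x) =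
        HahnSeries.C ((u : ↥(AK A K)) : ↥K) * iotaTwo (M' * p) K x := by
      rw [map_mul, h2]
      congr 1
      show ((frickeFK (M' * p) K (algebraMap ↥K ↥(FK (M' * p) K) ((u : ↥(AK A K)) : ↥K)) :
        FK (M' * p) K) : LaurentSeries K) = _
      rw [(frickeFK (M' * p) K).commutes]
      exact Fermat.Agent.RED.NumInst4.coe_algebraMap_OE (AK A K) (FK (M' * p) K) u
    rw [h1]
    exact mul_mem (C_mem (AK A K) u) hx
  -- the four descents
  have L1 := large_off A (M' * p) (c1 h)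
    (fun K x => ((x : FK (M' * p) K) : LaurentSeries K) ∈ gaussRing (AK A K)) hdesc1 hmul1
    (tA h) (e₁ : Fbar (M' * p)) e₁.2 ((chartOK_B0A h).le1 _ e₁.2) he₁
  have L2 := large_off A (M' * p) (c2 h)
    (fun K x => iotaTwo (M' * p) K x ∈ gaussRing (AK A K)) hdesc2 hmul2
    (tA h) (e₂ : Fbar (M' * p)) e₂.2 ((chartOK_B0A h).le2 _ e₂.2) he₂
  have L3 := large_off A (M' * p) (c1 h)
    (fun K x => ((x : FK (M' * p) K) : LaurentSeries K) ∈ gaussRing (AK A K)) hdesc1 hmul1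
    (tA h)⁻¹ (f₁ : Fbar (M' * p)) f₁.2 ((chartOK_B1A h).le1 _ f₁.2) hf₁
  have L4 := large_off A (M' * p) (c2 h)
    (fun K x => iotaTwo (M' * p) K x ∈ gaussRing (AK A K)) hdesc2 hmul2
    (tA h)⁻¹ (f₂ : Fbar (M' * p)) f₂.2 ((chartOK_B1A h).le2 _ f₂.2) hf₂
  -- the model
  have LM : Large fun K => ∃ (ht : tq (↥K) 4 8 ∈ FK M' K)
      (hE : FK (M' * p) K ≤ fracField (AK A K)),
      ∀ (π : ↥(AK A K)) (hπ : IsUnif (AK A K) π),
        NodalDataAt (AK A K) (FK (M' * p) K) π (tN p ht) (B0 A p ht) (B1 A p ht)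
          (Fermat.Agent.ES.N34.ModelDefs9.O1 M' p hπ hE)
          (Fermat.Agent.ES.N34.ModelDefs9.O2 M' p hπ hE) := by
    obtain ⟨K₀, hK₀, H⟩ := Fermat.Agent.ES.N34.ModelEnd4.modelInput_four p M' A h.prime h.not_dvd
      h.ne_two h.four_dvd h.liesOver
    exact ⟨K₀, hK₀, fun K _ hfd hle => H K hfd hle⟩
  obtain ⟨K, hnor, hfd, ⟨⟨⟨⟨hM, hL1⟩, hL2⟩, hL3⟩, hL4⟩⟩ :=
    Large.exists_field ((((LM.and L1).and L2).and L3).and L4)
  obtain ⟨ht, hE, HD⟩ := hM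
  haveI := hfd
  obtain ⟨π, hπ⟩ := exists_unif h K
  have D := HD π hπ
  have hs0 : baseChangeHom (M' * p) K (tN p ht) = tA h := NodalBase4A.baseChangeHom_tN h ht
  have hs1 : baseChangeHom (M' * p) K (tN p ht)⁻¹ = (tA h)⁻¹ := by rw [map_inv₀, hs0]
  obtain ⟨e₁K, he₁K, he₁K', hπ1⟩ := hL1 (tN p ht) hs0
  obtain ⟨e₂K, he₂K, he₂K', hπ2⟩ := hL2 (tN p ht) hs0
  obtain ⟨f₁K, hf₁K, hf₁K', hπ3⟩ := hL3 (tN p ht)⁻¹ hs1
  obtain ⟨f₂K, hf₂K, hf₂K', hπ4⟩ := hL4 (tN p ht)⁻¹ hs1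
  obtain ⟨c₁, hc₁, hec₁⟩ := hπ1 π hπ
  obtain ⟨c₂, hc₂, hec₂⟩ := hπ2 π hπ
  obtain ⟨c₃, hc₃, hec₃⟩ := hπ3 π hπ
  obtain ⟨c₄, hc₄, hec₄⟩ := hπ4 π hπ
  have hsum0 : e₁K + e₂K = 1 := by
    apply baseChangeHom_injective (M' * p) K
    rw [map_add, he₁K', he₂K', map_one]
    exact congrArg Subtype.val he
  have hsum1 : f₁K + f₂K = 1 := by
    apply baseChangeHom_injective (M' * p) K
    rw [map_add, hf₁K', hf₂K', map_one]
    exact congrArg Subtype.val hf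
  rcases exists_node_at D with ⟨𝔪, h𝔪⟩ | ⟨𝔪, h𝔪⟩
  · exact not_isNode_of_decomp (⟨e₁K, he₁K⟩ : ↥(B0 A p ht)) ⟨e₂K, he₂K⟩ hsum0
      ⟨c₁, (Fermat.Agent.ES.N34.ModelDefs9.mem_O1_iff M' p hπ hE c₁).2 hc₁, hec₁⟩
      ⟨c₂, (Fermat.Agent.ES.N34.ModelDefs9.mem_O2_iff M' p hπ hE c₂).2 hc₂, hec₂⟩ 𝔪 h𝔪
  · exact not_isNode_of_decomp (⟨f₁K, hf₁K⟩ : ↥(B1 A p ht)) ⟨f₂K, hf₂K⟩ hsum1
      ⟨c₃, (Fermat.Agent.ES.N34.ModelDefs9.mem_O1_iff M' p hπ hE c₃).2 hc₃, hec₃⟩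
      ⟨c₄, (Fermat.Agent.ES.N34.ModelDefs9.mem_O2_iff M' p hπ hE c₄).2 hc₄, hec₄⟩ 𝔪 h𝔪

/-- **a closed point lying on both components exists in one of the two charts.** -/
theorem exists_maximal_vert_sup_le (h : LevelHyp p M' A) :
    (∃ 𝔪 : Ideal ↥(B0A h), 𝔪.IsMaximal ∧
        vert1 h (chartOK_B0A h) ⊔ vert2 h (chartOK_B0A h) ≤ 𝔪) ∨
      ∃ 𝔪 : Ideal ↥(B1A h), 𝔪.IsMaximal ∧
        vert1 h (chartOK_B1A h) ⊔ vert2 h (chartOK_B1A h) ≤ 𝔪 := by
  rcases vert_sup_ne_top h with h0 | h1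
  · obtain ⟨𝔪, h𝔪, hle⟩ := Ideal.exists_le_maximal _ h0
    exact Or.inl ⟨𝔪, h𝔪, hle⟩
  · obtain ⟨𝔪, h𝔪, hle⟩ := Ideal.exists_le_maximal _ h1
    exact Or.inr ⟨𝔪, h𝔪, hle⟩

end Fermat.Agent.T33.NodeExist5
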