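/-
Programme T (S33), chapter (e) "N34 over ℚ̄", block [B-2] (helper8), part 2: **every closed point of
a chart is the centre of a place** (helper6's `hmax`).  Generic `K, A, F` with `LHyp K F`; helper1's
vocabulary (`NodalPlaces1.Chart`, `Chart.Pt`, `Chart.Centred`, `TwoCharts`).  No finite level, no
noetherian hypothesis: everything happens over the (non-noetherian) valuation ring `A`.

`C : Chart c₁ c₂` with `s ∈ C.B`, `C.B ⊆ chart ↥A s` (the chart is integral over `A[s]`), `s`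
transcendental over `K`.

* `polyHom C hs : A[X] →+* C.B`, `X ↦ s`: injective (`polyHom_injective`), integral
  (`polyHom_isIntegralElem`);
* `exists_horizontal_prime` : for a point `χ : C.Pt`, GOING DOWN for `A[X] ⊆ C.B` (`A[X]` is integrally
  closed) from `(X - a) ⊆ (𝔪_A, X - a)`, `ā = χ s`, gives a prime `0 ≠ 𝔭 ⊆ ker χ` with `𝔭 ∩ A = 0`
  (a horizontal curve through the closed point);
* `exists_place_of_prime` : a valuation ring of `F` dominating `B_𝔭` contains `K`, is not `F`, hence is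
  the valuation ring of a place `P` of `F / K` (`PlacePIR13`), with `B ⊆ O_P` and `B ∖ 𝔭 ⊆ O_P^×`;
* **`exists_centred`** : `∀ χ : C.Pt, ∃ P, C.Centred P χ` (via `PlaceCentre8.centred_of_thru`);
* **`exists_pt_of_isMaximal`** : (`κ` algebraically closed) every maximal ideal `𝔪 ⊇ 𝔪_A` of the chart
  is `ker χ` for a point `χ : C.Pt` (the residue field of `𝔪` is integral over `κ[s̄]`, a field, hence
  algebraic over `κ`);
* for `T : TwoCharts c₁ c₂`: `exists_node₀`, `exists_node₁` (a point lying on both components is a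
  node: `∃ P Q₁ Q₂, Centred P χ ∧ Val₁ χ Q₁ ∧ Val₂ χ Q₂ ∧ r₁ P = some Q₁ ∧ r₂ P = some Q₂`),
  `exists_node_of_isMaximal₀/₁` (the same for a maximal ideal containing the two vertical primes:
  the shape of helper6's `hmax`), `not_fin0_of_centred₁`.
-/
import Mathlib
import Fermat.Agent.T33.PlaceCentre8
import Fermat.Agent.ES.RED.PlacePIR13

set_option autoImplicit false
set_option linter.style.haveILetI false

open AlgebraicCurve IsLocalRing Polynomial IntermediateField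

noncomputable section

namespace Fermat.Agent.T33.PlacePoint8

open Fermat.Agent.X0.FF Fermat.Agent.RR.LSpace Fermat.Agent.FF.RedLat2
  Fermat.Agent.T33.NodalCtx1 Fermat.Agent.T33.NodalPlaces1 Fermat.Agent.T33.NodalDisc8A
  Fermat.Agent.RED.PUR.ChartGeneric22 Fermat.Agent.T33.PlaceCentre8

variable {K : Type*} [Field K] {A : ValuationSubring K} {F : Type*} [Field F] [Algebra K F]

variable {Fb₁ Fb₂ : Type*} [Field Fb₁] [Field Fb₂]
  [Algebra (ResidueField A) Fb₁] [Algebra (ResidueField A) Fb₂]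
variable {c₁ : HalfRed A F Fb₁} {c₂ : HalfRed A F Fb₂} (C : Chart c₁ c₂)

/-- the constants, as a ring homomorphism `A → B`. -/
def constHom : ↥A →+* C.B :=
  ((algebraMap K F).comp A.subtype).codRestrict C.B fun a => C.algebraMap_mem a

theorem constHom_apply (a : A) : constHom C a = C.const a := rfl

/-- `A[X] → B`, `X ↦ s`. -/
def polyHom {s : F} (hs : s ∈ C.B) : (↥A)[X] →+* C.B :=
  Polynomial.eval₂RingHom (constHom C) ⟨s, hs⟩

theorem polyHom_C {s : F} (hs : s ∈ C.B) (a : A) : polyHom C hs (Polynomial.C a) = C.const a := by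
  unfold polyHom
  rw [Polynomial.coe_eval₂RingHom, Polynomial.eval₂_C]
  rfl

theorem polyHom_X {s : F} (hs : s ∈ C.B) : polyHom C hs Polynomial.X = ⟨s, hs⟩ := by
  unfold polyHom
  rw [Polynomial.coe_eval₂RingHom, Polynomial.eval₂_X]

/-- `polyHom`, followed by the inclusion into `F`, is `aeval s`. -/
theorem coe_polyHom {s : F} (hs : s ∈ C.B) (f : (↥A)[X]) :
    ((polyHom C hs f : C.B) : F) = Polynomial.aeval s f := by
  have : (C.B.subtype.comp (polyHom C hs)) = (Polynomial.aeval s : (↥A)[X] →ₐ[↥A] F).toRingHom := by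
    apply Polynomial.ringHom_ext
    · intro a
      show ((polyHom C hs (Polynomial.C a) : C.B) : F) = Polynomial.aeval s (Polynomial.C a)
      rw [polyHom_C, Polynomial.aeval_C]
      rfl
    · show ((polyHom C hs Polynomial.X : C.B) : F) = Polynomial.aeval s Polynomial.X
      rw [polyHom_X, Polynomial.aeval_X]
  exact congrArg (fun g : (↥A)[X] →+* F => g f) this

/-- `A[X] → B` is injective when `s` is transcendental over `K`. -/
theorem polyHom_injective {s : F} (hs : s ∈ C.B) (htr : Transcendental K s) :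
    Function.Injective (polyHom C hs) := by
  rw [injective_iff_map_eq_zero]
  intro f hf
  have h1 : Polynomial.aeval s f = 0 := by
    rw [← coe_polyHom C hs f, hf]
    rfl
  have h2 : Polynomial.aeval s (f.map (algebraMap (↥A) K)) = 0 := by
    rw [Polynomial.aeval_map_algebraMap]
    exact h1
  have h3 : f.map (algebraMap (↥A) K) = 0 := by
    by_contra hne
    exact htr ⟨_, hne, h2⟩
  have hinj : Function.Injective (algebraMap (↥A) K) := Subtype.val_injective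
  exact (Polynomial.map_eq_zero_iff hinj).1 h3

/-- the elements of a chart inside `chart ↥A s` are integral over `A[X]`, `X ↦ s`. -/
theorem polyHom_isIntegralElem {s : F} (hs : s ∈ C.B) (hB : ∀ b ∈ C.B, b ∈ chart (↥A) s)
    (b : C.B) : (polyHom C hs).IsIntegralElem b := by
  classical
  set g : (↥A)[X] →+* F := (Polynomial.aeval s : (↥A)[X] →ₐ[↥A] F).toRingHom with hg
  obtain ⟨p, hpm, hp⟩ := (mem_chart_iff.1 (hB (b : F) b.2))
  set p' : F[X] := p.map (algebraMap (Algebra.adjoin (↥A) {s}) F) with hp'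
  have hp'm : p'.Monic := hpm.map _
  have hp'0 : p'.eval (b : F) = 0 := by
    rw [hp', Polynomial.eval_map]; exact hp
  have hlifts : p' ∈ Polynomial.lifts g := by
    rw [Polynomial.lifts_iff_coeff_lifts]
    intro n
    rw [hp', Polynomial.coeff_map]
    have hmem : ((p.coeff n : Algebra.adjoin (↥A) {s}) : F) ∈ Algebra.adjoin (↥A) {s} :=
      (p.coeff n).2
    have hmem' : ((p.coeff n : Algebra.adjoin (↥A) {s}) : F) ∈
        (Polynomial.aeval s : (↥A)[X] →ₐ[↥A] F).range := by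
      have := Algebra.adjoin_singleton_eq_range_aeval (↥A) s
      rw [← this]; exact hmem
    obtain ⟨f, hf⟩ := hmem'
    exact ⟨f, hf⟩
  obtain ⟨q, hq, -, hqm⟩ := Polynomial.lifts_and_natDegree_eq_and_monic hlifts hp'm
  refine ⟨q, hqm, ?_⟩
  apply Subtype.ext
  show ((Polynomial.eval₂ (polyHom C hs) b q : C.B) : F) = 0
  have h1 : ((Polynomial.eval₂ (polyHom C hs) b q : C.B) : F) =
      Polynomial.eval₂ (C.B.subtype.comp (polyHom C hs)) (b : F) q :=
    Polynomial.hom_eval₂ q (polyHom C hs) C.B.subtype b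
  have h2 : C.B.subtype.comp (polyHom C hs) = g := by
    ext f
    · exact coe_polyHom C hs (Polynomial.C f)
    · exact coe_polyHom C hs Polynomial.X
  rw [h1, h2, Polynomial.eval₂_eq_eval_map, hq, hp'0]

/-- **a horizontal curve through a closed point** (going down for the integral extension
`A[X] ⊆ B`, `A[X]` integrally closed): a nonzero prime `𝔭 ⊆ ker χ` of the chart with `𝔭 ∩ A = 0`. -/
theorem exists_horizontal_prime {s : F} (hs : s ∈ C.B) (hB : ∀ b ∈ C.B, b ∈ chart (↥A) s)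
    (htr : Transcendental K s) (χ : C.Pt) :
    ∃ 𝔭 : Ideal C.B, 𝔭.IsPrime ∧ (∀ b ∈ 𝔭, χ b = 0) ∧ 𝔭 ≠ ⊥ ∧ ∀ a : A, C.const a ∈ 𝔭 → a = 0 := by
  classical
  obtain ⟨a, ha⟩ := residue_surjective (χ ⟨s, hs⟩)
  letI : Algebra (↥A)[X] C.B := (polyHom C hs).toAlgebra
  have halg : ∀ f : (↥A)[X], algebraMap (↥A)[X] C.B f = polyHom C hs f := fun _ => rfl
  haveI : FaithfulSMul (↥A)[X] C.B :=
    (faithfulSMul_iff_algebraMap_injective _ _).2 (polyHom_injective C hs htr)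
  haveI : Algebra.IsIntegral (↥A)[X] C.B := ⟨fun b => polyHom_isIntegralElem C hs hB b⟩
  -- the primes downstairs
  set 𝔮 : Ideal (↥A)[X] := Ideal.span {Polynomial.X - Polynomial.C a} with h𝔮
  haveI h𝔮p : 𝔮.IsPrime :=
    (Ideal.span_singleton_prime (Polynomial.X_sub_C_ne_zero a)).2 (Polynomial.prime_X_sub_C a)
  set 𝔪 : Ideal C.B := RingHom.ker χ.1 with h𝔪
  haveI h𝔪p : 𝔪.IsPrime := RingHom.ker_isPrime χ.1
  set 𝔫 : Ideal (↥A)[X] := 𝔪.under (↥A)[X] with h𝔫
  haveI h𝔫p : 𝔫.IsPrime := Ideal.IsPrime.under (↥A)[X] 𝔪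
  haveI hlo : 𝔪.LiesOver 𝔫 := ⟨rfl⟩
  have hle : 𝔮 ≤ 𝔫 := by
    rw [h𝔮, Ideal.span_le, Set.singleton_subset_iff]
    show algebraMap (↥A)[X] C.B (Polynomial.X - Polynomial.C a) ∈ 𝔪
    rw [halg, map_sub, polyHom_X, polyHom_C, h𝔪, RingHom.mem_ker, map_sub]
    show χ ⟨s, hs⟩ - χ (C.const a) = 0
    rw [χ.2, ha, sub_self]
  obtain ⟨𝔭, h𝔭le, h𝔭p, h𝔭lo⟩ := Ideal.exists_ideal_le_liesOver_of_le (p := 𝔮) (q := 𝔫) 𝔪 hle
  have hover : ∀ f : (↥A)[X], f ∈ 𝔮 ↔ polyHom C hs f ∈ 𝔭 := by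
    intro f
    rw [h𝔭lo.over]
    rfl
  refine ⟨𝔭, h𝔭p, fun b hb => h𝔭le hb, ?_, ?_⟩
  · -- `s - a ∈ 𝔭` is nonzero
    intro hbot
    have h1 : polyHom C hs (Polynomial.X - Polynomial.C a) ∈ 𝔭 :=
      (hover _).1 (Ideal.subset_span rfl)
    rw [hbot, Ideal.mem_bot] at h1
    have := polyHom_injective C hs htr (h1.trans (map_zero _).symm)
    exact Polynomial.X_sub_C_ne_zero a this
  · intro c hc
    have h1 : Polynomial.C c ∈ 𝔮 := by
      rw [hover, polyHom_C]; exact hc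
    rw [h𝔮, Ideal.mem_span_singleton, Polynomial.dvd_iff_isRoot, Polynomial.IsRoot,
      Polynomial.eval_C] at h1
    exact h1

/-- **the place of a horizontal prime**: a valuation ring dominating `B_𝔭` is the valuation ring of
a place of `F / K` (it contains `K` because `𝔭 ∩ A = 0`, it is not `F` because `𝔭 ≠ 0`). -/
theorem exists_place_of_prime {x : F} (hx : IsGen K x) [Algebra.IsSeparable K⟮x⟯ F]
    (𝔭 : Ideal C.B) [h𝔭 : 𝔭.IsPrime] (hne : 𝔭 ≠ ⊥) (hhor : ∀ a : A, C.const a ∈ 𝔭 → a = 0) :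
    ∃ P : Place K F, (∀ b ∈ C.B, b ∈ P.toValuationSubring) ∧
      ∀ b : C.B, b ∉ 𝔭 → ((b : F))⁻¹ ∈ P.toValuationSubring := by
  classical
  obtain ⟨V, hle, hloc⟩ := (LocalSubring.ofPrime C.B 𝔭).exists_le_valuationSubring
  have hBV : ∀ b ∈ C.B, b ∈ V := fun b hb => hle (LocalSubring.le_ofPrime C.B 𝔭 hb)
  have hinv : ∀ b : C.B, b ∉ 𝔭 → ((b : F))⁻¹ ∈ V := by
    intro b hb
    have hu : IsUnit (algebraMap C.B (LocalSubring.ofPrime C.B 𝔭).toSubring b) :=
      IsLocalization.map_units _ (⟨b, hb⟩ : 𝔭.primeCompl)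
    obtain ⟨y, hy⟩ := hu.exists_right_inv
    have hy' : (b : F) * (y : F) = 1 := congrArg Subtype.val hy
    have : ((b : F))⁻¹ = (y : F) := by
      rw [inv_eq_iff_eq_inv]
      exact eq_inv_of_mul_eq_one_left hy'
    rw [this]
    exact hle y.2
  have hK : ∀ c : K, algebraMap K F c ∈ V := by
    intro c
    rcases A.mem_or_inv_mem c with h | h
    · exact hBV _ (C.algebraMap_mem ⟨c, h⟩)
    · by_cases hc : c = 0
      · rw [hc, map_zero]; exact V.zero_mem
      · have hn : C.const ⟨c⁻¹, h⟩ ∉ 𝔭 := by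
          intro hmem
          have := congrArg Subtype.val (hhor _ hmem)
          exact inv_ne_zero hc this
        have h2 := hinv _ hn
        have h3 : ((C.const ⟨c⁻¹, h⟩ : C.B) : F) = algebraMap K F c⁻¹ := rfl
        rw [h3, map_inv₀, inv_inv] at h2
        exact h2
  have hne_top : V ≠ ⊤ := by
    obtain ⟨b, hb𝔭, hb0⟩ := Submodule.exists_mem_ne_zero_of_ne_bot hne
    have hnu : ¬ IsUnit (algebraMap C.B (LocalSubring.ofPrime C.B 𝔭).toSubring b) := by
      rw [IsLocalization.AtPrime.isUnit_to_map_iff _ 𝔭 b]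
      exact fun h => h hb𝔭
    intro htop
    apply hnu
    have hbF : (b : F) ≠ 0 := fun h => hb0 (Subtype.ext h)
    have hmem : ((b : F))⁻¹ ∈ V := by rw [htop]; exact ValuationSubring.mem_top _
    apply hloc.map_nonunit
    rw [isUnit_iff_exists_inv]
    refine ⟨⟨((b : F))⁻¹, hmem⟩, ?_⟩
    apply Subtype.ext
    exact mul_inv_cancel₀ hbF
  refine ⟨⟨V, hK, hne_top,
    Fermat.Agent.ES.RED.PlacePIR13.isPrincipalIdealRing_of_algebraMap_mem hx V hK hne_top⟩,
    hBV, hinv⟩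

variable (H : LHyp K F)

include H in
/-- **every closed point of a chart is the centre of a place**: `C.B` integral over `A[s]`, `s`
transcendental over `K`, `F / K` a function field with a separating generator. -/
theorem exists_centred {s : F} (hs : s ∈ C.B) (hB : ∀ b ∈ C.B, b ∈ chart (↥A) s)
    (htr : Transcendental K s) {x : F} (hx : IsGen K x) [Algebra.IsSeparable K⟮x⟯ F] (χ : C.Pt) :
    ∃ P : Place K F, C.Centred P χ := by
  obtain ⟨𝔭, h𝔭, hle, hne, hhor⟩ := exists_horizontal_prime C hs hB htr χ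
  obtain ⟨P, h1, h2⟩ := exists_place_of_prime C hx 𝔭 hne hhor
  exact ⟨P, centred_of_thru H C h1 fun b hb => h2 b fun hmem => hb (hle b hmem)⟩

/-! ### maximal ideals are points -/

/-- **every maximal ideal of the chart over `𝔪_A` is the kernel of a point** (`κ` algebraically
closed, the chart integral over `A[s]`). -/
theorem exists_pt_of_isMaximal [IsAlgClosed (ResidueField A)] {s : F} (hs : s ∈ C.B)
    (hB : ∀ b ∈ C.B, b ∈ chart (↥A) s) (𝔪 : Ideal C.B) [h𝔪 : 𝔪.IsMaximal]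
    (hA : ∀ c : A, c ∈ maximalIdeal A → C.const c ∈ 𝔪) :
    ∃ χ : C.Pt, ∀ b : C.B, χ b = 0 ↔ b ∈ 𝔪 := by
  classical
  letI : Field (C.B ⧸ 𝔪) := Ideal.Quotient.field 𝔪
  set q : C.B →+* C.B ⧸ 𝔪 := Ideal.Quotient.mk 𝔪 with hq
  set f : ↥A →+* C.B ⧸ 𝔪 := q.comp (constHom C) with hf
  haveI hloc : IsLocalHom f := by
    constructor
    intro a ha
    by_contra hnu
    have hm : a ∈ maximalIdeal A := (mem_maximalIdeal a).2 hnu
    have h0 : f a = 0 := by
      rw [hf, RingHom.comp_apply, constHom_apply, hq]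
      exact Ideal.Quotient.eq_zero_iff_mem.2 (hA a hm)
    rw [h0] at ha
    exact not_isUnit_zero ha
  letI : Algebra (ResidueField A) (C.B ⧸ 𝔪) := (ResidueField.lift f).toAlgebra
  have halgκ : ∀ a : A, algebraMap (ResidueField A) (C.B ⧸ 𝔪) (residue A a) = q (C.const a) := by
    intro a
    show ResidueField.lift f (residue A a) = q (C.const a)
    rw [ResidueField.lift_residue_apply]
    rfl
  set sb : C.B ⧸ 𝔪 := q ⟨s, hs⟩ with hsb
  -- integrality over `κ[X]`, `X ↦ s̄`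
  set g : (ResidueField A)[X] →+* C.B ⧸ 𝔪 :=
    (Polynomial.aeval sb : (ResidueField A)[X] →ₐ[ResidueField A] C.B ⧸ 𝔪).toRingHom with hg
  set θ : (↥A)[X] →+* (ResidueField A)[X] := Polynomial.mapRingHom (residue A) with hθ
  have hcomp : g.comp θ = q.comp (polyHom C hs) := by
    apply Polynomial.ringHom_ext
    · intro a
      show Polynomial.aeval sb ((Polynomial.C a).map (residue A)) = q (polyHom C hs (Polynomial.C a))
      rw [Polynomial.map_C, Polynomial.aeval_C, polyHom_C, halgκ]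
    · show Polynomial.aeval sb ((Polynomial.X : (↥A)[X]).map (residue A)) =
        q (polyHom C hs Polynomial.X)
      rw [Polynomial.map_X, Polynomial.aeval_X, polyHom_X]
  have hint : ∀ d : C.B ⧸ 𝔪, g.IsIntegralElem d := by
    intro d
    obtain ⟨b, rfl⟩ := Ideal.Quotient.mk_surjective d
    obtain ⟨p, hpm, hp⟩ := polyHom_isIntegralElem C hs hB b
    refine ⟨p.map θ, hpm.map θ, ?_⟩
    rw [Polynomial.eval₂_map, hcomp]
    have := Polynomial.hom_eval₂ p (polyHom C hs) q b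
    rw [← this, hp, map_zero]
  -- `s̄` is algebraic over `κ`
  have hsalg : IsAlgebraic (ResidueField A) sb := by
    by_contra htr
    have htr' : Transcendental (ResidueField A) sb := htr
    have hinj : Function.Injective g := transcendental_iff_injective.1 htr'
    letI : Algebra (ResidueField A)[X] (C.B ⧸ 𝔪) := g.toAlgebra
    haveI : Algebra.IsIntegral (ResidueField A)[X] (C.B ⧸ 𝔪) := ⟨hint⟩
    exact Polynomial.not_isField (ResidueField A)
      (isField_of_isIntegral_of_isField hinj (Field.toIsField (C.B ⧸ 𝔪)))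
  -- hence a constant
  obtain ⟨c₀, hc₀⟩ : ∃ c₀ : ResidueField A, sb = algebraMap (ResidueField A) (C.B ⧸ 𝔪) c₀ := by
    have hi : IsIntegral (ResidueField A) sb := hsalg.isIntegral
    have hlc : (minpoly (ResidueField A) sb).leadingCoeff = 1 := minpoly.monic hi
    have hdeg : (minpoly (ResidueField A) sb).degree = 1 :=
      IsAlgClosed.degree_eq_one_of_irreducible (ResidueField A) (minpoly.irreducible hi)
    have h0 : Polynomial.aeval sb (minpoly (ResidueField A) sb) = 0 := minpoly.aeval _ sb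
    rw [Polynomial.eq_X_add_C_of_degree_eq_one hdeg, hlc, Polynomial.C_1, one_mul,
      Polynomial.aeval_add, Polynomial.aeval_X, Polynomial.aeval_C, add_eq_zero_iff_eq_neg] at h0
    exact ⟨-(minpoly (ResidueField A) sb).coeff 0, by rw [map_neg]; exact h0⟩
  -- the residue field of `𝔪` is `κ`
  have hg' : g = (algebraMap (ResidueField A) (C.B ⧸ 𝔪)).comp (Polynomial.evalRingHom c₀) := by
    apply Polynomial.ringHom_ext
    · intro c
      show Polynomial.aeval sb (Polynomial.C c) = algebraMap _ _ ((Polynomial.C c).eval c₀)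
      rw [Polynomial.aeval_C, Polynomial.eval_C]
    · show Polynomial.aeval sb Polynomial.X = algebraMap _ _ ((Polynomial.X).eval c₀)
      rw [Polynomial.aeval_X, Polynomial.eval_X, hc₀]
  haveI : Algebra.IsIntegral (ResidueField A) (C.B ⧸ 𝔪) := by
    constructor
    intro d
    obtain ⟨p, hpm, hp⟩ := hint d
    refine ⟨p.map (Polynomial.evalRingHom c₀), hpm.map _, ?_⟩
    rw [Polynomial.eval₂_map, ← hg']
    exact hp
  have hbij : Function.Bijective (algebraMap (ResidueField A) (C.B ⧸ 𝔪)) :=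
    IsAlgClosed.algebraMap_bijective_of_isIntegral
  set e : ResidueField A ≃+* C.B ⧸ 𝔪 := RingEquiv.ofBijective _ hbij with he
  refine ⟨⟨e.symm.toRingHom.comp q, fun a => ?_⟩, fun b => ?_⟩
  · show e.symm (q (C.const a)) = residue A a
    rw [← halgκ a]
    have he' : algebraMap (ResidueField A) (C.B ⧸ 𝔪) (residue A a) = e (residue A a) := rfl
    rw [he']
    exact e.symm_apply_apply _
  · show e.symm (q b) = 0 ↔ b ∈ 𝔪
    rw [map_eq_zero_iff e.symm e.symm.injective, hq]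
    exact Ideal.Quotient.eq_zero_iff_mem

/-! ### the two charts: every point on both components is a node -/

section TwoCharts

variable (T : TwoCharts c₁ c₂)

include H in
/-- a place centred on the chart `1` at a point with `t⁻¹ ↦ 0` has no integral value of `t`. -/
theorem not_fin0_of_centred₁ {P : Place K F} {χ : T.C1.Pt} (hP : T.C1.Centred P χ)
    (hχ : χ T.s1 = 0) : ¬ T.Fin0 P := by
  rintro ⟨a, ha⟩
  obtain ⟨a', ha', hχ'⟩ := hP T.s1
  rw [hχ] at hχ'
  have hm : a' ∈ maximalIdeal A := (residue_eq_zero_iff a').1 hχ'.symm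
  have h1 : (⟨T.t, mem_of_hasValue ha⟩ : P.toValuationSubring) *
      ⟨T.t⁻¹, mem_of_hasValue ha'⟩ = 1 :=
    Subtype.ext (mul_inv_cancel₀ T.t_ne)
  have h2 := congrArg (valueAt H P) h1
  rw [map_mul, map_one, valueAt_eq_of_hasValue H ha] at h2
  have h3 : valueAt H P ⟨T.t⁻¹, mem_of_hasValue ha'⟩ = (a' : K) :=
    valueAt_eq_of_hasValue H ha'
  rw [h3] at h2
  rw [mem_maximalIdeal, mem_nonunits_iff] at hm
  apply hm
  rw [isUnit_iff_exists_inv]
  refine ⟨a, Subtype.ext ?_⟩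
  show (a' : K) * (a : K) = 1
  rw [mul_comm]
  exact h2

include H in
/-- **a point of the chart `0` lying on both components is a node**: it is the centre of a place
`P`, and `(r₁ P, r₂ P)` is the pair of places of the point. -/
theorem exists_node₀ (hB : ∀ b ∈ T.C0.B, b ∈ chart (↥A) T.t) (htr : Transcendental K T.t)
    {x : F} (hx : IsGen K x) [Algebra.IsSeparable K⟮x⟯ F] (χ : T.C0.Pt) (h₁ : T.C0.On₁ χ)
    (h₂ : T.C0.On₂ χ) :
    ∃ (P : Place K F) (Q₁ : Place (ResidueField A) Fb₁) (Q₂ : Place (ResidueField A) Fb₂),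
      T.Fin0 P ∧ T.C0.Centred P χ ∧ T.C0.Val₁ χ Q₁ ∧ T.C0.Val₂ χ Q₂ ∧
        T.r₁ P = some Q₁ ∧ T.r₂ P = some Q₂ := by
  obtain ⟨P, hP⟩ := exists_centred T.C0 H T.t_mem hB htr hx χ
  obtain ⟨Q₁, hQ₁⟩ := T.val₁_exists₀ χ h₁
  obtain ⟨Q₂, hQ₂⟩ := T.val₂_exists₀ χ h₂
  have hfin : T.Fin0 P := by
    obtain ⟨a, ha, -⟩ := hP T.t0
    exact ⟨a, ha⟩
  exact ⟨P, Q₁, Q₂, hfin, hP, hQ₁, hQ₂, (T.r₁_eq_some_iff₀ hQ₁ P).2 ⟨hfin, hP⟩,
    (T.r₂_eq_some_iff₀ hQ₂ P).2 ⟨hfin, hP⟩⟩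

include H in
/-- **a point at `t = ∞` of the chart `1` lying on both components is a node.** -/
theorem exists_node₁ (hB : ∀ b ∈ T.C1.B, b ∈ chart (↥A) T.t⁻¹) (htr : Transcendental K T.t)
    {x : F} (hx : IsGen K x) [Algebra.IsSeparable K⟮x⟯ F] (χ : T.C1.Pt) (hs : χ T.s1 = 0)
    (h₁ : T.C1.On₁ χ) (h₂ : T.C1.On₂ χ) :
    ∃ (P : Place K F) (Q₁ : Place (ResidueField A) Fb₁) (Q₂ : Place (ResidueField A) Fb₂),
      ¬ T.Fin0 P ∧ T.C1.Centred P χ ∧ T.C1.Val₁ χ Q₁ ∧ T.C1.Val₂ χ Q₂ ∧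
        T.r₁ P = some Q₁ ∧ T.r₂ P = some Q₂ := by
  have htr' : Transcendental K T.t⁻¹ := by
    intro h
    apply htr
    have := h.inv
    rwa [inv_inv] at this
  obtain ⟨P, hP⟩ := exists_centred T.C1 H T.s_mem hB htr' hx χ
  obtain ⟨Q₁, hQ₁⟩ := T.val₁_exists₁ χ h₁
  obtain ⟨Q₂, hQ₂⟩ := T.val₂_exists₁ χ h₂
  have hfin : ¬ T.Fin0 P := not_fin0_of_centred₁ H T hP hs
  exact ⟨P, Q₁, Q₂, hfin, hP, hQ₁, hQ₂, (T.r₁_eq_some_iff₁ hs hQ₁ P).2 ⟨hfin, hP⟩,
    (T.r₂_eq_some_iff₁ hs hQ₂ P).2 ⟨hfin, hP⟩⟩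

/-- a maximal ideal containing the vertical prime of `C₁` lies over `𝔪_A`. -/
theorem const_mem_of_vert (𝔪 : Ideal C.B) (h₁ : ∀ b : C.B, C.ρ₁ b = 0 → b ∈ 𝔪) (c : A)
    (hc : c ∈ maximalIdeal A) : C.const c ∈ 𝔪 := by
  apply h₁
  rw [Chart.ρ₁_apply]
  show c₁.ρ ⟨algebraMap K F (c : K), _⟩ = 0
  rw [c₁.ρ_algebraMap, (residue_eq_zero_iff c).2 hc, map_zero]

include H in
/-- **helper6's `hmax`, chart `0`**: a maximal ideal of the chart `0` containing the two vertical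
primes is the kernel of a point which is a node `(r₁ P, r₂ P)`. -/
theorem exists_node_of_isMaximal₀ [IsAlgClosed (ResidueField A)]
    (hB : ∀ b ∈ T.C0.B, b ∈ chart (↥A) T.t) (htr : Transcendental K T.t)
    {x : F} (hx : IsGen K x) [Algebra.IsSeparable K⟮x⟯ F] (𝔪 : Ideal T.C0.B) [𝔪.IsMaximal]
    (h₁ : ∀ b : T.C0.B, T.C0.ρ₁ b = 0 → b ∈ 𝔪) (h₂ : ∀ b : T.C0.B, T.C0.ρ₂ b = 0 → b ∈ 𝔪) :
    ∃ (χ : T.C0.Pt) (P : Place K F) (Q₁ : Place (ResidueField A) Fb₁)
      (Q₂ : Place (ResidueField A) Fb₂), (∀ b, χ b = 0 ↔ b ∈ 𝔪) ∧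
      T.Fin0 P ∧ T.C0.Centred P χ ∧ T.C0.Val₁ χ Q₁ ∧ T.C0.Val₂ χ Q₂ ∧
        T.r₁ P = some Q₁ ∧ T.r₂ P = some Q₂ := by
  obtain ⟨χ, hχ⟩ := exists_pt_of_isMaximal T.C0 T.t_mem hB 𝔪 (const_mem_of_vert T.C0 𝔪 h₁)
  have hon₁ : T.C0.On₁ χ := fun b hb => (hχ b).2 (h₁ b hb)
  have hon₂ : T.C0.On₂ χ := fun b hb => (hχ b).2 (h₂ b hb)
  obtain ⟨P, Q₁, Q₂, h⟩ := exists_node₀ H T hB htr hx χ hon₁ hon₂
  exact ⟨χ, P, Q₁, Q₂, hχ, h⟩

include H in
/-- **helper6's `hmax`, chart `1`, points at `t = ∞`.** -/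
theorem exists_node_of_isMaximal₁ [IsAlgClosed (ResidueField A)]
    (hB : ∀ b ∈ T.C1.B, b ∈ chart (↥A) T.t⁻¹) (htr : Transcendental K T.t)
    {x : F} (hx : IsGen K x) [Algebra.IsSeparable K⟮x⟯ F] (𝔪 : Ideal T.C1.B) [𝔪.IsMaximal]
    (hs : T.s1 ∈ 𝔪)
    (h₁ : ∀ b : T.C1.B, T.C1.ρ₁ b = 0 → b ∈ 𝔪) (h₂ : ∀ b : T.C1.B, T.C1.ρ₂ b = 0 → b ∈ 𝔪) :
    ∃ (χ : T.C1.Pt) (P : Place K F) (Q₁ : Place (ResidueField A) Fb₁)
      (Q₂ : Place (ResidueField A) Fb₂), (∀ b, χ b = 0 ↔ b ∈ 𝔪) ∧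
      ¬ T.Fin0 P ∧ T.C1.Centred P χ ∧ T.C1.Val₁ χ Q₁ ∧ T.C1.Val₂ χ Q₂ ∧
        T.r₁ P = some Q₁ ∧ T.r₂ P = some Q₂ := by
  obtain ⟨χ, hχ⟩ := exists_pt_of_isMaximal T.C1 T.s_mem hB 𝔪 (const_mem_of_vert T.C1 𝔪 h₁)
  have hon₁ : T.C1.On₁ χ := fun b hb => (hχ b).2 (h₁ b hb)
  have hon₂ : T.C1.On₂ χ := fun b hb => (hχ b).2 (h₂ b hb)
  obtain ⟨P, Q₁, Q₂, h⟩ := exists_node₁ H T hB htr hx χ ((hχ _).2 hs) hon₁ hon₂
  exact ⟨χ, P, Q₁, Q₂, hχ, h⟩

end TwoCharts

end Fermat.Agent.T33.PlacePoint8
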