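/-
Programme T (S33), chapter (e) "N34 over ℚ̄", brick `hnode`, final part (helper5): **the two-chart
model of `X₀(M'p)` over `A` has a node** — the hypothesis `hnode` of
`NodalPlaces1.RawRed.mkNodalRed` / `NodalInst4A.Inputs.nodalRed`.

`h : LevelHyp p M' A`, `T : TwoCharts (c1 h) (c2 h)` with `T.t = tA h` and charts
`chart ↥A (tA h)`, `chart ↥A (tA h)⁻¹`.

* `eq_top_of_pow_mem_of_sup_span` : `s ^ n ∈ I`, `I ⊔ (s) = ⊤` ⟹ `I = ⊤`;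
* `TwoCharts.exists_pow_s1_mem` : if the two vertical primes of the chart `0` are comaximal then a
  power of `t⁻¹` lies in the sum of the two vertical primes of the chart `1` (overlap of the charts);
* **`exists_node_ideal`** : a maximal ideal containing both vertical primes in the chart `0`, or one
  in the chart `1` containing moreover `t⁻¹` (from `NodeExist5.vert_sup_ne_top`);
* **`hnode_twoCharts`** : `∃ P, T.rawRed.r₁ P ≠ none ∧ T.rawRed.r₂ P ≠ none`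
  (helper8's `PlacePoint8.exists_node_of_isMaximal₀/₁`).
-/
import Mathlib
import Fermat.Agent.T33.NodeExist5
import Fermat.Agent.T33.PlacePoint8
import Fermat.Agent.RR.LHypGen
import Fermat.Agent.ES.KRON.KronInst10

set_option autoImplicit false
set_option linter.unusedSectionVars false
set_option linter.style.haveILetI false
set_option linter.unusedVariables false
set_option synthInstance.maxHeartbeats 400000

noncomputable section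

namespace Fermat.Agent.T33.NodeExist5B

open HahnSeries ModularCurve IntermediateField AlgebraicCurve IsLocalRing
open Fermat.Agent.RED.Interface4 Fermat.Agent.RED.PUR.ChartGeneric22
  Fermat.Agent.ES.RED
  Fermat.Agent.T33.NodalCtx1 Fermat.Agent.T33.NodalCurve6 Fermat.Agent.T33.NodalPlaces1
  Fermat.Agent.T33.NodalHalf4 Fermat.Agent.T33.NodalBase4A
  Fermat.Agent.T33.ChartOK5 Fermat.Agent.T33.NodeExist5
  Fermat.Agent.X0.FF Fermat.Agent.RR.LSpace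

/-- a nilpotent element modulo `I` which generates the unit ideal modulo `I`: `I = ⊤`. -/
theorem eq_top_of_pow_mem_of_sup_span {R : Type*} [CommRing R] {I : Ideal R} {s : R} {n : ℕ}
    (hs : s ^ n ∈ I) (hsup : I ⊔ Ideal.span {s} = ⊤) : I = ⊤ := by
  have h1 : I ⊔ Ideal.span {s} ^ n = ⊤ := Ideal.sup_pow_eq_top hsup
  rw [Ideal.span_singleton_pow] at h1
  rw [← h1]
  exact (sup_eq_left.2 ((Ideal.span_singleton_le_iff_mem _).2 hs)).symm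

section Abstract

variable {K : Type*} [Field K] {A : ValuationSubring K} {F : Type*} [Field F] [Algebra K F]
  {Fb₁ Fb₂ : Type*} [Field Fb₁] [Field Fb₂] [Algebra (ResidueField A) Fb₁]
  [Algebra (ResidueField A) Fb₂] {c₁ : HalfRed A F Fb₁} {c₂ : HalfRed A F Fb₂}

/-- powers of `t⁻¹` times an element of the chart `0` in the chart `1`: the reduction vanishes with
that of the element (first component). -/
theorem ρ₁_pow_mul_eq_zero (T : TwoCharts c₁ c₂) (e : T.C0.B) (n : ℕ)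
    (hmem : T.t⁻¹ ^ n * (e : F) ∈ T.C1.B) (he : T.C0.ρ₁ e = 0) :
    T.C1.ρ₁ ⟨T.t⁻¹ ^ n * (e : F), hmem⟩ = 0 := by
  rw [Chart.ρ₁_apply]
  rw [Chart.ρ₁_apply] at he
  have hs : T.t⁻¹ ∈ c₁.O := T.C1.le₁ T.s_mem
  have : (⟨T.t⁻¹ ^ n * (e : F), T.C1.le₁ hmem⟩ : c₁.O) =
      (⟨T.t⁻¹, hs⟩ : c₁.O) ^ n * ⟨(e : F), T.C0.le₁ e.2⟩ := Subtype.ext rfl
  rw [this, map_mul, he, mul_zero]

/-- the same for the second component. -/
theorem ρ₂_pow_mul_eq_zero (T : TwoCharts c₁ c₂) (e : T.C0.B) (n : ℕ)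
    (hmem : T.t⁻¹ ^ n * (e : F) ∈ T.C1.B) (he : T.C0.ρ₂ e = 0) :
    T.C1.ρ₂ ⟨T.t⁻¹ ^ n * (e : F), hmem⟩ = 0 := by
  rw [Chart.ρ₂_apply]
  rw [Chart.ρ₂_apply] at he
  have hs : T.t⁻¹ ∈ c₂.O := T.C1.le₂ T.s_mem
  have : (⟨T.t⁻¹ ^ n * (e : F), T.C1.le₂ hmem⟩ : c₂.O) =
      (⟨T.t⁻¹, hs⟩ : c₂.O) ^ n * ⟨(e : F), T.C0.le₂ e.2⟩ := Subtype.ext rfl
  rw [this, map_mul, he, mul_zero]

/-- an element of `chart ↥A t` times a large power of `t⁻¹` lies in `chart ↥A t⁻¹`, uniformly. -/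
theorem exists_pow_mul_mem_chart_of_le {t : F} (ht : t ≠ 0) {x : F} (hx : x ∈ chart ↥A t) :
    ∃ k : ℕ, ∀ n, k ≤ n → t⁻¹ ^ n * x ∈ chart ↥A t⁻¹ := by
  have hx' : x ∈ chart ↥A (t⁻¹)⁻¹ := by rwa [inv_inv]
  obtain ⟨k, hk⟩ := exists_pow_mul_mem_chart (R := ↥A) (inv_ne_zero ht) hx'
  refine ⟨k, fun n hn => ?_⟩
  obtain ⟨m, rfl⟩ := Nat.exists_eq_add_of_le hn
  have : t⁻¹ ^ (k + m) * x = t⁻¹ ^ m * (t⁻¹ ^ k * x) := by rw [_root_.pow_add]; ring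
  rw [this]
  exact (chart ↥A t⁻¹).mul_mem ((chart ↥A t⁻¹).pow_mem (self_mem_chart (R := ↥A) t⁻¹) m) hk

/-- **overlap of the two charts**: if the two vertical primes of the chart `0` are comaximal, a
power of `t⁻¹` lies in the sum of the two vertical primes of the chart `1`. -/
theorem TwoCharts.exists_pow_s1_mem (T : TwoCharts c₁ c₂)
    (hB0 : ∀ b ∈ T.C0.B, b ∈ chart ↥A T.t) (hB1 : ∀ b ∈ chart ↥A T.t⁻¹, b ∈ T.C1.B)
    (htop : RingHom.ker T.C0.ρ₁ ⊔ RingHom.ker T.C0.ρ₂ = ⊤) :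
    ∃ n : ℕ, T.s1 ^ n ∈ RingHom.ker T.C1.ρ₁ ⊔ RingHom.ker T.C1.ρ₂ := by
  have h1 : (1 : T.C0.B) ∈ RingHom.ker T.C0.ρ₁ ⊔ RingHom.ker T.C0.ρ₂ := by
    rw [htop]; exact Submodule.mem_top
  obtain ⟨e₁, he₁, e₂, he₂, he⟩ := Submodule.mem_sup.mp h1
  rw [RingHom.mem_ker] at he₁ he₂
  obtain ⟨k₁, hk₁⟩ := exists_pow_mul_mem_chart_of_le (A := A) T.t_ne (hB0 _ e₁.2)
  obtain ⟨k₂, hk₂⟩ := exists_pow_mul_mem_chart_of_le (A := A) T.t_ne (hB0 _ e₂.2)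
  refine ⟨k₁ + k₂, ?_⟩
  have hm₁ : T.t⁻¹ ^ (k₁ + k₂) * (e₁ : F) ∈ T.C1.B := hB1 _ (hk₁ _ (Nat.le_add_right _ _))
  have hm₂ : T.t⁻¹ ^ (k₁ + k₂) * (e₂ : F) ∈ T.C1.B := hB1 _ (hk₂ _ (Nat.le_add_left _ _))
  have hsum : T.s1 ^ (k₁ + k₂) = (⟨_, hm₁⟩ : T.C1.B) + ⟨_, hm₂⟩ := by
    apply Subtype.ext
    have he' : (e₁ : F) + (e₂ : F) = 1 := congrArg Subtype.val he
    show T.t⁻¹ ^ (k₁ + k₂) = T.t⁻¹ ^ (k₁ + k₂) * (e₁ : F) + T.t⁻¹ ^ (k₁ + k₂) * (e₂ : F)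
    rw [← mul_add, he', mul_one]
  rw [hsum]
  exact Submodule.add_mem_sup (RingHom.mem_ker.2 (ρ₁_pow_mul_eq_zero T e₁ _ hm₁ he₁))
    (RingHom.mem_ker.2 (ρ₂_pow_mul_eq_zero T e₂ _ hm₂ he₂))

end Abstract

variable {p M' : ℕ} [NeZero M'] [NeZero p] {A : ValuationSubring Qbar}

/-- transport: comaximality of the vertical primes of a `Chart` on `B` gives that of
`vert1`, `vert2` of the subalgebra `B`. -/
theorem vert_sup_eq_top_of_chart (h : LevelHyp p M' A) (C : Chart (c1 h) (c2 h))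
    {B : Subalgebra ↥A ↥(Fbar (M' * p))} (hB : ChartOK h B) (hCB : ∀ x, x ∈ C.B ↔ x ∈ B)
    (htop : RingHom.ker C.ρ₁ ⊔ RingHom.ker C.ρ₂ = ⊤) : vert1 h hB ⊔ vert2 h hB = ⊤ := by
  have h1 : (1 : C.B) ∈ RingHom.ker C.ρ₁ ⊔ RingHom.ker C.ρ₂ := by
    rw [htop]; exact Submodule.mem_top
  obtain ⟨e₁, he₁, e₂, he₂, he⟩ := Submodule.mem_sup.mp h1
  rw [RingHom.mem_ker] at he₁ he₂
  rw [Ideal.eq_top_iff_one]
  have he' : (e₁ : ↥(Fbar (M' * p))) + (e₂ : ↥(Fbar (M' * p))) = 1 := congrArg Subtype.val he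
  have : (1 : ↥B) = (⟨(e₁ : ↥(Fbar (M' * p))), (hCB _).1 e₁.2⟩ : ↥B) +
      ⟨(e₂ : ↥(Fbar (M' * p))), (hCB _).1 e₂.2⟩ := Subtype.ext he'.symm
  rw [this]
  refine Submodule.add_mem_sup ?_ ?_
  · rw [mem_vert1_iff, red1_apply]
    exact he₁
  · rw [mem_vert2_iff, red2_apply]
    exact he₂

/-- **a closed point on both components**: in the chart `0`, or in the chart `1` at `t = ∞`. -/
theorem exists_node_ideal (h : LevelHyp p M' A) (T : TwoCharts (c1 h) (c2 h)) (ht : T.t = tA h)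
    (hB0 : ∀ x, x ∈ T.C0.B ↔ x ∈ chart ↥A (tA h))
    (hB1 : ∀ x, x ∈ T.C1.B ↔ x ∈ chart ↥A (tA h)⁻¹) :
    (∃ 𝔪 : Ideal T.C0.B, 𝔪.IsMaximal ∧ (∀ b : T.C0.B, T.C0.ρ₁ b = 0 → b ∈ 𝔪) ∧
        ∀ b : T.C0.B, T.C0.ρ₂ b = 0 → b ∈ 𝔪) ∨
      ∃ 𝔪 : Ideal T.C1.B, 𝔪.IsMaximal ∧ T.s1 ∈ 𝔪 ∧ (∀ b : T.C1.B, T.C1.ρ₁ b = 0 → b ∈ 𝔪) ∧
        ∀ b : T.C1.B, T.C1.ρ₂ b = 0 → b ∈ 𝔪 := by
  by_cases h0 : RingHom.ker T.C0.ρ₁ ⊔ RingHom.ker T.C0.ρ₂ = ⊤
  · right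
    -- a power of `t⁻¹` in the sum of the vertical primes of the chart `1`
    obtain ⟨n, hn⟩ := TwoCharts.exists_pow_s1_mem T
      (fun b hb => by rw [ht]; exact (hB0 b).1 hb)
      (fun b hb => by rw [ht] at hb; exact (hB1 b).2 hb) h0
    have hJ : RingHom.ker T.C1.ρ₁ ⊔ RingHom.ker T.C1.ρ₂ ⊔ Ideal.span {T.s1} ≠ ⊤ := by
      intro hJ
      have h1 : RingHom.ker T.C1.ρ₁ ⊔ RingHom.ker T.C1.ρ₂ = ⊤ :=
        eq_top_of_pow_mem_of_sup_span hn hJ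
      have hv0 := vert_sup_eq_top_of_chart h T.C0 (chartOK_B0A h) hB0 h0
      have hv1 := vert_sup_eq_top_of_chart h T.C1 (chartOK_B1A h) hB1 h1
      rcases vert_sup_ne_top h with hne | hne
      · exact hne hv0
      · exact hne hv1
    obtain ⟨𝔪, h𝔪, hle⟩ := Ideal.exists_le_maximal _ hJ
    refine ⟨𝔪, h𝔪, hle (Ideal.mem_sup_right (Ideal.mem_span_singleton_self _)), fun b hb => ?_,
      fun b hb => ?_⟩
    · exact hle (Ideal.mem_sup_left (Ideal.mem_sup_left (RingHom.mem_ker.2 hb)))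
    · exact hle (Ideal.mem_sup_left (Ideal.mem_sup_right (RingHom.mem_ker.2 hb)))
  · left
    obtain ⟨𝔪, h𝔪, hle⟩ := Ideal.exists_le_maximal _ h0
    exact ⟨𝔪, h𝔪, fun b hb => hle (Ideal.mem_sup_left (RingHom.mem_ker.2 hb)),
      fun b hb => hle (Ideal.mem_sup_right (RingHom.mem_ker.2 hb))⟩

/-- **`hnode`: the two-chart model of `X₀(M'p)` over `A` has a node.** -/
theorem hnode_twoCharts (h : LevelHyp p M' A) (T : TwoCharts (c1 h) (c2 h)) (ht : T.t = tA h)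
    (hB0 : ∀ x, x ∈ T.C0.B ↔ x ∈ chart ↥A (tA h))
    (hB1 : ∀ x, x ∈ T.C1.B ↔ x ∈ chart ↥A (tA h)⁻¹) :
    ∃ P : Place Qbar ↥(Fbar (M' * p)), T.rawRed.r₁ P ≠ none ∧ T.rawRed.r₂ P ≠ none := by
  haveI : IsAlgClosed (ResidueField A) :=
    Fermat.Agent.ES.KRON.KronInst10.isAlgClosed_residueField A
  have hx : IsGen Qbar (tA h) := isGen_tA h
  haveI := hx.finiteDimensional
  have H : LHyp Qbar ↥(Fbar (M' * p)) := Fermat.Agent.RR.LHypGen.lHyp_of_isGen hx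
  have htr : Transcendental Qbar T.t := by rw [ht]; exact hx.transcendental
  rw [TwoCharts.rawRed_r₁, TwoCharts.rawRed_r₂]
  rcases exists_node_ideal h T ht hB0 hB1 with ⟨𝔪, h𝔪, h₁, h₂⟩ | ⟨𝔪, h𝔪, hs, h₁, h₂⟩
  · haveI := h𝔪
    obtain ⟨χ, P, Q₁, Q₂, -, -, -, -, -, hr₁, hr₂⟩ :=
      Fermat.Agent.T33.PlacePoint8.exists_node_of_isMaximal₀ H T
        (fun b hb => by rw [ht]; exact (hB0 b).1 hb) htr hx 𝔪 h₁ h₂
    exact ⟨P, by rw [hr₁]; exact Option.some_ne_none _, by rw [hr₂]; exact Option.some_ne_none _⟩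
  · haveI := h𝔪
    obtain ⟨χ, P, Q₁, Q₂, -, -, -, -, -, hr₁, hr₂⟩ :=
      Fermat.Agent.T33.PlacePoint8.exists_node_of_isMaximal₁ H T
        (fun b hb => by rw [ht]; exact (hB1 b).1 hb) htr hx 𝔪 hs h₁ h₂
    exact ⟨P, by rw [hr₁]; exact Option.some_ne_none _, by rw [hr₂]; exact Option.some_ne_none _⟩

end Fermat.Agent.T33.NodeExist5B
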