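/-
Programme T (S33), chapter (e), assembly aid (helper5): **`NodalInst4A.Inputs h` from the four `surj`
('⊇') range statements alone** — everything else is discharged:
`C0 := ChartOK5.C0A h`, `C1 := ChartOK5.C1A h` (`hB0`, `hB1` by `Iff.rfl`),
`x₁ := FrickeRed3.xOne h`, `x₂ := FrickeRed3.xTwo h` (`gen`, `sep` : helper3's `FrickeRed3B`),
`int₁₀ int₂₀ int₁₁ int₂₁` : `ChartInt5`.
Also `hnode` and `hglue` for the resulting two-chart model.
-/
import Mathlib
import Fermat.Agent.T33.ChartInt5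
import Fermat.Agent.T33.NodalInst4A
import Fermat.Agent.T33.NodeExist5B

set_option autoImplicit false
set_option linter.unusedSectionVars false
set_option linter.style.haveILetI false
set_option linter.unusedVariables false
set_option synthInstance.maxHeartbeats 400000

noncomputable section

namespace Fermat.Agent.T33.InputsOf5

open HahnSeries ModularCurve IntermediateField AlgebraicCurve IsLocalRing
open Fermat.Agent.RED.Interface4 Fermat.Agent.RED.PUR.ChartGeneric22
  Fermat.Agent.ES.RED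
  Fermat.Agent.T33.NodalCtx1 Fermat.Agent.T33.NodalCurve6 Fermat.Agent.T33.NodalPlaces1
  Fermat.Agent.T33.NodalHalf4 Fermat.Agent.T33.NodalBase4A Fermat.Agent.T33.NodalInst4A
  Fermat.Agent.T33.ChartOK5 Fermat.Agent.T33.FrickeRed3
  Fermat.Agent.X0.FF

variable {p M' : ℕ} [NeZero M'] [NeZero p] {A : ValuationSubring Qbar}

/-- shortcut instance. -/
local instance (priority := high) algebraAFbarN5' : Algebra ↥A ↥(Fbar (M' * p)) := inferInstance

/-- shortcut instance. -/
local instance (priority := high) algebraKFb5' : Algebra (Setup8.kA A) (Fb A M') := inferInstance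

/-- **the inputs of the assembly from the four `surj` statements.** -/
def inputsOfSurj (h : LevelHyp p M' A)
    (s10 : ∀ f : Fb A M', IsIntegral (polyRing (Setup8.kA A) (xOne h)) f →
      ∃ b : (C0A h).B, (C0A h).ρ₁ b = f)
    (s20 : ∀ f : Fb A M', IsIntegral (polyRing (Setup8.kA A) (xTwo h)) f →
      ∃ b : (C0A h).B, (C0A h).ρ₂ b = f)
    (s11 : ∀ f : Fb A M', IsIntegral (polyRing (Setup8.kA A) (xOne h)⁻¹) f →
      ∃ b : (C1A h).B, (C1A h).ρ₁ b = f)
    (s21 : ∀ f : Fb A M', IsIntegral (polyRing (Setup8.kA A) (xTwo h)⁻¹) f →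
      ∃ b : (C1A h).B, (C1A h).ρ₂ b = f) : Inputs h where
  C0 := C0A h
  C1 := C1A h
  hB0 := fun _ => Iff.rfl
  hB1 := fun _ => Iff.rfl
  x₁ := xOne h
  x₂ := xTwo h
  gen₁ := isGen_xOne h
  gen₂ := isGen_xTwo h
  sep₁ := isSeparable_xOne h
  sep₂ := isSeparable_xTwo h
  int₁₀ := Fermat.Agent.T33.ChartInt5.int₁₀ h
  surj₁₀ := s10
  int₂₀ := Fermat.Agent.T33.ChartInt5.int₂₀ h
  surj₂₀ := s20
  int₁₁ := Fermat.Agent.T33.ChartInt5.int₁₁ h
  surj₁₁ := s11
  int₂₁ := Fermat.Agent.T33.ChartInt5.int₂₁ h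
  surj₂₁ := s21

/-- **`hnode`** for the two-chart model of any `Inputs`. -/
theorem hnode_inputs {h : LevelHyp p M' A} (I : Inputs h) :
    ∃ P : Place Qbar ↥(Fbar (M' * p)),
      I.twoCharts.rawRed.r₁ P ≠ none ∧ I.twoCharts.rawRed.r₂ P ≠ none :=
  Fermat.Agent.T33.NodeExist5B.hnode_twoCharts h I.twoCharts rfl I.hB0 I.hB1

end Fermat.Agent.T33.InputsOf5
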