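/-
Programme T (S33), chapter (e) "N34 over ℚ̄", block [B-1](ii), the '⊇' halves (helper5): **the
reductions of the two charts of the nodal model over `A` are ONTO the integral closures of
`κ[x_j^{±1}]`** — the four fields `surj₁₀ surj₂₀ surj₁₁ surj₂₁` of `NodalInst4A.Inputs` for
`C0 := C0A h`, `C1 := C1A h`, `x₁ := FrickeRed3.xOne h`, `x₂ := FrickeRed3.xTwo h`.

Route: (S2) over `A` at the GOOD level `M'` (`FF/ChartInst7C.exists_gaussA_red_eq(_inv)`, smoothness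
targets from `ChartInst7.smoothTargets`): every `f ∈ κ·F̃_{M'}` integral over `κ[t̃^{±1}]` is `ρ₀ b` with
`b ∈ chart ↥A (tM h)^{±1}`.  Then `α b ∈ chart ↥A (tA h)^{±1}` with `ρ₁ (α b) = ρ₀ b`
(`FrickeRed3.rho1_alphaA`), and `β b ∈ chart ↥A (tA h)^{±1}` (`yA h ∈ B0A h`, `(yA h)⁻¹ ∈ B1A h`:
`NodalWit4A`) with `ρ₂ (β b) = W̄ (ρ₀ b)` (`FrickeRed3.rho2_betaA`).

* `smoothTargetsM h`, `exists_rho0_eq`, `exists_rho0_eq_inv` (the good level);
* `alphaA_mem_chart`, `betaA_mem_chart` and the `⁻¹` versions;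
* **`surj₁₀`, `surj₂₀`, `surj₁₁`, `surj₂₁`**; **`inputs h : NodalInst4A.Inputs h`** — all fields
  discharged.
-/
import Mathlib
import Fermat.Agent.T33.InputsOf5
import Fermat.Agent.T33.NodalWit4A
import Fermat.Agent.FF.ChartInst7C
import Fermat.Agent.ES.RED.BaseCases3

set_option autoImplicit false
set_option linter.unusedSectionVars false
set_option linter.style.haveILetI false
set_option linter.unusedVariables false
set_option synthInstance.maxHeartbeats 400000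

noncomputable section

namespace Fermat.Agent.T33.ChartSurj5

open HahnSeries ModularCurve IntermediateField AlgebraicCurve IsLocalRing
open Fermat.Agent.RED.Interface4 Fermat.Agent.RED.PUR.ChartGeneric22
  Fermat.Agent.RED.BASE.Interface12
  Fermat.Agent.ES.RED
  Fermat.Agent.T33.NodalCtx1 Fermat.Agent.T33.NodalCurve6 Fermat.Agent.T33.NodalPlaces1
  Fermat.Agent.T33.NodalHalf4 Fermat.Agent.T33.NodalBase4A Fermat.Agent.T33.NodalInst4A
  Fermat.Agent.T33.ChartOK5 Fermat.Agent.T33.FrickeRed3 Fermat.Agent.T33.NodalWit4A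
  Fermat.Agent.X0.FF

variable {p M' : ℕ} [NeZero M'] [NeZero p] {A : ValuationSubring Qbar}

/-- shortcut instance. -/
local instance (priority := high) algebraAFbarN5s : Algebra ↥A ↥(Fbar (M' * p)) := inferInstance

/-- shortcut instance. -/
local instance (priority := high) algebraAFbarM5s : Algebra ↥A ↥(Fbar M') := inferInstance

/-- shortcut instance. -/
local instance (priority := high) algebraKFb5s : Algebra (Setup8.kA A) (Fb A M') := inferInstance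

variable (h : LevelHyp p M' A)

/-! ### the good level -/

include h in
/-- the smoothness targets of MODEL at the good level `M'`. -/
theorem smoothTargetsM : Fermat.Agent.RED.ModelFinal4.SmoothTargets 4 8 M' A := by
  haveI : Fact p.Prime := ⟨h.prime⟩
  obtain ⟨cv, hcv⟩ := Fermat.Agent.ES.RED.BaseCases3.exists_cuspExports
    Fermat.Agent.RED.BASE.Hauptmodul12.baseHyp_four M' h.four_dvd
  exact Fermat.Agent.FF.ChartInst7.smoothTargets 4 8 M' p h.not_dvd A h.liesOver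
    Fermat.Agent.RED.BASE.Hauptmodul12.baseHyp_four h.four_dvd cv hcv

/-- **(S2) at the good level, chart `t`**: every `f` integral over `κ[x₁]` is `ρ₀ b` with
`b ∈ chart ↥A (tM h)`. -/
theorem exists_rho0_eq (f : Fb A M') (hf : IsIntegral (polyRing (Setup8.kA A) (xOne h)) f) :
    ∃ y : ↥(Ov0 h), (y : ↥(Fbar M')) ∈ chart ↥A (tM h) ∧ rho0 h y = f := by
  haveI : Fact p.Prime := ⟨h.prime⟩
  obtain ⟨b, hb, hred⟩ := Fermat.Agent.FF.ChartInst7.exists_gaussA_red_eq 4 8 M' p h.not_dvd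
    (tMemM h) tGenBase4 A h.liesOver (smoothTargetsM h) f hf
  refine ⟨⟨(b : ↥(Fbar M')), gaussA_mem_Ov0 h b⟩, hb, ?_⟩
  apply Subtype.ext
  rw [coe_rho0_gaussA h b, hred]

/-- **(S2) at the good level, chart `t⁻¹`.** -/
theorem exists_rho0_eq_inv (f : Fb A M')
    (hf : IsIntegral (polyRing (Setup8.kA A) (xOne h)⁻¹) f) :
    ∃ y : ↥(Ov0 h), (y : ↥(Fbar M')) ∈ chart ↥A (tM h)⁻¹ ∧ rho0 h y = f := by
  haveI : Fact p.Prime := ⟨h.prime⟩
  obtain ⟨b, hb, hred⟩ := Fermat.Agent.FF.ChartInst7.exists_gaussA_red_eq_inv 4 8 M' p h.not_dvd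
    (tMemM h) tGenBase4 A h.liesOver (smoothTargetsM h) f hf
  refine ⟨⟨(b : ↥(Fbar M')), gaussA_mem_Ov0 h b⟩, hb, ?_⟩
  apply Subtype.ext
  rw [coe_rho0_gaussA h b, hred]

/-! ### `α`, `β` on the charts -/

theorem alphaA_commutes (r : ↥A) :
    (alphaA M' p : ↥(Fbar M') →+* ↥(Fbar (M' * p))) (algebraMap ↥A ↥(Fbar M') r) =
      algebraMap ↥A ↥(Fbar (M' * p)) r :=
  (alphaA M' p).commutes (r : Qbar)

theorem betaA_commutes (r : ↥A) :
    (betaA M' p : ↥(Fbar M') →+* ↥(Fbar (M' * p))) (algebraMap ↥A ↥(Fbar M') r) =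
      algebraMap ↥A ↥(Fbar (M' * p)) r :=
  (betaA M' p).commutes (r : Qbar)

theorem alphaA_mem_chart {x : ↥(Fbar M')} (hx : x ∈ chart ↥A (tM h)) :
    alphaA M' p x ∈ chart ↥A (tA h) := by
  refine Fermat.Agent.ES.N34.ModelN4.map_mem_chart (R := ↥A)
    (alphaA M' p : ↥(Fbar M') →+* ↥(Fbar (M' * p))) alphaA_commutes (s := tM h) ?_ hx
  show alphaA M' p (tM h) ∈ chart ↥A (tA h)
  rw [← tA_eq_alphaA]
  exact self_mem_chart (R := ↥A) (tA h)

theorem alphaA_mem_chart_inv {x : ↥(Fbar M')} (hx : x ∈ chart ↥A (tM h)⁻¹) :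
    alphaA M' p x ∈ chart ↥A (tA h)⁻¹ := by
  refine Fermat.Agent.ES.N34.ModelN4.map_mem_chart (R := ↥A)
    (alphaA M' p : ↥(Fbar M') →+* ↥(Fbar (M' * p))) alphaA_commutes (s := (tM h)⁻¹) ?_ hx
  show alphaA M' p (tM h)⁻¹ ∈ chart ↥A (tA h)⁻¹
  rw [map_inv₀, ← tA_eq_alphaA]
  exact self_mem_chart (R := ↥A) (tA h)⁻¹

theorem betaA_mem_chart {x : ↥(Fbar M')} (hx : x ∈ chart ↥A (tM h)) :
    betaA M' p x ∈ chart ↥A (tA h) := by
  refine Fermat.Agent.ES.N34.ModelN4.map_mem_chart (R := ↥A)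
    (betaA M' p : ↥(Fbar M') →+* ↥(Fbar (M' * p))) betaA_commutes (s := tM h) ?_ hx
  exact yA_mem_B0A h

theorem betaA_mem_chart_inv {x : ↥(Fbar M')} (hx : x ∈ chart ↥A (tM h)⁻¹) :
    betaA M' p x ∈ chart ↥A (tA h)⁻¹ := by
  refine Fermat.Agent.ES.N34.ModelN4.map_mem_chart (R := ↥A)
    (betaA M' p : ↥(Fbar M') →+* ↥(Fbar (M' * p))) betaA_commutes (s := (tM h)⁻¹) ?_ hx
  show betaA M' p (tM h)⁻¹ ∈ chart ↥A (tA h)⁻¹
  rw [map_inv₀]
  exact yA_inv_mem_B1A h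

/-! ### transport of integrality along `W̄` -/

theorem Wb_symm_isIntegral (x f : Fb A M')
    (hf : IsIntegral (polyRing (Setup8.kA A) (Wb h x)) f) :
    IsIntegral (polyRing (Setup8.kA A) x) ((Wb h).symm f) := by
  have := Fermat.Agent.ES.N34.ModelN4.map_mem_chart (R := Setup8.kA A)
    ((Wb h).symm : Fb A M' →+* Fb A M') (fun r => (Wb h).symm.commutes r) (s := Wb h x) (t := x)
    (by
      show (Wb h).symm (Wb h x) ∈ chart (Setup8.kA A) x
      rw [AlgEquiv.symm_apply_apply]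
      exact self_mem_chart (R := Setup8.kA A) x) (x := f) hf
  exact this

/-! ### the four `surj` fields -/

/-- **`surj₁₀`**. -/
theorem surj₁₀ (f : Fb A M') (hf : IsIntegral (polyRing (Setup8.kA A) (xOne h)) f) :
    ∃ b : (C0A h).B, (C0A h).ρ₁ b = f := by
  obtain ⟨y, hy, hρ⟩ := exists_rho0_eq h f hf
  refine ⟨⟨alphaA M' p (y : ↥(Fbar M')), alphaA_mem_chart h hy⟩, ?_⟩
  exact (rho1_alphaA h y).trans hρ

/-- **`surj₁₁`**. -/
theorem surj₁₁ (f : Fb A M') (hf : IsIntegral (polyRing (Setup8.kA A) (xOne h)⁻¹) f) :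
    ∃ b : (C1A h).B, (C1A h).ρ₁ b = f := by
  obtain ⟨y, hy, hρ⟩ := exists_rho0_eq_inv h f hf
  refine ⟨⟨alphaA M' p (y : ↥(Fbar M')), alphaA_mem_chart_inv h hy⟩, ?_⟩
  exact (rho1_alphaA h y).trans hρ

/-- **`surj₂₀`**. -/
theorem surj₂₀ (f : Fb A M') (hf : IsIntegral (polyRing (Setup8.kA A) (xTwo h)) f) :
    ∃ b : (C0A h).B, (C0A h).ρ₂ b = f := by
  obtain ⟨y, hy, hρ⟩ := exists_rho0_eq h _ (Wb_symm_isIntegral h (xOne h) f hf)
  refine ⟨⟨betaA M' p (y : ↥(Fbar M')), betaA_mem_chart h hy⟩, ?_⟩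
  refine (rho2_betaA h y).trans ?_
  rw [hρ, AlgEquiv.apply_symm_apply]

/-- **`surj₂₁`**. -/
theorem surj₂₁ (f : Fb A M') (hf : IsIntegral (polyRing (Setup8.kA A) (xTwo h)⁻¹) f) :
    ∃ b : (C1A h).B, (C1A h).ρ₂ b = f := by
  have hf' : IsIntegral (polyRing (Setup8.kA A) (Wb h (xOne h)⁻¹)) f := by
    rw [map_inv₀]; exact hf
  obtain ⟨y, hy, hρ⟩ := exists_rho0_eq_inv h _ (Wb_symm_isIntegral h (xOne h)⁻¹ f hf')
  refine ⟨⟨betaA M' p (y : ↥(Fbar M')), betaA_mem_chart_inv h hy⟩, ?_⟩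
  refine (rho2_betaA h y).trans ?_
  rw [hρ, AlgEquiv.apply_symm_apply]

/-- **the inputs of the assembly `NodalInst4A`, all fields discharged.** -/
def inputs : Inputs h :=
  Fermat.Agent.T33.InputsOf5.inputsOfSurj h (surj₁₀ h) (surj₂₀ h) (surj₁₁ h) (surj₂₁ h)

end Fermat.Agent.T33.ChartSurj5
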