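/-
Programme T (S33), chapter (e) "N34 over Qbar", ASSEMBLY part D (helper4): **the (e)-package for the
concrete inputs** `InputsOf5.inputsOfSurj h s10 s20 s11 s21` (charts `C0A h`, `C1A h`; coordinates
`xOne h`, `xTwo h`): the reduction values are helper3's (`FrickeRed3B`), the node is helper5's
(`NodeExist5B`).  What remains as hypotheses: the four `surj` statements and PUSH.
-/
import Mathlib
import Fermat.Agent.T33.NodalInst4C
import Fermat.Agent.T33.InputsOf5
import Fermat.Agent.T33.FrickeRed3B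

set_option autoImplicit false
set_option linter.unusedSectionVars false
set_option linter.style.haveILetI false
set_option linter.unusedVariables false
set_option synthInstance.maxHeartbeats 400000

noncomputable section

namespace Fermat.Agent.T33.NodalInst4D

open HahnSeries ModularCurve AlgebraicCurve IsLocalRing IntermediateField
open Fermat.Agent.RED.Interface4 Fermat.Agent.ES.RED Fermat.Agent.T33.NodalHalf4
  Fermat.Agent.RED.PUR.ChartGeneric22 Fermat.Agent.T33.NodalCurve6 Fermat.Agent.T33.NodalCtx1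
  Fermat.Agent.T33.NodalPlaces1 Fermat.Agent.T33.NodalBase4A Fermat.Agent.X0.FF
  Fermat.Agent.RR.LSpace Fermat.Agent.T33.NodalInst4A Fermat.Agent.T33.NodalInst4C
  Fermat.Agent.T33.ChartOK5 Fermat.Agent.T33.FrickeRed3 Fermat.Agent.T33.InputsOf5
  Fermat.Agent.FF.InertiaWire8 Fermat.Agent.T33.Psi3C

variable {p M' : ℕ} [NeZero M'] [NeZero p] {A : ValuationSubring Qbar}

/-- shortcut instance. -/
local instance (priority := high) algebraAFbarND : Algebra ↥A ↥(Fbar (M' * p)) := inferInstance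

/-- shortcut instance. -/
local instance (priority := high) algebraKFbD : Algebra (Setup8.kA A) (Fb A M') := inferInstance

/-- **the reduction values** for every `Inputs` with coordinates `xOne h`, `xTwo h`. -/
theorem rhoVals_of_eq {h : LevelHyp p M' A} (I : Inputs h) (h₁ : I.x₁ = xOne h)
    (h₂ : I.x₂ = xTwo h) : RhoVals I where
  t₁ := fun ht => by rw [h₁]; exact rho1_tA h
  y₁ := fun hy => by rw [h₁]; exact rho1_yA h
  y₂ := fun hy => by rw [h₂]; exact rho2_yA h
  t₂ := fun ht => by rw [h₂]; exact rho2_tA h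

variable (h : LevelHyp p M' A)
  (s10 : ∀ f : Fb A M', IsIntegral (polyRing (Setup8.kA A) (xOne h)) f →
    ∃ b : (C0A h).B, (C0A h).ρ₁ b = f)
  (s20 : ∀ f : Fb A M', IsIntegral (polyRing (Setup8.kA A) (xTwo h)) f →
    ∃ b : (C0A h).B, (C0A h).ρ₂ b = f)
  (s11 : ∀ f : Fb A M', IsIntegral (polyRing (Setup8.kA A) (xOne h)⁻¹) f →
    ∃ b : (C1A h).B, (C1A h).ρ₁ b = f)
  (s21 : ∀ f : Fb A M', IsIntegral (polyRing (Setup8.kA A) (xTwo h)⁻¹) f →
    ∃ b : (C1A h).B, (C1A h).ρ₂ b = f)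

/-- the reduction values for the concrete inputs. -/
theorem rhoVals : RhoVals (inputsOfSurj h s10 s20 s11 s21) :=
  rhoVals_of_eq (inputsOfSurj h s10 s20 s11 s21) rfl rfl

/-- **the nodes of the model are finite.** -/
theorem finite_node : Finite (inputsOfSurj h s10 s20 s11 s21).twoCharts.rawRed.Node :=
  NodalInst4C.finite_node _ (rhoVals h s10 s20 s11 s21)

/-- **the node.** -/
theorem hnode : ∃ P : Place Qbar ↥(Fbar (M' * p)),
    (inputsOfSurj h s10 s20 s11 s21).twoCharts.rawRed.r₁ P ≠ none ∧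
      (inputsOfSurj h s10 s20 s11 s21).twoCharts.rawRed.r₂ P ≠ none :=
  hnode_inputs _

/-- **THE (e)-PACKAGE for the concrete inputs**: what remains is PUSH (and the four `surj`). -/
theorem exists_package
    (hpush₁ : ∀ y : (c1 h).O, (c1 h).ρ y ≠ 0 → ∀ Q : Place (Setup8.kA A) (Fb A M'),
      (∀ P : Place Qbar ↥(Fbar (M' * p)),
        (inputsOfSurj h s10 s20 s11 s21).twoCharts.rawRed.r₁ P = some Q →
        (inputsOfSurj h s10 s20 s11 s21).twoCharts.rawRed.r₂ P = none) →
      ∀ (D : Divisor Qbar ↥(Fbar (M' * p))), (∀ P, D P = P.ord (y : ↥(Fbar (M' * p)))) →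
        ∀ T : Finset (Place Qbar ↥(Fbar (M' * p))),
          (∀ P, P ∈ T ↔ P ∈ D.support ∧
            (inputsOfSurj h s10 s20 s11 s21).twoCharts.rawRed.r₁ P = some Q) →
          ∑ P ∈ T, D P = Q.ord ((c1 h).ρ y))
    (hpush₂ : ∀ y : (c2 h).O, (c2 h).ρ y ≠ 0 → ∀ Q : Place (Setup8.kA A) (Fb A M'),
      (∀ P : Place Qbar ↥(Fbar (M' * p)),
        (inputsOfSurj h s10 s20 s11 s21).twoCharts.rawRed.r₂ P = some Q →
        (inputsOfSurj h s10 s20 s11 s21).twoCharts.rawRed.r₁ P = none) →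
      ∀ (D : Divisor Qbar ↥(Fbar (M' * p))), (∀ P, D P = P.ord (y : ↥(Fbar (M' * p)))) →
        ∀ T : Finset (Place Qbar ↥(Fbar (M' * p))),
          (∀ P, P ∈ T ↔ P ∈ D.support ∧
            (inputsOfSurj h s10 s20 s11 s21).twoCharts.rawRed.r₂ P = some Q) →
          ∑ P ∈ T, D P = Q.ord ((c2 h).ρ y)) :
    ∃ (ι : Type) (_ : Finite ι) (Nd : NodalData (Setup8.kA A) (Fb A M') (Fb A M') ι)
      (Nr : NodalRed A ↥(Fbar (M' * p)) Nd),
      Nr.c₁ = c1 h ∧ Nr.c₂ = c2 h ∧
      Fermat.Agent.T33.Psi3F.pu Nr.c₁ = puOne A (M' * p) ∧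
      Fermat.Agent.T33.Psi3F.pu Nr.c₂ = puTwo A (M' * p) ∧
      Nr.Compat (fun σ : Iner A => gal (M' * p) (σ : GQ)) :=
  NodalInst4C.exists_package _ (rhoVals h s10 s20 s11 s21) (hnode h s10 s20 s11 s21)
    hpush₁ hpush₂

end Fermat.Agent.T33.NodalInst4D
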