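/-
Programme T (S33), chapter (e) "N34 over Qbar", ASSEMBLY part E (helper4): **the (e)-package of
`X₀(M'p)` over `A`** for the inputs `ChartSurj5.inputs h` (helper5: all fields discharged).
The only remaining hypotheses are PUSH on the two components (`hpush₁`, `hpush₂`).

* `inp h : Inputs h`, `T h : TwoCharts (c1 h) (c2 h)`, `Nd h`, `Node h` (finite: `finite_node h`);
* `rhoVals h`, `hnode h`;
* `nodalRed h hpush₁ hpush₂ : NodalRed A ↥(Fbar (M' * p)) (Nd h)` with `c₁ = c1 h`, `c₂ = c2 h` (rfl),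
  `pu₁`, `pu₂`, `compat`;
* `exists_package h hpush₁ hpush₂`.
-/
import Mathlib
import Fermat.Agent.T33.NodalInst4D
import Fermat.Agent.T33.ChartSurj5

set_option autoImplicit false
set_option linter.unusedSectionVars false
set_option linter.style.haveILetI false
set_option linter.unusedVariables false
set_option synthInstance.maxHeartbeats 400000

noncomputable section

namespace Fermat.Agent.T33.NodalInst4E

open HahnSeries ModularCurve AlgebraicCurve IsLocalRing IntermediateField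
open Fermat.Agent.RED.Interface4 Fermat.Agent.ES.RED Fermat.Agent.T33.NodalHalf4
  Fermat.Agent.RED.PUR.ChartGeneric22 Fermat.Agent.T33.NodalCurve6 Fermat.Agent.T33.NodalCtx1
  Fermat.Agent.T33.NodalPlaces1 Fermat.Agent.T33.NodalBase4A Fermat.Agent.X0.FF
  Fermat.Agent.RR.LSpace Fermat.Agent.T33.NodalInst4A Fermat.Agent.T33.NodalInst4C
  Fermat.Agent.T33.ChartOK5 Fermat.Agent.T33.FrickeRed3 Fermat.Agent.T33.InputsOf5
  Fermat.Agent.FF.InertiaWire8 Fermat.Agent.T33.Psi3C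

variable {p M' : ℕ} [NeZero M'] [NeZero p] {A : ValuationSubring Qbar}

/-- shortcut instance. -/
local instance (priority := high) algebraAFbarNE : Algebra ↥A ↥(Fbar (M' * p)) := inferInstance

/-- shortcut instance. -/
local instance (priority := high) algebraKFbE : Algebra (Setup8.kA A) (Fb A M') := inferInstance

variable (h : LevelHyp p M' A)

/-- the inputs. -/
def inp : Inputs h := Fermat.Agent.T33.ChartSurj5.inputs h

/-- **the two-chart model of `X₀(M'p)` over `A`.** -/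
def T : TwoCharts (c1 h) (c2 h) := (inp h).twoCharts

/-- the nodes. -/
abbrev Node : Type := (T h).rawRed.Node

/-- the nodal curve (special fibre). -/
def Nd : NodalData (Setup8.kA A) (Fb A M') (Fb A M') (Node h) := (T h).rawRed.nodalData

theorem T_t : (T h).t = tA h := rfl

theorem inp_x₁ : (inp h).x₁ = xOne h := rfl

theorem inp_x₂ : (inp h).x₂ = xTwo h := rfl

theorem mem_C0_iff (x : ↥(Fbar (M' * p))) : x ∈ (T h).C0.B ↔ x ∈ chart ↥A (tA h) := Iff.rfl

theorem mem_C1_iff (x : ↥(Fbar (M' * p))) : x ∈ (T h).C1.B ↔ x ∈ chart ↥A (tA h)⁻¹ := Iff.rfl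

/-- the reduction values. -/
theorem rhoVals : RhoVals (inp h) := NodalInst4D.rhoVals_of_eq (inp h) rfl rfl

/-- **the nodes are finite.** -/
instance finite_node : Finite (Node h) := NodalInst4C.finite_node (inp h) (rhoVals h)

/-- **the node.** -/
theorem hnode : ∃ P : Place Qbar ↥(Fbar (M' * p)),
    (T h).rawRed.r₁ P ≠ none ∧ (T h).rawRed.r₂ P ≠ none := hnode_inputs (inp h)

instance nonempty_node : Nonempty (Node h) := by
  obtain ⟨P, h1, h2⟩ := hnode h
  obtain ⟨Q₁, hQ₁⟩ := Option.ne_none_iff_exists'.1 h1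
  obtain ⟨Q₂, hQ₂⟩ := Option.ne_none_iff_exists'.1 h2
  exact ⟨⟨(Q₁, Q₂), P, hQ₁, hQ₂⟩⟩

variable
    (hpush₁ : ∀ y : (c1 h).O, (c1 h).ρ y ≠ 0 → ∀ Q : Place (Setup8.kA A) (Fb A M'),
      (∀ P : Place Qbar ↥(Fbar (M' * p)), (T h).rawRed.r₁ P = some Q →
        (T h).rawRed.r₂ P = none) →
      ∀ (D : Divisor Qbar ↥(Fbar (M' * p))), (∀ P, D P = P.ord (y : ↥(Fbar (M' * p)))) →
        ∀ S : Finset (Place Qbar ↥(Fbar (M' * p))),
          (∀ P, P ∈ S ↔ P ∈ D.support ∧ (T h).rawRed.r₁ P = some Q) →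
          ∑ P ∈ S, D P = Q.ord ((c1 h).ρ y))
    (hpush₂ : ∀ y : (c2 h).O, (c2 h).ρ y ≠ 0 → ∀ Q : Place (Setup8.kA A) (Fb A M'),
      (∀ P : Place Qbar ↥(Fbar (M' * p)), (T h).rawRed.r₂ P = some Q →
        (T h).rawRed.r₁ P = none) →
      ∀ (D : Divisor Qbar ↥(Fbar (M' * p))), (∀ P, D P = P.ord (y : ↥(Fbar (M' * p)))) →
        ∀ S : Finset (Place Qbar ↥(Fbar (M' * p))),
          (∀ P, P ∈ S ↔ P ∈ D.support ∧ (T h).rawRed.r₂ P = some Q) →
          ∑ P ∈ S, D P = Q.ord ((c2 h).ρ y))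

/-- **the nodal reduction context of `X₀(M'p)` over `A`.** -/
def nodalRed : NodalRed A ↥(Fbar (M' * p)) (Nd h) :=
  (inp h).nodalRed (hnode h) hpush₁ hpush₂

@[simp] theorem nodalRed_c₁ : (nodalRed h hpush₁ hpush₂).c₁ = c1 h := rfl

@[simp] theorem nodalRed_c₂ : (nodalRed h hpush₁ hpush₂).c₂ = c2 h := rfl

@[simp] theorem nodalRed_r₁ : (nodalRed h hpush₁ hpush₂).r₁ = (T h).rawRed.r₁ := rfl

@[simp] theorem nodalRed_r₂ : (nodalRed h hpush₁ hpush₂).r₂ = (T h).rawRed.r₂ := rfl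

theorem pu₁ : Fermat.Agent.T33.Psi3F.pu (nodalRed h hpush₁ hpush₂).c₁ = puOne A (M' * p) :=
  Fermat.Agent.T33.NodalBridge0.pu_c1 h

theorem pu₂ : Fermat.Agent.T33.Psi3F.pu (nodalRed h hpush₁ hpush₂).c₂ = puTwo A (M' * p) :=
  Fermat.Agent.T33.NodalBridge0.pu_c2 h

/-- **the inertia group preserves the nodal reduction.** -/
theorem compat :
    (nodalRed h hpush₁ hpush₂).Compat (fun σ : Iner A => gal (M' * p) (σ : GQ)) :=
  NodalInst4C.compat (inp h) (hnode h) hpush₁ hpush₂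

include hpush₁ hpush₂ in
/-- **THE (e)-PACKAGE.** -/
theorem exists_package :
    ∃ (ι : Type) (_ : Finite ι) (Nd : NodalData (Setup8.kA A) (Fb A M') (Fb A M') ι)
      (Nr : NodalRed A ↥(Fbar (M' * p)) Nd),
      Nr.c₁ = c1 h ∧ Nr.c₂ = c2 h ∧
      Fermat.Agent.T33.Psi3F.pu Nr.c₁ = puOne A (M' * p) ∧
      Fermat.Agent.T33.Psi3F.pu Nr.c₂ = puTwo A (M' * p) ∧
      Nr.Compat (fun σ : Iner A => gal (M' * p) (σ : GQ)) :=
  ⟨Node h, finite_node h, Nd h, nodalRed h hpush₁ hpush₂, rfl, rfl, pu₁ h hpush₁ hpush₂,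
    pu₂ h hpush₁ hpush₂, compat h hpush₁ hpush₂⟩

end Fermat.Agent.T33.NodalInst4E
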