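/-
Programme T (S33), chapter (e) "N34 over ℚ̄", block [B-1](ii), the '⊆' halves (helper5): **the
reductions of the two charts of the nodal model over `A` are integral over `κ[x_j^{±1}]`** — the four
fields `int₁₀ int₂₀ int₁₁ int₂₁` of `NodalInst4A.Inputs` for `C0 := C0A h`, `C1 := C1A h`,
`x₁ := FrickeRed3.xOne h`, `x₂ := FrickeRed3.xTwo h`.

* `isIntegralElem_of_comp` : integrality passes along a factorisation of the base ring map;
* `Chart.isIntegral_ρ₁_of`, `Chart.isIntegral_ρ₂_of` (ABSTRACT, any `K, A, F`): for a chart `C` with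
  `C.B ⊆ chart ↥A s`, `s ∈ C.B`, and `x` with `ρ_j s ∈ κ[x]`: `ρ_j b` is integral over `κ[x]` for every
  `b ∈ C.B` (helper8's `PlacePoint8.polyHom_isIntegralElem` pushed through `ρ_j`);
* `rho1_tA_inv`, `rho2_tA_inv` : `ρ₁ t⁻¹ = x₁⁻¹`, `ρ₂ t⁻¹ = (x₂⁻¹)^p`;
* **`int₁₀`, `int₂₀`, `int₁₁`, `int₂₁`**.
-/
import Mathlib
import Fermat.Agent.T33.ChartOK5
import Fermat.Agent.T33.PlacePoint8
import Fermat.Agent.T33.FrickeRed3B

set_option autoImplicit false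
set_option linter.unusedSectionVars false
set_option linter.style.haveILetI false
set_option linter.unusedVariables false
set_option synthInstance.maxHeartbeats 400000

noncomputable section

namespace Fermat.Agent.T33.ChartInt5

open HahnSeries ModularCurve IntermediateField AlgebraicCurve IsLocalRing Polynomial
open Fermat.Agent.RED.Interface4 Fermat.Agent.RED.PUR.ChartGeneric22
  Fermat.Agent.ES.RED
  Fermat.Agent.T33.NodalCtx1 Fermat.Agent.T33.NodalCurve6 Fermat.Agent.T33.NodalPlaces1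
  Fermat.Agent.T33.NodalHalf4 Fermat.Agent.T33.NodalBase4A
  Fermat.Agent.T33.ChartOK5 Fermat.Agent.T33.PlacePoint8 Fermat.Agent.T33.FrickeRed3
  Fermat.Agent.X0.FF

/-- integrality passes along a factorisation `f = g ∘ φ` of the base ring map. -/
theorem isIntegralElem_of_comp {R R' S : Type*} [CommRing R] [CommRing R'] [CommRing S]
    (f : R →+* S) (g : R' →+* S) (φ : R →+* R') (hfg : g.comp φ = f) {x : S}
    (hx : f.IsIntegralElem x) : g.IsIntegralElem x := by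
  obtain ⟨q, hqm, hq⟩ := hx
  refine ⟨q.map φ, hqm.map φ, ?_⟩
  rw [Polynomial.eval₂_map, hfg]
  exact hq

/-- integrality is preserved by a ring homomorphism of the top ring. -/
theorem isIntegralElem_map {R S S' : Type*} [CommRing R] [CommRing S] [CommRing S']
    (f : R →+* S) (ψ : S →+* S') {x : S} (hx : f.IsIntegralElem x) :
    (ψ.comp f).IsIntegralElem (ψ x) := by
  obtain ⟨q, hqm, hq⟩ := hx
  refine ⟨q, hqm, ?_⟩
  rw [← Polynomial.hom_eval₂, hq, map_zero]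

section Abstract

variable {K : Type*} [Field K] {A : ValuationSubring K} {F : Type*} [Field F] [Algebra K F]
  {Fb₁ Fb₂ : Type*} [Field Fb₁] [Field Fb₂] [Algebra (ResidueField A) Fb₁]
  [Algebra (ResidueField A) Fb₂] {c₁ : HalfRed A F Fb₁} {c₂ : HalfRed A F Fb₂}

/-- `A[X] → κ[x]`, `X ↦ y`, for `y ∈ κ[x]`. -/
def redPoly {Fb : Type*} [Field Fb] [Algebra (ResidueField A) Fb] (x : Fb)
    (y : polyRing (ResidueField A) x) : (↥A)[X] →+* polyRing (ResidueField A) x :=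
  Polynomial.eval₂RingHom
    ((algebraMap (ResidueField A) (polyRing (ResidueField A) x)).comp (residue A)) y

/-- **the first reduction of a chart inside `chart ↥A s` is integral over `κ[x]`** as soon as
`ρ₁ s ∈ κ[x]`. -/
theorem Chart.isIntegral_ρ₁_of (C : Chart c₁ c₂) {s : F} (hs : s ∈ C.B)
    (hB : ∀ b ∈ C.B, b ∈ chart ↥A s) (x : Fb₁)
    (hx : C.ρ₁ ⟨s, hs⟩ ∈ polyRing (ResidueField A) x) (b : C.B) :
    IsIntegral (polyRing (ResidueField A) x) (C.ρ₁ b) := by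
  have h1 := isIntegralElem_map (polyHom C hs) C.ρ₁ (polyHom_isIntegralElem C hs hB b)
  refine isIntegralElem_of_comp _ _ (redPoly x ⟨_, hx⟩) ?_ h1
  apply Polynomial.ringHom_ext
  · intro a
    show algebraMap (polyRing (ResidueField A) x) Fb₁ (redPoly x ⟨_, hx⟩ (Polynomial.C a)) =
      C.ρ₁ (polyHom C hs (Polynomial.C a))
    rw [polyHom_C]
    unfold redPoly
    rw [Polynomial.coe_eval₂RingHom, Polynomial.eval₂_C, Chart.ρ₁_apply]
    show algebraMap (ResidueField A) Fb₁ (residue A a) = c₁.ρ ⟨algebraMap K F (a : K), _⟩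
    rw [c₁.ρ_algebraMap]
  · show algebraMap (polyRing (ResidueField A) x) Fb₁ (redPoly x ⟨_, hx⟩ Polynomial.X) =
      C.ρ₁ (polyHom C hs Polynomial.X)
    rw [polyHom_X]
    unfold redPoly
    rw [Polynomial.coe_eval₂RingHom, Polynomial.eval₂_X]
    rfl

/-- **the second reduction of a chart inside `chart ↥A s` is integral over `κ[x]`** as soon as
`ρ₂ s ∈ κ[x]`. -/
theorem Chart.isIntegral_ρ₂_of (C : Chart c₁ c₂) {s : F} (hs : s ∈ C.B)
    (hB : ∀ b ∈ C.B, b ∈ chart ↥A s) (x : Fb₂)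
    (hx : C.ρ₂ ⟨s, hs⟩ ∈ polyRing (ResidueField A) x) (b : C.B) :
    IsIntegral (polyRing (ResidueField A) x) (C.ρ₂ b) := by
  have h1 := isIntegralElem_map (polyHom C hs) C.ρ₂ (polyHom_isIntegralElem C hs hB b)
  refine isIntegralElem_of_comp _ _ (redPoly x ⟨_, hx⟩) ?_ h1
  apply Polynomial.ringHom_ext
  · intro a
    show algebraMap (polyRing (ResidueField A) x) Fb₂ (redPoly x ⟨_, hx⟩ (Polynomial.C a)) =
      C.ρ₂ (polyHom C hs (Polynomial.C a))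
    rw [polyHom_C]
    unfold redPoly
    rw [Polynomial.coe_eval₂RingHom, Polynomial.eval₂_C, Chart.ρ₂_apply]
    show algebraMap (ResidueField A) Fb₂ (residue A a) = c₂.ρ ⟨algebraMap K F (a : K), _⟩
    rw [c₂.ρ_algebraMap]
  · show algebraMap (polyRing (ResidueField A) x) Fb₂ (redPoly x ⟨_, hx⟩ Polynomial.X) =
      C.ρ₂ (polyHom C hs Polynomial.X)
    rw [polyHom_X]
    unfold redPoly
    rw [Polynomial.coe_eval₂RingHom, Polynomial.eval₂_X]
    rfl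

end Abstract

variable {p M' : ℕ} [NeZero M'] [NeZero p] {A : ValuationSubring Qbar}

/-- shortcut instance. -/
local instance (priority := high) algebraAFbarN5 : Algebra ↥A ↥(Fbar (M' * p)) := inferInstance

/-- shortcut instance. -/
local instance (priority := high) algebraKFb5 : Algebra (Setup8.kA A) (Fb A M') := inferInstance

variable (h : LevelHyp p M' A)

theorem tA_mem_C0A : tA h ∈ (C0A h).B := self_mem_chart (R := ↥A) (tA h)

theorem tA_inv_mem_C1A : (tA h)⁻¹ ∈ (C1A h).B := self_mem_chart (R := ↥A) (tA h)⁻¹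

theorem tA_ne_zero5 : tA h ≠ 0 := (isGen_tA h).ne_zero

/-- **`ρ₁ t⁻¹ = x₁⁻¹`.** -/
theorem rho1_tA_inv (hm : (tA h)⁻¹ ∈ O1 h) : rho1 h ⟨(tA h)⁻¹, hm⟩ = (xOne h)⁻¹ := by
  rw [← rho1_tA h]
  apply eq_inv_of_mul_eq_one_left
  rw [← map_mul]
  have : (⟨(tA h)⁻¹, hm⟩ : ↥(O1 h)) * ⟨tA h, tA_mem_O1 h⟩ = 1 :=
    Subtype.ext (inv_mul_cancel₀ (tA_ne_zero5 h))
  rw [this, map_one]

/-- **`ρ₂ t⁻¹ = (x₂⁻¹)^p`.** -/
theorem rho2_tA_inv (hm : (tA h)⁻¹ ∈ O2 h) : rho2 h ⟨(tA h)⁻¹, hm⟩ = (xTwo h)⁻¹ ^ p := by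
  rw [inv_pow, ← rho2_tA h]
  apply eq_inv_of_mul_eq_one_left
  rw [← map_mul]
  have : (⟨(tA h)⁻¹, hm⟩ : ↥(O2 h)) * ⟨tA h, tA_mem_O2 h⟩ = 1 :=
    Subtype.ext (inv_mul_cancel₀ (tA_ne_zero5 h))
  rw [this, map_one]

/-- **`int₁₀`**: `ρ₁ (B₀)` is integral over `κ[x₁]`. -/
theorem int₁₀ (b : (C0A h).B) :
    IsIntegral (polyRing (Setup8.kA A) (xOne h)) ((C0A h).ρ₁ b) := by
  refine Chart.isIntegral_ρ₁_of (C0A h) (tA_mem_C0A h) (fun b hb => hb) (xOne h) ?_ b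
  have : (C0A h).ρ₁ ⟨tA h, tA_mem_C0A h⟩ = xOne h := rho1_tA h
  rw [this]
  exact Algebra.self_mem_adjoin_singleton _ _

/-- **`int₂₀`**: `ρ₂ (B₀)` is integral over `κ[x₂]` (`ρ₂ t = x₂^p`). -/
theorem int₂₀ (b : (C0A h).B) :
    IsIntegral (polyRing (Setup8.kA A) (xTwo h)) ((C0A h).ρ₂ b) := by
  refine Chart.isIntegral_ρ₂_of (C0A h) (tA_mem_C0A h) (fun b hb => hb) (xTwo h) ?_ b
  have : (C0A h).ρ₂ ⟨tA h, tA_mem_C0A h⟩ = xTwo h ^ p := rho2_tA h
  rw [this]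
  exact Subalgebra.pow_mem _ (Algebra.self_mem_adjoin_singleton _ _) p

/-- **`int₁₁`**: `ρ₁ (B₁)` is integral over `κ[x₁⁻¹]`. -/
theorem int₁₁ (b : (C1A h).B) :
    IsIntegral (polyRing (Setup8.kA A) (xOne h)⁻¹) ((C1A h).ρ₁ b) := by
  refine Chart.isIntegral_ρ₁_of (C1A h) (tA_inv_mem_C1A h) (fun b hb => hb) (xOne h)⁻¹ ?_ b
  have : (C1A h).ρ₁ ⟨(tA h)⁻¹, tA_inv_mem_C1A h⟩ = (xOne h)⁻¹ :=
    rho1_tA_inv h ((C1A h).le₁ (tA_inv_mem_C1A h))
  rw [this]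
  exact Algebra.self_mem_adjoin_singleton _ _

/-- **`int₂₁`**: `ρ₂ (B₁)` is integral over `κ[x₂⁻¹]` (`ρ₂ t⁻¹ = (x₂⁻¹)^p`). -/
theorem int₂₁ (b : (C1A h).B) :
    IsIntegral (polyRing (Setup8.kA A) (xTwo h)⁻¹) ((C1A h).ρ₂ b) := by
  refine Chart.isIntegral_ρ₂_of (C1A h) (tA_inv_mem_C1A h) (fun b hb => hb) (xTwo h)⁻¹ ?_ b
  have : (C1A h).ρ₂ ⟨(tA h)⁻¹, tA_inv_mem_C1A h⟩ = (xTwo h)⁻¹ ^ p :=
    rho2_tA_inv h ((C1A h).le₂ (tA_inv_mem_C1A h))
  rw [this]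
  exact Subalgebra.pow_mem _ (Algebra.self_mem_adjoin_singleton _ _) p

end Fermat.Agent.T33.ChartInt5
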