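/-
Programme T (S33), chapter (e), block [B-3] (helper4), abstract half, converse direction:
**the closed point of a chart attached to a point of a component** (`Q ↦ χ_Q`).

`ρ : B →+* Fb` with image inside the affine coordinate ring `intRing κ x`, `Q` a place of `Fb` at
which `x` is finite: the character `χ_Q b := (ρ b)(Q)` of `B` satisfies
`ρ b - χ_Q b ∈ vanishing Q`.  For a chart `C` of helper1's `NodalPlaces1`: `χ_Q : C.Pt` with
`C.Val₁ χ_Q Q` (and the mirror statement on the second component).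
-/
import Mathlib
import Fermat.Agent.ES.RED.SpecialFibre13
import Fermat.Agent.T33.NodalPlaces1B

set_option autoImplicit false
set_option linter.unusedSectionVars false
set_option linter.style.haveILetI false
set_option linter.unusedVariables false

open AlgebraicCurve IsLocalRing IntermediateField

noncomputable section

namespace Fermat.Agent.T33.NodalPts4B

open Fermat.Agent.X0.FF Fermat.Agent.ES.RED.SpecialFibre13
  Fermat.Agent.ES.RED.PlaceValue13 Fermat.Agent.T33.NodalCurve6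

section Generic

variable {κ Fb : Type*} [Field κ] [IsAlgClosed κ] [Field Fb] [Algebra κ Fb] {x : Fb}
  (hx : IsGen κ x)
variable {B : Type*} [CommRing B] (ρ : B →+* Fb)

/-- **the character of a place**: `χ_Q b = (ρ b)(Q)`. -/
def ptOfPlace (hint : ∀ b, IsIntegral (polyRing κ x) (ρ b)) (Q : Place κ Fb)
    (hv : x ∈ Q.toValuationSubring) : B →+* κ :=
  (chartPoint hx Q hv).toRingHom.comp (ρ.codRestrict (intRing κ x) hint)

theorem ptOfPlace_apply (hint : ∀ b, IsIntegral (polyRing κ x) (ρ b)) (Q : Place κ Fb)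
    (hv : x ∈ Q.toValuationSubring) (b : B) :
    ptOfPlace hx ρ hint Q hv b = chartPoint hx Q hv ⟨ρ b, hint b⟩ := rfl

/-- the defining property. -/
theorem ptOfPlace_val (hint : ∀ b, IsIntegral (polyRing κ x) (ρ b)) (Q : Place κ Fb)
    (hv : x ∈ Q.toValuationSubring) (b : B) :
    ρ b - algebraMap κ Fb (ptOfPlace hx ρ hint Q hv b) ∈ vanishing Q := by
  have h := (chartPoint_eq_iff hx Q hv ⟨ρ b, hint b⟩ (ptOfPlace hx ρ hint Q hv b)).1 rfl
  rcases h with h | h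
  · left
    rw [sub_eq_zero]
    exact h
  · right
    exact h

/-- constants. -/
theorem ptOfPlace_const (hint : ∀ b, IsIntegral (polyRing κ x) (ρ b)) (Q : Place κ Fb)
    (hv : x ∈ Q.toValuationSubring) {b : B} {c : κ} (hb : ρ b = algebraMap κ Fb c) :
    ptOfPlace hx ρ hint Q hv b = c := by
  rw [ptOfPlace_apply, chartPoint_eq_iff]
  left
  exact hb

end Generic

/-! ### charts -/

section Charts

open Fermat.Agent.T33.NodalCtx1 Fermat.Agent.T33.NodalPlaces1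

variable {K : Type*} [Field K] {A : ValuationSubring K} {F : Type*} [Field F] [Algebra K F]
  {Fb₁ Fb₂ : Type*} [Field Fb₁] [Field Fb₂] [Algebra (ResidueField A) Fb₁]
  [Algebra (ResidueField A) Fb₂] [IsAlgClosed (ResidueField A)]
  {c₁ : HalfRed A F Fb₁} {c₂ : HalfRed A F Fb₂} (C : Chart c₁ c₂)

/-- **the point of the chart under a place of the first component.** -/
def pt₁ {x₁ : Fb₁} (hx : IsGen (ResidueField A) x₁)
    (hint : ∀ b, IsIntegral (polyRing (ResidueField A) x₁) (C.ρ₁ b))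
    (Q : Place (ResidueField A) Fb₁) (hv : x₁ ∈ Q.toValuationSubring) : C.Pt :=
  ⟨ptOfPlace hx C.ρ₁ hint Q hv, fun a => ptOfPlace_const hx C.ρ₁ hint Q hv (c₁.ρ_algebraMap a)⟩

/-- **the point of the chart under a place of the second component.** -/
def pt₂ {x₂ : Fb₂} (hx : IsGen (ResidueField A) x₂)
    (hint : ∀ b, IsIntegral (polyRing (ResidueField A) x₂) (C.ρ₂ b))
    (Q : Place (ResidueField A) Fb₂) (hv : x₂ ∈ Q.toValuationSubring) : C.Pt :=
  ⟨ptOfPlace hx C.ρ₂ hint Q hv, fun a => ptOfPlace_const hx C.ρ₂ hint Q hv (c₂.ρ_algebraMap a)⟩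

theorem val₁_pt₁ {x₁ : Fb₁} (hx : IsGen (ResidueField A) x₁)
    (hint : ∀ b, IsIntegral (polyRing (ResidueField A) x₁) (C.ρ₁ b))
    (Q : Place (ResidueField A) Fb₁) (hv : x₁ ∈ Q.toValuationSubring) :
    C.Val₁ (pt₁ C hx hint Q hv) Q :=
  fun b => ptOfPlace_val hx C.ρ₁ hint Q hv b

theorem val₂_pt₂ {x₂ : Fb₂} (hx : IsGen (ResidueField A) x₂)
    (hint : ∀ b, IsIntegral (polyRing (ResidueField A) x₂) (C.ρ₂ b))
    (Q : Place (ResidueField A) Fb₂) (hv : x₂ ∈ Q.toValuationSubring) :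
    C.Val₂ (pt₂ C hx hint Q hv) Q :=
  fun b => ptOfPlace_val hx C.ρ₂ hint Q hv b

/-- **`Q ↦ χ` on the first component.** -/
theorem exists_pt_val₁ {x₁ : Fb₁} (hx : IsGen (ResidueField A) x₁)
    (hint : ∀ b, IsIntegral (polyRing (ResidueField A) x₁) (C.ρ₁ b))
    (Q : Place (ResidueField A) Fb₁) (hv : x₁ ∈ Q.toValuationSubring) :
    ∃ χ : C.Pt, C.Val₁ χ Q :=
  ⟨pt₁ C hx hint Q hv, val₁_pt₁ C hx hint Q hv⟩

/-- **`Q ↦ χ` on the second component.** -/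
theorem exists_pt_val₂ {x₂ : Fb₂} (hx : IsGen (ResidueField A) x₂)
    (hint : ∀ b, IsIntegral (polyRing (ResidueField A) x₂) (C.ρ₂ b))
    (Q : Place (ResidueField A) Fb₂) (hv : x₂ ∈ Q.toValuationSubring) :
    ∃ χ : C.Pt, C.Val₂ χ Q :=
  ⟨pt₂ C hx hint Q hv, val₂_pt₂ C hx hint Q hv⟩

end Charts

/-! ### two charts: the fibres of `r₁`, `r₂` -/

section Two

open Fermat.Agent.T33.NodalCtx1 Fermat.Agent.T33.NodalPlaces1

variable {K : Type*} [Field K] {A : ValuationSubring K} {F : Type*} [Field F] [Algebra K F]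
  {Fb₁ Fb₂ : Type*} [Field Fb₁] [Field Fb₂] [Algebra (ResidueField A) Fb₁]
  [Algebra (ResidueField A) Fb₂] [IsAlgClosed (ResidueField A)]
  {c₁ : HalfRed A F Fb₁} {c₂ : HalfRed A F Fb₂} (T : TwoCharts c₁ c₂)

omit [IsAlgClosed (ResidueField A)] in
/-- a pole of `x` is a zero of every positive power of `x⁻¹`. -/
theorem ord_inv_pow_pos {Fb : Type*} [Field Fb] [Algebra (ResidueField A) Fb]
    (Q : Place (ResidueField A) Fb) {x : Fb} (hx0 : x ≠ 0) (hv : x ∉ Q.toValuationSubring)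
    {m : ℕ} (hm : 0 < m) : 0 < Q.ord ((x⁻¹) ^ m) := by
  have h1 : Q.ord x < 0 := by
    by_contra hge
    exact hv (mem_of_ord_nonneg Q (not_lt.1 hge))
  have h2 : Q.ord x⁻¹ = - Q.ord x := Q.ord_inv x
  have h3 : Q.ord ((x⁻¹) ^ m) = m * Q.ord x⁻¹ := Fermat.Agent.X0.FF.ord_pow Q x⁻¹ m
  rw [h3, h2]
  have : (0 : ℤ) < m := by exact_mod_cast hm
  nlinarith

/-- **the fibre of `r₁` over a point of the first component**, in the chart `0` (`x₁` finite at
`Q`) or in the chart `1` at `t = ∞` (`x₁` has a pole at `Q`).  `m` is the exponent with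
`ρ₁ t⁻¹ = x₁⁻ᵐ`. -/
theorem fibre₁ {x₁ : Fb₁} (hx : IsGen (ResidueField A) x₁)
    (hint₀ : ∀ b, IsIntegral (polyRing (ResidueField A) x₁) (T.C0.ρ₁ b))
    (hint₁ : ∀ b, IsIntegral (polyRing (ResidueField A) x₁⁻¹) (T.C1.ρ₁ b))
    {m : ℕ} (hm : 0 < m) (hs : T.C1.ρ₁ T.s1 = (x₁⁻¹) ^ m)
    (Q : Place (ResidueField A) Fb₁) :
    (∃ χ : T.C0.Pt, T.C0.Val₁ χ Q ∧
      ∀ P : Place K F, T.r₁ P = some Q ↔ T.Fin0 P ∧ T.C0.Centred P χ) ∨
    (∃ χ : T.C1.Pt, χ T.s1 = 0 ∧ T.C1.Val₁ χ Q ∧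
      ∀ P : Place K F, T.r₁ P = some Q ↔ ¬ T.Fin0 P ∧ T.C1.Centred P χ) := by
  by_cases hv : x₁ ∈ Q.toValuationSubring
  · left
    exact ⟨pt₁ T.C0 hx hint₀ Q hv, val₁_pt₁ T.C0 hx hint₀ Q hv,
      T.r₁_eq_some_iff₀ (val₁_pt₁ T.C0 hx hint₀ Q hv)⟩
  · right
    have hv' : x₁⁻¹ ∈ Q.toValuationSubring :=
      (Q.toValuationSubring.mem_or_inv_mem x₁).resolve_left hv
    have hx' := isGen_inv hx
    have hx0 : x₁ ≠ 0 := by
      rintro rfl
      exact hv (zero_mem _)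
    have hχs : (pt₁ T.C1 hx' hint₁ Q hv') T.s1 = 0 := by
      show ptOfPlace hx' T.C1.ρ₁ hint₁ Q hv' T.s1 = 0
      rw [ptOfPlace_apply, chartPoint_eq_iff]
      right
      rw [map_zero, sub_zero]
      show 0 < Q.ord (T.C1.ρ₁ T.s1)
      rw [hs]
      exact ord_inv_pow_pos Q hx0 hv hm
    exact ⟨pt₁ T.C1 hx' hint₁ Q hv', hχs, val₁_pt₁ T.C1 hx' hint₁ Q hv',
      T.r₁_eq_some_iff₁ hχs (val₁_pt₁ T.C1 hx' hint₁ Q hv')⟩

/-- **the fibre of `r₂` over a point of the second component.** -/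
theorem fibre₂ {x₂ : Fb₂} (hx : IsGen (ResidueField A) x₂)
    (hint₀ : ∀ b, IsIntegral (polyRing (ResidueField A) x₂) (T.C0.ρ₂ b))
    (hint₁ : ∀ b, IsIntegral (polyRing (ResidueField A) x₂⁻¹) (T.C1.ρ₂ b))
    {m : ℕ} (hm : 0 < m) (hs : T.C1.ρ₂ T.s1 = (x₂⁻¹) ^ m)
    (Q : Place (ResidueField A) Fb₂) :
    (∃ χ : T.C0.Pt, T.C0.Val₂ χ Q ∧
      ∀ P : Place K F, T.r₂ P = some Q ↔ T.Fin0 P ∧ T.C0.Centred P χ) ∨
    (∃ χ : T.C1.Pt, χ T.s1 = 0 ∧ T.C1.Val₂ χ Q ∧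
      ∀ P : Place K F, T.r₂ P = some Q ↔ ¬ T.Fin0 P ∧ T.C1.Centred P χ) := by
  by_cases hv : x₂ ∈ Q.toValuationSubring
  · left
    exact ⟨pt₂ T.C0 hx hint₀ Q hv, val₂_pt₂ T.C0 hx hint₀ Q hv,
      T.r₂_eq_some_iff₀ (val₂_pt₂ T.C0 hx hint₀ Q hv)⟩
  · right
    have hv' : x₂⁻¹ ∈ Q.toValuationSubring :=
      (Q.toValuationSubring.mem_or_inv_mem x₂).resolve_left hv
    have hx' := isGen_inv hx
    have hx0 : x₂ ≠ 0 := by
      rintro rfl
      exact hv (zero_mem _)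
    have hχs : (pt₂ T.C1 hx' hint₁ Q hv') T.s1 = 0 := by
      show ptOfPlace hx' T.C1.ρ₂ hint₁ Q hv' T.s1 = 0
      rw [ptOfPlace_apply, chartPoint_eq_iff]
      right
      rw [map_zero, sub_zero]
      show 0 < Q.ord (T.C1.ρ₂ T.s1)
      rw [hs]
      exact ord_inv_pow_pos Q hx0 hv hm
    exact ⟨pt₂ T.C1 hx' hint₁ Q hv', hχs, val₂_pt₂ T.C1 hx' hint₁ Q hv',
      T.r₂_eq_some_iff₁ hχs (val₂_pt₂ T.C1 hx' hint₁ Q hv')⟩

end Two

end Fermat.Agent.T33.NodalPts4B
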