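/-
T33/PushLoc9B (helper9): Programme T (S33), nodal layer, chapter (e), block PUSH, layer (P-loc),
second ABSTRACT part: **`PushLoc9.PointData` from a system of finite levels of the local ring of the
model at the point** (the level system of `ES/RED/LevelPeel22`, whose output is (VAL) and (PEEL-a)).

Setting of `T33/PushLoc9A`: `c : HalfRed A F Fb`, `X : PointChart c` (chart ring `B₀ ⊆ c.O`, closed
point `χ : B₀ →+* κ` on the component), `X.Bx` the local ring of the model at the point.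
* `X.valA H hP : X.Bx →+* A` — the value at a place `P` through the point (`valA_eq_zero_iff`,
  `residue_valA`, `valA_const`);
* `IsLevelData X Bk π` — a directed family of noetherian local subrings `Bk i ⊆ X.Bx` (the images of
  the local rings of the finite-level models) with uniformising constants `π i ∈ 𝔪_A`, in ELEMENTWISE
  form: (L0) every finite list of `X.Bx` lies in some `Bk i`; local (`χx b ≠ 0 → b⁻¹ ∈ Bk i`);
  smooth (`𝔪 (Bk i) = (π i, s)`); (L3) `ρ b = 0 → π i ∣ b` in `Bk i`;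
* `IsLevelData.sat` — strong saturation of the local ring (Krull intersection at one level + (L3));
* `IsLevelData.levelSystem` — the `LevelPeel22.LevelSystem` of the data at a place through the point;
* `IsLevelData.mem_or_inv_mem` — (VAL): the reduced local ring is a valuation ring of `Fb`;
* `hQ_of_val` — `O_Q` = the reduced local ring, from (VAL) and the value compatibility
  `(ρ b)(Q) = χ b` on the chart;
* `IsLevelData.peelA` — (PEEL-a) in the shape of `PointData.peelA`;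
* **`pointData_of_levels`** — `PointData X Q` from the level data, the value compatibility at `Q`,
  `F = Frac B₀`, `Fb = Frac (ρ O)`, (LR), and one place through the point;
  `nonempty_S_of_lr` — a place through the point exists, from (LR) and one non-unit of the local
  ring with nonzero reduction.
-/
import Mathlib
import Fermat.Agent.T33.PushLoc9A
import Fermat.Agent.ES.RED.LevelPeel22
import Fermat.Agent.FF.RedLat2A

set_option autoImplicit false
set_option linter.unusedSectionVars false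
set_option linter.style.haveILetI false

open AlgebraicCurve IsLocalRing

noncomputable section

namespace Fermat.Agent.T33.PushLoc9

open Fermat.Agent.T33.NodalCtx1 Fermat.Agent.T33.NodalAbs1A Fermat.Agent.T33.NodalAbs1B
  Fermat.Agent.T33.PushPeel0 Fermat.Agent.FF.GaussOv1 Fermat.Agent.X0.FF
  Fermat.Agent.RR.LSpace Fermat.Agent.FF.RedLat2 Fermat.Agent.ES.RED.LevelPeel22

variable {K : Type*} [Field K] {A : ValuationSubring K}
variable {F : Type*} [Field F] [Algebra K F]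
variable {Fb : Type*} [Field Fb] [Algebra (ResidueField A) Fb]

namespace PointChart

variable {c : HalfRed A F Fb} (X : PointChart c)

/-! ### the value at a place through the point -/

/-- the local ring of the model at the point lies in the valuation ring of a place through it. -/
def toPlace {P : Place K F} (hP : P ∈ X.S) : X.Bx →+* P.toValuationSubring where
  toFun y := ⟨(y : F), X.mem_place hP y.2⟩
  map_one' := rfl
  map_mul' _ _ := rfl
  map_zero' := rfl
  map_add' _ _ := rfl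

theorem valueAt_toPlace (H : LHyp K F) {P : Place K F} (hP : P ∈ X.S) (y : X.Bx) :
    ∃ a : A, valueAt H P (X.toPlace hP y) = (a : K) ∧ X.χx y = residue A a := by
  obtain ⟨a, ha, hχ⟩ := X.exists_value H hP y
  exact ⟨a, (valueAt_eq_iff H P _ _).2 ha, hχ⟩

/-- **the value at a place through the point**, with values in `A`. -/
def valA (H : LHyp K F) {P : Place K F} (hP : P ∈ X.S) : X.Bx →+* A :=
  RingHom.codRestrict ((valueAt H P).comp (X.toPlace hP)) A (fun y => by
    obtain ⟨a, ha, -⟩ := X.valueAt_toPlace H hP y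
    show valueAt H P (X.toPlace hP y) ∈ A
    rw [ha]
    exact a.2)

theorem coe_valA (H : LHyp K F) {P : Place K F} (hP : P ∈ X.S) (y : X.Bx) :
    ((X.valA H hP y : A) : K) = valueAt H P (X.toPlace hP y) := rfl

theorem residue_valA (H : LHyp K F) {P : Place K F} (hP : P ∈ X.S) (y : X.Bx) :
    residue A (X.valA H hP y) = X.χx y := by
  obtain ⟨a, ha, hχ⟩ := X.valueAt_toPlace H hP y
  have : X.valA H hP y = a := Subtype.ext (by rw [coe_valA, ha])
  rw [this, hχ]

theorem valA_eq_zero_iff (H : LHyp K F) {P : Place K F} (hP : P ∈ X.S) (y : X.Bx) :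
    X.valA H hP y = 0 ↔ ((y : F) = 0 ∨ 0 < P.ord (y : F)) := by
  have h1 := valueAt_eq_zero_iff H P (X.toPlace hP y)
  have h2 : ((X.toPlace hP y : P.toValuationSubring) : F) = (y : F) := rfl
  rw [h2] at h1
  rw [← h1, ← coe_valA]
  constructor
  · intro h
    rw [h]
    rfl
  · intro h
    exact Subtype.ext h

/-- the constants, as a ring homomorphism to the local ring. -/
def constHom : A →+* X.Bx :=
  RingHom.codRestrict ((algebraMap K F).comp A.subtype) X.Bx (fun a => X.const_mem_Bx a)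

theorem coe_constHom (a : A) : ((X.constHom a : X.Bx) : F) = algebraMap K F (a : K) := rfl

theorem valA_constHom (H : LHyp K F) {P : Place K F} (hP : P ∈ X.S) (a : A) :
    X.valA H hP (X.constHom a) = a := by
  apply Subtype.ext
  rw [coe_valA]
  exact valueAt_algebraMap H P (a : K)

theorem χx_constHom (a : A) : X.χx (X.constHom a) = residue A a := X.χx_const a

theorem ρx_constHom (a : A) :
    X.ρx (X.constHom a) = algebraMap (ResidueField A) Fb (residue A a) :=
  c.ρ_algebraMap a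

/-- the local ring as an `A`-algebra. -/
@[reducible] def algebraBx : Algebra A X.Bx := X.constHom.toAlgebra

end PointChart

/-! ### the level data -/

/-- **a system of finite levels of the local ring of the model at the point**, elementwise form:
`Bk i ⊆ X.Bx` noetherian local subrings with uniformising constants `π i`. -/
structure IsLevelData {c : HalfRed A F Fb} (X : PointChart c) {I : Type*} (Bk : I → Subring F)
    (π : I → A) : Prop where
  Bk_le : ∀ i, Bk i ≤ X.Bx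
  /-- (L0) -/
  exists_level : ∀ S : List X.Bx, ∃ i, ∀ b ∈ S, (b : F) ∈ Bk i
  π_ne : ∀ i, π i ≠ 0
  π_mem : ∀ i, π i ∈ maximalIdeal A
  const_π_mem : ∀ i, algebraMap K F (π i : K) ∈ Bk i
  noeth : ∀ i, IsNoetherianRing (Bk i)
  /-- the levels are local rings. -/
  inv_mem : ∀ i (b : X.Bx), (b : F) ∈ Bk i → X.χx b ≠ 0 → ((b : F))⁻¹ ∈ Bk i
  /-- smoothness: `𝔪 (Bk i) = (π i, s)`. -/
  smooth : ∀ i, ∃ s : X.Bx, (s : F) ∈ Bk i ∧ X.χx s = 0 ∧ ∀ y : X.Bx, (y : F) ∈ Bk i →
    X.χx y = 0 → ∃ a ∈ Bk i, ∃ b ∈ Bk i, (y : F) = a * algebraMap K F (π i : K) + b * (s : F)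
  /-- (L3): the kernel of the reduction is generated by `π i`. -/
  L3 : ∀ i (b : X.Bx), (b : F) ∈ Bk i → X.ρx b = 0 →
    ∃ b' ∈ Bk i, (b : F) = algebraMap K F (π i : K) * b'

namespace IsLevelData

variable {c : HalfRed A F Fb} {X : PointChart c} {I : Type*} {Bk : I → Subring F} {π : I → A}
  (L : IsLevelData X Bk π)

/-- the level maps. -/
def ι (i : I) : Bk i →+* X.Bx := Subring.inclusion (L.Bk_le i)

/-- the uniformiser at the level `i`. -/
def πk (i : I) : Bk i := ⟨algebraMap K F (π i : K), L.const_π_mem i⟩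

theorem coe_ι (i : I) (b : Bk i) : ((L.ι i b : X.Bx) : F) = (b : F) := rfl

include L

theorem ι_πk (i : I) : L.ι i (L.πk i) = X.constHom (π i) := rfl

theorem ρx_const_π (i : I) : X.ρx (X.constHom (π i)) = 0 := by
  rw [X.ρx_constHom, (residue_eq_zero_iff _).2 (L.π_mem i), map_zero]

theorem χx_const_π (i : I) : X.χx (X.constHom (π i)) = 0 := by
  rw [X.χx_constHom, (residue_eq_zero_iff _).2 (L.π_mem i)]

theorem not_isUnit_πk (i : I) : ¬ IsUnit (L.πk i) := by
  intro hu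
  have h1 : IsUnit (X.χx (L.ι i (L.πk i))) := (hu.map (L.ι i)).map X.χx
  rw [L.ι_πk, L.χx_const_π] at h1
  exact not_isUnit_zero h1

theorem πk_dvd_iff (i : I) (b : Bk i) : L.πk i ∣ b ↔ X.ρx (L.ι i b) = 0 := by
  constructor
  · rintro ⟨b', rfl⟩
    rw [map_mul, map_mul, L.ι_πk, L.ρx_const_π, zero_mul]
  · intro h
    obtain ⟨b', hb', e⟩ := L.L3 i (L.ι i b) b.2 h
    exact ⟨⟨b', hb'⟩, Subtype.ext e⟩

/-- **(SAT)**: strong saturation of the local ring of the model at the point. -/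
theorem sat (b : X.Bx) (hb : (b : F) ≠ 0) : ∃ (a : A) (b' : X.Bx),
    (b : F) = algebraMap K F (a : K) * (b' : F) ∧ X.ρx b' ≠ 0 := by
  obtain ⟨i, hi⟩ := L.exists_level [b]
  have hbi : (b : F) ∈ Bk i := hi b (by simp)
  haveI := L.noeth i
  have hb0 : (⟨(b : F), hbi⟩ : Bk i) ≠ 0 := fun h0 => hb (congrArg Subtype.val h0)
  obtain ⟨n, a', hndvd, e⟩ := WfDvdMonoid.max_power_factor' hb0 (L.not_isUnit_πk i)
  refine ⟨π i ^ n, L.ι i a', ?_, ?_⟩
  · have h1 : (b : F) = ((L.πk i ^ n * a' : Bk i) : F) := congrArg (fun z : Bk i => (z : F)) e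
    have h2 : ((L.πk i ^ n * a' : Bk i) : F) =
        algebraMap K F ((π i ^ n : A) : K) * ((L.ι i a' : X.Bx) : F) := by
      have h3 : ((π i ^ n : A) : K) = (π i : K) ^ n := rfl
      rw [h3, map_pow]
      rfl
    exact h1.trans h2
  · intro h0
    exact hndvd ((L.πk_dvd_iff i a').2 h0)

/-- the composite `res ∘ val` is the residue map of the local ring. -/
theorem chi_eq (H : LHyp K F) {P : Place K F} (hP : P ∈ X.S) :
    chi (residue A) (X.valA H hP) = X.χx :=
  RingHom.ext fun y => X.residue_valA H hP y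

/-- **the level system of `ES/RED/LevelPeel22`** at a place through the point. -/
theorem levelSystem (H : LHyp K F) {P : Place K F} (hP : P ∈ X.S)
    (hL4 : ∀ y : Fb, ∃ a b : X.Bx, X.ρx b ≠ 0 ∧ y * X.ρx b = X.ρx a) :
    letI := X.algebraBx
    LevelSystem (residue A) (X.valA H hP) X.ρx (fun i => ↥(Bk i)) L.ι L.πk := by
  letI := X.algebraBx
  have hchi := L.chi_eq H hP
  have hxK : ∀ (i : I) (b : Bk i), b ∈ xK (residue A) (X.valA H hP) (fun i => ↥(Bk i)) L.ι i ↔
      X.χx (L.ι i b) = 0 := by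
    intro i b
    rw [mem_xK_iff, hchi]
  refine
    { val_algebraMap := fun a => X.valA_constHom H hP a
      red_algebraMap := ?_
      inj := fun i => Subring.inclusion_injective _
      L0 := ?_
      noeth := L.noeth
      val_pi := ?_
      chi_pi := ?_
      isMax := ?_
      smooth := ?_
      L3 := ?_
      L4 := hL4 }
  · intro a ha
    show X.ρx (X.constHom a) = 0
    rw [X.ρx_constHom, ha, map_zero]
  · intro S
    obtain ⟨i, hi⟩ := L.exists_level S
    exact ⟨i, fun b hb => ⟨⟨(b : F), hi b hb⟩, Subtype.ext rfl⟩⟩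
  · intro i
    rw [L.ι_πk, X.valA_constHom]
    exact L.π_ne i
  · intro i
    rw [hchi, L.ι_πk]
    exact L.χx_const_π i
  · intro i
    rw [Ideal.isMaximal_iff]
    constructor
    · rw [hxK, map_one, map_one]
      exact one_ne_zero
    · intro J x _ hx hxJ
      rw [hxK] at hx
      have hinv := L.inv_mem i (L.ι i x) x.2 hx
      have hx0 : (x : F) ≠ 0 := by
        intro h0
        apply hx
        have : x = 0 := Subtype.ext h0
        rw [this, map_zero, map_zero]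
      have h1 : (1 : Bk i) = (⟨((x : F))⁻¹, hinv⟩ : Bk i) * x :=
        Subtype.ext (inv_mul_cancel₀ hx0).symm
      rw [h1]
      exact J.mul_mem_left _ hxJ
  · intro i
    obtain ⟨s, hs, hχs, hgen⟩ := L.smooth i
    refine ⟨⟨(s : F), hs⟩, (hxK i _).2 hχs, ?_⟩
    intro y hy
    refine ⟨1, ?_, ?_⟩
    · rw [hxK, map_one, map_one]
      exact one_ne_zero
    · obtain ⟨a, ha, b, hb, e⟩ := hgen (L.ι i y) y.2 ((hxK i y).1 hy)
      rw [one_mul, Ideal.mem_span_pair]
      exact ⟨⟨a, ha⟩, ⟨b, hb⟩, Subtype.ext e.symm⟩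
  · intro i b
    exact (L.πk_dvd_iff i b).symm

end IsLevelData

/-! ### (FRAC) + (SAT) ⟹ fractions with nonzero reductions -/

section Frac

variable {c : HalfRed A F Fb} (X : PointChart c)

/-- every element of the Gauss ring with nonzero reduction is a fraction of elements of the local
ring with nonzero reductions (`PointData.exists_frac` with explicit hypotheses). -/
theorem exists_frac_of_sat
    (hfrac : ∀ y : F, ∃ a b : X.B₀, (b : F) ≠ 0 ∧ y * (b : F) = (a : F))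
    (hsat : ∀ b : X.Bx, (b : F) ≠ 0 → ∃ (a : A) (b' : X.Bx),
      (b : F) = algebraMap K F (a : K) * (b' : F) ∧ X.ρx b' ≠ 0)
    (y : c.O) (hy : c.ρ y ≠ 0) :
    ∃ a d : X.Bx, X.ρx a ≠ 0 ∧ X.ρx d ≠ 0 ∧ (y : F) * (d : F) = (a : F) := by
  have hy0 : (y : F) ≠ 0 := by
    intro h0
    apply hy
    have : y = 0 := Subtype.ext h0
    rw [this, map_zero]
  obtain ⟨a₀, b, hb0, e⟩ := hfrac (y : F)
  have ha₀F : (a₀ : F) ≠ 0 := by
    rw [← e]
    exact mul_ne_zero hy0 hb0
  obtain ⟨α, b', eb, hb'⟩ := hsat ⟨(b : F), X.B₀_le_Bx b.2⟩ hb0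
  obtain ⟨α', a', ea, ha'⟩ := hsat ⟨(a₀ : F), X.B₀_le_Bx a₀.2⟩ ha₀F
  have eb' : (b : F) = algebraMap K F (α : K) * (b' : F) := eb
  have ea' : (a₀ : F) = algebraMap K F (α' : K) * (a' : F) := ea
  have hα0 : (α : K) ≠ 0 := by
    intro h0
    apply hb0
    rw [eb', h0, map_zero, zero_mul]
  have hα'0 : (α' : K) ≠ 0 := by
    intro h0
    apply ha₀F
    rw [ea', h0, map_zero, zero_mul]
  have hαF : algebraMap K F (α : K) ≠ 0 := by rwa [ne_eq, _root_.map_eq_zero]
  have hyb' : (y : F) * (b' : F) ∈ c.O := c.O.mul_mem y.2 (X.Bx_le b'.2)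
  have hρyb' : c.ρ ⟨(y : F) * (b' : F), hyb'⟩ ≠ 0 := by
    have : (⟨(y : F) * (b' : F), hyb'⟩ : c.O) = y * ⟨(b' : F), X.Bx_le b'.2⟩ := rfl
    rw [this, map_mul]
    exact mul_ne_zero hy hb'
  have key : (y : F) * (b' : F) = algebraMap K F ((α' : K) / (α : K)) * (a' : F) := by
    have h1 : algebraMap K F (α : K) * ((y : F) * (b' : F)) =
        algebraMap K F (α' : K) * (a' : F) := by
      rw [← ea', ← e, eb']
      ring
    rw [map_div₀, div_mul_eq_mul_div, eq_div_iff hαF, ← h1]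
    ring
  by_cases ht : (α' : K) / (α : K) ∈ A
  · refine ⟨⟨algebraMap K F ((⟨_, ht⟩ : A) : K), X.const_mem_Bx _⟩ * a', b', ?_, hb', ?_⟩
    · have : X.ρx (⟨algebraMap K F ((⟨_, ht⟩ : A) : K), X.const_mem_Bx _⟩ * a') =
          c.ρ ⟨(y : F) * (b' : F), hyb'⟩ := by
        rw [PointChart.ρx_apply]
        congr 1
        exact Subtype.ext key.symm
      rw [this]
      exact hρyb'
    · exact key
  · exfalso
    have hinv : ((α' : K) / (α : K))⁻¹ ∈ A := (A.mem_or_inv_mem _).resolve_left ht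
    have hmax : (⟨((α' : K) / (α : K))⁻¹, hinv⟩ : A) ∈ maximalIdeal A :=
      mem_maximalIdeal_of_inv_not_mem hinv (by rwa [inv_inv])
    have ht0 : (α' : K) / (α : K) ≠ 0 := div_ne_zero hα'0 hα0
    have e2 : (a' : F) = algebraMap K F ((α' : K) / (α : K))⁻¹ * ((y : F) * (b' : F)) := by
      rw [key, ← mul_assoc, ← map_mul, inv_mul_cancel₀ ht0, map_one, one_mul]
    apply ha'
    have h3 := ρ_mul_const c hinv hyb'
    rw [(residue_eq_zero_iff _).2 hmax, map_zero, zero_mul] at h3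
    rw [PointChart.ρx_apply, ← h3]
    congr 1
    exact Subtype.ext e2

/-- (L4) of the level system: `Fb` is the fraction field of the reductions of the local ring. -/
theorem exists_ρx_frac
    (hfrac : ∀ y : F, ∃ a b : X.B₀, (b : F) ≠ 0 ∧ y * (b : F) = (a : F))
    (hsat : ∀ b : X.Bx, (b : F) ≠ 0 → ∃ (a : A) (b' : X.Bx),
      (b : F) = algebraMap K F (a : K) * (b' : F) ∧ X.ρx b' ≠ 0)
    (hFb : ∀ y : Fb, ∃ g h : c.O, c.ρ h ≠ 0 ∧ y * c.ρ h = c.ρ g) (y : Fb) :
    ∃ a b : X.Bx, X.ρx b ≠ 0 ∧ y * X.ρx b = X.ρx a := by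
  obtain ⟨g, h, hh, e⟩ := hFb y
  by_cases hg : c.ρ g = 0
  · refine ⟨0, 1, by rw [map_one]; exact one_ne_zero, ?_⟩
    rw [map_one, mul_one, map_zero]
    rw [hg] at e
    exact (mul_eq_zero.1 e).resolve_right hh
  obtain ⟨a₁, d₁, ha₁, hd₁, e₁⟩ := exists_frac_of_sat X hfrac hsat g hg
  obtain ⟨a₂, d₂, ha₂, hd₂, e₂⟩ := exists_frac_of_sat X hfrac hsat h hh
  have r₁ : c.ρ g * X.ρx d₁ = X.ρx a₁ := by
    rw [PointChart.ρx_apply, PointChart.ρx_apply, ← map_mul]
    exact congrArg c.ρ (Subtype.ext e₁)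
  have r₂ : c.ρ h * X.ρx d₂ = X.ρx a₂ := by
    rw [PointChart.ρx_apply, PointChart.ρx_apply, ← map_mul]
    exact congrArg c.ρ (Subtype.ext e₂)
  refine ⟨a₁ * d₂, d₁ * a₂, by rw [map_mul]; exact mul_ne_zero hd₁ ha₂, ?_⟩
  rw [map_mul, map_mul, ← r₁, ← r₂, ← e]
  ring

end Frac

/-! ### (VAL) and the identification of `O_Q` -/

namespace IsLevelData

variable {c : HalfRed A F Fb} {X : PointChart c} {I : Type*} {Bk : I → Subring F} {π : I → A}
  (L : IsLevelData X Bk π)

include L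

/-- **(VAL)**: the reduced local ring of the model at the point is a valuation ring of `Fb`. -/
theorem mem_or_inv_mem (H : LHyp K F) (hne : X.S.Nonempty)
    (hL4 : ∀ y : Fb, ∃ a b : X.Bx, X.ρx b ≠ 0 ∧ y * X.ρx b = X.ρx a) (y : Fb) :
    (∃ a d : X.Bx, X.χx d ≠ 0 ∧ y * X.ρx d = X.ρx a) ∨
      ∃ a d : X.Bx, X.χx d ≠ 0 ∧ y⁻¹ * X.ρx d = X.ρx a := by
  obtain ⟨P, hP⟩ := hne
  letI := X.algebraBx
  have hLS := L.levelSystem H hP hL4
  have hchi := L.chi_eq H hP
  rcases hLS.mem_or_inv_mem y with ⟨a, d, hd, e⟩ | ⟨a, d, hd, e⟩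
  · left
    rw [hchi] at hd
    exact ⟨a, d, hd, e⟩
  · right
    rw [hchi] at hd
    exact ⟨a, d, hd, e⟩

end IsLevelData

section Val

variable {c : HalfRed A F Fb} (X : PointChart c) (Q : Place (ResidueField A) Fb)

/-- the value compatibility on the chart: `(ρ b)(Q) = χ b`. -/
def ValueCompat : Prop :=
  ∀ b : X.B₀, c.ρ ⟨(b : F), X.le b.2⟩ = algebraMap (ResidueField A) Fb (X.χ b) ∨
    0 < Q.ord (c.ρ ⟨(b : F), X.le b.2⟩ - algebraMap (ResidueField A) Fb (X.χ b))

variable {X Q}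

theorem ValueCompat.ord_nonneg (h : ValueCompat X Q) (b : X.B₀) :
    0 ≤ Q.ord (c.ρ ⟨(b : F), X.le b.2⟩) := by
  rcases h b with h1 | h1
  · rw [h1, ord_algebraMap]
  · by_contra hneg
    rw [not_le] at hneg
    have hne : c.ρ ⟨(b : F), X.le b.2⟩ ≠ 0 := by
      intro h0
      rw [h0, Place.ord_zero] at hneg
      exact lt_irrefl _ hneg
    have h2 : Q.ord (c.ρ ⟨(b : F), X.le b.2⟩ +
        -algebraMap (ResidueField A) Fb (X.χ b)) = Q.ord (c.ρ ⟨(b : F), X.le b.2⟩) :=
      ord_add_eq_of_lt Q hne (by rw [ord_neg, ord_algebraMap]; exact hneg)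
    rw [← sub_eq_add_neg] at h2
    omega

theorem ValueCompat.ord_eq_zero (h : ValueCompat X Q) (b : X.B₀) (hb : X.χ b ≠ 0) :
    c.ρ ⟨(b : F), X.le b.2⟩ ≠ 0 ∧ Q.ord (c.ρ ⟨(b : F), X.le b.2⟩) = 0 := by
  have hcne : algebraMap (ResidueField A) Fb (X.χ b) ≠ 0 := by
    rwa [ne_eq, _root_.map_eq_zero]
  rcases h b with h1 | h1
  · rw [h1]
    exact ⟨hcne, ord_algebraMap Q _⟩
  · have h2 : c.ρ ⟨(b : F), X.le b.2⟩ = algebraMap (ResidueField A) Fb (X.χ b) +
        (c.ρ ⟨(b : F), X.le b.2⟩ - algebraMap (ResidueField A) Fb (X.χ b)) := by ring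
    have h3 : Q.ord (c.ρ ⟨(b : F), X.le b.2⟩) = 0 := by
      rw [h2, ord_add_eq_of_lt Q hcne (by rw [ord_algebraMap]; exact h1), ord_algebraMap]
    refine ⟨?_, h3⟩
    intro h0
    rw [h0, zero_sub, ord_neg, ord_algebraMap] at h1
    exact lt_irrefl _ h1

theorem ValueCompat.ord_pos (h : ValueCompat X Q) (b : X.B₀) (hb : X.χ b = 0) :
    c.ρ ⟨(b : F), X.le b.2⟩ = 0 ∨ 0 < Q.ord (c.ρ ⟨(b : F), X.le b.2⟩) := by
  have := h b
  rwa [hb, map_zero, sub_zero] at this

/-- orders of the reductions of the local ring, from the value compatibility on the chart. -/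
theorem ValueCompat.ordx (h : ValueCompat X Q) (b : X.Bx) :
    0 ≤ Q.ord (X.ρx b) ∧ (X.χx b ≠ 0 → X.ρx b ≠ 0 ∧ Q.ord (X.ρx b) = 0) ∧
      (X.χx b = 0 → X.ρx b = 0 ∨ 0 < Q.ord (X.ρx b)) := by
  obtain ⟨a, d, hd, hbd, hχ⟩ := exists_num_den X.B₀ X.χ b
  have hχ' : X.χx b = X.χ a / X.χ d := hχ
  have hmul := X.ρx_mul_eq b a d hbd
  obtain ⟨hρd, hordd⟩ := h.ord_eq_zero d hd
  have horda := h.ord_nonneg a
  by_cases hb0 : X.ρx b = 0
  · refine ⟨by rw [hb0, Place.ord_zero], fun hne => ?_, fun _ => Or.inl hb0⟩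
    exfalso
    have hχa : X.χ a ≠ 0 := by
      intro h0
      apply hne
      rw [hχ', h0, zero_div]
    have := (h.ord_eq_zero a hχa).1
    rw [← hmul, hb0, zero_mul] at this
    exact this rfl
  · have hord : Q.ord (X.ρx b) + Q.ord (c.ρ ⟨(d : F), X.le d.2⟩) =
        Q.ord (c.ρ ⟨(a : F), X.le a.2⟩) := by
      rw [← Q.ord_mul hb0 hρd, hmul]
    refine ⟨by omega, fun hne => ⟨hb0, ?_⟩, fun h0 => Or.inr ?_⟩
    · have hχa : X.χ a ≠ 0 := by
        intro h0
        apply hne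
        rw [hχ', h0, zero_div]
      have := (h.ord_eq_zero a hχa).2
      omega
    · have hχa : X.χ a = 0 := by
        rw [hχ'] at h0
        exact (div_eq_zero_iff.1 h0).resolve_right hd
      rcases h.ord_pos a hχa with h1 | h1
      · exfalso
        rw [← hmul] at h1
        exact mul_ne_zero hb0 hρd h1
      · omega

/-- chart form and local-ring form of the reduced local ring. -/
theorem exists_chart_iff_exists_loc (X : PointChart c) (y : Fb) :
    (∃ a d : X.B₀, X.χ d ≠ 0 ∧ y * c.ρ ⟨(d : F), X.le d.2⟩ = c.ρ ⟨(a : F), X.le a.2⟩) ↔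
      ∃ a d : X.Bx, X.χx d ≠ 0 ∧ y * X.ρx d = X.ρx a := by
  constructor
  · rintro ⟨a, d, hd, e⟩
    exact ⟨⟨(a : F), X.B₀_le_Bx a.2⟩, ⟨(d : F), X.B₀_le_Bx d.2⟩, by rw [X.χx_coe]; exact hd, e⟩
  · rintro ⟨a, d, hd, e⟩
    obtain ⟨an, ad, had, ha, -⟩ := exists_num_den X.B₀ X.χ a
    obtain ⟨dn, dd, hdd, hdn, hχd⟩ := exists_num_den X.B₀ X.χ d
    have hχd' : X.χx d = X.χ dn / X.χ dd := hχd
    have hχdn : X.χ dn ≠ 0 := by
      intro h0
      apply hd
      rw [hχd', h0, zero_div]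
    have r₁ := X.ρx_mul_eq a an ad ha
    have r₂ := X.ρx_mul_eq d dn dd hdn
    refine ⟨an * dd, dn * ad, by rw [map_mul]; exact mul_ne_zero hχdn had, ?_⟩
    have e1 : (⟨((dn * ad : X.B₀) : F), X.le (dn * ad).2⟩ : c.O) =
        ⟨(dn : F), X.le dn.2⟩ * ⟨(ad : F), X.le ad.2⟩ := rfl
    have e2 : (⟨((an * dd : X.B₀) : F), X.le (an * dd).2⟩ : c.O) =
        ⟨(an : F), X.le an.2⟩ * ⟨(dd : F), X.le dd.2⟩ := rfl
    rw [e1, e2, map_mul, map_mul, ← r₁, ← r₂, ← e]
    ring

/-- **`O_Q` is the reduced local ring of the model at the point** (local-ring form), from (VAL)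
and the value compatibility. -/
theorem hQx_of_val (h : ValueCompat X Q)
    (hval : ∀ y : Fb, (∃ a d : X.Bx, X.χx d ≠ 0 ∧ y * X.ρx d = X.ρx a) ∨
      ∃ a d : X.Bx, X.χx d ≠ 0 ∧ y⁻¹ * X.ρx d = X.ρx a) (y : Fb) :
    y ∈ Q.toValuationSubring ↔ ∃ a d : X.Bx, X.χx d ≠ 0 ∧ y * X.ρx d = X.ρx a := by
  constructor
  · intro hy
    rcases hval y with h1 | ⟨a, d, hd, e⟩
    · exact h1
    · rcases eq_or_ne y 0 with rfl | hy0
      · exact ⟨0, 1, by rw [map_one]; exact one_ne_zero, by rw [zero_mul, map_zero]⟩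
      obtain ⟨hρd, hordd⟩ := (h.ordx d).2.1 hd
      have hρa : X.ρx a ≠ 0 := by
        rw [← e]
        exact mul_ne_zero (inv_ne_zero hy0) hρd
      by_cases hχa : X.χx a = 0
      · exfalso
        have hpos := ((h.ordx a).2.2 hχa).resolve_left hρa
        have hord : Q.ord y⁻¹ + Q.ord (X.ρx d) = Q.ord (X.ρx a) := by
          rw [← Q.ord_mul (inv_ne_zero hy0) hρd, e]
        rw [Q.ord_inv] at hord
        have := ord_nonneg_of_mem Q hy
        omega
      · refine ⟨d, a, hχa, ?_⟩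
        rw [← e]
        field_simp
  · rintro ⟨a, d, hd, e⟩
    obtain ⟨hρd, hordd⟩ := (h.ordx d).2.1 hd
    apply mem_of_ord_nonneg
    rcases eq_or_ne y 0 with rfl | hy0
    · rw [Place.ord_zero]
    have hord : Q.ord y + Q.ord (X.ρx d) = Q.ord (X.ρx a) := by
      rw [← Q.ord_mul hy0 hρd, e]
    have := (h.ordx a).1
    omega

/-- **`O_Q` is the reduced local ring of the model at the point** (chart form = the field `hQ` of
`PointData`). -/
theorem hQ_of_val (h : ValueCompat X Q)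
    (hval : ∀ y : Fb, (∃ a d : X.Bx, X.χx d ≠ 0 ∧ y * X.ρx d = X.ρx a) ∨
      ∃ a d : X.Bx, X.χx d ≠ 0 ∧ y⁻¹ * X.ρx d = X.ρx a) (y : Fb) :
    y ∈ Q.toValuationSubring ↔
      ∃ a d : X.B₀, X.χ d ≠ 0 ∧ y * c.ρ ⟨(d : F), X.le d.2⟩ = c.ρ ⟨(a : F), X.le a.2⟩ := by
  rw [exists_chart_iff_exists_loc]
  exact hQx_of_val h hval y

end Val

/-! ### (PEEL-a) -/

namespace IsLevelData

variable {c : HalfRed A F Fb} {X : PointChart c} {I : Type*} {Bk : I → Subring F} {π : I → A}
  (L : IsLevelData X Bk π)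

include L

/-- **(PEEL-a)** in the shape of `PointData.peelA`, from `LevelPeel22.LevelSystem.peel_a`. -/
theorem peelA (H : LHyp K F)
    (hL4 : ∀ y : Fb, ∃ a b : X.Bx, X.ρx b ≠ 0 ∧ y * X.ρx b = X.ρx a)
    (Q : Place (ResidueField A) Fb)
    (hQx : ∀ y : Fb, y ∈ Q.toValuationSubring ↔
      ∃ a d : X.Bx, X.χx d ≠ 0 ∧ y * X.ρx d = X.ρx a)
    {P : Place K F} (hP : P ∈ X.S) :
    ∃ u : X.Bx, 0 < P.ord (u : F) ∧ X.ρx u ≠ 0 ∧ Q.ord (X.ρx u) = 1 ∧
      ∀ z : X.Bx, 0 < P.ord (z : F) → ∃ z' : X.Bx, (z : F) = (u : F) * (z' : F) := by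
  letI := X.algebraBx
  have hLS := L.levelSystem H hP hL4
  have hchi := L.chi_eq H hP
  have hO : ∀ y : Fb, y ∈ Oset (residue A) (X.valA H hP) X.ρx ↔ y ∈ Q.toValuationSubring := by
    intro y
    rw [hQx]
    show (∃ a d : X.Bx, chi (residue A) (X.valA H hP) d ≠ 0 ∧ y * X.ρx d = X.ρx a) ↔ _
    rw [hchi]
  -- a uniformiser of `O_Q`
  obtain ⟨ϖ, hϖirr⟩ := IsDiscreteValuationRing.exists_irreducible Q.toValuationSubring
  have hϖ1 : Q.ord (ϖ : Fb) = 1 := Q.ord_coe_irreducible hϖirr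
  have hϖ0 : (ϖ : Fb) ≠ 0 := by
    intro h0
    rw [h0, Place.ord_zero] at hϖ1
    exact zero_ne_one hϖ1
  have hρmem : ∀ b : X.Bx, 0 ≤ Q.ord (X.ρx b) := fun b =>
    ord_nonneg_of_mem Q ((hQx _).2 ⟨b, 1, by rw [map_one]; exact one_ne_zero,
      by rw [map_one, mul_one]⟩)
  obtain ⟨u, hvalu, ⟨d₀, hd₀, e₀⟩, hdiv⟩ := hLS.peel_a (ϖ : Fb) hϖ0 ((hO _).2 ϖ.2)
    (fun hinv => by
      have := ord_nonneg_of_mem Q ((hO _).1 hinv)
      rw [Q.ord_inv, hϖ1] at this
      omega)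
    (fun y hy hyinv => by
      rw [hO] at hy hyinv
      rcases eq_or_ne y 0 with rfl | hy0
      · exact ⟨0, (hO _).2 (zero_mem _), by rw [mul_zero]⟩
      refine ⟨y / (ϖ : Fb), (hO _).2 (mem_of_ord_nonneg Q ?_), by field_simp⟩
      have h1 := ord_nonneg_of_mem Q hy
      have h2 : Q.ord y⁻¹ < 0 := by
        by_contra hge
        exact hyinv (mem_of_ord_nonneg Q (not_lt.1 hge))
      rw [Q.ord_inv] at h2
      rw [div_eq_mul_inv, Q.ord_mul hy0 (inv_ne_zero hϖ0), Q.ord_inv, hϖ1]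
      omega)
  rw [hchi] at hd₀
  have hρd₀ : X.ρx d₀ ≠ 0 := fun h0 => hd₀ (X.χx_of_ρx d₀ h0)
  have hρu : X.ρx u ≠ 0 := by
    rw [← e₀]
    exact mul_ne_zero hϖ0 hρd₀
  have hu0 : (u : F) ≠ 0 := PointData.coe_ne_zero_of_ρx hρu
  have hupos : 0 < P.ord (u : F) :=
    ((X.valA_eq_zero_iff H hP u).1 hvalu).resolve_left hu0
  -- `ρ d₀` is a unit at `Q`
  have hordd₀ : Q.ord (X.ρx d₀) = 0 := by
    have hinv := X.inv_mem_Bx d₀ hd₀
    have hd₀F : (d₀ : F) ≠ 0 := PointData.coe_ne_zero_of_ρx hρd₀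
    have h1 : (⟨((d₀ : F))⁻¹, hinv⟩ : X.Bx) * d₀ = 1 := Subtype.ext (inv_mul_cancel₀ hd₀F)
    have h2 := congrArg X.ρx h1
    rw [map_mul, map_one] at h2
    have hw : X.ρx ⟨((d₀ : F))⁻¹, hinv⟩ ≠ 0 := left_ne_zero_of_mul_eq_one h2
    have h3 := congrArg Q.ord h2
    rw [Q.ord_mul hw hρd₀, Place.ord_one] at h3
    have h4 := hρmem ⟨((d₀ : F))⁻¹, hinv⟩
    have h5 := hρmem d₀
    omega
  refine ⟨u, hupos, hρu, ?_, ?_⟩
  · rw [← e₀, Q.ord_mul hϖ0 hρd₀, hϖ1, hordd₀, add_zero]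
  · intro z hz
    obtain ⟨d, z', hd, e⟩ := hdiv z ((X.valA_eq_zero_iff H hP z).2 (Or.inr hz))
    rw [hchi] at hd
    have hinv := X.inv_mem_Bx d hd
    have hdF : (d : F) ≠ 0 := by
      intro h0
      apply hd
      have : d = 0 := Subtype.ext h0
      rw [this, map_zero]
    refine ⟨z' * ⟨((d : F))⁻¹, hinv⟩, ?_⟩
    have eF : (z : F) * (d : F) = (u : F) * (z' : F) := congrArg (fun w : X.Bx => (w : F)) e
    show (z : F) = (u : F) * ((z' : F) * ((d : F))⁻¹)
    rw [← mul_assoc, ← eF, mul_assoc, mul_inv_cancel₀ hdF, mul_one]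

end IsLevelData

/-! ### the assembly -/

section Assembly

variable {c : HalfRed A F Fb} {X : PointChart c}

/-- a place through the point exists, from (LR) and one non-unit of the local ring with nonzero
reduction. -/
theorem nonempty_S_of_lr
    (hlr : ∀ y : F, y ∈ c.O → (∀ P ∈ X.S, y ∈ P.toValuationSubring) → y ∈ X.Bx)
    (a : X.Bx) (hχ : X.χx a = 0) (hρ : X.ρx a ≠ 0) : X.S.Nonempty := by
  by_contra hempty
  rw [Set.not_nonempty_iff_eq_empty] at hempty
  have ha0 : (a : F) ≠ 0 := PointData.coe_ne_zero_of_ρx hρ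
  have hinvO := Psi3F.inv_mem_of_ρ_ne_zero c (X.Bx_le a.2) hρ
  have hinvB : ((a : F))⁻¹ ∈ X.Bx := hlr _ hinvO (fun P hP => by
    rw [hempty] at hP
    exact absurd hP (Set.notMem_empty P))
  have h1 : a * (⟨((a : F))⁻¹, hinvB⟩ : X.Bx) = 1 := Subtype.ext (mul_inv_cancel₀ ha0)
  have h2 := congrArg X.χx h1
  rw [map_mul, hχ, zero_mul, map_one] at h2
  exact zero_ne_one h2

/-- **`PointData` from the finite levels**: the level data, the value compatibility at `Q`,
`F = Frac B₀`, `Fb = Frac (ρ O)`, (LR) and one place through the point. -/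
theorem pointData_of_levels (H : LHyp K F) {Q : Place (ResidueField A) Fb} {I : Type*}
    {Bk : I → Subring F} {π : I → A} (L : IsLevelData X Bk π) (hvc : ValueCompat X Q)
    (hfrac : ∀ y : F, ∃ a b : X.B₀, (b : F) ≠ 0 ∧ y * (b : F) = (a : F))
    (hFb : ∀ y : Fb, ∃ g h : c.O, c.ρ h ≠ 0 ∧ y * c.ρ h = c.ρ g)
    (hlr : ∀ y : F, y ∈ c.O → (∀ P ∈ X.S, y ∈ P.toValuationSubring) → y ∈ X.Bx)
    (hne : X.S.Nonempty) : PointData X Q := by
  have hL4 := exists_ρx_frac X hfrac L.sat hFb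
  have hval := L.mem_or_inv_mem H hne hL4
  exact
    { hQ := hQ_of_val hvc hval
      frac := hfrac
      sat := L.sat
      lr := hlr
      peelA := fun P hP => L.peelA H hL4 Q (hQx_of_val hvc hval) hP }

end Assembly

end Fermat.Agent.T33.PushLoc9

end
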