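/-
Programme T (S33), chapter (e) "N34 over ℚ̄", block PUSH, WIRING (helper5): **`PointData` at every
one-branch point of the two charts ⟹ the hypotheses `hpush₁`, `hpush₂` of
`NodalPlaces1.RawRed.mkNodalRed` / `NodalInst4A.Inputs.nodalRed`.**

Abstract (`K, A, F, c₁, c₂` arbitrary, `H : LHyp K F`, `T : TwoCharts c₁ c₂`):
* `pointChart₁ C χ hon`, `pointChart₂ C χ hon` : a point of a chart lying on a component, as a
  `PushLoc9.PointChart`; `mem_S₁_iff`, `mem_S₂_iff` : its places are the places centred at `χ`;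
* `valueCompat₁`, `valueCompat₂` : `Val_j χ Q ⟹ PushLoc9.ValueCompat`;
* `not_on₂_of_sm₀/₁`, `not_on₁_of_sm₀/₁` : over a `Q` whose fibre avoids the other component the
  point is a one-branch point;
* **`sidePush₁`, `sidePush₂`** : `NodalAbs1B.SidePush c_j T.rawRed.r_j (fibre avoids the other
  component)` from: every point is a centre (`hex`), every place `Q` of the component is the place of
  a point of the chart `0` or of a point at `t = ∞` of the chart `1` (`hpt`), and `PointData` at the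
  one-branch points (`hdata`).
-/
import Mathlib
import Fermat.Agent.T33.NodalPlaces1B
import Fermat.Agent.T33.PushLoc9B
import Fermat.Agent.T33.GlueWire5

set_option autoImplicit false
set_option linter.unusedSectionVars false
set_option linter.style.haveILetI false
set_option linter.unusedVariables false

noncomputable section

namespace Fermat.Agent.T33.PushWire5

open AlgebraicCurve IsLocalRing
open Fermat.Agent.T33.NodalCtx1 Fermat.Agent.T33.NodalCurve6 Fermat.Agent.T33.NodalPlaces1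
  Fermat.Agent.T33.PushLoc9 Fermat.Agent.T33.NodalAbs1B Fermat.Agent.T33.GlueWire5
  Fermat.Agent.RR.LSpace Fermat.Agent.X0.FF

variable {K : Type*} [Field K] {A : ValuationSubring K}
variable {F : Type*} [Field F] [Algebra K F]
variable {Fb₁ Fb₂ : Type*} [Field Fb₁] [Field Fb₂]
  [Algebra (ResidueField A) Fb₁] [Algebra (ResidueField A) Fb₂]
variable {c₁ : HalfRed A F Fb₁} {c₂ : HalfRed A F Fb₂}

/-! ### points of a chart as `PointChart`s -/

/-- a point of a chart lying on the first component. -/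
def pointChart₁ (C : Chart c₁ c₂) (χ : C.Pt) (hon : C.On₁ χ) : PointChart c₁ where
  B₀ := C.B
  le := C.le₁
  const_mem := C.algebraMap_mem
  χ := χ.1
  χ_const := χ.2
  χ_of_ρ := hon

/-- a point of a chart lying on the second component. -/
def pointChart₂ (C : Chart c₁ c₂) (χ : C.Pt) (hon : C.On₂ χ) : PointChart c₂ where
  B₀ := C.B
  le := C.le₂
  const_mem := C.algebraMap_mem
  χ := χ.1
  χ_const := χ.2
  χ_of_ρ := hon

@[simp] theorem pointChart₁_B₀ (C : Chart c₁ c₂) (χ : C.Pt) (hon : C.On₁ χ) :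
    (pointChart₁ C χ hon).B₀ = C.B := rfl

@[simp] theorem pointChart₂_B₀ (C : Chart c₁ c₂) (χ : C.Pt) (hon : C.On₂ χ) :
    (pointChart₂ C χ hon).B₀ = C.B := rfl

/-- the places through the point are the places centred at it. -/
theorem mem_S₁_iff (H : LHyp K F) (C : Chart c₁ c₂) (χ : C.Pt) (hon : C.On₁ χ) (P : Place K F) :
    P ∈ (pointChart₁ C χ hon).S ↔ C.Centred P χ :=
  ⟨fun hP => centred_of_thru H C χ P hP.1 hP.2, fun hc => thru_of_centred C χ P hc⟩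

theorem mem_S₂_iff (H : LHyp K F) (C : Chart c₁ c₂) (χ : C.Pt) (hon : C.On₂ χ) (P : Place K F) :
    P ∈ (pointChart₂ C χ hon).S ↔ C.Centred P χ :=
  ⟨fun hP => centred_of_thru H C χ P hP.1 hP.2, fun hc => thru_of_centred C χ P hc⟩

/-- value compatibility, first component. -/
theorem valueCompat₁ (C : Chart c₁ c₂) (χ : C.Pt) (hon : C.On₁ χ)
    (Q : Place (ResidueField A) Fb₁) (hQ : C.Val₁ χ Q) : ValueCompat (pointChart₁ C χ hon) Q := by
  intro b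
  rcases hQ b with h | h
  · exact Or.inl (sub_eq_zero.1 h)
  · exact Or.inr h

/-- value compatibility, second component. -/
theorem valueCompat₂ (C : Chart c₁ c₂) (χ : C.Pt) (hon : C.On₂ χ)
    (Q : Place (ResidueField A) Fb₂) (hQ : C.Val₂ χ Q) : ValueCompat (pointChart₂ C χ hon) Q := by
  intro b
  rcases hQ b with h | h
  · exact Or.inl (sub_eq_zero.1 h)
  · exact Or.inr h

/-! ### one-branch points -/

variable (T : TwoCharts c₁ c₂)

/-- a place centred on the chart `0` has an integral value of `t`. -/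
theorem fin0_of_centred₀ {P : Place K F} {χ : T.C0.Pt} (hP : T.C0.Centred P χ) : T.Fin0 P := by
  obtain ⟨a, ha, -⟩ := hP T.t0
  exact ⟨a, ha⟩

/-- chart `0`: over a place `Q` of the first component whose fibre avoids the second component, the
point is not on the second component. -/
theorem not_on₂_of_sm₀ (hex : ∀ χ : T.C0.Pt, ∃ P : Place K F, T.C0.Centred P χ)
    {χ : T.C0.Pt} {Q : Place (ResidueField A) Fb₁} (hv : T.C0.Val₁ χ Q)
    (hsm : ∀ P, T.rawRed.r₁ P = some Q → T.rawRed.r₂ P = none) : ¬ T.C0.On₂ χ := by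
  intro hon
  obtain ⟨P, hP⟩ := hex χ
  obtain ⟨Q₂, hQ₂⟩ := T.val₂_exists₀ χ hon
  have hfin := fin0_of_centred₀ T hP
  have h1 : T.rawRed.r₁ P = some Q := (T.r₁_eq_some_iff₀ hv P).2 ⟨hfin, hP⟩
  have h2 : T.rawRed.r₂ P = some Q₂ := (T.r₂_eq_some_iff₀ hQ₂ P).2 ⟨hfin, hP⟩
  rw [hsm P h1] at h2
  exact absurd h2 (by simp)

/-- chart `1`, points at `t = ∞`. -/
theorem not_on₂_of_sm₁ (hex : ∀ χ : T.C1.Pt, ∃ P : Place K F, T.C1.Centred P χ)
    {χ : T.C1.Pt} (hs : χ T.s1 = 0) {Q : Place (ResidueField A) Fb₁} (hv : T.C1.Val₁ χ Q)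
    (hsm : ∀ P, T.rawRed.r₁ P = some Q → T.rawRed.r₂ P = none) : ¬ T.C1.On₂ χ := by
  intro hon
  obtain ⟨P, hP⟩ := hex χ
  obtain ⟨Q₂, hQ₂⟩ := T.val₂_exists₁ χ hon
  have hfin := not_fin0_of_centred₁ T hP hs
  have h1 : T.rawRed.r₁ P = some Q := (T.r₁_eq_some_iff₁ hs hv P).2 ⟨hfin, hP⟩
  have h2 : T.rawRed.r₂ P = some Q₂ := (T.r₂_eq_some_iff₁ hs hQ₂ P).2 ⟨hfin, hP⟩
  rw [hsm P h1] at h2
  exact absurd h2 (by simp)

/-- chart `0`, second component. -/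
theorem not_on₁_of_sm₀ (hex : ∀ χ : T.C0.Pt, ∃ P : Place K F, T.C0.Centred P χ)
    {χ : T.C0.Pt} {Q : Place (ResidueField A) Fb₂} (hv : T.C0.Val₂ χ Q)
    (hsm : ∀ P, T.rawRed.r₂ P = some Q → T.rawRed.r₁ P = none) : ¬ T.C0.On₁ χ := by
  intro hon
  obtain ⟨P, hP⟩ := hex χ
  obtain ⟨Q₁, hQ₁⟩ := T.val₁_exists₀ χ hon
  have hfin := fin0_of_centred₀ T hP
  have h1 : T.rawRed.r₂ P = some Q := (T.r₂_eq_some_iff₀ hv P).2 ⟨hfin, hP⟩
  have h2 : T.rawRed.r₁ P = some Q₁ := (T.r₁_eq_some_iff₀ hQ₁ P).2 ⟨hfin, hP⟩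
  rw [hsm P h1] at h2
  exact absurd h2 (by simp)

/-- chart `1`, second component, points at `t = ∞`. -/
theorem not_on₁_of_sm₁ (hex : ∀ χ : T.C1.Pt, ∃ P : Place K F, T.C1.Centred P χ)
    {χ : T.C1.Pt} (hs : χ T.s1 = 0) {Q : Place (ResidueField A) Fb₂} (hv : T.C1.Val₂ χ Q)
    (hsm : ∀ P, T.rawRed.r₂ P = some Q → T.rawRed.r₁ P = none) : ¬ T.C1.On₁ χ := by
  intro hon
  obtain ⟨P, hP⟩ := hex χ
  obtain ⟨Q₁, hQ₁⟩ := T.val₁_exists₁ χ hon
  have hfin := not_fin0_of_centred₁ T hP hs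
  have h1 : T.rawRed.r₂ P = some Q := (T.r₂_eq_some_iff₁ hs hv P).2 ⟨hfin, hP⟩
  have h2 : T.rawRed.r₁ P = some Q₁ := (T.r₁_eq_some_iff₁ hs hQ₁ P).2 ⟨hfin, hP⟩
  rw [hsm P h1] at h2
  exact absurd h2 (by simp)

/-! ### the two sides -/

/-- **PUSH on the first component** from the local data at the one-branch points. -/
theorem sidePush₁ (H : LHyp K F)
    (hex₀ : ∀ χ : T.C0.Pt, ∃ P : Place K F, T.C0.Centred P χ)
    (hex₁ : ∀ χ : T.C1.Pt, ∃ P : Place K F, T.C1.Centred P χ)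
    (hpt : ∀ Q : Place (ResidueField A) Fb₁, (∃ χ : T.C0.Pt, T.C0.Val₁ χ Q) ∨
      ∃ χ : T.C1.Pt, χ T.s1 = 0 ∧ T.C1.Val₁ χ Q)
    (hdata₀ : ∀ (χ : T.C0.Pt) (hon : T.C0.On₁ χ) (Q : Place (ResidueField A) Fb₁),
      T.C0.Val₁ χ Q → ¬ T.C0.On₂ χ → PointData (pointChart₁ T.C0 χ hon) Q)
    (hdata₁ : ∀ (χ : T.C1.Pt) (hon : T.C1.On₁ χ) (Q : Place (ResidueField A) Fb₁),
      T.C1.Val₁ χ Q → ¬ T.C1.On₂ χ → PointData (pointChart₁ T.C1 χ hon) Q) :
    SidePush c₁ T.rawRed.r₁ (fun Q => ∀ P, T.rawRed.r₁ P = some Q → T.rawRed.r₂ P = none) := by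
  refine sidePush_of_pointData H c₁ _ _ fun Q hsm => ?_
  rcases hpt Q with ⟨χ, hv⟩ | ⟨χ, hs, hv⟩
  · have hon := T.C0.on₁_of_val₁ hv
    refine ⟨pointChart₁ T.C0 χ hon, hdata₀ χ hon Q hv (not_on₂_of_sm₀ T hex₀ hv hsm), fun P => ?_⟩
    rw [mem_S₁_iff H]
    refine (T.r₁_eq_some_iff₀ hv P).trans ⟨fun h => h.2, fun h => ⟨fin0_of_centred₀ T h, h⟩⟩
  · have hon := T.C1.on₁_of_val₁ hv
    refine ⟨pointChart₁ T.C1 χ hon, hdata₁ χ hon Q hv (not_on₂_of_sm₁ T hex₁ hs hv hsm),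
      fun P => ?_⟩
    rw [mem_S₁_iff H]
    refine (T.r₁_eq_some_iff₁ hs hv P).trans
      ⟨fun h => h.2, fun h => ⟨not_fin0_of_centred₁ T h hs, h⟩⟩

/-- **PUSH on the second component** from the local data at the one-branch points. -/
theorem sidePush₂ (H : LHyp K F)
    (hex₀ : ∀ χ : T.C0.Pt, ∃ P : Place K F, T.C0.Centred P χ)
    (hex₁ : ∀ χ : T.C1.Pt, ∃ P : Place K F, T.C1.Centred P χ)
    (hpt : ∀ Q : Place (ResidueField A) Fb₂, (∃ χ : T.C0.Pt, T.C0.Val₂ χ Q) ∨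
      ∃ χ : T.C1.Pt, χ T.s1 = 0 ∧ T.C1.Val₂ χ Q)
    (hdata₀ : ∀ (χ : T.C0.Pt) (hon : T.C0.On₂ χ) (Q : Place (ResidueField A) Fb₂),
      T.C0.Val₂ χ Q → ¬ T.C0.On₁ χ → PointData (pointChart₂ T.C0 χ hon) Q)
    (hdata₁ : ∀ (χ : T.C1.Pt) (hon : T.C1.On₂ χ) (Q : Place (ResidueField A) Fb₂),
      T.C1.Val₂ χ Q → ¬ T.C1.On₁ χ → PointData (pointChart₂ T.C1 χ hon) Q) :
    SidePush c₂ T.rawRed.r₂ (fun Q => ∀ P, T.rawRed.r₂ P = some Q → T.rawRed.r₁ P = none) := by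
  refine sidePush_of_pointData H c₂ _ _ fun Q hsm => ?_
  rcases hpt Q with ⟨χ, hv⟩ | ⟨χ, hs, hv⟩
  · have hon := T.C0.on₂_of_val₂ hv
    refine ⟨pointChart₂ T.C0 χ hon, hdata₀ χ hon Q hv (not_on₁_of_sm₀ T hex₀ hv hsm), fun P => ?_⟩
    rw [mem_S₂_iff H]
    refine (T.r₂_eq_some_iff₀ hv P).trans ⟨fun h => h.2, fun h => ⟨fin0_of_centred₀ T h, h⟩⟩
  · have hon := T.C1.on₂_of_val₂ hv
    refine ⟨pointChart₂ T.C1 χ hon, hdata₁ χ hon Q hv (not_on₁_of_sm₁ T hex₁ hs hv hsm),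
      fun P => ?_⟩
    rw [mem_S₂_iff H]
    refine (T.r₂_eq_some_iff₁ hs hv P).trans
      ⟨fun h => h.2, fun h => ⟨not_fin0_of_centred₁ T h hs, h⟩⟩

end Fermat.Agent.T33.PushWire5
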