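/-
Programme T (S33), chapter (e) "N34 over ℚ̄", block PUSH, WIRING part B (helper5): **the hypotheses
`hpush₁`, `hpush₂` of `NodalInst4A.Inputs.nodalRed` from the finite levels of the local rings at the
one-branch points.**

`h : LevelHyp p M' A`.  `HasLevels₁ h s` (resp. `HasLevels₂ h s`): every one-branch point `X` of
the chart `chart ↥A s` on the first (resp. second) component — a `PushLoc9.PointChart (c1 h)` with
ring `chart ↥A s` and an element `e` of the chart, `χ e ≠ 0`, vanishing on the other component —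
has a system of finite levels `PushLoc9.IsLevelData X Bk π` (helper9's `PushLoc9D`).

* `pointData₁`, `pointData₂` : `PushLoc9.PointData` at a one-branch point of a `Chart` with ring
  `chart ↥A s` (`PushLoc9.pointData_of_levels`; (VAL) from `Val_j`, (FRAC) from
  `ChartSpecOf25.frac_chart`, `Fb = Frac ρ(O)` from `FrickeRed3.c_j_ρ_surjective`, (LR) from
  `GlueWire5.lr_pointChart₁/₂`, a place through the point from `PlacePoint8.exists_centred`);
* **`hpush₁`, `hpush₂`** : the literal hypotheses of `Inputs.nodalRed` (fibres from helper4's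
  `NodalPts4B.fibre₁/fibre₂`, assembly `PushWire5.sidePush₁/₂`).
-/
import Mathlib
import Fermat.Agent.T33.PushWire5
import Fermat.Agent.T33.NodalPts4B
import Fermat.Agent.T33.NodalInst4A
import Fermat.Agent.T33.PlacePoint8
import Fermat.Agent.T33.ChartInt5
import Fermat.Agent.ES.RED.ChartSpecOf25

set_option autoImplicit false
set_option linter.unusedSectionVars false
set_option linter.style.haveILetI false
set_option linter.unusedVariables false
set_option synthInstance.maxHeartbeats 400000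

noncomputable section

namespace Fermat.Agent.T33.PushWire5

open HahnSeries ModularCurve IntermediateField AlgebraicCurve IsLocalRing
open Fermat.Agent.RED.Interface4 Fermat.Agent.RED.PUR.ChartGeneric22
  Fermat.Agent.ES.RED
  Fermat.Agent.T33.NodalCtx1 Fermat.Agent.T33.NodalCurve6 Fermat.Agent.T33.NodalPlaces1
  Fermat.Agent.T33.NodalHalf4 Fermat.Agent.T33.NodalBase4A Fermat.Agent.T33.NodalInst4A
  Fermat.Agent.T33.PushLoc9 Fermat.Agent.T33.NodalAbs1B Fermat.Agent.T33.GlueWire5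
  Fermat.Agent.T33.LocalReg5B Fermat.Agent.T33.LocalReg5C Fermat.Agent.T33.FrickeRed3
  Fermat.Agent.ES.N34.ModelN4
  Fermat.Agent.RR.LSpace Fermat.Agent.X0.FF

variable {p M' : ℕ} [NeZero M'] [NeZero p] {A : ValuationSubring Qbar}

/-- shortcut instance. -/
local instance (priority := high) algebraAFbarNP : Algebra ↥A ↥(Fbar (M' * p)) := inferInstance

/-- shortcut instance. -/
local instance (priority := high) algebraKFbP : Algebra (Setup8.kA A) (Fb A M') := inferInstance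

/-- **the finite levels at the one-branch points of the first component** of the chart
`chart ↥A s`. -/
def HasLevels₁ (h : LevelHyp p M' A) (s : ↥(Fbar (M' * p))) : Prop :=
  ∀ X : PointChart (c1 h), (∀ x, x ∈ X.B₀ ↔ x ∈ chart ↥A s) →
    (∃ e : X.B₀, X.χ e ≠ 0 ∧ ∃ he : (e : ↥(Fbar (M' * p))) ∈ (c2 h).O,
      (c2 h).ρ ⟨(e : ↥(Fbar (M' * p))), he⟩ = 0) →
    ∃ (J : Type) (Bk : J → Subring ↥(Fbar (M' * p))) (π : J → ↥A), IsLevelData X Bk π

/-- **the finite levels at the one-branch points of the second component.** -/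
def HasLevels₂ (h : LevelHyp p M' A) (s : ↥(Fbar (M' * p))) : Prop :=
  ∀ X : PointChart (c2 h), (∀ x, x ∈ X.B₀ ↔ x ∈ chart ↥A s) →
    (∃ e : X.B₀, X.χ e ≠ 0 ∧ ∃ he : (e : ↥(Fbar (M' * p))) ∈ (c1 h).O,
      (c1 h).ρ ⟨(e : ↥(Fbar (M' * p))), he⟩ = 0) →
    ∃ (J : Type) (Bk : J → Subring ↥(Fbar (M' * p))) (π : J → ↥A), IsLevelData X Bk π

/-- `F = Frac (chart)`, in the shape of `PointData.frac`. -/
theorem frac_of_chart (h : LevelHyp p M' A) {s : ↥(Fbar (M' * p))} (hs : Transcendental Qbar s)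
    (B : Subring ↥(Fbar (M' * p))) (hB : ∀ x, x ∈ B ↔ x ∈ chart ↥A s) (y : ↥(Fbar (M' * p))) :
    ∃ a b : B, (b : ↥(Fbar (M' * p))) ≠ 0 ∧ y * (b : ↥(Fbar (M' * p))) = (a : ↥(Fbar (M' * p))) := by
  obtain ⟨a, ha, b, hb, hb0, hab⟩ :=
    Fermat.Agent.ES.RED.ChartSpecOf25.frac_chart A (isGen_tA h) hs y
  exact ⟨⟨a, (hB a).2 ha⟩, ⟨b, (hB b).2 hb⟩, hb0, hab⟩

/-- **`PointData` at a one-branch point of the first component.** -/
theorem pointData₁ (h : LevelHyp p M' A) {s : ↥(Fbar (M' * p))} (hs : Transcendental Qbar s)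
    (hmodel : Large (ChartModelAt p M' A s)) (hl : HasLevels₁ h s)
    (C : Chart (c1 h) (c2 h)) (hB : ∀ x, x ∈ C.B ↔ x ∈ chart ↥A s)
    (hex : ∀ χ : C.Pt, ∃ P : Place Qbar ↥(Fbar (M' * p)), C.Centred P χ)
    (χ : C.Pt) (hon : C.On₁ χ) (Q : Place (Setup8.kA A) (Fb A M')) (hv : C.Val₁ χ Q)
    (hoff : ¬ C.On₂ χ) : PointData (pointChart₁ C χ hon) Q := by
  have H := lHyp h
  -- the off-witness
  have hoff' : ∃ e : (pointChart₁ C χ hon).B₀, (pointChart₁ C χ hon).χ e ≠ 0 ∧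
      ∃ he : (e : ↥(Fbar (M' * p))) ∈ (c2 h).O,
        (c2 h).ρ ⟨(e : ↥(Fbar (M' * p))), he⟩ = 0 := by
    unfold Chart.On₂ at hoff
    push Not at hoff
    obtain ⟨e, he, hχe⟩ := hoff
    exact ⟨e, hχe, C.le₂ e.2, he⟩
  obtain ⟨J, Bk, π, L⟩ := hl (pointChart₁ C χ hon) hB hoff'
  refine pointData_of_levels H L (valueCompat₁ C χ hon Q hv) (frac_of_chart h hs C.B hB) ?_
    (lr_pointChart₁ h s hmodel (pointChart₁ C χ hon) hB hoff') ?_
  · intro y
    obtain ⟨g, hg⟩ := c1_ρ_surjective h y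
    refine ⟨g, 1, ?_, ?_⟩
    · rw [map_one]; exact one_ne_zero
    · rw [map_one, mul_one, hg]
  · obtain ⟨P, hP⟩ := hex χ
    exact ⟨P, (mem_S₁_iff H C χ hon P).2 hP⟩

/-- **`PointData` at a one-branch point of the second component.** -/
theorem pointData₂ (h : LevelHyp p M' A) {s : ↥(Fbar (M' * p))} (hs : Transcendental Qbar s)
    (hmodel : Large (ChartModelAt p M' A s)) (hl : HasLevels₂ h s)
    (C : Chart (c1 h) (c2 h)) (hB : ∀ x, x ∈ C.B ↔ x ∈ chart ↥A s)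
    (hex : ∀ χ : C.Pt, ∃ P : Place Qbar ↥(Fbar (M' * p)), C.Centred P χ)
    (χ : C.Pt) (hon : C.On₂ χ) (Q : Place (Setup8.kA A) (Fb A M')) (hv : C.Val₂ χ Q)
    (hoff : ¬ C.On₁ χ) : PointData (pointChart₂ C χ hon) Q := by
  have H := lHyp h
  have hoff' : ∃ e : (pointChart₂ C χ hon).B₀, (pointChart₂ C χ hon).χ e ≠ 0 ∧
      ∃ he : (e : ↥(Fbar (M' * p))) ∈ (c1 h).O,
        (c1 h).ρ ⟨(e : ↥(Fbar (M' * p))), he⟩ = 0 := by
    unfold Chart.On₁ at hoff
    push Not at hoff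
    obtain ⟨e, he, hχe⟩ := hoff
    exact ⟨e, hχe, C.le₁ e.2, he⟩
  obtain ⟨J, Bk, π, L⟩ := hl (pointChart₂ C χ hon) hB hoff'
  refine pointData_of_levels H L (valueCompat₂ C χ hon Q hv) (frac_of_chart h hs C.B hB) ?_
    (lr_pointChart₂ h s hmodel (pointChart₂ C χ hon) hB hoff') ?_
  · intro y
    obtain ⟨g, hg⟩ := c2_ρ_surjective h y
    refine ⟨g, 1, ?_, ?_⟩
    · rw [map_one]; exact one_ne_zero
    · rw [map_one, mul_one, hg]
  · obtain ⟨P, hP⟩ := hex χ
    exact ⟨P, (mem_S₂_iff H C χ hon P).2 hP⟩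

/-! ### the two-chart model of `Inputs` -/

section Inputs

variable {h : LevelHyp p M' A} (I : Inputs h)

theorem transcendental_tA (h : LevelHyp p M' A) : Transcendental Qbar (tA h) :=
  (isGen_tA h).transcendental

theorem transcendental_tA_inv (h : LevelHyp p M' A) : Transcendental Qbar (tA h)⁻¹ := by
  intro hh
  apply transcendental_tA h
  have := hh.inv
  rwa [inv_inv] at this

/-- every point of the chart `0` is the centre of a place. -/
theorem hex₀ : ∀ χ : I.twoCharts.C0.Pt,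
    ∃ P : Place Qbar ↥(Fbar (M' * p)), I.twoCharts.C0.Centred P χ := by
  intro χ
  haveI := (isGen_tA h).finiteDimensional
  exact Fermat.Agent.T33.PlacePoint8.exists_centred I.twoCharts.C0 (lHyp h) I.twoCharts.t_mem
    (fun b hb => (I.hB0 b).1 hb) (transcendental_tA h) (isGen_tA h) χ

/-- every point of the chart `1` is the centre of a place. -/
theorem hex₁ : ∀ χ : I.twoCharts.C1.Pt,
    ∃ P : Place Qbar ↥(Fbar (M' * p)), I.twoCharts.C1.Centred P χ := by
  intro χ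
  haveI := (isGen_tA h).finiteDimensional
  exact Fermat.Agent.T33.PlacePoint8.exists_centred I.twoCharts.C1 (lHyp h) I.twoCharts.s_mem
    (fun b hb => (I.hB1 b).1 hb) (transcendental_tA_inv h) (isGen_tA h) χ

/-- **`hpush₁`** of `Inputs.nodalRed`. -/
theorem hpush₁ (hx₁ : I.x₁ = xOne h) (hl₀ : HasLevels₁ h (tA h)) (hl₁ : HasLevels₁ h (tA h)⁻¹) :
    ∀ y : (c1 h).O, (c1 h).ρ y ≠ 0 → ∀ Q : Place (Setup8.kA A) (Fb A M'),
      (∀ P : Place Qbar ↥(Fbar (M' * p)), I.twoCharts.rawRed.r₁ P = some Q →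
        I.twoCharts.rawRed.r₂ P = none) →
      ∀ (D : Divisor Qbar ↥(Fbar (M' * p))), (∀ P, D P = P.ord (y : ↥(Fbar (M' * p)))) →
        ∀ T : Finset (Place Qbar ↥(Fbar (M' * p))),
          (∀ P, P ∈ T ↔ P ∈ D.support ∧ I.twoCharts.rawRed.r₁ P = some Q) →
          ∑ P ∈ T, D P = Q.ord ((c1 h).ρ y) := by
  have hs : I.twoCharts.C1.ρ₁ I.twoCharts.s1 = (I.x₁⁻¹) ^ 1 := by
    rw [pow_one, hx₁]
    exact Fermat.Agent.T33.ChartInt5.rho1_tA_inv h _
  refine (sidePush₁ I.twoCharts (lHyp h) (hex₀ I) (hex₁ I) ?_ ?_ ?_).push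
  · intro Q
    rcases Fermat.Agent.T33.NodalPts4B.fibre₁ I.twoCharts I.gen₁ I.int₁₀ I.int₁₁ one_pos hs Q with
      ⟨χ, hv, -⟩ | ⟨χ, hχ, hv, -⟩
    · exact Or.inl ⟨χ, hv⟩
    · exact Or.inr ⟨χ, hχ, hv⟩
  · intro χ hon Q hv hoff
    exact pointData₁ h (transcendental_tA h) (large_chartModel_zero h (tA h) (coe_tA h)) hl₀
      I.twoCharts.C0 I.hB0 (hex₀ I) χ hon Q hv hoff
  · intro χ hon Q hv hoff
    exact pointData₁ h (transcendental_tA_inv h) (large_chartModel_one h (tA h) (coe_tA h)) hl₁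
      I.twoCharts.C1 I.hB1 (hex₁ I) χ hon Q hv hoff

/-- **`hpush₂`** of `Inputs.nodalRed`. -/
theorem hpush₂ (hx₂ : I.x₂ = xTwo h) (hl₀ : HasLevels₂ h (tA h)) (hl₁ : HasLevels₂ h (tA h)⁻¹) :
    ∀ y : (c2 h).O, (c2 h).ρ y ≠ 0 → ∀ Q : Place (Setup8.kA A) (Fb A M'),
      (∀ P : Place Qbar ↥(Fbar (M' * p)), I.twoCharts.rawRed.r₂ P = some Q →
        I.twoCharts.rawRed.r₁ P = none) →
      ∀ (D : Divisor Qbar ↥(Fbar (M' * p))), (∀ P, D P = P.ord (y : ↥(Fbar (M' * p)))) →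
        ∀ T : Finset (Place Qbar ↥(Fbar (M' * p))),
          (∀ P, P ∈ T ↔ P ∈ D.support ∧ I.twoCharts.rawRed.r₂ P = some Q) →
          ∑ P ∈ T, D P = Q.ord ((c2 h).ρ y) := by
  have hs : I.twoCharts.C1.ρ₂ I.twoCharts.s1 = (I.x₂⁻¹) ^ p := by
    rw [hx₂]
    exact Fermat.Agent.T33.ChartInt5.rho2_tA_inv h _
  refine (sidePush₂ I.twoCharts (lHyp h) (hex₀ I) (hex₁ I) ?_ ?_ ?_).push
  · intro Q
    rcases Fermat.Agent.T33.NodalPts4B.fibre₂ I.twoCharts I.gen₂ I.int₂₀ I.int₂₁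
      (Nat.pos_of_ne_zero (NeZero.ne p)) hs Q with ⟨χ, hv, -⟩ | ⟨χ, hχ, hv, -⟩
    · exact Or.inl ⟨χ, hv⟩
    · exact Or.inr ⟨χ, hχ, hv⟩
  · intro χ hon Q hv hoff
    exact pointData₂ h (transcendental_tA h) (large_chartModel_zero h (tA h) (coe_tA h)) hl₀
      I.twoCharts.C0 I.hB0 (hex₀ I) χ hon Q hv hoff
  · intro χ hon Q hv hoff
    exact pointData₂ h (transcendental_tA_inv h) (large_chartModel_one h (tA h) (coe_tA h)) hl₁
      I.twoCharts.C1 I.hB1 (hex₁ I) χ hon Q hv hoff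

end Inputs

end Fermat.Agent.T33.PushWire5
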