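/-
Programme T (S33), chapter (e) "N34 over Qbar", ASSEMBLY part F (helper4): **the (e)-package from the
level data of PUSH** — `NodalInst4E` with `hpush₁`, `hpush₂` discharged by helper5's `PushWire5B`;
the only remaining hypotheses are the four `HasLevels` statements (helper9's `PushLoc9D`).
-/
import Mathlib
import Fermat.Agent.T33.NodalInst4E
import Fermat.Agent.T33.PushWire5B

set_option autoImplicit false
set_option linter.unusedSectionVars false
set_option linter.style.haveILetI false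
set_option linter.unusedVariables false
set_option synthInstance.maxHeartbeats 400000

noncomputable section

namespace Fermat.Agent.T33.NodalInst4F

open HahnSeries ModularCurve AlgebraicCurve IsLocalRing IntermediateField
open Fermat.Agent.RED.Interface4 Fermat.Agent.ES.RED Fermat.Agent.T33.NodalHalf4
  Fermat.Agent.RED.PUR.ChartGeneric22 Fermat.Agent.T33.NodalCurve6 Fermat.Agent.T33.NodalCtx1
  Fermat.Agent.T33.NodalPlaces1 Fermat.Agent.T33.NodalBase4A Fermat.Agent.X0.FF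
  Fermat.Agent.RR.LSpace Fermat.Agent.T33.NodalInst4A Fermat.Agent.T33.NodalInst4C
  Fermat.Agent.T33.NodalInst4E Fermat.Agent.T33.PushWire5
  Fermat.Agent.FF.InertiaWire8 Fermat.Agent.T33.Psi3C

variable {p M' : ℕ} [NeZero M'] [NeZero p] {A : ValuationSubring Qbar}

/-- shortcut instance. -/
local instance (priority := high) algebraAFbarNF : Algebra ↥A ↥(Fbar (M' * p)) := inferInstance

/-- shortcut instance. -/
local instance (priority := high) algebraKFbF : Algebra (Setup8.kA A) (Fb A M') := inferInstance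

variable (h : LevelHyp p M' A)
  (hl₁₀ : HasLevels₁ h (tA h)) (hl₁₁ : HasLevels₁ h (tA h)⁻¹)
  (hl₂₀ : HasLevels₂ h (tA h)) (hl₂₁ : HasLevels₂ h (tA h)⁻¹)

/-- **the nodal reduction context of `X₀(M'p)` over `A`**, from the level data of PUSH. -/
def nodalRed : NodalRed A ↥(Fbar (M' * p)) (Nd h) :=
  NodalInst4E.nodalRed h (PushWire5.hpush₁ (inp h) rfl hl₁₀ hl₁₁)
    (PushWire5.hpush₂ (inp h) rfl hl₂₀ hl₂₁)

@[simp] theorem nodalRed_c₁ : (nodalRed h hl₁₀ hl₁₁ hl₂₀ hl₂₁).c₁ = c1 h := rfl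

@[simp] theorem nodalRed_c₂ : (nodalRed h hl₁₀ hl₁₁ hl₂₀ hl₂₁).c₂ = c2 h := rfl

theorem compat :
    (nodalRed h hl₁₀ hl₁₁ hl₂₀ hl₂₁).Compat (fun σ : Iner A => gal (M' * p) (σ : GQ)) :=
  NodalInst4E.compat h _ _

include hl₁₀ hl₁₁ hl₂₀ hl₂₁ in
/-- **THE (e)-PACKAGE from the level data.** -/
theorem exists_package :
    ∃ (ι : Type) (_ : Finite ι) (Nd : NodalData (Setup8.kA A) (Fb A M') (Fb A M') ι)
      (Nr : NodalRed A ↥(Fbar (M' * p)) Nd),
      Nr.c₁ = c1 h ∧ Nr.c₂ = c2 h ∧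
      Fermat.Agent.T33.Psi3F.pu Nr.c₁ = puOne A (M' * p) ∧
      Fermat.Agent.T33.Psi3F.pu Nr.c₂ = puTwo A (M' * p) ∧
      Nr.Compat (fun σ : Iner A => gal (M' * p) (σ : GQ)) :=
  NodalInst4E.exists_package h (PushWire5.hpush₁ (inp h) rfl hl₁₀ hl₁₁)
    (PushWire5.hpush₂ (inp h) rfl hl₂₀ hl₂₁)

end Fermat.Agent.T33.NodalInst4F
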