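/-
T33/PushLoc9C (helper9): Programme T (S33), nodal layer, chapter (e), block PUSH, layer (P-loc):
**ONE FINITE LEVEL of the local ring of the model at a point lying on one component only**
(generic `(R, K, F)` vocabulary of `ES/N34/NodalCore13`, as in `T33/LocalReg5A`).

FINITE LEVEL: `(R, Ff, π, B, Oon, Ooff)` — a chart `B` (an `R`-subalgebra of the function field `Ff`)
of a nodal model with the two Gauss valuation rings `Oon` (the component through the point) and
`Ooff` (the other component), `π`-saturated in `Oon ⊓ Ooff`.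
TOP LEVEL: `c : HalfRed A F Fb`, `X : PushLoc9.PointChart c`, a field embedding `f : Ff →+* F` with
`f B ⊆ X.B₀`, `f Oon ⊆ c.O`, `f π = πA ∈ 𝔪_A`.

* `levelHom`, `levelIdeal` (`𝔪_K` = the contraction of the point; prime), `levelRing`
  (`= f ((B)_{𝔪_K}) ⊆ X.Bx`, the image of the local ring of the finite-level chart);
* `OneLevel` : the list of hypotheses; from it, ELEMENTWISE in `F`:
  `levelRing_le`, `const_mem_levelRing`, `isNoetherianRing_levelRing`, `inv_mem_levelRing` (local),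
  `smooth_levelRing` (`𝔪 = (π, s)` from `NodalCL13.SmoothAt`), **`L3_levelRing`** (`ρ b = 0 ⟹ π ∣ b`
  in the local ring: local saturation after inverting `e ∈ B ∖ 𝔪_K` with `e ∈ π Ooff` — the argument
  of `NodalSmooth13.locStart_of_smooth`), `mem_levelRing_of_frac` (for (L0)).
These are the fields of `PushLoc9.IsLevelData` at one level.
-/
import Mathlib
import Fermat.Agent.T33.PushLoc9B
import Fermat.Agent.ES.N34.NodalSmooth13
import Fermat.Agent.ES.N34.NodalCL13

set_option autoImplicit false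
set_option linter.unusedSectionVars false
set_option linter.style.haveILetI false

open AlgebraicCurve IsLocalRing

noncomputable section

namespace Fermat.Agent.T33.PushLoc9

open Fermat.Agent.T33.NodalCtx1 Fermat.Agent.T33.NodalAbs1A Fermat.Agent.FF.GaussOv1
  Fermat.Agent.ES.N34.NodalCore13 Fermat.Agent.ES.N34.NodalSmooth13 Fermat.Agent.ES.N34.NodalCL13

variable {K : Type*} [Field K] {A : ValuationSubring K}
variable {F : Type*} [Field F] [Algebra K F]
variable {Fb : Type*} [Field Fb] [Algebra (ResidueField A) Fb]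
variable {c : HalfRed A F Fb} (X : PointChart c)
variable {R Ff : Type*} [CommRing R] [Field Ff] [Algebra R Ff]

/-- the level map on the charts. -/
def levelHom (f : Ff →+* F) (B : Subalgebra R Ff) (hfB : ∀ b ∈ B, f b ∈ X.B₀) : B →+* X.B₀ where
  toFun b := ⟨f (b : Ff), hfB _ b.2⟩
  map_one' := Subtype.ext (by simp)
  map_mul' a b := Subtype.ext (by simp)
  map_zero' := Subtype.ext (by simp)
  map_add' a b := Subtype.ext (by simp)

@[simp] theorem coe_levelHom (f : Ff →+* F) (B : Subalgebra R Ff) (hfB : ∀ b ∈ B, f b ∈ X.B₀)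
    (b : B) : ((levelHom X f B hfB b : X.B₀) : F) = f (b : Ff) := rfl

/-- the contraction of the point to the finite-level chart. -/
def levelIdeal (f : Ff →+* F) (B : Subalgebra R Ff) (hfB : ∀ b ∈ B, f b ∈ X.B₀) : Ideal B :=
  RingHom.ker (X.χ.comp (levelHom X f B hfB))

theorem mem_levelIdeal_iff (f : Ff →+* F) (B : Subalgebra R Ff) (hfB : ∀ b ∈ B, f b ∈ X.B₀)
    (b : B) : b ∈ levelIdeal X f B hfB ↔ X.χ (levelHom X f B hfB b) = 0 := Iff.rfl

instance levelIdeal_isPrime (f : Ff →+* F) (B : Subalgebra R Ff) (hfB : ∀ b ∈ B, f b ∈ X.B₀) :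
    (levelIdeal X f B hfB).IsPrime :=
  RingHom.ker_isPrime _

/-- **the image of the local ring of the finite-level chart at the contraction of the point.** -/
def levelRing (f : Ff →+* F) (B : Subalgebra R Ff) (hfB : ∀ b ∈ B, f b ∈ X.B₀) : Subring F :=
  (locSub B (levelIdeal X f B hfB)).toSubring.map f

theorem mem_levelRing_iff (f : Ff →+* F) (B : Subalgebra R Ff) (hfB : ∀ b ∈ B, f b ∈ X.B₀)
    (y : F) : y ∈ levelRing X f B hfB ↔
      ∃ x : Ff, (∃ a d : B, d ∉ levelIdeal X f B hfB ∧ x * (d : Ff) = (a : Ff)) ∧ f x = y := by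
  constructor
  · rintro ⟨x, hx, rfl⟩
    exact ⟨x, hx, rfl⟩
  · rintro ⟨x, hx, rfl⟩
    exact ⟨x, hx, rfl⟩

/-- the hypotheses at one finite level. -/
structure OneLevel (π : R) (B : Subalgebra R Ff) (Oon Ooff : ValuationSubring Ff) (f : Ff →+* F)
    (πA : A) : Prop where
  hfB : ∀ b ∈ B, f b ∈ X.B₀
  noethB : IsNoetherianRing B
  leOn : ∀ x ∈ B, x ∈ Oon
  leOff : ∀ x ∈ B, x ∈ Ooff
  unifOn : ∀ x ∈ Oon, x⁻¹ ∉ Oon → ∃ c ∈ Oon, x = algebraMap R Ff π * c
  archOff : ∀ x : Ff, ∃ k : ℕ, algebraMap R Ff π ^ k * x ∈ Ooff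
  sat : ∀ b ∈ B, ∀ c : Ff, c ∈ Oon → c ∈ Ooff → b = algebraMap R Ff π * c → c ∈ B
  /-- ascent of the Gauss ring of the component. -/
  hOn : ∀ x ∈ Oon, f x ∈ c.O
  hπ : f (algebraMap R Ff π) = algebraMap K F (πA : K)
  πA_mem : πA ∈ maximalIdeal A
  /-- the other component does not pass through the point. -/
  hoff : OffBranch π B Ooff (levelIdeal X f B hfB)
  /-- smoothness of the finite-level model at the point. -/
  hsm : SmoothAt π B (levelIdeal X f B hfB)

namespace OneLevel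

variable {X}
variable {π : R} {B : Subalgebra R Ff} {Oon Ooff : ValuationSubring Ff} {f : Ff →+* F} {πA : A}
  (L : OneLevel X π B Oon Ooff f πA)

include L

/-- `𝔪_K`. -/
theorem mem_ideal_iff (b : B) : b ∈ levelIdeal X f B L.hfB ↔ X.χ ⟨f (b : Ff), L.hfB _ b.2⟩ = 0 :=
  Iff.rfl

theorem ρ_const_πA : c.ρ ⟨algebraMap K F (πA : K), c.algebraMap_mem πA⟩ = 0 := by
  rw [c.ρ_algebraMap, (residue_eq_zero_iff _).2 L.πA_mem, map_zero]

/-- the point lies on the component `Oon`: `B ∩ π Oon ⊆ 𝔪_K`. -/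
theorem hon (b : B) (hb : ∃ c' ∈ Oon, (b : Ff) = algebraMap R Ff π * c') :
    b ∈ levelIdeal X f B L.hfB := by
  obtain ⟨c', hc', e⟩ := hb
  rw [L.mem_ideal_iff]
  apply X.χ_of_ρ
  have h1 : f (b : Ff) = algebraMap K F (πA : K) * f c' := by rw [e, map_mul, L.hπ]
  have h2 : (⟨f (b : Ff), X.le (L.hfB _ b.2)⟩ : c.O) =
      ⟨algebraMap K F (πA : K), c.algebraMap_mem πA⟩ * ⟨f c', L.hOn c' hc'⟩ := Subtype.ext h1
  rw [h2, map_mul, L.ρ_const_πA, zero_mul]

/-- elements outside `𝔪_K` are units of `Oon`. -/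
theorem inv_mem_On (d : B) (hd : d ∉ levelIdeal X f B L.hfB) : ((d : Ff))⁻¹ ∈ Oon := by
  by_contra hcon
  obtain ⟨c', hc', hdc⟩ := L.unifOn _ (L.leOn _ d.2) hcon
  exact hd (L.hon d ⟨c', hc', hdc⟩)

/-- the local ring lies in `Oon`. -/
theorem locSub_le_On (x : Ff) (hx : x ∈ locSub B (levelIdeal X f B L.hfB)) : x ∈ Oon := by
  obtain ⟨a, d, hd, h⟩ := hx
  have hd0 := coe_ne_zero_of_notMem B _ hd
  have : x = (a : Ff) * ((d : Ff))⁻¹ := by rw [← h]; field_simp
  rw [this]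
  exact Oon.mul_mem _ _ (L.leOn _ a.2) (L.inv_mem_On d hd)

/-- **local saturation**: `(B)_{𝔪_K} ∩ π Oon = π (B)_{𝔪_K}`. -/
theorem locSub_sat (b : Ff) (hb : b ∈ locSub B (levelIdeal X f B L.hfB)) (c' : Ff)
    (hc' : c' ∈ Oon) (hbc : b = algebraMap R Ff π * c') :
    c' ∈ locSub B (levelIdeal X f B L.hfB) := by
  have h𝔪p : (levelIdeal X f B L.hfB).IsPrime := inferInstance
  obtain ⟨a, d, hd, h⟩ := hb
  obtain ⟨e, he, o, ho, heo⟩ := L.hoff
  obtain ⟨k, hk⟩ := L.archOff (c' * (d : Ff))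
  have hmem : c' * (d : Ff) * (e : Ff) ^ (k + 1) ∈ B := by
    refine L.sat ((e : Ff) ^ (k + 1) * (a : Ff)) (B.mul_mem (B.pow_mem e.2 _) a.2) _ ?_ ?_ ?_
    · exact Oon.mul_mem _ _ (Oon.mul_mem _ _ hc' (L.leOn _ d.2)) (pow_mem (L.leOn _ e.2) _)
    · have : c' * (d : Ff) * (e : Ff) ^ (k + 1) =
          (e : Ff) * o ^ k * (algebraMap R Ff π ^ k * (c' * (d : Ff))) := by
        rw [heo]; ring
      rw [this]
      exact Ooff.mul_mem _ _ (Ooff.mul_mem _ _ (L.leOff _ e.2) (pow_mem ho _)) hk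
    · rw [← h, hbc]; ring
  refine ⟨⟨_, hmem⟩, d * e ^ (k + 1), fun hh => (h𝔪p.mem_or_mem hh).elim hd
    (fun h' => he (h𝔪p.mem_of_pow_mem _ h')), ?_⟩
  push_cast; ring

/-- the image of the local ring lies in the local ring of the model at the point. -/
theorem levelRing_le : levelRing X f B L.hfB ≤ X.Bx := by
  rintro y ⟨x, ⟨a, d, hd, h⟩, rfl⟩
  refine ⟨levelHom X f B L.hfB a, levelHom X f B L.hfB d, hd, ?_⟩
  rw [coe_levelHom, coe_levelHom, ← map_mul, h]

theorem map_mem_levelRing {x : Ff} (hx : x ∈ locSub B (levelIdeal X f B L.hfB)) :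
    f x ∈ levelRing X f B L.hfB := ⟨x, hx, rfl⟩

/-- a fraction of images of chart elements with denominator outside the point. -/
theorem mem_levelRing_of_frac (y : F) (a d : B) (hd : X.χ ⟨f (d : Ff), L.hfB _ d.2⟩ ≠ 0)
    (h : y * f (d : Ff) = f (a : Ff)) : y ∈ levelRing X f B L.hfB := by
  have hd' : d ∉ levelIdeal X f B L.hfB := hd
  have hd0 := coe_ne_zero_of_notMem B _ hd'
  refine ⟨(a : Ff) * ((d : Ff))⁻¹, ⟨a, d, hd', by field_simp⟩, ?_⟩
  have hfd : f (d : Ff) ≠ 0 := by rwa [ne_eq, map_eq_zero]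
  rw [map_mul, map_inv₀, ← h]
  field_simp

theorem const_mem_levelRing : algebraMap K F (πA : K) ∈ levelRing X f B L.hfB := by
  rw [← L.hπ]
  exact L.map_mem_levelRing ((locSub B _).algebraMap_mem π)

theorem isNoetherianRing_levelRing : IsNoetherianRing (levelRing X f B L.hfB) := by
  haveI := L.noethB
  haveI : IsNoetherianRing ↥(locSub B (levelIdeal X f B L.hfB)) :=
    IsLocalization.isNoetherianRing (levelIdeal X f B L.hfB).primeCompl _ L.noethB
  haveI : IsNoetherianRing ↥(locSub B (levelIdeal X f B L.hfB)).toSubring := ‹_›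
  exact isNoetherianRing_of_ringEquiv _
    ((locSub B (levelIdeal X f B L.hfB)).toSubring.equivMapOfInjective f f.injective)

/-- the numerator of a non-unit. -/
theorem χx_eq_of_frac (y : X.Bx) (a d : B) (hd : d ∉ levelIdeal X f B L.hfB)
    (h : (y : F) * f (d : Ff) = f (a : Ff)) :
    X.χx y = X.χ ⟨f (a : Ff), L.hfB _ a.2⟩ / X.χ ⟨f (d : Ff), L.hfB _ d.2⟩ :=
  X.χx_eq y ⟨f (a : Ff), L.hfB _ a.2⟩ ⟨f (d : Ff), L.hfB _ d.2⟩ hd h

/-- **local**: the units. -/
theorem inv_mem_levelRing (y : X.Bx) (hy : (y : F) ∈ levelRing X f B L.hfB) (hχ : X.χx y ≠ 0) :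
    ((y : F))⁻¹ ∈ levelRing X f B L.hfB := by
  obtain ⟨x, ⟨a, d, hd, h⟩, hxy⟩ := hy
  have hfx : (y : F) * f (d : Ff) = f (a : Ff) := by rw [← hxy, ← map_mul, h]
  have hχy := L.χx_eq_of_frac y a d hd hfx
  have ha : a ∉ levelIdeal X f B L.hfB := by
    intro ha
    apply hχ
    rw [hχy, (L.mem_ideal_iff a).1 ha, zero_div]
  have ha0 := coe_ne_zero_of_notMem B _ ha
  have hd0 := coe_ne_zero_of_notMem B _ hd
  have hx0 : x ≠ 0 := by
    rintro rfl
    rw [zero_mul] at h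
    exact ha0 h.symm
  refine ⟨x⁻¹, ⟨d, a, ha, ?_⟩, by rw [map_inv₀, hxy]⟩
  rw [← h]
  field_simp

/-- **smooth**: `𝔪 = (π, s)` in the local ring. -/
theorem smooth_levelRing : ∃ s : X.Bx, (s : F) ∈ levelRing X f B L.hfB ∧ X.χx s = 0 ∧
    ∀ y : X.Bx, (y : F) ∈ levelRing X f B L.hfB → X.χx y = 0 →
      ∃ a ∈ levelRing X f B L.hfB, ∃ b ∈ levelRing X f B L.hfB,
        (y : F) = a * algebraMap K F (πA : K) + b * (s : F) := by
  have h𝔪p : (levelIdeal X f B L.hfB).IsPrime := inferInstance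
  obtain ⟨s, hs, hgen⟩ := L.hsm
  have hsB : f (s : Ff) ∈ levelRing X f B L.hfB := L.map_mem_levelRing (le_locSub B _ s.2)
  refine ⟨⟨f (s : Ff), L.levelRing_le hsB⟩, hsB, ?_, ?_⟩
  · have : (⟨f (s : Ff), L.levelRing_le hsB⟩ : X.Bx) =
        ⟨((levelHom X f B L.hfB s : X.B₀) : F), X.B₀_le_Bx (levelHom X f B L.hfB s).2⟩ := rfl
    rw [this, X.χx_coe]
    exact hs
  · rintro y ⟨x, ⟨a, d, hd, h⟩, hxy⟩ hχ
    have hfx : (y : F) * f (d : Ff) = f (a : Ff) := by rw [← hxy, ← map_mul, h]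
    have hχy := L.χx_eq_of_frac y a d hd hfx
    have ha : a ∈ levelIdeal X f B L.hfB := by
      rw [L.mem_ideal_iff]
      rw [hχy] at hχ
      exact (div_eq_zero_iff.1 hχ).resolve_right hd
    obtain ⟨d', hd', hspan⟩ := hgen a ha
    obtain ⟨b₁, b₂, hb⟩ := Ideal.mem_span_pair.mp hspan
    have hd0 := coe_ne_zero_of_notMem B _ hd
    have hd'0 := coe_ne_zero_of_notMem B _ hd'
    have hdd' : d' * d ∉ levelIdeal X f B L.hfB :=
      fun hh => (h𝔪p.mem_or_mem hh).elim hd' hd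
    have hbF : (b₁ : Ff) * algebraMap R Ff π + (b₂ : Ff) * (s : Ff) = (d' : Ff) * (a : Ff) := by
      have := congrArg (Subtype.val) hb
      simpa using this
    have hinv : (((d' * d : B) : Ff))⁻¹ ∈ locSub B (levelIdeal X f B L.hfB) :=
      inv_mem_locSub B _ hdd'
    have hc₁ : (b₁ : Ff) * (((d' * d : B) : Ff))⁻¹ ∈ locSub B (levelIdeal X f B L.hfB) :=
      (locSub B _).mul_mem (le_locSub B _ b₁.2) hinv
    have hc₂ : (b₂ : Ff) * (((d' * d : B) : Ff))⁻¹ ∈ locSub B (levelIdeal X f B L.hfB) :=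
      (locSub B _).mul_mem (le_locSub B _ b₂.2) hinv
    refine ⟨_, L.map_mem_levelRing hc₁, _, L.map_mem_levelRing hc₂, ?_⟩
    rw [← hxy, ← L.hπ, ← map_mul, ← map_mul, ← map_add]
    congr 1
    have hxF : x = (a : Ff) * ((d : Ff))⁻¹ := by rw [← h]; field_simp
    rw [hxF]
    push_cast
    field_simp
    linear_combination -hbF

/-- **(L3)**: the kernel of the reduction on the local ring is generated by `π`. -/
theorem L3_levelRing (y : X.Bx) (hy : (y : F) ∈ levelRing X f B L.hfB) (hρ : X.ρx y = 0) :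
    ∃ b' ∈ levelRing X f B L.hfB, (y : F) = algebraMap K F (πA : K) * b' := by
  obtain ⟨x, hx, hxy⟩ := hy
  rcases eq_or_ne x 0 with rfl | hx0
  · exact ⟨0, Subring.zero_mem _, by rw [← hxy, map_zero, mul_zero]⟩
  have hxOn := L.locSub_le_On x hx
  by_cases hinv : x⁻¹ ∈ Oon
  · exfalso
    -- then `f x` is a unit of the Gauss ring
    have h1 : (⟨f x, L.hOn x hxOn⟩ : c.O) * ⟨f x⁻¹, L.hOn _ hinv⟩ = 1 := by
      apply Subtype.ext
      show f x * f x⁻¹ = 1
      rw [← map_mul, mul_inv_cancel₀ hx0, map_one]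
    have h2 := congrArg c.ρ h1
    rw [map_mul, map_one] at h2
    have h3 : c.ρ ⟨f x, L.hOn x hxOn⟩ = X.ρx y := by
      rw [PointChart.ρx_apply]
      congr 1
      exact Subtype.ext hxy
    rw [h3, hρ, zero_mul] at h2
    exact zero_ne_one h2
  · obtain ⟨c', hc', e⟩ := L.unifOn x hxOn hinv
    have hc'C := L.locSub_sat x hx c' hc' e
    exact ⟨f c', L.map_mem_levelRing hc'C, by rw [← hxy, e, map_mul, L.hπ]⟩

end OneLevel

end Fermat.Agent.T33.PushLoc9

end
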