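/-
Programme T (S33), chapter (e) "N34 over Qbar", block PUSH, layer (P-loc), step (α) (helper4):
**the concrete ONE-LEVEL instance of `PushLoc9.OneLevel`** at all large number fields.

`h : LevelHyp p M' A`, `s = tA h` or `(tA h)⁻¹`, `X : PushLoc9.PointChart (c_j h)` a closed point of the
chart `chart ↥A s` lying on the component `c_j h`, with an off-witness `e` (an element of the chart,
not vanishing at the point, killed by the reduction to the OTHER component).  For all large number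
fields `K` and every uniformiser `π` of `A ∩ K`:
`OneLevel X π (chart ↥(A ∩ K) s_K) Oon Ooff (baseChangeHom (M' p) K) (incl A K π)`,
with `(Oon, Ooff) = (O1, O2)` of `ModelDefs9` for `c1 h` and `(O2, O1)` for `c2 h`.

* `PushFields` : the fields of `NumData13.NodalNumData` used (= `LocalReg5C.ChartFields` + `unif1`,
  `unif2` + smoothness at the one-branch points); `pushFields_zero`, `pushFields_one`;
* `PushModelAt`, `large_pushModel_zero`, `large_pushModel_one` (from `ModelEnd4.modelInput_four`);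
* **`large_oneLevel₁`**, **`large_oneLevel₂`**.
-/
import Mathlib
import Fermat.Agent.T33.PushLoc9C
import Fermat.Agent.T33.LocalReg5C
import Fermat.Agent.T33.ChartOK5
import Fermat.Agent.ES.RED.LevelMax17

set_option autoImplicit false
set_option linter.unusedSectionVars false
set_option linter.style.haveILetI false
set_option linter.unusedVariables false
set_option synthInstance.maxHeartbeats 400000

noncomputable section

namespace Fermat.Agent.T33.PushLevel4

open HahnSeries ModularCurve IntermediateField AlgebraicCurve IsLocalRing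
open Fermat.Agent.RED.Interface4 Fermat.Agent.RED.PUR.GaussGen8 Fermat.Agent.RED.DESC
  Fermat.Agent.RED.DESC.PlaceExtend27 Fermat.Agent.RED.DESC.NumberFieldDVR27
  Fermat.Agent.RED.PUR.ChartGeneric22 Fermat.Agent.RED.BASE.EtaQuot12
  Fermat.Agent.ES.RED Fermat.Agent.ES.N34.ModelN4 Fermat.Agent.ES.N34.FrickeFK8
  Fermat.Agent.ES.N34.NodalCore13 Fermat.Agent.ES.N34.NumData13 Fermat.Agent.ES.N34.ModelDefs9
  Fermat.Agent.ES.N34.ModelInput13 Fermat.Agent.ES.N34.NodalCL13
  Fermat.Agent.T33.NodalCtx1 Fermat.Agent.T33.NodalHalf4 Fermat.Agent.T33.LocalReg5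
  Fermat.Agent.T33.LocalReg5B Fermat.Agent.T33.LocalReg5C Fermat.Agent.T33.PushLoc9

/-! ### the finite-level fields used by PUSH -/

section Generic

variable {Kt : Type*} [Field Kt] (O : ValuationSubring Kt)
  (E : IntermediateField Kt (LaurentSeries Kt))

/-- the fields of `NumData13.NodalNumData` used by PUSH, for one chart `B` with coordinate `t`. -/
structure PushFields (π : O) (t : E) (B : Subalgebra ↥O ↥E) (O1 O2 : ValuationSubring ↥E) :
    Prop where
  chart : ChartFields O E π t B O1 O2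
  unif1 : ∀ x ∈ O1, x⁻¹ ∉ O1 → ∃ c ∈ O1, x = algebraMap ↥O ↥E π * c
  unif2 : ∀ x ∈ O2, x⁻¹ ∉ O2 → ∃ c ∈ O2, x = algebraMap ↥O ↥E π * c
  smooth : ∀ 𝔪 : Ideal B, 𝔪.IsMaximal → algebraMap ↥O B π ∈ 𝔪 →
    OffBranch π B O1 𝔪 ∨ OffBranch π B O2 𝔪 → SmoothAt π B 𝔪

variable {O E}

theorem pushFields_zero {π : O} {t : E} {B0 B1 : Subalgebra ↥O ↥E} {O1 O2 : ValuationSubring ↥E}
    (D : NodalDataAt O E π t B0 B1 O1 O2) : PushFields O E π t B0 O1 O2 := by
  haveI := Fermat.Agent.RED.NumInst4.isScalarTower_OE O E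
  have D' : NodalNumData ↥O Kt ↥E π t B0 B1 O1 O2 := D
  exact
    { chart := chartFields_zero D
      unif1 := D'.model.unif1
      unif2 := D'.model.unif2
      smooth := D'.smooth0 }

theorem pushFields_one {π : O} {t : E} {B0 B1 : Subalgebra ↥O ↥E} {O1 O2 : ValuationSubring ↥E}
    (D : NodalDataAt O E π t B0 B1 O1 O2) : PushFields O E π t⁻¹ B1 O1 O2 := by
  haveI := Fermat.Agent.RED.NumInst4.isScalarTower_OE O E
  have D' : NodalNumData ↥O Kt ↥E π t B0 B1 O1 O2 := D
  exact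
    { chart := chartFields_one D
      unif1 := D'.model.unif1
      unif2 := D'.model.unif2
      smooth := D'.smooth1 }

end Generic

/-! ### the finite-level models -/

section Concrete

variable {p M' : ℕ} [NeZero M'] [NeZero p] {A : ValuationSubring Qbar}

/-- shortcut instance. -/
local instance (priority := high) algAKFK (K : IntermediateField ℚ Qbar) :
    Algebra ↥(AK A K) ↥(FK (M' * p) K) := inferInstance

/-- shortcut instance. -/
local instance (priority := high) algKFK (K : IntermediateField ℚ Qbar) :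
    Algebra ↥K ↥(FK (M' * p) K) := inferInstance

/-- shortcut instance. -/
local instance (priority := high) algQbarFbar : Algebra Qbar ↥(Fbar (M' * p)) := inferInstance

/-- shortcut instance. -/
local instance (priority := high) algAFbar : Algebra ↥A ↥(Fbar (M' * p)) := inferInstance

/-- the chart `chart ↥A s` has a finite-level model at `K`, with the fields used by PUSH. -/
def PushModelAt (p M' : ℕ) [NeZero M'] [NeZero p] (A : ValuationSubring Qbar)
    (s : Fbar (M' * p)) (K : IntermediateField ℚ Qbar) : Prop :=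
  ∃ (sK : FK (M' * p) K) (hE : FK (M' * p) K ≤ fracField (AK A K)),
    baseChangeHom (M' * p) K sK = s ∧
      ∀ (π : ↥(AK A K)) (hπ : IsUnif (AK A K) π),
        PushFields (AK A K) (FK (M' * p) K) π sK (chart ↥(AK A K) sK)
          (O1 M' p hπ hE) (O2 M' p hπ hE)

/-- **the finite-level models of the chart `0`.** -/
theorem large_pushModel_zero (h : LevelHyp p M' A) (t : Fbar (M' * p))
    (htq : ((t : Fbar (M' * p)) : LaurentSeries Qbar) = tq Qbar 4 8) :
    Large (PushModelAt p M' A t) := by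
  obtain ⟨K₀, hK₀, H⟩ := Fermat.Agent.ES.N34.ModelEnd4.modelInput_four p M' A h.prime h.not_dvd
    h.ne_two h.four_dvd h.liesOver
  refine ⟨K₀, hK₀, fun K _ hfd hle => ?_⟩
  obtain ⟨ht, hE, HD⟩ := H K hfd hle
  exact ⟨tN p ht, hE, LocalReg5C.baseChangeHom_tN K ht t htq,
    fun π hπ => pushFields_zero (HD π hπ)⟩

/-- **the finite-level models of the chart `1`.** -/
theorem large_pushModel_one (h : LevelHyp p M' A) (t : Fbar (M' * p))
    (htq : ((t : Fbar (M' * p)) : LaurentSeries Qbar) = tq Qbar 4 8) :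
    Large (PushModelAt p M' A t⁻¹) := by
  obtain ⟨K₀, hK₀, H⟩ := Fermat.Agent.ES.N34.ModelEnd4.modelInput_four p M' A h.prime h.not_dvd
    h.ne_two h.four_dvd h.liesOver
  refine ⟨K₀, hK₀, fun K _ hfd hle => ?_⟩
  obtain ⟨ht, hE, HD⟩ := H K hfd hle
  refine ⟨(tN p ht)⁻¹, hE, ?_, fun π hπ => pushFields_one (HD π hπ)⟩
  rw [map_inv₀, LocalReg5C.baseChangeHom_tN K ht t htq]

/-! ### the uniformiser -/

theorem incl_mem_maximalIdeal {K : IntermediateField ℚ Qbar} {π : ↥(AK A K)}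
    (hπ : IsUnif (AK A K) π) : incl A K π ∈ maximalIdeal ↥A := by
  rw [← NumberFieldDVR27.mem_maximalIdeal_iff, hπ.max_eq]
  exact Ideal.mem_span_singleton_self π

theorem baseChangeHom_unif (K : IntermediateField ℚ Qbar) (π : ↥(AK A K)) :
    baseChangeHom (M' * p) K (algebraMap ↥(AK A K) ↥(FK (M' * p) K) π) =
      algebraMap Qbar ↥(Fbar (M' * p)) ((incl A K π : ↥A) : Qbar) :=
  baseChangeHom_algebraMap (M' * p) K ((π : ↥(AK A K)) : ↥K)

/-! ### the one-level data, generic in the two components -/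

set_option maxHeartbeats 2000000 in
/-- **one level**, generic form: `Oon`/`Ooff` are the two Gauss valuation rings in either order. -/
theorem oneLevel_of_fields (h : LevelHyp p M' A) {c : HalfRed A ↥(Fbar (M' * p)) (Fb A M')}
    (X : PointChart c) (K : IntermediateField ℚ Qbar) (π : ↥(AK A K)) (hπ : IsUnif (AK A K) π)
    (sK : FK (M' * p) K) (Oon Ooff : ValuationSubring ↥(FK (M' * p) K))
    (hfB : ∀ b ∈ chart ↥(AK A K) sK, baseChangeHom (M' * p) K b ∈ X.B₀)
    (noethB : IsNoetherianRing ↥(chart ↥(AK A K) sK))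
    (leOn : ∀ x ∈ chart ↥(AK A K) sK, x ∈ Oon) (leOff : ∀ x ∈ chart ↥(AK A K) sK, x ∈ Ooff)
    (unifOn : ∀ x ∈ Oon, x⁻¹ ∉ Oon →
      ∃ c' ∈ Oon, x = algebraMap ↥(AK A K) ↥(FK (M' * p) K) π * c')
    (archOff : ∀ x : ↥(FK (M' * p) K), ∃ k : ℕ,
      algebraMap ↥(AK A K) ↥(FK (M' * p) K) π ^ k * x ∈ Ooff)
    (sat : ∀ b ∈ chart ↥(AK A K) sK, ∀ c' : ↥(FK (M' * p) K), c' ∈ Oon → c' ∈ Ooff →
      b = algebraMap ↥(AK A K) ↥(FK (M' * p) K) π * c' → c' ∈ chart ↥(AK A K) sK)
    (hOn : ∀ x ∈ Oon, baseChangeHom (M' * p) K x ∈ c.O)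
    (smooth : ∀ 𝔪 : Ideal ↥(chart ↥(AK A K) sK), 𝔪.IsMaximal →
      algebraMap ↥(AK A K) ↥(chart ↥(AK A K) sK) π ∈ 𝔪 →
      OffBranch π (chart ↥(AK A K) sK) Ooff 𝔪 → SmoothAt π (chart ↥(AK A K) sK) 𝔪)
    (e : X.B₀) (he : X.χ e ≠ 0) (eK : ↥(FK (M' * p) K)) (heK : eK ∈ chart ↥(AK A K) sK)
    (heK' : baseChangeHom (M' * p) K eK = (e : ↥(Fbar (M' * p))))
    (c' : ↥(FK (M' * p) K)) (hc' : c' ∈ Ooff)
    (hec' : eK = algebraMap ↥(AK A K) ↥(FK (M' * p) K) π * c') :
    OneLevel X π (chart ↥(AK A K) sK) Oon Ooff (baseChangeHom (M' * p) K) (incl A K π) := by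
  have hoff : OffBranch π (chart ↥(AK A K) sK) Ooff
      (levelIdeal X (baseChangeHom (M' * p) K) (chart ↥(AK A K) sK) hfB) := by
    refine ⟨⟨eK, heK⟩, ?_, c', hc', hec'⟩
    rw [mem_levelIdeal_iff]
    have : levelHom X (baseChangeHom (M' * p) K) (chart ↥(AK A K) sK) hfB ⟨eK, heK⟩ = e :=
      Subtype.ext heK'
    rw [this]
    exact he
  have hmax : (levelIdeal X (baseChangeHom (M' * p) K) (chart ↥(AK A K) sK) hfB).IsMaximal :=
    Fermat.Agent.ES.RED.LevelMax17.ker_isMaximal h.prime A h.liesOver _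
  have hπmem : algebraMap ↥(AK A K) ↥(chart ↥(AK A K) sK) π ∈
      levelIdeal X (baseChangeHom (M' * p) K) (chart ↥(AK A K) sK) hfB := by
    rw [mem_levelIdeal_iff]
    have h1 : levelHom X (baseChangeHom (M' * p) K) (chart ↥(AK A K) sK) hfB
        (algebraMap ↥(AK A K) ↥(chart ↥(AK A K) sK) π) =
        ⟨algebraMap Qbar ↥(Fbar (M' * p)) ((incl A K π : ↥A) : Qbar),
          X.const_mem (incl A K π)⟩ := by
      apply Subtype.ext
      rw [coe_levelHom]
      exact baseChangeHom_unif K π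
    rw [h1, X.χ_const, residue_eq_zero_iff]
    exact incl_mem_maximalIdeal hπ
  exact
    { hfB := hfB
      noethB := noethB
      leOn := leOn
      leOff := leOff
      unifOn := unifOn
      archOff := archOff
      sat := sat
      hOn := hOn
      hπ := baseChangeHom_unif K π
      πA_mem := incl_mem_maximalIdeal hπ
      hoff := hoff
      hsm := smooth _ hmax hπmem hoff }

/-! ### the two components -/

/-- **ONE LEVEL on the component `C₁`** (point off `C₂`), at all large number fields. -/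
theorem large_oneLevel₁ (h : LevelHyp p M' A) (s : Fbar (M' * p))
    (hmodel : Large (PushModelAt p M' A s)) (X : PointChart (c1 h))
    (hB : ∀ x, x ∈ X.B₀ ↔ x ∈ chart ↥A s) (e : X.B₀) (he : X.χ e ≠ 0)
    (he2 : (e : ↥(Fbar (M' * p))) ∈ (c2 h).O) (hρ : (c2 h).ρ ⟨(e : ↥(Fbar (M' * p))), he2⟩ = 0) :
    Large fun K => ∃ (sK : FK (M' * p) K) (hE : FK (M' * p) K ≤ fracField (AK A K)),
      baseChangeHom (M' * p) K sK = s ∧ ∀ (π : ↥(AK A K)) (hπ : IsUnif (AK A K) π),
        OneLevel X π (chart ↥(AK A K) sK) (O1 M' p hπ hE) (O2 M' p hπ hE)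
          (baseChangeHom (M' * p) K) (incl A K π) := by
  have hdesc : ∀ z : Fbar (M' * p), z ∈ (c2 h).O →
      Large fun K => ∀ zK : FK (M' * p) K, baseChangeHom (M' * p) K zK = z →
        iotaTwo (M' * p) K zK ∈ gaussRing (AK A K) :=
    fun z hz => large_mem_gauss_fricke A (M' * p) z
      ((mem_O1_iff_redA h _).1 ((NodalHalf4.mem_O2_iff h z).1 hz))
  have hoffL := large_off A (M' * p) (c2 h)
    (fun K x => iotaTwo (M' * p) K x ∈ gaussRing (AK A K)) hdesc (by
      intro K u x hx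
      show iotaTwo (M' * p) K (algebraMap ↥(AK A K) ↥(FK (M' * p) K) u * x) ∈ gaussRing (AK A K)
      have h2 : algebraMap ↥(AK A K) ↥(FK (M' * p) K) u =
          algebraMap ↥K ↥(FK (M' * p) K) ((u : ↥(AK A K)) : ↥K) := rfl
      have h1 : iotaTwo (M' * p) K (algebraMap ↥(AK A K) ↥(FK (M' * p) K) u * x) =
          HahnSeries.C ((u : ↥(AK A K)) : ↥K) * iotaTwo (M' * p) K x := by
        rw [map_mul, h2]
        congr 1
        show ((frickeFK (M' * p) K (algebraMap ↥K ↥(FK (M' * p) K) ((u : ↥(AK A K)) : ↥K)) :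
          FK (M' * p) K) : LaurentSeries K) = _
        rw [(frickeFK (M' * p) K).commutes]
        exact Fermat.Agent.RED.NumInst4.coe_algebraMap_OE (AK A K) (FK (M' * p) K) u
      rw [h1]
      exact mul_mem (C_mem (AK A K) u) hx) s
    (e : Fbar (M' * p)) ((hB _).1 e.2) he2 hρ
  refine (hmodel.and hoffL).mono ?_
  rintro K ⟨⟨sK, hE, hsK, hC⟩, hoffK⟩
  refine ⟨sK, hE, hsK, fun π hπ => ?_⟩
  have C := hC π hπ
  obtain ⟨eK, heK, heK', hπe⟩ := hoffK sK hsK
  obtain ⟨c', hc', hec'⟩ := hπe π hπ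
  have hfB : ∀ b ∈ chart ↥(AK A K) sK, baseChangeHom (M' * p) K b ∈ X.B₀ := by
    intro b hb
    have := ChartUnion1.baseChangeHom_mem_chart A (M' * p) K sK b hb
    rw [hsK] at this
    exact (hB _).2 this
  exact oneLevel_of_fields h X K π hπ sK (O1 M' p hπ hE) (O2 M' p hπ hE) hfB C.chart.noethB
    C.chart.leO1 C.chart.leO2 C.unif1 C.chart.arch2 C.chart.sat
    (fun x hx => Fermat.Agent.T33.ChartOK5.mem_O1_of_level h K x
      ((Fermat.Agent.ES.N34.ModelDefs9.mem_O1_iff M' p hπ hE x).1 hx))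
    (fun 𝔪 h𝔪 hπ𝔪 ho => C.smooth 𝔪 h𝔪 hπ𝔪 (Or.inr ho))
    e he eK heK heK' c' ((Fermat.Agent.ES.N34.ModelDefs9.mem_O2_iff M' p hπ hE c').2 hc') hec'

/-- **ONE LEVEL on the component `C₂`** (point off `C₁`), at all large number fields. -/
theorem large_oneLevel₂ (h : LevelHyp p M' A) (s : Fbar (M' * p))
    (hmodel : Large (PushModelAt p M' A s)) (X : PointChart (c2 h))
    (hB : ∀ x, x ∈ X.B₀ ↔ x ∈ chart ↥A s) (e : X.B₀) (he : X.χ e ≠ 0)
    (he1 : (e : ↥(Fbar (M' * p))) ∈ (c1 h).O) (hρ : (c1 h).ρ ⟨(e : ↥(Fbar (M' * p))), he1⟩ = 0) :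
    Large fun K => ∃ (sK : FK (M' * p) K) (hE : FK (M' * p) K ≤ fracField (AK A K)),
      baseChangeHom (M' * p) K sK = s ∧ ∀ (π : ↥(AK A K)) (hπ : IsUnif (AK A K) π),
        OneLevel X π (chart ↥(AK A K) sK) (O2 M' p hπ hE) (O1 M' p hπ hE)
          (baseChangeHom (M' * p) K) (incl A K π) := by
  have hdesc : ∀ z : Fbar (M' * p), z ∈ (c1 h).O →
      Large fun K => ∀ zK : FK (M' * p) K, baseChangeHom (M' * p) K zK = z →
        ((zK : FK (M' * p) K) : LaurentSeries K) ∈ gaussRing (AK A K) :=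
    fun z hz => large_mem_gauss A (M' * p) z ((mem_O1_iff_redA h z).1 hz)
  have hoffL := large_off A (M' * p) (c1 h)
    (fun K x => ((x : FK (M' * p) K) : LaurentSeries K) ∈ gaussRing (AK A K)) hdesc (by
      intro K u x hx
      have h1 : ((algebraMap ↥(AK A K) ↥(FK (M' * p) K) u * x : FK (M' * p) K) :
          LaurentSeries K) =
          HahnSeries.C ((u : ↥(AK A K)) : ↥K) * ((x : FK (M' * p) K) : LaurentSeries K) := by
        rw [MulMemClass.coe_mul, Fermat.Agent.RED.NumInst4.coe_algebraMap_OE]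
      rw [h1]
      exact mul_mem (C_mem (AK A K) u) hx) s
    (e : Fbar (M' * p)) ((hB _).1 e.2) he1 hρ
  refine (hmodel.and hoffL).mono ?_
  rintro K ⟨⟨sK, hE, hsK, hC⟩, hoffK⟩
  refine ⟨sK, hE, hsK, fun π hπ => ?_⟩
  have C := hC π hπ
  obtain ⟨eK, heK, heK', hπe⟩ := hoffK sK hsK
  obtain ⟨c', hc', hec'⟩ := hπe π hπ
  have hfB : ∀ b ∈ chart ↥(AK A K) sK, baseChangeHom (M' * p) K b ∈ X.B₀ := by
    intro b hb
    have := ChartUnion1.baseChangeHom_mem_chart A (M' * p) K sK b hb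
    rw [hsK] at this
    exact (hB _).2 this
  exact oneLevel_of_fields h X K π hπ sK (O2 M' p hπ hE) (O1 M' p hπ hE) hfB C.chart.noethB
    C.chart.leO2 C.chart.leO1 C.unif2 C.chart.arch1
    (fun b hb c'' h2 h1 hbc => C.chart.sat b hb c'' h1 h2 hbc)
    (fun x hx => Fermat.Agent.T33.ChartOK5.mem_O2_of_level h K x
      ((Fermat.Agent.ES.N34.ModelDefs9.mem_O2_iff M' p hπ hE x).1 hx))
    (fun 𝔪 h𝔪 hπ𝔪 ho => C.smooth 𝔪 h𝔪 hπ𝔪 (Or.inl ho))
    e he eK heK heK' c' ((Fermat.Agent.ES.N34.ModelDefs9.mem_O1_iff M' p hπ hE c').2 hc') hec'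

end Concrete

end Fermat.Agent.T33.PushLevel4
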