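/-
Programme T (S33), chapter (e) "N34 over ℚ̄", block PUSH, layer (P-loc), INTERFACE (helper5):
**the data of one finite level at a one-branch point of a chart `chart ↥A s` of the model of
`X₀(M'p)` over `A`.**

`h : LevelHyp p M' A`, `s : Fbar (M'p)`, `X : PushLoc9.PointChart (c1 h)` (resp. `(c2 h)`), `K` a number
field.  `LevelPack₁ h s X K` (resp. `LevelPack₂`): `s_K ∈ K·F_{M'p}` over `s`, a uniformiser `π` of
`A ∩ K`, and `PushLoc9.OneLevel` for the chart `chart (A ∩ K) s_K` with `Oon := O₁(K)`, `Ooff := O₂(K)`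
(resp. `Oon := O₂(K)`, `Ooff := O₁(K)`), the base change map and the constant `π`.
-/
import Mathlib
import Fermat.Agent.T33.PushLoc9C
import Fermat.Agent.T33.NodalHalf4
import Fermat.Agent.ES.N34.ModelDefs9

set_option autoImplicit false
set_option linter.unusedSectionVars false
set_option linter.style.haveILetI false
set_option linter.unusedVariables false
set_option synthInstance.maxHeartbeats 400000

noncomputable section

namespace Fermat.Agent.T33.PushPack5

open HahnSeries ModularCurve IntermediateField AlgebraicCurve IsLocalRing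
open Fermat.Agent.RED.Interface4 Fermat.Agent.RED.PUR.GaussGen8 Fermat.Agent.RED.DESC
  Fermat.Agent.RED.DESC.PlaceExtend27 Fermat.Agent.RED.DESC.NumberFieldDVR27
  Fermat.Agent.RED.PUR.ChartGeneric22
  Fermat.Agent.ES.RED Fermat.Agent.ES.N34.ModelDefs9
  Fermat.Agent.T33.NodalCtx1 Fermat.Agent.T33.NodalHalf4 Fermat.Agent.T33.PushLoc9

variable {p M' : ℕ} [NeZero M'] [NeZero p] {A : ValuationSubring Qbar}

/-- **one finite level at a point of the first component** (`Oon = O₁(K)`, `Ooff = O₂(K)`). -/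
structure LevelPack₁ (h : LevelHyp p M' A) (s : ↥(Fbar (M' * p))) (X : PointChart (c1 h))
    (K : IntermediateField ℚ Qbar) where
  sK : ↥(FK (M' * p) K)
  hsK : baseChangeHom (M' * p) K sK = s
  hE : FK (M' * p) K ≤ fracField (AK A K)
  π : ↥(AK A K)
  hπ : IsUnif (AK A K) π
  one : OneLevel X π (chart ↥(AK A K) sK) (Fermat.Agent.ES.N34.ModelDefs9.O1 M' p hπ hE)
    (Fermat.Agent.ES.N34.ModelDefs9.O2 M' p hπ hE) (baseChangeHom (M' * p) K) (incl A K π)

/-- **one finite level at a point of the second component** (`Oon = O₂(K)`, `Ooff = O₁(K)`). -/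
structure LevelPack₂ (h : LevelHyp p M' A) (s : ↥(Fbar (M' * p))) (X : PointChart (c2 h))
    (K : IntermediateField ℚ Qbar) where
  sK : ↥(FK (M' * p) K)
  hsK : baseChangeHom (M' * p) K sK = s
  hE : FK (M' * p) K ≤ fracField (AK A K)
  π : ↥(AK A K)
  hπ : IsUnif (AK A K) π
  one : OneLevel X π (chart ↥(AK A K) sK) (Fermat.Agent.ES.N34.ModelDefs9.O2 M' p hπ hE)
    (Fermat.Agent.ES.N34.ModelDefs9.O1 M' p hπ hE) (baseChangeHom (M' * p) K) (incl A K π)

end Fermat.Agent.T33.PushPack5
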