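/-
Programme T (S33), chapter (e), block PUSH, step (α), interface form (helper4): the one-level data of
`PushLevel4` packaged as helper5's `PushPack5.LevelPack₁/₂` (a uniformiser is chosen by
`ChartOK5.exists_unif`), at all large number fields, for both components and both charts.
-/
import Mathlib
import Fermat.Agent.T33.PushLevel4
import Fermat.Agent.T33.PushPack5
import Fermat.Agent.T33.NodalBase4A

set_option autoImplicit false
set_option linter.unusedSectionVars false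
set_option linter.style.haveILetI false
set_option linter.unusedVariables false
set_option synthInstance.maxHeartbeats 400000

noncomputable section

namespace Fermat.Agent.T33.PushLevel4

open HahnSeries ModularCurve IntermediateField AlgebraicCurve IsLocalRing
open Fermat.Agent.RED.Interface4 Fermat.Agent.RED.PUR.GaussGen8 Fermat.Agent.RED.DESC
  Fermat.Agent.RED.DESC.PlaceExtend27 Fermat.Agent.RED.DESC.NumberFieldDVR27
  Fermat.Agent.RED.PUR.ChartGeneric22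
  Fermat.Agent.ES.RED Fermat.Agent.ES.N34.ModelN4 Fermat.Agent.ES.N34.ModelDefs9
  Fermat.Agent.T33.NodalCtx1 Fermat.Agent.T33.NodalHalf4 Fermat.Agent.T33.PushLoc9
  Fermat.Agent.T33.PushPack5 Fermat.Agent.T33.NodalBase4A

variable {p M' : ℕ} [NeZero M'] [NeZero p] {A : ValuationSubring Qbar}

/-- shortcut instance. -/
local instance (priority := high) algAFbarB : Algebra ↥A ↥(Fbar (M' * p)) := inferInstance

/-- **the level packs on the component `C₁`**, at all large number fields. -/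
theorem large_levelPack₁ (h : LevelHyp p M' A) (s : Fbar (M' * p))
    (hmodel : Large (PushModelAt p M' A s)) (X : PointChart (c1 h))
    (hB : ∀ x, x ∈ X.B₀ ↔ x ∈ chart ↥A s) (e : X.B₀) (he : X.χ e ≠ 0)
    (he2 : (e : ↥(Fbar (M' * p))) ∈ (c2 h).O) (hρ : (c2 h).ρ ⟨(e : ↥(Fbar (M' * p))), he2⟩ = 0) :
    Large fun K => Nonempty (LevelPack₁ h s X K) := by
  obtain ⟨K₀, hK₀, H⟩ := large_oneLevel₁ h s hmodel X hB e he he2 hρ
  refine ⟨K₀, hK₀, fun K _ hfd hle => ?_⟩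
  obtain ⟨sK, hE, hsK, hL⟩ := H K hfd hle
  haveI := hfd
  obtain ⟨π, hπ⟩ := Fermat.Agent.T33.ChartOK5.exists_unif h K
  exact ⟨⟨sK, hsK, hE, π, hπ, hL π hπ⟩⟩

/-- **the level packs on the component `C₂`**, at all large number fields. -/
theorem large_levelPack₂ (h : LevelHyp p M' A) (s : Fbar (M' * p))
    (hmodel : Large (PushModelAt p M' A s)) (X : PointChart (c2 h))
    (hB : ∀ x, x ∈ X.B₀ ↔ x ∈ chart ↥A s) (e : X.B₀) (he : X.χ e ≠ 0)
    (he1 : (e : ↥(Fbar (M' * p))) ∈ (c1 h).O) (hρ : (c1 h).ρ ⟨(e : ↥(Fbar (M' * p))), he1⟩ = 0) :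
    Large fun K => Nonempty (LevelPack₂ h s X K) := by
  obtain ⟨K₀, hK₀, H⟩ := large_oneLevel₂ h s hmodel X hB e he he1 hρ
  refine ⟨K₀, hK₀, fun K _ hfd hle => ?_⟩
  obtain ⟨sK, hE, hsK, hL⟩ := H K hfd hle
  haveI := hfd
  obtain ⟨π, hπ⟩ := Fermat.Agent.T33.ChartOK5.exists_unif h K
  exact ⟨⟨sK, hsK, hE, π, hπ, hL π hπ⟩⟩

/-! ### the four concrete cases -/

theorem large_levelPack₁_zero (h : LevelHyp p M' A) (X : PointChart (c1 h))
    (hB : ∀ x, x ∈ X.B₀ ↔ x ∈ chart ↥A (tA h))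
    (hoff : ∃ e : X.B₀, X.χ e ≠ 0 ∧ ∃ he : (e : ↥(Fbar (M' * p))) ∈ (c2 h).O,
      (c2 h).ρ ⟨(e : ↥(Fbar (M' * p))), he⟩ = 0) :
    Large fun K => Nonempty (LevelPack₁ h (tA h) X K) := by
  obtain ⟨e, he, he2, hρ⟩ := hoff
  exact large_levelPack₁ h (tA h) (large_pushModel_zero h (tA h) (coe_tA h)) X hB e he he2 hρ

theorem large_levelPack₁_one (h : LevelHyp p M' A) (X : PointChart (c1 h))
    (hB : ∀ x, x ∈ X.B₀ ↔ x ∈ chart ↥A (tA h)⁻¹)
    (hoff : ∃ e : X.B₀, X.χ e ≠ 0 ∧ ∃ he : (e : ↥(Fbar (M' * p))) ∈ (c2 h).O,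
      (c2 h).ρ ⟨(e : ↥(Fbar (M' * p))), he⟩ = 0) :
    Large fun K => Nonempty (LevelPack₁ h (tA h)⁻¹ X K) := by
  obtain ⟨e, he, he2, hρ⟩ := hoff
  exact large_levelPack₁ h (tA h)⁻¹ (large_pushModel_one h (tA h) (coe_tA h)) X hB e he he2 hρ

theorem large_levelPack₂_zero (h : LevelHyp p M' A) (X : PointChart (c2 h))
    (hB : ∀ x, x ∈ X.B₀ ↔ x ∈ chart ↥A (tA h))
    (hoff : ∃ e : X.B₀, X.χ e ≠ 0 ∧ ∃ he : (e : ↥(Fbar (M' * p))) ∈ (c1 h).O,
      (c1 h).ρ ⟨(e : ↥(Fbar (M' * p))), he⟩ = 0) :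
    Large fun K => Nonempty (LevelPack₂ h (tA h) X K) := by
  obtain ⟨e, he, he1, hρ⟩ := hoff
  exact large_levelPack₂ h (tA h) (large_pushModel_zero h (tA h) (coe_tA h)) X hB e he he1 hρ

theorem large_levelPack₂_one (h : LevelHyp p M' A) (X : PointChart (c2 h))
    (hB : ∀ x, x ∈ X.B₀ ↔ x ∈ chart ↥A (tA h)⁻¹)
    (hoff : ∃ e : X.B₀, X.χ e ≠ 0 ∧ ∃ he : (e : ↥(Fbar (M' * p))) ∈ (c1 h).O,
      (c1 h).ρ ⟨(e : ↥(Fbar (M' * p))), he⟩ = 0) :
    Large fun K => Nonempty (LevelPack₂ h (tA h)⁻¹ X K) := by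
  obtain ⟨e, he, he1, hρ⟩ := hoff
  exact large_levelPack₂ h (tA h)⁻¹ (large_pushModel_one h (tA h) (coe_tA h)) X hB e he he1 hρ

end Fermat.Agent.T33.PushLevel4
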