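/-
Programme T (S33), chapter (e) "N34 over ℚ̄", block PUSH, layer (P-loc), UNION step (helper5):
**`PushLoc9.IsLevelData` from a directed family of one-level data `PushLoc9.OneLevel`.**

`X : PointChart c`; for `i : J` a finite level `(R i, Ff i, π i, B i, Oon i, Ooff i, f i, πA i)` with
`L i : OneLevel X (π i) (B i) (Oon i) (Ooff i) (f i) (πA i)` (helper9's `T33/PushLoc9C`).  If every
finite list of elements of the local ring `X.Bx` consists of fractions `f a / f d` of elements of one
level with `d` outside the point (`hdir`), the level rings `levelRing X (f i) (B i)` form an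
`IsLevelData`.
-/
import Mathlib
import Fermat.Agent.T33.PushLoc9C

set_option autoImplicit false
set_option linter.unusedSectionVars false
set_option linter.style.haveILetI false
set_option linter.unusedVariables false

open AlgebraicCurve IsLocalRing

noncomputable section

namespace Fermat.Agent.T33.PushLevels5

open Fermat.Agent.T33.NodalCtx1 Fermat.Agent.T33.PushLoc9

universe uJ uR uF

variable {K : Type*} [Field K] {A : ValuationSubring K}
variable {F : Type*} [Field F] [Algebra K F]
variable {Fb : Type*} [Field Fb] [Algebra (ResidueField A) Fb]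
variable {c : HalfRed A F Fb} (X : PointChart c)
variable {J : Type uJ} {R : J → Type uR} {Ff : J → Type uF} [∀ i, CommRing (R i)]
  [∀ i, Field (Ff i)] [∀ i, Algebra (R i) (Ff i)]
  (π : ∀ i, R i) (B : ∀ i, Subalgebra (R i) (Ff i)) (Oon Ooff : ∀ i, ValuationSubring (Ff i))
  (f : ∀ i, Ff i →+* F) (πA : J → A)

/-- **the union step.** -/
theorem isLevelData_of_oneLevels
    (L : ∀ i, OneLevel X (π i) (B i) (Oon i) (Ooff i) (f i) (πA i))
    (hπ0 : ∀ i, πA i ≠ 0)
    (hdir : ∀ S : List X.Bx, ∃ i, ∀ b ∈ S, ∃ a d : B i,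
      X.χ ⟨f i (d : Ff i), (L i).hfB _ d.2⟩ ≠ 0 ∧ (b : F) * f i (d : Ff i) = f i (a : Ff i)) :
    IsLevelData X (fun i => levelRing X (f i) (B i) (L i).hfB) πA where
  Bk_le i := (L i).levelRing_le
  exists_level S := by
    obtain ⟨i, hi⟩ := hdir S
    refine ⟨i, fun b hb => ?_⟩
    obtain ⟨a, d, hd, h⟩ := hi b hb
    exact (L i).mem_levelRing_of_frac _ a d hd h
  π_ne := hπ0
  π_mem i := (L i).πA_mem
  const_π_mem i := (L i).const_mem_levelRing
  noeth i := (L i).isNoetherianRing_levelRing
  inv_mem i b hb hχ := (L i).inv_mem_levelRing b hb hχ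
  smooth i := (L i).smooth_levelRing
  L3 i b hb hρ := (L i).L3_levelRing b hb hρ

end Fermat.Agent.T33.PushLevels5
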