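/-
Programme T (S33), chapter (e) "N34 over ℚ̄", block PUSH, layer (P-loc), step (γ) (helper1):
**the directed system of the finite levels** — `PushLoc9.IsLevelData` for a point chart `X` whose ring
is `chart ↥A s`, from one-level data `PushLoc9.OneLevel` at all large number fields.

`N` any level, `c : HalfRed A ↥(Fbar N) Fb` a component, `X : PushLoc9.PointChart c` with
`X.B₀ = chart ↥A s` (as sets).  Index type `J` := the number fields `K ⊂ ℚ̄`, normal and finite over
`ℚ`, at which the one-level data exist (`Q K`); level rings := helper9's `levelRing`; the union step is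
helper5's `PushLevels5.isLevelData_of_oneLevels`; DIRECTEDNESS: the finitely many numerators and
denominators of a finite list of elements of the local ring `X.Bx` descend to one large level
(`LocalReg5B.large_chart`).

* `FracAt`, `large_frac` : descent of one element of `X.Bx`; `large_frac_list` : of a finite list;
* `exists_levelData` : `∃ J Bk π, IsLevelData X Bk π` (the conclusion of helper5's
  `PushWire5.HasLevels₁/₂`).
-/
import Mathlib
import Fermat.Agent.T33.PushLevels5
import Fermat.Agent.T33.LocalReg5B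

set_option autoImplicit false
set_option linter.unusedSectionVars false
set_option linter.style.haveILetI false
set_option linter.unusedVariables false
set_option synthInstance.maxHeartbeats 400000

noncomputable section

namespace Fermat.Agent.T33.PushUnion1

open HahnSeries ModularCurve IntermediateField AlgebraicCurve IsLocalRing
open Fermat.Agent.RED.Interface4 Fermat.Agent.RED.DESC
  Fermat.Agent.RED.DESC.PlaceExtend27 Fermat.Agent.RED.DESC.NumberFieldDVR27
  Fermat.Agent.RED.PUR.ChartGeneric22
  Fermat.Agent.ES.RED Fermat.Agent.ES.N34.ModelN4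
  Fermat.Agent.T33.NodalCtx1 Fermat.Agent.T33.PushLoc9 Fermat.Agent.T33.LocalReg5B

variable {A : ValuationSubring Qbar} {N : ℕ}
variable {Fb : Type*} [Field Fb] [Algebra (ResidueField ↥A) Fb]

/-- shortcut instance (typeclass search is slow here). -/
local instance (priority := high) algebraAFbarU (N : ℕ) : Algebra ↥A ↥(Fbar N) := inferInstance

/-- shortcut instance (typeclass search takes 3 s to find it). -/
local instance (priority := high) algebraAKFKU (K : IntermediateField ℚ Qbar) (N : ℕ) :
    Algebra ↥(AK A K) ↥(FK N K) := inferInstance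

/-- shortcut instance. -/
local instance (priority := high) algebraQbarFbarU (N : ℕ) : Algebra Qbar ↥(Fbar N) :=
  inferInstance

variable {c : HalfRed A ↥(Fbar N) Fb} (X : PointChart c)

/-- the elements of the list `S` of the local ring are fractions of elements of the finite-level
chart at `K`, with denominators outside the point. -/
def FracAt (s : Fbar N) (S : List X.Bx) (K : IntermediateField ℚ Qbar) : Prop :=
  ∀ b ∈ S, ∀ sK : FK N K, baseChangeHom N K sK = s →
    ∃ a ∈ chart ↥(AK A K) sK, ∃ d ∈ chart ↥(AK A K) sK,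
      (∀ hd : baseChangeHom N K d ∈ X.B₀, X.χ ⟨baseChangeHom N K d, hd⟩ ≠ 0) ∧
        (b : Fbar N) * baseChangeHom N K d = baseChangeHom N K a

/-- **descent of an element of the local ring**: at all large `K`, it is a fraction of elements of
the finite-level chart with denominator outside the point. -/
theorem large_frac (s : Fbar N) (hB : ∀ x : Fbar N, x ∈ X.B₀ ↔ x ∈ chart ↥A s) (b : X.Bx) :
    Large fun K => ∀ sK : FK N K, baseChangeHom N K sK = s →
      ∃ a ∈ chart ↥(AK A K) sK, ∃ d ∈ chart ↥(AK A K) sK,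
        (∀ hd : baseChangeHom N K d ∈ X.B₀, X.χ ⟨baseChangeHom N K d, hd⟩ ≠ 0) ∧
          (b : Fbar N) * baseChangeHom N K d = baseChangeHom N K a := by
  obtain ⟨a₀, d₀, hd₀, hbd⟩ := X.mem_Bx_iff.1 b.2
  refine ((large_chart A N s (a₀ : Fbar N) ((hB _).1 a₀.2)).and
    (large_chart A N s (d₀ : Fbar N) ((hB _).1 d₀.2))).mono ?_
  rintro K ⟨ha, hd⟩ sK hsK
  obtain ⟨a, haB, haa⟩ := ha sK hsK
  obtain ⟨d, hdB, hdd⟩ := hd sK hsK
  refine ⟨a, haB, d, hdB, fun hd' => ?_, by rw [haa, hdd]; exact hbd⟩
  have e : (⟨baseChangeHom N K d, hd'⟩ : X.B₀) = d₀ := Subtype.ext hdd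
  rw [e]
  exact hd₀

/-- descent of a finite list of elements of the local ring. -/
theorem large_frac_list (s : Fbar N) (hB : ∀ x : Fbar N, x ∈ X.B₀ ↔ x ∈ chart ↥A s)
    (S : List X.Bx) : Large (FracAt X s S) := by
  induction S with
  | nil => exact Large.of_forall fun K b hb => absurd hb (List.not_mem_nil)
  | cons b₀ S ih =>
    refine ((large_frac X s hB b₀).and ih).mono ?_
    intro K hK b hb
    rcases List.mem_cons.1 hb with hb | hb
    · subst hb
      exact hK.1
    · exact hK.2 b hb

set_option maxHeartbeats 400000 in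
/-- **the directed system of the finite levels.**  `Q` is any `Large` property of number fields at
which the one-level data exist. -/
theorem exists_levelData (s : Fbar N) (hB : ∀ x : Fbar N, x ∈ X.B₀ ↔ x ∈ chart ↥A s)
    (Q : IntermediateField ℚ Qbar → Prop) (hQ : Large Q)
    (hlev : ∀ (K : IntermediateField ℚ Qbar) [Normal ℚ K] [FiniteDimensional ℚ K], Q K →
      ∃ (π : ↥(AK A K)) (sK : FK N K) (Oon Ooff : ValuationSubring ↥(FK N K)) (πA : ↥A),
        πA ≠ 0 ∧ baseChangeHom N K sK = s ∧
          OneLevel X π (chart ↥(AK A K) sK) Oon Ooff (baseChangeHom N K) πA) :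
    ∃ (J : Type) (Bk : J → Subring ↥(Fbar N)) (π : J → ↥A), IsLevelData X Bk π := by
  classical
  let J : Type := {K : IntermediateField ℚ Qbar // Normal ℚ K ∧ FiniteDimensional ℚ K ∧ Q K}
  have key : ∀ i : J, ∃ (π : ↥(AK A i.1)) (sK : FK N i.1)
      (Oon Ooff : ValuationSubring ↥(FK N i.1)) (πA : ↥A),
      πA ≠ 0 ∧ baseChangeHom N i.1 sK = s ∧
        OneLevel X π (chart ↥(AK A i.1) sK) Oon Ooff (baseChangeHom N i.1) πA := fun i => by
    haveI := i.2.1
    haveI := i.2.2.1
    exact hlev i.1 i.2.2.2
  choose π sK Oon Ooff πA hπ0 hsK L using key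
  refine ⟨J, fun i => levelRing X (baseChangeHom N i.1) (chart ↥(AK A i.1) (sK i)) (L i).hfB,
    πA, ?_⟩
  refine Fermat.Agent.T33.PushLevels5.isLevelData_of_oneLevels X (R := fun i : J => ↥(AK A i.1))
    (Ff := fun i : J => ↥(FK N i.1)) π (fun i => chart ↥(AK A i.1) (sK i)) Oon Ooff
    (fun i => baseChangeHom N i.1) πA L hπ0 ?_
  intro S
  obtain ⟨K, hnor, hfd, hQK, hSK⟩ := Large.exists_field (hQ.and (large_frac_list X s hB S))
  have h2 : FracAt X s S (⟨K, hnor, hfd, hQK⟩ : J).1 := hSK
  generalize (⟨K, hnor, hfd, hQK⟩ : J) = i at h2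
  refine ⟨i, fun b hb => ?_⟩
  obtain ⟨a, ha, d, hd, hχ, hbd⟩ := h2 b hb (sK i) (hsK i)
  exact ⟨⟨a, ha⟩, ⟨d, hd⟩, hχ _, hbd⟩

end Fermat.Agent.T33.PushUnion1
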