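/-
Programme T (S33), chapter (e) "N34 over ℚ̄", block PUSH, step (γ), concrete form (helper1):
**`PushWire5.HasLevels₁/₂` for the two charts of the model of `X₀(M'p)` over `A`** — the last input of
the push-forward axioms `hpush₁`, `hpush₂` of the nodal reduction context.

* `hasLevels₁_of_large`, `hasLevels₂_of_large` : from helper5's level packs `PushPack5.LevelPack₁/₂` at
  all large number fields (`PushUnion1.exists_levelData`);
* `hasLevels₁_zero`, `hasLevels₁_one`, `hasLevels₂_zero`, `hasLevels₂_one` : the four concrete cases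
  (`s = tA h`, `(tA h)⁻¹`), from helper4's `PushLevel4.large_levelPack_j_zero/one`.
-/
import Mathlib
import Fermat.Agent.T33.PushUnion1
import Fermat.Agent.T33.PushLevel4B
import Fermat.Agent.T33.PushWire5B

set_option autoImplicit false
set_option linter.unusedSectionVars false
set_option linter.style.haveILetI false
set_option linter.unusedVariables false
set_option synthInstance.maxHeartbeats 400000

noncomputable section

namespace Fermat.Agent.T33.PushAsm1

open HahnSeries ModularCurve IntermediateField AlgebraicCurve IsLocalRing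
open Fermat.Agent.RED.Interface4 Fermat.Agent.RED.PUR.GaussGen8 Fermat.Agent.RED.DESC
  Fermat.Agent.RED.DESC.PlaceExtend27 Fermat.Agent.RED.DESC.NumberFieldDVR27
  Fermat.Agent.RED.PUR.ChartGeneric22
  Fermat.Agent.ES.RED Fermat.Agent.ES.N34.ModelN4 Fermat.Agent.ES.N34.ModelDefs9
  Fermat.Agent.T33.NodalCtx1 Fermat.Agent.T33.NodalHalf4 Fermat.Agent.T33.NodalBase4A
  Fermat.Agent.T33.PushLoc9 Fermat.Agent.T33.PushPack5 Fermat.Agent.T33.PushWire5
  Fermat.Agent.T33.PushUnion1

variable {p M' : ℕ} [NeZero M'] [NeZero p] {A : ValuationSubring Qbar}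

/-- shortcut instance. -/
local instance (priority := high) algAFbarAsm : Algebra ↥A ↥(Fbar (M' * p)) := inferInstance

/-- a uniformiser of `A ∩ K` is a nonzero element of `A`. -/
theorem incl_ne_zero {K : IntermediateField ℚ Qbar} {π : ↥(AK A K)} (hπ : IsUnif (AK A K) π) :
    incl A K π ≠ 0 := fun h0 =>
  hπ.ne_zero (incl_injective A K (h0.trans (map_zero (incl A K)).symm))

/-- **`HasLevels₁` from the level packs at all large number fields.** -/
theorem hasLevels₁_of_large (h : LevelHyp p M' A) (s : ↥(Fbar (M' * p)))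
    (hpack : ∀ X : PointChart (c1 h), (∀ x, x ∈ X.B₀ ↔ x ∈ chart ↥A s) →
      (∃ e : X.B₀, X.χ e ≠ 0 ∧ ∃ he : (e : ↥(Fbar (M' * p))) ∈ (c2 h).O,
        (c2 h).ρ ⟨(e : ↥(Fbar (M' * p))), he⟩ = 0) →
      Large fun K => Nonempty (LevelPack₁ h s X K)) : HasLevels₁ h s := by
  intro X hB hoff
  refine exists_levelData X s hB _ (hpack X hB hoff) ?_
  rintro K _ _ ⟨P⟩
  exact ⟨P.π, P.sK, O1 M' p P.hπ P.hE, O2 M' p P.hπ P.hE, incl A K P.π, incl_ne_zero P.hπ,
    P.hsK, P.one⟩

/-- **`HasLevels₂` from the level packs at all large number fields.** -/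
theorem hasLevels₂_of_large (h : LevelHyp p M' A) (s : ↥(Fbar (M' * p)))
    (hpack : ∀ X : PointChart (c2 h), (∀ x, x ∈ X.B₀ ↔ x ∈ chart ↥A s) →
      (∃ e : X.B₀, X.χ e ≠ 0 ∧ ∃ he : (e : ↥(Fbar (M' * p))) ∈ (c1 h).O,
        (c1 h).ρ ⟨(e : ↥(Fbar (M' * p))), he⟩ = 0) →
      Large fun K => Nonempty (LevelPack₂ h s X K)) : HasLevels₂ h s := by
  intro X hB hoff
  refine exists_levelData X s hB _ (hpack X hB hoff) ?_
  rintro K _ _ ⟨P⟩
  exact ⟨P.π, P.sK, O2 M' p P.hπ P.hE, O1 M' p P.hπ P.hE, incl A K P.π, incl_ne_zero P.hπ,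
    P.hsK, P.one⟩

/-! ### the four concrete cases -/

theorem hasLevels₁_zero (h : LevelHyp p M' A) : HasLevels₁ h (tA h) :=
  hasLevels₁_of_large h (tA h) fun X hB hoff =>
    Fermat.Agent.T33.PushLevel4.large_levelPack₁_zero h X hB hoff

theorem hasLevels₁_one (h : LevelHyp p M' A) : HasLevels₁ h (tA h)⁻¹ :=
  hasLevels₁_of_large h (tA h)⁻¹ fun X hB hoff =>
    Fermat.Agent.T33.PushLevel4.large_levelPack₁_one h X hB hoff

theorem hasLevels₂_zero (h : LevelHyp p M' A) : HasLevels₂ h (tA h) :=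
  hasLevels₂_of_large h (tA h) fun X hB hoff =>
    Fermat.Agent.T33.PushLevel4.large_levelPack₂_zero h X hB hoff

theorem hasLevels₂_one (h : LevelHyp p M' A) : HasLevels₂ h (tA h)⁻¹ :=
  hasLevels₂_of_large h (tA h)⁻¹ fun X hB hoff =>
    Fermat.Agent.T33.PushLevel4.large_levelPack₂_one h X hB hoff

end Fermat.Agent.T33.PushAsm1
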