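/-
Programme T (S33), chapter (e) "N34 over Qbar", ASSEMBLY part G (helper4): **THE (e)-PACKAGE, WITHOUT
HYPOTHESES** — the nodal reduction context of `X₀(M'p)` over `A` for every `h : LevelHyp p M' A`:

* `hpush₁ h`, `hpush₂ h` : PUSH on the two components (helper5's `PushWire5B` + helper1's `PushAsm1`);
* `nodalRed h : NodalRed A ↥(Fbar (M' * p)) (NodalInst4E.Nd h)` with `c₁ = c1 h`, `c₂ = c2 h` (`rfl`),
  finitely many nodes (`NodalInst4E.finite_node h`), `pu₁ h`, `pu₂ h`, `compat h`;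
* `exists_package h`.
-/
import Mathlib
import Fermat.Agent.T33.NodalInst4F
import Fermat.Agent.T33.PushAsm1

set_option autoImplicit false
set_option linter.unusedSectionVars false
set_option linter.style.haveILetI false
set_option linter.unusedVariables false
set_option synthInstance.maxHeartbeats 400000

noncomputable section

namespace Fermat.Agent.T33.NodalInst4G

open HahnSeries ModularCurve AlgebraicCurve IsLocalRing IntermediateField
open Fermat.Agent.RED.Interface4 Fermat.Agent.ES.RED Fermat.Agent.T33.NodalHalf4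
  Fermat.Agent.RED.PUR.ChartGeneric22 Fermat.Agent.T33.NodalCurve6 Fermat.Agent.T33.NodalCtx1
  Fermat.Agent.T33.NodalPlaces1 Fermat.Agent.T33.NodalBase4A Fermat.Agent.X0.FF
  Fermat.Agent.RR.LSpace Fermat.Agent.T33.NodalInst4A Fermat.Agent.T33.NodalInst4C
  Fermat.Agent.T33.NodalInst4E Fermat.Agent.T33.PushWire5
  Fermat.Agent.FF.InertiaWire8 Fermat.Agent.T33.Psi3C

variable {p M' : ℕ} [NeZero M'] [NeZero p] {A : ValuationSubring Qbar}

/-- shortcut instance. -/
local instance (priority := high) algebraAFbarNG : Algebra ↥A ↥(Fbar (M' * p)) := inferInstance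

/-- shortcut instance. -/
local instance (priority := high) algebraKFbG : Algebra (Setup8.kA A) (Fb A M') := inferInstance

variable (h : LevelHyp p M' A)

/-- **PUSH on the first component.** -/
theorem hpush₁ : ∀ y : (c1 h).O, (c1 h).ρ y ≠ 0 → ∀ Q : Place (Setup8.kA A) (Fb A M'),
    (∀ P : Place Qbar ↥(Fbar (M' * p)), (T h).rawRed.r₁ P = some Q →
      (T h).rawRed.r₂ P = none) →
    ∀ (D : Divisor Qbar ↥(Fbar (M' * p))), (∀ P, D P = P.ord (y : ↥(Fbar (M' * p)))) →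
      ∀ S : Finset (Place Qbar ↥(Fbar (M' * p))),
        (∀ P, P ∈ S ↔ P ∈ D.support ∧ (T h).rawRed.r₁ P = some Q) →
        ∑ P ∈ S, D P = Q.ord ((c1 h).ρ y) :=
  PushWire5.hpush₁ (inp h) rfl (Fermat.Agent.T33.PushAsm1.hasLevels₁_zero h)
    (Fermat.Agent.T33.PushAsm1.hasLevels₁_one h)

/-- **PUSH on the second component.** -/
theorem hpush₂ : ∀ y : (c2 h).O, (c2 h).ρ y ≠ 0 → ∀ Q : Place (Setup8.kA A) (Fb A M'),
    (∀ P : Place Qbar ↥(Fbar (M' * p)), (T h).rawRed.r₂ P = some Q →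
      (T h).rawRed.r₁ P = none) →
    ∀ (D : Divisor Qbar ↥(Fbar (M' * p))), (∀ P, D P = P.ord (y : ↥(Fbar (M' * p)))) →
      ∀ S : Finset (Place Qbar ↥(Fbar (M' * p))),
        (∀ P, P ∈ S ↔ P ∈ D.support ∧ (T h).rawRed.r₂ P = some Q) →
        ∑ P ∈ S, D P = Q.ord ((c2 h).ρ y) :=
  PushWire5.hpush₂ (inp h) rfl (Fermat.Agent.T33.PushAsm1.hasLevels₂_zero h)
    (Fermat.Agent.T33.PushAsm1.hasLevels₂_one h)

/-- **THE NODAL REDUCTION CONTEXT OF `X₀(M'p)` OVER `A`.** -/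
def nodalRed : NodalRed A ↥(Fbar (M' * p)) (Nd h) :=
  NodalInst4E.nodalRed h (hpush₁ h) (hpush₂ h)

@[simp] theorem nodalRed_c₁ : (nodalRed h).c₁ = c1 h := rfl

@[simp] theorem nodalRed_c₂ : (nodalRed h).c₂ = c2 h := rfl

@[simp] theorem nodalRed_r₁ : (nodalRed h).r₁ = (T h).rawRed.r₁ := rfl

@[simp] theorem nodalRed_r₂ : (nodalRed h).r₂ = (T h).rawRed.r₂ := rfl

theorem pu₁ : Fermat.Agent.T33.Psi3F.pu (nodalRed h).c₁ = puOne A (M' * p) :=
  Fermat.Agent.T33.NodalBridge0.pu_c1 h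

theorem pu₂ : Fermat.Agent.T33.Psi3F.pu (nodalRed h).c₂ = puTwo A (M' * p) :=
  Fermat.Agent.T33.NodalBridge0.pu_c2 h

/-- **the inertia group preserves the nodal reduction.** -/
theorem compat : (nodalRed h).Compat (fun σ : Iner A => gal (M' * p) (σ : GQ)) :=
  NodalInst4E.compat h (hpush₁ h) (hpush₂ h)

/-- **THE (e)-PACKAGE.** -/
theorem exists_package :
    ∃ (ι : Type) (_ : Finite ι) (Nd : NodalData (Setup8.kA A) (Fb A M') (Fb A M') ι)
      (Nr : NodalRed A ↥(Fbar (M' * p)) Nd),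
      Nr.c₁ = c1 h ∧ Nr.c₂ = c2 h ∧
      Fermat.Agent.T33.Psi3F.pu Nr.c₁ = puOne A (M' * p) ∧
      Fermat.Agent.T33.Psi3F.pu Nr.c₂ = puTwo A (M' * p) ∧
      Nr.Compat (fun σ : Iner A => gal (M' * p) (σ : GQ)) :=
  NodalInst4E.exists_package h (hpush₁ h) (hpush₂ h)

end Fermat.Agent.T33.NodalInst4G
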