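/-
Programme T (S33), chapter (e) "N34 over ℚ̄", block PUSH, layer (P-loc), step (α) (helper5):
**one finite level at a one-branch point of a chart of the nodal model of `X₀(M'p)` over `A`, at
every large number field.**

* `oneLevel_mk` (abstract, vocabulary of `T33/PushLoc9C`): `PushLoc9.OneLevel` from the chart
  fields, MAXIMALITY of the contraction of the point, smoothness of the finite-level model at the
  one-branch closed points, and ONE off-witness `e_K ∈ B ∩ π Ooff` with `χ (f e_K) ≠ 0`.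
* `SmoothFields`, `smoothFields_zero`, `smoothFields_one` : the fields of
  `NumData13.NodalNumData` used here, for the chart `0` and the chart `1`.
* `SmoothModelAt`, `large_smoothModel_zero`, `large_smoothModel_one` : the finite-level models of
  `chart ↥A (tA h)` and `chart ↥A (tA h)⁻¹` (from `ModelEnd4.modelInput_four`).
* **`large_levelPack₂`**, **`large_levelPack₁`** : at every large number field `K`, the data
  `PushPack5.LevelPack₂ h s X K` (resp. `LevelPack₁`) of one finite level at a point `X` of the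
  second (resp. first) component through which the other component does not pass.
-/
import Mathlib
import Fermat.Agent.T33.PushPack5
import Fermat.Agent.T33.LocalReg5C
import Fermat.Agent.T33.ChartOK5
import Fermat.Agent.T33.NodalBase4A
import Fermat.Agent.ES.RED.LevelMax17

set_option autoImplicit false
set_option linter.unusedSectionVars false
set_option linter.style.haveILetI false
set_option linter.unusedVariables false
set_option synthInstance.maxHeartbeats 400000

noncomputable section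

namespace Fermat.Agent.T33.PushLevel5

open HahnSeries ModularCurve IntermediateField AlgebraicCurve IsLocalRing
open Fermat.Agent.RED.Interface4 Fermat.Agent.RED.PUR.GaussGen8 Fermat.Agent.RED.DESC
  Fermat.Agent.RED.DESC.PlaceExtend27 Fermat.Agent.RED.DESC.NumberFieldDVR27
  Fermat.Agent.RED.PUR.ChartGeneric22 Fermat.Agent.RED.BASE.EtaQuot12
  Fermat.Agent.ES.RED Fermat.Agent.ES.N34.ModelN4 Fermat.Agent.ES.N34.FrickeFK8
  Fermat.Agent.ES.N34.NodalCore13 Fermat.Agent.ES.N34.NumData13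
  Fermat.Agent.ES.N34.ModelInput13 Fermat.Agent.ES.N34.NodalCL13
  Fermat.Agent.T33.NodalCtx1 Fermat.Agent.T33.NodalHalf4 Fermat.Agent.T33.NodalBase4A
  Fermat.Agent.T33.LocalReg5B Fermat.Agent.T33.LocalReg5C
  Fermat.Agent.T33.ChartOK5 Fermat.Agent.T33.PushLoc9 Fermat.Agent.T33.PushPack5

/-! ### abstract: `OneLevel` from maximality, smoothness and one off-witness -/

section Abstract

variable {K : Type*} [Field K] {A : ValuationSubring K}
variable {F : Type*} [Field F] [Algebra K F]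
variable {Fb : Type*} [Field Fb] [Algebra (ResidueField A) Fb]
variable {c : HalfRed A F Fb} (X : PointChart c)
variable {R Ff : Type*} [CommRing R] [Field Ff] [Algebra R Ff]

/-- **`OneLevel` from the chart fields, maximality of the contraction of the point, smoothness of
the finite-level model at the one-branch closed points and one off-witness.** -/
theorem oneLevel_mk (π : R) (B : Subalgebra R Ff) (Oon Ooff : ValuationSubring Ff) (f : Ff →+* F)
    (πA : A)
    (hfB : ∀ b ∈ B, f b ∈ X.B₀) (noethB : IsNoetherianRing B)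
    (leOn : ∀ x ∈ B, x ∈ Oon) (leOff : ∀ x ∈ B, x ∈ Ooff)
    (unifOn : ∀ x ∈ Oon, x⁻¹ ∉ Oon → ∃ c' ∈ Oon, x = algebraMap R Ff π * c')
    (archOff : ∀ x : Ff, ∃ k : ℕ, algebraMap R Ff π ^ k * x ∈ Ooff)
    (sat : ∀ b ∈ B, ∀ c' : Ff, c' ∈ Oon → c' ∈ Ooff → b = algebraMap R Ff π * c' → c' ∈ B)
    (hOn : ∀ x ∈ Oon, f x ∈ c.O)
    (hπ : f (algebraMap R Ff π) = algebraMap K F (πA : K))
    (πA_mem : πA ∈ maximalIdeal A)
    (hmax : (levelIdeal X f B hfB).IsMaximal)
    (hsmooth : ∀ 𝔪 : Ideal B, 𝔪.IsMaximal → algebraMap R B π ∈ 𝔪 → OffBranch π B Ooff 𝔪 →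
      SmoothAt π B 𝔪)
    (eK : Ff) (heK : eK ∈ B) (hχ : X.χ ⟨f eK, hfB _ heK⟩ ≠ 0)
    (hoffw : ∃ o ∈ Ooff, eK = algebraMap R Ff π * o) :
    OneLevel X π B Oon Ooff f πA := by
  have hoff : OffBranch π B Ooff (levelIdeal X f B hfB) := ⟨⟨eK, heK⟩, hχ, hoffw⟩
  have hπmem : algebraMap R B π ∈ levelIdeal X f B hfB := by
    rw [mem_levelIdeal_iff]
    have h1 : levelHom X f B hfB (algebraMap R B π) =
        ⟨algebraMap K F (πA : K), X.const_mem πA⟩ := Subtype.ext (by
      rw [coe_levelHom]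
      exact hπ)
    rw [h1, X.χ_const, residue_eq_zero_iff]
    exact πA_mem
  exact
    { hfB := hfB
      noethB := noethB
      leOn := leOn
      leOff := leOff
      unifOn := unifOn
      archOff := archOff
      sat := sat
      hOn := hOn
      hπ := hπ
      πA_mem := πA_mem
      hoff := hoff
      hsm := hsmooth _ hmax hπmem hoff }

end Abstract

/-! ### the finite-level fields -/

section Generic

variable {Kt : Type*} [Field Kt] (O : ValuationSubring Kt)
  (E : IntermediateField Kt (LaurentSeries Kt))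

/-- the fields of `NumData13.NodalNumData` used by the finite levels of PUSH, for one chart. -/
structure SmoothFields (π : O) (B : Subalgebra ↥O ↥E) (O1 O2 : ValuationSubring ↥E) : Prop where
  noethB : IsNoetherianRing B
  leO1 : ∀ x ∈ B, x ∈ O1
  leO2 : ∀ x ∈ B, x ∈ O2
  unif1 : ∀ x ∈ O1, x⁻¹ ∉ O1 → ∃ c ∈ O1, x = algebraMap ↥O ↥E π * c
  unif2 : ∀ x ∈ O2, x⁻¹ ∉ O2 → ∃ c ∈ O2, x = algebraMap ↥O ↥E π * c
  arch1 : ∀ x : E, ∃ k : ℕ, algebraMap ↥O ↥E π ^ k * x ∈ O1
  arch2 : ∀ x : E, ∃ k : ℕ, algebraMap ↥O ↥E π ^ k * x ∈ O2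
  sat : ∀ b ∈ B, ∀ c : E, c ∈ O1 → c ∈ O2 → b = algebraMap ↥O ↥E π * c → c ∈ B
  smooth : ∀ 𝔪 : Ideal B, 𝔪.IsMaximal → algebraMap ↥O B π ∈ 𝔪 →
    OffBranch π B O1 𝔪 ∨ OffBranch π B O2 𝔪 → SmoothAt π B 𝔪

variable {O E}

theorem smoothFields_zero {π : O} {t : E} {B0 B1 : Subalgebra ↥O ↥E} {O1 O2 : ValuationSubring ↥E}
    (D : NodalDataAt O E π t B0 B1 O1 O2) : SmoothFields O E π B0 O1 O2 := by
  haveI := Fermat.Agent.RED.NumInst4.isScalarTower_OE O E
  have D' : NodalNumData ↥O Kt ↥E π t B0 B1 O1 O2 := D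
  exact
    { noethB := D'.noeth0
      leO1 := D'.model.le_O1_0
      leO2 := D'.model.le_O2_0
      unif1 := D'.model.unif1
      unif2 := D'.model.unif2
      arch1 := D'.model.arch1
      arch2 := D'.model.arch2
      sat := D'.model.sat0
      smooth := D'.smooth0 }

theorem smoothFields_one {π : O} {t : E} {B0 B1 : Subalgebra ↥O ↥E} {O1 O2 : ValuationSubring ↥E}
    (D : NodalDataAt O E π t B0 B1 O1 O2) : SmoothFields O E π B1 O1 O2 := by
  haveI := Fermat.Agent.RED.NumInst4.isScalarTower_OE O E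
  have D' : NodalNumData ↥O Kt ↥E π t B0 B1 O1 O2 := D
  exact
    { noethB := D'.noeth1
      leO1 := D'.model.le_O1_1
      leO2 := D'.model.le_O2_1
      unif1 := D'.model.unif1
      unif2 := D'.model.unif2
      arch1 := D'.model.arch1
      arch2 := D'.model.arch2
      sat := D'.model.sat1
      smooth := D'.smooth1 }

end Generic

/-! ### the finite-level models of the two charts -/

section Concrete

variable {p M' : ℕ} [NeZero M'] [NeZero p] {A : ValuationSubring Qbar}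

/-- the chart `chart ↥A s` has a finite-level model at `K` with the fields `SmoothFields`. -/
def SmoothModelAt (p M' : ℕ) [NeZero M'] [NeZero p] (A : ValuationSubring Qbar)
    (s : Fbar (M' * p)) (K : IntermediateField ℚ Qbar) : Prop :=
  ∃ (sK : FK (M' * p) K) (hE : FK (M' * p) K ≤ fracField (AK A K)),
    baseChangeHom (M' * p) K sK = s ∧
      ∀ (π : ↥(AK A K)) (hπ : IsUnif (AK A K) π),
        SmoothFields (AK A K) (FK (M' * p) K) π (chart ↥(AK A K) sK)
          (Fermat.Agent.ES.N34.ModelDefs9.O1 M' p hπ hE)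
          (Fermat.Agent.ES.N34.ModelDefs9.O2 M' p hπ hE)

/-- **the finite-level models of the chart `0`.** -/
theorem large_smoothModel_zero (h : LevelHyp p M' A) :
    Large (SmoothModelAt p M' A (tA h)) := by
  obtain ⟨K₀, hK₀, H⟩ := Fermat.Agent.ES.N34.ModelEnd4.modelInput_four p M' A h.prime h.not_dvd
    h.ne_two h.four_dvd h.liesOver
  refine ⟨K₀, hK₀, fun K _ hfd hle => ?_⟩
  obtain ⟨ht, hE, HD⟩ := H K hfd hle
  exact ⟨Fermat.Agent.ES.N34.ModelDefs9.tN p ht, hE, NodalBase4A.baseChangeHom_tN h ht, fun π hπ => smoothFields_zero (HD π hπ)⟩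

/-- **the finite-level models of the chart `1`.** -/
theorem large_smoothModel_one (h : LevelHyp p M' A) :
    Large (SmoothModelAt p M' A (tA h)⁻¹) := by
  obtain ⟨K₀, hK₀, H⟩ := Fermat.Agent.ES.N34.ModelEnd4.modelInput_four p M' A h.prime h.not_dvd
    h.ne_two h.four_dvd h.liesOver
  refine ⟨K₀, hK₀, fun K _ hfd hle => ?_⟩
  obtain ⟨ht, hE, HD⟩ := H K hfd hle
  refine ⟨(Fermat.Agent.ES.N34.ModelDefs9.tN p ht)⁻¹, hE, ?_, fun π hπ => smoothFields_one (HD π hπ)⟩
  rw [map_inv₀, NodalBase4A.baseChangeHom_tN h ht]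

/-! ### Gauss-ring descent for the two components -/

theorem hdesc1 (h : LevelHyp p M' A) : ∀ z : Fbar (M' * p), z ∈ (c1 h).O →
    Large fun K => ∀ zK : FK (M' * p) K, baseChangeHom (M' * p) K zK = z →
      ((zK : FK (M' * p) K) : LaurentSeries K) ∈ gaussRing (AK A K) :=
  fun z hz => large_mem_gauss A (M' * p) z ((mem_O1_iff_redA h z).1 hz)

theorem hdesc2 (h : LevelHyp p M' A) : ∀ z : Fbar (M' * p), z ∈ (c2 h).O →
    Large fun K => ∀ zK : FK (M' * p) K, baseChangeHom (M' * p) K zK = z →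
      iotaTwo (M' * p) K zK ∈ gaussRing (AK A K) :=
  fun z hz => large_mem_gauss_fricke A (M' * p) z
    ((mem_O1_iff_redA h _).1 ((NodalHalf4.mem_O2_iff h z).1 hz))

theorem hmul1 (A : ValuationSubring Qbar) (p M' : ℕ) [NeZero M'] [NeZero p] :
    ∀ (K : IntermediateField ℚ Qbar) (u : ↥(AK A K)) (x : FK (M' * p) K),
    ((x : FK (M' * p) K) : LaurentSeries K) ∈ gaussRing (AK A K) →
    ((algebraMap ↥(AK A K) ↥(FK (M' * p) K) u * x : FK (M' * p) K) : LaurentSeries K) ∈
      gaussRing (AK A K) := by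
  intro K u x hx
  have h1 : ((algebraMap ↥(AK A K) ↥(FK (M' * p) K) u * x : FK (M' * p) K) : LaurentSeries K) =
      HahnSeries.C ((u : ↥(AK A K)) : ↥K) * ((x : FK (M' * p) K) : LaurentSeries K) := by
    rw [MulMemClass.coe_mul, Fermat.Agent.RED.NumInst4.coe_algebraMap_OE]
  rw [h1]
  exact mul_mem (C_mem (AK A K) u) hx

theorem hmul2 (A : ValuationSubring Qbar) (p M' : ℕ) [NeZero M'] [NeZero p] :
    ∀ (K : IntermediateField ℚ Qbar) (u : ↥(AK A K)) (x : FK (M' * p) K),
    iotaTwo (M' * p) K x ∈ gaussRing (AK A K) →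
    iotaTwo (M' * p) K (algebraMap ↥(AK A K) ↥(FK (M' * p) K) u * x) ∈ gaussRing (AK A K) := by
  intro K u x hx
  have h2 : algebraMap ↥(AK A K) ↥(FK (M' * p) K) u =
      algebraMap ↥K ↥(FK (M' * p) K) ((u : ↥(AK A K)) : ↥K) := rfl
  have h1 : iotaTwo (M' * p) K (algebraMap ↥(AK A K) ↥(FK (M' * p) K) u * x) =
      HahnSeries.C ((u : ↥(AK A K)) : ↥K) * iotaTwo (M' * p) K x := by
    rw [map_mul, h2]
    congr 1
    show ((frickeFK (M' * p) K (algebraMap ↥K ↥(FK (M' * p) K) ((u : ↥(AK A K)) : ↥K)) :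
      FK (M' * p) K) : LaurentSeries K) = _
    rw [(frickeFK (M' * p) K).commutes]
    exact Fermat.Agent.RED.NumInst4.coe_algebraMap_OE (AK A K) (FK (M' * p) K) u
  rw [h1]
  exact mul_mem (C_mem (AK A K) u) hx

/-! ### the common fields of the two mirrors -/

/-- the uniformiser of `A ∩ K` maps into `𝔪_A`. -/
theorem incl_unif_mem (K : IntermediateField ℚ Qbar) {π : ↥(AK A K)} (hπ : IsUnif (AK A K) π) :
    incl A K π ∈ maximalIdeal ↥A := by
  rw [mem_maximalIdeal, mem_nonunits_iff]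
  intro hu
  have h1 : IsUnit π := (isUnit_map_iff (incl A K) π).1 hu
  have h2 : π ∈ maximalIdeal ↥(AK A K) := by
    rw [hπ.max_eq]
    exact Ideal.mem_span_singleton_self π
  exact (mem_maximalIdeal π).1 h2 h1

/-- the base change of the constant `π`. -/
theorem baseChangeHom_unif (K : IntermediateField ℚ Qbar) (π : ↥(AK A K)) :
    baseChangeHom (M' * p) K (algebraMap ↥(AK A K) ↥(FK (M' * p) K) π) =
      algebraMap Qbar ↥(Fbar (M' * p)) ((incl A K π : ↥A) : Qbar) := by
  rw [ChartUnion1.baseChangeHom_algebraMap_AK]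
  rfl

/-! ### the second component -/

/-- **one finite level at a point of the second component through which the first component does
not pass, at every large number field.** -/
theorem large_levelPack₂ (h : LevelHyp p M' A) (s : Fbar (M' * p))
    (hmodel : Large (SmoothModelAt p M' A s)) (X : PointChart (c2 h))
    (hB : ∀ x, x ∈ X.B₀ ↔ x ∈ chart ↥A s)
    (hoff : ∃ e : X.B₀, X.χ e ≠ 0 ∧ ∃ he : (e : ↥(Fbar (M' * p))) ∈ (c1 h).O,
      (c1 h).ρ ⟨(e : ↥(Fbar (M' * p))), he⟩ = 0) :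
    Large fun K => Nonempty (LevelPack₂ h s X K) := by
  obtain ⟨e, hχe, heO, hρ⟩ := hoff
  have L1 := large_off A (M' * p) (c1 h)
    (fun K x => ((x : FK (M' * p) K) : LaurentSeries K) ∈ gaussRing (AK A K)) (hdesc1 h)
    (hmul1 A p M') s (e : Fbar (M' * p)) ((hB _).1 e.2) heO hρ
  obtain ⟨K₀, hfin, H⟩ := hmodel.and L1
  refine ⟨K₀, hfin, fun K _ hfd hle => ?_⟩
  obtain ⟨⟨sK, hE, hsK, hC⟩, hL⟩ := H K hfd hle
  haveI := hfd
  obtain ⟨π, hπ⟩ := exists_unif h K
  have C := hC π hπ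
  obtain ⟨eK, heK, heK', hπe⟩ := hL sK hsK
  obtain ⟨o, ho, heo⟩ := hπe π hπ
  have hfB : ∀ b ∈ chart ↥(AK A K) sK, baseChangeHom (M' * p) K b ∈ X.B₀ := by
    intro b hb
    have := ChartUnion1.baseChangeHom_mem_chart A (M' * p) K sK b hb
    rw [hsK] at this
    exact (hB _).2 this
  refine ⟨{ sK := sK, hsK := hsK, hE := hE, π := π, hπ := hπ, one := ?_ }⟩
  refine oneLevel_mk X π (chart ↥(AK A K) sK) _ _ (baseChangeHom (M' * p) K) (incl A K π) hfB
    C.noethB C.leO2 C.leO1 C.unif2 C.arch1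
    (fun b hb c' hc2 hc1 hbc => C.sat b hb c' hc1 hc2 hbc)
    (fun x hx => mem_O2_of_level h K x
      ((Fermat.Agent.ES.N34.ModelDefs9.mem_O2_iff M' p hπ hE x).1 hx))
    (baseChangeHom_unif K π) (incl_unif_mem K hπ)
    (Fermat.Agent.ES.RED.LevelMax17.ker_isMaximal h.prime A h.liesOver _)
    (fun 𝔪 h𝔪 hπm hoff' => C.smooth 𝔪 h𝔪 hπm (Or.inl hoff')) eK heK ?_
    ⟨o, (Fermat.Agent.ES.N34.ModelDefs9.mem_O1_iff M' p hπ hE o).2 ho, heo⟩
  have h1 : (⟨baseChangeHom (M' * p) K eK, hfB _ heK⟩ : X.B₀) = e := Subtype.ext heK'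
  rw [h1]
  exact hχe

/-! ### the first component -/

/-- **one finite level at a point of the first component through which the second component does
not pass, at every large number field.** -/
theorem large_levelPack₁ (h : LevelHyp p M' A) (s : Fbar (M' * p))
    (hmodel : Large (SmoothModelAt p M' A s)) (X : PointChart (c1 h))
    (hB : ∀ x, x ∈ X.B₀ ↔ x ∈ chart ↥A s)
    (hoff : ∃ e : X.B₀, X.χ e ≠ 0 ∧ ∃ he : (e : ↥(Fbar (M' * p))) ∈ (c2 h).O,
      (c2 h).ρ ⟨(e : ↥(Fbar (M' * p))), he⟩ = 0) :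
    Large fun K => Nonempty (LevelPack₁ h s X K) := by
  obtain ⟨e, hχe, heO, hρ⟩ := hoff
  have L1 := large_off A (M' * p) (c2 h)
    (fun K x => iotaTwo (M' * p) K x ∈ gaussRing (AK A K)) (hdesc2 h)
    (hmul2 A p M') s (e : Fbar (M' * p)) ((hB _).1 e.2) heO hρ
  obtain ⟨K₀, hfin, H⟩ := hmodel.and L1
  refine ⟨K₀, hfin, fun K _ hfd hle => ?_⟩
  obtain ⟨⟨sK, hE, hsK, hC⟩, hL⟩ := H K hfd hle
  haveI := hfd
  obtain ⟨π, hπ⟩ := exists_unif h K
  have C := hC π hπ
  obtain ⟨eK, heK, heK', hπe⟩ := hL sK hsK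
  obtain ⟨o, ho, heo⟩ := hπe π hπ
  have hfB : ∀ b ∈ chart ↥(AK A K) sK, baseChangeHom (M' * p) K b ∈ X.B₀ := by
    intro b hb
    have := ChartUnion1.baseChangeHom_mem_chart A (M' * p) K sK b hb
    rw [hsK] at this
    exact (hB _).2 this
  refine ⟨{ sK := sK, hsK := hsK, hE := hE, π := π, hπ := hπ, one := ?_ }⟩
  refine oneLevel_mk X π (chart ↥(AK A K) sK) _ _ (baseChangeHom (M' * p) K) (incl A K π) hfB
    C.noethB C.leO1 C.leO2 C.unif1 C.arch2 C.sat
    (fun x hx => mem_O1_of_level h K x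
      ((Fermat.Agent.ES.N34.ModelDefs9.mem_O1_iff M' p hπ hE x).1 hx))
    (baseChangeHom_unif K π) (incl_unif_mem K hπ)
    (Fermat.Agent.ES.RED.LevelMax17.ker_isMaximal h.prime A h.liesOver _)
    (fun 𝔪 h𝔪 hπm hoff' => C.smooth 𝔪 h𝔪 hπm (Or.inr hoff')) eK heK ?_
    ⟨o, (Fermat.Agent.ES.N34.ModelDefs9.mem_O2_iff M' p hπ hE o).2 ho, heo⟩
  have h1 : (⟨baseChangeHom (M' * p) K eK, hfB _ heK⟩ : X.B₀) = e := Subtype.ext heK'
  rw [h1]
  exact hχe

end Concrete

end Fermat.Agent.T33.PushLevel5
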