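/-
Programme T (S33), nodal layer, chapter (c) / (N1′) (helper6), part B: **`H¹`-vanishing and the
pencil trick on the nodal curve.**

* `exists_H1_comp` : `GoodRed8.H1 (chart K x) (chart K x⁻¹) x c` on a smooth component;
* `H1_pow`         : `H1 … tb c → H1 … (tb ^ m) c` for `m ≥ 1`;
* `exists_H1`      : `GoodRed8.H1 (NC N x₁ x₂) (NC N x₁⁻¹ x₂⁻¹) t̄ c` for some `c`: decompose on each
  component, then correct the first component by a section of `O(n m₁ (x₁)_∞)` with prescribed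
  values at the nodes (evaluation at the nodes is onto in large degree, `NodalRR6A`);
* `exists_PT`      : the pencil-trick property (input `hPT` of `GoodRed8.lifting`).
-/
import Mathlib
import Fermat.Agent.T33.NodalLift6A

set_option autoImplicit false
set_option linter.unusedSectionVars false
set_option linter.style.haveILetI false

open AlgebraicCurve IntermediateField

noncomputable section

namespace Fermat.Agent.T33.NodalLift6

open Fermat.Agent.X0 Fermat.Agent.X0.FF Fermat.Agent.RR.LSpace Fermat.Agent.RR.Riemann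
  Fermat.Agent.FF.RedLat2 Fermat.Agent.FF.SpecRR1 Fermat.Agent.FF.GoodRed8
  Fermat.Agent.RED.PUR.ChartGeneric22 Fermat.Agent.T33.NodalCurve6 Fermat.Agent.T33.NodalRR6

/-! ### `H¹` on a smooth component -/

section Comp

variable {K F : Type*} [Field K] [Field F] [Algebra K F] [IsAlgClosed K] {x : F}

theorem exists_H1_comp (H : LHyp K F) (hx : IsGen K x) [Algebra.IsSeparable K⟮x⟯ F]
    (hx0 : x ≠ 0) : ∃ c : ℕ, H1 (chart K x) (chart K x⁻¹) x c := by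
  obtain ⟨r, e, c, he, hc, hgen⟩ := Fermat.Agent.FF.SpecialRR6.exists_chart_gens H hx hx0
  have hts : x * x⁻¹ = 1 := mul_inv_cancel₀ hx0
  exact ⟨c, h1_of_generators (κ := K) (Bb0 := chart K x) (Bb1 := chart K x⁻¹) hts e c he hc
    (self_mem_chart (R := K) x⁻¹) (self_mem_chart (R := K) x) hgen⟩

end Comp

section Pow

variable {κ : Type*} [Field κ] {Fb : Type*} [CommRing Fb] [Algebra κ Fb]
variable {Bb0 Bb1 : Subalgebra κ Fb} {tb : Fb}

theorem H1_pow {c : ℕ} (h : H1 Bb0 Bb1 tb c) {m : ℕ} (hm : 0 < m) : H1 Bb0 Bb1 (tb ^ m) c := by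
  intro n hn w ⟨k, hk⟩
  rw [← pow_mul] at hk
  have hn' : c ≤ m * n := le_trans hn (Nat.le_mul_of_pos_left n hm)
  obtain ⟨g, hg, r, hr, hw⟩ := h (m * n) hn' w ⟨m * k, hk⟩
  exact ⟨g, hg, r, hr, by rw [hw, pow_mul]⟩

end Pow

/-! ### `H¹` on the nodal curve -/

variable {κ F1 F2 : Type*} [Field κ] [Field F1] [Field F2] [Algebra κ F1] [Algebra κ F2]
variable {ι : Type*} [Fintype ι] (N : NodalData κ F1 F2 ι)
variable [IsAlgClosed κ] (HL1 : LHyp κ F1) (HL2 : LHyp κ F2)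
variable {x1 : F1} {x2 : F2} (hx1 : IsGen κ x1) (hx2 : IsGen κ x2)
  [Algebra.IsSeparable κ⟮x1⟯ F1] [Algebra.IsSeparable κ⟮x2⟯ F2]
  (hx10 : x1 ≠ 0) (hx20 : x2 ≠ 0) (m1 m2 : ℕ)

/-- a function integral over `κ[x]` is regular wherever `x` is. -/
theorem mem_of_mem_chart {K F : Type*} [Field K] [Field F] [Algebra K F] {x f : F}
    (v : Place K F) (hx : x ∈ v.toValuationSubring) (hf : f ∈ chart K x) :
    f ∈ v.toValuationSubring :=
  Fermat.Agent.X0.FFDedekind.mem_of_isIntegral_of_algebraMap_mem v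
    (Fermat.Agent.FF.SpecialRR6.adjoin_le_place v (fun a => v.algebraMap_mem' a) hx)
    (mem_chart_iff.mp hf)

/-- `x₁` is regular at the nodes as soon as `t̄` is compatible (`m₁ ≥ 1`). -/
theorem x1_mem_of_tb (hm1 : 0 < m1) (htb : tb x1 x2 m1 m2 ∈ N.compat) (i : ι) :
    x1 ∈ (N.s1 i).toValuationSubring := by
  have h1 : x1 ^ m1 ∈ (N.s1 i).toValuationSubring := fst_mem_of_compat N htb i
  rw [mem_iff_ord_nonneg] at h1 ⊢
  by_cases h0 : x1 = 0
  · exact Or.inl h0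
  right
  rcases h1 with h1 | h1
  · exact absurd (pow_eq_zero_iff (Nat.pos_iff_ne_zero.1 hm1) |>.1 h1) h0
  · rw [ord_pow] at h1
    have hm : (0 : ℤ) < m1 := by exact_mod_cast hm1
    by_contra hneg
    rw [not_le] at hneg
    nlinarith

variable (g1 : ℤ) (hR1 : ∀ D : Divisor κ F1, Divisor.degree D + 1 - g1 ≤ ell D)
variable {D01 : Divisor κ F1} (h01 : delta g1 D01 = 0)

include HL1 HL2 hx1 hx2 hx10 hx20 hR1 h01 in
/-- **`H¹`-vanishing on the nodal curve**: `NC0[1/t̄] = NC0 + t̄ ^ n NC1` for `n ≥ c`. -/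
theorem exists_H1 (hm1 : 0 < m1) (hm2 : 0 < m2) (htb : tb x1 x2 m1 m2 ∈ N.compat)
    (hsb : sb x1 x2 m1 m2 ∈ N.compat) :
    ∃ c : ℕ, H1 (NC N x1 x2) (NC N x1⁻¹ x2⁻¹) (tb x1 x2 m1 m2) c := by
  classical
  obtain ⟨c1, hH1⟩ := exists_H1_comp HL1 hx1 hx10
  obtain ⟨c2, hH2⟩ := exists_H1_comp HL2 hx2 hx20
  refine ⟨max (max c1 c2) (Divisor.degree D01 + g1 + (Fintype.card ι : ℤ)).toNat, ?_⟩
  intro n hn w ⟨k, hk⟩
  have hn1 : c1 ≤ n := le_trans (le_trans (le_max_left _ _) (le_max_left _ _)) hn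
  have hn2 : c2 ≤ n := le_trans (le_trans (le_max_right _ _) (le_max_left _ _)) hn
  have hn3 : Divisor.degree D01 + g1 + (Fintype.card ι : ℤ) ≤ (n : ℤ) := by
    have h1 : (Divisor.degree D01 + g1 + (Fintype.card ι : ℤ)).toNat ≤ n :=
      le_trans (le_max_right _ _) hn
    have h2 := Int.self_le_toNat (Divisor.degree D01 + g1 + (Fintype.card ι : ℤ))
    omega
  rw [mem_NC, fst_tb_pow_mul, snd_tb_pow_mul] at hk
  obtain ⟨hk1, hk2, hk3⟩ := hk
  -- decomposition on the components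
  obtain ⟨γ1, hγ1, r1, hr1, hw1⟩ := H1_pow hH1 hm1 n hn1 w.1 ⟨k, hk1⟩
  obtain ⟨γ2, hγ2, r2, hr2, hw2⟩ := H1_pow hH2 hm2 n hn2 w.2 ⟨k, hk2⟩
  -- `w` is compatible
  have hw : w ∈ N.compat := by
    have e : w = sb x1 x2 m1 m2 ^ k * (tb x1 x2 m1 m2 ^ k * w) := by
      rw [← mul_assoc, sb_pow_mul_tb_pow m1 m2 hx10 hx20, one_mul]
    rw [e]
    exact compat_mul N (compat_pow N hsb k) hk3
  -- regularity of `γ₁`, `γ₂` at the nodes and their values
  have hx1reg : ∀ i, x1 ∈ (N.s1 i).toValuationSubring := x1_mem_of_tb N m1 m2 hm1 htb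
  have hx2reg : ∀ i, x2 ∈ (N.s2 i).toValuationSubring := by
    intro i
    have h1 : x2 ^ m2 ∈ (N.s2 i).toValuationSubring := snd_mem_of_compat N htb i
    rw [mem_iff_ord_nonneg] at h1 ⊢
    by_cases h0 : x2 = 0
    · exact Or.inl h0
    right
    rcases h1 with h1 | h1
    · exact absurd (pow_eq_zero_iff (Nat.pos_iff_ne_zero.1 hm2) |>.1 h1) h0
    · rw [ord_pow] at h1
      have hm : (0 : ℤ) < m2 := by exact_mod_cast hm2
      by_contra hneg
      rw [not_le] at hneg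
      nlinarith
  have hγ1reg : ∀ i, γ1 ∈ (N.s1 i).toValuationSubring := fun i =>
    mem_of_mem_chart (N.s1 i) (hx1reg i) hγ1
  have hγ2reg : ∀ i, γ2 ∈ (N.s2 i).toValuationSubring := fun i =>
    mem_of_mem_chart (N.s2 i) (hx2reg i) hγ2
  set a : ι → κ := fun i => valueAt HL1 (N.s1 i) ⟨γ1, hγ1reg i⟩ with ha
  set b : ι → κ := fun i => valueAt HL2 (N.s2 i) ⟨γ2, hγ2reg i⟩ with hb
  have hva : ∀ i, γ1 - algebraMap κ F1 (a i) ∈ vanishing (N.s1 i) := by
    intro i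
    rw [mem_vanishing, sub_eq_zero]
    exact sub_valueAt HL1 (N.s1 i) ⟨γ1, hγ1reg i⟩
  have hvb : ∀ i, γ2 - algebraMap κ F2 (b i) ∈ vanishing (N.s2 i) := by
    intro i
    rw [mem_vanishing, sub_eq_zero]
    exact sub_valueAt HL2 (N.s2 i) ⟨γ2, hγ2reg i⟩
  -- the correcting section
  set D1 : Divisor κ F1 := (n * m1) • poleDiv HL1 hx10 with hD1
  set D : NDiv κ F1 F2 := (D1, 0) with hD
  have hD1node : ∀ i, D.1 (N.s1 i) = 0 := by
    intro i
    show ((n * m1) • poleDiv HL1 hx10) (N.s1 i) = 0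
    rw [Finsupp.smul_apply, poleDiv_apply]
    have := ord_nonneg_of_mem (N.s1 i) (hx1reg i)
    rw [max_eq_left (by omega), smul_zero]
  have hnc : ¬ ∃ c : κ, x1 = algebraMap κ F1 c := by
    rintro ⟨c, hc⟩
    exact hx1.transcendental (hc ▸ isAlgebraic_algebraMap c)
  have hdegpos := degree_poleDiv_pos HL1 hx10 hnc
  have hdegD1 : (n : ℤ) ≤ Divisor.degree D1 := by
    rw [hD1, map_nsmul, nsmul_eq_mul]
    have hm : (1 : ℤ) ≤ m1 := by exact_mod_cast hm1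
    have hn0 : (0 : ℤ) ≤ n := Int.natCast_nonneg _
    have hd1 : (1 : ℤ) ≤ Divisor.degree (poleDiv HL1 hx10) := by omega
    have h1 : (n : ℤ) ≤ (n : ℤ) * m1 := le_mul_of_one_le_right hn0 hm
    have h2 : (n : ℤ) * m1 ≤ (n : ℤ) * m1 * Divisor.degree (poleDiv HL1 hx10) :=
      le_mul_of_one_le_right (mul_nonneg hn0 (by omega)) hd1
    push_cast
    omega
  have ht : (0 : ℤ) ≤ (Fintype.card ι : ℤ) := Int.natCast_nonneg _
  have e1 := delta_eq_zero_of_degree_ge HL1 g1 hR1 h01 D1 (by omega)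
  have hdeg' : Divisor.degree (D1 - nodeDiv1 N) = Divisor.degree D1 - (Fintype.card ι : ℤ) := by
    rw [map_sub, degree_nodeDiv1 N HL1]
  have e3 := delta_eq_zero_of_degree_ge HL1 g1 hR1 h01 (D1 - nodeDiv1 N) (by rw [hdeg']; omega)
  unfold delta at e1 e3
  rw [hdeg'] at e3
  have hsurj := ev1_surjective_of_finrank N HL1 D hD1node (by show ell (D1 - nodeDiv1 N) + _ ≤ ell D1; omega)
  obtain ⟨lam, hlam⟩ := hsurj (fun i => b i - a i)
  have hlamL : (lam : F1) ∈ riemannRochSpace ((n * m1) • poleDiv HL1 hx10) := lam.2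
  obtain ⟨hlam0, hlam1⟩ := Fermat.Agent.FF.SpecialRR6.isIntegral_of_mem_L HL1 hx1 hx10 hlamL
  have hvl : ∀ i, (lam : F1) - algebraMap κ F1 (b i - a i) ∈ vanishing (N.s1 i) := by
    intro i
    have h1 := evalL_spec HL1 D.1 (N.s1 i) (hD1node i) lam
    have h2 : evalL HL1 D.1 (N.s1 i) (hD1node i) lam = b i - a i := by
      rw [← ev1_apply N HL1 D hD1node lam i, hlam]
    rw [h2] at h1
    rw [mem_vanishing, sub_eq_zero]
    exact h1
  -- the decomposition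
  have hpow1 : (x1 ^ m1) ^ n * x1⁻¹ ^ (n * m1) = 1 := by
    rw [← pow_mul, mul_comm m1 n, ← mul_pow, mul_inv_cancel₀ hx10, one_pow]
  refine ⟨(γ1 + (lam : F1), γ2), ?_, (r1 - x1⁻¹ ^ (n * m1) * (lam : F1), r2), ?_, ?_⟩
  · -- `g ∈ NC0`
    rw [mem_NC]
    refine ⟨(chart κ x1).add_mem hγ1 (mem_chart_iff.mpr hlam0), hγ2, ?_⟩
    rw [mem_compat]
    intro i
    refine ⟨b i, ?_, hvb i⟩
    have e : γ1 + (lam : F1) - algebraMap κ F1 (b i) =
        (γ1 - algebraMap κ F1 (a i)) + ((lam : F1) - algebraMap κ F1 (b i - a i)) := by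
      rw [map_sub]; ring
    show γ1 + (lam : F1) - algebraMap κ F1 (b i) ∈ vanishing (N.s1 i)
    rw [e]
    exact Submodule.add_mem _ (hva i) (hvl i)
  · -- `r ∈ NC1`
    have hgc : ((γ1 + (lam : F1), γ2) : F1 × F2) ∈ N.compat := by
      rw [mem_compat]
      intro i
      refine ⟨b i, ?_, hvb i⟩
      have e : γ1 + (lam : F1) - algebraMap κ F1 (b i) =
          (γ1 - algebraMap κ F1 (a i)) + ((lam : F1) - algebraMap κ F1 (b i - a i)) := by
        rw [map_sub]; ring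
      show γ1 + (lam : F1) - algebraMap κ F1 (b i) ∈ vanishing (N.s1 i)
      rw [e]
      exact Submodule.add_mem _ (hva i) (hvl i)
    have htr : tb x1 x2 m1 m2 ^ n * ((r1 - x1⁻¹ ^ (n * m1) * (lam : F1), r2) : F1 × F2) =
        w - (γ1 + (lam : F1), γ2) := by
      apply Prod.ext
      · rw [fst_tb_pow_mul, Prod.fst_sub]
        show (x1 ^ m1) ^ n * (r1 - x1⁻¹ ^ (n * m1) * (lam : F1)) = w.1 - (γ1 + (lam : F1))
        rw [mul_sub, ← mul_assoc, hpow1, one_mul, hw1]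
        ring
      · rw [snd_tb_pow_mul, Prod.snd_sub]
        show (x2 ^ m2) ^ n * r2 = w.2 - γ2
        rw [hw2]
        ring
    rw [mem_NC]
    refine ⟨(chart κ x1⁻¹).sub_mem hr1 (mem_chart_iff.mpr hlam1), hr2, ?_⟩
    have e : ((r1 - x1⁻¹ ^ (n * m1) * (lam : F1), r2) : F1 × F2) =
        sb x1 x2 m1 m2 ^ n * (tb x1 x2 m1 m2 ^ n *
          ((r1 - x1⁻¹ ^ (n * m1) * (lam : F1), r2) : F1 × F2)) := by
      rw [← mul_assoc, sb_pow_mul_tb_pow m1 m2 hx10 hx20, one_mul]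
    rw [e, htr]
    exact compat_mul N (compat_pow N hsb n) (Submodule.sub_mem _ hw hgc)
  · -- `w = g + t̄ ^ n r`
    apply Prod.ext
    · rw [Prod.fst_add, fst_tb_pow_mul]
      show w.1 = γ1 + (lam : F1) + (x1 ^ m1) ^ n * (r1 - x1⁻¹ ^ (n * m1) * (lam : F1))
      rw [mul_sub, ← mul_assoc, hpow1, one_mul, hw1]
      ring
    · rw [Prod.snd_add, snd_tb_pow_mul]
      show w.2 = γ2 + (x2 ^ m2) ^ n * r2
      rw [hw2]

include HL1 HL2 hx1 hx2 hx10 hx20 hR1 h01 in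
/-- **the pencil-trick property (PT) on the nodal curve.** -/
theorem exists_PT (hm1 : 0 < m1) (hm2 : 0 < m2) (htb : tb x1 x2 m1 m2 ∈ N.compat)
    (hsb : sb x1 x2 m1 m2 ∈ N.compat) :
    ∃ n₀ : ℕ, PT (NC N x1 x2) (NC N x1⁻¹ x2⁻¹) (tb x1 x2 m1 m2) (sb x1 x2 m1 m2) n₀ := by
  obtain ⟨c, hc⟩ := exists_H1 N HL1 HL2 hx1 hx2 hx10 hx20 m1 m2 g1 hR1 h01 hm1 hm2 htb hsb
  have htb0 : tb x1 x2 m1 m2 ∈ NC N x1 x2 := by
    rw [mem_NC]
    exact ⟨(chart κ x1).pow_mem (self_mem_chart (R := κ) x1) m1,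
      (chart κ x2).pow_mem (self_mem_chart (R := κ) x2) m2, htb⟩
  have hsb1 : sb x1 x2 m1 m2 ∈ NC N x1⁻¹ x2⁻¹ := by
    rw [mem_NC]
    exact ⟨(chart κ x1⁻¹).pow_mem (self_mem_chart (R := κ) x1⁻¹) m1,
      (chart κ x2⁻¹).pow_mem (self_mem_chart (R := κ) x2⁻¹) m2, hsb⟩
  exact ⟨c + 1, pt_of_h1 (tb_mul_sb m1 m2 hx10 hx20) htb0 hsb1 hc⟩

end Fermat.Agent.T33.NodalLift6
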