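/-
Programme T (S33), nodal layer, chapter (c) / (N1′) (helper6), part C: **the lifting bound
`p_a(X̃) ≤ g`** from the two-chart model, via `GoodRed8.lifting` with `Fb := F1 × F2`.

Abstract setting (the hypotheses are the contract `NodalCharts` that chapter (e) must supply):
`A` a valuation subring of `K`, `res : A →+* κ` onto; the generic fibre `F / K` (`LHyp`); a
commutative ring `O` (the Gauss ring `O₁ ⊓ O₂`) with an injective `ιO : O →+* F` and the reduction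
`ρ : O →+* F1 × F2`; constants `A0`, charts `B0 ∋ t`, `B1 ∋ s`, `t s = 1`, `ρ t = t̄`;
* (S2) `hS0 hS1` : ORDINARY NODES — every element of the nodal chart ring `NC N x₁ x₂`
  (resp. `NC N x₁⁻¹ x₂⁻¹`) is the reduction of an element of `B0` (resp. `B1`);
* (E)  `hE0 hE1` : the overlap of the charts;
* `hLam` : `Λ_n = {b ∈ B0 | sⁿ b ∈ B1} ⊆ L(n (t)_∞)`.

* `linearIndependent_of_red`, `finrank_le_of_lifts` : the dimension count for a reduction with
  values in a commutative RING;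
* `finrank_Lnod_le` : `l^nod(n (t̄)_∞) ≤ l(n (t)_∞)` for all large `n`;
* `liftBound`       : contract (N1′) `NodalData.LiftBound g`.
-/
import Mathlib
import Fermat.Agent.T33.NodalLift6B
import Fermat.Agent.FF.SpecialRR6I

set_option autoImplicit false
set_option linter.unusedSectionVars false
set_option linter.style.haveILetI false

open AlgebraicCurve IntermediateField

noncomputable section

namespace Fermat.Agent.T33.NodalLift6

open Fermat.Agent.X0 Fermat.Agent.X0.FF Fermat.Agent.RR.LSpace Fermat.Agent.RR.Riemann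
  Fermat.Agent.FF.RedLat2 Fermat.Agent.FF.SpecRR1 Fermat.Agent.FF.GoodRed8
  Fermat.Agent.RED.PUR.ChartGeneric22 Fermat.Agent.T33.NodalCurve6 Fermat.Agent.T33.NodalRR6

/-! ### the dimension count, reduction with values in a ring -/

section Count

variable {K : Type*} [Field K] {A : ValuationSubring K} {κ : Type*} [Field κ] (res : ↥A →+* κ)
variable {F : Type*} [Field F] [Algebra K F] {Fb : Type*} [CommRing Fb] [Algebra κ Fb]
variable {O : Type*} [CommRing O] (ιO : O →+* F) (hι : Function.Injective ιO) (ρ : O →+* Fb)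
  (hconst : ∀ a : ↥A, ∃ c : O, ιO c = algebraMap K F (a : K) ∧ ρ c = algebraMap κ Fb (res a))

include hι hconst in
/-- lifts of a `κ`-independent family are `K`-independent. -/
theorem linearIndependent_of_red {σ : Type*} [Fintype σ] (b : σ → O)
    (hli : LinearIndependent κ (fun i => ρ (b i))) : LinearIndependent K (fun i => ιO (b i)) := by
  classical
  rw [Fintype.linearIndependent_iff]
  intro c hsum
  by_contra hne
  have hc : c ≠ 0 := fun h => hne (fun i => by rw [h]; rfl)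
  obtain ⟨d, i₀, hd, hmem, hone⟩ := Fermat.Agent.FF.SpecialRR6.exists_primitive A c hc
  choose a ha using fun i => hconst ⟨d * c i, hmem i⟩
  have hzero : ∑ i, a i * b i = 0 := by
    apply hι
    rw [map_sum, map_zero]
    have : ∀ i, ιO (a i * b i) = d • (c i • ιO (b i)) := by
      intro i
      rw [map_mul, (ha i).1, smul_smul, Algebra.smul_def, map_mul]
    simp_rw [this]
    rw [← Finset.smul_sum, hsum, smul_zero]
  have hred : ∑ i, res ⟨d * c i, hmem i⟩ • ρ (b i) = 0 := by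
    have h1 := congrArg ρ hzero
    rw [map_sum, map_zero] at h1
    rw [← h1]
    refine Finset.sum_congr rfl fun i _ => ?_
    rw [map_mul, (ha i).2, Algebra.smul_def]
  have h2 := (Fintype.linearIndependent_iff.mp hli) _ hred i₀
  have h3 : (⟨d * c i₀, hmem i₀⟩ : ↥A) = 1 := Subtype.ext hone
  rw [h3, map_one] at h2
  exact one_ne_zero h2

include hι hconst in
/-- if every element of `Vb` lifts into `V`, then `dim Vb ≤ dim V`. -/
theorem finrank_le_of_lifts (Vb : Submodule κ Fb) [FiniteDimensional κ Vb] (V : Submodule K F)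
    [FiniteDimensional K V] (h : ∀ f ∈ Vb, ∃ b : O, ιO b ∈ V ∧ ρ b = f) :
    Module.finrank κ Vb ≤ Module.finrank K V := by
  classical
  set B := Module.finBasis κ Vb with hB
  choose b hbV hbρ using fun i => h (B i : Fb) (B i).2
  have hli : LinearIndependent κ (fun i => ρ (b i)) := by
    have h1 : LinearIndependent κ (fun i => ((B i : Vb) : Fb)) :=
      B.linearIndependent.map' Vb.subtype (Submodule.ker_subtype Vb)
    convert h1 using 2 with i
    exact hbρ i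
  have hK := linearIndependent_of_red res ιO hι ρ hconst b hli
  have hle : Submodule.span K (Set.range fun i => ιO (b i)) ≤ V :=
    Submodule.span_le.2 (by rintro _ ⟨i, rfl⟩; exact hbV i)
  have h1 := Submodule.finrank_mono hle
  rw [finrank_span_eq_card hK, Fintype.card_fin] at h1
  exact h1

end Count

/-! ### the lifting bound -/

section Main

variable {κ F1 F2 : Type*} [Field κ] [Field F1] [Field F2] [Algebra κ F1] [Algebra κ F2]
variable {ι : Type*} [Fintype ι] (N : NodalData κ F1 F2 ι)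
variable [IsAlgClosed κ] (HL1 : LHyp κ F1) (HL2 : LHyp κ F2)
variable {x1 : F1} {x2 : F2} (hx1 : IsGen κ x1) (hx2 : IsGen κ x2)
  [Algebra.IsSeparable κ⟮x1⟯ F1] [Algebra.IsSeparable κ⟮x2⟯ F2]
  (hx10 : x1 ≠ 0) (hx20 : x2 ≠ 0) (m1 m2 : ℕ)
variable (g1 : ℤ) (hR1 : ∀ D : Divisor κ F1, Divisor.degree D + 1 - g1 ≤ ell D)
variable {D01 : Divisor κ F1} (h01 : delta g1 D01 = 0)
variable {K : Type*} [Field K] {A : ValuationSubring K} (res : ↥A →+* κ)
  (hres : Function.Surjective res)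
variable {F : Type*} [Field F] [Algebra K F]
variable {O : Type*} [CommRing O] (ιO : O →+* F) (hι : Function.Injective ιO)
  (ρ : O →+* F1 × F2)
variable {A0 B0 B1 : Subring O} {t s : O} (hts : t * s = 1) (ht : t ∈ B0) (hs : s ∈ B1)
  (hA0 : A0 ≤ B0) (hA1 : A0 ≤ B1)
  (hconst : ∀ a : ↥A, ∃ c ∈ A0, ιO c = algebraMap K F (a : K) ∧
    ρ c = algebraMap κ (F1 × F2) (res a))
variable (HL : LHyp K F) (hιt : ιO t ≠ 0) (hρt : ρ t = tb x1 x2 m1 m2)

include hx10 hx20 hts hρt in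
theorem ρ_s_eq : ρ s = sb x1 x2 m1 m2 := by
  have h1 : ρ t * ρ s = 1 := by rw [← map_mul, hts, map_one]
  rw [hρt] at h1
  have h2 := tb_mul_sb (x1 := x1) (x2 := x2) m1 m2 hx10 hx20
  calc ρ s = (sb x1 x2 m1 m2 * tb x1 x2 m1 m2) * ρ s := by
        rw [mul_comm (sb x1 x2 m1 m2), h2, one_mul]
    _ = sb x1 x2 m1 m2 * (tb x1 x2 m1 m2 * ρ s) := by rw [mul_assoc]
    _ = sb x1 x2 m1 m2 := by rw [h1, mul_one]

include HL1 HL2 hx1 hx2 hx10 hx20 hR1 h01 hres hι hts ht hs hA0 hA1 hconst hρt in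
/-- **`l^nod(n (t̄)_∞) ≤ l(n (t)_∞)` for all large `n`.** -/
theorem finrank_Lnod_le (hm1 : 0 < m1) (hm2 : 0 < m2) (htb : tb x1 x2 m1 m2 ∈ N.compat)
    (hsb : sb x1 x2 m1 m2 ∈ N.compat)
    (hS0 : ∀ y ∈ NC N x1 x2, ∃ b ∈ B0, ρ b = y)
    (hS1 : ∀ y ∈ NC N x1⁻¹ x2⁻¹, ∃ b ∈ B1, ρ b = y)
    (hE0 : ∀ b ∈ B0, ∃ m, s ^ m * b ∈ B1) (hE1 : ∀ b ∈ B1, ∃ m, t ^ m * b ∈ B0)
    (hLam : ∀ n, ∀ b ∈ Lam B0 B1 s n, ιO b ∈ riemannRochSpace (n • poleDiv HL hιt)) :
    ∃ n₁ : ℕ, ∀ n : ℕ, n₁ ≤ n →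
      Module.finrank κ (N.L (n • Dt HL1 HL2 hx10 hx20 m1 m2)) ≤
        Module.finrank K (riemannRochSpace (n • poleDiv HL hιt)) := by
  have hρs := ρ_s_eq hx10 hx20 m1 m2 ρ hts hρt
  have hκ : ∀ a : κ, ∃ c ∈ A0, ρ c = algebraMap κ (F1 × F2) a := by
    intro a
    obtain ⟨a', rfl⟩ := hres a
    obtain ⟨c, hc, -, hc2⟩ := hconst a'
    exact ⟨c, hc, hc2⟩
  obtain ⟨n₀, hPT⟩ := exists_PT N HL1 HL2 hx1 hx2 hx10 hx20 m1 m2 g1 hR1 h01 hm1 hm2 htb hsb
  have hfin := Lb_fg N HL1 HL2 hx1 hx2 hx10 hx20 m1 m2 hsb n₀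
  rw [← hρt, ← hρs] at hPT
  rw [← hρs] at hfin
  obtain ⟨n₁, hn₁⟩ := lifting (κ := κ) (Bb0 := NC N x1 x2) (Bb1 := NC N x1⁻¹ x2⁻¹)
    hts ht hs hA0 hA1 hκ hS0 hS1 hE0 hE1 hPT hfin
  refine ⟨n₁, fun n hn => ?_⟩
  haveI := Fermat.Agent.T33.NodalRR6.finiteDimensional_L N HL1 HL2
    (n • Dt HL1 HL2 hx10 hx20 m1 m2)
  haveI := Fermat.Agent.RR.LSpace.finiteDimensional_L HL (n • poleDiv HL hιt)
  refine finrank_le_of_lifts res ιO hι ρ
    (fun a => by obtain ⟨c, -, hc⟩ := hconst a; exact ⟨c, hc⟩) _ _ fun f hf => ?_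
  rw [← Lb_eq_L N HL1 HL2 hx1 hx2 hx10 hx20 m1 m2 hsb n, ← hρs] at hf
  obtain ⟨b, hb, hbf⟩ := hn₁ n hn f hf
  exact ⟨b, hLam n b hb, hbf⟩

include hx1 in
theorem degree_poleDiv_x1_pos : 0 < Divisor.degree (poleDiv HL1 hx10) := by
  apply degree_poleDiv_pos HL1 hx10
  rintro ⟨c, hc⟩
  exact hx1.transcendental (hc ▸ isAlgebraic_algebraMap c)

include hx2 in
theorem degree_poleDiv_x2_pos : 0 < Divisor.degree (poleDiv HL2 hx20) := by
  apply degree_poleDiv_pos HL2 hx20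
  rintro ⟨c, hc⟩
  exact hx2.transcendental (hc ▸ isAlgebraic_algebraMap c)

/-- `n (t̄)_∞` avoids the nodes. -/
theorem avoids_nsmul_Dt (hm1 : 0 < m1) (hm2 : 0 < m2) (htb : tb x1 x2 m1 m2 ∈ N.compat)
    (n : ℕ) : N.Avoids (n • Dt HL1 HL2 hx10 hx20 m1 m2) := by
  constructor
  · intro i
    rw [nsmul_Dt_fst, Finsupp.smul_apply, poleDiv_apply]
    have := ord_nonneg_of_mem (N.s1 i) (x1_mem_of_tb N m1 m2 hm1 htb i)
    rw [max_eq_left (by omega), smul_zero]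
  · intro i
    rw [nsmul_Dt_snd, Finsupp.smul_apply, poleDiv_apply]
    have h1 : x2 ^ m2 ∈ (N.s2 i).toValuationSubring := snd_mem_of_compat N htb i
    have h2 : 0 ≤ (N.s2 i).ord x2 := by
      have := ord_nonneg_of_mem (N.s2 i) h1
      rw [ord_pow] at this
      have hm : (0 : ℤ) < m2 := by exact_mod_cast hm2
      by_contra hneg
      rw [not_le] at hneg
      nlinarith
    rw [max_eq_left (by omega), smul_zero]

include HL1 HL2 hx1 hx2 hx10 hx20 hR1 h01 hres hι hts ht hs hA0 hA1 hconst hρt in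
/-- **(N1′) the lifting bound `p_a(X̃) ≤ g`**, `g` the Riemann constant of the generic fibre. -/
theorem liftBound (hm1 : 0 < m1) (hm2 : 0 < m2) (htb : tb x1 x2 m1 m2 ∈ N.compat)
    (hsb : sb x1 x2 m1 m2 ∈ N.compat)
    (hS0 : ∀ y ∈ NC N x1 x2, ∃ b ∈ B0, ρ b = y)
    (hS1 : ∀ y ∈ NC N x1⁻¹ x2⁻¹, ∃ b ∈ B1, ρ b = y)
    (hE0 : ∀ b ∈ B0, ∃ m, s ^ m * b ∈ B1) (hE1 : ∀ b ∈ B1, ∃ m, t ^ m * b ∈ B0)
    (hLam : ∀ n, ∀ b ∈ Lam B0 B1 s n, ιO b ∈ riemannRochSpace (n • poleDiv HL hιt))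
    (hdeg : NDiv.degree (Dt HL1 HL2 hx10 hx20 m1 m2) = Divisor.degree (poleDiv HL hιt))
    (g : ℤ) (hRiem : ∃ c : ℤ, ∀ D : Divisor K F, c ≤ Divisor.degree D →
      ell D = Divisor.degree D + 1 - g) :
    N.LiftBound g := by
  obtain ⟨n₁, hn₁⟩ := finrank_Lnod_le N HL1 HL2 hx1 hx2 hx10 hx20 m1 m2 g1 hR1 h01 res hres ιO hι
    ρ hts ht hs hA0 hA1 hconst HL hιt hρt hm1 hm2 htb hsb hS0 hS1 hE0 hE1 hLam
  obtain ⟨cR, hcR⟩ := hRiem
  have hp1 := degree_poleDiv_x1_pos HL1 hx1 hx10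
  have hp2 := degree_poleDiv_x2_pos HL2 hx2 hx20
  have hM1 : (1 : ℤ) ≤ m1 := by exact_mod_cast hm1
  have hM2 : (1 : ℤ) ≤ m2 := by exact_mod_cast hm2
  intro c
  set n : ℕ := max n₁ (max c.toNat cR.toNat) with hn
  have hnn₁ : n₁ ≤ n := le_max_left _ _
  have hnc : c ≤ (n : ℤ) := by
    have h2 : c.toNat ≤ n := le_trans (le_max_left _ _) (le_max_right _ _)
    have h3 := Int.self_le_toNat c
    omega
  have hncR : cR ≤ (n : ℤ) := by
    have h2 : cR.toNat ≤ n := le_trans (le_max_right _ _) (le_max_right _ _)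
    have h3 := Int.self_le_toNat cR
    omega
  have hn0 : (0 : ℤ) ≤ n := Int.natCast_nonneg _
  have hd1 : Divisor.degree (n • Dt HL1 HL2 hx10 hx20 m1 m2).1 =
      (n : ℤ) * m1 * Divisor.degree (poleDiv HL1 hx10) := by
    rw [nsmul_Dt_fst, map_nsmul, nsmul_eq_mul]; push_cast; ring
  have hd2 : Divisor.degree (n • Dt HL1 HL2 hx10 hx20 m1 m2).2 =
      (n : ℤ) * m2 * Divisor.degree (poleDiv HL2 hx20) := by
    rw [nsmul_Dt_snd, map_nsmul, nsmul_eq_mul]; push_cast; ring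
  have hge1 : (n : ℤ) ≤ (n : ℤ) * m1 * Divisor.degree (poleDiv HL1 hx10) := by
    have h1 : (n : ℤ) ≤ (n : ℤ) * m1 := le_mul_of_one_le_right hn0 hM1
    have h2 : (n : ℤ) * m1 ≤ (n : ℤ) * m1 * Divisor.degree (poleDiv HL1 hx10) :=
      le_mul_of_one_le_right (mul_nonneg hn0 (by omega)) (by omega)
    omega
  have hge2 : (n : ℤ) ≤ (n : ℤ) * m2 * Divisor.degree (poleDiv HL2 hx20) := by
    have h1 : (n : ℤ) ≤ (n : ℤ) * m2 := le_mul_of_one_le_right hn0 hM2
    have h2 : (n : ℤ) * m2 ≤ (n : ℤ) * m2 * Divisor.degree (poleDiv HL2 hx20) :=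
      le_mul_of_one_le_right (mul_nonneg hn0 (by omega)) (by omega)
    omega
  refine ⟨n • Dt HL1 HL2 hx10 hx20 m1 m2, avoids_nsmul_Dt N HL1 HL2 hx10 hx20 m1 m2 hm1 hm2 htb n,
    by rw [hd1]; omega, by rw [hd2]; omega, ?_⟩
  -- the count
  have h1 := hn₁ n hnn₁
  have hdegn : NDiv.degree (n • Dt HL1 HL2 hx10 hx20 m1 m2) =
      (n : ℤ) * Divisor.degree (poleDiv HL hιt) := by
    rw [← hdeg]
    unfold NDiv.degree
    rw [hd1, hd2]
    show _ = (n : ℤ) * (Divisor.degree (m1 • poleDiv HL1 hx10) +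
      Divisor.degree (m2 • poleDiv HL2 hx20))
    rw [map_nsmul, map_nsmul, nsmul_eq_mul, nsmul_eq_mul]
    ring
  have hdegt : Divisor.degree (n • poleDiv HL hιt) = (n : ℤ) * Divisor.degree (poleDiv HL hιt) := by
    rw [map_nsmul, nsmul_eq_mul]
  have hpos : (1 : ℤ) ≤ Divisor.degree (poleDiv HL hιt) := by
    rw [← hdeg]
    unfold NDiv.degree
    show 1 ≤ Divisor.degree (m1 • poleDiv HL1 hx10) + Divisor.degree (m2 • poleDiv HL2 hx20)
    rw [map_nsmul, map_nsmul, nsmul_eq_mul, nsmul_eq_mul]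
    have e1 : (1 : ℤ) ≤ (m1 : ℤ) * Divisor.degree (poleDiv HL1 hx10) := by nlinarith
    have e2 : (0 : ℤ) ≤ (m2 : ℤ) * Divisor.degree (poleDiv HL2 hx20) := by nlinarith
    omega
  have h2 := hcR (n • poleDiv HL hιt) (by
    rw [hdegt]
    have : (n : ℤ) ≤ (n : ℤ) * Divisor.degree (poleDiv HL hιt) := le_mul_of_one_le_right hn0 hpos
    omega)
  unfold NodalData.delta NodalData.ell
  rw [hdegn]
  rw [hdegt] at h2
  unfold ell at h2
  have h3 : (Module.finrank κ (N.L (n • Dt HL1 HL2 hx10 hx20 m1 m2)) : ℤ) ≤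
      (Module.finrank K (riemannRochSpace (n • poleDiv HL hιt)) : ℤ) := by exact_mod_cast h1
  omega

end Main

end Fermat.Agent.T33.NodalLift6
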