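/-
Programme T (S33), nodal layer, chapter (c) (helper6), part C: **non-special divisors of distinct
smooth points on the nodal curve** (the greedy argument of `FF/SpecRR1B` ported to `L^nod`).

Points of the normalisation are `NPlace = Place κ F1 ⊕ Place κ F2`; for a finite set `T` of them
`nptsS T = npts T.toLeft T.toRight` is the reduced nodal divisor.

* `L_mono`, `ell_mono`              : monotonicity of `L^nod`;
* `ell_nptsS_empty`                 : `l^nod(0) = 1` (the nodal curve is connected: `ι` nonempty);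
* `ell_insert_le`                   : `l^nod(E + Q) ≤ l^nod(E) + 1`;
* `not_mem_L_union`                 : a section with a genuine pole at `Q` is not a section of
                                      `O(pts T + pts U)` for `Q ∉ T ∪ U`;
* `ell_union_ge`                    : if no point of `S ∖ T` can be added for free,
                                      `l^nod(pts T + pts U) ≥ l^nod(pts T) + #U`;
* `exists_nonspecial_subset`        : `δ_g(pts S) = 0 ⟹ ∃ T ⊆ S, #T = g, l^nod(pts T) = 1`;
* `nonSpecialExists`                : contract (C3) `NodalData.NonSpecialExists g` from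
                                      `δ_g = 0` in large bidegree.
-/
import Mathlib
import Fermat.Agent.T33.NodalRR6B

set_option autoImplicit false
set_option linter.unusedSectionVars false

open AlgebraicCurve

noncomputable section

namespace Fermat.Agent.T33.NodalRR6

open Fermat.Agent.X0.FF Fermat.Agent.RR.LSpace Fermat.Agent.FF.RedLat2 Fermat.Agent.FF.SpecRR1
  Fermat.Agent.T33.NodalCurve6

open scoped Classical

variable {κ F1 F2 : Type*} [Field κ] [Field F1] [Field F2] [Algebra κ F1] [Algebra κ F2]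
variable {ι : Type*} (N : NodalData κ F1 F2 ι)
variable (HL1 : LHyp κ F1) (HL2 : LHyp κ F2)

/-- points of the normalisation. -/
abbrev NPlace (κ F1 F2 : Type*) [Field κ] [Field F1] [Field F2] [Algebra κ F1] [Algebra κ F2] :
    Type _ := Place κ F1 ⊕ Place κ F2

/-- the reduced nodal divisor of a finite set of points of the normalisation. -/
def nptsS (T : Finset (NPlace κ F1 F2)) : NDiv κ F1 F2 := npts T.toLeft T.toRight

theorem nptsS_fst (T : Finset (NPlace κ F1 F2)) : (nptsS T).1 = pts T.toLeft := rfl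

theorem nptsS_snd (T : Finset (NPlace κ F1 F2)) : (nptsS T).2 = pts T.toRight := rfl

/-! ### monotonicity -/

theorem L_mono {D D' : NDiv κ F1 F2} (h1 : D.1 ≤ D'.1) (h2 : D.2 ≤ D'.2) : N.L D ≤ N.L D' := by
  intro f hf
  rw [NodalData.mem_L] at hf ⊢
  exact ⟨Fermat.Agent.RR.LSpace.L_mono h1 hf.1, Fermat.Agent.RR.LSpace.L_mono h2 hf.2.1, hf.2.2⟩

include HL1 HL2 in
theorem ell_mono {D D' : NDiv κ F1 F2} (h1 : D.1 ≤ D'.1) (h2 : D.2 ≤ D'.2) :
    N.ell D ≤ N.ell D' := by
  have := finiteDimensional_L N HL1 HL2 D'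
  unfold NodalData.ell
  exact_mod_cast Submodule.finrank_mono (L_mono N h1 h2)

theorem L_nptsS_mono {T T' : Finset (NPlace κ F1 F2)} (h : T ⊆ T') :
    N.L (nptsS T) ≤ N.L (nptsS T') :=
  L_mono N (pts_mono (Finset.toLeft_subset_toLeft h)) (pts_mono (Finset.toRight_subset_toRight h))

include HL1 HL2 in
theorem degree_nptsS (T : Finset (NPlace κ F1 F2)) : NDiv.degree (nptsS T) = T.card := by
  unfold NDiv.degree
  rw [nptsS_fst, nptsS_snd, degree_pts HL1, degree_pts HL2, ← Finset.card_toLeft_add_card_toRight]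
  push_cast
  ring

/-! ### `l^nod(0) = 1` -/

theorem nptsS_empty : nptsS (∅ : Finset (NPlace κ F1 F2)) = (0, 0) := by
  apply Prod.ext
  · show pts (∅ : Finset (NPlace κ F1 F2)).toLeft = 0
    have : (∅ : Finset (NPlace κ F1 F2)).toLeft = ∅ := by ext x; simp
    rw [this, pts_empty]
  · show pts (∅ : Finset (NPlace κ F1 F2)).toRight = 0
    have : (∅ : Finset (NPlace κ F1 F2)).toRight = ∅ := by ext x; simp
    rw [this, pts_empty]

include HL1 HL2 in
theorem ell_nptsS_empty [Nonempty ι] : N.ell (nptsS (∅ : Finset (NPlace κ F1 F2))) = 1 := by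
  have hL : N.L (nptsS (∅ : Finset (NPlace κ F1 F2))) =
      Submodule.span κ {((1 : F1), (1 : F2))} := by
    apply le_antisymm
    · intro f hf
      rw [NodalData.mem_L] at hf
      obtain ⟨h1, h2, h3⟩ := hf
      have e1 : (nptsS (∅ : Finset (NPlace κ F1 F2))).1 = 0 := by rw [nptsS_empty]
      have e2 : (nptsS (∅ : Finset (NPlace κ F1 F2))).2 = 0 := by rw [nptsS_empty]
      rw [e1, L_zero HL1] at h1
      rw [e2, L_zero HL2] at h2
      obtain ⟨a, ha⟩ := Submodule.mem_span_singleton.1 h1
      obtain ⟨b, hb⟩ := Submodule.mem_span_singleton.1 h2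
      rw [Algebra.smul_def, mul_one] at ha hb
      obtain ⟨i⟩ := ‹Nonempty ι›
      obtain ⟨c, hc1, hc2⟩ := h3 i
      rw [← ha, ← map_sub, mem_vanishing, ord_algebraMap] at hc1
      rw [← hb, ← map_sub, mem_vanishing, ord_algebraMap] at hc2
      have hac : a = c := by
        rcases hc1 with h | h
        · exact sub_eq_zero.1 ((map_eq_zero (algebraMap κ F1)).1 h)
        · exact absurd h (lt_irrefl _)
      have hbc : b = c := by
        rcases hc2 with h | h
        · exact sub_eq_zero.1 ((map_eq_zero (algebraMap κ F2)).1 h)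
        · exact absurd h (lt_irrefl _)
      rw [Submodule.mem_span_singleton]
      refine ⟨c, ?_⟩
      apply Prod.ext
      · rw [Prod.smul_fst, Algebra.smul_def, mul_one, ← hac, ha]
      · rw [Prod.smul_snd, Algebra.smul_def, mul_one, ← hbc, hb]
    · rw [Submodule.span_singleton_le_iff_mem, NodalData.mem_L]
      refine ⟨?_, ?_, fun i => ⟨1, ?_, ?_⟩⟩
      · rw [nptsS_empty]
        show (1 : F1) ∈ riemannRochSpace (0 : Divisor κ F1)
        rw [L_zero HL1]
        exact Submodule.mem_span_singleton_self _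
      · rw [nptsS_empty]
        show (1 : F2) ∈ riemannRochSpace (0 : Divisor κ F2)
        rw [L_zero HL2]
        exact Submodule.mem_span_singleton_self _
      · show (1 : F1) - algebraMap κ F1 1 ∈ vanishing (N.s1 i)
        rw [map_one, sub_self]; exact Submodule.zero_mem _
      · show (1 : F2) - algebraMap κ F2 1 ∈ vanishing (N.s2 i)
        rw [map_one, sub_self]; exact Submodule.zero_mem _
  unfold NodalData.ell
  rw [hL, finrank_span_singleton]
  · rfl
  · intro h
    have := congrArg Prod.fst h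
    exact one_ne_zero this

/-! ### adding one point -/

/-- the nodal divisor of one point of the normalisation. -/
def nsingle : NPlace κ F1 F2 → NDiv κ F1 F2
  | Sum.inl P => (Finsupp.single P 1, 0)
  | Sum.inr P => (0, Finsupp.single P 1)

theorem nptsS_insert {T : Finset (NPlace κ F1 F2)} {Q : NPlace κ F1 F2} (hQ : Q ∉ T) :
    nptsS (insert Q T) = nptsS T + nsingle Q := by
  rcases Q with P | P
  · have hP : P ∉ T.toLeft := by rwa [Finset.mem_toLeft]
    apply Prod.ext
    · show pts (insert (Sum.inl P) T).toLeft = pts T.toLeft + Finsupp.single P 1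
      rw [Finset.toLeft_insert_inl, pts_insert hP]
    · show pts (insert (Sum.inl P) T).toRight = pts T.toRight + 0
      rw [Finset.toRight_insert_inl, add_zero]
  · have hP : P ∉ T.toRight := by rwa [Finset.mem_toRight]
    apply Prod.ext
    · show pts (insert (Sum.inr P) T).toLeft = pts T.toLeft + 0
      rw [Finset.toLeft_insert_inr, add_zero]
    · show pts (insert (Sum.inr P) T).toRight = pts T.toRight + Finsupp.single P 1
      rw [Finset.toRight_insert_inr, pts_insert hP]

theorem add_nsingle_inl_fst (D : NDiv κ F1 F2) (P : Place κ F1) :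
    (D + nsingle (Sum.inl P)).1 = D.1 + Finsupp.single P 1 := rfl

theorem add_nsingle_inl_snd (D : NDiv κ F1 F2) (P : Place κ F1) :
    (D + nsingle (Sum.inl P)).2 = D.2 := by
  show D.2 + 0 = D.2
  rw [add_zero]

theorem add_nsingle_inr_fst (D : NDiv κ F1 F2) (P : Place κ F2) :
    (D + nsingle (Sum.inr P)).1 = D.1 := by
  show D.1 + 0 = D.1
  rw [add_zero]

theorem add_nsingle_inr_snd (D : NDiv κ F1 F2) (P : Place κ F2) :
    (D + nsingle (Sum.inr P)).2 = D.2 + Finsupp.single P 1 := rfl

include HL1 HL2 in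
/-- modulo `L^nod(D)`, the space `L^nod(D + Q)` is spanned by any element outside `L^nod(D)`. -/
theorem exists_sub_smul_mem (D : NDiv κ F1 F2) (Q : NPlace κ F1 F2) {f g : F1 × F2}
    (hf : f ∈ N.L (D + nsingle Q)) (hg : g ∈ N.L (D + nsingle Q)) (hg' : g ∉ N.L D) :
    ∃ c : κ, f - c • g ∈ N.L D := by
  rw [NodalData.mem_L] at hf hg
  rcases Q with P | P
  · rw [add_nsingle_inl_fst, add_nsingle_inl_snd] at hf hg
    have hg1 : g.1 ∉ riemannRochSpace D.1 := by
      intro h
      apply hg'
      rw [NodalData.mem_L]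
      exact ⟨h, hg.2.1, hg.2.2⟩
    obtain ⟨c, hc⟩ := Fermat.Agent.RR.LSpace.exists_sub_smul_mem HL1 D.1 P hf.1 hg.1 hg1
    refine ⟨c, ?_⟩
    rw [NodalData.mem_L]
    refine ⟨hc, ?_, fun i => ?_⟩
    · exact Submodule.sub_mem _ hf.2.1 (Submodule.smul_mem _ c hg.2.1)
    · exact Submodule.sub_mem _ (hf.2.2 i) (Submodule.smul_mem _ c (hg.2.2 i))
  · rw [add_nsingle_inr_fst, add_nsingle_inr_snd] at hf hg
    have hg2 : g.2 ∉ riemannRochSpace D.2 := by
      intro h
      apply hg'
      rw [NodalData.mem_L]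
      exact ⟨hg.1, h, hg.2.2⟩
    obtain ⟨c, hc⟩ := Fermat.Agent.RR.LSpace.exists_sub_smul_mem HL2 D.2 P hf.2.1 hg.2.1 hg2
    refine ⟨c, ?_⟩
    rw [NodalData.mem_L]
    refine ⟨?_, hc, fun i => ?_⟩
    · exact Submodule.sub_mem _ hf.1 (Submodule.smul_mem _ c hg.1)
    · exact Submodule.sub_mem _ (hf.2.2 i) (Submodule.smul_mem _ c (hg.2.2 i))

theorem le_add_nsingle (D : NDiv κ F1 F2) (Q : NPlace κ F1 F2) :
    D.1 ≤ (D + nsingle Q).1 ∧ D.2 ≤ (D + nsingle Q).2 := by
  rcases Q with P | P
  · rw [add_nsingle_inl_fst, add_nsingle_inl_snd]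
    exact ⟨le_add_single D.1 P, le_refl _⟩
  · rw [add_nsingle_inr_fst, add_nsingle_inr_snd]
    exact ⟨le_refl _, le_add_single D.2 P⟩

include HL1 HL2 in
/-- **`l^nod(D + Q) ≤ l^nod(D) + 1`.** -/
theorem ell_add_nsingle_le (D : NDiv κ F1 F2) (Q : NPlace κ F1 F2) :
    N.ell (D + nsingle Q) ≤ N.ell D + 1 := by
  have hfd := finiteDimensional_L N HL1 HL2 D
  have hfd' := finiteDimensional_L N HL1 HL2 (D + nsingle Q)
  have hmono : N.L D ≤ N.L (D + nsingle Q) :=
    L_mono N (le_add_nsingle D Q).1 (le_add_nsingle D Q).2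
  unfold NodalData.ell
  by_cases hle : N.L (D + nsingle Q) ≤ N.L D
  · rw [le_antisymm hle hmono]
    omega
  · obtain ⟨g, hg, hg'⟩ := SetLike.not_le_iff_exists.mp hle
    have hsub : N.L (D + nsingle Q) ≤ N.L D ⊔ Submodule.span κ {g} := by
      intro f hf
      obtain ⟨c, hc⟩ := exists_sub_smul_mem N HL1 HL2 D Q hf hg hg'
      have : f = (f - c • g) + c • g := by abel
      rw [this]
      exact Submodule.add_mem_sup hc
        (Submodule.smul_mem _ c (Submodule.mem_span_singleton_self g))
    have h1 := Submodule.finrank_mono hsub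
    have h2 := Submodule.finrank_add_le_finrank_add_finrank (N.L D) (Submodule.span κ {g})
    have hg0 : g ≠ 0 := by
      rintro rfl
      exact hg' (Submodule.zero_mem _)
    have h3 : Module.finrank κ (Submodule.span κ {g}) = 1 := finrank_span_singleton hg0
    have : Module.finrank κ (N.L (D + nsingle Q)) ≤ Module.finrank κ (N.L D) + 1 := by omega
    exact_mod_cast this

include HL1 HL2 in
theorem ell_insert_le {T : Finset (NPlace κ F1 F2)} {Q : NPlace κ F1 F2} (hQ : Q ∉ T) :
    N.ell (nptsS (insert Q T)) ≤ N.ell (nptsS T) + 1 := by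
  rw [nptsS_insert hQ]
  exact ell_add_nsingle_le N HL1 HL2 _ Q

/-! ### distinct simple poles are independent -/

theorem pts_union_le {K F : Type*} [Field K] [Field F] [Algebra K F] (A B : Finset (Place K F)) :
    pts (A ∪ B) ≤ pts A + pts B := by
  rw [Finsupp.le_def]
  intro v
  rw [Finsupp.add_apply, pts_apply, pts_apply, pts_apply]
  by_cases hA : v ∈ A <;> by_cases hB : v ∈ B <;> simp [hA, hB]

include HL1 HL2 in
/-- a section of `O(pts T + Q)` with a genuine pole at `Q` is not a section of
`O(pts T + pts U)` for `Q ∉ T ∪ U`. -/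
theorem not_mem_L_union {T U : Finset (NPlace κ F1 F2)} {Q : NPlace κ F1 F2} (hQT : Q ∉ T)
    (hQU : Q ∉ U) {f : F1 × F2} (hf1 : f ∈ N.L (nptsS (insert Q T))) (hf2 : f ∉ N.L (nptsS T)) :
    f ∉ N.L (nptsS (T ∪ U)) := by
  rw [nptsS_insert hQT, NodalData.mem_L] at hf1
  intro hmem
  rw [NodalData.mem_L] at hmem
  rcases Q with P | P
  · rw [add_nsingle_inl_fst, add_nsingle_inl_snd] at hf1
    have hPT : P ∉ T.toLeft := by rwa [Finset.mem_toLeft]
    have hPU : P ∉ U.toLeft := by rwa [Finset.mem_toLeft]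
    have h2 : f.1 ∉ riemannRochSpace (pts T.toLeft) := by
      intro h
      apply hf2
      rw [NodalData.mem_L]
      exact ⟨h, hf1.2.1, hf1.2.2⟩
    have h3 := not_mem_L_add_pts HL1 hPT hPU hf1.1 h2
    apply h3
    have h4 := hmem.1
    rw [nptsS_fst, Finset.toLeft_union] at h4
    exact Fermat.Agent.RR.LSpace.L_mono (pts_union_le _ _) h4
  · rw [add_nsingle_inr_fst, add_nsingle_inr_snd] at hf1
    have hPT : P ∉ T.toRight := by rwa [Finset.mem_toRight]
    have hPU : P ∉ U.toRight := by rwa [Finset.mem_toRight]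
    have h2 : f.2 ∉ riemannRochSpace (pts T.toRight) := by
      intro h
      apply hf2
      rw [NodalData.mem_L]
      exact ⟨hf1.1, h, hf1.2.2⟩
    have h3 := not_mem_L_add_pts HL2 hPT hPU hf1.2.1 h2
    apply h3
    have h4 := hmem.2.1
    rw [nptsS_snd, Finset.toRight_union] at h4
    exact Fermat.Agent.RR.LSpace.L_mono (pts_union_le _ _) h4

include HL1 HL2 in
/-- if no point of `S ∖ T` can be added to `pts T` without increasing `l^nod`, then
`l^nod(pts T + pts U) ≥ l^nod(pts T) + #U` for every `U ⊆ S ∖ T`. -/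
theorem ell_union_ge {T : Finset (NPlace κ F1 F2)} (S : Finset (NPlace κ F1 F2))
    (hall : ∀ Q ∈ S, Q ∉ T → N.ell (nptsS (insert Q T)) ≠ N.ell (nptsS T))
    (U : Finset (NPlace κ F1 F2)) (hUS : U ⊆ S) (hUT : Disjoint U T) :
    N.ell (nptsS T) + U.card ≤ N.ell (nptsS (T ∪ U)) := by
  induction U using Finset.induction_on with
  | empty => rw [Finset.union_empty]; simp
  | insert P U hP ih =>
    have hUS' : U ⊆ S := fun x hx => hUS (Finset.mem_insert_of_mem hx)
    have hUT' : Disjoint U T := Finset.disjoint_of_subset_left (Finset.subset_insert P U) hUT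
    have hPS : P ∈ S := hUS (Finset.mem_insert_self P U)
    have hPT : P ∉ T := Finset.disjoint_left.mp hUT (Finset.mem_insert_self P U)
    have ih' := ih hUS' hUT'
    have hne := hall P hPS hPT
    have hlt : N.L (nptsS T) < N.L (nptsS (insert P T)) := by
      refine lt_of_le_of_ne (L_nptsS_mono N (Finset.subset_insert P T)) fun heq => hne ?_
      unfold NodalData.ell
      rw [heq]
    obtain ⟨f, hf1, hf2⟩ := SetLike.exists_of_lt hlt
    have hf3 := not_mem_L_union N HL1 HL2 hPT hP hf1 hf2
    have hsub1 : insert P T ⊆ T ∪ insert P U := by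
      intro x hx
      rw [Finset.mem_insert] at hx
      rcases hx with rfl | hx
      · exact Finset.mem_union_right _ (Finset.mem_insert_self _ _)
      · exact Finset.mem_union_left _ hx
    have hf4 : f ∈ N.L (nptsS (T ∪ insert P U)) := L_nptsS_mono N hsub1 hf1
    have hsub2 : T ∪ U ⊆ T ∪ insert P U :=
      Finset.union_subset_union_right (Finset.subset_insert P U)
    have hlt2 : N.L (nptsS (T ∪ U)) < N.L (nptsS (T ∪ insert P U)) :=
      lt_of_le_of_ne (L_nptsS_mono N hsub2) fun heq => hf3 (heq ▸ hf4)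
    have := finiteDimensional_L N HL1 HL2 (nptsS (T ∪ insert P U))
    have hrk := Submodule.finrank_lt_finrank_of_lt hlt2
    rw [Finset.card_insert_of_notMem hP]
    unfold NodalData.ell at ih' ⊢
    push_cast
    omega

variable [Nonempty ι]

include HL1 HL2 in
/-- **a non-special divisor of `g` distinct points inside a reduced nodal divisor with
`δ_g = 0`.** -/
theorem exists_nonspecial_subset (g : ℕ) (S : Finset (NPlace κ F1 F2))
    (hS : N.delta (g : ℤ) (nptsS S) = 0) :
    ∃ T ⊆ S, T.card = g ∧ N.ell (nptsS T) = 1 := by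
  have key : ∀ k : ℕ, k ≤ g → ∃ T ⊆ S, T.card = k ∧ N.ell (nptsS T) = 1 := by
    intro k
    induction k with
    | zero =>
      intro _
      exact ⟨∅, Finset.empty_subset S, rfl, ell_nptsS_empty N HL1 HL2⟩
    | succ k ih =>
      intro hk
      obtain ⟨T, hTS, hTk, hT1⟩ := ih (by omega)
      by_contra hcon
      push Not at hcon
      have hall : ∀ Q ∈ S, Q ∉ T → N.ell (nptsS (insert Q T)) ≠ N.ell (nptsS T) := by
        intro Q hQS hQT heq
        refine hcon (insert Q T) (Finset.insert_subset hQS hTS) ?_ ?_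
        · rw [Finset.card_insert_of_notMem hQT, hTk]
        · rw [heq, hT1]
      have h1 := ell_union_ge N HL1 HL2 S hall (S \ T) Finset.sdiff_subset Finset.sdiff_disjoint
      rw [Finset.union_sdiff_of_subset hTS, hT1, Finset.card_sdiff_of_subset hTS, hTk] at h1
      unfold NodalData.delta at hS
      rw [degree_nptsS HL1 HL2] at hS
      have hkS : k ≤ S.card := by rw [← hTk]; exact Finset.card_le_card hTS
      push_cast [hkS] at h1
      omega
  exact key g le_rfl

include HL1 HL2 in
/-- **(C3) non-special smooth points** from `δ_g = 0` in large bidegree. -/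
theorem nonSpecialExists (g : ℕ)
    (hlarge : ∃ c : ℤ, ∀ D : NDiv κ F1 F2, N.Avoids D → c ≤ Divisor.degree D.1 →
      c ≤ Divisor.degree D.2 → N.delta (g : ℤ) D = 0) :
    N.NonSpecialExists g := by
  obtain ⟨c, hc⟩ := hlarge
  intro X1 X2 hX1 hX2 hs1 hs2
  obtain ⟨S1, hS1X, hS1card⟩ := hX1.exists_subset_card_eq c.toNat
  obtain ⟨S2, hS2X, hS2card⟩ := hX2.exists_subset_card_eq c.toNat
  set S : Finset (NPlace κ F1 F2) := S1.disjSum S2 with hSdef
  have hL : S.toLeft = S1 := Finset.toLeft_disjSum
  have hR : S.toRight = S2 := Finset.toRight_disjSum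
  have hav : N.Avoids (nptsS S) := by
    constructor
    · intro i
      rw [nptsS_fst, hL, pts_apply, if_neg]
      intro hmem
      exact hs1 _ (hS1X hmem) i rfl
    · intro i
      rw [nptsS_snd, hR, pts_apply, if_neg]
      intro hmem
      exact hs2 _ (hS2X hmem) i rfl
  have hd1 : c ≤ Divisor.degree (nptsS S).1 := by
    rw [nptsS_fst, hL, degree_pts HL1, hS1card]
    exact Int.self_le_toNat c
  have hd2 : c ≤ Divisor.degree (nptsS S).2 := by
    rw [nptsS_snd, hR, degree_pts HL2, hS2card]
    exact Int.self_le_toNat c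
  obtain ⟨T, hTS, hTcard, hT1⟩ :=
    exists_nonspecial_subset N HL1 HL2 g S (hc (nptsS S) hav hd1 hd2)
  refine ⟨T.toLeft, T.toRight, ?_, ?_, ?_, hT1⟩
  · intro x hx
    have h1 : x ∈ S.toLeft := Finset.toLeft_subset_toLeft hTS (Finset.mem_coe.1 hx)
    rw [hL] at h1
    exact hS1X h1
  · intro x hx
    have h1 : x ∈ S.toRight := Finset.toRight_subset_toRight hTS (Finset.mem_coe.1 hx)
    rw [hR] at h1
    exact hS2X h1
  · rw [Finset.card_toLeft_add_card_toRight, hTcard]

end Fermat.Agent.T33.NodalRR6
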