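/-
Programme T (S33), nodal layer, chapter (c) (helper6), part D: **assembly of contract (c)**.

Inputs: Riemann's theorem on the two components (constants `g₁`, `g₂`), `t = #ι ≥ 1` nodes, and
the two comparisons with the GENERIC genus `g`:
* `NodalData.LiftBound g`  (N1′, two-chart lifting: `p_a ≤ g` in the form `δ_g ≤ 0` somewhere in
  large bidegree);
* `SemicontBound N g`      (one instance, in arbitrarily large bidegree, of
  `deg D + 1 - g ≤ l^nod(D)`: semicontinuity + Riemann–Roch on the generic fibre).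

Outputs: `g = g₁ + g₂ + t - 1` and the three contracts `RiemannNod g`, `RiemannEqLarge g`,
`NonSpecialExists g` of `NodalCurve6`.
-/
import Mathlib
import Fermat.Agent.T33.NodalRR6C

set_option autoImplicit false
set_option linter.unusedSectionVars false

open AlgebraicCurve

noncomputable section

namespace Fermat.Agent.T33.NodalRR6

open Fermat.Agent.X0.FF Fermat.Agent.RR.LSpace Fermat.Agent.FF.RedLat2 Fermat.Agent.FF.SpecRR1
  Fermat.Agent.T33.NodalCurve6

variable {κ F1 F2 : Type*} [Field κ] [Field F1] [Field F2] [Algebra κ F1] [Algebra κ F2]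
variable {ι : Type*} [Fintype ι] (N : NodalData κ F1 F2 ι)
variable (HL1 : LHyp κ F1) (HL2 : LHyp κ F2)
variable (g1 g2 : ℤ)
variable (hR1 : ∀ D : Divisor κ F1, Divisor.degree D + 1 - g1 ≤ ell D)
variable (hR2 : ∀ D : Divisor κ F2, Divisor.degree D + 1 - g2 ≤ ell D)
variable {D01 : Divisor κ F1} (h01 : delta g1 D01 = 0)
variable {D02 : Divisor κ F2} (h02 : delta g2 D02 = 0)

/-- one instance of the Riemann inequality with the constant `g`, in arbitrarily large
bidegree. -/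
def SemicontBound (g : ℤ) : Prop :=
  ∀ c : ℤ, ∃ D : NDiv κ F1 F2, N.Avoids D ∧ c ≤ Divisor.degree D.1 ∧ c ≤ Divisor.degree D.2 ∧
    NDiv.degree D + 1 - g ≤ N.ell D

theorem semicontBound_of_riemannNod {g : ℤ} (h : N.RiemannNod g)
    (hex : ∀ c : ℤ, ∃ D : NDiv κ F1 F2, N.Avoids D ∧ c ≤ Divisor.degree D.1 ∧
      c ≤ Divisor.degree D.2) : SemicontBound N g := by
  intro c
  obtain ⟨D, hav, h1, h2⟩ := hex c
  exact ⟨D, hav, h1, h2, h D hav⟩

include HL1 HL2 hR1 hR2 h01 h02 in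
/-- `g ≤ g_a` from the lifting bound. -/
theorem le_ga_of_liftBound {g : ℤ} (hlift : N.LiftBound g) : g ≤ ga ι g1 g2 := by
  obtain ⟨D, hav, hd1, hd2, hδ⟩ := hlift
    (max (Divisor.degree D01 + g1 + (Fintype.card ι : ℤ)) (Divisor.degree D02 + g2))
  have h := ell_eq_large N HL1 HL2 g1 g2 hR1 hR2 h01 h02 D hav
    (le_trans (le_max_left _ _) hd1) (le_trans (le_max_right _ _) hd2)
  unfold NodalData.delta at hδ
  omega

include HL1 HL2 hR1 hR2 h01 h02 in
/-- `g_a ≤ g` from one instance of semicontinuity in large bidegree. -/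
theorem ga_le_of_semicont {g : ℤ} (hsemi : SemicontBound N g) : ga ι g1 g2 ≤ g := by
  obtain ⟨D, hav, hd1, hd2, hle⟩ := hsemi
    (max (Divisor.degree D01 + g1 + (Fintype.card ι : ℤ)) (Divisor.degree D02 + g2))
  have h := ell_eq_large N HL1 HL2 g1 g2 hR1 hR2 h01 h02 D hav
    (le_trans (le_max_left _ _) hd1) (le_trans (le_max_right _ _) hd2)
  omega

include HL1 HL2 hR1 hR2 h01 h02 in
/-- **`p_a(X̃) = g`.** -/
theorem ga_eq {g : ℤ} (hlift : N.LiftBound g) (hsemi : SemicontBound N g) :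
    ga ι g1 g2 = g :=
  le_antisymm (ga_le_of_semicont N HL1 HL2 g1 g2 hR1 hR2 h01 h02 hsemi)
    (le_ga_of_liftBound N HL1 HL2 g1 g2 hR1 hR2 h01 h02 hlift)

include HL1 HL2 hR1 hR2 h01 h02 in
/-- **contract (c)**, given `g_a = g`. -/
theorem contract_c_of_ga_eq [Nonempty ι] (g : ℕ) (hga : ga ι g1 g2 = (g : ℤ)) :
    N.RiemannNod (g : ℤ) ∧ N.RiemannEqLarge (g : ℤ) ∧ N.NonSpecialExists g := by
  refine ⟨?_, ?_, ?_⟩
  · rw [← hga]; exact riemannNod N HL1 HL2 g1 g2 hR1 hR2
  · rw [← hga]; exact riemannEqLarge N HL1 HL2 g1 g2 hR1 hR2 h01 h02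
  · apply nonSpecialExists N HL1 HL2 g
    refine ⟨max (Divisor.degree D01 + g1 + (Fintype.card ι : ℤ)) (Divisor.degree D02 + g2),
      fun D hav hd1 hd2 => ?_⟩
    rw [← hga]
    exact delta_eq_zero_large N HL1 HL2 g1 g2 hR1 hR2 h01 h02 D hav
      (le_trans (le_max_left _ _) hd1) (le_trans (le_max_right _ _) hd2)

include HL1 HL2 hR1 hR2 h01 h02 in
/-- **contract (c)** from the lifting bound and one instance of semicontinuity. -/
theorem contract_c [Nonempty ι] (g : ℕ) (hlift : N.LiftBound (g : ℤ))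
    (hsemi : SemicontBound N (g : ℤ)) :
    N.RiemannNod (g : ℤ) ∧ N.RiemannEqLarge (g : ℤ) ∧ N.NonSpecialExists g :=
  contract_c_of_ga_eq N HL1 HL2 g1 g2 hR1 hR2 h01 h02 g
    (ga_eq N HL1 HL2 g1 g2 hR1 hR2 h01 h02 hlift hsemi)

end Fermat.Agent.T33.NodalRR6
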