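/-
Programme T (S33), nodal layer, chapter (c) / (N1′) (helper6), part D: **the contract
`NodalCharts`** (what chapter (e) "N34 over ℚ̄" must supply for the lifting bound) and the final
statements of chapter (c).

`NodalCharts N HL1 HL2 hx10 hx20 m1 m2 res HL ιO ρ A0 B0 B1 t s` bundles the model-side hypotheses of
`NodalLift6.liftBound`:
the Gauss ring `O` (`= O₁ ⊓ O₂`) with `ιO : O →+* F` injective and `ρ = (ρ₁, ρ₂) : O →+* F1 × F2`,
constants, charts `B0 ∋ t`, `B1 ∋ s`, `t s = 1`, `ρ t = (x₁ ^ m₁, x₂ ^ m₂)` compatible at the nodes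
together with its inverse, (S2) ORDINARY NODES `NC N x₁ x₂ ⊆ ρ(B0)`, `NC N x₁⁻¹ x₂⁻¹ ⊆ ρ(B1)`,
(E) overlaps, `Λ_n ⊆ L(n (t)_∞)`, and `deg (t)_∞ = m₁ deg (x₁)_∞ + m₂ deg (x₂)_∞`.

* `NodalCharts.liftBound` : `NodalCharts → N.LiftBound g`;
* `contract_c_of_charts`  : `NodalCharts` + one instance of semicontinuity in each large bidegree
  ⟹ `p_a = g`, the nodal Riemann inequality/theorem with the generic genus `g`, and `g`
  non-special smooth points inside any two infinite sets of smooth points.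
-/
import Mathlib
import Fermat.Agent.T33.NodalLift6C
import Fermat.Agent.T33.NodalRR6D

set_option autoImplicit false
set_option linter.unusedSectionVars false
set_option linter.style.haveILetI false

open AlgebraicCurve IntermediateField

noncomputable section

namespace Fermat.Agent.T33.NodalLift6

open Fermat.Agent.X0 Fermat.Agent.X0.FF Fermat.Agent.RR.LSpace Fermat.Agent.RR.Riemann
  Fermat.Agent.FF.RedLat2 Fermat.Agent.FF.SpecRR1 Fermat.Agent.FF.GoodRed8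
  Fermat.Agent.RED.PUR.ChartGeneric22 Fermat.Agent.T33.NodalCurve6 Fermat.Agent.T33.NodalRR6

variable {κ F1 F2 : Type*} [Field κ] [Field F1] [Field F2] [Algebra κ F1] [Algebra κ F2]
variable {ι : Type*} (N : NodalData κ F1 F2 ι)
variable (HL1 : LHyp κ F1) (HL2 : LHyp κ F2)
variable {x1 : F1} {x2 : F2} (hx10 : x1 ≠ 0) (hx20 : x2 ≠ 0) (m1 m2 : ℕ)
variable {K : Type*} [Field K] {A : ValuationSubring K} (res : ↥A →+* κ)
variable {F : Type*} [Field F] [Algebra K F] (HL : LHyp K F)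
variable {O : Type*} [CommRing O] (ιO : O →+* F) (ρ : O →+* F1 × F2)
variable (A0 B0 B1 : Subring O) (t s : O)

/-- **the contract of the two-chart nodal model** consumed by the lifting bound (N1′). -/
structure NodalCharts : Prop where
  ι_inj : Function.Injective ιO
  res_surj : Function.Surjective res
  ts : t * s = 1
  t_mem : t ∈ B0
  s_mem : s ∈ B1
  A0_le_B0 : A0 ≤ B0
  A0_le_B1 : A0 ≤ B1
  const : ∀ a : ↥A, ∃ c ∈ A0, ιO c = algebraMap K F (a : K) ∧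
    ρ c = algebraMap κ (F1 × F2) (res a)
  ιt_ne : ιO t ≠ 0
  ρt : ρ t = tb x1 x2 m1 m2
  m1_pos : 0 < m1
  m2_pos : 0 < m2
  tb_compat : tb x1 x2 m1 m2 ∈ N.compat
  sb_compat : sb x1 x2 m1 m2 ∈ N.compat
  /-- ordinary nodes, chart 0 -/
  S0 : ∀ y ∈ NC N x1 x2, ∃ b ∈ B0, ρ b = y
  /-- ordinary nodes, chart 1 -/
  S1 : ∀ y ∈ NC N x1⁻¹ x2⁻¹, ∃ b ∈ B1, ρ b = y
  E0 : ∀ b ∈ B0, ∃ m, s ^ m * b ∈ B1
  E1 : ∀ b ∈ B1, ∃ m, t ^ m * b ∈ B0
  lam : ∀ n, ∀ b ∈ Lam B0 B1 s n, ιO b ∈ riemannRochSpace (n • poleDiv HL ιt_ne)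
  deg : NDiv.degree (Dt HL1 HL2 hx10 hx20 m1 m2) = Divisor.degree (poleDiv HL ιt_ne)

variable {N HL1 HL2 hx10 hx20 m1 m2 res HL ιO ρ A0 B0 B1 t s}
variable [Fintype ι] [IsAlgClosed κ] (hx1 : IsGen κ x1) (hx2 : IsGen κ x2)
  [Algebra.IsSeparable κ⟮x1⟯ F1] [Algebra.IsSeparable κ⟮x2⟯ F2]
variable (g1 g2 : ℤ)
variable (hR1 : ∀ D : Divisor κ F1, Divisor.degree D + 1 - g1 ≤ ell D)
variable (hR2 : ∀ D : Divisor κ F2, Divisor.degree D + 1 - g2 ≤ ell D)
variable {D01 : Divisor κ F1} (h01 : delta g1 D01 = 0)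
variable {D02 : Divisor κ F2} (h02 : delta g2 D02 = 0)

include hx1 hx2 hR1 h01 in
/-- **(N1′)** from the contract. -/
theorem NodalCharts.liftBound
    (C : NodalCharts N HL1 HL2 hx10 hx20 m1 m2 res HL ιO ρ A0 B0 B1 t s)
    (g : ℤ) (hRiem : ∃ c : ℤ, ∀ D : Divisor K F, c ≤ Divisor.degree D →
      ell D = Divisor.degree D + 1 - g) : N.LiftBound g :=
  Fermat.Agent.T33.NodalLift6.liftBound N HL1 HL2 hx1 hx2 hx10 hx20 m1 m2 g1 hR1 h01 res
    C.res_surj ιO C.ι_inj ρ C.ts C.t_mem C.s_mem C.A0_le_B0 C.A0_le_B1 C.const HL C.ιt_ne C.ρt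
    C.m1_pos C.m2_pos C.tb_compat C.sb_compat C.S0 C.S1 C.E0 C.E1 C.lam C.deg g hRiem

include hx1 hx2 hR1 hR2 h01 h02 in
/-- **chapter (c), final form**: the nodal model contract + one instance of semicontinuity in
each large bidegree give `p_a(X̃) = g` and the three contracts (C1), (C2), (C3) with the generic
genus `g`. -/
theorem contract_c_of_charts [Nonempty ι]
    (C : NodalCharts N HL1 HL2 hx10 hx20 m1 m2 res HL ιO ρ A0 B0 B1 t s)
    (g : ℕ) (hRiem : ∃ c : ℤ, ∀ D : Divisor K F, c ≤ Divisor.degree D →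
      ell D = Divisor.degree D + 1 - (g : ℤ))
    (hsemi : SemicontBound N (g : ℤ)) :
    ga ι g1 g2 = (g : ℤ) ∧
      N.RiemannNod (g : ℤ) ∧ N.RiemannEqLarge (g : ℤ) ∧ N.NonSpecialExists g := by
  have hlift := C.liftBound hx1 hx2 g1 hR1 h01 (g : ℤ) hRiem
  exact ⟨ga_eq N HL1 HL2 g1 g2 hR1 hR2 h01 h02 hlift hsemi,
    contract_c N HL1 HL2 g1 g2 hR1 hR2 h01 h02 g hlift hsemi⟩

end Fermat.Agent.T33.NodalLift6
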