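/-
Programme T (S33), nodal layer, chapter (c) / (N1′) (helper6), GENERALISED form, part A:
the two charts of the nodal curve **without assuming that `t̄` is a unit at the nodes**
(helper4, msg 334: `t̄(node) ≠ 0` is true but not derivable from the N34 model).

Every node lies in chart 0 (`t̄` compatible at the nodes); a node lies in chart 1 iff
`s̄ = t̄⁻¹` is compatible at it.  The chart-1 ring `NC1` only imposes the gluing condition at those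
nodes:  `NC1 = {(f₁,f₂) : f_k ∈ chart κ x_k⁻¹, ∀ i, s̄ ∈ compatAt i → f ∈ compatAt i}`.

* `Lb_eq_L`   : `GoodRed8.Lb (NC N x₁ x₂) (NC1 …) s̄ n = N.L (n • (m₁ (x₁)_∞, m₂ (x₂)_∞))`;
* `exists_H1` : `GoodRed8.H1 (NC N x₁ x₂) (NC1 …) t̄ c` for some `c`;
* `exists_PT`, `Lb_fg` : the inputs `hPT`, `hfin` of `GoodRed8.lifting`.
-/
import Mathlib
import Fermat.Agent.T33.NodalLift6B

set_option autoImplicit false
set_option linter.unusedSectionVars false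
set_option linter.style.haveILetI false

open AlgebraicCurve IntermediateField

noncomputable section

namespace Fermat.Agent.T33.NodalLiftG6

open Fermat.Agent.X0 Fermat.Agent.X0.FF Fermat.Agent.RR.LSpace Fermat.Agent.RR.Riemann
  Fermat.Agent.FF.RedLat2 Fermat.Agent.FF.SpecRR1 Fermat.Agent.FF.GoodRed8
  Fermat.Agent.RED.PUR.ChartGeneric22 Fermat.Agent.T33.NodalCurve6 Fermat.Agent.T33.NodalRR6
  Fermat.Agent.T33.NodalLift6

variable {κ F1 F2 : Type*} [Field κ] [Field F1] [Field F2] [Algebra κ F1] [Algebra κ F2]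
variable {ι : Type*} (N : NodalData κ F1 F2 ι)

theorem one_mem_compatAt (i : ι) : (1 : F1 × F2) ∈ N.compatAt i := by
  have := algebraMap_mem_compatAt N i (1 : κ)
  rwa [map_one] at this

theorem compatAt_pow {i : ι} {f : F1 × F2} (hf : f ∈ N.compatAt i) (n : ℕ) :
    f ^ n ∈ N.compatAt i := by
  induction n with
  | zero => rw [pow_zero]; exact one_mem_compatAt N i
  | succ n ih => rw [pow_succ]; exact compatAt_mul N ih hf

/-- the chart-1 ring of the nodal curve: the gluing condition is imposed only at the nodes where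
`s̄` is compatible (the nodes lying in chart 1). -/
def NC1 (x1 : F1) (x2 : F2) (m1 m2 : ℕ) : Subalgebra κ (F1 × F2) where
  carrier := {f | f.1 ∈ chart κ x1⁻¹ ∧ f.2 ∈ chart κ x2⁻¹ ∧
    ∀ i, sb x1 x2 m1 m2 ∈ N.compatAt i → f ∈ N.compatAt i}
  mul_mem' := by
    rintro f f' ⟨h1, h2, h3⟩ ⟨h1', h2', h3'⟩
    exact ⟨(chart κ x1⁻¹).mul_mem h1 h1', (chart κ x2⁻¹).mul_mem h2 h2',
      fun i hi => compatAt_mul N (h3 i hi) (h3' i hi)⟩
  add_mem' := by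
    rintro f f' ⟨h1, h2, h3⟩ ⟨h1', h2', h3'⟩
    exact ⟨(chart κ x1⁻¹).add_mem h1 h1', (chart κ x2⁻¹).add_mem h2 h2',
      fun i hi => Submodule.add_mem _ (h3 i hi) (h3' i hi)⟩
  algebraMap_mem' := by
    intro a
    exact ⟨(chart κ x1⁻¹).algebraMap_mem a, (chart κ x2⁻¹).algebraMap_mem a,
      fun i _ => algebraMap_mem_compatAt N i a⟩

theorem mem_NC1 {x1 : F1} {x2 : F2} {m1 m2 : ℕ} {f : F1 × F2} :
    f ∈ NC1 N x1 x2 m1 m2 ↔ f.1 ∈ chart κ x1⁻¹ ∧ f.2 ∈ chart κ x2⁻¹ ∧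
      ∀ i, sb x1 x2 m1 m2 ∈ N.compatAt i → f ∈ N.compatAt i := Iff.rfl

/-- the old chart-1 ring is contained in the new one. -/
theorem NC_le_NC1 (x1 : F1) (x2 : F2) (m1 m2 : ℕ) : NC N x1⁻¹ x2⁻¹ ≤ NC1 N x1 x2 m1 m2 := by
  intro f hf
  rw [mem_NC] at hf
  rw [mem_NC1]
  exact ⟨hf.1, hf.2.1, fun i _ => (mem_compat N).1 hf.2.2 i⟩

/-! ### the chart dictionary -/

section Dict

variable [IsAlgClosed κ] (HL1 : LHyp κ F1) (HL2 : LHyp κ F2)
variable {x1 : F1} {x2 : F2} (hx1 : IsGen κ x1) (hx2 : IsGen κ x2)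
  [Algebra.IsSeparable κ⟮x1⟯ F1] [Algebra.IsSeparable κ⟮x2⟯ F2]
  (hx10 : x1 ≠ 0) (hx20 : x2 ≠ 0) (m1 m2 : ℕ)

include hx1 hx2 in
/-- **the chart dictionary on the nodal curve.** -/
theorem Lb_eq_L (n : ℕ) :
    Lb (NC N x1 x2) (NC1 N x1 x2 m1 m2) (sb x1 x2 m1 m2) n =
      N.L (n • Dt HL1 HL2 hx10 hx20 m1 m2) := by
  ext f
  rw [mem_Lb, mem_NC, mem_NC1, NodalData.mem_L, nsmul_Dt_fst, nsmul_Dt_snd, fst_sb_pow_mul,
    snd_sb_pow_mul, ← mem_compat,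
    ← Fermat.Agent.FF.SpecialRR6.Lb_eq_L HL1 hx1 hx10 (n * m1),
    ← Fermat.Agent.FF.SpecialRR6.Lb_eq_L HL2 hx2 hx20 (n * m2), mem_Lb, mem_Lb]
  constructor
  · rintro ⟨⟨h1, h2, h3⟩, h4, h5, -⟩
    exact ⟨⟨h1, h4⟩, ⟨h2, h5⟩, h3⟩
  · rintro ⟨⟨h1, h4⟩, ⟨h2, h5⟩, h3⟩
    exact ⟨⟨h1, h2, h3⟩, h4, h5, fun i hi =>
      compatAt_mul N (compatAt_pow N hi n) ((mem_compat N).1 h3 i)⟩

include HL1 HL2 hx1 hx2 hx10 hx20 in
/-- **finite generation of the sections** (input `hfin` of `GoodRed8.lifting`). -/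
theorem Lb_fg (n : ℕ) :
    (Lb (NC N x1 x2) (NC1 N x1 x2 m1 m2) (sb x1 x2 m1 m2) n).FG := by
  rw [Lb_eq_L N HL1 HL2 hx1 hx2 hx10 hx20 m1 m2 n]
  haveI := Fermat.Agent.T33.NodalRR6.finiteDimensional_L N HL1 HL2
    (n • Dt HL1 HL2 hx10 hx20 m1 m2)
  exact (Submodule.fg_iff_finiteDimensional _).mpr inferInstance

end Dict

/-! ### `H¹` on the nodal curve -/

section H1

variable [Fintype ι] [IsAlgClosed κ] (HL1 : LHyp κ F1) (HL2 : LHyp κ F2)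
variable {x1 : F1} {x2 : F2} (hx1 : IsGen κ x1) (hx2 : IsGen κ x2)
  [Algebra.IsSeparable κ⟮x1⟯ F1] [Algebra.IsSeparable κ⟮x2⟯ F2]
  (hx10 : x1 ≠ 0) (hx20 : x2 ≠ 0) (m1 m2 : ℕ)
variable (g1 : ℤ) (hR1 : ∀ D : Divisor κ F1, Divisor.degree D + 1 - g1 ≤ ell D)
variable {D01 : Divisor κ F1} (h01 : delta g1 D01 = 0)

/-- `x₂` is regular at the nodes as soon as `t̄` is compatible (`m₂ ≥ 1`). -/
theorem x2_mem_of_tb (hm2 : 0 < m2) (htb : tb x1 x2 m1 m2 ∈ N.compat) (i : ι) :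
    x2 ∈ (N.s2 i).toValuationSubring := by
  have h1 : x2 ^ m2 ∈ (N.s2 i).toValuationSubring := snd_mem_of_compat N htb i
  rw [mem_iff_ord_nonneg] at h1 ⊢
  by_cases h0 : x2 = 0
  · exact Or.inl h0
  right
  rcases h1 with h1 | h1
  · exact absurd (pow_eq_zero_iff (Nat.pos_iff_ne_zero.1 hm2) |>.1 h1) h0
  · rw [ord_pow] at h1
    have hm : (0 : ℤ) < m2 := by exact_mod_cast hm2
    by_contra hneg
    rw [not_le] at hneg
    nlinarith

include HL1 HL2 hx1 hx2 hx10 hx20 hR1 h01 in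
/-- **`H¹`-vanishing on the nodal curve**, general form: `NC0[1/t̄] = NC0 + t̄ ^ n NC1` for
`n ≥ c`. -/
theorem exists_H1 (hm1 : 0 < m1) (hm2 : 0 < m2) (htb : tb x1 x2 m1 m2 ∈ N.compat) :
    ∃ c : ℕ, H1 (NC N x1 x2) (NC1 N x1 x2 m1 m2) (tb x1 x2 m1 m2) c := by
  classical
  obtain ⟨c1, hH1⟩ := exists_H1_comp HL1 hx1 hx10
  obtain ⟨c2, hH2⟩ := exists_H1_comp HL2 hx2 hx20
  refine ⟨max (max c1 c2) (Divisor.degree D01 + g1 + (Fintype.card ι : ℤ)).toNat, ?_⟩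
  intro n hn w ⟨k, hk⟩
  have hn1 : c1 ≤ n := le_trans (le_trans (le_max_left _ _) (le_max_left _ _)) hn
  have hn2 : c2 ≤ n := le_trans (le_trans (le_max_right _ _) (le_max_left _ _)) hn
  have hn3 : Divisor.degree D01 + g1 + (Fintype.card ι : ℤ) ≤ (n : ℤ) := by
    have h1 : (Divisor.degree D01 + g1 + (Fintype.card ι : ℤ)).toNat ≤ n :=
      le_trans (le_max_right _ _) hn
    have h2 := Int.self_le_toNat (Divisor.degree D01 + g1 + (Fintype.card ι : ℤ))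
    omega
  rw [mem_NC, fst_tb_pow_mul, snd_tb_pow_mul] at hk
  obtain ⟨hk1, hk2, hk3⟩ := hk
  -- decomposition on the components
  obtain ⟨γ1, hγ1, r1, hr1, hw1⟩ := H1_pow hH1 hm1 n hn1 w.1 ⟨k, hk1⟩
  obtain ⟨γ2, hγ2, r2, hr2, hw2⟩ := H1_pow hH2 hm2 n hn2 w.2 ⟨k, hk2⟩
  -- `w` is compatible at the nodes of chart 1
  have hw : ∀ i, sb x1 x2 m1 m2 ∈ N.compatAt i → w ∈ N.compatAt i := by
    intro i hi
    have e : w = sb x1 x2 m1 m2 ^ k * (tb x1 x2 m1 m2 ^ k * w) := by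
      rw [← mul_assoc, sb_pow_mul_tb_pow m1 m2 hx10 hx20, one_mul]
    rw [e]
    exact compatAt_mul N (compatAt_pow N hi k) ((mem_compat N).1 hk3 i)
  -- regularity of `γ₁`, `γ₂` at the nodes and their values
  have hx1reg : ∀ i, x1 ∈ (N.s1 i).toValuationSubring := x1_mem_of_tb N m1 m2 hm1 htb
  have hx2reg : ∀ i, x2 ∈ (N.s2 i).toValuationSubring := x2_mem_of_tb N m1 m2 hm2 htb
  have hγ1reg : ∀ i, γ1 ∈ (N.s1 i).toValuationSubring := fun i =>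
    mem_of_mem_chart (N.s1 i) (hx1reg i) hγ1
  have hγ2reg : ∀ i, γ2 ∈ (N.s2 i).toValuationSubring := fun i =>
    mem_of_mem_chart (N.s2 i) (hx2reg i) hγ2
  set a : ι → κ := fun i => valueAt HL1 (N.s1 i) ⟨γ1, hγ1reg i⟩ with ha
  set b : ι → κ := fun i => valueAt HL2 (N.s2 i) ⟨γ2, hγ2reg i⟩ with hb
  have hva : ∀ i, γ1 - algebraMap κ F1 (a i) ∈ vanishing (N.s1 i) := by
    intro i
    rw [mem_vanishing, sub_eq_zero]
    exact sub_valueAt HL1 (N.s1 i) ⟨γ1, hγ1reg i⟩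
  have hvb : ∀ i, γ2 - algebraMap κ F2 (b i) ∈ vanishing (N.s2 i) := by
    intro i
    rw [mem_vanishing, sub_eq_zero]
    exact sub_valueAt HL2 (N.s2 i) ⟨γ2, hγ2reg i⟩
  -- the correcting section
  set D1 : Divisor κ F1 := (n * m1) • poleDiv HL1 hx10 with hD1
  set D : NDiv κ F1 F2 := (D1, 0) with hD
  have hD1node : ∀ i, D.1 (N.s1 i) = 0 := by
    intro i
    show ((n * m1) • poleDiv HL1 hx10) (N.s1 i) = 0
    rw [Finsupp.smul_apply, poleDiv_apply]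
    have := ord_nonneg_of_mem (N.s1 i) (hx1reg i)
    rw [max_eq_left (by omega), smul_zero]
  have hnc : ¬ ∃ c : κ, x1 = algebraMap κ F1 c := by
    rintro ⟨c, hc⟩
    exact hx1.transcendental (hc ▸ isAlgebraic_algebraMap c)
  have hdegpos := degree_poleDiv_pos HL1 hx10 hnc
  have hdegD1 : (n : ℤ) ≤ Divisor.degree D1 := by
    rw [hD1, map_nsmul, nsmul_eq_mul]
    have hm : (1 : ℤ) ≤ m1 := by exact_mod_cast hm1
    have hn0 : (0 : ℤ) ≤ n := Int.natCast_nonneg _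
    have hd1 : (1 : ℤ) ≤ Divisor.degree (poleDiv HL1 hx10) := by omega
    have h1 : (n : ℤ) ≤ (n : ℤ) * m1 := le_mul_of_one_le_right hn0 hm
    have h2 : (n : ℤ) * m1 ≤ (n : ℤ) * m1 * Divisor.degree (poleDiv HL1 hx10) :=
      le_mul_of_one_le_right (mul_nonneg hn0 (by omega)) hd1
    push_cast
    omega
  have ht : (0 : ℤ) ≤ (Fintype.card ι : ℤ) := Int.natCast_nonneg _
  have e1 := delta_eq_zero_of_degree_ge HL1 g1 hR1 h01 D1 (by omega)
  have hdeg' : Divisor.degree (D1 - nodeDiv1 N) = Divisor.degree D1 - (Fintype.card ι : ℤ) := by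
    rw [map_sub, degree_nodeDiv1 N HL1]
  have e3 := delta_eq_zero_of_degree_ge HL1 g1 hR1 h01 (D1 - nodeDiv1 N) (by rw [hdeg']; omega)
  unfold delta at e1 e3
  rw [hdeg'] at e3
  have hsurj := ev1_surjective_of_finrank N HL1 D hD1node
    (by show ell (D1 - nodeDiv1 N) + _ ≤ ell D1; omega)
  obtain ⟨lam, hlam⟩ := hsurj (fun i => b i - a i)
  have hlamL : (lam : F1) ∈ riemannRochSpace ((n * m1) • poleDiv HL1 hx10) := lam.2
  obtain ⟨hlam0, hlam1⟩ := Fermat.Agent.FF.SpecialRR6.isIntegral_of_mem_L HL1 hx1 hx10 hlamL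
  have hvl : ∀ i, (lam : F1) - algebraMap κ F1 (b i - a i) ∈ vanishing (N.s1 i) := by
    intro i
    have h1 := evalL_spec HL1 D.1 (N.s1 i) (hD1node i) lam
    have h2 : evalL HL1 D.1 (N.s1 i) (hD1node i) lam = b i - a i := by
      rw [← ev1_apply N HL1 D hD1node lam i, hlam]
    rw [h2] at h1
    rw [mem_vanishing, sub_eq_zero]
    exact h1
  have hpow1 : (x1 ^ m1) ^ n * x1⁻¹ ^ (n * m1) = 1 := by
    rw [← pow_mul, mul_comm m1 n, ← mul_pow, mul_inv_cancel₀ hx10, one_pow]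
  have hgc : ((γ1 + (lam : F1), γ2) : F1 × F2) ∈ N.compat := by
    rw [mem_compat]
    intro i
    refine ⟨b i, ?_, hvb i⟩
    have e : γ1 + (lam : F1) - algebraMap κ F1 (b i) =
        (γ1 - algebraMap κ F1 (a i)) + ((lam : F1) - algebraMap κ F1 (b i - a i)) := by
      rw [map_sub]; ring
    show γ1 + (lam : F1) - algebraMap κ F1 (b i) ∈ vanishing (N.s1 i)
    rw [e]
    exact Submodule.add_mem _ (hva i) (hvl i)
  refine ⟨(γ1 + (lam : F1), γ2), ?_, (r1 - x1⁻¹ ^ (n * m1) * (lam : F1), r2), ?_, ?_⟩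
  · rw [mem_NC]
    exact ⟨(chart κ x1).add_mem hγ1 (mem_chart_iff.mpr hlam0), hγ2, hgc⟩
  · have htr : tb x1 x2 m1 m2 ^ n * ((r1 - x1⁻¹ ^ (n * m1) * (lam : F1), r2) : F1 × F2) =
        w - (γ1 + (lam : F1), γ2) := by
      apply Prod.ext
      · rw [fst_tb_pow_mul, Prod.fst_sub]
        show (x1 ^ m1) ^ n * (r1 - x1⁻¹ ^ (n * m1) * (lam : F1)) = w.1 - (γ1 + (lam : F1))
        rw [mul_sub, ← mul_assoc, hpow1, one_mul, hw1]
        ring
      · rw [snd_tb_pow_mul, Prod.snd_sub]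
        show (x2 ^ m2) ^ n * r2 = w.2 - γ2
        rw [hw2]
        ring
    rw [mem_NC1]
    refine ⟨(chart κ x1⁻¹).sub_mem hr1 (mem_chart_iff.mpr hlam1), hr2, fun i hi => ?_⟩
    have e : ((r1 - x1⁻¹ ^ (n * m1) * (lam : F1), r2) : F1 × F2) =
        sb x1 x2 m1 m2 ^ n * (tb x1 x2 m1 m2 ^ n *
          ((r1 - x1⁻¹ ^ (n * m1) * (lam : F1), r2) : F1 × F2)) := by
      rw [← mul_assoc, sb_pow_mul_tb_pow m1 m2 hx10 hx20, one_mul]
    rw [e, htr]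
    exact compatAt_mul N (compatAt_pow N hi n)
      (Submodule.sub_mem _ (hw i hi) ((mem_compat N).1 hgc i))
  · apply Prod.ext
    · rw [Prod.fst_add, fst_tb_pow_mul]
      show w.1 = γ1 + (lam : F1) + (x1 ^ m1) ^ n * (r1 - x1⁻¹ ^ (n * m1) * (lam : F1))
      rw [mul_sub, ← mul_assoc, hpow1, one_mul, hw1]
      ring
    · rw [Prod.snd_add, snd_tb_pow_mul]
      show w.2 = γ2 + (x2 ^ m2) ^ n * r2
      rw [hw2]

include HL1 HL2 hx1 hx2 hx10 hx20 hR1 h01 in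
/-- **the pencil-trick property (PT) on the nodal curve**, general form. -/
theorem exists_PT (hm1 : 0 < m1) (hm2 : 0 < m2) (htb : tb x1 x2 m1 m2 ∈ N.compat) :
    ∃ n₀ : ℕ, PT (NC N x1 x2) (NC1 N x1 x2 m1 m2) (tb x1 x2 m1 m2) (sb x1 x2 m1 m2) n₀ := by
  obtain ⟨c, hc⟩ := exists_H1 N HL1 HL2 hx1 hx2 hx10 hx20 m1 m2 g1 hR1 h01 hm1 hm2 htb
  have htb0 : tb x1 x2 m1 m2 ∈ NC N x1 x2 := by
    rw [mem_NC]
    exact ⟨(chart κ x1).pow_mem (self_mem_chart (R := κ) x1) m1,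
      (chart κ x2).pow_mem (self_mem_chart (R := κ) x2) m2, htb⟩
  have hsb1 : sb x1 x2 m1 m2 ∈ NC1 N x1 x2 m1 m2 := by
    rw [mem_NC1]
    exact ⟨(chart κ x1⁻¹).pow_mem (self_mem_chart (R := κ) x1⁻¹) m1,
      (chart κ x2⁻¹).pow_mem (self_mem_chart (R := κ) x2⁻¹) m2, fun i hi => hi⟩
  exact ⟨c + 1, pt_of_h1 (tb_mul_sb m1 m2 hx10 hx20) htb0 hsb1 hc⟩

end H1

end Fermat.Agent.T33.NodalLiftG6
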