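/-
Programme T (S33), nodal layer, chapter (c) / (N1′) (helper6), GENERALISED form, part B:
**the lifting bound `p_a(X̃) ≤ g` and the contract `NodalChartsG`, without assuming that `t̄` is a
unit at the nodes** (helper4, msg 334: `t̄(node) ≠ 0` is true but not derivable from N34).

Differences with `NodalLift6C/D`:
* the chart-1 ring is `NodalLiftG6.NC1 N x₁ x₂ m₁ m₂` (gluing only at the nodes where `s̄` is
  compatible) instead of `NC N x₁⁻¹ x₂⁻¹`;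
* NO hypothesis `sb_compat`.

* `finrank_Lnod_le`        : `l^nod(n (t̄)_∞) ≤ l(n (t)_∞)` for all large `n`;
* `liftBound`              : contract (N1′) `NodalData.LiftBound g`;
* `NodalChartsG`           : the contract of the two-chart nodal model, general form;
* `NC1_eq_of_sb`, `NodalCharts.toG` : the old contract is a special case;
* `NodalChartsG.liftBound`, `contract_c_of_chartsG` : the final statements of chapter (c).
-/
import Mathlib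
import Fermat.Agent.T33.NodalLiftG6A
import Fermat.Agent.T33.NodalLift6D

set_option autoImplicit false
set_option linter.unusedSectionVars false
set_option linter.style.haveILetI false

open AlgebraicCurve IntermediateField

noncomputable section

namespace Fermat.Agent.T33.NodalLiftG6

open Fermat.Agent.X0 Fermat.Agent.X0.FF Fermat.Agent.RR.LSpace Fermat.Agent.RR.Riemann
  Fermat.Agent.FF.RedLat2 Fermat.Agent.FF.SpecRR1 Fermat.Agent.FF.GoodRed8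
  Fermat.Agent.RED.PUR.ChartGeneric22 Fermat.Agent.T33.NodalCurve6 Fermat.Agent.T33.NodalRR6
  Fermat.Agent.T33.NodalLift6

/-! ### the lifting bound -/

section Main

variable {κ F1 F2 : Type*} [Field κ] [Field F1] [Field F2] [Algebra κ F1] [Algebra κ F2]
variable {ι : Type*} [Fintype ι] (N : NodalData κ F1 F2 ι)
variable [IsAlgClosed κ] (HL1 : LHyp κ F1) (HL2 : LHyp κ F2)
variable {x1 : F1} {x2 : F2} (hx1 : IsGen κ x1) (hx2 : IsGen κ x2)
  [Algebra.IsSeparable κ⟮x1⟯ F1] [Algebra.IsSeparable κ⟮x2⟯ F2]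
  (hx10 : x1 ≠ 0) (hx20 : x2 ≠ 0) (m1 m2 : ℕ)
variable (g1 : ℤ) (hR1 : ∀ D : Divisor κ F1, Divisor.degree D + 1 - g1 ≤ ell D)
variable {D01 : Divisor κ F1} (h01 : delta g1 D01 = 0)
variable {K : Type*} [Field K] {A : ValuationSubring K} (res : ↥A →+* κ)
  (hres : Function.Surjective res)
variable {F : Type*} [Field F] [Algebra K F]
variable {O : Type*} [CommRing O] (ιO : O →+* F) (hι : Function.Injective ιO)
  (ρ : O →+* F1 × F2)
variable {A0 B0 B1 : Subring O} {t s : O} (hts : t * s = 1) (ht : t ∈ B0) (hs : s ∈ B1)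
  (hA0 : A0 ≤ B0) (hA1 : A0 ≤ B1)
  (hconst : ∀ a : ↥A, ∃ c ∈ A0, ιO c = algebraMap K F (a : K) ∧
    ρ c = algebraMap κ (F1 × F2) (res a))
variable (HL : LHyp K F) (hιt : ιO t ≠ 0) (hρt : ρ t = tb x1 x2 m1 m2)

include HL1 HL2 hx1 hx2 hx10 hx20 hR1 h01 hres hι hts ht hs hA0 hA1 hconst hρt in
/-- **`l^nod(n (t̄)_∞) ≤ l(n (t)_∞)` for all large `n`**, general form. -/
theorem finrank_Lnod_le (hm1 : 0 < m1) (hm2 : 0 < m2) (htb : tb x1 x2 m1 m2 ∈ N.compat)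
    (hS0 : ∀ y ∈ NC N x1 x2, ∃ b ∈ B0, ρ b = y)
    (hS1 : ∀ y ∈ NC1 N x1 x2 m1 m2, ∃ b ∈ B1, ρ b = y)
    (hE0 : ∀ b ∈ B0, ∃ m, s ^ m * b ∈ B1) (hE1 : ∀ b ∈ B1, ∃ m, t ^ m * b ∈ B0)
    (hLam : ∀ n, ∀ b ∈ Lam B0 B1 s n, ιO b ∈ riemannRochSpace (n • poleDiv HL hιt)) :
    ∃ n₁ : ℕ, ∀ n : ℕ, n₁ ≤ n →
      Module.finrank κ (N.L (n • Dt HL1 HL2 hx10 hx20 m1 m2)) ≤
        Module.finrank K (riemannRochSpace (n • poleDiv HL hιt)) := by
  have hρs := ρ_s_eq hx10 hx20 m1 m2 ρ hts hρt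
  have hκ : ∀ a : κ, ∃ c ∈ A0, ρ c = algebraMap κ (F1 × F2) a := by
    intro a
    obtain ⟨a', rfl⟩ := hres a
    obtain ⟨c, hc, -, hc2⟩ := hconst a'
    exact ⟨c, hc, hc2⟩
  obtain ⟨n₀, hPT⟩ := exists_PT N HL1 HL2 hx1 hx2 hx10 hx20 m1 m2 g1 hR1 h01 hm1 hm2 htb
  have hfin := Lb_fg N HL1 HL2 hx1 hx2 hx10 hx20 m1 m2 n₀
  rw [← hρt, ← hρs] at hPT
  rw [← hρs] at hfin
  obtain ⟨n₁, hn₁⟩ := lifting (κ := κ) (Bb0 := NC N x1 x2) (Bb1 := NC1 N x1 x2 m1 m2)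
    hts ht hs hA0 hA1 hκ hS0 hS1 hE0 hE1 hPT hfin
  refine ⟨n₁, fun n hn => ?_⟩
  haveI := Fermat.Agent.T33.NodalRR6.finiteDimensional_L N HL1 HL2
    (n • Dt HL1 HL2 hx10 hx20 m1 m2)
  haveI := Fermat.Agent.RR.LSpace.finiteDimensional_L HL (n • poleDiv HL hιt)
  refine finrank_le_of_lifts res ιO hι ρ
    (fun a => by obtain ⟨c, -, hc⟩ := hconst a; exact ⟨c, hc⟩) _ _ fun f hf => ?_
  rw [← Lb_eq_L N HL1 HL2 hx1 hx2 hx10 hx20 m1 m2 n, ← hρs] at hf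
  obtain ⟨b, hb, hbf⟩ := hn₁ n hn f hf
  exact ⟨b, hLam n b hb, hbf⟩

include HL1 HL2 hx1 hx2 hx10 hx20 hR1 h01 hres hι hts ht hs hA0 hA1 hconst hρt in
/-- **(N1′) the lifting bound `p_a(X̃) ≤ g`**, general form (no unit-at-the-nodes hypothesis). -/
theorem liftBound (hm1 : 0 < m1) (hm2 : 0 < m2) (htb : tb x1 x2 m1 m2 ∈ N.compat)
    (hS0 : ∀ y ∈ NC N x1 x2, ∃ b ∈ B0, ρ b = y)
    (hS1 : ∀ y ∈ NC1 N x1 x2 m1 m2, ∃ b ∈ B1, ρ b = y)
    (hE0 : ∀ b ∈ B0, ∃ m, s ^ m * b ∈ B1) (hE1 : ∀ b ∈ B1, ∃ m, t ^ m * b ∈ B0)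
    (hLam : ∀ n, ∀ b ∈ Lam B0 B1 s n, ιO b ∈ riemannRochSpace (n • poleDiv HL hιt))
    (hdeg : NDiv.degree (Dt HL1 HL2 hx10 hx20 m1 m2) = Divisor.degree (poleDiv HL hιt))
    (g : ℤ) (hRiem : ∃ c : ℤ, ∀ D : Divisor K F, c ≤ Divisor.degree D →
      ell D = Divisor.degree D + 1 - g) :
    N.LiftBound g := by
  obtain ⟨n₁, hn₁⟩ := finrank_Lnod_le N HL1 HL2 hx1 hx2 hx10 hx20 m1 m2 g1 hR1 h01 res hres ιO hι
    ρ hts ht hs hA0 hA1 hconst HL hιt hρt hm1 hm2 htb hS0 hS1 hE0 hE1 hLam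
  obtain ⟨cR, hcR⟩ := hRiem
  have hp1 := degree_poleDiv_x1_pos HL1 hx1 hx10
  have hp2 := degree_poleDiv_x2_pos HL2 hx2 hx20
  have hM1 : (1 : ℤ) ≤ m1 := by exact_mod_cast hm1
  have hM2 : (1 : ℤ) ≤ m2 := by exact_mod_cast hm2
  intro c
  set n : ℕ := max n₁ (max c.toNat cR.toNat) with hn
  have hnn₁ : n₁ ≤ n := le_max_left _ _
  have hnc : c ≤ (n : ℤ) := by
    have h2 : c.toNat ≤ n := le_trans (le_max_left _ _) (le_max_right _ _)
    have h3 := Int.self_le_toNat c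
    omega
  have hncR : cR ≤ (n : ℤ) := by
    have h2 : cR.toNat ≤ n := le_trans (le_max_right _ _) (le_max_right _ _)
    have h3 := Int.self_le_toNat cR
    omega
  have hn0 : (0 : ℤ) ≤ n := Int.natCast_nonneg _
  have hd1 : Divisor.degree (n • Dt HL1 HL2 hx10 hx20 m1 m2).1 =
      (n : ℤ) * m1 * Divisor.degree (poleDiv HL1 hx10) := by
    rw [nsmul_Dt_fst, map_nsmul, nsmul_eq_mul]; push_cast; ring
  have hd2 : Divisor.degree (n • Dt HL1 HL2 hx10 hx20 m1 m2).2 =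
      (n : ℤ) * m2 * Divisor.degree (poleDiv HL2 hx20) := by
    rw [nsmul_Dt_snd, map_nsmul, nsmul_eq_mul]; push_cast; ring
  have hge1 : (n : ℤ) ≤ (n : ℤ) * m1 * Divisor.degree (poleDiv HL1 hx10) := by
    have h1 : (n : ℤ) ≤ (n : ℤ) * m1 := le_mul_of_one_le_right hn0 hM1
    have h2 : (n : ℤ) * m1 ≤ (n : ℤ) * m1 * Divisor.degree (poleDiv HL1 hx10) :=
      le_mul_of_one_le_right (mul_nonneg hn0 (by omega)) (by omega)
    omega
  have hge2 : (n : ℤ) ≤ (n : ℤ) * m2 * Divisor.degree (poleDiv HL2 hx20) := by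
    have h1 : (n : ℤ) ≤ (n : ℤ) * m2 := le_mul_of_one_le_right hn0 hM2
    have h2 : (n : ℤ) * m2 ≤ (n : ℤ) * m2 * Divisor.degree (poleDiv HL2 hx20) :=
      le_mul_of_one_le_right (mul_nonneg hn0 (by omega)) (by omega)
    omega
  refine ⟨n • Dt HL1 HL2 hx10 hx20 m1 m2, avoids_nsmul_Dt N HL1 HL2 hx10 hx20 m1 m2 hm1 hm2 htb n,
    by rw [hd1]; omega, by rw [hd2]; omega, ?_⟩
  -- the count
  have h1 := hn₁ n hnn₁
  have hdegn : NDiv.degree (n • Dt HL1 HL2 hx10 hx20 m1 m2) =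
      (n : ℤ) * Divisor.degree (poleDiv HL hιt) := by
    rw [← hdeg]
    unfold NDiv.degree
    rw [hd1, hd2]
    show _ = (n : ℤ) * (Divisor.degree (m1 • poleDiv HL1 hx10) +
      Divisor.degree (m2 • poleDiv HL2 hx20))
    rw [map_nsmul, map_nsmul, nsmul_eq_mul, nsmul_eq_mul]
    ring
  have hdegt : Divisor.degree (n • poleDiv HL hιt) = (n : ℤ) * Divisor.degree (poleDiv HL hιt) := by
    rw [map_nsmul, nsmul_eq_mul]
  have hpos : (1 : ℤ) ≤ Divisor.degree (poleDiv HL hιt) := by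
    rw [← hdeg]
    unfold NDiv.degree
    show 1 ≤ Divisor.degree (m1 • poleDiv HL1 hx10) + Divisor.degree (m2 • poleDiv HL2 hx20)
    rw [map_nsmul, map_nsmul, nsmul_eq_mul, nsmul_eq_mul]
    have e1 : (1 : ℤ) ≤ (m1 : ℤ) * Divisor.degree (poleDiv HL1 hx10) := by nlinarith
    have e2 : (0 : ℤ) ≤ (m2 : ℤ) * Divisor.degree (poleDiv HL2 hx20) := by nlinarith
    omega
  have h2 := hcR (n • poleDiv HL hιt) (by
    rw [hdegt]
    have : (n : ℤ) ≤ (n : ℤ) * Divisor.degree (poleDiv HL hιt) := le_mul_of_one_le_right hn0 hpos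
    omega)
  unfold NodalData.delta NodalData.ell
  rw [hdegn]
  rw [hdegt] at h2
  unfold ell at h2
  have h3 : (Module.finrank κ (N.L (n • Dt HL1 HL2 hx10 hx20 m1 m2)) : ℤ) ≤
      (Module.finrank K (riemannRochSpace (n • poleDiv HL hιt)) : ℤ) := by exact_mod_cast h1
  omega

end Main

/-! ### the contract, general form -/

section Contract

variable {κ F1 F2 : Type*} [Field κ] [Field F1] [Field F2] [Algebra κ F1] [Algebra κ F2]
variable {ι : Type*} (N : NodalData κ F1 F2 ι)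
variable (HL1 : LHyp κ F1) (HL2 : LHyp κ F2)
variable {x1 : F1} {x2 : F2} (hx10 : x1 ≠ 0) (hx20 : x2 ≠ 0) (m1 m2 : ℕ)
variable {K : Type*} [Field K] {A : ValuationSubring K} (res : ↥A →+* κ)
variable {F : Type*} [Field F] [Algebra K F] (HL : LHyp K F)
variable {O : Type*} [CommRing O] (ιO : O →+* F) (ρ : O →+* F1 × F2)
variable (A0 B0 B1 : Subring O) (t s : O)

/-- **the contract of the two-chart nodal model**, general form: no unit-at-the-nodes hypothesis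
on `t̄`; the chart-1 ring is `NC1`. -/
structure NodalChartsG : Prop where
  ι_inj : Function.Injective ιO
  res_surj : Function.Surjective res
  ts : t * s = 1
  t_mem : t ∈ B0
  s_mem : s ∈ B1
  A0_le_B0 : A0 ≤ B0
  A0_le_B1 : A0 ≤ B1
  const : ∀ a : ↥A, ∃ c ∈ A0, ιO c = algebraMap K F (a : K) ∧
    ρ c = algebraMap κ (F1 × F2) (res a)
  ιt_ne : ιO t ≠ 0
  ρt : ρ t = tb x1 x2 m1 m2
  m1_pos : 0 < m1
  m2_pos : 0 < m2
  tb_compat : tb x1 x2 m1 m2 ∈ N.compat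
  /-- ordinary nodes, chart 0 -/
  S0 : ∀ y ∈ NC N x1 x2, ∃ b ∈ B0, ρ b = y
  /-- ordinary nodes, chart 1 (only the nodes where `s̄` is compatible) -/
  S1 : ∀ y ∈ NC1 N x1 x2 m1 m2, ∃ b ∈ B1, ρ b = y
  E0 : ∀ b ∈ B0, ∃ m, s ^ m * b ∈ B1
  E1 : ∀ b ∈ B1, ∃ m, t ^ m * b ∈ B0
  lam : ∀ n, ∀ b ∈ Lam B0 B1 s n, ιO b ∈ riemannRochSpace (n • poleDiv HL ιt_ne)
  deg : NDiv.degree (Dt HL1 HL2 hx10 hx20 m1 m2) = Divisor.degree (poleDiv HL ιt_ne)

variable {N HL1 HL2 hx10 hx20 m1 m2 res HL ιO ρ A0 B0 B1 t s}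

/-- if `s̄` is compatible at all the nodes, `NC1` is the old chart-1 ring. -/
theorem NC1_eq_of_sb (hsb : sb x1 x2 m1 m2 ∈ N.compat) :
    NC1 N x1 x2 m1 m2 = NC N x1⁻¹ x2⁻¹ := by
  apply le_antisymm
  · intro f hf
    rw [mem_NC1] at hf
    rw [mem_NC, mem_compat]
    exact ⟨hf.1, hf.2.1, fun i => hf.2.2 i ((mem_compat N).1 hsb i)⟩
  · exact NC_le_NC1 N x1 x2 m1 m2

/-- the contract of `NodalLift6D` is a special case of the general one. -/
theorem _root_.Fermat.Agent.T33.NodalLift6.NodalCharts.toG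
    (C : NodalCharts N HL1 HL2 hx10 hx20 m1 m2 res HL ιO ρ A0 B0 B1 t s) :
    NodalChartsG N HL1 HL2 hx10 hx20 m1 m2 res HL ιO ρ A0 B0 B1 t s where
  ι_inj := C.ι_inj
  res_surj := C.res_surj
  ts := C.ts
  t_mem := C.t_mem
  s_mem := C.s_mem
  A0_le_B0 := C.A0_le_B0
  A0_le_B1 := C.A0_le_B1
  const := C.const
  ιt_ne := C.ιt_ne
  ρt := C.ρt
  m1_pos := C.m1_pos
  m2_pos := C.m2_pos
  tb_compat := C.tb_compat
  S0 := C.S0
  S1 := by
    intro y hy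
    rw [NC1_eq_of_sb C.sb_compat] at hy
    exact C.S1 y hy
  E0 := C.E0
  E1 := C.E1
  lam := C.lam
  deg := C.deg

variable [Fintype ι] [IsAlgClosed κ] (hx1 : IsGen κ x1) (hx2 : IsGen κ x2)
  [Algebra.IsSeparable κ⟮x1⟯ F1] [Algebra.IsSeparable κ⟮x2⟯ F2]
variable (g1 g2 : ℤ)
variable (hR1 : ∀ D : Divisor κ F1, Divisor.degree D + 1 - g1 ≤ ell D)
variable (hR2 : ∀ D : Divisor κ F2, Divisor.degree D + 1 - g2 ≤ ell D)
variable {D01 : Divisor κ F1} (h01 : delta g1 D01 = 0)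
variable {D02 : Divisor κ F2} (h02 : delta g2 D02 = 0)

include hx1 hx2 hR1 h01 in
/-- **(N1′)** from the general contract. -/
theorem NodalChartsG.liftBound
    (C : NodalChartsG N HL1 HL2 hx10 hx20 m1 m2 res HL ιO ρ A0 B0 B1 t s)
    (g : ℤ) (hRiem : ∃ c : ℤ, ∀ D : Divisor K F, c ≤ Divisor.degree D →
      ell D = Divisor.degree D + 1 - g) : N.LiftBound g :=
  Fermat.Agent.T33.NodalLiftG6.liftBound N HL1 HL2 hx1 hx2 hx10 hx20 m1 m2 g1 hR1 h01 res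
    C.res_surj ιO C.ι_inj ρ C.ts C.t_mem C.s_mem C.A0_le_B0 C.A0_le_B1 C.const HL C.ιt_ne C.ρt
    C.m1_pos C.m2_pos C.tb_compat C.S0 C.S1 C.E0 C.E1 C.lam C.deg g hRiem

include hx1 hx2 hR1 hR2 h01 h02 in
/-- **chapter (c), final form (general contract)**: the nodal model contract + one instance of
semicontinuity in each large bidegree give `p_a(X̃) = g` and the three contracts (C1), (C2), (C3)
with the generic genus `g`. -/
theorem contract_c_of_chartsG [Nonempty ι]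
    (C : NodalChartsG N HL1 HL2 hx10 hx20 m1 m2 res HL ιO ρ A0 B0 B1 t s)
    (g : ℕ) (hRiem : ∃ c : ℤ, ∀ D : Divisor K F, c ≤ Divisor.degree D →
      ell D = Divisor.degree D + 1 - (g : ℤ))
    (hsemi : SemicontBound N (g : ℤ)) :
    ga ι g1 g2 = (g : ℤ) ∧
      N.RiemannNod (g : ℤ) ∧ N.RiemannEqLarge (g : ℤ) ∧ N.NonSpecialExists g := by
  have hlift := C.liftBound hx1 hx2 g1 hR1 h01 (g : ℤ) hRiem
  exact ⟨ga_eq N HL1 HL2 g1 g2 hR1 hR2 h01 h02 hlift hsemi,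
    contract_c N HL1 HL2 g1 g2 hR1 hR2 h01 h02 g hlift hsemi⟩

end Contract

end Fermat.Agent.T33.NodalLiftG6
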