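/-
Programme T (S33), nodal layer, chapter (c) / (N1′) (helper6), SYMMETRIC form, part A:
**twisted evaluation at the nodes.**

In the symmetric form of the two-chart lifting bound a node may lie in chart 0 only (`t̄ = 0`
there) or in chart 1 only (`t̄ = ∞` there), so the pole divisor `n (t̄)_∞` no longer avoids the
nodes.  The evaluation of a section `l ∈ L(D)` at a place `P` in the support of `D` is taken
through a local trivialisation `u` (`ord_P u = D P`): `l ↦ (u l)(P)`.

* `tevalL`, `tevalL_spec`, `tevalL_eq_iff`, `tevalL_eq_zero_iff` : the twisted evaluation at one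
  place;
* `tev`      : at a family of places;
* `tev1_eq_zero_iff`, `finrank_ker_tev1`, `tev1_surjective_of_finrank` : on the first component of a
  nodal curve the kernel is `L(D - ∑ s1 i)`; the twisted evaluation at the nodes is onto as soon as
  `l(D - ∑ s1 i) + t ≤ l(D)`;
* `compatAt_iff_of_values` : compatibility at a node in terms of the values;
* `x1_mem_of_tbAt`, … : regularity of the coordinates at a node of chart 0 / chart 1.
-/
import Mathlib
import Fermat.Agent.T33.NodalLiftG6A

set_option autoImplicit false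
set_option linter.unusedSectionVars false
set_option linter.style.haveILetI false

open AlgebraicCurve IntermediateField

noncomputable section

namespace Fermat.Agent.T33.NodalLiftS6

open Fermat.Agent.X0 Fermat.Agent.X0.FF Fermat.Agent.RR.LSpace Fermat.Agent.RR.Riemann
  Fermat.Agent.FF.RedLat2 Fermat.Agent.FF.SpecRR1 Fermat.Agent.FF.GoodRed8
  Fermat.Agent.RED.PUR.ChartGeneric22 Fermat.Agent.T33.NodalCurve6 Fermat.Agent.T33.NodalRR6
  Fermat.Agent.T33.NodalLift6

/-! ### twisted evaluation at one place -/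

section Twist

variable {K F : Type*} [Field K] [Field F] [Algebra K F]

theorem mul_mem_of_mem_L {D : Divisor K F} {P : Place K F} {u : F} (hu0 : u ≠ 0)
    (hu : P.ord u = D P) {l : F} (hl : l ∈ riemannRochSpace D) :
    u * l ∈ P.toValuationSubring := by
  rw [mem_iff_ord_nonneg]
  by_cases hl0 : l = 0
  · left; rw [hl0, mul_zero]
  right
  rcases (mem_riemannRochSpace_iff.1 hl) P with h | h
  · exact absurd h hl0
  · rw [P.ord_mul hu0 hl0, hu]; omega

/-- **twisted evaluation** `l ↦ (u l)(P)` on `L(D)`, `u` a local trivialisation at `P`. -/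
def tevalL (H : LHyp K F) (D : Divisor K F) (P : Place K F) (u : F) (hu0 : u ≠ 0)
    (hu : P.ord u = D P) : riemannRochSpace D →ₗ[K] K where
  toFun l := valueAt H P ⟨u * (l : F), mul_mem_of_mem_L hu0 hu l.2⟩
  map_add' l l' := by
    rw [← map_add]
    congr 1
    apply Subtype.ext
    show u * ((l + l' : riemannRochSpace D) : F) = u * (l : F) + u * (l' : F)
    rw [Submodule.coe_add, mul_add]
  map_smul' c l := by
    have : (⟨u * ((c • l : riemannRochSpace D) : F), mul_mem_of_mem_L hu0 hu (c • l).2⟩ :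
        P.toValuationSubring) =
        algebraMap K P.toValuationSubring c * ⟨u * (l : F), mul_mem_of_mem_L hu0 hu l.2⟩ := by
      apply Subtype.ext
      show u * ((c • l : riemannRochSpace D) : F) = algebraMap K F c * (u * (l : F))
      rw [Submodule.coe_smul, Algebra.smul_def]
      ring
    rw [this, map_mul, valueAt_algebraMap]
    rfl

theorem tevalL_spec (H : LHyp K F) (D : Divisor K F) (P : Place K F) (u : F) (hu0 : u ≠ 0)
    (hu : P.ord u = D P) (l : riemannRochSpace D) :
    u * (l : F) - algebraMap K F (tevalL H D P u hu0 hu l) ∈ vanishing P := by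
  rw [mem_vanishing, sub_eq_zero]
  exact sub_valueAt H P ⟨u * (l : F), mul_mem_of_mem_L hu0 hu l.2⟩

theorem tevalL_eq_iff (H : LHyp K F) (D : Divisor K F) (P : Place K F) (u : F) (hu0 : u ≠ 0)
    (hu : P.ord u = D P) (l : riemannRochSpace D) (c : K) :
    tevalL H D P u hu0 hu l = c ↔ u * (l : F) - algebraMap K F c ∈ vanishing P := by
  rw [mem_vanishing, sub_eq_zero]
  exact valueAt_eq_iff H P ⟨u * (l : F), mul_mem_of_mem_L hu0 hu l.2⟩ c

theorem tevalL_eq_zero_iff (H : LHyp K F) (D : Divisor K F) (P : Place K F) (u : F) (hu0 : u ≠ 0)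
    (hu : P.ord u = D P) (l : riemannRochSpace D) :
    tevalL H D P u hu0 hu l = 0 ↔ ((l : F) = 0 ∨ -D P + 1 ≤ P.ord (l : F)) := by
  rw [tevalL_eq_iff, map_zero, sub_zero, mem_vanishing]
  by_cases hl0 : (l : F) = 0
  · simp [hl0]
  · rw [P.ord_mul hu0 hl0, hu]
    constructor
    · rintro (h | h)
      · exact absurd h (mul_ne_zero hu0 hl0)
      · right; omega
    · rintro (h | h)
      · exact absurd h hl0
      · right; omega

/-- a constant is determined by a function it is the value of. -/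
theorem eq_of_sub_mem_vanishing (H : LHyp K F) {v : Place K F} {f : F} {c c' : K}
    (h : f - algebraMap K F c ∈ vanishing v) (h' : f - algebraMap K F c' ∈ vanishing v) :
    c = c' := by
  have hf := mem_valuationSubring_of_sub_mem h
  rw [mem_vanishing, sub_eq_zero] at h h'
  rw [← (valueAt_eq_iff H v ⟨f, hf⟩ c).2 h, ← (valueAt_eq_iff H v ⟨f, hf⟩ c').2 h']

/-- twisted evaluation at a family of places. -/
def tev {ι : Type*} (s : ι → Place K F) (H : LHyp K F) (D : Divisor K F) (u : ι → F)
    (hu0 : ∀ i, u i ≠ 0) (hu : ∀ i, (s i).ord (u i) = D (s i)) :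
    riemannRochSpace D →ₗ[K] (ι → K) :=
  LinearMap.pi fun i => tevalL H D (s i) (u i) (hu0 i) (hu i)

theorem tev_apply {ι : Type*} (s : ι → Place K F) (H : LHyp K F) (D : Divisor K F) (u : ι → F)
    (hu0 : ∀ i, u i ≠ 0) (hu : ∀ i, (s i).ord (u i) = D (s i)) (l : riemannRochSpace D) (i : ι) :
    tev s H D u hu0 hu l i = tevalL H D (s i) (u i) (hu0 i) (hu i) l := rfl

end Twist

variable {κ F1 F2 : Type*} [Field κ] [Field F1] [Field F2] [Algebra κ F1] [Algebra κ F2]
variable {ι : Type*} (N : NodalData κ F1 F2 ι)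
variable (HL1 : LHyp κ F1) (HL2 : LHyp κ F2)

/-! ### the kernel of the twisted evaluation at the nodes -/

section Kernel

variable [Fintype ι] (D : Divisor κ F1) (u : ι → F1) (hu0 : ∀ i, u i ≠ 0)
  (hu : ∀ i, (N.s1 i).ord (u i) = D (N.s1 i))

/-- **the kernel of the twisted evaluation at the nodes is `L(D - ∑ s1 i)`.** -/
theorem tev1_eq_zero_iff (l : riemannRochSpace D) :
    tev N.s1 HL1 D u hu0 hu l = 0 ↔ (l : F1) ∈ riemannRochSpace (D - nodeDiv1 N) := by
  classical
  constructor
  · intro h0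
    rw [mem_riemannRochSpace_iff]
    intro v
    by_cases hl : (l : F1) = 0
    · exact Or.inl hl
    right
    rw [Finsupp.sub_apply, nodeDiv1_apply]
    split_ifs with hv
    · obtain ⟨i, rfl⟩ := hv
      have h1 := (tevalL_eq_zero_iff HL1 D (N.s1 i) (u i) (hu0 i) (hu i) l).1
        (by rw [← tev_apply N.s1 HL1 D u hu0 hu l i, h0]; rfl)
      rcases h1 with h1 | h1
      · exact absurd h1 hl
      · omega
    · rcases (mem_riemannRochSpace_iff.1 l.2) v with h1 | h1
      · exact absurd h1 hl
      · omega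
  · intro hmem
    funext i
    rw [tev_apply, Pi.zero_apply, tevalL_eq_zero_iff]
    by_cases hl : (l : F1) = 0
    · exact Or.inl hl
    right
    rcases (mem_riemannRochSpace_iff.1 hmem) (N.s1 i) with h1 | h1
    · exact absurd h1 hl
    · rw [Finsupp.sub_apply, nodeDiv1_apply_node] at h1
      omega

include HL1 in
/-- `dim ker = l(D - ∑ s1 i)`. -/
theorem finrank_ker_tev1 :
    Module.finrank κ (LinearMap.ker (tev N.s1 HL1 D u hu0 hu)) =
      Module.finrank κ (riemannRochSpace (D - nodeDiv1 N)) := by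
  have hle : riemannRochSpace (D - nodeDiv1 N) ≤ riemannRochSpace D :=
    L_mono (sub_le_self _ (nodeDiv1_nonneg N))
  have hker : LinearMap.ker (tev N.s1 HL1 D u hu0 hu) =
      Submodule.comap (riemannRochSpace D).subtype (riemannRochSpace (D - nodeDiv1 N)) := by
    ext l
    rw [LinearMap.mem_ker, Submodule.mem_comap]
    exact tev1_eq_zero_iff N HL1 D u hu0 hu l
  rw [hker]
  exact LinearEquiv.finrank_eq (Submodule.comapSubtypeEquivOfLe hle)

include HL1 in
/-- **the twisted evaluation at the nodes is onto** as soon as `l(D) ≥ l(D - ∑ s1 i) + t`. -/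
theorem tev1_surjective_of_finrank
    (hdim : ell (D - nodeDiv1 N) + (Fintype.card ι : ℤ) ≤ ell D) :
    Function.Surjective (tev N.s1 HL1 D u hu0 hu) := by
  have h1 := Fermat.Agent.RR.LSpace.finiteDimensional_L HL1 D
  have h3 := LinearMap.finrank_range_add_finrank_ker (tev N.s1 HL1 D u hu0 hu)
  rw [finrank_ker_tev1 N HL1 D u hu0 hu] at h3
  unfold ell at hdim
  have h4 : Module.finrank κ (LinearMap.range (tev N.s1 HL1 D u hu0 hu)) ≤ Fintype.card ι := by
    have := Submodule.finrank_le (LinearMap.range (tev N.s1 HL1 D u hu0 hu))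
    rwa [Module.finrank_fintype_fun_eq_card] at this
  have h5 : Module.finrank κ (LinearMap.range (tev N.s1 HL1 D u hu0 hu)) =
      Module.finrank κ (ι → κ) := by
    rw [Module.finrank_fintype_fun_eq_card]
    omega
  rw [← LinearMap.range_eq_top]
  exact Submodule.eq_top_of_finrank_eq h5

end Kernel

/-! ### compatibility at a node in terms of the values -/

include HL1 HL2 in
theorem compatAt_iff_of_values {i : ι} {g : F1 × F2} {c1 c2 : κ}
    (h1 : g.1 - algebraMap κ F1 c1 ∈ vanishing (N.s1 i))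
    (h2 : g.2 - algebraMap κ F2 c2 ∈ vanishing (N.s2 i)) :
    g ∈ N.compatAt i ↔ c1 = c2 := by
  constructor
  · rintro ⟨c, hc1, hc2⟩
    rw [eq_of_sub_mem_vanishing HL1 h1 hc1, eq_of_sub_mem_vanishing HL2 h2 hc2]
  · rintro rfl
    exact ⟨c1, h1, h2⟩

/-! ### regularity of the coordinates at the nodes of a chart -/

section Coord

variable {x1 : F1} {x2 : F2} (m1 m2 : ℕ)

theorem mem_of_pow_mem {K F : Type*} [Field K] [Field F] [Algebra K F] (v : Place K F) {x : F}
    {m : ℕ} (hm : 0 < m) (h : x ^ m ∈ v.toValuationSubring) : x ∈ v.toValuationSubring := by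
  rw [mem_iff_ord_nonneg] at h ⊢
  by_cases h0 : x = 0
  · exact Or.inl h0
  right
  rcases h with h | h
  · exact absurd (pow_eq_zero_iff (Nat.pos_iff_ne_zero.1 hm) |>.1 h) h0
  · rw [ord_pow] at h
    have hm' : (0 : ℤ) < m := by exact_mod_cast hm
    by_contra hneg
    rw [not_le] at hneg
    nlinarith

theorem fst_mem_of_compatAt {i : ι} {f : F1 × F2} (hf : f ∈ N.compatAt i) :
    f.1 ∈ (N.s1 i).toValuationSubring := by
  obtain ⟨c, h1, -⟩ := hf
  exact mem_valuationSubring_of_sub_mem h1

theorem snd_mem_of_compatAt {i : ι} {f : F1 × F2} (hf : f ∈ N.compatAt i) :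
    f.2 ∈ (N.s2 i).toValuationSubring := by
  obtain ⟨c, -, h2⟩ := hf
  exact mem_valuationSubring_of_sub_mem h2

theorem x1_mem_of_tbAt (hm1 : 0 < m1) {i : ι} (h : tb x1 x2 m1 m2 ∈ N.compatAt i) :
    x1 ∈ (N.s1 i).toValuationSubring :=
  mem_of_pow_mem (N.s1 i) hm1 (fst_mem_of_compatAt N h)

theorem x2_mem_of_tbAt (hm2 : 0 < m2) {i : ι} (h : tb x1 x2 m1 m2 ∈ N.compatAt i) :
    x2 ∈ (N.s2 i).toValuationSubring :=
  mem_of_pow_mem (N.s2 i) hm2 (snd_mem_of_compatAt N h)

theorem x1inv_mem_of_sbAt (hm1 : 0 < m1) {i : ι} (h : sb x1 x2 m1 m2 ∈ N.compatAt i) :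
    x1⁻¹ ∈ (N.s1 i).toValuationSubring :=
  mem_of_pow_mem (N.s1 i) hm1 (fst_mem_of_compatAt N h)

theorem x2inv_mem_of_sbAt (hm2 : 0 < m2) {i : ι} (h : sb x1 x2 m1 m2 ∈ N.compatAt i) :
    x2⁻¹ ∈ (N.s2 i).toValuationSubring :=
  mem_of_pow_mem (N.s2 i) hm2 (snd_mem_of_compatAt N h)

end Coord

end Fermat.Agent.T33.NodalLiftS6
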