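/-
Programme T (S33), nodal layer, chapter (c) / (N1′) (helper6), SYMMETRIC form, part B:
**the two chart rings and the dimension count.**

Every node lies in chart 0 (`t̄` compatible there) or in chart 1 (`s̄ = t̄⁻¹` compatible there):
`cover : ∀ i, t̄ ∈ N.compatAt i ∨ s̄ ∈ N.compatAt i`.  No other hypothesis on the position of the
nodes.

* `NC0`           : the chart-0 ring (gluing only at the nodes of chart 0); chart 1 is
  `NodalLiftG6.NC1`;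
* `Dn`            : `n (t̄)_∞ = ((n m₁) (x₁)_∞, (n m₂) (x₂)_∞)` (it may pass through nodes);
* `tw1`, `tw2`    : the local trivialisations of `O(n (t̄)_∞)` at the nodes (`1` in chart 0,
  `s̄ ^ n` otherwise);
* `PhiS`          : the difference of the twisted evaluations at the nodes;
* `Lb_le_range`, `Lb_fg`, `map_ker_le_Lb` : the sections through the two charts are squeezed between
  `ker PhiS` and `L(D₁) × L(D₂)`;
* `finrank_Lb_ge` : `dim Lb(n) ≥ l(n m₁ (x₁)_∞) + l(n m₂ (x₂)_∞) - t`.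
-/
import Mathlib
import Fermat.Agent.T33.NodalLiftS6A

set_option autoImplicit false
set_option linter.unusedSectionVars false
set_option linter.style.haveILetI false

open AlgebraicCurve IntermediateField

noncomputable section

namespace Fermat.Agent.T33.NodalLiftS6

open Fermat.Agent.X0 Fermat.Agent.X0.FF Fermat.Agent.RR.LSpace Fermat.Agent.RR.Riemann
  Fermat.Agent.FF.RedLat2 Fermat.Agent.FF.SpecRR1 Fermat.Agent.FF.GoodRed8
  Fermat.Agent.RED.PUR.ChartGeneric22 Fermat.Agent.T33.NodalCurve6 Fermat.Agent.T33.NodalRR6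
  Fermat.Agent.T33.NodalLift6 Fermat.Agent.T33.NodalLiftG6

variable {κ F1 F2 : Type*} [Field κ] [Field F1] [Field F2] [Algebra κ F1] [Algebra κ F2]
variable {ι : Type*} (N : NodalData κ F1 F2 ι)

/-- the chart-0 ring of the nodal curve: the gluing condition is imposed only at the nodes where
`t̄` is compatible (the nodes lying in chart 0). -/
def NC0 (x1 : F1) (x2 : F2) (m1 m2 : ℕ) : Subalgebra κ (F1 × F2) where
  carrier := {f | f.1 ∈ chart κ x1 ∧ f.2 ∈ chart κ x2 ∧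
    ∀ i, tb x1 x2 m1 m2 ∈ N.compatAt i → f ∈ N.compatAt i}
  mul_mem' := by
    rintro f f' ⟨h1, h2, h3⟩ ⟨h1', h2', h3'⟩
    exact ⟨(chart κ x1).mul_mem h1 h1', (chart κ x2).mul_mem h2 h2',
      fun i hi => compatAt_mul N (h3 i hi) (h3' i hi)⟩
  add_mem' := by
    rintro f f' ⟨h1, h2, h3⟩ ⟨h1', h2', h3'⟩
    exact ⟨(chart κ x1).add_mem h1 h1', (chart κ x2).add_mem h2 h2',
      fun i hi => Submodule.add_mem _ (h3 i hi) (h3' i hi)⟩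
  algebraMap_mem' := by
    intro a
    exact ⟨(chart κ x1).algebraMap_mem a, (chart κ x2).algebraMap_mem a,
      fun i _ => algebraMap_mem_compatAt N i a⟩

theorem mem_NC0 {x1 : F1} {x2 : F2} {m1 m2 : ℕ} {f : F1 × F2} :
    f ∈ NC0 N x1 x2 m1 m2 ↔ f.1 ∈ chart κ x1 ∧ f.2 ∈ chart κ x2 ∧
      ∀ i, tb x1 x2 m1 m2 ∈ N.compatAt i → f ∈ N.compatAt i := Iff.rfl

/-- the chart ring of `NodalLift6A` is contained in the new one. -/
theorem NC_le_NC0 (x1 : F1) (x2 : F2) (m1 m2 : ℕ) : NC N x1 x2 ≤ NC0 N x1 x2 m1 m2 := by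
  intro f hf
  rw [mem_NC] at hf
  rw [mem_NC0]
  exact ⟨hf.1, hf.2.1, fun i _ => (mem_compat N).1 hf.2.2 i⟩

/-- if `t̄` is compatible at all the nodes, `NC0` is the old chart-0 ring. -/
theorem NC0_eq_of_tb {x1 : F1} {x2 : F2} {m1 m2 : ℕ} (htb : tb x1 x2 m1 m2 ∈ N.compat) :
    NC0 N x1 x2 m1 m2 = NC N x1 x2 := by
  apply le_antisymm
  · intro f hf
    rw [mem_NC0] at hf
    rw [mem_NC, mem_compat]
    exact ⟨hf.1, hf.2.1, fun i => hf.2.2 i ((mem_compat N).1 htb i)⟩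
  · exact NC_le_NC0 N x1 x2 m1 m2

theorem tb_mem_NC0 (x1 : F1) (x2 : F2) (m1 m2 : ℕ) : tb x1 x2 m1 m2 ∈ NC0 N x1 x2 m1 m2 := by
  rw [mem_NC0]
  exact ⟨(chart κ x1).pow_mem (self_mem_chart (R := κ) x1) m1,
    (chart κ x2).pow_mem (self_mem_chart (R := κ) x2) m2, fun i hi => hi⟩

theorem sb_mem_NC1 (x1 : F1) (x2 : F2) (m1 m2 : ℕ) : sb x1 x2 m1 m2 ∈ NC1 N x1 x2 m1 m2 := by
  rw [mem_NC1]
  exact ⟨(chart κ x1⁻¹).pow_mem (self_mem_chart (R := κ) x1⁻¹) m1,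
    (chart κ x2⁻¹).pow_mem (self_mem_chart (R := κ) x2⁻¹) m2, fun i hi => hi⟩

/-! ### the divisor `n (t̄)_∞` and its local trivialisations at the nodes -/

section Dict

variable (HL1 : LHyp κ F1) (HL2 : LHyp κ F2)
variable {x1 : F1} {x2 : F2} (hx10 : x1 ≠ 0) (hx20 : x2 ≠ 0) (m1 m2 : ℕ)

/-- `n (t̄)_∞` on the normalisation. -/
def Dn (n : ℕ) : NDiv κ F1 F2 := ((n * m1) • poleDiv HL1 hx10, (n * m2) • poleDiv HL2 hx20)

theorem Dn_eq (n : ℕ) : Dn HL1 HL2 hx10 hx20 m1 m2 n = n • Dt HL1 HL2 hx10 hx20 m1 m2 := by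
  apply Prod.ext
  · show (n * m1) • poleDiv HL1 hx10 = n • (m1 • poleDiv HL1 hx10)
    rw [mul_smul]
  · show (n * m2) • poleDiv HL2 hx20 = n • (m2 • poleDiv HL2 hx20)
    rw [mul_smul]

open Classical in
/-- the local trivialisation of `O(n (t̄)_∞)` at the node `i`, first branch. -/
def tw1 (x1 : F1) (x2 : F2) (m1 m2 n : ℕ) (i : ι) : F1 :=
  if tb x1 x2 m1 m2 ∈ N.compatAt i then 1 else x1⁻¹ ^ (n * m1)

open Classical in
/-- the local trivialisation of `O(n (t̄)_∞)` at the node `i`, second branch. -/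
def tw2 (x1 : F1) (x2 : F2) (m1 m2 n : ℕ) (i : ι) : F2 :=
  if tb x1 x2 m1 m2 ∈ N.compatAt i then 1 else x2⁻¹ ^ (n * m2)

theorem tw1_pos {n : ℕ} {i : ι} (h : tb x1 x2 m1 m2 ∈ N.compatAt i) :
    tw1 N x1 x2 m1 m2 n i = 1 := by
  unfold tw1; rw [if_pos h]

theorem tw2_pos {n : ℕ} {i : ι} (h : tb x1 x2 m1 m2 ∈ N.compatAt i) :
    tw2 N x1 x2 m1 m2 n i = 1 := by
  unfold tw2; rw [if_pos h]

theorem tw1_neg {n : ℕ} {i : ι} (h : tb x1 x2 m1 m2 ∉ N.compatAt i) :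
    tw1 N x1 x2 m1 m2 n i = x1⁻¹ ^ (n * m1) := by
  unfold tw1; rw [if_neg h]

theorem tw2_neg {n : ℕ} {i : ι} (h : tb x1 x2 m1 m2 ∉ N.compatAt i) :
    tw2 N x1 x2 m1 m2 n i = x2⁻¹ ^ (n * m2) := by
  unfold tw2; rw [if_neg h]

include hx10 in
theorem tw1_ne_zero (n : ℕ) (i : ι) : tw1 N x1 x2 m1 m2 n i ≠ 0 := by
  unfold tw1
  split_ifs
  · exact one_ne_zero
  · exact pow_ne_zero _ (inv_ne_zero hx10)

include hx20 in
theorem tw2_ne_zero (n : ℕ) (i : ι) : tw2 N x1 x2 m1 m2 n i ≠ 0 := by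
  unfold tw2
  split_ifs
  · exact one_ne_zero
  · exact pow_ne_zero _ (inv_ne_zero hx20)

theorem tw1_ord (hm1 : 0 < m1)
    (hcov : ∀ i, tb x1 x2 m1 m2 ∈ N.compatAt i ∨ sb x1 x2 m1 m2 ∈ N.compatAt i) (n : ℕ) (i : ι) :
    (N.s1 i).ord (tw1 N x1 x2 m1 m2 n i) = (Dn HL1 HL2 hx10 hx20 m1 m2 n).1 (N.s1 i) := by
  show _ = ((n * m1) • poleDiv HL1 hx10) (N.s1 i)
  rw [Finsupp.smul_apply, poleDiv_apply]
  by_cases h : tb x1 x2 m1 m2 ∈ N.compatAt i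
  · have := ord_nonneg_of_mem (N.s1 i) (x1_mem_of_tbAt N m1 m2 hm1 h)
    rw [tw1_pos N m1 m2 h, (N.s1 i).ord_one, max_eq_left (by omega), smul_zero]
  · have h' := (hcov i).resolve_left h
    have := ord_nonneg_of_mem (N.s1 i) (x1inv_mem_of_sbAt N m1 m2 hm1 h')
    rw [(N.s1 i).ord_inv] at this
    rw [tw1_neg N m1 m2 h, ord_pow, (N.s1 i).ord_inv, max_eq_right (by omega), nsmul_eq_mul]

theorem tw2_ord (hm2 : 0 < m2)
    (hcov : ∀ i, tb x1 x2 m1 m2 ∈ N.compatAt i ∨ sb x1 x2 m1 m2 ∈ N.compatAt i) (n : ℕ) (i : ι) :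
    (N.s2 i).ord (tw2 N x1 x2 m1 m2 n i) = (Dn HL1 HL2 hx10 hx20 m1 m2 n).2 (N.s2 i) := by
  show _ = ((n * m2) • poleDiv HL2 hx20) (N.s2 i)
  rw [Finsupp.smul_apply, poleDiv_apply]
  by_cases h : tb x1 x2 m1 m2 ∈ N.compatAt i
  · have := ord_nonneg_of_mem (N.s2 i) (x2_mem_of_tbAt N m1 m2 hm2 h)
    rw [tw2_pos N m1 m2 h, (N.s2 i).ord_one, max_eq_left (by omega), smul_zero]
  · have h' := (hcov i).resolve_left h
    have := ord_nonneg_of_mem (N.s2 i) (x2inv_mem_of_sbAt N m1 m2 hm2 h')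
    rw [(N.s2 i).ord_inv] at this
    rw [tw2_neg N m1 m2 h, ord_pow, (N.s2 i).ord_inv, max_eq_right (by omega), nsmul_eq_mul]

/-- the pair of trivialisations is `1` at a node of chart 0 and `s̄ ^ n` otherwise. -/
theorem tw_mul_eq_of_pos {n : ℕ} {i : ι} (h : tb x1 x2 m1 m2 ∈ N.compatAt i) (f : F1 × F2) :
    ((tw1 N x1 x2 m1 m2 n i * f.1, tw2 N x1 x2 m1 m2 n i * f.2) : F1 × F2) = f := by
  rw [tw1_pos N m1 m2 h, tw2_pos N m1 m2 h, one_mul, one_mul]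

theorem tw_mul_eq_of_neg {n : ℕ} {i : ι} (h : tb x1 x2 m1 m2 ∉ N.compatAt i) (f : F1 × F2) :
    ((tw1 N x1 x2 m1 m2 n i * f.1, tw2 N x1 x2 m1 m2 n i * f.2) : F1 × F2) =
      sb x1 x2 m1 m2 ^ n * f := by
  rw [tw1_neg N m1 m2 h, tw2_neg N m1 m2 h]
  apply Prod.ext
  · rw [fst_sb_pow_mul]
  · rw [snd_sb_pow_mul]

/-! ### the difference of the twisted evaluations -/

variable (hm1 : 0 < m1) (hm2 : 0 < m2)
  (hcov : ∀ i, tb x1 x2 m1 m2 ∈ N.compatAt i ∨ sb x1 x2 m1 m2 ∈ N.compatAt i)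

/-- twisted evaluation at the nodes, first component. -/
def tevS1 (n : ℕ) : riemannRochSpace (Dn HL1 HL2 hx10 hx20 m1 m2 n).1 →ₗ[κ] (ι → κ) :=
  tev N.s1 HL1 (Dn HL1 HL2 hx10 hx20 m1 m2 n).1 (tw1 N x1 x2 m1 m2 n)
    (tw1_ne_zero N hx10 m1 m2 n) (tw1_ord N HL1 HL2 hx10 hx20 m1 m2 hm1 hcov n)

/-- twisted evaluation at the nodes, second component. -/
def tevS2 (n : ℕ) : riemannRochSpace (Dn HL1 HL2 hx10 hx20 m1 m2 n).2 →ₗ[κ] (ι → κ) :=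
  tev N.s2 HL2 (Dn HL1 HL2 hx10 hx20 m1 m2 n).2 (tw2 N x1 x2 m1 m2 n)
    (tw2_ne_zero N hx20 m1 m2 n) (tw2_ord N HL1 HL2 hx10 hx20 m1 m2 hm2 hcov n)

theorem tevS1_spec (n : ℕ) (l : riemannRochSpace (Dn HL1 HL2 hx10 hx20 m1 m2 n).1) (i : ι) :
    tw1 N x1 x2 m1 m2 n i * (l : F1) -
      algebraMap κ F1 (tevS1 N HL1 HL2 hx10 hx20 m1 m2 hm1 hcov n l i) ∈ vanishing (N.s1 i) :=
  tevalL_spec HL1 (Dn HL1 HL2 hx10 hx20 m1 m2 n).1 (N.s1 i) (tw1 N x1 x2 m1 m2 n i)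
    (tw1_ne_zero N hx10 m1 m2 n i) (tw1_ord N HL1 HL2 hx10 hx20 m1 m2 hm1 hcov n i) l

theorem tevS2_spec (n : ℕ) (l : riemannRochSpace (Dn HL1 HL2 hx10 hx20 m1 m2 n).2) (i : ι) :
    tw2 N x1 x2 m1 m2 n i * (l : F2) -
      algebraMap κ F2 (tevS2 N HL1 HL2 hx10 hx20 m1 m2 hm2 hcov n l i) ∈ vanishing (N.s2 i) :=
  tevalL_spec HL2 (Dn HL1 HL2 hx10 hx20 m1 m2 n).2 (N.s2 i) (tw2 N x1 x2 m1 m2 n i)
    (tw2_ne_zero N hx20 m1 m2 n i) (tw2_ord N HL1 HL2 hx10 hx20 m1 m2 hm2 hcov n i) l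

/-- the difference of the twisted evaluations at the nodes. -/
def PhiS (n : ℕ) :
    (riemannRochSpace (Dn HL1 HL2 hx10 hx20 m1 m2 n).1 ×
      riemannRochSpace (Dn HL1 HL2 hx10 hx20 m1 m2 n).2) →ₗ[κ] (ι → κ) :=
  (tevS1 N HL1 HL2 hx10 hx20 m1 m2 hm1 hcov n).coprod
    (-(tevS2 N HL1 HL2 hx10 hx20 m1 m2 hm2 hcov n))

theorem PhiS_apply (n : ℕ)
    (x : riemannRochSpace (Dn HL1 HL2 hx10 hx20 m1 m2 n).1 ×
      riemannRochSpace (Dn HL1 HL2 hx10 hx20 m1 m2 n).2) (i : ι) :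
    PhiS N HL1 HL2 hx10 hx20 m1 m2 hm1 hm2 hcov n x i =
      tevS1 N HL1 HL2 hx10 hx20 m1 m2 hm1 hcov n x.1 i -
        tevS2 N HL1 HL2 hx10 hx20 m1 m2 hm2 hcov n x.2 i := by
  unfold PhiS
  rw [LinearMap.coprod_apply, Pi.add_apply, LinearMap.neg_apply, Pi.neg_apply, sub_eq_add_neg]

/-- a pair of sections with equal twisted values is compatible after the twist. -/
theorem twist_mem_compatAt (n : ℕ)
    (x : riemannRochSpace (Dn HL1 HL2 hx10 hx20 m1 m2 n).1 ×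
      riemannRochSpace (Dn HL1 HL2 hx10 hx20 m1 m2 n).2)
    (hx : PhiS N HL1 HL2 hx10 hx20 m1 m2 hm1 hm2 hcov n x = 0) (i : ι) :
    ((tw1 N x1 x2 m1 m2 n i * (x.1 : F1), tw2 N x1 x2 m1 m2 n i * (x.2 : F2)) : F1 × F2) ∈
      N.compatAt i := by
  have h := congrFun hx i
  rw [PhiS_apply, Pi.zero_apply, sub_eq_zero] at h
  refine ⟨tevS1 N HL1 HL2 hx10 hx20 m1 m2 hm1 hcov n x.1 i,
    tevS1_spec N HL1 HL2 hx10 hx20 m1 m2 hm1 hcov n x.1 i, ?_⟩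
  rw [h]
  exact tevS2_spec N HL1 HL2 hx10 hx20 m1 m2 hm2 hcov n x.2 i

end Dict

/-! ### the sections through the two charts -/

section Count

variable [IsAlgClosed κ] (HL1 : LHyp κ F1) (HL2 : LHyp κ F2)
variable {x1 : F1} {x2 : F2} (hx1 : IsGen κ x1) (hx2 : IsGen κ x2)
  [Algebra.IsSeparable κ⟮x1⟯ F1] [Algebra.IsSeparable κ⟮x2⟯ F2]
  (hx10 : x1 ≠ 0) (hx20 : x2 ≠ 0) (m1 m2 : ℕ)
variable (hm1 : 0 < m1) (hm2 : 0 < m2)
  (hcov : ∀ i, tb x1 x2 m1 m2 ∈ N.compatAt i ∨ sb x1 x2 m1 m2 ∈ N.compatAt i)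

include hx1 hx2 in
/-- the sections through the two charts lie in `L((n m₁) (x₁)_∞) × L((n m₂) (x₂)_∞)`. -/
theorem Lb_le_range (n : ℕ) :
    Lb (NC0 N x1 x2 m1 m2) (NC1 N x1 x2 m1 m2) (sb x1 x2 m1 m2) n ≤
      LinearMap.range (incl (κ := κ) (Dn HL1 HL2 hx10 hx20 m1 m2 n)) := by
  intro f hf
  rw [mem_Lb, mem_NC0, mem_NC1, fst_sb_pow_mul, snd_sb_pow_mul] at hf
  obtain ⟨⟨h1, h2, -⟩, h4, h5, -⟩ := hf
  have e1 : f.1 ∈ riemannRochSpace ((n * m1) • poleDiv HL1 hx10) := by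
    rw [← Fermat.Agent.FF.SpecialRR6.Lb_eq_L HL1 hx1 hx10 (n * m1), mem_Lb]
    exact ⟨h1, h4⟩
  have e2 : f.2 ∈ riemannRochSpace ((n * m2) • poleDiv HL2 hx20) := by
    rw [← Fermat.Agent.FF.SpecialRR6.Lb_eq_L HL2 hx2 hx20 (n * m2), mem_Lb]
    exact ⟨h2, h5⟩
  exact ⟨(⟨f.1, e1⟩, ⟨f.2, e2⟩), rfl⟩

include HL1 HL2 hx1 hx2 hx10 hx20 in
theorem finiteDimensional_Lb (n : ℕ) :
    FiniteDimensional κ (Lb (NC0 N x1 x2 m1 m2) (NC1 N x1 x2 m1 m2) (sb x1 x2 m1 m2) n) := by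
  have h1 := Fermat.Agent.RR.LSpace.finiteDimensional_L HL1 (Dn HL1 HL2 hx10 hx20 m1 m2 n).1
  have h2 := Fermat.Agent.RR.LSpace.finiteDimensional_L HL2 (Dn HL1 HL2 hx10 hx20 m1 m2 n).2
  exact Submodule.finiteDimensional_of_le (Lb_le_range N HL1 HL2 hx1 hx2 hx10 hx20 m1 m2 n)

include HL1 HL2 hx1 hx2 hx10 hx20 in
/-- **finite generation of the sections** (input `hfin` of `GoodRed8.lifting`). -/
theorem Lb_fg (n : ℕ) :
    (Lb (NC0 N x1 x2 m1 m2) (NC1 N x1 x2 m1 m2) (sb x1 x2 m1 m2) n).FG := by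
  haveI := finiteDimensional_Lb N HL1 HL2 hx1 hx2 hx10 hx20 m1 m2 n
  exact (Submodule.fg_iff_finiteDimensional _).mpr inferInstance

include hx1 hx2 in
/-- pairs of sections with equal twisted values at the nodes are sections through the two
charts. -/
theorem map_ker_le_Lb (n : ℕ) :
    Submodule.map (incl (κ := κ) (Dn HL1 HL2 hx10 hx20 m1 m2 n))
        (LinearMap.ker (PhiS N HL1 HL2 hx10 hx20 m1 m2 hm1 hm2 hcov n)) ≤
      Lb (NC0 N x1 x2 m1 m2) (NC1 N x1 x2 m1 m2) (sb x1 x2 m1 m2) n := by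
  rintro f ⟨x, hx, rfl⟩
  rw [SetLike.mem_coe, LinearMap.mem_ker] at hx
  have hc := twist_mem_compatAt N HL1 HL2 hx10 hx20 m1 m2 hm1 hm2 hcov n x hx
  obtain ⟨a0, a1⟩ := Fermat.Agent.FF.SpecialRR6.isIntegral_of_mem_L HL1 hx1 hx10 x.1.2
  obtain ⟨b0, b1⟩ := Fermat.Agent.FF.SpecialRR6.isIntegral_of_mem_L HL2 hx2 hx20 x.2.2
  have hf0 : ∀ i, tb x1 x2 m1 m2 ∈ N.compatAt i →
      incl (κ := κ) (Dn HL1 HL2 hx10 hx20 m1 m2 n) x ∈ N.compatAt i := by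
    intro i hi
    have := hc i
    rwa [tw1_pos N m1 m2 hi, tw2_pos N m1 m2 hi, one_mul, one_mul] at this
  rw [mem_Lb, mem_NC0, mem_NC1, fst_sb_pow_mul, snd_sb_pow_mul]
  refine ⟨⟨mem_chart_iff.mpr a0, mem_chart_iff.mpr b0, hf0⟩, mem_chart_iff.mpr a1,
    mem_chart_iff.mpr b1, fun i hi => ?_⟩
  by_cases h : tb x1 x2 m1 m2 ∈ N.compatAt i
  · exact compatAt_mul N (compatAt_pow N hi n) (hf0 i h)
  · have e := tw_mul_eq_of_neg N m1 m2 (n := n) h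
      (incl (κ := κ) (Dn HL1 HL2 hx10 hx20 m1 m2 n) x)
    rw [← e]
    exact hc i

variable [Fintype ι]

include hx1 hx2 hm1 hm2 hcov in
/-- **`dim Lb(n) ≥ l(n m₁ (x₁)_∞) + l(n m₂ (x₂)_∞) - t`.** -/
theorem finrank_Lb_ge (n : ℕ) :
    ell ((n * m1) • poleDiv HL1 hx10) + ell ((n * m2) • poleDiv HL2 hx20) -
        (Fintype.card ι : ℤ) ≤
      (Module.finrank κ
        (Lb (NC0 N x1 x2 m1 m2) (NC1 N x1 x2 m1 m2) (sb x1 x2 m1 m2) n) : ℤ) := by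
  have h1 := Fermat.Agent.RR.LSpace.finiteDimensional_L HL1 (Dn HL1 HL2 hx10 hx20 m1 m2 n).1
  have h2 := Fermat.Agent.RR.LSpace.finiteDimensional_L HL2 (Dn HL1 HL2 hx10 hx20 m1 m2 n).2
  haveI := finiteDimensional_Lb N HL1 HL2 hx1 hx2 hx10 hx20 m1 m2 n
  have hmono := Submodule.finrank_mono
    (map_ker_le_Lb N HL1 HL2 hx1 hx2 hx10 hx20 m1 m2 hm1 hm2 hcov n)
  have heq : Module.finrank κ (Submodule.map (incl (κ := κ) (Dn HL1 HL2 hx10 hx20 m1 m2 n))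
      (LinearMap.ker (PhiS N HL1 HL2 hx10 hx20 m1 m2 hm1 hm2 hcov n))) =
      Module.finrank κ (LinearMap.ker (PhiS N HL1 HL2 hx10 hx20 m1 m2 hm1 hm2 hcov n)) :=
    (LinearEquiv.finrank_eq (Submodule.equivMapOfInjective _ (incl_injective _) _)).symm
  have h3 := LinearMap.finrank_range_add_finrank_ker
    (PhiS N HL1 HL2 hx10 hx20 m1 m2 hm1 hm2 hcov n)
  rw [Module.finrank_prod] at h3
  have h4 : Module.finrank κ
      (LinearMap.range (PhiS N HL1 HL2 hx10 hx20 m1 m2 hm1 hm2 hcov n)) ≤ Fintype.card ι := by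
    have := Submodule.finrank_le
      (LinearMap.range (PhiS N HL1 HL2 hx10 hx20 m1 m2 hm1 hm2 hcov n))
    rwa [Module.finrank_fintype_fun_eq_card] at this
  have e1 : ell ((n * m1) • poleDiv HL1 hx10) =
      (Module.finrank κ (riemannRochSpace (Dn HL1 HL2 hx10 hx20 m1 m2 n).1) : ℤ) := rfl
  have e2 : ell ((n * m2) • poleDiv HL2 hx20) =
      (Module.finrank κ (riemannRochSpace (Dn HL1 HL2 hx10 hx20 m1 m2 n).2) : ℤ) := rfl
  rw [e1, e2]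
  omega

end Count

end Fermat.Agent.T33.NodalLiftS6
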