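/-
Programme T (S33), nodal layer, chapter (c) / (N1′) (helper6), SYMMETRIC form, part C:
**`H¹`-vanishing and the pencil trick on the nodal curve, nodes in either chart.**

* `exists_H1` : `GoodRed8.H1 (NC0 …) (NC1 …) t̄ c` for some `c`: decompose on each component, then
  correct the first component by a section of `O(n m₁ (x₁)_∞)` with prescribed TWISTED values at the
  nodes (value of `λ` at the nodes of chart 0, value of `x₁⁻¹ ^ (n m₁) λ` at the others);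
* `exists_PT` : the pencil-trick property (input `hPT` of `GoodRed8.lifting`).
-/
import Mathlib
import Fermat.Agent.T33.NodalLiftS6B

set_option autoImplicit false
set_option linter.unusedSectionVars false
set_option linter.style.haveILetI false

open AlgebraicCurve IntermediateField

noncomputable section

namespace Fermat.Agent.T33.NodalLiftS6

open Fermat.Agent.X0 Fermat.Agent.X0.FF Fermat.Agent.RR.LSpace Fermat.Agent.RR.Riemann
  Fermat.Agent.FF.RedLat2 Fermat.Agent.FF.SpecRR1 Fermat.Agent.FF.GoodRed8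
  Fermat.Agent.RED.PUR.ChartGeneric22 Fermat.Agent.T33.NodalCurve6 Fermat.Agent.T33.NodalRR6
  Fermat.Agent.T33.NodalLift6 Fermat.Agent.T33.NodalLiftG6

variable {κ F1 F2 : Type*} [Field κ] [Field F1] [Field F2] [Algebra κ F1] [Algebra κ F2]
variable {ι : Type*} [Fintype ι] (N : NodalData κ F1 F2 ι)
variable [IsAlgClosed κ] (HL1 : LHyp κ F1) (HL2 : LHyp κ F2)
variable {x1 : F1} {x2 : F2} (hx1 : IsGen κ x1) (hx2 : IsGen κ x2)
  [Algebra.IsSeparable κ⟮x1⟯ F1] [Algebra.IsSeparable κ⟮x2⟯ F2]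
  (hx10 : x1 ≠ 0) (hx20 : x2 ≠ 0) (m1 m2 : ℕ)
variable (g1 : ℤ) (hR1 : ∀ D : Divisor κ F1, Divisor.degree D + 1 - g1 ≤ ell D)
variable {D01 : Divisor κ F1} (h01 : delta g1 D01 = 0)

include HL1 HL2 hx1 hx2 hx10 hx20 hR1 h01 in
/-- **`H¹`-vanishing on the nodal curve**, symmetric form: `NC0[1/t̄] = NC0 + t̄ ^ n NC1` for
`n ≥ c`, every node lying in chart 0 or in chart 1. -/
theorem exists_H1 (hm1 : 0 < m1) (hm2 : 0 < m2)
    (hcov : ∀ i, tb x1 x2 m1 m2 ∈ N.compatAt i ∨ sb x1 x2 m1 m2 ∈ N.compatAt i) :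
    ∃ c : ℕ, H1 (NC0 N x1 x2 m1 m2) (NC1 N x1 x2 m1 m2) (tb x1 x2 m1 m2) c := by
  classical
  obtain ⟨c1, hH1⟩ := exists_H1_comp HL1 hx1 hx10
  obtain ⟨c2, hH2⟩ := exists_H1_comp HL2 hx2 hx20
  refine ⟨max (max c1 c2) (Divisor.degree D01 + g1 + (Fintype.card ι : ℤ)).toNat, ?_⟩
  intro n hn w ⟨k, hk⟩
  have hn1 : c1 ≤ n := le_trans (le_trans (le_max_left _ _) (le_max_left _ _)) hn
  have hn2 : c2 ≤ n := le_trans (le_trans (le_max_right _ _) (le_max_left _ _)) hn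
  have hn3 : Divisor.degree D01 + g1 + (Fintype.card ι : ℤ) ≤ (n : ℤ) := by
    have h1 : (Divisor.degree D01 + g1 + (Fintype.card ι : ℤ)).toNat ≤ n :=
      le_trans (le_max_right _ _) hn
    have h2 := Int.self_le_toNat (Divisor.degree D01 + g1 + (Fintype.card ι : ℤ))
    omega
  rw [mem_NC0, fst_tb_pow_mul, snd_tb_pow_mul] at hk
  obtain ⟨hk1, hk2, hk3⟩ := hk
  -- decomposition on the components
  obtain ⟨γ1, hγ1, r1, hr1, hw1⟩ := H1_pow hH1 hm1 n hn1 w.1 ⟨k, hk1⟩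
  obtain ⟨γ2, hγ2, r2, hr2, hw2⟩ := H1_pow hH2 hm2 n hn2 w.2 ⟨k, hk2⟩
  -- `w` is compatible at the nodes lying in both charts
  have hw : ∀ i, tb x1 x2 m1 m2 ∈ N.compatAt i → sb x1 x2 m1 m2 ∈ N.compatAt i →
      w ∈ N.compatAt i := by
    intro i hi0 hi1
    have e : w = sb x1 x2 m1 m2 ^ k * (tb x1 x2 m1 m2 ^ k * w) := by
      rw [← mul_assoc, sb_pow_mul_tb_pow m1 m2 hx10 hx20, one_mul]
    rw [e]
    exact compatAt_mul N (compatAt_pow N hi1 k) (hk3 i hi0)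
  -- the values to be corrected
  have hy : ∀ i, ∃ y : κ,
      (tb x1 x2 m1 m2 ∈ N.compatAt i → ∃ a b : κ, γ1 - algebraMap κ F1 a ∈ vanishing (N.s1 i) ∧
        γ2 - algebraMap κ F2 b ∈ vanishing (N.s2 i) ∧ y = b - a) ∧
      (tb x1 x2 m1 m2 ∉ N.compatAt i → ∃ a b : κ, r1 - algebraMap κ F1 a ∈ vanishing (N.s1 i) ∧
        r2 - algebraMap κ F2 b ∈ vanishing (N.s2 i) ∧ y = a - b) := by
    intro i
    by_cases h : tb x1 x2 m1 m2 ∈ N.compatAt i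
    · have hγ1reg := mem_of_mem_chart (N.s1 i) (x1_mem_of_tbAt N m1 m2 hm1 h) hγ1
      have hγ2reg := mem_of_mem_chart (N.s2 i) (x2_mem_of_tbAt N m1 m2 hm2 h) hγ2
      refine ⟨valueAt HL2 (N.s2 i) ⟨γ2, hγ2reg⟩ - valueAt HL1 (N.s1 i) ⟨γ1, hγ1reg⟩,
        fun _ => ⟨_, _, ?_, ?_, rfl⟩, fun h' => absurd h h'⟩
      · rw [mem_vanishing, sub_eq_zero]
        exact sub_valueAt HL1 (N.s1 i) ⟨γ1, hγ1reg⟩
      · rw [mem_vanishing, sub_eq_zero]
        exact sub_valueAt HL2 (N.s2 i) ⟨γ2, hγ2reg⟩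
    · have h' := (hcov i).resolve_left h
      have hr1reg := mem_of_mem_chart (N.s1 i) (x1inv_mem_of_sbAt N m1 m2 hm1 h') hr1
      have hr2reg := mem_of_mem_chart (N.s2 i) (x2inv_mem_of_sbAt N m1 m2 hm2 h') hr2
      refine ⟨valueAt HL1 (N.s1 i) ⟨r1, hr1reg⟩ - valueAt HL2 (N.s2 i) ⟨r2, hr2reg⟩,
        fun h'' => absurd h'' h, fun _ => ⟨_, _, ?_, ?_, rfl⟩⟩
      · rw [mem_vanishing, sub_eq_zero]
        exact sub_valueAt HL1 (N.s1 i) ⟨r1, hr1reg⟩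
      · rw [mem_vanishing, sub_eq_zero]
        exact sub_valueAt HL2 (N.s2 i) ⟨r2, hr2reg⟩
  choose y hy using hy
  -- the correcting section
  set D1 : Divisor κ F1 := (n * m1) • poleDiv HL1 hx10 with hD1
  have hnc : ¬ ∃ c : κ, x1 = algebraMap κ F1 c := by
    rintro ⟨c, hc⟩
    exact hx1.transcendental (hc ▸ isAlgebraic_algebraMap c)
  have hdegpos := degree_poleDiv_pos HL1 hx10 hnc
  have hdegD1 : (n : ℤ) ≤ Divisor.degree D1 := by
    rw [hD1, map_nsmul, nsmul_eq_mul]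
    have hm : (1 : ℤ) ≤ m1 := by exact_mod_cast hm1
    have hn0 : (0 : ℤ) ≤ n := Int.natCast_nonneg _
    have hd1 : (1 : ℤ) ≤ Divisor.degree (poleDiv HL1 hx10) := by omega
    have h1 : (n : ℤ) ≤ (n : ℤ) * m1 := le_mul_of_one_le_right hn0 hm
    have h2 : (n : ℤ) * m1 ≤ (n : ℤ) * m1 * Divisor.degree (poleDiv HL1 hx10) :=
      le_mul_of_one_le_right (mul_nonneg hn0 (by omega)) hd1
    push_cast
    omega
  have ht : (0 : ℤ) ≤ (Fintype.card ι : ℤ) := Int.natCast_nonneg _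
  have e1 := delta_eq_zero_of_degree_ge HL1 g1 hR1 h01 D1 (by omega)
  have hdeg' : Divisor.degree (D1 - nodeDiv1 N) = Divisor.degree D1 - (Fintype.card ι : ℤ) := by
    rw [map_sub, degree_nodeDiv1 N HL1]
  have e3 := delta_eq_zero_of_degree_ge HL1 g1 hR1 h01 (D1 - nodeDiv1 N) (by rw [hdeg']; omega)
  unfold delta at e1 e3
  rw [hdeg'] at e3
  have hsurj := tev1_surjective_of_finrank N HL1 D1 (tw1 N x1 x2 m1 m2 n)
    (tw1_ne_zero N hx10 m1 m2 n) (tw1_ord N HL1 HL2 hx10 hx20 m1 m2 hm1 hcov n) (by omega)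
  obtain ⟨lam, hlam⟩ := hsurj y
  have hlamL : (lam : F1) ∈ riemannRochSpace ((n * m1) • poleDiv HL1 hx10) := lam.2
  obtain ⟨hlam0, hlam1⟩ := Fermat.Agent.FF.SpecialRR6.isIntegral_of_mem_L HL1 hx1 hx10 hlamL
  have hvl : ∀ i, tw1 N x1 x2 m1 m2 n i * (lam : F1) - algebraMap κ F1 (y i) ∈
      vanishing (N.s1 i) := by
    intro i
    have h1 := tevalL_spec HL1 D1 (N.s1 i) (tw1 N x1 x2 m1 m2 n i) (tw1_ne_zero N hx10 m1 m2 n i)
      (tw1_ord N HL1 HL2 hx10 hx20 m1 m2 hm1 hcov n i) lam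
    have h2 : tevalL HL1 D1 (N.s1 i) (tw1 N x1 x2 m1 m2 n i) (tw1_ne_zero N hx10 m1 m2 n i)
        (tw1_ord N HL1 HL2 hx10 hx20 m1 m2 hm1 hcov n i) lam = y i := by
      rw [← hlam]; rfl
    rwa [h2] at h1
  have hpow1 : (x1 ^ m1) ^ n * x1⁻¹ ^ (n * m1) = 1 := by
    rw [← pow_mul, mul_comm m1 n, ← mul_pow, mul_inv_cancel₀ hx10, one_pow]
  -- the corrected decomposition
  have hγ0 : ∀ i, tb x1 x2 m1 m2 ∈ N.compatAt i →
      ((γ1 + (lam : F1), γ2) : F1 × F2) ∈ N.compatAt i := by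
    intro i h
    obtain ⟨a, b, ha, hb, hyab⟩ := (hy i).1 h
    have hv := hvl i
    rw [tw1_pos N m1 m2 h, one_mul, hyab] at hv
    refine ⟨b, ?_, hb⟩
    have e : γ1 + (lam : F1) - algebraMap κ F1 b =
        (γ1 - algebraMap κ F1 a) + ((lam : F1) - algebraMap κ F1 (b - a)) := by
      rw [map_sub]; ring
    show γ1 + (lam : F1) - algebraMap κ F1 b ∈ vanishing (N.s1 i)
    rw [e]
    exact Submodule.add_mem _ ha hv
  have htr : tb x1 x2 m1 m2 ^ n * ((r1 - x1⁻¹ ^ (n * m1) * (lam : F1), r2) : F1 × F2) =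
      w - (γ1 + (lam : F1), γ2) := by
    apply Prod.ext
    · rw [fst_tb_pow_mul, Prod.fst_sub]
      show (x1 ^ m1) ^ n * (r1 - x1⁻¹ ^ (n * m1) * (lam : F1)) = w.1 - (γ1 + (lam : F1))
      rw [mul_sub, ← mul_assoc, hpow1, one_mul, hw1]
      ring
    · rw [snd_tb_pow_mul, Prod.snd_sub]
      show (x2 ^ m2) ^ n * r2 = w.2 - γ2
      rw [hw2]
      ring
  refine ⟨(γ1 + (lam : F1), γ2), ?_, (r1 - x1⁻¹ ^ (n * m1) * (lam : F1), r2), ?_, ?_⟩
  · rw [mem_NC0]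
    exact ⟨(chart κ x1).add_mem hγ1 (mem_chart_iff.mpr hlam0), hγ2, hγ0⟩
  · rw [mem_NC1]
    refine ⟨(chart κ x1⁻¹).sub_mem hr1 (mem_chart_iff.mpr hlam1), hr2, fun i hi => ?_⟩
    by_cases h : tb x1 x2 m1 m2 ∈ N.compatAt i
    · have e : ((r1 - x1⁻¹ ^ (n * m1) * (lam : F1), r2) : F1 × F2) =
          sb x1 x2 m1 m2 ^ n * (tb x1 x2 m1 m2 ^ n *
            ((r1 - x1⁻¹ ^ (n * m1) * (lam : F1), r2) : F1 × F2)) := by
        rw [← mul_assoc, sb_pow_mul_tb_pow m1 m2 hx10 hx20, one_mul]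
      rw [e, htr]
      exact compatAt_mul N (compatAt_pow N hi n)
        (Submodule.sub_mem _ (hw i h hi) (hγ0 i h))
    · obtain ⟨a, b, ha, hb, hyab⟩ := (hy i).2 h
      have hv := hvl i
      rw [tw1_neg N m1 m2 h, hyab] at hv
      refine ⟨b, ?_, hb⟩
      have e : r1 - x1⁻¹ ^ (n * m1) * (lam : F1) - algebraMap κ F1 b =
          (r1 - algebraMap κ F1 a) - (x1⁻¹ ^ (n * m1) * (lam : F1) - algebraMap κ F1 (a - b)) := by
        rw [map_sub]; ring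
      show r1 - x1⁻¹ ^ (n * m1) * (lam : F1) - algebraMap κ F1 b ∈ vanishing (N.s1 i)
      rw [e]
      exact Submodule.sub_mem _ ha hv
  · apply Prod.ext
    · rw [Prod.fst_add, fst_tb_pow_mul]
      show w.1 = γ1 + (lam : F1) + (x1 ^ m1) ^ n * (r1 - x1⁻¹ ^ (n * m1) * (lam : F1))
      rw [mul_sub, ← mul_assoc, hpow1, one_mul, hw1]
      ring
    · rw [Prod.snd_add, snd_tb_pow_mul]
      show w.2 = γ2 + (x2 ^ m2) ^ n * r2
      rw [hw2]

include HL1 HL2 hx1 hx2 hx10 hx20 hR1 h01 in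
/-- **the pencil-trick property (PT) on the nodal curve**, symmetric form. -/
theorem exists_PT (hm1 : 0 < m1) (hm2 : 0 < m2)
    (hcov : ∀ i, tb x1 x2 m1 m2 ∈ N.compatAt i ∨ sb x1 x2 m1 m2 ∈ N.compatAt i) :
    ∃ n₀ : ℕ, PT (NC0 N x1 x2 m1 m2) (NC1 N x1 x2 m1 m2) (tb x1 x2 m1 m2)
      (sb x1 x2 m1 m2) n₀ := by
  obtain ⟨c, hc⟩ := exists_H1 N HL1 HL2 hx1 hx2 hx10 hx20 m1 m2 g1 hR1 h01 hm1 hm2 hcov
  exact ⟨c + 1, pt_of_h1 (tb_mul_sb m1 m2 hx10 hx20) (tb_mem_NC0 N x1 x2 m1 m2)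
    (sb_mem_NC1 N x1 x2 m1 m2) hc⟩

end Fermat.Agent.T33.NodalLiftS6
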