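/-
Programme T (S33), nodal layer, chapter (c) / (N1′) (helper6), SYMMETRIC form, part D:
**`g ≤ p_a(X̃)` from the two-chart model, nodes in either chart; the contract `NodalChartsS`.**

Every node lies in chart 0 (`t̄` compatible there) or in chart 1 (`s̄ = t̄⁻¹` compatible there); NO
other hypothesis on the position of the nodes (in particular `t̄` may vanish or have a pole at a
node).  Since `n (t̄)_∞` may pass through nodes, the bound is proved directly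
(`dim Lb(n) ≤ l(n (t)_∞) = n deg (t)_∞ + 1 - g` by lifting, `dim Lb(n) ≥ n deg (t̄)_∞ + 1 - p_a` by
`finrank_Lb_ge` and Riemann on the components), bypassing `NodalData.LiftBound`.

* `finrank_Lb_le`          : `dim Lb(n) ≤ l(n (t)_∞)` for all large `n`;
* `le_ga`                  : `g ≤ g₁ + g₂ + t - 1`;
* `NodalChartsS`           : the contract of the two-chart nodal model, symmetric form;
* `NodalChartsG.toS`       : the contracts of `NodalLiftG6B` (hence of `NodalLift6D`) are special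
  cases;
* `NodalChartsS.le_ga`, `contract_c_of_chartsS` : the final statements of chapter (c).
-/
import Mathlib
import Fermat.Agent.T33.NodalLiftS6C
import Fermat.Agent.T33.NodalLiftG6B

set_option autoImplicit false
set_option linter.unusedSectionVars false
set_option linter.style.haveILetI false

open AlgebraicCurve IntermediateField

noncomputable section

namespace Fermat.Agent.T33.NodalLiftS6

open Fermat.Agent.X0 Fermat.Agent.X0.FF Fermat.Agent.RR.LSpace Fermat.Agent.RR.Riemann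
  Fermat.Agent.FF.RedLat2 Fermat.Agent.FF.SpecRR1 Fermat.Agent.FF.GoodRed8
  Fermat.Agent.RED.PUR.ChartGeneric22 Fermat.Agent.T33.NodalCurve6 Fermat.Agent.T33.NodalRR6
  Fermat.Agent.T33.NodalLift6 Fermat.Agent.T33.NodalLiftG6

/-! ### the bound -/

section Main

variable {κ F1 F2 : Type*} [Field κ] [Field F1] [Field F2] [Algebra κ F1] [Algebra κ F2]
variable {ι : Type*} [Fintype ι] (N : NodalData κ F1 F2 ι)
variable [IsAlgClosed κ] (HL1 : LHyp κ F1) (HL2 : LHyp κ F2)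
variable {x1 : F1} {x2 : F2} (hx1 : IsGen κ x1) (hx2 : IsGen κ x2)
  [Algebra.IsSeparable κ⟮x1⟯ F1] [Algebra.IsSeparable κ⟮x2⟯ F2]
  (hx10 : x1 ≠ 0) (hx20 : x2 ≠ 0) (m1 m2 : ℕ)
variable (g1 : ℤ) (hR1 : ∀ D : Divisor κ F1, Divisor.degree D + 1 - g1 ≤ ell D)
variable {D01 : Divisor κ F1} (h01 : delta g1 D01 = 0)
variable {K : Type*} [Field K] {A : ValuationSubring K} (res : ↥A →+* κ)
  (hres : Function.Surjective res)
variable {F : Type*} [Field F] [Algebra K F]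
variable {O : Type*} [CommRing O] (ιO : O →+* F) (hι : Function.Injective ιO)
  (ρ : O →+* F1 × F2)
variable {A0 B0 B1 : Subring O} {t s : O} (hts : t * s = 1) (ht : t ∈ B0) (hs : s ∈ B1)
  (hA0 : A0 ≤ B0) (hA1 : A0 ≤ B1)
  (hconst : ∀ a : ↥A, ∃ c ∈ A0, ιO c = algebraMap K F (a : K) ∧
    ρ c = algebraMap κ (F1 × F2) (res a))
variable (HL : LHyp K F) (hιt : ιO t ≠ 0) (hρt : ρ t = tb x1 x2 m1 m2)

include HL1 HL2 hx1 hx2 hx10 hx20 hR1 h01 hres hι hts ht hs hA0 hA1 hconst hρt in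
/-- **`dim Lb(n) ≤ l(n (t)_∞)` for all large `n`**: every section of `O(n (t̄)_∞)` on the nodal
special fibre lifts. -/
theorem finrank_Lb_le (hm1 : 0 < m1) (hm2 : 0 < m2)
    (hcov : ∀ i, tb x1 x2 m1 m2 ∈ N.compatAt i ∨ sb x1 x2 m1 m2 ∈ N.compatAt i)
    (hS0 : ∀ y ∈ NC0 N x1 x2 m1 m2, ∃ b ∈ B0, ρ b = y)
    (hS1 : ∀ y ∈ NC1 N x1 x2 m1 m2, ∃ b ∈ B1, ρ b = y)
    (hE0 : ∀ b ∈ B0, ∃ m, s ^ m * b ∈ B1) (hE1 : ∀ b ∈ B1, ∃ m, t ^ m * b ∈ B0)
    (hLam : ∀ n, ∀ b ∈ Lam B0 B1 s n, ιO b ∈ riemannRochSpace (n • poleDiv HL hιt)) :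
    ∃ n₁ : ℕ, ∀ n : ℕ, n₁ ≤ n →
      Module.finrank κ
          (Lb (NC0 N x1 x2 m1 m2) (NC1 N x1 x2 m1 m2) (sb x1 x2 m1 m2) n) ≤
        Module.finrank K (riemannRochSpace (n • poleDiv HL hιt)) := by
  have hρs := ρ_s_eq hx10 hx20 m1 m2 ρ hts hρt
  have hκ : ∀ a : κ, ∃ c ∈ A0, ρ c = algebraMap κ (F1 × F2) a := by
    intro a
    obtain ⟨a', rfl⟩ := hres a
    obtain ⟨c, hc, -, hc2⟩ := hconst a'
    exact ⟨c, hc, hc2⟩
  obtain ⟨n₀, hPT⟩ := exists_PT N HL1 HL2 hx1 hx2 hx10 hx20 m1 m2 g1 hR1 h01 hm1 hm2 hcov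
  have hfin := Lb_fg N HL1 HL2 hx1 hx2 hx10 hx20 m1 m2 n₀
  rw [← hρt, ← hρs] at hPT
  rw [← hρs] at hfin
  obtain ⟨n₁, hn₁⟩ := lifting (κ := κ) (Bb0 := NC0 N x1 x2 m1 m2) (Bb1 := NC1 N x1 x2 m1 m2)
    hts ht hs hA0 hA1 hκ hS0 hS1 hE0 hE1 hPT hfin
  refine ⟨n₁, fun n hn => ?_⟩
  haveI := finiteDimensional_Lb N HL1 HL2 hx1 hx2 hx10 hx20 m1 m2 n
  haveI := Fermat.Agent.RR.LSpace.finiteDimensional_L HL (n • poleDiv HL hιt)
  refine finrank_le_of_lifts res ιO hι ρ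
    (fun a => by obtain ⟨c, -, hc⟩ := hconst a; exact ⟨c, hc⟩) _ _ fun f hf => ?_
  rw [← hρs] at hf
  obtain ⟨b, hb, hbf⟩ := hn₁ n hn f hf
  exact ⟨b, hLam n b hb, hbf⟩

variable (g2 : ℤ) (hR2 : ∀ D : Divisor κ F2, Divisor.degree D + 1 - g2 ≤ ell D)

include HL1 HL2 hx1 hx2 hx10 hx20 hR1 hR2 h01 hres hι hts ht hs hA0 hA1 hconst hρt in
/-- **`g ≤ p_a(X̃) = g₁ + g₂ + t - 1`**, `g` the Riemann constant of the generic fibre: symmetric
form of the lifting bound (N1′). -/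
theorem le_ga (hm1 : 0 < m1) (hm2 : 0 < m2)
    (hcov : ∀ i, tb x1 x2 m1 m2 ∈ N.compatAt i ∨ sb x1 x2 m1 m2 ∈ N.compatAt i)
    (hS0 : ∀ y ∈ NC0 N x1 x2 m1 m2, ∃ b ∈ B0, ρ b = y)
    (hS1 : ∀ y ∈ NC1 N x1 x2 m1 m2, ∃ b ∈ B1, ρ b = y)
    (hE0 : ∀ b ∈ B0, ∃ m, s ^ m * b ∈ B1) (hE1 : ∀ b ∈ B1, ∃ m, t ^ m * b ∈ B0)
    (hLam : ∀ n, ∀ b ∈ Lam B0 B1 s n, ιO b ∈ riemannRochSpace (n • poleDiv HL hιt))
    (hdeg : NDiv.degree (Dt HL1 HL2 hx10 hx20 m1 m2) = Divisor.degree (poleDiv HL hιt))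
    (g : ℤ) (hRiem : ∃ c : ℤ, ∀ D : Divisor K F, c ≤ Divisor.degree D →
      ell D = Divisor.degree D + 1 - g) :
    g ≤ ga ι g1 g2 := by
  obtain ⟨n₁, hn₁⟩ := finrank_Lb_le N HL1 HL2 hx1 hx2 hx10 hx20 m1 m2 g1 hR1 h01 res hres ιO hι
    ρ hts ht hs hA0 hA1 hconst HL hιt hρt hm1 hm2 hcov hS0 hS1 hE0 hE1 hLam
  obtain ⟨cR, hcR⟩ := hRiem
  have hp1 := degree_poleDiv_x1_pos HL1 hx1 hx10
  have hp2 := degree_poleDiv_x2_pos HL2 hx2 hx20
  have hM1 : (1 : ℤ) ≤ m1 := by exact_mod_cast hm1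
  have hM2 : (1 : ℤ) ≤ m2 := by exact_mod_cast hm2
  set n : ℕ := max n₁ cR.toNat with hn
  have hnn₁ : n₁ ≤ n := le_max_left _ _
  have hncR : cR ≤ (n : ℤ) := by
    have h2 : cR.toNat ≤ n := le_max_right _ _
    have h3 := Int.self_le_toNat cR
    omega
  have hn0 : (0 : ℤ) ≤ n := Int.natCast_nonneg _
  -- the generic fibre
  have hdegT : Divisor.degree (poleDiv HL hιt) =
      (m1 : ℤ) * Divisor.degree (poleDiv HL1 hx10) +
        (m2 : ℤ) * Divisor.degree (poleDiv HL2 hx20) := by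
    rw [← hdeg]
    unfold NDiv.degree
    show Divisor.degree (m1 • poleDiv HL1 hx10) + Divisor.degree (m2 • poleDiv HL2 hx20) = _
    rw [map_nsmul, map_nsmul, nsmul_eq_mul, nsmul_eq_mul]
  have hpos : (1 : ℤ) ≤ Divisor.degree (poleDiv HL hιt) := by
    rw [hdegT]
    have e1 : (1 : ℤ) ≤ (m1 : ℤ) * Divisor.degree (poleDiv HL1 hx10) := by nlinarith
    have e2 : (0 : ℤ) ≤ (m2 : ℤ) * Divisor.degree (poleDiv HL2 hx20) := by nlinarith
    omega
  have hdegt : Divisor.degree (n • poleDiv HL hιt) =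
      (n : ℤ) * Divisor.degree (poleDiv HL hιt) := by
    rw [map_nsmul, nsmul_eq_mul]
  have h2 := hcR (n • poleDiv HL hιt) (by
    rw [hdegt]
    have : (n : ℤ) ≤ (n : ℤ) * Divisor.degree (poleDiv HL hιt) := le_mul_of_one_le_right hn0 hpos
    omega)
  rw [hdegt] at h2
  unfold ell at h2
  -- the special fibre
  have h1 := hn₁ n hnn₁
  have h3 := finrank_Lb_ge N HL1 HL2 hx1 hx2 hx10 hx20 m1 m2 hm1 hm2 hcov n
  have h4 := hR1 ((n * m1) • poleDiv HL1 hx10)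
  have h5 := hR2 ((n * m2) • poleDiv HL2 hx20)
  rw [map_nsmul, nsmul_eq_mul] at h4 h5
  push_cast at h4 h5
  have h6 : (Module.finrank κ
      (Lb (NC0 N x1 x2 m1 m2) (NC1 N x1 x2 m1 m2) (sb x1 x2 m1 m2) n) : ℤ) ≤
      (Module.finrank K (riemannRochSpace (n • poleDiv HL hιt)) : ℤ) := by exact_mod_cast h1
  have h7 : (n : ℤ) * Divisor.degree (poleDiv HL hιt) =
      (n : ℤ) * (m1 : ℤ) * Divisor.degree (poleDiv HL1 hx10) +
        (n : ℤ) * (m2 : ℤ) * Divisor.degree (poleDiv HL2 hx20) := by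
    rw [hdegT]; ring
  unfold ga
  omega

end Main

/-! ### the contract, symmetric form -/

section Contract

variable {κ F1 F2 : Type*} [Field κ] [Field F1] [Field F2] [Algebra κ F1] [Algebra κ F2]
variable {ι : Type*} (N : NodalData κ F1 F2 ι)
variable (HL1 : LHyp κ F1) (HL2 : LHyp κ F2)
variable {x1 : F1} {x2 : F2} (hx10 : x1 ≠ 0) (hx20 : x2 ≠ 0) (m1 m2 : ℕ)
variable {K : Type*} [Field K] {A : ValuationSubring K} (res : ↥A →+* κ)
variable {F : Type*} [Field F] [Algebra K F] (HL : LHyp K F)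
variable {O : Type*} [CommRing O] (ιO : O →+* F) (ρ : O →+* F1 × F2)
variable (A0 B0 B1 : Subring O) (t s : O)

/-- **the contract of the two-chart nodal model**, symmetric form: every node lies in chart 0
(`t̄` compatible there) or in chart 1 (`s̄` compatible there); the chart rings `NC0`, `NC1` impose
the gluing condition only at their own nodes. -/
structure NodalChartsS : Prop where
  ι_inj : Function.Injective ιO
  res_surj : Function.Surjective res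
  ts : t * s = 1
  t_mem : t ∈ B0
  s_mem : s ∈ B1
  A0_le_B0 : A0 ≤ B0
  A0_le_B1 : A0 ≤ B1
  const : ∀ a : ↥A, ∃ c ∈ A0, ιO c = algebraMap K F (a : K) ∧
    ρ c = algebraMap κ (F1 × F2) (res a)
  ιt_ne : ιO t ≠ 0
  ρt : ρ t = tb x1 x2 m1 m2
  m1_pos : 0 < m1
  m2_pos : 0 < m2
  /-- every node lies in one of the two charts -/
  cover : ∀ i, tb x1 x2 m1 m2 ∈ N.compatAt i ∨ sb x1 x2 m1 m2 ∈ N.compatAt i
  /-- ordinary nodes, chart 0 (only the nodes where `t̄` is compatible) -/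
  S0 : ∀ y ∈ NC0 N x1 x2 m1 m2, ∃ b ∈ B0, ρ b = y
  /-- ordinary nodes, chart 1 (only the nodes where `s̄` is compatible) -/
  S1 : ∀ y ∈ NC1 N x1 x2 m1 m2, ∃ b ∈ B1, ρ b = y
  E0 : ∀ b ∈ B0, ∃ m, s ^ m * b ∈ B1
  E1 : ∀ b ∈ B1, ∃ m, t ^ m * b ∈ B0
  lam : ∀ n, ∀ b ∈ Lam B0 B1 s n, ιO b ∈ riemannRochSpace (n • poleDiv HL ιt_ne)
  deg : NDiv.degree (Dt HL1 HL2 hx10 hx20 m1 m2) = Divisor.degree (poleDiv HL ιt_ne)

variable {N HL1 HL2 hx10 hx20 m1 m2 res HL ιO ρ A0 B0 B1 t s}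

/-- the contract of `NodalLiftG6B` (all the nodes in chart 0) is a special case. -/
theorem _root_.Fermat.Agent.T33.NodalLiftG6.NodalChartsG.toS
    (C : NodalChartsG N HL1 HL2 hx10 hx20 m1 m2 res HL ιO ρ A0 B0 B1 t s) :
    NodalChartsS N HL1 HL2 hx10 hx20 m1 m2 res HL ιO ρ A0 B0 B1 t s where
  ι_inj := C.ι_inj
  res_surj := C.res_surj
  ts := C.ts
  t_mem := C.t_mem
  s_mem := C.s_mem
  A0_le_B0 := C.A0_le_B0
  A0_le_B1 := C.A0_le_B1
  const := C.const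
  ιt_ne := C.ιt_ne
  ρt := C.ρt
  m1_pos := C.m1_pos
  m2_pos := C.m2_pos
  cover := fun i => Or.inl ((mem_compat N).1 C.tb_compat i)
  S0 := by
    intro y hy
    rw [NC0_eq_of_tb N C.tb_compat] at hy
    exact C.S0 y hy
  S1 := C.S1
  E0 := C.E0
  E1 := C.E1
  lam := C.lam
  deg := C.deg

variable [Fintype ι] [IsAlgClosed κ] (hx1 : IsGen κ x1) (hx2 : IsGen κ x2)
  [Algebra.IsSeparable κ⟮x1⟯ F1] [Algebra.IsSeparable κ⟮x2⟯ F2]
variable (g1 g2 : ℤ)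
variable (hR1 : ∀ D : Divisor κ F1, Divisor.degree D + 1 - g1 ≤ ell D)
variable (hR2 : ∀ D : Divisor κ F2, Divisor.degree D + 1 - g2 ≤ ell D)
variable {D01 : Divisor κ F1} (h01 : delta g1 D01 = 0)
variable {D02 : Divisor κ F2} (h02 : delta g2 D02 = 0)

include hx1 hx2 hR1 hR2 h01 in
/-- **(N1′), symmetric form**: `g ≤ p_a(X̃)` from the contract. -/
theorem NodalChartsS.le_ga
    (C : NodalChartsS N HL1 HL2 hx10 hx20 m1 m2 res HL ιO ρ A0 B0 B1 t s)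
    (g : ℤ) (hRiem : ∃ c : ℤ, ∀ D : Divisor K F, c ≤ Divisor.degree D →
      ell D = Divisor.degree D + 1 - g) : g ≤ ga ι g1 g2 :=
  Fermat.Agent.T33.NodalLiftS6.le_ga N HL1 HL2 hx1 hx2 hx10 hx20 m1 m2 g1 hR1 h01 res
    C.res_surj ιO C.ι_inj ρ C.ts C.t_mem C.s_mem C.A0_le_B0 C.A0_le_B1 C.const HL C.ιt_ne C.ρt
    g2 hR2 C.m1_pos C.m2_pos C.cover C.S0 C.S1 C.E0 C.E1 C.lam C.deg g hRiem

include hx1 hx2 hR1 hR2 h01 h02 in
/-- **chapter (c), final form (symmetric contract)**: the nodal model contract + one instance of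
semicontinuity in each large bidegree give `p_a(X̃) = g` and the three contracts (C1), (C2), (C3)
with the generic genus `g`. -/
theorem contract_c_of_chartsS [Nonempty ι]
    (C : NodalChartsS N HL1 HL2 hx10 hx20 m1 m2 res HL ιO ρ A0 B0 B1 t s)
    (g : ℕ) (hRiem : ∃ c : ℤ, ∀ D : Divisor K F, c ≤ Divisor.degree D →
      ell D = Divisor.degree D + 1 - (g : ℤ))
    (hsemi : SemicontBound N (g : ℤ)) :
    ga ι g1 g2 = (g : ℤ) ∧
      N.RiemannNod (g : ℤ) ∧ N.RiemannEqLarge (g : ℤ) ∧ N.NonSpecialExists g := by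
  have hle := C.le_ga hx1 hx2 g1 g2 hR1 hR2 h01 (g : ℤ) hRiem
  have hga : ga ι g1 g2 = (g : ℤ) :=
    le_antisymm (ga_le_of_semicont N HL1 HL2 g1 g2 hR1 hR2 h01 h02 hsemi) hle
  exact ⟨hga, contract_c_of_ga_eq N HL1 HL2 g1 g2 hR1 hR2 h01 h02 g hga⟩

end Contract

end Fermat.Agent.T33.NodalLiftS6
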