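/-
Programme T (S33), chapter (e) "N34 over ℚ̄", block NodalCharts-instance (helper6), part A:
**the abstract half of the fields `S0`, `S1` (ordinary nodes) of `NodalLiftS6.NodalChartsS`.**

One chart at a time.  `B` is the chart ring of the model (a commutative ring with
`ρ : B →+* F1 × F2`, the pair of reductions to the two components), `J i` says that the node `i`
lies in the chart.  Three layers:

* `exists_lift_of_crt` : from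
  (surj) each component of the chart is hit: `C_k ⊆ (ρ B).k`,
  (glue) `ρ b` is compatible at the nodes of the chart,
  (crt)  an element of `B` vanishing at the nodes of the chart (on both branches) lies in
         `𝔭₁ + 𝔭₂`, `𝔭_k = ker (ρ ·).k`,
  every pair `(f₁, f₂) ∈ C₁ × C₂` compatible at the nodes of the chart is `ρ b`  (CRT for the two
  ideals `𝔭₁, 𝔭₂`);
* `glue_of_val`, `crt_of_val` : (glue) and (crt) from (VAL-node) — characters `χ i : B →+* κ` with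
  `ρ b ≡ χ i b` at both branches of the node `i` — and
  (crt′) `(∀ i ∈ J, χ i b = 0) → b ∈ 𝔭₁ + 𝔭₂`;
* `mem_sup_of_local` : (crt′) from the LOCAL structure at the nodes: every maximal ideal containing
  `𝔭₁ + 𝔭₂` is `ker (χ i)` for a node `i` of the chart, and there `𝔪 B_𝔪 = (𝔭₁ + 𝔭₂) B_𝔪` in chart
  form (`NodeCoords`: `𝔪 B_𝔪 = (π, x, y)`, `x ∈ 𝔭₂`, `y ∈ 𝔭₁` — the nodes are ORDINARY);
* `S0_of_chart`, `S1_of_chart` : the fields `S0`, `S1` of `NodalChartsS` for `B0 B1 : Subring O`.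
-/
import Mathlib
import Fermat.Agent.T33.NodalLiftS6D

set_option autoImplicit false
set_option linter.unusedSectionVars false
set_option linter.style.haveILetI false

open AlgebraicCurve

noncomputable section

namespace Fermat.Agent.T33.NodalInst6

open Fermat.Agent.X0 Fermat.Agent.X0.FF Fermat.Agent.RR.LSpace
  Fermat.Agent.RED.PUR.ChartGeneric22 Fermat.Agent.T33.NodalCurve6
  Fermat.Agent.T33.NodalLift6 Fermat.Agent.T33.NodalLiftG6 Fermat.Agent.T33.NodalLiftS6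

variable {κ F1 F2 : Type*} [Field κ] [Field F1] [Field F2] [Algebra κ F1] [Algebra κ F2]
variable {ι : Type*} (N : NodalData κ F1 F2 ι)
variable {B : Type*} [CommRing B] (ρ : B →+* F1 × F2) (J : ι → Prop)

/-- the vertical prime of the component `C₁` in the chart. -/
def vp1 : Ideal B := RingHom.ker ((RingHom.fst F1 F2).comp ρ)

/-- the vertical prime of the component `C₂` in the chart. -/
def vp2 : Ideal B := RingHom.ker ((RingHom.snd F1 F2).comp ρ)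

theorem mem_vp1 {b : B} : b ∈ vp1 ρ ↔ (ρ b).1 = 0 := by
  unfold vp1
  rw [RingHom.mem_ker]
  rfl

theorem mem_vp2 {b : B} : b ∈ vp2 ρ ↔ (ρ b).2 = 0 := by
  unfold vp2
  rw [RingHom.mem_ker]
  rfl

/-! ### layer 1: CRT for the two vertical primes -/

/-- **CRT on a nodal chart.** -/
theorem exists_lift_of_crt (HL1 : LHyp κ F1) (HL2 : LHyp κ F2) (C1 : Set F1) (C2 : Set F2)
    (surj1 : ∀ f1 ∈ C1, ∃ b : B, (ρ b).1 = f1) (surj2 : ∀ f2 ∈ C2, ∃ b : B, (ρ b).2 = f2)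
    (glue : ∀ (b : B) i, J i → ρ b ∈ N.compatAt i)
    (crt : ∀ b : B, (∀ i, J i → (ρ b).1 ∈ vanishing (N.s1 i) ∧ (ρ b).2 ∈ vanishing (N.s2 i)) →
      b ∈ vp1 ρ ⊔ vp2 ρ)
    (f : F1 × F2) (hf1 : f.1 ∈ C1) (hf2 : f.2 ∈ C2) (hfc : ∀ i, J i → f ∈ N.compatAt i) :
    ∃ b : B, ρ b = f := by
  obtain ⟨b1, hb1⟩ := surj1 f.1 hf1
  obtain ⟨b2, hb2⟩ := surj2 f.2 hf2
  have hvan : ∀ i, J i → (ρ (b1 - b2)).1 ∈ vanishing (N.s1 i) ∧
      (ρ (b1 - b2)).2 ∈ vanishing (N.s2 i) := by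
    intro i hi
    obtain ⟨c, hc1, hc2⟩ := hfc i hi
    obtain ⟨c', hc1', hc2'⟩ := glue b1 i hi
    obtain ⟨c'', hc1'', hc2''⟩ := glue b2 i hi
    rw [hb1] at hc1'
    rw [hb2] at hc2''
    have e' : c' = c := eq_of_sub_mem_vanishing HL1 hc1' hc1
    have e'' : c'' = c := eq_of_sub_mem_vanishing HL2 hc2'' hc2
    rw [e'] at hc2'
    rw [e''] at hc1''
    rw [map_sub, Prod.fst_sub, Prod.snd_sub, hb1, hb2]
    constructor
    · have e : f.1 - (ρ b2).1 =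
          (f.1 - algebraMap κ F1 c) - ((ρ b2).1 - algebraMap κ F1 c) := by ring
      rw [e]
      exact Submodule.sub_mem _ hc1 hc1''
    · have e : (ρ b1).2 - f.2 =
          ((ρ b1).2 - algebraMap κ F2 c) - (f.2 - algebraMap κ F2 c) := by ring
      rw [e]
      exact Submodule.sub_mem _ hc2' hc2
  obtain ⟨u1, hu1, u2, hu2, hu⟩ := Submodule.mem_sup.1 (crt (b1 - b2) hvan)
  rw [mem_vp1] at hu1
  rw [mem_vp2] at hu2
  refine ⟨b1 - u1, ?_⟩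
  apply Prod.ext
  · rw [map_sub, Prod.fst_sub, hu1, sub_zero, hb1]
  · have e : b1 - u1 = b2 + u2 := by
      have : b1 = b2 + (u1 + u2) := by rw [hu]; ring
      rw [this]; ring
    rw [e, map_add, Prod.snd_add, hu2, add_zero, hb2]

/-! ### layer 2: (glue) and (crt) from the values at the nodes -/

section Val

variable (χ : ι → B →+* κ)
  (val : ∀ i, J i → ∀ b : B, (ρ b).1 - algebraMap κ F1 (χ i b) ∈ vanishing (N.s1 i) ∧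
    (ρ b).2 - algebraMap κ F2 (χ i b) ∈ vanishing (N.s2 i))

include val in
theorem glue_of_val (b : B) (i : ι) (hi : J i) : ρ b ∈ N.compatAt i :=
  ⟨χ i b, (val i hi b).1, (val i hi b).2⟩

include val in
theorem crt_of_val (HL1 : LHyp κ F1)
    (crt' : ∀ b : B, (∀ i, J i → χ i b = 0) → b ∈ vp1 ρ ⊔ vp2 ρ) (b : B)
    (hb : ∀ i, J i → (ρ b).1 ∈ vanishing (N.s1 i) ∧ (ρ b).2 ∈ vanishing (N.s2 i)) :
    b ∈ vp1 ρ ⊔ vp2 ρ := by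
  apply crt' b
  intro i hi
  have h1 := (val i hi b).1
  have h2 : (ρ b).1 - algebraMap κ F1 0 ∈ vanishing (N.s1 i) := by
    rw [map_zero, sub_zero]; exact (hb i hi).1
  exact eq_of_sub_mem_vanishing HL1 h1 h2

end Val

/-! ### layer 3: (crt′) from the local structure at the nodes -/

/-- **ordinary nodes ⟹ (crt′).**  If every maximal ideal containing `I` is the kernel of one of the
characters `χ i`, `i ∈ J`, and `𝔪 B_𝔪 = I B_𝔪` there (chart form), then an element killed by all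
the `χ i`, `i ∈ J`, lies in `I`. -/
theorem mem_of_local (I : Ideal B) (χ : ι → B →+* κ)
    (hmax : ∀ 𝔪 : Ideal B, 𝔪.IsMaximal → I ≤ 𝔪 → ∃ i, J i ∧ ∀ b, χ i b = 0 → b ∈ 𝔪)
    (hloc : ∀ 𝔪 : Ideal B, 𝔪.IsMaximal → I ≤ 𝔪 → ∀ b ∈ 𝔪, ∃ d : B, d ∉ 𝔪 ∧ d * b ∈ I)
    (b : B) (hb : ∀ i, J i → χ i b = 0) : b ∈ I := by
  -- the conductor of `b` into `I`
  let Jb : Ideal B :=
    { carrier := {d | d * b ∈ I}
      zero_mem' := by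
        show (0 : B) * b ∈ I
        rw [zero_mul]; exact I.zero_mem
      add_mem' := by
        intro d d' hd hd'
        show (d + d') * b ∈ I
        rw [add_mul]; exact I.add_mem hd hd'
      smul_mem' := by
        intro c d hd
        show (c • d) * b ∈ I
        rw [smul_eq_mul, mul_assoc]; exact I.mul_mem_left c hd }
  have hIJ : I ≤ Jb := fun d hd => I.mul_mem_right b hd
  by_contra hbI
  have hne : Jb ≠ ⊤ := by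
    intro htop
    have h1 : (1 : B) ∈ Jb := by rw [htop]; exact Submodule.mem_top
    have h2 : (1 : B) * b ∈ I := h1
    rw [one_mul] at h2
    exact hbI h2
  obtain ⟨𝔪, h𝔪, hJ𝔪⟩ := Ideal.exists_le_maximal Jb hne
  have hI𝔪 : I ≤ 𝔪 := le_trans hIJ hJ𝔪
  obtain ⟨i, hi, hker⟩ := hmax 𝔪 h𝔪 hI𝔪
  have hb𝔪 : b ∈ 𝔪 := hker b (hb i hi)
  obtain ⟨d, hd, hdb⟩ := hloc 𝔪 h𝔪 hI𝔪 b hb𝔪
  exact hd (hJ𝔪 hdb)

/-- (crt′) for `I = 𝔭₁ + 𝔭₂`. -/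
theorem mem_sup_of_local (χ : ι → B →+* κ)
    (hmax : ∀ 𝔪 : Ideal B, 𝔪.IsMaximal → vp1 ρ ⊔ vp2 ρ ≤ 𝔪 →
      ∃ i, J i ∧ ∀ b, χ i b = 0 → b ∈ 𝔪)
    (hloc : ∀ 𝔪 : Ideal B, 𝔪.IsMaximal → vp1 ρ ⊔ vp2 ρ ≤ 𝔪 → ∀ b ∈ 𝔪,
      ∃ d : B, d ∉ 𝔪 ∧ d * b ∈ vp1 ρ ⊔ vp2 ρ)
    (b : B) (hb : ∀ i, J i → χ i b = 0) : b ∈ vp1 ρ ⊔ vp2 ρ :=
  mem_of_local J (vp1 ρ ⊔ vp2 ρ) χ hmax hloc b hb

/-- **all three layers together**: a chart with surjective component reductions, values at its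
nodes and ordinary nodes reduces ONTO the compatible pairs. -/
theorem exists_lift_of_local (HL1 : LHyp κ F1) (HL2 : LHyp κ F2) (C1 : Set F1) (C2 : Set F2)
    (surj1 : ∀ f1 ∈ C1, ∃ b : B, (ρ b).1 = f1) (surj2 : ∀ f2 ∈ C2, ∃ b : B, (ρ b).2 = f2)
    (χ : ι → B →+* κ)
    (val : ∀ i, J i → ∀ b : B, (ρ b).1 - algebraMap κ F1 (χ i b) ∈ vanishing (N.s1 i) ∧
      (ρ b).2 - algebraMap κ F2 (χ i b) ∈ vanishing (N.s2 i))
    (hmax : ∀ 𝔪 : Ideal B, 𝔪.IsMaximal → vp1 ρ ⊔ vp2 ρ ≤ 𝔪 →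
      ∃ i, J i ∧ ∀ b, χ i b = 0 → b ∈ 𝔪)
    (hloc : ∀ 𝔪 : Ideal B, 𝔪.IsMaximal → vp1 ρ ⊔ vp2 ρ ≤ 𝔪 → ∀ b ∈ 𝔪,
      ∃ d : B, d ∉ 𝔪 ∧ d * b ∈ vp1 ρ ⊔ vp2 ρ)
    (f : F1 × F2) (hf1 : f.1 ∈ C1) (hf2 : f.2 ∈ C2) (hfc : ∀ i, J i → f ∈ N.compatAt i) :
    ∃ b : B, ρ b = f :=
  exists_lift_of_crt N ρ J HL1 HL2 C1 C2 surj1 surj2 (glue_of_val N ρ J χ val)
    (crt_of_val N ρ J χ val HL1 (mem_sup_of_local ρ J χ hmax hloc)) f hf1 hf2 hfc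

/-! ### the fields `S0`, `S1` of `NodalChartsS` -/

section Fields

variable {O : Type*} [CommRing O] (ρO : O →+* F1 × F2) {x1 : F1} {x2 : F2} (m1 m2 : ℕ)

/-- **field `S0`** of `NodalChartsS` from the chart data of `B0`. -/
theorem S0_of_chart (HL1 : LHyp κ F1) (HL2 : LHyp κ F2) (B0 : Subring O)
    (surj1 : ∀ f1 ∈ chart κ x1, ∃ b ∈ B0, (ρO b).1 = f1)
    (surj2 : ∀ f2 ∈ chart κ x2, ∃ b ∈ B0, (ρO b).2 = f2)
    (χ : ι → ↥B0 →+* κ)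
    (val : ∀ i, tb x1 x2 m1 m2 ∈ N.compatAt i → ∀ b : ↥B0,
      (ρO b).1 - algebraMap κ F1 (χ i b) ∈ vanishing (N.s1 i) ∧
      (ρO b).2 - algebraMap κ F2 (χ i b) ∈ vanishing (N.s2 i))
    (hmax : ∀ 𝔪 : Ideal ↥B0, 𝔪.IsMaximal →
      vp1 (ρO.comp B0.subtype) ⊔ vp2 (ρO.comp B0.subtype) ≤ 𝔪 →
      ∃ i, tb x1 x2 m1 m2 ∈ N.compatAt i ∧ ∀ b, χ i b = 0 → b ∈ 𝔪)
    (hloc : ∀ 𝔪 : Ideal ↥B0, 𝔪.IsMaximal →
      vp1 (ρO.comp B0.subtype) ⊔ vp2 (ρO.comp B0.subtype) ≤ 𝔪 → ∀ b ∈ 𝔪,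
      ∃ d : ↥B0, d ∉ 𝔪 ∧ d * b ∈ vp1 (ρO.comp B0.subtype) ⊔ vp2 (ρO.comp B0.subtype)) :
    ∀ y ∈ NC0 N x1 x2 m1 m2, ∃ b ∈ B0, ρO b = y := by
  intro y hy
  rw [mem_NC0] at hy
  obtain ⟨b, hb⟩ := exists_lift_of_local N (ρO.comp B0.subtype)
    (fun i => tb x1 x2 m1 m2 ∈ N.compatAt i) HL1 HL2
    (chart κ x1 : Set F1) (chart κ x2 : Set F2)
    (fun f1 hf1 => by obtain ⟨b, hb, h⟩ := surj1 f1 hf1; exact ⟨⟨b, hb⟩, h⟩)
    (fun f2 hf2 => by obtain ⟨b, hb, h⟩ := surj2 f2 hf2; exact ⟨⟨b, hb⟩, h⟩)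
    χ val hmax hloc y hy.1 hy.2.1 hy.2.2
  exact ⟨b, b.2, hb⟩

/-- **field `S1`** of `NodalChartsS` from the chart data of `B1`. -/
theorem S1_of_chart (HL1 : LHyp κ F1) (HL2 : LHyp κ F2) (B1 : Subring O)
    (surj1 : ∀ f1 ∈ chart κ x1⁻¹, ∃ b ∈ B1, (ρO b).1 = f1)
    (surj2 : ∀ f2 ∈ chart κ x2⁻¹, ∃ b ∈ B1, (ρO b).2 = f2)
    (χ : ι → ↥B1 →+* κ)
    (val : ∀ i, sb x1 x2 m1 m2 ∈ N.compatAt i → ∀ b : ↥B1,
      (ρO b).1 - algebraMap κ F1 (χ i b) ∈ vanishing (N.s1 i) ∧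
      (ρO b).2 - algebraMap κ F2 (χ i b) ∈ vanishing (N.s2 i))
    (hmax : ∀ 𝔪 : Ideal ↥B1, 𝔪.IsMaximal →
      vp1 (ρO.comp B1.subtype) ⊔ vp2 (ρO.comp B1.subtype) ≤ 𝔪 →
      ∃ i, sb x1 x2 m1 m2 ∈ N.compatAt i ∧ ∀ b, χ i b = 0 → b ∈ 𝔪)
    (hloc : ∀ 𝔪 : Ideal ↥B1, 𝔪.IsMaximal →
      vp1 (ρO.comp B1.subtype) ⊔ vp2 (ρO.comp B1.subtype) ≤ 𝔪 → ∀ b ∈ 𝔪,
      ∃ d : ↥B1, d ∉ 𝔪 ∧ d * b ∈ vp1 (ρO.comp B1.subtype) ⊔ vp2 (ρO.comp B1.subtype)) :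
    ∀ y ∈ NC1 N x1 x2 m1 m2, ∃ b ∈ B1, ρO b = y := by
  intro y hy
  rw [mem_NC1] at hy
  obtain ⟨b, hb⟩ := exists_lift_of_local N (ρO.comp B1.subtype)
    (fun i => sb x1 x2 m1 m2 ∈ N.compatAt i) HL1 HL2
    (chart κ x1⁻¹ : Set F1) (chart κ x2⁻¹ : Set F2)
    (fun f1 hf1 => by obtain ⟨b, hb, h⟩ := surj1 f1 hf1; exact ⟨⟨b, hb⟩, h⟩)
    (fun f2 hf2 => by obtain ⟨b, hb, h⟩ := surj2 f2 hf2; exact ⟨⟨b, hb⟩, h⟩)
    χ val hmax hloc y hy.1 hy.2.1 hy.2.2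
  exact ⟨b, b.2, hb⟩

end Fields

end Fermat.Agent.T33.NodalInst6
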