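/-
Programme T (S33), chapter (e) "N34 over ℚ̄", block NodalCharts-instance (helper6), part B:
**`NodalLiftS6.NodalChartsS` for a pair of `NodalCtx1.HalfRed`s and two chart subrings of `F`.**

Generic wrapper: `c₁ : HalfRed A F Fb₁`, `c₂ : HalfRed A F Fb₂` (the two Gauss rings with their
reductions), `O := c₁.O ⊓ c₂.O`, `ρ := (ρ₁, ρ₂) : O →+* Fb₁ × Fb₂`, constants `A0 := A`, and two
subrings `B0 ∋ t`, `B1 ∋ t⁻¹` of `F` contained in `O` (for `X₀(M'p)`: `B0 = chart A t`,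
`B1 = chart A t⁻¹`).  The contract `NodalChartsS` is reduced to statements about SUBRINGS OF `F`:

* overlap `hE0 hE1`, regularity `hreg0 hreg1` (elements of `B0` are regular wherever `t` is, elements
  of `B1` wherever `t⁻¹` is — automatic for integral closures), which give `E0 E1 lam`;
* `ρ₁ t = x₁ ^ m₁`, `ρ₂ t = x₂ ^ m₂`, `cover`, `deg`;
* ordinary nodes `S0' S1'` in terms of the pair `(ρ₁ b, ρ₂ b)` (see `NodalInst6A`).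

* `OO`, `rhoP`, `constRing`, `chartsS_of_halfReds`.
-/
import Mathlib
import Fermat.Agent.T33.NodalInst6A
import Fermat.Agent.T33.NodalCtx1

set_option autoImplicit false
set_option linter.unusedSectionVars false
set_option linter.style.haveILetI false

open AlgebraicCurve IsLocalRing

noncomputable section

namespace Fermat.Agent.T33.NodalInst6

open Fermat.Agent.X0 Fermat.Agent.X0.FF Fermat.Agent.RR.LSpace Fermat.Agent.RR.Riemann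
  Fermat.Agent.FF.GoodRed8
  Fermat.Agent.RED.PUR.ChartGeneric22 Fermat.Agent.T33.NodalCurve6
  Fermat.Agent.T33.NodalLift6 Fermat.Agent.T33.NodalLiftG6 Fermat.Agent.T33.NodalLiftS6
  Fermat.Agent.T33.NodalCtx1

variable {K : Type*} [Field K] {A : ValuationSubring K}
variable {F : Type*} [Field F] [Algebra K F]
variable {Fb₁ Fb₂ : Type*} [Field Fb₁] [Field Fb₂]
  [Algebra (ResidueField A) Fb₁] [Algebra (ResidueField A) Fb₂]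
variable (c₁ : HalfRed A F Fb₁) (c₂ : HalfRed A F Fb₂)

/-- the semilocal ring `O₁ ∩ O₂`. -/
def OO : Subring F := c₁.O ⊓ c₂.O

theorem mem_OO {y : F} : y ∈ OO c₁ c₂ ↔ y ∈ c₁.O ∧ y ∈ c₂.O := Subring.mem_inf

/-- the pair of reductions `(ρ₁, ρ₂) : O₁ ∩ O₂ →+* Fb₁ × Fb₂`. -/
def rhoP : ↥(OO c₁ c₂) →+* Fb₁ × Fb₂ :=
  RingHom.prod (c₁.ρ.comp (Subring.inclusion (inf_le_left : OO c₁ c₂ ≤ c₁.O)))
    (c₂.ρ.comp (Subring.inclusion (inf_le_right : OO c₁ c₂ ≤ c₂.O)))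

theorem rhoP_apply (y : ↥(OO c₁ c₂)) :
    rhoP c₁ c₂ y = (c₁.ρ ⟨(y : F), ((mem_OO c₁ c₂).1 y.2).1⟩,
      c₂.ρ ⟨(y : F), ((mem_OO c₁ c₂).1 y.2).2⟩) := rfl

/-- the constants `A` inside `O₁ ∩ O₂`. -/
def constRing : Subring ↥(OO c₁ c₂) :=
  Subring.comap (OO c₁ c₂).subtype ((algebraMap K F).comp A.subtype).range

theorem mem_constRing {y : ↥(OO c₁ c₂)} :
    y ∈ constRing c₁ c₂ ↔ ∃ a : ↥A, algebraMap K F (a : K) = (y : F) := Iff.rfl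

variable {ι : Type*} (N : NodalData (ResidueField A) Fb₁ Fb₂ ι)
variable (HL1 : LHyp (ResidueField A) Fb₁) (HL2 : LHyp (ResidueField A) Fb₂) (HL : LHyp K F)
variable {x1 : Fb₁} {x2 : Fb₂} (hx10 : x1 ≠ 0) (hx20 : x2 ≠ 0) (m1 m2 : ℕ)

/-- **the contract `NodalChartsS` for a pair of Gauss rings and two chart subrings of `F`.** -/
theorem chartsS_of_halfReds {t : F} (ht0 : t ≠ 0) (B0 B1 : Subring F)
    (hB0₁ : B0 ≤ c₁.O) (hB0₂ : B0 ≤ c₂.O) (hB1₁ : B1 ≤ c₁.O) (hB1₂ : B1 ≤ c₂.O)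
    (hA0 : ∀ a : ↥A, algebraMap K F (a : K) ∈ B0) (hA1 : ∀ a : ↥A, algebraMap K F (a : K) ∈ B1)
    (ht : t ∈ B0) (hs : t⁻¹ ∈ B1)
    (hE0 : ∀ b ∈ B0, ∃ m : ℕ, t⁻¹ ^ m * b ∈ B1) (hE1 : ∀ b ∈ B1, ∃ m : ℕ, t ^ m * b ∈ B0)
    (hreg0 : ∀ b ∈ B0, ∀ v : Place K F, 0 ≤ v.ord t → b ∈ v.toValuationSubring)
    (hreg1 : ∀ b ∈ B1, ∀ v : Place K F, v.ord t ≤ 0 → b ∈ v.toValuationSubring)
    (hρt₁ : c₁.ρ ⟨t, hB0₁ ht⟩ = x1 ^ m1) (hρt₂ : c₂.ρ ⟨t, hB0₂ ht⟩ = x2 ^ m2)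
    (hm1 : 0 < m1) (hm2 : 0 < m2)
    (hcov : ∀ i, tb x1 x2 m1 m2 ∈ N.compatAt i ∨ sb x1 x2 m1 m2 ∈ N.compatAt i)
    (S0' : ∀ y ∈ NC0 N x1 x2 m1 m2, ∃ (b : F) (hb : b ∈ B0),
      ((c₁.ρ ⟨b, hB0₁ hb⟩, c₂.ρ ⟨b, hB0₂ hb⟩) : Fb₁ × Fb₂) = y)
    (S1' : ∀ y ∈ NC1 N x1 x2 m1 m2, ∃ (b : F) (hb : b ∈ B1),
      ((c₁.ρ ⟨b, hB1₁ hb⟩, c₂.ρ ⟨b, hB1₂ hb⟩) : Fb₁ × Fb₂) = y)
    (hdeg : NDiv.degree (Dt HL1 HL2 hx10 hx20 m1 m2) = Divisor.degree (poleDiv HL ht0)) :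
    NodalChartsS N HL1 HL2 hx10 hx20 m1 m2 (residue ↥A) HL (OO c₁ c₂).subtype (rhoP c₁ c₂)
      (constRing c₁ c₂) (B0.comap (OO c₁ c₂).subtype) (B1.comap (OO c₁ c₂).subtype)
      ⟨t, (mem_OO c₁ c₂).2 ⟨hB0₁ ht, hB0₂ ht⟩⟩ ⟨t⁻¹, (mem_OO c₁ c₂).2 ⟨hB1₁ hs, hB1₂ hs⟩⟩ where
  ι_inj := Subtype.val_injective
  res_surj := residue_surjective
  ts := Subtype.ext (mul_inv_cancel₀ ht0)
  t_mem := ht
  s_mem := hs
  A0_le_B0 := by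
    rintro y ⟨a, ha⟩
    have ha' : algebraMap K F (a : K) = (y : F) := ha
    show (y : F) ∈ B0
    rw [← ha']
    exact hA0 a
  A0_le_B1 := by
    rintro y ⟨a, ha⟩
    have ha' : algebraMap K F (a : K) = (y : F) := ha
    show (y : F) ∈ B1
    rw [← ha']
    exact hA1 a
  const := by
    intro a
    refine ⟨⟨algebraMap K F (a : K),
      (mem_OO c₁ c₂).2 ⟨c₁.algebraMap_mem a, c₂.algebraMap_mem a⟩⟩, ⟨a, rfl⟩, rfl, ?_⟩
    rw [rhoP_apply]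
    exact Prod.ext (c₁.ρ_algebraMap a) (c₂.ρ_algebraMap a)
  ιt_ne := ht0
  ρt := by
    rw [rhoP_apply]
    exact Prod.ext hρt₁ hρt₂
  m1_pos := hm1
  m2_pos := hm2
  cover := hcov
  S0 := by
    intro y hy
    obtain ⟨b, hb, hby⟩ := S0' y hy
    exact ⟨⟨b, (mem_OO c₁ c₂).2 ⟨hB0₁ hb, hB0₂ hb⟩⟩, hb, hby⟩
  S1 := by
    intro y hy
    obtain ⟨b, hb, hby⟩ := S1' y hy
    exact ⟨⟨b, (mem_OO c₁ c₂).2 ⟨hB1₁ hb, hB1₂ hb⟩⟩, hb, hby⟩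
  E0 := by
    intro b hb
    obtain ⟨m, hm⟩ := hE0 (b : F) hb
    exact ⟨m, by
      show ((⟨t⁻¹, _⟩ ^ m * b : ↥(OO c₁ c₂)) : F) ∈ B1
      rw [Subring.coe_mul, Subring.coe_pow]
      exact hm⟩
  E1 := by
    intro b hb
    obtain ⟨m, hm⟩ := hE1 (b : F) hb
    exact ⟨m, by
      show ((⟨t, _⟩ ^ m * b : ↥(OO c₁ c₂)) : F) ∈ B0
      rw [Subring.coe_mul, Subring.coe_pow]
      exact hm⟩
  lam := by
    rintro n b ⟨hb0, hb1⟩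
    have hb0' : (b : F) ∈ B0 := hb0
    have hb1' : t⁻¹ ^ n * (b : F) ∈ B1 := by
      have : ((⟨t⁻¹, (mem_OO c₁ c₂).2 ⟨hB1₁ hs, hB1₂ hs⟩⟩ ^ n * b : ↥(OO c₁ c₂)) : F) ∈ B1 := hb1
      rwa [Subring.coe_mul, Subring.coe_pow] at this
    show (b : F) ∈ riemannRochSpace (n • poleDiv HL ht0)
    rw [mem_riemannRochSpace_iff]
    intro v
    by_cases hb : (b : F) = 0
    · exact Or.inl hb
    right
    rw [Finsupp.smul_apply, poleDiv_apply, nsmul_eq_mul]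
    by_cases hv : 0 ≤ v.ord t
    · have h1 := ord_nonneg_of_mem v (hreg0 _ hb0' v hv)
      rw [max_eq_left (by omega), mul_zero]
      omega
    · rw [not_le] at hv
      have h1 := ord_nonneg_of_mem v (hreg1 _ hb1' v hv.le)
      rw [v.ord_mul (pow_ne_zero _ (inv_ne_zero ht0)) hb, ord_pow, v.ord_inv] at h1
      rw [max_eq_right (by omega)]
      have : (n : ℤ) * -v.ord t = -((n : ℤ) * v.ord t) := by ring
      linarith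
  deg := hdeg

end Fermat.Agent.T33.NodalInst6
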