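/-
Programme T (S33), chapter (e) "N34 over ℚ̄", block NodalCharts-instance (helper6), part C:
**`NodalChartsS` for the two charts `chart R₀ t`, `chart R₀ t⁻¹`** (integral closures of `R₀[t]`,
`R₀[t⁻¹]` in `F`; for `X₀(M'p)`: `R₀ = A`).

Specialisation of `NodalInst6B.chartsS_of_halfReds` to `B0 = chart R₀ t`, `B1 = chart R₀ t⁻¹`: the
overlap (`hE0 hE1`), the regularity (`hreg0 hreg1`), the constants and `t ∈ B0`, `t⁻¹ ∈ B1` are
generic facts about integral closures.  What is left is the model-specific part: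
the charts lie in `O₁ ∩ O₂`, `ρ₁ t = x₁ ^ m₁`, `ρ₂ t = x₂ ^ m₂`, `cover`, ordinary nodes `S0' S1'`
and the degree identity.
-/
import Mathlib
import Fermat.Agent.T33.NodalInst6B

set_option autoImplicit false
set_option linter.unusedSectionVars false
set_option linter.style.haveILetI false

open AlgebraicCurve IsLocalRing

noncomputable section

namespace Fermat.Agent.T33.NodalInst6

open Fermat.Agent.X0 Fermat.Agent.X0.FF Fermat.Agent.RR.LSpace Fermat.Agent.RR.Riemann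
  Fermat.Agent.FF.GoodRed8
  Fermat.Agent.RED.PUR.ChartGeneric22 Fermat.Agent.T33.NodalCurve6
  Fermat.Agent.T33.NodalLift6 Fermat.Agent.T33.NodalLiftG6 Fermat.Agent.T33.NodalLiftS6
  Fermat.Agent.T33.NodalCtx1

variable {K : Type*} [Field K] {A : ValuationSubring K}
variable {F : Type*} [Field F] [Algebra K F]
variable {R₀ : Type*} [CommRing R₀] [Algebra R₀ F]

/-- an element of the chart `chart R₀ t` is regular at every place where `t` is. -/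
theorem mem_place_of_mem_chart
    (hR₀v : ∀ (v : Place K F) (r : R₀), algebraMap R₀ F r ∈ v.toValuationSubring)
    {t b : F} (hb : b ∈ chart R₀ t) (v : Place K F) (ht : t ∈ v.toValuationSubring) :
    b ∈ v.toValuationSubring :=
  Fermat.Agent.X0.FFDedekind.mem_of_isIntegral_of_algebraMap_mem v
    (Fermat.Agent.FF.SpecialRR6.adjoin_le_place v (hR₀v v) ht) (mem_chart_iff.mp hb)

variable {Fb₁ Fb₂ : Type*} [Field Fb₁] [Field Fb₂]
  [Algebra (ResidueField A) Fb₁] [Algebra (ResidueField A) Fb₂]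
variable (c₁ : HalfRed A F Fb₁) (c₂ : HalfRed A F Fb₂)
variable {ι : Type*} (N : NodalData (ResidueField A) Fb₁ Fb₂ ι)
variable (HL1 : LHyp (ResidueField A) Fb₁) (HL2 : LHyp (ResidueField A) Fb₂) (HL : LHyp K F)
variable {x1 : Fb₁} {x2 : Fb₂} (hx10 : x1 ≠ 0) (hx20 : x2 ≠ 0) (m1 m2 : ℕ)

/-- **the contract `NodalChartsS` for the two charts `chart R₀ t`, `chart R₀ t⁻¹`.** -/
theorem chartsS_of_charts
    (hR₀A : ∀ a : ↥A, ∃ r : R₀, algebraMap R₀ F r = algebraMap K F (a : K))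
    (hR₀v : ∀ (v : Place K F) (r : R₀), algebraMap R₀ F r ∈ v.toValuationSubring)
    {t : F} (ht0 : t ≠ 0)
    (hB0₁ : (chart R₀ t).toSubring ≤ c₁.O) (hB0₂ : (chart R₀ t).toSubring ≤ c₂.O)
    (hB1₁ : (chart R₀ t⁻¹).toSubring ≤ c₁.O) (hB1₂ : (chart R₀ t⁻¹).toSubring ≤ c₂.O)
    (hρt₁ : c₁.ρ ⟨t, hB0₁ (self_mem_chart (R := R₀) t)⟩ = x1 ^ m1)
    (hρt₂ : c₂.ρ ⟨t, hB0₂ (self_mem_chart (R := R₀) t)⟩ = x2 ^ m2)
    (hm1 : 0 < m1) (hm2 : 0 < m2)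
    (hcov : ∀ i, tb x1 x2 m1 m2 ∈ N.compatAt i ∨ sb x1 x2 m1 m2 ∈ N.compatAt i)
    (S0' : ∀ y ∈ NC0 N x1 x2 m1 m2, ∃ (b : F) (hb : b ∈ (chart R₀ t).toSubring),
      ((c₁.ρ ⟨b, hB0₁ hb⟩, c₂.ρ ⟨b, hB0₂ hb⟩) : Fb₁ × Fb₂) = y)
    (S1' : ∀ y ∈ NC1 N x1 x2 m1 m2, ∃ (b : F) (hb : b ∈ (chart R₀ t⁻¹).toSubring),
      ((c₁.ρ ⟨b, hB1₁ hb⟩, c₂.ρ ⟨b, hB1₂ hb⟩) : Fb₁ × Fb₂) = y)
    (hdeg : NDiv.degree (Dt HL1 HL2 hx10 hx20 m1 m2) = Divisor.degree (poleDiv HL ht0)) :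
    NodalChartsS N HL1 HL2 hx10 hx20 m1 m2 (residue ↥A) HL (OO c₁ c₂).subtype (rhoP c₁ c₂)
      (constRing c₁ c₂) ((chart R₀ t).toSubring.comap (OO c₁ c₂).subtype)
      ((chart R₀ t⁻¹).toSubring.comap (OO c₁ c₂).subtype)
      ⟨t, (mem_OO c₁ c₂).2 ⟨hB0₁ (self_mem_chart (R := R₀) t),
        hB0₂ (self_mem_chart (R := R₀) t)⟩⟩
      ⟨t⁻¹, (mem_OO c₁ c₂).2 ⟨hB1₁ (self_mem_chart (R := R₀) t⁻¹),
        hB1₂ (self_mem_chart (R := R₀) t⁻¹)⟩⟩ := by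
  refine chartsS_of_halfReds c₁ c₂ N HL1 HL2 HL hx10 hx20 m1 m2 ht0 (chart R₀ t).toSubring
    (chart R₀ t⁻¹).toSubring hB0₁ hB0₂ hB1₁ hB1₂ ?_ ?_ (self_mem_chart (R := R₀) t)
    (self_mem_chart (R := R₀) t⁻¹) ?_ ?_ ?_ ?_ hρt₁ hρt₂ hm1 hm2 hcov S0' S1' hdeg
  · intro a
    obtain ⟨r, hr⟩ := hR₀A a
    rw [← hr]
    exact (chart R₀ t).algebraMap_mem r
  · intro a
    obtain ⟨r, hr⟩ := hR₀A a
    rw [← hr]
    exact (chart R₀ t⁻¹).algebraMap_mem r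
  · intro b hb
    have hb' : b ∈ chart R₀ (t⁻¹)⁻¹ := by rw [inv_inv]; exact hb
    exact exists_pow_mul_mem_chart (R := R₀) (inv_ne_zero ht0) hb'
  · intro b hb
    exact exists_pow_mul_mem_chart (R := R₀) ht0 hb
  · intro b hb v hv
    exact mem_place_of_mem_chart hR₀v hb v (mem_of_ord_nonneg v hv)
  · intro b hb v hv
    refine mem_place_of_mem_chart hR₀v hb v (mem_of_ord_nonneg v ?_)
    rw [v.ord_inv]
    omega

end Fermat.Agent.T33.NodalInst6
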