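/-
Programme T (S33), chapter (e) "N34 over ℚ̄", block NodalCharts-instance (helper6), part E:
**adapter from helper1's `NodalPlaces1.TwoCharts` vocabulary to the hypotheses `cover`, `S0'`,
`S1'` of `NodalInst6.chartsS_of_halfReds`**, for the gluing datum `T.rawRed.nodalData` (the one of
the context `T.rawRed.mkNodalRed`).

* value calculus: `hasValue_iff_vanishing`, `inv_sub_mem_vanishing`, `pow_sub_mem_vanishing`;
* `val_transfer` : on the overlap of two charts the place of a point does not depend on the chart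
  (`C.Val_j χ Q`, `P` centred at `χ` on `C` and at `χ'` on `C'`, `χ u ≠ 0`, `C' ⊆ C[1/u]`
  ⟹ `C'.Val_j χ' Q`);
* `node_cases`, `exists_pt₀_of_tb`, `exists_pt₁_of_sb` : a node of the chart `k` (in the sense
  `t̄ ∈ compatAt i`, resp. `s̄ ∈ compatAt i`) is a point of the chart `k` with its two branches;
* `cover_of_twoCharts`, `S0_of_twoCharts`, `S1_of_twoCharts`, and the contract
  `chartsS_of_twoCharts`.

Hypotheses on top of `TwoCharts` (all chart-symmetric):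
  `hE0 hE1`     the overlap (`B0 ⊆ B1[t]`, `B1 ⊆ B0[1/t]`),
  `hcen`        a place at which `1/t` has an integral value is centred on the chart `1`,
  `pt_k`        every maximal ideal of `B_k` containing `𝔭₁ + 𝔭₂` lies in the kernel of a point,
  `ex_k`        every point of `B_k` on both components is the centre of a place,
  `loc_k`       the nodes are ordinary (chart form, = `hloc` of `NodalInst6A`),
  `surj_jk`     `ρ_j (B_k) ⊇ chart κ x_j^{±1}`.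
-/
import Mathlib
import Fermat.Agent.T33.NodalInst6C
import Fermat.Agent.T33.NodalPlaces1B

set_option autoImplicit false
set_option linter.unusedSectionVars false
set_option linter.style.haveILetI false

open AlgebraicCurve IsLocalRing

noncomputable section

namespace Fermat.Agent.T33.NodalInst6

open Fermat.Agent.X0 Fermat.Agent.X0.FF Fermat.Agent.RR.LSpace Fermat.Agent.RR.Riemann
  Fermat.Agent.FF.GoodRed8
  Fermat.Agent.RED.PUR.ChartGeneric22 Fermat.Agent.T33.NodalCurve6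
  Fermat.Agent.T33.NodalLift6 Fermat.Agent.T33.NodalLiftG6 Fermat.Agent.T33.NodalLiftS6
  Fermat.Agent.T33.NodalCtx1 Fermat.Agent.T33.NodalPlaces1 Fermat.Agent.T33.NodalAbs1A

/-! ### value calculus -/

section Values

variable {K F : Type*} [Field K] [Field F] [Algebra K F]

theorem hasValue_iff_vanishing {P : Place K F} {f : F} {a : K} :
    HasValue P f a ↔ f - algebraMap K F a ∈ vanishing P := by
  unfold HasValue
  rw [mem_vanishing, sub_eq_zero]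

/-- `f ≡ c` modulo `𝔪_v` implies `f ^ n ≡ c ^ n`. -/
theorem pow_sub_mem_vanishing {v : Place K F} {f : F} {c : K}
    (h : f - algebraMap K F c ∈ vanishing v) (n : ℕ) :
    f ^ n - algebraMap K F (c ^ n) ∈ vanishing v := by
  induction n with
  | zero =>
    rw [pow_zero, pow_zero, map_one, sub_self]
    exact Submodule.zero_mem _
  | succ n ih =>
    rw [pow_succ, pow_succ]
    exact mul_sub_mem_vanishing ih h

/-- `f ≡ c ≠ 0` modulo `𝔪_v` implies `f⁻¹ ≡ c⁻¹`. -/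
theorem inv_sub_mem_vanishing {v : Place K F} {f : F} {c : K} (hc : c ≠ 0)
    (h : f - algebraMap K F c ∈ vanishing v) : f⁻¹ - algebraMap K F c⁻¹ ∈ vanishing v := by
  have hc0 : algebraMap K F c ≠ 0 := fun h0 => hc ((map_eq_zero (algebraMap K F)).1 h0)
  have hf0 : f ≠ 0 := by
    rintro rfl
    rw [zero_sub] at h
    have h2 := Submodule.neg_mem _ h
    rw [neg_neg] at h2
    exact hc (const_not_mem_vanishing v h2)
  have hord : v.ord f ≤ 0 := by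
    rcases h with h0 | hpos
    · rw [sub_eq_zero] at h0
      rw [h0, ord_algebraMap]
    · by_contra hlt
      rw [not_le] at hlt
      have e : algebraMap K F c = f - (f - algebraMap K F c) := by ring
      have h1 := ord_sub_ge v (f := f) (g := f - algebraMap K F c) (by rw [← e]; exact hc0)
      rw [← e, ord_algebraMap] at h1
      have := lt_min hlt hpos
      omega
  have hinv : f⁻¹ ∈ v.toValuationSubring := by
    apply mem_of_ord_nonneg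
    rw [v.ord_inv]
    omega
  have hcinv : algebraMap K F c⁻¹ ∈ v.toValuationSubring := v.algebraMap_mem' c⁻¹
  have e : f⁻¹ - algebraMap K F c⁻¹ = -(f - algebraMap K F c) * (f⁻¹ * algebraMap K F c⁻¹) := by
    rw [map_inv₀]
    field_simp
    ring
  rw [e]
  exact mul_mem_vanishing (Submodule.neg_mem _ h) (v.toValuationSubring.mul_mem _ _ hinv hcinv)

end Values

variable {K : Type*} [Field K] {A : ValuationSubring K}
variable {F : Type*} [Field F] [Algebra K F]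

/-! ### the place of a point does not depend on the chart -/

section Transfer

variable {Fb : Type*} [Field Fb] [Algebra (ResidueField A) Fb]

/-- **transfer of the place of a point between two chart rings** (one component `c`). -/
theorem val_transfer (c : HalfRed A F Fb) (B B' : Subring F) (hB : B ≤ c.O) (hB' : B' ≤ c.O)
    (χ : B →+* ResidueField A) (χ' : B' →+* ResidueField A)
    {u : F} (hu : u ∈ B) (hunit : χ ⟨u, hu⟩ ≠ 0)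
    (hE : ∀ b' ∈ B', ∃ n : ℕ, u ^ n * b' ∈ B)
    (hχχ' : ∀ (b' : B') (n : ℕ) (h : u ^ n * (b' : F) ∈ B),
      χ ⟨u ^ n * (b' : F), h⟩ = χ ⟨u, hu⟩ ^ n * χ' b')
    (Q : Place (ResidueField A) Fb)
    (hQ : ∀ b : B, c.ρ ⟨(b : F), hB b.2⟩ - algebraMap (ResidueField A) Fb (χ b) ∈ vanishing Q)
    (b' : B') :
    c.ρ ⟨(b' : F), hB' b'.2⟩ - algebraMap (ResidueField A) Fb (χ' b') ∈ vanishing Q := by
  obtain ⟨n, hn⟩ := hE (b' : F) b'.2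
  have h1 := hQ ⟨u ^ n * (b' : F), hn⟩
  rw [hχχ' b' n hn] at h1
  have h2 := hQ ⟨u, hu⟩
  have h3 := pow_sub_mem_vanishing h2 n
  have hne : χ ⟨u, hu⟩ ^ n ≠ 0 := pow_ne_zero _ hunit
  have h4 := inv_sub_mem_vanishing hne h3
  have h5 := mul_sub_mem_vanishing h4 h1
  have e1 : (⟨u ^ n * (b' : F), hB hn⟩ : c.O) = ⟨u, hB hu⟩ ^ n * ⟨(b' : F), hB' b'.2⟩ :=
    Subtype.ext (by simp)
  have hρu : c.ρ ⟨u, hB hu⟩ ≠ 0 := by
    intro h0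
    have h2' : c.ρ ⟨u, hB hu⟩ - algebraMap (ResidueField A) Fb (χ ⟨u, hu⟩) ∈ vanishing Q := h2
    rw [h0, zero_sub] at h2'
    have h6 := Submodule.neg_mem _ h2'
    rw [neg_neg] at h6
    exact hunit (const_not_mem_vanishing Q h6)
  have e2 : (c.ρ ⟨u, hB hu⟩ ^ n)⁻¹ * c.ρ ⟨u ^ n * (b' : F), hB hn⟩ = c.ρ ⟨(b' : F), hB' b'.2⟩ := by
    rw [e1, map_mul, map_pow, ← mul_assoc, inv_mul_cancel₀ (pow_ne_zero _ hρu), one_mul]
  have e3 : (χ ⟨u, hu⟩ ^ n)⁻¹ * (χ ⟨u, hu⟩ ^ n * χ' b') = χ' b' := by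
    rw [← mul_assoc, inv_mul_cancel₀ hne, one_mul]
  have h5' : (c.ρ ⟨u, hB hu⟩ ^ n)⁻¹ * c.ρ ⟨u ^ n * (b' : F), hB hn⟩ -
      algebraMap (ResidueField A) Fb ((χ ⟨u, hu⟩ ^ n)⁻¹ * (χ ⟨u, hu⟩ ^ n * χ' b')) ∈
        vanishing Q := h5
  rw [e2, e3] at h5'
  exact h5'

end Transfer

variable {Fb₁ Fb₂ : Type*} [Field Fb₁] [Field Fb₂]
  [Algebra (ResidueField A) Fb₁] [Algebra (ResidueField A) Fb₂]
variable {c₁ : HalfRed A F Fb₁} {c₂ : HalfRed A F Fb₂}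

/-! ### two charts at a common place -/

section Common

variable (C C' : Chart c₁ c₂)

/-- the values of two charts at a common place are multiplicative. -/
theorem centred_mul_pow {P : Place K F} {χ : C.Pt} {χ' : C'.Pt} (hχ : C.Centred P χ)
    (hχ' : C'.Centred P χ') (u : C.B) (b' : C'.B) (n : ℕ)
    (h : (u : F) ^ n * (b' : F) ∈ C.B) :
    χ ⟨(u : F) ^ n * (b' : F), h⟩ = χ u ^ n * χ' b' := by
  obtain ⟨a, ha, hχa⟩ := hχ ⟨(u : F) ^ n * (b' : F), h⟩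
  obtain ⟨au, hau, hχu⟩ := hχ u
  obtain ⟨a', ha', hχ'a⟩ := hχ' b'
  rw [hasValue_iff_vanishing] at hau ha'
  have h1 := mul_sub_mem_vanishing (pow_sub_mem_vanishing hau n) ha'
  rw [← hasValue_iff_vanishing] at h1
  have h2 : (a : K) = (au : K) ^ n * (a' : K) := ha.unique h1
  have h3 : a = au ^ n * a' := Subtype.ext (by rw [h2]; simp)
  rw [hχa, hχu, hχ'a, h3, map_mul, map_pow]

/-- **the first branch of a point does not depend on the chart.** -/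
theorem val₁_transfer {P : Place K F} {χ : C.Pt} {χ' : C'.Pt} (hχ : C.Centred P χ)
    (hχ' : C'.Centred P χ') (u : C.B) (hunit : χ u ≠ 0)
    (hE : ∀ b' ∈ C'.B, ∃ n : ℕ, (u : F) ^ n * b' ∈ C.B)
    {Q : Place (ResidueField A) Fb₁} (hQ : C.Val₁ χ Q) : C'.Val₁ χ' Q := by
  intro b'
  exact val_transfer c₁ C.B C'.B C.le₁ C'.le₁ χ.1 χ'.1 u.2 hunit hE
    (fun b' n h => centred_mul_pow C C' hχ hχ' u b' n h) Q hQ b'

/-- **the second branch of a point does not depend on the chart.** -/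
theorem val₂_transfer {P : Place K F} {χ : C.Pt} {χ' : C'.Pt} (hχ : C.Centred P χ)
    (hχ' : C'.Centred P χ') (u : C.B) (hunit : χ u ≠ 0)
    (hE : ∀ b' ∈ C'.B, ∃ n : ℕ, (u : F) ^ n * b' ∈ C.B)
    {Q : Place (ResidueField A) Fb₂} (hQ : C.Val₂ χ Q) : C'.Val₂ χ' Q := by
  intro b'
  exact val_transfer c₂ C.B C'.B C.le₂ C'.le₂ χ.1 χ'.1 u.2 hunit hE
    (fun b' n h => centred_mul_pow C C' hχ hχ' u b' n h) Q hQ b'

end Common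

/-! ### the nodes of a two-chart model -/

section Nodes

variable (T : TwoCharts c₁ c₂)

/-- the pair of reductions on the chart `0`. -/
def rho0 : T.C0.B →+* Fb₁ × Fb₂ := T.C0.ρ₁.prod T.C0.ρ₂

/-- the pair of reductions on the chart `1`. -/
def rho1 : T.C1.B →+* Fb₁ × Fb₂ := T.C1.ρ₁.prod T.C1.ρ₂

@[simp] theorem rho0_apply (b : T.C0.B) : rho0 T b = (T.C0.ρ₁ b, T.C0.ρ₂ b) := rfl

@[simp] theorem rho1_apply (b : T.C1.B) : rho1 T b = (T.C1.ρ₁ b, T.C1.ρ₂ b) := rfl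

/-- **a node is a point of one of the two charts with its two branches.** -/
theorem node_cases (i : T.rawRed.Node) :
    (∃ (P : Place K F) (χ : T.C0.Pt), T.Fin0 P ∧ T.C0.Centred P χ ∧ T.C0.Val₁ χ i.1.1 ∧
      T.C0.Val₂ χ i.1.2) ∨
    (∃ (P : Place K F) (χ : T.C1.Pt), ¬ T.Fin0 P ∧ T.C1.Centred P χ ∧ χ T.s1 = 0 ∧
      T.C1.Val₁ χ i.1.1 ∧ T.C1.Val₂ χ i.1.2) := by
  obtain ⟨⟨Q₁, Q₂⟩, P, h1, h2⟩ := i
  simp only [TwoCharts.rawRed_r₁, TwoCharts.rawRed_r₂] at h1 h2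
  rw [T.r₁_eq_some_iff] at h1
  rw [T.r₂_eq_some_iff] at h2
  by_cases hP : T.Fin0 P
  · obtain ⟨χ, hχ⟩ := T.centred₀ P hP
    exact Or.inl ⟨P, χ, hP, hχ, (T.red₁_iff₀ hP hχ Q₁).1 h1, (T.red₂_iff₀ hP hχ Q₂).1 h2⟩
  · obtain ⟨χ, hχ, hs⟩ := T.centred₁' P hP
    exact Or.inr ⟨P, χ, hP, hχ, hs, (T.red₁_iff₁ hP hχ hs Q₁).1 h1,
      (T.red₂_iff₁ hP hχ hs Q₂).1 h2⟩

variable {x1 : Fb₁} {x2 : Fb₂} {m1 m2 : ℕ}

/-- the reduction of `1/t` on the first component. -/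
theorem ρ₁_s1_eq (hρt₁ : T.C0.ρ₁ T.t0 = x1 ^ m1) : T.C1.ρ₁ T.s1 = x1⁻¹ ^ m1 := by
  have h := T.ρ₁_t_mul_s
  rw [hρt₁] at h
  rw [inv_pow]
  exact eq_inv_of_mul_eq_one_right h

/-- the reduction of `1/t` on the second component. -/
theorem ρ₂_s1_eq (hρt₂ : T.C0.ρ₂ T.t0 = x2 ^ m2) : T.C1.ρ₂ T.s1 = x2⁻¹ ^ m2 := by
  have h := T.ρ₂_t_mul_s
  rw [hρt₂] at h
  rw [inv_pow]
  exact eq_inv_of_mul_eq_one_right h

/-- all elements of the chart `0` are compatible at a point of the chart `0`. -/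
theorem rho0_mem_compatAt (i : T.rawRed.Node) {χ : T.C0.Pt} (h1 : T.C0.Val₁ χ i.1.1)
    (h2 : T.C0.Val₂ χ i.1.2) (b : T.C0.B) : rho0 T b ∈ T.rawRed.nodalData.compatAt i :=
  ⟨χ b, h1 b, h2 b⟩

/-- all elements of the chart `1` are compatible at a point of the chart `1`. -/
theorem rho1_mem_compatAt (i : T.rawRed.Node) {χ : T.C1.Pt} (h1 : T.C1.Val₁ χ i.1.1)
    (h2 : T.C1.Val₂ χ i.1.2) (b : T.C1.B) : rho1 T b ∈ T.rawRed.nodalData.compatAt i :=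
  ⟨χ b, h1 b, h2 b⟩

theorem tb_eq_rho0 (hρt₁ : T.C0.ρ₁ T.t0 = x1 ^ m1) (hρt₂ : T.C0.ρ₂ T.t0 = x2 ^ m2) :
    tb x1 x2 m1 m2 = rho0 T T.t0 := by
  rw [rho0_apply, hρt₁, hρt₂]
  rfl

theorem sb_eq_rho1 (hρt₁ : T.C0.ρ₁ T.t0 = x1 ^ m1) (hρt₂ : T.C0.ρ₂ T.t0 = x2 ^ m2) :
    sb x1 x2 m1 m2 = rho1 T T.s1 := by
  rw [rho1_apply, ρ₁_s1_eq T hρt₁, ρ₂_s1_eq T hρt₂]
  rfl

/-- **field `cover`**: every node lies on the chart `0` or on the chart `1`. -/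
theorem cover_of_twoCharts (hρt₁ : T.C0.ρ₁ T.t0 = x1 ^ m1) (hρt₂ : T.C0.ρ₂ T.t0 = x2 ^ m2)
    (i : T.rawRed.Node) :
    tb x1 x2 m1 m2 ∈ T.rawRed.nodalData.compatAt i ∨
      sb x1 x2 m1 m2 ∈ T.rawRed.nodalData.compatAt i := by
  rcases node_cases T i with ⟨P, χ, -, -, h1, h2⟩ | ⟨P, χ, -, -, -, h1, h2⟩
  · left
    rw [tb_eq_rho0 T hρt₁ hρt₂]
    exact rho0_mem_compatAt T i h1 h2 _
  · right
    rw [sb_eq_rho1 T hρt₁ hρt₂]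
    exact rho1_mem_compatAt T i h1 h2 _

/-- **a node of the chart `0` is a point of the chart `0`.** -/
theorem exists_pt₀_of_tb (hρt₁ : T.C0.ρ₁ T.t0 = x1 ^ m1) (i : T.rawRed.Node)
    (hi : tb x1 x2 m1 m2 ∈ T.rawRed.nodalData.compatAt i) :
    ∃ χ : T.C0.Pt, T.C0.Val₁ χ i.1.1 ∧ T.C0.Val₂ χ i.1.2 := by
  rcases node_cases T i with ⟨P, χ, -, -, h1, h2⟩ | ⟨P, χ, -, -, hs, h1, h2⟩
  · exact ⟨χ, h1, h2⟩
  · exfalso
    have hw := h1 T.s1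
    rw [hs, map_zero, sub_zero] at hw
    obtain ⟨c, hc1, -⟩ := hi
    have hc1' : x1 ^ m1 - algebraMap (ResidueField A) Fb₁ c ∈ vanishing i.1.1 := hc1
    rw [← hρt₁] at hc1'
    exact TwoCharts.false_of_val_both i.1.1 T.ρ₁_t_mul_s hc1' hw

/-- the inverse of a value with non-zero residue is a value. -/
theorem hasValue_inv {P : Place K F} {f : F} {a : A} (h : HasValue P f (a : K))
    (hres : residue A a ≠ 0) : ∃ a' : A, HasValue P f⁻¹ (a' : K) := by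
  have ha0 : (a : K) ≠ 0 := by
    intro h0
    apply hres
    have : a = 0 := Subtype.ext h0
    rw [this, map_zero]
  have hinv : (a : K)⁻¹ ∈ A := by
    by_contra hno
    apply hres
    rw [IsLocalRing.residue_eq_zero_iff]
    exact mem_maximalIdeal_of_inv_not_mem a.2 hno
  refine ⟨⟨(a : K)⁻¹, hinv⟩, ?_⟩
  rw [hasValue_iff_vanishing] at h ⊢
  exact inv_sub_mem_vanishing ha0 h

/-- **a node of the chart `1` is a point of the chart `1`.** -/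
theorem exists_pt₁_of_sb (hρt₁ : T.C0.ρ₁ T.t0 = x1 ^ m1)
    (hE1 : ∀ b ∈ T.C1.B, ∃ n : ℕ, T.t ^ n * b ∈ T.C0.B)
    (hcen : ∀ P : Place K F, (∃ a : A, HasValue P T.t⁻¹ (a : K)) → ∃ χ : T.C1.Pt, T.C1.Centred P χ)
    (i : T.rawRed.Node) (hi : sb x1 x2 m1 m2 ∈ T.rawRed.nodalData.compatAt i) :
    ∃ χ : T.C1.Pt, T.C1.Val₁ χ i.1.1 ∧ T.C1.Val₂ χ i.1.2 := by
  rcases node_cases T i with ⟨P, χ, hP, hχ, h1, h2⟩ | ⟨P, χ, -, -, -, h1, h2⟩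
  · -- the point is not at `t = 0`
    have hunit : χ T.t0 ≠ 0 := by
      intro h0
      have hw := h1 T.t0
      rw [h0, map_zero, sub_zero] at hw
      obtain ⟨c, hc1, -⟩ := hi
      have hc1' : x1⁻¹ ^ m1 - algebraMap (ResidueField A) Fb₁ c ∈ vanishing i.1.1 := hc1
      rw [← ρ₁_s1_eq T hρt₁] at hc1'
      have hmul : T.C1.ρ₁ T.s1 * T.C0.ρ₁ T.t0 = 1 := by rw [mul_comm]; exact T.ρ₁_t_mul_s
      exact TwoCharts.false_of_val_both i.1.1 hmul hc1' hw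
    obtain ⟨a, ha, hχa⟩ := hχ T.t0
    have hres : residue A a ≠ 0 := by rw [← hχa]; exact hunit
    obtain ⟨χ', hχ'⟩ := hcen P (hasValue_inv ha hres)
    exact ⟨χ', val₁_transfer T.C0 T.C1 hχ hχ' T.t0 hunit hE1 h1,
      val₂_transfer T.C0 T.C1 hχ hχ' T.t0 hunit hE1 h2⟩
  · exact ⟨χ, h1, h2⟩

/-! ### (crt) on the two charts -/

/-- a maximal ideal lying in the kernel of a point is that kernel. -/
theorem mem_of_pt_eq_zero {B : Type*} [CommRing B] {κ : Type*} [Field κ] (p : B →+* κ)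
    (𝔪 : Ideal B) (h𝔪 : 𝔪.IsMaximal) (hle : ∀ b ∈ 𝔪, p b = 0) {b : B} (hb : p b = 0) : b ∈ 𝔪 := by
  have hker : 𝔪 ≤ RingHom.ker p := fun b hb => (RingHom.mem_ker).2 (hle b hb)
  have hne : RingHom.ker p ≠ ⊤ := RingHom.ker_ne_top p
  have := h𝔪.eq_of_le hne hker
  rw [this]
  exact (RingHom.mem_ker).2 hb

/-- a point of the chart `0` on both components is a node of the chart `0`. -/
theorem exists_node₀ (hρt₁ : T.C0.ρ₁ T.t0 = x1 ^ m1) (hρt₂ : T.C0.ρ₂ T.t0 = x2 ^ m2)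
    (ex0 : ∀ p : T.C0.Pt, T.C0.On₁ p → T.C0.On₂ p → ∃ P : Place K F, T.C0.Centred P p)
    (p : T.C0.Pt) (h1 : T.C0.On₁ p) (h2 : T.C0.On₂ p) :
    ∃ i : T.rawRed.Node, tb x1 x2 m1 m2 ∈ T.rawRed.nodalData.compatAt i ∧
      T.C0.Val₁ p i.1.1 ∧ T.C0.Val₂ p i.1.2 := by
  obtain ⟨Q₁, hQ₁⟩ := T.val₁_exists₀ p h1
  obtain ⟨Q₂, hQ₂⟩ := T.val₂_exists₀ p h2
  obtain ⟨P, hP⟩ := ex0 p h1 h2
  have hfin : T.Fin0 P := by
    obtain ⟨a, ha, -⟩ := hP T.t0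
    exact ⟨a, ha⟩
  have hr1 : T.rawRed.r₁ P = some Q₁ := (T.r₁_eq_some_iff₀ hQ₁ P).2 ⟨hfin, hP⟩
  have hr2 : T.rawRed.r₂ P = some Q₂ := (T.r₂_eq_some_iff₀ hQ₂ P).2 ⟨hfin, hP⟩
  refine ⟨⟨(Q₁, Q₂), P, hr1, hr2⟩, ?_, hQ₁, hQ₂⟩
  rw [tb_eq_rho0 T hρt₁ hρt₂]
  exact rho0_mem_compatAt T ⟨(Q₁, Q₂), P, hr1, hr2⟩ hQ₁ hQ₂ _

/-- a point of the chart `1` on both components is a node of the chart `1`. -/
theorem exists_node₁ (hρt₁ : T.C0.ρ₁ T.t0 = x1 ^ m1) (hρt₂ : T.C0.ρ₂ T.t0 = x2 ^ m2)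
    (hE0 : ∀ b ∈ T.C0.B, ∃ n : ℕ, T.t⁻¹ ^ n * b ∈ T.C1.B)
    (ex1 : ∀ p : T.C1.Pt, T.C1.On₁ p → T.C1.On₂ p → ∃ P : Place K F, T.C1.Centred P p)
    (p : T.C1.Pt) (h1 : T.C1.On₁ p) (h2 : T.C1.On₂ p) :
    ∃ i : T.rawRed.Node, sb x1 x2 m1 m2 ∈ T.rawRed.nodalData.compatAt i ∧
      T.C1.Val₁ p i.1.1 ∧ T.C1.Val₂ p i.1.2 := by
  obtain ⟨Q₁, hQ₁⟩ := T.val₁_exists₁ p h1
  obtain ⟨Q₂, hQ₂⟩ := T.val₂_exists₁ p h2
  obtain ⟨P, hP⟩ := ex1 p h1 h2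
  have key : T.rawRed.r₁ P = some Q₁ ∧ T.rawRed.r₂ P = some Q₂ := by
    by_cases hfin : T.Fin0 P
    · -- the point lies in the overlap
      obtain ⟨χ0, hχ0⟩ := T.centred₀ P hfin
      obtain ⟨a, ha⟩ := hfin
      obtain ⟨a', ha', hpa'⟩ := hP T.s1
      have hunit : p T.s1 ≠ 0 := by
        rw [hasValue_iff_vanishing] at ha ha'
        have h3 := mul_sub_mem_vanishing ha ha'
        have h4 : T.t * ((T.s1 : T.C1.B) : F) = 1 := mul_inv_cancel₀ T.t_ne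
        rw [h4] at h3
        have h5 : (1 : F) - algebraMap K F 1 ∈ vanishing P := by
          rw [map_one, sub_self]; exact Submodule.zero_mem _
        rw [← hasValue_iff_vanishing] at h3 h5
        have h6 : (1 : K) = (a : K) * (a' : K) := h5.unique h3
        have h7 : a * a' = 1 := Subtype.ext (by simp [← h6])
        rw [hpa']
        intro h0
        have h8 : residue A (a * a') = 0 := by rw [map_mul, h0, mul_zero]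
        rw [h7, map_one] at h8
        exact one_ne_zero h8
      have hv1 : T.C0.Val₁ χ0 Q₁ := val₁_transfer T.C1 T.C0 hP hχ0 T.s1 hunit hE0 hQ₁
      have hv2 : T.C0.Val₂ χ0 Q₂ := val₂_transfer T.C1 T.C0 hP hχ0 T.s1 hunit hE0 hQ₂
      exact ⟨(T.r₁_eq_some_iff₀ hv1 P).2 ⟨⟨a, ha⟩, hχ0⟩, (T.r₂_eq_some_iff₀ hv2 P).2 ⟨⟨a, ha⟩, hχ0⟩⟩
    · obtain ⟨χ', hχ', hs'⟩ := T.centred₁' P hfin
      have hpe : p = χ' := T.C1.centred_unique hP hχ'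
      have hs : p T.s1 = 0 := by rw [hpe]; exact hs'
      exact ⟨(T.r₁_eq_some_iff₁ hs hQ₁ P).2 ⟨hfin, hP⟩, (T.r₂_eq_some_iff₁ hs hQ₂ P).2 ⟨hfin, hP⟩⟩
  refine ⟨⟨(Q₁, Q₂), P, key.1, key.2⟩, ?_, hQ₁, hQ₂⟩
  rw [sb_eq_rho1 T hρt₁ hρt₂]
  exact rho1_mem_compatAt T ⟨(Q₁, Q₂), P, key.1, key.2⟩ hQ₁ hQ₂ _

/-- **field `S0'`** from the two-chart model. -/
theorem S0_of_twoCharts (HL1 : LHyp (ResidueField A) Fb₁) (HL2 : LHyp (ResidueField A) Fb₂)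
    (hρt₁ : T.C0.ρ₁ T.t0 = x1 ^ m1) (hρt₂ : T.C0.ρ₂ T.t0 = x2 ^ m2)
    (surj1 : ∀ f1 ∈ chart (ResidueField A) x1, ∃ b : T.C0.B, T.C0.ρ₁ b = f1)
    (surj2 : ∀ f2 ∈ chart (ResidueField A) x2, ∃ b : T.C0.B, T.C0.ρ₂ b = f2)
    (pt0 : ∀ 𝔪 : Ideal T.C0.B, 𝔪.IsMaximal → vp1 (rho0 T) ⊔ vp2 (rho0 T) ≤ 𝔪 →
      ∃ p : T.C0.Pt, ∀ b ∈ 𝔪, p b = 0)
    (ex0 : ∀ p : T.C0.Pt, T.C0.On₁ p → T.C0.On₂ p → ∃ P : Place K F, T.C0.Centred P p)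
    (loc0 : ∀ 𝔪 : Ideal T.C0.B, 𝔪.IsMaximal → vp1 (rho0 T) ⊔ vp2 (rho0 T) ≤ 𝔪 → ∀ b ∈ 𝔪,
      ∃ d : T.C0.B, d ∉ 𝔪 ∧ d * b ∈ vp1 (rho0 T) ⊔ vp2 (rho0 T))
    (y : Fb₁ × Fb₂) (hy : y ∈ NC0 T.rawRed.nodalData x1 x2 m1 m2) :
    ∃ b : T.C0.B, rho0 T b = y := by
  rw [mem_NC0] at hy
  refine exists_lift_of_crt T.rawRed.nodalData (rho0 T)
    (fun i => tb x1 x2 m1 m2 ∈ T.rawRed.nodalData.compatAt i) HL1 HL2
    (chart (ResidueField A) x1 : Set Fb₁) (chart (ResidueField A) x2 : Set Fb₂)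
    surj1 surj2 ?_ ?_ y hy.1 hy.2.1 hy.2.2
  · intro b i hi
    obtain ⟨χ, h1, h2⟩ := exists_pt₀_of_tb T hρt₁ i hi
    exact rho0_mem_compatAt T i h1 h2 b
  · intro b hb
    refine mem_of_local (fun p : T.C0.Pt => T.C0.On₁ p ∧ T.C0.On₂ p)
      (vp1 (rho0 T) ⊔ vp2 (rho0 T)) (fun p : T.C0.Pt => p.1) ?_ loc0 b ?_
    · intro 𝔪 h𝔪 hI
      obtain ⟨p, hp⟩ := pt0 𝔪 h𝔪 hI
      have hback : ∀ b, p b = 0 → b ∈ 𝔪 := fun b hb => mem_of_pt_eq_zero p.1 𝔪 h𝔪 hp hb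
      refine ⟨p, ⟨?_, ?_⟩, hback⟩
      · intro b hb0
        apply hp
        apply hI
        apply Ideal.mem_sup_left
        rw [mem_vp1]
        exact hb0
      · intro b hb0
        apply hp
        apply hI
        apply Ideal.mem_sup_right
        rw [mem_vp2]
        exact hb0
    · rintro p ⟨h1, h2⟩
      obtain ⟨i, hi, hv1, -⟩ := exists_node₀ T hρt₁ hρt₂ ex0 p h1 h2
      have h3 := (hb i hi).1
      have h4 := hv1 b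
      have h5 : algebraMap (ResidueField A) Fb₁ (p b) ∈ vanishing i.1.1 := by
        have e : algebraMap (ResidueField A) Fb₁ (p b) =
            T.C0.ρ₁ b - (T.C0.ρ₁ b - algebraMap (ResidueField A) Fb₁ (p b)) := by ring
        rw [e]
        exact Submodule.sub_mem _ h3 h4
      exact const_not_mem_vanishing _ h5

/-- **field `S1'`** from the two-chart model. -/
theorem S1_of_twoCharts (HL1 : LHyp (ResidueField A) Fb₁) (HL2 : LHyp (ResidueField A) Fb₂)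
    (hρt₁ : T.C0.ρ₁ T.t0 = x1 ^ m1) (hρt₂ : T.C0.ρ₂ T.t0 = x2 ^ m2)
    (hE0 : ∀ b ∈ T.C0.B, ∃ n : ℕ, T.t⁻¹ ^ n * b ∈ T.C1.B)
    (hE1 : ∀ b ∈ T.C1.B, ∃ n : ℕ, T.t ^ n * b ∈ T.C0.B)
    (hcen : ∀ P : Place K F, (∃ a : A, HasValue P T.t⁻¹ (a : K)) → ∃ χ : T.C1.Pt, T.C1.Centred P χ)
    (surj1 : ∀ f1 ∈ chart (ResidueField A) x1⁻¹, ∃ b : T.C1.B, T.C1.ρ₁ b = f1)
    (surj2 : ∀ f2 ∈ chart (ResidueField A) x2⁻¹, ∃ b : T.C1.B, T.C1.ρ₂ b = f2)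
    (pt1 : ∀ 𝔪 : Ideal T.C1.B, 𝔪.IsMaximal → vp1 (rho1 T) ⊔ vp2 (rho1 T) ≤ 𝔪 →
      ∃ p : T.C1.Pt, ∀ b ∈ 𝔪, p b = 0)
    (ex1 : ∀ p : T.C1.Pt, T.C1.On₁ p → T.C1.On₂ p → ∃ P : Place K F, T.C1.Centred P p)
    (loc1 : ∀ 𝔪 : Ideal T.C1.B, 𝔪.IsMaximal → vp1 (rho1 T) ⊔ vp2 (rho1 T) ≤ 𝔪 → ∀ b ∈ 𝔪,
      ∃ d : T.C1.B, d ∉ 𝔪 ∧ d * b ∈ vp1 (rho1 T) ⊔ vp2 (rho1 T))
    (y : Fb₁ × Fb₂) (hy : y ∈ NC1 T.rawRed.nodalData x1 x2 m1 m2) :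
    ∃ b : T.C1.B, rho1 T b = y := by
  rw [mem_NC1] at hy
  refine exists_lift_of_crt T.rawRed.nodalData (rho1 T)
    (fun i => sb x1 x2 m1 m2 ∈ T.rawRed.nodalData.compatAt i) HL1 HL2
    (chart (ResidueField A) x1⁻¹ : Set Fb₁) (chart (ResidueField A) x2⁻¹ : Set Fb₂)
    surj1 surj2 ?_ ?_ y hy.1 hy.2.1 hy.2.2
  · intro b i hi
    obtain ⟨χ, h1, h2⟩ := exists_pt₁_of_sb T hρt₁ hE1 hcen i hi
    exact rho1_mem_compatAt T i h1 h2 b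
  · intro b hb
    refine mem_of_local (fun p : T.C1.Pt => T.C1.On₁ p ∧ T.C1.On₂ p)
      (vp1 (rho1 T) ⊔ vp2 (rho1 T)) (fun p : T.C1.Pt => p.1) ?_ loc1 b ?_
    · intro 𝔪 h𝔪 hI
      obtain ⟨p, hp⟩ := pt1 𝔪 h𝔪 hI
      have hback : ∀ b, p b = 0 → b ∈ 𝔪 := fun b hb => mem_of_pt_eq_zero p.1 𝔪 h𝔪 hp hb
      refine ⟨p, ⟨?_, ?_⟩, hback⟩
      · intro b hb0
        apply hp
        apply hI
        apply Ideal.mem_sup_left
        rw [mem_vp1]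
        exact hb0
      · intro b hb0
        apply hp
        apply hI
        apply Ideal.mem_sup_right
        rw [mem_vp2]
        exact hb0
    · rintro p ⟨h1, h2⟩
      obtain ⟨i, hi, hv1, -⟩ := exists_node₁ T hρt₁ hρt₂ hE0 ex1 p h1 h2
      have h3 := (hb i hi).1
      have h4 := hv1 b
      have h5 : algebraMap (ResidueField A) Fb₁ (p b) ∈ vanishing i.1.1 := by
        have e : algebraMap (ResidueField A) Fb₁ (p b) =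
            T.C1.ρ₁ b - (T.C1.ρ₁ b - algebraMap (ResidueField A) Fb₁ (p b)) := by ring
        rw [e]
        exact Submodule.sub_mem _ h3 h4
      exact const_not_mem_vanishing _ h5

end Nodes

/-! ### the contract -/

section Contract

variable (T : TwoCharts c₁ c₂)
variable (HL1 : LHyp (ResidueField A) Fb₁) (HL2 : LHyp (ResidueField A) Fb₂) (HL : LHyp K F)
variable {x1 : Fb₁} {x2 : Fb₂} (hx10 : x1 ≠ 0) (hx20 : x2 ≠ 0) (m1 m2 : ℕ)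

/-- **the contract `NodalChartsS` of a two-chart model `T : TwoCharts c₁ c₂`**, for the gluing datum
`T.rawRed.nodalData` of the context `T.rawRed.mkNodalRed`. -/
theorem chartsS_of_twoCharts
    (hE0 : ∀ b ∈ T.C0.B, ∃ n : ℕ, T.t⁻¹ ^ n * b ∈ T.C1.B)
    (hE1 : ∀ b ∈ T.C1.B, ∃ n : ℕ, T.t ^ n * b ∈ T.C0.B)
    (hreg0 : ∀ b ∈ T.C0.B, ∀ v : Place K F, 0 ≤ v.ord T.t → b ∈ v.toValuationSubring)
    (hreg1 : ∀ b ∈ T.C1.B, ∀ v : Place K F, v.ord T.t ≤ 0 → b ∈ v.toValuationSubring)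
    (hρt₁ : T.C0.ρ₁ T.t0 = x1 ^ m1) (hρt₂ : T.C0.ρ₂ T.t0 = x2 ^ m2)
    (hm1 : 0 < m1) (hm2 : 0 < m2)
    (hcen : ∀ P : Place K F, (∃ a : A, HasValue P T.t⁻¹ (a : K)) → ∃ χ : T.C1.Pt, T.C1.Centred P χ)
    (surj10 : ∀ f1 ∈ chart (ResidueField A) x1, ∃ b : T.C0.B, T.C0.ρ₁ b = f1)
    (surj20 : ∀ f2 ∈ chart (ResidueField A) x2, ∃ b : T.C0.B, T.C0.ρ₂ b = f2)
    (surj11 : ∀ f1 ∈ chart (ResidueField A) x1⁻¹, ∃ b : T.C1.B, T.C1.ρ₁ b = f1)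
    (surj21 : ∀ f2 ∈ chart (ResidueField A) x2⁻¹, ∃ b : T.C1.B, T.C1.ρ₂ b = f2)
    (pt0 : ∀ 𝔪 : Ideal T.C0.B, 𝔪.IsMaximal → vp1 (rho0 T) ⊔ vp2 (rho0 T) ≤ 𝔪 →
      ∃ p : T.C0.Pt, ∀ b ∈ 𝔪, p b = 0)
    (pt1 : ∀ 𝔪 : Ideal T.C1.B, 𝔪.IsMaximal → vp1 (rho1 T) ⊔ vp2 (rho1 T) ≤ 𝔪 →
      ∃ p : T.C1.Pt, ∀ b ∈ 𝔪, p b = 0)
    (ex0 : ∀ p : T.C0.Pt, T.C0.On₁ p → T.C0.On₂ p → ∃ P : Place K F, T.C0.Centred P p)
    (ex1 : ∀ p : T.C1.Pt, T.C1.On₁ p → T.C1.On₂ p → ∃ P : Place K F, T.C1.Centred P p)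
    (loc0 : ∀ 𝔪 : Ideal T.C0.B, 𝔪.IsMaximal → vp1 (rho0 T) ⊔ vp2 (rho0 T) ≤ 𝔪 → ∀ b ∈ 𝔪,
      ∃ d : T.C0.B, d ∉ 𝔪 ∧ d * b ∈ vp1 (rho0 T) ⊔ vp2 (rho0 T))
    (loc1 : ∀ 𝔪 : Ideal T.C1.B, 𝔪.IsMaximal → vp1 (rho1 T) ⊔ vp2 (rho1 T) ≤ 𝔪 → ∀ b ∈ 𝔪,
      ∃ d : T.C1.B, d ∉ 𝔪 ∧ d * b ∈ vp1 (rho1 T) ⊔ vp2 (rho1 T))
    (hdeg : NDiv.degree (Dt HL1 HL2 hx10 hx20 m1 m2) = Divisor.degree (poleDiv HL T.t_ne)) :
    NodalChartsS T.rawRed.nodalData HL1 HL2 hx10 hx20 m1 m2 (residue ↥A) HL (OO c₁ c₂).subtype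
      (rhoP c₁ c₂) (constRing c₁ c₂) (T.C0.B.comap (OO c₁ c₂).subtype)
      (T.C1.B.comap (OO c₁ c₂).subtype)
      ⟨T.t, (mem_OO c₁ c₂).2 ⟨T.C0.le₁ T.t_mem, T.C0.le₂ T.t_mem⟩⟩
      ⟨T.t⁻¹, (mem_OO c₁ c₂).2 ⟨T.C1.le₁ T.s_mem, T.C1.le₂ T.s_mem⟩⟩ := by
  refine chartsS_of_halfReds c₁ c₂ T.rawRed.nodalData HL1 HL2 HL hx10 hx20 m1 m2 T.t_ne
    T.C0.B T.C1.B T.C0.le₁ T.C0.le₂ T.C1.le₁ T.C1.le₂ T.C0.algebraMap_mem T.C1.algebraMap_mem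
    T.t_mem T.s_mem hE0 hE1 hreg0 hreg1 hρt₁ hρt₂ hm1 hm2
    (cover_of_twoCharts T hρt₁ hρt₂) ?_ ?_ hdeg
  · intro y hy
    obtain ⟨b, hb⟩ := S0_of_twoCharts T HL1 HL2 hρt₁ hρt₂ surj10 surj20 pt0 ex0 loc0 y hy
    exact ⟨(b : F), b.2, hb⟩
  · intro y hy
    obtain ⟨b, hb⟩ := S1_of_twoCharts T HL1 HL2 hρt₁ hρt₂ hE0 hE1 hcen surj11 surj21 pt1 ex1 loc1
      y hy
    exact ⟨(b : F), b.2, hb⟩

/-! ### variants of the hypotheses -/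

/-- a point is determined by its kernel. -/
theorem pt_eq_of_ker_le (C : Chart c₁ c₂) {p p' : C.Pt} (h : ∀ b, p b = 0 → p' b = 0) :
    p = p' := by
  apply Chart.Pt.ext'
  intro b
  obtain ⟨a, ha⟩ := residue_surjective (p b)
  have h1 : p (b - C.const a) = 0 := by
    rw [map_sub, p.2 a, ha, sub_self]
  have h2 := h _ h1
  rw [map_sub, p'.2 a, sub_eq_zero] at h2
  rw [h2, ha]

/-- the kernel of a point is a maximal ideal. -/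
theorem ker_pt_isMaximal (C : Chart c₁ c₂) (p : C.Pt) : (RingHom.ker p.1).IsMaximal := by
  apply RingHom.ker_isMaximal_of_surjective
  intro x
  obtain ⟨a, ha⟩ := residue_surjective x
  exact ⟨C.const a, by rw [p.2 a, ha]⟩

/-- **`pt_k` and `ex_k` from the dictionary "every closed point of the chart on both components is
the centre of a place"** (`[B-2]`). -/
theorem pt_ex_of_maximal (C : Chart c₁ c₂) (I : Ideal C.B)
    (hI : ∀ b ∈ I, ∃ b₁ b₂ : C.B, C.ρ₁ b₁ = 0 ∧ C.ρ₂ b₂ = 0 ∧ b = b₁ + b₂)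
    (hMP : ∀ 𝔪 : Ideal C.B, 𝔪.IsMaximal → I ≤ 𝔪 →
      ∃ (P : Place K F) (p : C.Pt), C.Centred P p ∧ ∀ b ∈ 𝔪, p b = 0) :
    (∀ 𝔪 : Ideal C.B, 𝔪.IsMaximal → I ≤ 𝔪 → ∃ p : C.Pt, ∀ b ∈ 𝔪, p b = 0) ∧
      (∀ p : C.Pt, C.On₁ p → C.On₂ p → ∃ P : Place K F, C.Centred P p) := by
  refine ⟨fun 𝔪 h𝔪 hle => ?_, fun p h1 h2 => ?_⟩
  · obtain ⟨P, p, -, hp⟩ := hMP 𝔪 h𝔪 hle
    exact ⟨p, hp⟩
  · have hle : I ≤ RingHom.ker p.1 := by
      intro b hb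
      obtain ⟨b₁, b₂, hb₁, hb₂, rfl⟩ := hI b hb
      rw [RingHom.mem_ker, map_add]
      have e1 : p.1 b₁ = 0 := h1 b₁ hb₁
      have e2 : p.1 b₂ = 0 := h2 b₂ hb₂
      rw [e1, e2, add_zero]
    obtain ⟨P, p', hP, hp'⟩ := hMP _ (ker_pt_isMaximal C p) hle
    have : p = p' := pt_eq_of_ker_le C (fun b hb => hp' b ((RingHom.mem_ker).2 hb))
    rw [this]
    exact ⟨P, hP⟩

/-- `pt0` and `ex0` of `chartsS_of_twoCharts` from the dictionary on the chart `0`. -/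
theorem pt_ex₀ (hMP : ∀ 𝔪 : Ideal T.C0.B, 𝔪.IsMaximal → vp1 (rho0 T) ⊔ vp2 (rho0 T) ≤ 𝔪 →
      ∃ (P : Place K F) (p : T.C0.Pt), T.C0.Centred P p ∧ ∀ b ∈ 𝔪, p b = 0) :
    (∀ 𝔪 : Ideal T.C0.B, 𝔪.IsMaximal → vp1 (rho0 T) ⊔ vp2 (rho0 T) ≤ 𝔪 →
      ∃ p : T.C0.Pt, ∀ b ∈ 𝔪, p b = 0) ∧
      (∀ p : T.C0.Pt, T.C0.On₁ p → T.C0.On₂ p → ∃ P : Place K F, T.C0.Centred P p) := by
  refine pt_ex_of_maximal T.C0 _ ?_ hMP
  intro b hb
  obtain ⟨b₁, hb₁, b₂, hb₂, hsum⟩ := Submodule.mem_sup.1 hb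
  rw [mem_vp1] at hb₁
  rw [mem_vp2] at hb₂
  exact ⟨b₁, b₂, hb₁, hb₂, hsum.symm⟩

/-- `pt1` and `ex1` of `chartsS_of_twoCharts` from the dictionary on the chart `1`. -/
theorem pt_ex₁ (hMP : ∀ 𝔪 : Ideal T.C1.B, 𝔪.IsMaximal → vp1 (rho1 T) ⊔ vp2 (rho1 T) ≤ 𝔪 →
      ∃ (P : Place K F) (p : T.C1.Pt), T.C1.Centred P p ∧ ∀ b ∈ 𝔪, p b = 0) :
    (∀ 𝔪 : Ideal T.C1.B, 𝔪.IsMaximal → vp1 (rho1 T) ⊔ vp2 (rho1 T) ≤ 𝔪 →
      ∃ p : T.C1.Pt, ∀ b ∈ 𝔪, p b = 0) ∧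
      (∀ p : T.C1.Pt, T.C1.On₁ p → T.C1.On₂ p → ∃ P : Place K F, T.C1.Centred P p) := by
  refine pt_ex_of_maximal T.C1 _ ?_ hMP
  intro b hb
  obtain ⟨b₁, hb₁, b₂, hb₂, hsum⟩ := Submodule.mem_sup.1 hb
  rw [mem_vp1] at hb₁
  rw [mem_vp2] at hb₂
  exact ⟨b₁, b₂, hb₁, hb₂, hsum.symm⟩

/-- the overlap and the regularity hypotheses of `chartsS_of_twoCharts` when the two charts are the
integral closures of `R₀[t]`, `R₀[t⁻¹]`. -/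
theorem overlap_of_chart {R₀ : Type*} [CommRing R₀] [Algebra R₀ F]
    (hR₀v : ∀ (v : Place K F) (r : R₀), algebraMap R₀ F r ∈ v.toValuationSubring)
    (hB0 : T.C0.B = (chart R₀ T.t).toSubring) (hB1 : T.C1.B = (chart R₀ T.t⁻¹).toSubring) :
    (∀ b ∈ T.C0.B, ∃ n : ℕ, T.t⁻¹ ^ n * b ∈ T.C1.B) ∧
    (∀ b ∈ T.C1.B, ∃ n : ℕ, T.t ^ n * b ∈ T.C0.B) ∧
    (∀ b ∈ T.C0.B, ∀ v : Place K F, 0 ≤ v.ord T.t → b ∈ v.toValuationSubring) ∧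
    (∀ b ∈ T.C1.B, ∀ v : Place K F, v.ord T.t ≤ 0 → b ∈ v.toValuationSubring) := by
  rw [hB0, hB1]
  refine ⟨?_, ?_, ?_, ?_⟩
  · intro b hb
    have hb' : b ∈ chart R₀ (T.t⁻¹)⁻¹ := by rw [inv_inv]; exact hb
    exact exists_pow_mul_mem_chart (R := R₀) (inv_ne_zero T.t_ne) hb'
  · intro b hb
    exact exists_pow_mul_mem_chart (R := R₀) T.t_ne hb
  · intro b hb v hv
    exact mem_place_of_mem_chart hR₀v hb v (mem_of_ord_nonneg v hv)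
  · intro b hb v hv
    refine mem_place_of_mem_chart hR₀v hb v (mem_of_ord_nonneg v ?_)
    rw [v.ord_inv]
    omega

end Contract

end Fermat.Agent.T33.NodalInst6
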