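/-
Programme T (S33), chapter (e) "N34 over ℚ̄", block NodalCharts-instance (helper6), part F:
**the hypotheses of `NodalInst6.chartsS_of_twoCharts` as ONE structure `TwoChartsHyp`, and chapter
(c) from it** (generic `K A F`, `c₁ c₂ : HalfRed A F Fb_j`, `T : TwoCharts c₁ c₂`).

`TwoChartsHyp T HL1 HL2 HL hx10 hx20 m1 m2` bundles, for the gluing datum `T.rawRed.nodalData`:
  `ρt₁ ρt₂`     `ρ₁ t = x₁ ^ m₁`, `ρ₂ t = x₂ ^ m₂`,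
  `E0 E1`       the overlap, `reg0 reg1` regularity of the chart elements on the generic fibre,
  `cen`         a place at which `1/t` has an integral value is centred on the chart `1`,
  `surj_jk`     `ρ_j (B_k) ⊇ chart κ x_j^{±1}`,
  `MP_k`        every maximal ideal of `B_k` containing `𝔭₁ + 𝔭₂` is contained in the kernel of a
                point which is the centre of a place (the dictionary closed points ↔ places),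
  `loc_k`       ordinary nodes in chart form,
  `deg`         `m₁ deg (x₁)_∞ + m₂ deg (x₂)_∞ = deg (t)_∞`.
* `TwoChartsHyp.chartsS` : the contract `NodalChartsS`;
* `contract_c_of_twoChartsHyp` : `p_a = g`, `RiemannNod g`, `RiemannEqLarge g`, `NonSpecialExists g`.
-/
import Mathlib
import Fermat.Agent.T33.NodalInst6E

set_option autoImplicit false
set_option linter.unusedSectionVars false
set_option linter.style.haveILetI false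

open AlgebraicCurve IsLocalRing IntermediateField

noncomputable section

namespace Fermat.Agent.T33.NodalInst6

open Fermat.Agent.X0 Fermat.Agent.X0.FF Fermat.Agent.RR.LSpace Fermat.Agent.RR.Riemann
  Fermat.Agent.FF.GoodRed8 Fermat.Agent.FF.SpecRR1
  Fermat.Agent.RED.PUR.ChartGeneric22 Fermat.Agent.T33.NodalCurve6
  Fermat.Agent.T33.NodalLift6 Fermat.Agent.T33.NodalLiftG6 Fermat.Agent.T33.NodalLiftS6
  Fermat.Agent.T33.NodalRR6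
  Fermat.Agent.T33.NodalCtx1 Fermat.Agent.T33.NodalPlaces1 Fermat.Agent.T33.NodalAbs1A

variable {K : Type*} [Field K] {A : ValuationSubring K}
variable {F : Type*} [Field F] [Algebra K F]
variable {Fb₁ Fb₂ : Type*} [Field Fb₁] [Field Fb₂]
  [Algebra (ResidueField A) Fb₁] [Algebra (ResidueField A) Fb₂]
variable {c₁ : HalfRed A F Fb₁} {c₂ : HalfRed A F Fb₂}

/-- **the hypotheses of `chartsS_of_twoCharts`, bundled.** -/
structure TwoChartsHyp (T : TwoCharts c₁ c₂)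
    (HL1 : LHyp (ResidueField A) Fb₁) (HL2 : LHyp (ResidueField A) Fb₂) (HL : LHyp K F)
    {x1 : Fb₁} {x2 : Fb₂} (hx10 : x1 ≠ 0) (hx20 : x2 ≠ 0) (m1 m2 : ℕ) : Prop where
  ρt₁ : T.C0.ρ₁ T.t0 = x1 ^ m1
  ρt₂ : T.C0.ρ₂ T.t0 = x2 ^ m2
  m1_pos : 0 < m1
  m2_pos : 0 < m2
  E0 : ∀ b ∈ T.C0.B, ∃ n : ℕ, T.t⁻¹ ^ n * b ∈ T.C1.B
  E1 : ∀ b ∈ T.C1.B, ∃ n : ℕ, T.t ^ n * b ∈ T.C0.B
  reg0 : ∀ b ∈ T.C0.B, ∀ v : Place K F, 0 ≤ v.ord T.t → b ∈ v.toValuationSubring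
  reg1 : ∀ b ∈ T.C1.B, ∀ v : Place K F, v.ord T.t ≤ 0 → b ∈ v.toValuationSubring
  cen : ∀ P : Place K F, (∃ a : A, HasValue P T.t⁻¹ (a : K)) → ∃ χ : T.C1.Pt, T.C1.Centred P χ
  surj10 : ∀ f1 ∈ chart (ResidueField A) x1, ∃ b : T.C0.B, T.C0.ρ₁ b = f1
  surj20 : ∀ f2 ∈ chart (ResidueField A) x2, ∃ b : T.C0.B, T.C0.ρ₂ b = f2
  surj11 : ∀ f1 ∈ chart (ResidueField A) x1⁻¹, ∃ b : T.C1.B, T.C1.ρ₁ b = f1
  surj21 : ∀ f2 ∈ chart (ResidueField A) x2⁻¹, ∃ b : T.C1.B, T.C1.ρ₂ b = f2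
  MP0 : ∀ 𝔪 : Ideal T.C0.B, 𝔪.IsMaximal → vp1 (rho0 T) ⊔ vp2 (rho0 T) ≤ 𝔪 →
    ∃ (P : Place K F) (q : T.C0.Pt), T.C0.Centred P q ∧ ∀ b ∈ 𝔪, q b = 0
  MP1 : ∀ 𝔪 : Ideal T.C1.B, 𝔪.IsMaximal → vp1 (rho1 T) ⊔ vp2 (rho1 T) ≤ 𝔪 →
    ∃ (P : Place K F) (q : T.C1.Pt), T.C1.Centred P q ∧ ∀ b ∈ 𝔪, q b = 0
  loc0 : ∀ 𝔪 : Ideal T.C0.B, 𝔪.IsMaximal → vp1 (rho0 T) ⊔ vp2 (rho0 T) ≤ 𝔪 → ∀ b ∈ 𝔪,
    ∃ d : T.C0.B, d ∉ 𝔪 ∧ d * b ∈ vp1 (rho0 T) ⊔ vp2 (rho0 T)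
  loc1 : ∀ 𝔪 : Ideal T.C1.B, 𝔪.IsMaximal → vp1 (rho1 T) ⊔ vp2 (rho1 T) ≤ 𝔪 → ∀ b ∈ 𝔪,
    ∃ d : T.C1.B, d ∉ 𝔪 ∧ d * b ∈ vp1 (rho1 T) ⊔ vp2 (rho1 T)
  deg : NDiv.degree (Dt HL1 HL2 hx10 hx20 m1 m2) = Divisor.degree (poleDiv HL T.t_ne)

variable {T : TwoCharts c₁ c₂}
  {HL1 : LHyp (ResidueField A) Fb₁} {HL2 : LHyp (ResidueField A) Fb₂} {HL : LHyp K F}
  {x1 : Fb₁} {x2 : Fb₂} {hx10 : x1 ≠ 0} {hx20 : x2 ≠ 0} {m1 m2 : ℕ}

/-- the contract `NodalChartsS` from the bundled hypotheses. -/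
theorem TwoChartsHyp.chartsS (H : TwoChartsHyp T HL1 HL2 HL hx10 hx20 m1 m2) :
    NodalChartsS T.rawRed.nodalData HL1 HL2 hx10 hx20 m1 m2 (residue ↥A) HL (OO c₁ c₂).subtype
      (rhoP c₁ c₂) (constRing c₁ c₂) (T.C0.B.comap (OO c₁ c₂).subtype)
      (T.C1.B.comap (OO c₁ c₂).subtype)
      ⟨T.t, (mem_OO c₁ c₂).2 ⟨T.C0.le₁ T.t_mem, T.C0.le₂ T.t_mem⟩⟩
      ⟨T.t⁻¹, (mem_OO c₁ c₂).2 ⟨T.C1.le₁ T.s_mem, T.C1.le₂ T.s_mem⟩⟩ :=
  chartsS_of_twoCharts T HL1 HL2 HL hx10 hx20 m1 m2 H.E0 H.E1 H.reg0 H.reg1 H.ρt₁ H.ρt₂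
    H.m1_pos H.m2_pos H.cen H.surj10 H.surj20 H.surj11 H.surj21
    (pt_ex₀ T H.MP0).1 (pt_ex₁ T H.MP1).1 (pt_ex₀ T H.MP0).2 (pt_ex₁ T H.MP1).2 H.loc0 H.loc1 H.deg

/-- **chapter (c) for a two-chart model**: the bundled hypotheses + the Riemann data of the two
components + Riemann's theorem on the generic fibre + one instance of semicontinuity in each large
bidegree give `p_a = g` and the three contracts (C1), (C2), (C3) with the generic genus `g`. -/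
theorem contract_c_of_twoChartsHyp [Fintype T.rawRed.Node] [Nonempty T.rawRed.Node]
    [IsAlgClosed (ResidueField A)]
    (hx1 : IsGen (ResidueField A) x1) (hx2 : IsGen (ResidueField A) x2)
    [Algebra.IsSeparable (ResidueField A)⟮x1⟯ Fb₁] [Algebra.IsSeparable (ResidueField A)⟮x2⟯ Fb₂]
    (g1 g2 : ℤ)
    (hR1 : ∀ D : Divisor (ResidueField A) Fb₁, Divisor.degree D + 1 - g1 ≤ ell D)
    (hR2 : ∀ D : Divisor (ResidueField A) Fb₂, Divisor.degree D + 1 - g2 ≤ ell D)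
    {D01 : Divisor (ResidueField A) Fb₁} (h01 : delta g1 D01 = 0)
    {D02 : Divisor (ResidueField A) Fb₂} (h02 : delta g2 D02 = 0)
    (H : TwoChartsHyp T HL1 HL2 HL hx10 hx20 m1 m2)
    (g : ℕ) (hRiem : ∃ c : ℤ, ∀ D : Divisor K F, c ≤ Divisor.degree D →
      ell D = Divisor.degree D + 1 - (g : ℤ))
    (hsemi : SemicontBound T.rawRed.nodalData (g : ℤ)) :
    ga T.rawRed.Node g1 g2 = (g : ℤ) ∧
      T.rawRed.nodalData.RiemannNod (g : ℤ) ∧ T.rawRed.nodalData.RiemannEqLarge (g : ℤ) ∧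
      T.rawRed.nodalData.NonSpecialExists g :=
  contract_c_of_chartsS hx1 hx2 g1 g2 hR1 hR2 h01 h02 H.chartsS g hRiem hsemi

end Fermat.Agent.T33.NodalInst6
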