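/-
Programme T (S33), chapter (e) "N34 over ℚ̄", block NodalCharts-instance (helper6), part G:
**chapter (c) for the concrete two-chart model of `X₀(M'p)`**: for `h : LevelHyp p M' A` and
`T : TwoCharts (c1 h) (c2 h)` (helper1's target structure, helper4's components), the three
contracts `RiemannNod`, `RiemannEqLarge`, `NonSpecialExists` for the gluing datum
`T.rawRed.nodalData`, with the genus `g` of the generic fibre.

The inputs at the good level `M'` (both components are copies of the special fibre of `X₀(M')`) are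
discharged here from programme FF: `x1 h = t̃` (`SpecialGen25.tRes`) is a separating generator,
Riemann's inequality on `Fb A M'` with `g' = genus (ℚ̄·F_{M'})` (`riemann_inequality_special_genus`)
and one divisor with `δ_{g'} = 0` (`exists_delta_eq_zero_base`).
-/
import Mathlib
import Fermat.Agent.T33.NodalInst6F
import Fermat.Agent.T33.NodalBase4A
import Fermat.Agent.FF.SpecialRR6L
import Fermat.Agent.FF.RedIface9

set_option autoImplicit false
set_option linter.unusedSectionVars false
set_option linter.style.haveILetI false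
set_option synthInstance.maxHeartbeats 400000

open AlgebraicCurve IsLocalRing ModularCurve IntermediateField

noncomputable section

namespace Fermat.Agent.T33.NodalInst6

open Fermat.Agent.X0 Fermat.Agent.X0.FF Fermat.Agent.RR.LSpace Fermat.Agent.RR.Riemann
  Fermat.Agent.FF.GoodRed8 Fermat.Agent.FF.SpecRR1
  Fermat.Agent.RED.PUR.ChartGeneric22 Fermat.Agent.T33.NodalCurve6
  Fermat.Agent.T33.NodalLift6 Fermat.Agent.T33.NodalLiftG6 Fermat.Agent.T33.NodalLiftS6
  Fermat.Agent.T33.NodalRR6
  Fermat.Agent.T33.NodalCtx1 Fermat.Agent.T33.NodalPlaces1 Fermat.Agent.T33.NodalAbs1A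
  Fermat.Agent.T33.NodalHalf4 Fermat.Agent.T33.NodalBase4A
  Fermat.Agent.RED.Interface4 Fermat.Agent.RED.BASE Fermat.Agent.FF.SpecialRR6
  Fermat.Agent.ES.RED.SpecialGen25 Fermat.Agent.FF.RedIface9

variable {p M' : ℕ} [NeZero M'] [NeZero p] {A : ValuationSubring Qbar}

/-- the reduction `t̃` of the Hauptmodul at the good level `M'`. -/
def x1 (h : LevelHyp p M' A) : Fb A M' :=
  haveI : Fact p.Prime := ⟨h.prime⟩
  tRes 4 8 M' p h.not_dvd (tMemM h) (Hauptmodul12.tGenBase' Hauptmodul12.baseHyp_four) A h.liesOver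

theorem isGen_x1 (h : LevelHyp p M' A) : IsGen (ResidueField ↥A) (x1 h) :=
  haveI : Fact p.Prime := ⟨h.prime⟩
  isGen_tRes 4 8 M' p h.not_dvd (tMemM h) (Hauptmodul12.tGenBase' Hauptmodul12.baseHyp_four) A
    h.liesOver

instance isSeparable_x1 (h : LevelHyp p M' A) :
    Algebra.IsSeparable (ResidueField ↥A)⟮x1 h⟯ (Fb A M') :=
  haveI : Fact p.Prime := ⟨h.prime⟩
  isSeparable_tRes 4 8 M' p h.not_dvd (tMemM h) (Hauptmodul12.tGenBase' Hauptmodul12.baseHyp_four) A
    h.liesOver

/-- the place reduction of programme FF at the good level. -/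
def rGood (h : LevelHyp p M' A) :
    Place Qbar (X0.FF M') → Place (ResidueField ↥A) (Fb A M') :=
  (redModel p h.prime A h.liesOver M' (hauptLevel_of_four_dvd h.four_dvd h.not_dvd)).rPl

theorem isPlaceReduction_rGood (h : LevelHyp p M' A) : IsPlaceReductionModL A M' (rGood h) :=
  haveI : Fact p.Prime := ⟨h.prime⟩
  (redModel p h.prime A h.liesOver M' (hauptLevel_of_four_dvd h.four_dvd h.not_dvd)).isPlaceReduction
    h.liesOver

/-- the hypotheses of the theory of `L(D)` on a component. -/
theorem lHyp_component (h : LevelHyp p M' A) : LHyp (ResidueField ↥A) (Fb A M') :=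
  haveI : Fact p.Prime := ⟨h.prime⟩
  lHyp_special 4 8 M' p h.not_dvd (tMemM h) (Hauptmodul12.tGenBase' Hauptmodul12.baseHyp_four) A
    h.liesOver (rGood h) (isPlaceReduction_rGood h)

/-- the genus of a component (= the genus of `X₀(M')` over `ℚ̄`). -/
def gComp (M' : ℕ) [NeZero M'] : ℕ :=
  @genus Qbar (X0.FF M') _ _ _ (Fermat.Agent.X0.HasCanDivInst.hasCanonicalDivisor M')

theorem riemann_component (h : LevelHyp p M' A) (D : Divisor (ResidueField ↥A) (Fb A M')) :
    Divisor.degree D + 1 - (gComp M' : ℤ) ≤ ell D :=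
  haveI : Fact p.Prime := ⟨h.prime⟩
  riemann_inequality_special_genus 4 8 M' p h.not_dvd (tMemM h)
    (Hauptmodul12.tGenBase' Hauptmodul12.baseHyp_four) A h.liesOver (rGood h)
    (isPlaceReduction_rGood h) D

theorem exists_delta_component (h : LevelHyp p M' A) :
    ∃ D₀ : Divisor (ResidueField ↥A) (Fb A M'), delta (gComp M' : ℤ) D₀ = 0 :=
  haveI : Fact p.Prime := ⟨h.prime⟩
  exists_delta_eq_zero_base 4 8 M' p h.not_dvd A h.liesOver Hauptmodul12.baseHyp_four h.four_dvd
    (rGood h) (isPlaceReduction_rGood h)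


/-! ### chapter (c) for the concrete model -/

set_option maxHeartbeats 3200000 in
/-- **chapter (c) for the two-chart model of `X₀(M'p)`.**  `x₁ = x1 h = t̃` (with `m₁ = 1` in
practice), `x₂` a separating generator of the second component with `ρ₂ t = x₂ ^ m₂` (`x₂ = W̄ t̃`,
`m₂ = p`); all the model-specific hypotheses are the fields of `H : TwoChartsHyp …`
(`NodalInst6F`). -/
theorem contract_c_of_twoCharts (h : LevelHyp p M' A) (T : TwoCharts (c1 h) (c2 h))
    [Fintype T.rawRed.Node] [Nonempty T.rawRed.Node]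
    (HL : LHyp Qbar ↥(Fbar (M' * p)))
    {x2 : Fb A M'} (hx2 : IsGen (ResidueField ↥A) x2)
    [Algebra.IsSeparable (ResidueField ↥A)⟮x2⟯ (Fb A M')]
    (m1 m2 : ℕ)
    (H : TwoChartsHyp T (lHyp_component h) (lHyp_component h) HL (isGen_x1 h).ne_zero hx2.ne_zero
      m1 m2)
    (g : ℕ) (hRiem : ∃ c : ℤ, ∀ D : Divisor Qbar ↥(Fbar (M' * p)), c ≤ Divisor.degree D →
      ell D = Divisor.degree D + 1 - (g : ℤ))
    (hsemi : SemicontBound T.rawRed.nodalData (g : ℤ)) :
    ga T.rawRed.Node (gComp M' : ℤ) (gComp M' : ℤ) = (g : ℤ) ∧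
      T.rawRed.nodalData.RiemannNod (g : ℤ) ∧ T.rawRed.nodalData.RiemannEqLarge (g : ℤ) ∧
      T.rawRed.nodalData.NonSpecialExists g := by
  haveI : IsAlgClosed (ResidueField ↥A) := Fermat.Agent.ES.RED.SpecialInv25.isAlgClosed_kk A
  obtain ⟨D₀, hD₀⟩ := exists_delta_component h
  exact contract_c_of_twoChartsHyp (isGen_x1 h) hx2 (gComp M' : ℤ) (gComp M' : ℤ)
    (riemann_component h) (riemann_component h) hD₀ hD₀ H g hRiem hsemi

end Fermat.Agent.T33.NodalInst6
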