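/-
Programme T (S33), chapter (e) (lead): **the bridge between the concrete components of
`T33/NodalHalf4` and the Kummer-residue vocabulary of `T33/Psi3G`.**

For `h : LevelHyp p M' A` and `N = M' * p`:
* `c1_O_eq : (c1 h).O = Psi3G.OOne A N`, `coe_c1_ρ : ((c1 h).ρ ⟨y, _⟩ : κ((q))) = Psi3G.rhoOne A N ⟨y, _⟩`;
* `c2_O_eq : (c2 h).O = Psi3G.OTwo A N`, `coe_c2_ρ : ((c2 h).ρ ⟨y, _⟩ : κ((q))) = Psi3G.rhoTwo A N ⟨y, _⟩`;
* `pu_c1 : Psi3F.pu (c1 h) = puOne A N`, `pu_c2 : Psi3F.pu (c2 h) = puTwo A N`;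
* `formalN_eq` : for every nodal reduction `Nn` of `Fbar N` whose components are `c1 h`, `c2 h`,
  `Psi3F.formalN Nn q = Psi3D.formalTwo A N q` — the abstract formal part of the nodal layer IS the
  kernel of the concrete `Ψ` of `T33/Psi3D`.
-/
import Mathlib
import Fermat.Agent.T33.NodalHalf4
import Fermat.Agent.T33.Psi3G

set_option autoImplicit false
set_option linter.unusedSectionVars false
set_option synthInstance.maxHeartbeats 400000

noncomputable section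

namespace Fermat.Agent.T33.NodalBridge0

open HahnSeries ModularCurve AlgebraicCurve IsLocalRing
open Fermat.Agent.RED.Interface4 Fermat.Agent.ES.RED
open Fermat.Agent.ES.N34.FrickeFK8 Fermat.Agent.FF Fermat.Agent.FF.GaussOv1
open Fermat.Agent.T33.Psi3B Fermat.Agent.T33.Psi3C Fermat.Agent.T33.Psi3D Fermat.Agent.T33.Psi3F
  Fermat.Agent.T33.Psi3G
open Fermat.Agent.T33.NodalCtx1 Fermat.Agent.T33.NodalCurve6 Fermat.Agent.T33.NodalHalf4

variable {p M' : ℕ} [NeZero M'] [NeZero p] {A : ValuationSubring Qbar}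

/-- the inclusion of the special-fibre function field of level `M'` in `κ((q))`. -/
def incl (A : ValuationSubring Qbar) (M' : ℕ) [NeZero M'] :
    Fb A M' →+* LaurentSeries (ResidueField ↥A) :=
  (modularFunctionFieldFullC (Setup8.kA A) M').subtype

theorem c1_O_eq (h : LevelHyp p M' A) : (c1 h).O = OOne A (M' * p) := by
  rw [OOne_eq_fracRing_gaussA]
  ext y
  exact mem_O1_iff_redA h y

theorem coe_c1_ρ (h : LevelHyp p M' A) (y : ↥(Fbar (M' * p))) (hy : y ∈ (c1 h).O)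
    (hy' : y ∈ OOne A (M' * p)) :
    incl A M' ((c1 h).ρ ⟨y, hy⟩) = rhoOne A (M' * p) ⟨y, hy'⟩ := by
  obtain ⟨a, b, hb, hab⟩ := (mem_O1_iff_redA h y).1 hy
  rw [rhoOne_eq' A (M' * p) y hy' a b hb hab]
  have hb' : redN h b ≠ 0 := (redN_ne_zero_iff h b).2 hb
  have h1 : (c1 h).ρ ⟨y, hy⟩ = redN h a / redN h b :=
    fracRed_eq _ _ ⟨y, hy⟩ a b hb' hab
  rw [h1, map_div₀]
  rfl

theorem c2_O_eq (h : LevelHyp p M' A) : (c2 h).O = OTwo A (M' * p) := by
  ext y
  show frickeBar (M' * p) y ∈ (c1 h).O ↔ frickeBarEquiv (M' * p) y ∈ OOne A (M' * p)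
  rw [c1_O_eq h]
  rfl

theorem coe_c2_ρ (h : LevelHyp p M' A) (y : ↥(Fbar (M' * p))) (hy : y ∈ (c2 h).O)
    (hy' : y ∈ OTwo A (M' * p)) :
    incl A M' ((c2 h).ρ ⟨y, hy⟩) = rhoTwo A (M' * p) ⟨y, hy'⟩ := by
  rw [rhoTwo_apply]
  exact coe_c1_ρ h (frickeBar (M' * p) y) hy hy'

/-- **the principal units of the first component.** -/
theorem pu_c1 (h : LevelHyp p M' A) : pu (c1 h) = puOne A (M' * p) :=
  pu_eq_puOne_of (c1 h) (incl A M') (c1_O_eq h) (fun y hy hy' => coe_c1_ρ h y hy hy')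

/-- **the principal units of the second component.** -/
theorem pu_c2 (h : LevelHyp p M' A) : pu (c2 h) = puTwo A (M' * p) :=
  pu_eq_puTwo_of (c2 h) (incl A M') (c2_O_eq h) (fun y hy hy' => coe_c2_ρ h y hy hy')

/-- **the formal part of a nodal reduction with components `c1 h`, `c2 h` is the kernel of the
concrete `Ψ`.** -/
theorem formalN_eq (h : LevelHyp p M' A) {ι : Type*}
    {Nd : NodalData (ResidueField ↥A) (Fb A M') (Fb A M') ι}
    (Nn : NodalRed A ↥(Fbar (M' * p)) Nd) (h₁ : Nn.c₁ = c1 h) (h₂ : Nn.c₂ = c2 h) (q : ℕ) :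
    formalN Nn q = formalTwo A (M' * p) q :=
  formalN_eq_formalTwo Nn (by rw [h₁]; exact pu_c1 h) (by rw [h₂]; exact pu_c2 h) q

end Fermat.Agent.T33.NodalBridge0
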