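/-
Programme T (S33), nodal layer, chapter N-B (helper2), part A: **tools for the nodal integral
Riemann–Roch lattice.**

* `pushOpt r D` : push-forward of a divisor along a PARTIAL map `r : α → Option β` (the places with
  `r P = none` are dropped); apply formula, additivity, positivity lemmas;
* one component `c : HalfRed A F Fb`: constants, `coe_ne_zero_of_ρ_ne_zero`, `mem_of_smul_mem`,
  `not_mem_of_ρ_eq_zero`;
* the two components `N : NodalRed A F Nd`: `exists_scale` (NODAL GAUSS: every `f ≠ 0` is a constant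
  times an element of `O₁ ∩ O₂` with at least one nonzero reduction; if `f ∉ O₁ ∩ O₂` the constant is
  in `𝔪_A`), `exists_eq_mul_of_ρ_eq_zero` (KERNEL of `(ρ₁, ρ₂)` on `O₁ ∩ O₂` is `𝔪_A (O₁ ∩ O₂)`);
* `push₁'`, `push₂'` : the axioms `push_i` in `pushOpt` form;
  `value_mem₁/₂`, `ρ_value₁/₂` : EVALUATION at a place reducing to a smooth point (ports of
  `RedLat2.AbsRed.value_mem`, `ρ_value`).
-/
import Mathlib
import Fermat.Agent.T33.NodalAbs1A

set_option autoImplicit false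
set_option linter.unusedSectionVars false

open AlgebraicCurve IsLocalRing

namespace Fermat.Agent.T33.NodalLat2

open Fermat.Agent.T33.NodalCtx1 Fermat.Agent.T33.NodalCurve6 Fermat.Agent.T33.NodalAbs1A
  Fermat.Agent.X0.FF Fermat.Agent.RR.LSpace

/-! ### push-forward along a partial map -/

section PushOpt

variable {α β : Type*}

/-- the push-forward of a divisor along a partial map. -/
noncomputable def pushOpt (r : α → Option β) (D : α →₀ ℤ) : β →₀ ℤ :=
  D.sum fun P n => (r P).elim 0 fun Q => Finsupp.single Q n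

variable (r : α → Option β)

@[simp] theorem pushOpt_zero : pushOpt r (0 : α →₀ ℤ) = 0 := by
  simp [pushOpt]

theorem pushOpt_add (D E : α →₀ ℤ) : pushOpt r (D + E) = pushOpt r D + pushOpt r E := by
  unfold pushOpt
  apply Finsupp.sum_add_index'
  · intro P
    cases r P <;> simp
  · intro P m n
    cases r P <;> simp

theorem pushOpt_single_some {P : α} {Q : β} (h : r P = some Q) (n : ℤ) :
    pushOpt r (Finsupp.single P n) = Finsupp.single Q n := by
  unfold pushOpt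
  rw [Finsupp.sum_single_index]
  · rw [h]; rfl
  · cases r P <;> simp

theorem pushOpt_single_none {P : α} (h : r P = none) (n : ℤ) :
    pushOpt r (Finsupp.single P n) = 0 := by
  unfold pushOpt
  rw [Finsupp.sum_single_index]
  · rw [h]; rfl
  · cases r P <;> simp

open Classical in
theorem pushOpt_apply (D : α →₀ ℤ) (Q : β) :
    pushOpt r D Q = ∑ P ∈ D.support, if r P = some Q then D P else 0 := by
  unfold pushOpt
  rw [Finsupp.sum, Finsupp.finsetSum_apply]
  refine Finset.sum_congr rfl fun P _ => ?_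
  cases h : r P with
  | none => simp
  | some Q' =>
    simp only [Option.elim_some, Finsupp.single_apply, Option.some.injEq]

theorem pushOpt_nonneg_at (D : α →₀ ℤ) (Q : β) (h : ∀ P, r P = some Q → 0 ≤ D P) :
    0 ≤ pushOpt r D Q := by
  classical
  rw [pushOpt_apply]
  refine Finset.sum_nonneg fun P _ => ?_
  split_ifs with hP
  · exact h P hP
  · exact le_rfl

theorem pushOpt_pos_at (D : α →₀ ℤ) (Q : β) (h : ∀ P, r P = some Q → 0 ≤ D P) {P : α}
    (hP : r P = some Q) (hpos : 0 < D P) : 0 < pushOpt r D Q := by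
  classical
  rw [pushOpt_apply]
  have hmem : P ∈ D.support := by
    rw [Finsupp.mem_support_iff]
    exact hpos.ne'
  have h1 : (if r P = some Q then D P else 0) ≤
      ∑ P' ∈ D.support, if r P' = some Q then D P' else 0 := by
    refine Finset.single_le_sum (f := fun P' => if r P' = some Q then D P' else 0)
      (fun P' _ => ?_) hmem
    show 0 ≤ if r P' = some Q then D P' else 0
    split_ifs with hP'
    · exact h P' hP'
    · exact le_rfl
  rw [if_pos hP] at h1
  exact lt_of_lt_of_le hpos h1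

theorem pushOpt_eq_zero_at (D : α →₀ ℤ) (Q : β) (h : ∀ P, r P = some Q → D P = 0) :
    pushOpt r D Q = 0 := by
  classical
  rw [pushOpt_apply]
  refine Finset.sum_eq_zero fun P _ => ?_
  split_ifs with hP
  · exact h P hP
  · rfl

theorem pushOpt_nonneg (D : α →₀ ℤ) (h : 0 ≤ D) : 0 ≤ pushOpt r D := by
  intro Q
  exact pushOpt_nonneg_at r D Q fun P _ => h P

end PushOpt

variable {K : Type*} [Field K] {A : ValuationSubring K}
variable {F : Type*} [Field F] [Algebra K F]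

/-! ### one component -/

section Half

variable {Fb : Type*} [Field Fb] [Algebra (ResidueField A) Fb] (c : HalfRed A F Fb)

/-- the constant `a ∈ A` as an element of `O`. -/
def hconst (a : A) : c.O := ⟨algebraMap K F (a : K), c.algebraMap_mem a⟩

@[simp] theorem coe_hconst (a : A) : ((hconst c a : c.O) : F) = algebraMap K F (a : K) := rfl

theorem ρ_hconst (a : A) : c.ρ (hconst c a) = algebraMap (ResidueField A) Fb (residue A a) :=
  c.ρ_algebraMap a

theorem ρ_hconst_eq_zero {a : A} (ha : a ∈ maximalIdeal A) : c.ρ (hconst c a) = 0 := by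
  rw [ρ_hconst, (IsLocalRing.residue_eq_zero_iff a).2 ha, map_zero]

theorem coe_ne_zero_of_ρ_ne_zero {y : c.O} (hy : c.ρ y ≠ 0) : (y : F) ≠ 0 := by
  intro h0
  apply hy
  have : y = 0 := Subtype.ext h0
  rw [this, map_zero]

/-- if `b f ∈ O` and `b⁻¹ ∈ A` then `f ∈ O`. -/
theorem mem_of_smul_mem {b : K} (hb0 : b ≠ 0) (hb : b⁻¹ ∈ A) {f : F}
    (h : algebraMap K F b * f ∈ c.O) : f ∈ c.O := by
  have : f = algebraMap K F b⁻¹ * (algebraMap K F b * f) := by
    rw [← mul_assoc, ← map_mul, inv_mul_cancel₀ hb0, map_one, one_mul]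
  rw [this]
  exact mul_const_mem c hb h

/-- if `y ∈ O` has reduction `0` and `b y ∈ O` has nonzero reduction then `b ∉ A`. -/
theorem not_mem_of_ρ_eq_zero {y : F} (hy : y ∈ c.O) (hρ : c.ρ ⟨y, hy⟩ = 0) {b : K}
    (h : algebraMap K F b * y ∈ c.O) (hne : c.ρ ⟨_, h⟩ ≠ 0) : b ∉ A := by
  intro hb
  apply hne
  rw [ρ_mul_const c hb hy, hρ, mul_zero]

end Half

/-! ### evaluation at a place reducing to a point where the push-forward formula holds -/

section Eval

variable {Fb : Type*} [Field Fb] [Algebra (ResidueField A) Fb] (c : HalfRed A F Fb)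
variable (r : Place K F → Option (Place (ResidueField A) Fb)) (Q : Place (ResidueField A) Fb)

/-- **integrality of values**: if `y ∈ O` has no pole at any place over `Q` (a point where the
push-forward formula holds), then its value at a place `P` over `Q` lies in `A`. -/
theorem value_mem_half (HL : LHyp K F)
    (hpush : ∀ (y : c.O) (hy : c.ρ y ≠ 0),
      pushOpt r (divOf HL (coe_ne_zero_of_ρ_ne_zero c hy)) Q = Q.ord (c.ρ y))
    (y : c.O) (P : Place K F) (hP : r P = some Q)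
    (hy : ∀ P', r P' = some Q → 0 ≤ P'.ord (y : F)) {a : K}
    (ha : (y : F) = algebraMap K F a ∨ 0 < P.ord ((y : F) - algebraMap K F a)) : a ∈ A := by
  by_contra haA
  have ha0 : a ≠ 0 := fun h0 => haA (h0 ▸ A.zero_mem)
  obtain ⟨hinv, hmax⟩ := (show ∃ h : a⁻¹ ∈ A, (⟨a⁻¹, h⟩ : A) ∈ maximalIdeal A from by
    have hinv : a⁻¹ ∈ A := (A.mem_or_inv_mem a).resolve_left haA
    exact ⟨hinv, mem_maximalIdeal_of_inv_not_mem hinv (by rwa [inv_inv])⟩)
  -- `z = a⁻¹ y - 1` reduces to `-1`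
  set z : c.O := hconst c ⟨a⁻¹, hinv⟩ * y - 1 with hz
  have hρz : c.ρ z = -1 := by
    rw [hz, map_sub, map_mul, ρ_hconst_eq_zero c hmax, zero_mul, map_one, zero_sub]
  have hρz0 : c.ρ z ≠ 0 := by
    rw [hρz]
    exact neg_ne_zero.2 one_ne_zero
  have hz0 := coe_ne_zero_of_ρ_ne_zero c hρz0
  have hzF : (z : F) = algebraMap K F a⁻¹ * ((y : F) - algebraMap K F a) := by
    rw [hz]
    show algebraMap K F a⁻¹ * (y : F) - 1 = _
    rw [mul_sub, ← map_mul, inv_mul_cancel₀ ha0, map_one]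
  have h1 := hpush z hρz0
  rw [hρz, ord_neg, Place.ord_one] at h1
  have h2 : 0 < pushOpt r (divOf HL hz0) Q := by
    apply pushOpt_pos_at r _ _ _ hP
    · rw [divOf_apply, hzF]
      rcases ha with ha | ha
      · exfalso
        apply hz0
        rw [hzF, ha, sub_self, mul_zero]
      · have hne : (y : F) - algebraMap K F a ≠ 0 := by
          intro h0
          rw [h0] at ha
          simp at ha
        rw [Place.ord_mul _ (by simpa using ha0) hne, ord_algebraMap, zero_add]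
        exact ha
    · intro P' hP'
      rw [divOf_apply]
      apply ord_nonneg_of_mem
      rw [hz]
      show algebraMap K F a⁻¹ * (y : F) - 1 ∈ P'.toValuationSubring
      exact sub_mem (mul_mem (P'.algebraMap_mem' _) (mem_of_ord_nonneg P' (hy P' hP')))
        (one_mem _)
  omega

/-- **reduction of values**: if `y ∈ O` has no pole at any place over `Q` and value `a ∈ A` at a
place `P` over `Q`, then `ρ y` has value `residue a` at `Q`. -/
theorem ρ_value_half (HL : LHyp K F)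
    (hpush : ∀ (y : c.O) (hy : c.ρ y ≠ 0),
      pushOpt r (divOf HL (coe_ne_zero_of_ρ_ne_zero c hy)) Q = Q.ord (c.ρ y))
    (y : c.O) (P : Place K F) (hP : r P = some Q)
    (hy : ∀ P', r P' = some Q → 0 ≤ P'.ord (y : F)) (a : A)
    (ha : (y : F) = algebraMap K F (a : K) ∨ 0 < P.ord ((y : F) - algebraMap K F (a : K))) :
    c.ρ y = algebraMap (ResidueField A) Fb (residue A a) ∨
      0 < Q.ord (c.ρ y - algebraMap (ResidueField A) Fb (residue A a)) := by
  set w : c.O := y - hconst c a with hw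
  have hρw : c.ρ w = c.ρ y - algebraMap (ResidueField A) Fb (residue A a) := by
    rw [hw, map_sub, ρ_hconst]
  by_cases h0 : c.ρ w = 0
  · left
    rw [hρw, sub_eq_zero] at h0
    exact h0
  · right
    have hw0 := coe_ne_zero_of_ρ_ne_zero c h0
    have hwF : (w : F) = (y : F) - algebraMap K F (a : K) := rfl
    have h1 := hpush w h0
    rw [← hρw, ← h1]
    apply pushOpt_pos_at r _ _ _ hP
    · rw [divOf_apply, hwF]
      rcases ha with ha | ha
      · exfalso
        apply hw0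
        rw [hwF, ha, sub_self]
      · exact ha
    · intro P' hP'
      rw [divOf_apply]
      apply ord_nonneg_of_mem
      rw [hwF]
      exact sub_mem (mem_of_ord_nonneg P' (hy P' hP')) (P'.algebraMap_mem' _)

end Eval

/-! ### the two components -/

section Nodal

variable {Fb₁ Fb₂ : Type*} [Field Fb₁] [Field Fb₂]
  [Algebra (ResidueField A) Fb₁] [Algebra (ResidueField A) Fb₂]
variable {ι : Type*} {Nd : NodalData (ResidueField A) Fb₁ Fb₂ ι} (N : NodalRed A F Nd)

theorem inv_mem_maximalIdeal {b : K} (hb : b ∉ A) :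
    ∃ h : b⁻¹ ∈ A, (⟨b⁻¹, h⟩ : A) ∈ maximalIdeal A := by
  have hinv : b⁻¹ ∈ A := (A.mem_or_inv_mem b).resolve_left hb
  refine ⟨hinv, mem_maximalIdeal_of_inv_not_mem hinv ?_⟩
  rwa [inv_inv]

/-- **nodal Gauss**: every nonzero function is a constant times an element of `O₁ ∩ O₂` one of
whose reductions is nonzero. -/
theorem exists_scale (f : F) (hf : f ≠ 0) :
    ∃ b : K, b ≠ 0 ∧ ∃ (h₁ : algebraMap K F b * f ∈ N.c₁.O) (h₂ : algebraMap K F b * f ∈ N.c₂.O),
      N.c₁.ρ ⟨_, h₁⟩ ≠ 0 ∨ N.c₂.ρ ⟨_, h₂⟩ ≠ 0 := by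
  obtain ⟨b₁, hb₁, hm₁, hne₁⟩ := N.c₁.gauss f hf
  obtain ⟨b₂, hb₂, hm₂, hne₂⟩ := N.c₂.gauss f hf
  rcases A.mem_or_inv_mem (b₁ / b₂) with h | h
  · -- `b₁ f = (b₁ / b₂) (b₂ f) ∈ O₂`
    refine ⟨b₁, hb₁, hm₁, ?_, Or.inl hne₁⟩
    have : algebraMap K F b₁ * f = algebraMap K F (b₁ / b₂) * (algebraMap K F b₂ * f) := by
      rw [← mul_assoc, ← map_mul, div_mul_cancel₀ b₁ hb₂]
    rw [this]
    exact mul_const_mem N.c₂ h hm₂
  · refine ⟨b₂, hb₂, ?_, hm₂, Or.inr hne₂⟩
    rw [inv_div] at h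
    have : algebraMap K F b₂ * f = algebraMap K F (b₂ / b₁) * (algebraMap K F b₁ * f) := by
      rw [← mul_assoc, ← map_mul, div_mul_cancel₀ b₂ hb₁]
    rw [this]
    exact mul_const_mem N.c₁ h hm₁

/-- nodal Gauss for a function outside `O₁ ∩ O₂`: the constant lies in `𝔪_A`. -/
theorem exists_scale_of_not_mem {f : F} (hf : ¬ (f ∈ N.c₁.O ∧ f ∈ N.c₂.O)) :
    ∃ b : A, b ∈ maximalIdeal A ∧
      ∃ (h₁ : algebraMap K F (b : K) * f ∈ N.c₁.O) (h₂ : algebraMap K F (b : K) * f ∈ N.c₂.O),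
        N.c₁.ρ ⟨_, h₁⟩ ≠ 0 ∨ N.c₂.ρ ⟨_, h₂⟩ ≠ 0 := by
  have hf0 : f ≠ 0 := by
    rintro rfl
    exact hf ⟨N.c₁.O.zero_mem, N.c₂.O.zero_mem⟩
  obtain ⟨b, hb0, h₁, h₂, hne⟩ := exists_scale N f hf0
  have hbinv : b⁻¹ ∉ A := fun hb =>
    hf ⟨mem_of_smul_mem N.c₁ hb0 hb h₁, mem_of_smul_mem N.c₂ hb0 hb h₂⟩
  have hbA : b ∈ A := (A.mem_or_inv_mem b).resolve_right hbinv
  exact ⟨⟨b, hbA⟩, mem_maximalIdeal_of_inv_not_mem hbA hbinv, h₁, h₂, hne⟩

/-- **the kernel of `(ρ₁, ρ₂)` on `O₁ ∩ O₂` is `𝔪_A (O₁ ∩ O₂)`.** -/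
theorem exists_eq_mul_of_ρ_eq_zero {y : F} (h₁ : y ∈ N.c₁.O) (h₂ : y ∈ N.c₂.O)
    (hρ₁ : N.c₁.ρ ⟨y, h₁⟩ = 0) (hρ₂ : N.c₂.ρ ⟨y, h₂⟩ = 0) :
    ∃ c : A, c ∈ maximalIdeal A ∧ ∃ y' : F, y' ∈ N.c₁.O ∧ y' ∈ N.c₂.O ∧
      y = algebraMap K F (c : K) * y' := by
  by_cases hy0 : y = 0
  · exact ⟨0, Ideal.zero_mem _, 0, N.c₁.O.zero_mem, N.c₂.O.zero_mem, by simp [hy0]⟩
  obtain ⟨b, hb0, hm₁, hm₂, hne⟩ := exists_scale N y hy0
  have hbA : b ∉ A := by
    rcases hne with hne | hne
    · exact not_mem_of_ρ_eq_zero N.c₁ h₁ hρ₁ hm₁ hne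
    · exact not_mem_of_ρ_eq_zero N.c₂ h₂ hρ₂ hm₂ hne
  obtain ⟨hinv, hmax⟩ := inv_mem_maximalIdeal hbA
  refine ⟨⟨b⁻¹, hinv⟩, hmax, algebraMap K F b * y, hm₁, hm₂, ?_⟩
  show y = algebraMap K F b⁻¹ * (algebraMap K F b * y)
  rw [← mul_assoc, ← map_mul, inv_mul_cancel₀ hb0, map_one, one_mul]

/-! ### the push-forward axioms in `pushOpt` form -/

/-- `push₁` in `pushOpt` form. -/
theorem push₁' (HL : LHyp K F) (y : N.c₁.O) (hy : N.c₁.ρ y ≠ 0)
    (Q : Place (ResidueField A) Fb₁) (hQ : Nd.Smooth1 Q) :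
    pushOpt N.r₁ (divOf HL (coe_ne_zero_of_ρ_ne_zero N.c₁ hy)) Q = Q.ord (N.c₁.ρ y) := by
  classical
  have hy0 := coe_ne_zero_of_ρ_ne_zero N.c₁ hy
  rw [pushOpt_apply, ← Finset.sum_filter]
  exact N.push₁ y hy Q hQ (divOf HL hy0) (fun P => divOf_apply HL hy0 P) _
    (fun P => Finset.mem_filter)

/-- `push₂` in `pushOpt` form. -/
theorem push₂' (HL : LHyp K F) (y : N.c₂.O) (hy : N.c₂.ρ y ≠ 0)
    (Q : Place (ResidueField A) Fb₂) (hQ : Nd.Smooth2 Q) :
    pushOpt N.r₂ (divOf HL (coe_ne_zero_of_ρ_ne_zero N.c₂ hy)) Q = Q.ord (N.c₂.ρ y) := by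
  classical
  have hy0 := coe_ne_zero_of_ρ_ne_zero N.c₂ hy
  rw [pushOpt_apply, ← Finset.sum_filter]
  exact N.push₂ y hy Q hQ (divOf HL hy0) (fun P => divOf_apply HL hy0 P) _
    (fun P => Finset.mem_filter)

end Nodal

end Fermat.Agent.T33.NodalLat2
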