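/-
Programme T (S33), nodal layer, chapter N-B (helper2), part B: **the nodal integral Riemann–Roch
lattice** (contract (b1)).

`N : NodalRed A F Nd` a two-component nodal reduction context, `LHyp` on the three function
fields, infinitely many smooth points in the image of each partial reduction, `D` a divisor of `F`
whose support has SMOOTH reduction.  Then `L(D) ∩ O₁ ∩ O₂` has an `A`-basis `β` which is a
`K`-basis of `L(D)` and whose reductions `(ρ₁ β i, ρ₂ β i)` are `κ`-linearly independent elements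
of `L^nod(r_* D)`, `r_* D = (pushOpt r₁ D, pushOpt r₂ D)`  (`exists_nodal_integral_basis`).
Consequence: SEMICONTINUITY `l(D) ≤ l^nod(r_* D)` (`finrank_L_le_ell`).

Proof: port of `FF/RedLat2B.exists_integral_basis`.  Evaluation at `> deg` smooth points of EACH
component embeds `L(D)` in `K^N` with `τ (L(D) ∩ O₁ ∩ O₂) = τ (L(D)) ∩ A^N`; then `ValFree1`.
-/
import Mathlib
import Fermat.Agent.T33.NodalLat2A
import Fermat.Agent.FF.ValFree1

set_option autoImplicit false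
set_option linter.unusedSectionVars false

open AlgebraicCurve IsLocalRing

namespace Fermat.Agent.T33.NodalLat2

open Fermat.Agent.T33.NodalCtx1 Fermat.Agent.T33.NodalCurve6 Fermat.Agent.T33.NodalAbs1A
  Fermat.Agent.X0.FF Fermat.Agent.RR.LSpace Fermat.Agent.FF.RedLat2 Fermat.Agent.FF.ValFree1

variable {K : Type*} [Field K] {A : ValuationSubring K}
variable {F : Type*} [Field F] [Algebra K F]
variable {Fb₁ Fb₂ : Type*} [Field Fb₁] [Field Fb₂]
  [Algebra (ResidueField A) Fb₁] [Algebra (ResidueField A) Fb₂]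
variable {ι : Type*} {Nd : NodalData (ResidueField A) Fb₁ Fb₂ ι} (N : NodalRed A F Nd)

/-- the reduction `r_* D = (r₁_* D, r₂_* D)` of a divisor. -/
noncomputable def redDiv (D : Divisor K F) : NDiv (ResidueField A) Fb₁ Fb₂ :=
  (pushOpt N.r₁ D, pushOpt N.r₂ D)

/-- the support of `D` has smooth reduction. -/
def SmoothSupp (D : Divisor K F) : Prop := ∀ P, D P ≠ 0 → N.IsSmoothRed P

/-- infinitely many smooth points of `C₁` are reductions of places. -/
def HasManySmooth₁ : Prop :=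
  ∀ S : Finset (Place (ResidueField A) Fb₁), ∃ (P : Place K F) (Q : Place (ResidueField A) Fb₁),
    N.r₁ P = some Q ∧ Nd.Smooth1 Q ∧ Q ∉ S

/-- infinitely many smooth points of `C₂` are reductions of places. -/
def HasManySmooth₂ : Prop :=
  ∀ S : Finset (Place (ResidueField A) Fb₂), ∃ (P : Place K F) (Q : Place (ResidueField A) Fb₂),
    N.r₂ P = some Q ∧ Nd.Smooth2 Q ∧ Q ∉ S

variable {N}

/-! ### places over the nodes are outside a smooth support -/

theorem apply_eq_zero_of_r₁_node {D : Divisor K F} (hD : SmoothSupp N D) {P : Place K F} {i : ι}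
    (hP : N.r₁ P = some (Nd.s1 i)) : D P = 0 := by
  by_contra h
  exact not_redToNode_of_isSmoothRed N (hD P h) i hP

theorem apply_eq_zero_of_r₂_node {D : Divisor K F} (hD : SmoothSupp N D) {P : Place K F} {i : ι}
    (hP : N.r₂ P = some (Nd.s2 i)) : D P = 0 :=
  apply_eq_zero_of_r₁_node hD ((N.node_iff P i).2 hP)

theorem redDiv_avoids {D : Divisor K F} (hD : SmoothSupp N D) : Nd.Avoids (redDiv N D) :=
  ⟨fun _ => pushOpt_eq_zero_at _ _ _ fun _ hP => apply_eq_zero_of_r₁_node hD hP,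
    fun _ => pushOpt_eq_zero_at _ _ _ fun _ hP => apply_eq_zero_of_r₂_node hD hP⟩

/-- a section of `L(D)`, `D` with smooth support, has no pole over the nodes. -/
theorem ord_nonneg_over_node {D : Divisor K F} (hD : SmoothSupp N D) {y : F}
    (hyL : y ∈ riemannRochSpace D) (i : ι) (P : Place K F) (hP : N.r₁ P = some (Nd.s1 i)) :
    y = 0 ∨ 0 ≤ P.ord y := by
  by_cases hy0 : y = 0
  · exact Or.inl hy0
  right
  have := (mem_L_iff hy0).1 hyL P
  rw [apply_eq_zero_of_r₁_node hD hP] at this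
  simpa using this

/-! ### reductions of integral sections are sections of `L^nod(r_* D)` -/

theorem ρ₁_mem_L (HL : LHyp K F) {D : Divisor K F} (hD : SmoothSupp N D) {y : F}
    (h₁ : y ∈ N.c₁.O) (h₂ : y ∈ N.c₂.O) (hyL : y ∈ riemannRochSpace D) :
    N.c₁.ρ ⟨y, h₁⟩ ∈ riemannRochSpace (pushOpt N.r₁ D) := by
  by_cases hρ : N.c₁.ρ ⟨y, h₁⟩ = 0
  · rw [hρ]
    exact Submodule.zero_mem _
  have hy0 : y ≠ 0 := coe_ne_zero_of_ρ_ne_zero N.c₁ hρ
  rw [mem_L_iff hρ]
  intro Q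
  by_cases hQ : Nd.Smooth1 Q
  · have h1 := push₁' N HL ⟨y, h₁⟩ hρ Q hQ
    rw [← h1]
    have h2 : 0 ≤ pushOpt N.r₁ (divOf HL hy0 + D) Q := by
      apply pushOpt_nonneg
      intro P
      rw [Finsupp.add_apply, divOf_apply]
      have := (mem_L_iff hy0).1 hyL P
      simp only [Finsupp.coe_zero, Pi.zero_apply]
      omega
    rw [pushOpt_add, Finsupp.add_apply] at h2
    omega
  · -- a branch point: regular by `glue`
    unfold NodalData.Smooth1 at hQ
    push Not at hQ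
    obtain ⟨i, rfl⟩ := hQ
    have hg := N.glue i y h₁ h₂ (ord_nonneg_over_node hD hyL i)
    have h0 : pushOpt N.r₁ D (Nd.s1 i) = 0 := (redDiv_avoids hD).1 i
    rw [h0, neg_zero]
    obtain ⟨c, hc1, -⟩ := hg
    exact ord_nonneg_of_sub_mem_vanishing _ hρ hc1

theorem ρ₂_mem_L (HL : LHyp K F) {D : Divisor K F} (hD : SmoothSupp N D) {y : F}
    (h₁ : y ∈ N.c₁.O) (h₂ : y ∈ N.c₂.O) (hyL : y ∈ riemannRochSpace D) :
    N.c₂.ρ ⟨y, h₂⟩ ∈ riemannRochSpace (pushOpt N.r₂ D) := by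
  by_cases hρ : N.c₂.ρ ⟨y, h₂⟩ = 0
  · rw [hρ]
    exact Submodule.zero_mem _
  have hy0 : y ≠ 0 := coe_ne_zero_of_ρ_ne_zero N.c₂ hρ
  rw [mem_L_iff hρ]
  intro Q
  by_cases hQ : Nd.Smooth2 Q
  · have h1 := push₂' N HL ⟨y, h₂⟩ hρ Q hQ
    rw [← h1]
    have h2 : 0 ≤ pushOpt N.r₂ (divOf HL hy0 + D) Q := by
      apply pushOpt_nonneg
      intro P
      rw [Finsupp.add_apply, divOf_apply]
      have := (mem_L_iff hy0).1 hyL P
      simp only [Finsupp.coe_zero, Pi.zero_apply]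
      omega
    rw [pushOpt_add, Finsupp.add_apply] at h2
    omega
  · unfold NodalData.Smooth2 at hQ
    push Not at hQ
    obtain ⟨i, rfl⟩ := hQ
    have hg := N.glue i y h₁ h₂ (ord_nonneg_over_node hD hyL i)
    have h0 : pushOpt N.r₂ D (Nd.s2 i) = 0 := (redDiv_avoids hD).2 i
    rw [h0, neg_zero]
    obtain ⟨c, -, hc2⟩ := hg
    exact ord_nonneg_of_sub_mem_vanishing _ hρ hc2

/-- **the reduction of an integral section of `L(D)` is a section of `L^nod(r_* D)`.** -/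
theorem ρ_mem_nodalL (HL : LHyp K F) {D : Divisor K F} (hD : SmoothSupp N D) {y : F}
    (h₁ : y ∈ N.c₁.O) (h₂ : y ∈ N.c₂.O) (hyL : y ∈ riemannRochSpace D) :
    ((N.c₁.ρ ⟨y, h₁⟩, N.c₂.ρ ⟨y, h₂⟩) : Fb₁ × Fb₂) ∈ Nd.L (redDiv N D) := by
  rw [NodalData.mem_L]
  exact ⟨ρ₁_mem_L HL hD h₁ h₂ hyL, ρ₂_mem_L HL hD h₁ h₂ hyL,
    fun i => N.glue i y h₁ h₂ (ord_nonneg_over_node hD hyL i)⟩

/-! ### evaluation points -/

theorem exists_points₁ (hmany : HasManySmooth₁ N) (S₀ : Finset (Place (ResidueField A) Fb₁))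
    (n : ℕ) :
    ∃ T : Finset (Place (ResidueField A) Fb₁), T.card = n ∧ Disjoint T S₀ ∧
      ∀ Q ∈ T, Nd.Smooth1 Q ∧ ∃ P : Place K F, N.r₁ P = some Q := by
  classical
  induction n with
  | zero =>
    exact ⟨∅, rfl, Finset.disjoint_empty_left _, fun Q hQ => absurd hQ (Finset.notMem_empty Q)⟩
  | succ n ih =>
    obtain ⟨T, hcard, hdisj, hlift⟩ := ih
    obtain ⟨P, Q, hPQ, hQs, hQ⟩ := hmany (T ∪ S₀)
    rw [Finset.mem_union, not_or] at hQ
    refine ⟨insert Q T, ?_, ?_, ?_⟩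
    · rw [Finset.card_insert_of_notMem hQ.1, hcard]
    · rw [Finset.disjoint_insert_left]
      exact ⟨hQ.2, hdisj⟩
    · intro Q' hQ'
      rw [Finset.mem_insert] at hQ'
      rcases hQ' with rfl | hQ'
      · exact ⟨hQs, P, hPQ⟩
      · exact hlift Q' hQ'

theorem exists_points₂ (hmany : HasManySmooth₂ N) (S₀ : Finset (Place (ResidueField A) Fb₂))
    (n : ℕ) :
    ∃ T : Finset (Place (ResidueField A) Fb₂), T.card = n ∧ Disjoint T S₀ ∧
      ∀ Q ∈ T, Nd.Smooth2 Q ∧ ∃ P : Place K F, N.r₂ P = some Q := by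
  classical
  induction n with
  | zero =>
    exact ⟨∅, rfl, Finset.disjoint_empty_left _, fun Q hQ => absurd hQ (Finset.notMem_empty Q)⟩
  | succ n ih =>
    obtain ⟨T, hcard, hdisj, hlift⟩ := ih
    obtain ⟨P, Q, hPQ, hQs, hQ⟩ := hmany (T ∪ S₀)
    rw [Finset.mem_union, not_or] at hQ
    refine ⟨insert Q T, ?_, ?_, ?_⟩
    · rw [Finset.card_insert_of_notMem hQ.1, hcard]
    · rw [Finset.disjoint_insert_left]
      exact ⟨hQ.2, hdisj⟩
    · intro Q' hQ'
      rw [Finset.mem_insert] at hQ'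
      rcases hQ' with rfl | hQ'
      · exact ⟨hQs, P, hPQ⟩
      · exact hlift Q' hQ'

/-- the points of the component to which the support of `D` reduces. -/
noncomputable def redSupp {β : Type*} [DecidableEq β] (r : Place K F → Option β)
    (D : Divisor K F) : Finset β :=
  D.support.biUnion fun P => (r P).toFinset

theorem apply_eq_zero_of_notMem_redSupp {β : Type*} [DecidableEq β]
    (r : Place K F → Option β) {D : Divisor K F} {Q : β} (hQ : Q ∉ redSupp r D)
    {P : Place K F} (hP : r P = some Q) : D P = 0 := by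
  by_contra h
  apply hQ
  rw [redSupp, Finset.mem_biUnion]
  exact ⟨P, Finsupp.mem_support_iff.2 h, by rw [hP]; simp⟩

/-! ### the key lemmas: integral sections with small values have zero reduction -/

open Classical in
/-- on `C₁`: an integral section of `L(D)` with `ρ₁ y ≠ 0` cannot take values in `𝔪_A` at more
than `deg (r₁_* D)` places with pairwise distinct smooth reductions outside `r₁ (supp D)`. -/
theorem card_le_degree_of_values₁ (HL : LHyp K F) (HL₁ : LHyp (ResidueField A) Fb₁)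
    {D : Divisor K F} (hD : SmoothSupp N D) {y : F} (h₁ : y ∈ N.c₁.O) (h₂ : y ∈ N.c₂.O)
    (hy : N.c₁.ρ ⟨y, h₁⟩ ≠ 0) (hyL : y ∈ riemannRochSpace D)
    (T : Finset (Place (ResidueField A) Fb₁)) (hT : Disjoint T (redSupp N.r₁ D))
    (hTs : ∀ Q ∈ T, Nd.Smooth1 Q)
    (lift : Place (ResidueField A) Fb₁ → Place K F) (hlift : ∀ Q ∈ T, N.r₁ (lift Q) = some Q)
    (hval : ∀ Q ∈ T, ∃ a : A, a ∈ maximalIdeal A ∧
      (y = algebraMap K F (a : K) ∨ 0 < (lift Q).ord (y - algebraMap K F (a : K)))) :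
    (T.card : ℤ) ≤ Divisor.degree (pushOpt N.r₁ D) := by
  have hy0 := coe_ne_zero_of_ρ_ne_zero N.c₁ hy
  have hnot : ∀ Q ∈ T, Q ∉ redSupp N.r₁ D := fun Q hQ => Finset.disjoint_left.1 hT hQ
  refine card_le_degree_of_vanishing HL₁ _ hy (ρ₁_mem_L HL hD h₁ h₂ hyL) T (fun Q hQ => ?_)
    (fun Q hQ => ?_)
  · exact pushOpt_eq_zero_at _ _ _ fun P hP =>
      apply_eq_zero_of_notMem_redSupp N.r₁ (hnot Q hQ) hP
  · obtain ⟨a, hamax, ha⟩ := hval Q hQ
    have hpoles : ∀ P', N.r₁ P' = some Q → 0 ≤ P'.ord y := by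
      intro P' hP'
      have h0 := apply_eq_zero_of_notMem_redSupp N.r₁ (hnot Q hQ) hP'
      have := (mem_L_iff hy0).1 hyL P'
      rw [h0] at this
      simpa using this
    have h1 := ρ_value_half N.c₁ N.r₁ Q HL
      (fun z hz => push₁' N HL z hz Q (hTs Q hQ)) ⟨y, h₁⟩ (lift Q) (hlift Q hQ) hpoles a ha
    rw [(IsLocalRing.residue_eq_zero_iff a).2 hamax, map_zero, sub_zero] at h1
    rcases h1 with h1 | h1
    · exact absurd h1 hy
    · exact h1

open Classical in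
/-- on `C₂`: the mirror statement. -/
theorem card_le_degree_of_values₂ (HL : LHyp K F) (HL₂ : LHyp (ResidueField A) Fb₂)
    {D : Divisor K F} (hD : SmoothSupp N D) {y : F} (h₁ : y ∈ N.c₁.O) (h₂ : y ∈ N.c₂.O)
    (hy : N.c₂.ρ ⟨y, h₂⟩ ≠ 0) (hyL : y ∈ riemannRochSpace D)
    (T : Finset (Place (ResidueField A) Fb₂)) (hT : Disjoint T (redSupp N.r₂ D))
    (hTs : ∀ Q ∈ T, Nd.Smooth2 Q)
    (lift : Place (ResidueField A) Fb₂ → Place K F) (hlift : ∀ Q ∈ T, N.r₂ (lift Q) = some Q)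
    (hval : ∀ Q ∈ T, ∃ a : A, a ∈ maximalIdeal A ∧
      (y = algebraMap K F (a : K) ∨ 0 < (lift Q).ord (y - algebraMap K F (a : K)))) :
    (T.card : ℤ) ≤ Divisor.degree (pushOpt N.r₂ D) := by
  have hy0 := coe_ne_zero_of_ρ_ne_zero N.c₂ hy
  have hnot : ∀ Q ∈ T, Q ∉ redSupp N.r₂ D := fun Q hQ => Finset.disjoint_left.1 hT hQ
  refine card_le_degree_of_vanishing HL₂ _ hy (ρ₂_mem_L HL hD h₁ h₂ hyL) T (fun Q hQ => ?_)
    (fun Q hQ => ?_)
  · exact pushOpt_eq_zero_at _ _ _ fun P hP =>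
      apply_eq_zero_of_notMem_redSupp N.r₂ (hnot Q hQ) hP
  · obtain ⟨a, hamax, ha⟩ := hval Q hQ
    have hpoles : ∀ P', N.r₂ P' = some Q → 0 ≤ P'.ord y := by
      intro P' hP'
      have h0 := apply_eq_zero_of_notMem_redSupp N.r₂ (hnot Q hQ) hP'
      have := (mem_L_iff hy0).1 hyL P'
      rw [h0] at this
      simpa using this
    have h1 := ρ_value_half N.c₂ N.r₂ Q HL
      (fun z hz => push₂' N HL z hz Q (hTs Q hQ)) ⟨y, h₂⟩ (lift Q) (hlift Q hQ) hpoles a ha
    rw [(IsLocalRing.residue_eq_zero_iff a).2 hamax, map_zero, sub_zero] at h1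
    rcases h1 with h1 | h1
    · exact absurd h1 hy
    · exact h1

end Fermat.Agent.T33.NodalLat2
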