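/-
Programme T (S33), nodal layer, chapter N-B (helper2), supplement: **many smooth points are
reductions of places** (`NodalLat2.HasManySmooth₁/₂`, the hypotheses `hmany₁ hmany₂` of contracts
(b1), (b2)) from the push-forward axioms.

* `exists_lift₁/₂` : a smooth point at which the reduction of some `y ∈ O_i` has a zero or a pole
  is the reduction of a place;
* `hasManySmooth₁/₂_of_nonconst` : if `O_i` contains a function with nonconstant reduction
  (`κ` infinite, finitely many nodes) then `HasManySmooth_i`;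
* `exists_lift₁/₂_of_surjective`, `hasManySmooth₁/₂_of_surjective` : if `ρ_i` is surjective, EVERY
  smooth point lifts.
-/
import Mathlib
import Fermat.Agent.T33.NodalLat2B
import Fermat.Agent.FF.GaussOv1D

set_option autoImplicit false
set_option linter.unusedSectionVars false

open AlgebraicCurve IsLocalRing

namespace Fermat.Agent.T33.NodalLat2

open Fermat.Agent.T33.NodalCtx1 Fermat.Agent.T33.NodalCurve6 Fermat.Agent.T33.NodalAbs1A
  Fermat.Agent.X0.FF Fermat.Agent.RR.LSpace

variable {K : Type*} [Field K] {A : ValuationSubring K}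
variable {F : Type*} [Field F] [Algebra K F]
variable {Fb₁ Fb₂ : Type*} [Field Fb₁] [Field Fb₂]
  [Algebra (ResidueField A) Fb₁] [Algebra (ResidueField A) Fb₂]
variable {ι : Type*} {Nd : NodalData (ResidueField A) Fb₁ Fb₂ ι} (N : NodalRed A F Nd)

/-- a smooth point of `C₁` where the reduction of some `y ∈ O₁` has a zero or a pole lifts. -/
theorem exists_lift₁ (HL : LHyp K F) (y : N.c₁.O) (hy : N.c₁.ρ y ≠ 0)
    (Q : Place (ResidueField A) Fb₁) (hQ : Nd.Smooth1 Q) (hord : Q.ord (N.c₁.ρ y) ≠ 0) :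
    ∃ P : Place K F, N.r₁ P = some Q := by
  by_contra hno
  push Not at hno
  apply hord
  rw [← push₁' N HL y hy Q hQ]
  exact pushOpt_eq_zero_at _ _ _ fun P hP => absurd hP (hno P)

/-- a smooth point of `C₂` where the reduction of some `y ∈ O₂` has a zero or a pole lifts. -/
theorem exists_lift₂ (HL : LHyp K F) (y : N.c₂.O) (hy : N.c₂.ρ y ≠ 0)
    (Q : Place (ResidueField A) Fb₂) (hQ : Nd.Smooth2 Q) (hord : Q.ord (N.c₂.ρ y) ≠ 0) :
    ∃ P : Place K F, N.r₂ P = some Q := by
  by_contra hno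
  push Not at hno
  apply hord
  rw [← push₂' N HL y hy Q hQ]
  exact pushOpt_eq_zero_at _ _ _ fun P hP => absurd hP (hno P)

section Half

variable {Fb : Type*} [Field Fb] [Algebra (ResidueField A) Fb]

/-- the zeros of `x - c`, `c ∈ κ`, of a nonconstant function `x` avoid any finite set for a
suitable `c`. -/
theorem exists_zero_notMem [Infinite (ResidueField A)] (HLb : LHyp (ResidueField A) Fb) (x : Fb)
    (hx : ∀ c : ResidueField A, x ≠ algebraMap (ResidueField A) Fb c)
    (B : Set (Place (ResidueField A) Fb)) (hB : B.Finite) :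
    ∃ (c : ResidueField A) (Q : Place (ResidueField A) Fb),
      0 < Q.ord (x - algebraMap (ResidueField A) Fb c) ∧ Q ∉ B := by
  classical
  have hxc : ∀ c c' : ResidueField A,
      x - algebraMap (ResidueField A) Fb c ≠ algebraMap (ResidueField A) Fb c' := by
    intro c c' h
    apply hx (c' + c)
    rw [map_add, ← h]
    ring
  choose w hw using fun c : ResidueField A =>
    Fermat.Agent.FF.GaussOv1.exists_ord_pos_of_not_const HLb (hxc c)
  have hinj : Function.Injective w := by
    intro c c' hcc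
    by_contra hne
    have h1 := hw c
    have h2 := hw c'
    rw [← hcc] at h2
    have hd : algebraMap (ResidueField A) Fb (c' - c) ≠ 0 := by
      rw [Ne, map_eq_zero, sub_eq_zero]
      exact fun h => hne h.symm
    have h3 : (x - algebraMap (ResidueField A) Fb c) - (x - algebraMap (ResidueField A) Fb c') =
        algebraMap (ResidueField A) Fb (c' - c) := by
      rw [map_sub]
      ring
    have h4 := ord_sub_ge (w c) (f := x - algebraMap (ResidueField A) Fb c)
      (g := x - algebraMap (ResidueField A) Fb c') (by rw [h3]; exact hd)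
    rw [h3, ord_algebraMap] at h4
    have : 0 < min ((w c).ord (x - algebraMap (ResidueField A) Fb c))
        ((w c).ord (x - algebraMap (ResidueField A) Fb c')) := lt_min h1 h2
    omega
  obtain ⟨c, hc⟩ := Infinite.exists_notMem_finset (hB.toFinset.preimage w hinj.injOn)
  refine ⟨c, w c, hw c, ?_⟩
  intro hmem
  apply hc
  rw [Finset.mem_preimage, Set.Finite.mem_toFinset]
  exact hmem

/-- a place at which some function has a pole. -/
theorem exists_ord_neg (Q : Place (ResidueField A) Fb) : ∃ fb : Fb, fb ≠ 0 ∧ Q.ord fb < 0 := by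
  obtain ⟨fb, hfb⟩ : ∃ fb : Fb, fb ∉ Q.toValuationSubring := by
    by_contra hall
    push Not at hall
    exact Q.ne_top' (SetLike.ext fun x => ⟨fun _ => ValuationSubring.mem_top x, fun _ => hall x⟩)
  have hfb' : ¬ (fb = 0 ∨ 0 ≤ Q.ord fb) := fun h => hfb ((mem_iff_ord_nonneg Q).2 h)
  push Not at hfb'
  exact ⟨fb, hfb'.1, hfb'.2⟩

end Half

/-- **many smooth points of `C₁` lift**, from one function of `O₁` with nonconstant reduction. -/
theorem hasManySmooth₁_of_nonconst [Finite ι] [Infinite (ResidueField A)] (HL : LHyp K F)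
    (HL₁ : LHyp (ResidueField A) Fb₁) (s : N.c₁.O)
    (hs : ∀ c : ResidueField A, N.c₁.ρ s ≠ algebraMap (ResidueField A) Fb₁ c) :
    HasManySmooth₁ N := by
  intro S
  obtain ⟨c, Q, hQ, hQB⟩ := exists_zero_notMem HL₁ (N.c₁.ρ s) hs
    (Set.range Nd.s1 ∪ (S : Set _)) ((Set.finite_range _).union S.finite_toSet)
  obtain ⟨a, rfl⟩ := IsLocalRing.residue_surjective c
  have hsm : Nd.Smooth1 Q := fun i h => hQB (Or.inl ⟨i, h.symm⟩)
  have hρ : N.c₁.ρ (s - hconst N.c₁ a) =
      N.c₁.ρ s - algebraMap (ResidueField A) Fb₁ (residue A a) := by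
    rw [map_sub, ρ_hconst]
  have hne : N.c₁.ρ (s - hconst N.c₁ a) ≠ 0 := by
    rw [hρ, sub_ne_zero]
    exact hs _
  obtain ⟨P, hP⟩ := exists_lift₁ N HL (s - hconst N.c₁ a) hne Q hsm (by rw [hρ]; exact hQ.ne')
  exact ⟨P, Q, hP, hsm, fun h => hQB (Or.inr h)⟩

/-- **many smooth points of `C₂` lift**, from one function of `O₂` with nonconstant reduction. -/
theorem hasManySmooth₂_of_nonconst [Finite ι] [Infinite (ResidueField A)] (HL : LHyp K F)
    (HL₂ : LHyp (ResidueField A) Fb₂) (s : N.c₂.O)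
    (hs : ∀ c : ResidueField A, N.c₂.ρ s ≠ algebraMap (ResidueField A) Fb₂ c) :
    HasManySmooth₂ N := by
  intro S
  obtain ⟨c, Q, hQ, hQB⟩ := exists_zero_notMem HL₂ (N.c₂.ρ s) hs
    (Set.range Nd.s2 ∪ (S : Set _)) ((Set.finite_range _).union S.finite_toSet)
  obtain ⟨a, rfl⟩ := IsLocalRing.residue_surjective c
  have hsm : Nd.Smooth2 Q := fun i h => hQB (Or.inl ⟨i, h.symm⟩)
  have hρ : N.c₂.ρ (s - hconst N.c₂ a) =
      N.c₂.ρ s - algebraMap (ResidueField A) Fb₂ (residue A a) := by
    rw [map_sub, ρ_hconst]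
  have hne : N.c₂.ρ (s - hconst N.c₂ a) ≠ 0 := by
    rw [hρ, sub_ne_zero]
    exact hs _
  obtain ⟨P, hP⟩ := exists_lift₂ N HL (s - hconst N.c₂ a) hne Q hsm (by rw [hρ]; exact hQ.ne')
  exact ⟨P, Q, hP, hsm, fun h => hQB (Or.inr h)⟩

/-- if `ρ₁` is surjective, every smooth point of `C₁` is the reduction of a place. -/
theorem exists_lift₁_of_surjective (HL : LHyp K F) (hsurj : Function.Surjective N.c₁.ρ)
    (Q : Place (ResidueField A) Fb₁) (hQ : Nd.Smooth1 Q) : ∃ P : Place K F, N.r₁ P = some Q := by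
  obtain ⟨fb, hfb0, hfb⟩ := exists_ord_neg Q
  obtain ⟨y, rfl⟩ := hsurj fb
  exact exists_lift₁ N HL y hfb0 Q hQ hfb.ne

/-- if `ρ₂` is surjective, every smooth point of `C₂` is the reduction of a place. -/
theorem exists_lift₂_of_surjective (HL : LHyp K F) (hsurj : Function.Surjective N.c₂.ρ)
    (Q : Place (ResidueField A) Fb₂) (hQ : Nd.Smooth2 Q) : ∃ P : Place K F, N.r₂ P = some Q := by
  obtain ⟨fb, hfb0, hfb⟩ := exists_ord_neg Q
  obtain ⟨y, rfl⟩ := hsurj fb
  exact exists_lift₂ N HL y hfb0 Q hQ hfb.ne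

/-- `HasManySmooth₁` from the surjectivity of `ρ₁`. -/
theorem hasManySmooth₁_of_surjective [Finite ι] [Infinite (ResidueField A)] (HL : LHyp K F)
    (HL₁ : LHyp (ResidueField A) Fb₁) (hsurj : Function.Surjective N.c₁.ρ) :
    HasManySmooth₁ N := by
  classical
  intro S
  have := Fermat.Agent.FF.GaussOv1.infinite_place_of_lHyp HL₁
  obtain ⟨Q, hQ⟩ := ((Set.finite_range Nd.s1).union S.finite_toSet).infinite_compl.nonempty
  have hsm : Nd.Smooth1 Q := fun i h => hQ (Or.inl ⟨i, h.symm⟩)
  obtain ⟨P, hP⟩ := exists_lift₁_of_surjective N HL hsurj Q hsm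
  exact ⟨P, Q, hP, hsm, fun h => hQ (Or.inr h)⟩

/-- `HasManySmooth₂` from the surjectivity of `ρ₂`. -/
theorem hasManySmooth₂_of_surjective [Finite ι] [Infinite (ResidueField A)] (HL : LHyp K F)
    (HL₂ : LHyp (ResidueField A) Fb₂) (hsurj : Function.Surjective N.c₂.ρ) :
    HasManySmooth₂ N := by
  classical
  intro S
  have := Fermat.Agent.FF.GaussOv1.infinite_place_of_lHyp HL₂
  obtain ⟨Q, hQ⟩ := ((Set.finite_range Nd.s2).union S.finite_toSet).infinite_compl.nonempty
  have hsm : Nd.Smooth2 Q := fun i h => hQ (Or.inl ⟨i, h.symm⟩)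
  obtain ⟨P, hP⟩ := exists_lift₂_of_surjective N HL hsurj Q hsm
  exact ⟨P, Q, hP, hsm, fun h => hQ (Or.inr h)⟩

end Fermat.Agent.T33.NodalLat2
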