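/-
Programme T (S33), nodal layer, chapter N-F, concrete half, function-field part (helper2), file A:
**the coordinate `R_a(x) = 1/(x - a) + 1/(x ^ p - a)` on a function field of characteristic `p`:
orders, poles, degree of the pole divisor.**

`Fb / κ` a function field with `LHyp`, `x ∈ Fb` transcendental, `a ∈ κ` with `a ^ p ≠ a`.

* `ord_Rfun_of_pole`, `ord_Rfun_of_zero₁`, `ord_Rfun_of_zero₂`, `ord_Rfun_nonneg` : the order of
  `R_a(x)` at a pole of `x` (a zero of `R`), at a zero of `x - a`, at a zero of `x ^ p - a`, elsewhere;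
* `poleDiv_Rfun` : `(R_a(x))_∞ = (x - a)_0 + (x ^ p - a)_0`;
* `degree_poleDiv_Rfun` : `deg (R_a(x))_∞ = (1 + p) deg (x)_∞`;
* `badConst x B`, `finite_badConst` : the finitely many `a` with `a ^ p = a` or such that `R_a(x)` has a
  pole at a place of the finite set `B`; `ord_Rfun_nonneg_of_notMem_badConst`.
-/
import Mathlib
import Fermat.Agent.FF.PolePres1

set_option autoImplicit false
set_option linter.unusedSectionVars false

open AlgebraicCurve

namespace Fermat.Agent.T33.NodalCoord2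

open Fermat.Agent.X0.FF Fermat.Agent.RR.LSpace Fermat.Agent.RR.Riemann Fermat.Agent.FF.PolePres1

variable {κ Fb : Type*} [Field κ] [Field Fb] [Algebra κ Fb]

/-- `R_a(x) = 1/(x - a) + 1/(x ^ p - a)`. -/
noncomputable def Rfun (p : ℕ) (x : Fb) (a : κ) : Fb :=
  (x - algebraMap κ Fb a)⁻¹ + (x ^ p - algebraMap κ Fb a)⁻¹

variable {p : ℕ} {x : Fb} {a : κ}

theorem sub_const_ne_zero (hx : Transcendental κ x) (a : κ) : x - algebraMap κ Fb a ≠ 0 := by
  intro h
  apply hx
  rw [sub_eq_zero] at h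
  rw [h]
  exact isAlgebraic_algebraMap a

theorem pow_sub_const_ne_zero (hx : Transcendental κ x) (hp : 0 < p) (a : κ) :
    x ^ p - algebraMap κ Fb a ≠ 0 :=
  sub_const_ne_zero (hx.pow hp) a

/-- `x ^ p - a = (x - a) ^ p + (a ^ p - a)` in characteristic `p`. -/
theorem pow_sub_const_eq [Fact p.Prime] [CharP κ p] (x : Fb) (a : κ) :
    x ^ p - algebraMap κ Fb a =
      algebraMap κ Fb (a ^ p - a) + (x - algebraMap κ Fb a) ^ p := by
  have : CharP Fb p := charP_of_injective_algebraMap (algebraMap κ Fb).injective p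
  rw [sub_pow_char, map_sub, map_pow]
  ring

section Ord

variable [Fact p.Prime] [CharP κ p] (Q : Place κ Fb)

/-- at a zero of `x - a`, the function `x ^ p - a` is a unit (`a ^ p ≠ a`). -/
theorem ord_pow_sub_of_pos (ha : a ^ p ≠ a) (hQ : 0 < Q.ord (x - algebraMap κ Fb a)) :
    Q.ord (x ^ p - algebraMap κ Fb a) = 0 := by
  have hc : algebraMap κ Fb (a ^ p - a) ≠ 0 := by
    rw [Ne, map_eq_zero, sub_eq_zero]
    exact ha
  rw [pow_sub_const_eq, ord_add_eq_of_lt Q hc, ord_algebraMap]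
  rw [ord_algebraMap, ord_pow]
  have : (0 : ℤ) < p := by exact_mod_cast (Fact.out : p.Prime).pos
  positivity

/-- at a zero of `x ^ p - a`, the function `x - a` is a unit (`a ^ p ≠ a`). -/
theorem ord_sub_of_pow_pos (hx : Transcendental κ x) (ha : a ^ p ≠ a)
    (hQ : 0 < Q.ord (x ^ p - algebraMap κ Fb a)) (hx0 : 0 ≤ Q.ord x) :
    Q.ord (x - algebraMap κ Fb a) = 0 := by
  have h1 : 0 ≤ Q.ord (x - algebraMap κ Fb a) := by
    have := ord_pow_sub_const_nonneg Q hx0 1 a (by rw [pow_one]; exact sub_const_ne_zero hx a)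
    rwa [pow_one] at this
  rcases h1.lt_or_eq with h | h
  · rw [ord_pow_sub_of_pos Q ha h] at hQ
    exact absurd hQ (lt_irrefl _)
  · exact h.symm

variable (hx : Transcendental κ x)

include hx in
/-- a pole of `x` is a zero of `R_a(x)`. -/
theorem ord_Rfun_of_pole (hR : Rfun p x a ≠ 0) (hQ : Q.ord x < 0) : 0 < Q.ord (Rfun p x a) := by
  have hp : 0 < p := (Fact.out : p.Prime).pos
  have h1 := ord_pow_sub_const_of_pole Q hQ Nat.one_pos a
  rw [pow_one, Nat.cast_one, one_mul] at h1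
  have h2 := ord_pow_sub_const_of_pole Q hQ hp a
  have h3 := ord_add_ge Q (f := (x - algebraMap κ Fb a)⁻¹) (g := (x ^ p - algebraMap κ Fb a)⁻¹) hR
  rw [Place.ord_inv, Place.ord_inv, h1, h2] at h3
  have hp' : (0 : ℤ) < p := by exact_mod_cast hp
  have h4 : 0 < -((p : ℤ) * Q.ord x) := by nlinarith
  have h5 : 0 < min (-(Q.ord x)) (-((p : ℤ) * Q.ord x)) := lt_min (by omega) h4
  exact lt_of_lt_of_le h5 h3

include hx in
/-- at a zero of `x - a`: `ord R_a(x) = - ord (x - a)`. -/
theorem ord_Rfun_of_zero₁ (ha : a ^ p ≠ a) (hQ : 0 < Q.ord (x - algebraMap κ Fb a)) :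
    Q.ord (Rfun p x a) = -Q.ord (x - algebraMap κ Fb a) := by
  have hu := sub_const_ne_zero hx a
  unfold Rfun
  rw [ord_add_eq_of_lt Q (inv_ne_zero hu), Place.ord_inv]
  rw [Place.ord_inv, Place.ord_inv, ord_pow_sub_of_pos Q ha hQ]
  omega

include hx in
/-- at a zero of `x ^ p - a` (not a pole of `x`): `ord R_a(x) = - ord (x ^ p - a)`. -/
theorem ord_Rfun_of_zero₂ (ha : a ^ p ≠ a) (hQ : 0 < Q.ord (x ^ p - algebraMap κ Fb a))
    (hx0 : 0 ≤ Q.ord x) : Q.ord (Rfun p x a) = -Q.ord (x ^ p - algebraMap κ Fb a) := by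
  have hp : 0 < p := (Fact.out : p.Prime).pos
  have hw := pow_sub_const_ne_zero hx hp a
  unfold Rfun
  rw [add_comm, ord_add_eq_of_lt Q (inv_ne_zero hw), Place.ord_inv]
  rw [Place.ord_inv, Place.ord_inv, ord_sub_of_pow_pos Q hx ha hQ hx0]
  omega

include hx in
/-- away from the zeros of `x - a` and `x ^ p - a`, `R_a(x)` is regular. -/
theorem ord_Rfun_nonneg (hR : Rfun p x a ≠ 0) (h1 : Q.ord (x - algebraMap κ Fb a) ≤ 0)
    (h2 : Q.ord (x ^ p - algebraMap κ Fb a) ≤ 0) : 0 ≤ Q.ord (Rfun p x a) := by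
  have h3 := ord_add_ge Q (f := (x - algebraMap κ Fb a)⁻¹) (g := (x ^ p - algebraMap κ Fb a)⁻¹) hR
  rw [Place.ord_inv, Place.ord_inv] at h3
  have h5 : 0 ≤ min (-Q.ord (x - algebraMap κ Fb a)) (-Q.ord (x ^ p - algebraMap κ Fb a)) :=
    le_min (by omega) (by omega)
  exact le_trans h5 h3

end Ord

/-! ### the pole divisor -/

section Pole

variable [Fact p.Prime] [CharP κ p] (HL : LHyp κ Fb) (hx : Transcendental κ x)

include hx in
/-- **`(R_a(x))_∞ = (x - a)_0 + (x ^ p - a)_0`.** -/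
theorem poleDiv_Rfun (ha : a ^ p ≠ a) (hR : Rfun p x a ≠ 0) :
    poleDiv HL hR = zeroDiv HL (sub_const_ne_zero hx a) +
      zeroDiv HL (pow_sub_const_ne_zero hx (Fact.out : p.Prime).pos a) := by
  have hp : 0 < p := (Fact.out : p.Prime).pos
  ext Q
  rw [Finsupp.add_apply, poleDiv_apply, zeroDiv_apply, zeroDiv_apply]
  rcases lt_or_ge (Q.ord x) 0 with hQx | hQx
  · -- a pole of `x`
    have h0 := ord_Rfun_of_pole Q hx hR hQx
    have h1 := ord_pow_sub_const_of_pole Q hQx Nat.one_pos a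
    rw [pow_one, Nat.cast_one, one_mul] at h1
    have h2 := ord_pow_sub_const_of_pole Q hQx hp a
    have hp' : (0 : ℤ) < p := by exact_mod_cast hp
    have h3 : (p : ℤ) * Q.ord x < 0 := by nlinarith
    rw [h1, h2, max_eq_left (by omega), max_eq_left (by omega), max_eq_left (by omega)]
    ring
  · have hu0 : 0 ≤ Q.ord (x - algebraMap κ Fb a) := by
      have := ord_pow_sub_const_nonneg Q hQx 1 a (by rw [pow_one]; exact sub_const_ne_zero hx a)
      rwa [pow_one] at this
    have hw0 : 0 ≤ Q.ord (x ^ p - algebraMap κ Fb a) :=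
      ord_pow_sub_const_nonneg Q hQx p a (pow_sub_const_ne_zero hx hp a)
    rcases hu0.lt_or_eq with hu | hu
    · have e1 := ord_Rfun_of_zero₁ Q hx ha hu
      have e2 := ord_pow_sub_of_pos Q ha hu
      omega
    · rcases hw0.lt_or_eq with hw | hw
      · have e1 := ord_Rfun_of_zero₂ Q hx ha hw hQx
        omega
      · have := ord_Rfun_nonneg Q hx hR hu.symm.le hw.symm.le
        omega

include hx in
/-- **`deg (R_a(x))_∞ = (1 + p) deg (x)_∞`.** -/
theorem degree_poleDiv_Rfun (ha : a ^ p ≠ a) (hR : Rfun p x a ≠ 0) (hx0 : x ≠ 0) :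
    Divisor.degree (poleDiv HL hR) = (1 + (p : ℤ)) * Divisor.degree (poleDiv HL hx0) := by
  have hp : 0 < p := (Fact.out : p.Prime).pos
  rw [poleDiv_Rfun HL hx ha hR, map_add, degree_zeroDiv, degree_zeroDiv,
    poleDiv_sub_const HL hx0 a (sub_const_ne_zero hx a),
    poleDiv_pow_sub_const HL hx0 hp a (pow_sub_const_ne_zero hx hp a), map_nsmul]
  simp only [nsmul_eq_mul]
  ring

end Pole

/-! ### the bad constants -/

section Bad

variable [Fact p.Prime] [CharP κ p]

/-- the constants `a` with `a ^ p = a`, or such that `x - a` or `x ^ p - a` vanishes at a place of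
`B`. -/
def badConst (p : ℕ) (x : Fb) (B : Finset (Place κ Fb)) : Set κ :=
  {a | a ^ p = a} ∪ {a | ∃ Q ∈ B, 0 < Q.ord (x - algebraMap κ Fb a) ∨
    0 < Q.ord (x ^ p - algebraMap κ Fb a)}

/-- a function vanishes at a place for at most one translation constant. -/
theorem const_unique (Q : Place κ Fb) {f : Fb} {c c' : κ}
    (h : 0 < Q.ord (f - algebraMap κ Fb c)) (h' : 0 < Q.ord (f - algebraMap κ Fb c')) :
    c = c' := by
  by_contra hne
  have hd : algebraMap κ Fb (c' - c) ≠ 0 := by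
    rw [Ne, map_eq_zero, sub_eq_zero]
    exact fun h => hne h.symm
  have h3 : (f - algebraMap κ Fb c) - (f - algebraMap κ Fb c') = algebraMap κ Fb (c' - c) := by
    rw [map_sub]
    ring
  have h4 := ord_sub_ge Q (f := f - algebraMap κ Fb c) (g := f - algebraMap κ Fb c')
    (by rw [h3]; exact hd)
  rw [h3, ord_algebraMap] at h4
  have : 0 < min (Q.ord (f - algebraMap κ Fb c)) (Q.ord (f - algebraMap κ Fb c')) := lt_min h h'
  omega

theorem finite_badConst (x : Fb) (B : Finset (Place κ Fb)) : (badConst p x B).Finite := by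
  classical
  have hp : 0 < p := (Fact.out : p.Prime).pos
  have hp1 : 1 < p := (Fact.out : p.Prime).one_lt
  refine Set.Finite.union ?_ ?_
  · -- the roots of `T ^ p - T`
    have hq : (Polynomial.X ^ p - Polynomial.X : Polynomial κ) ≠ 0 := by
      intro h0
      have h1 := congrArg (Polynomial.coeff · p) h0
      simp only [Polynomial.coeff_sub, Polynomial.coeff_X_pow, if_true, Polynomial.coeff_zero,
        Polynomial.coeff_X] at h1
      rw [if_neg (by omega), sub_zero] at h1
      exact one_ne_zero h1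
    refine ((Polynomial.X ^ p - Polynomial.X : Polynomial κ).roots.toFinset.finite_toSet).subset ?_
    intro a ha
    have ha' : a ^ p = a := ha
    rw [Finset.mem_coe, Multiset.mem_toFinset, Polynomial.mem_roots hq, Polynomial.IsRoot,
      Polynomial.eval_sub, Polynomial.eval_pow, Polynomial.eval_X, ha', sub_self]
  · have h2 : (⋃ Q ∈ B, ({a : κ | 0 < Q.ord (x - algebraMap κ Fb a)} ∪
        {a : κ | 0 < Q.ord (x ^ p - algebraMap κ Fb a)})).Finite := by
      refine Set.Finite.biUnion B.finite_toSet fun Q _ => Set.Finite.union ?_ ?_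
      · exact Set.Subsingleton.finite fun c hc c' hc' => const_unique Q hc hc'
      · exact Set.Subsingleton.finite fun c hc c' hc' => const_unique Q hc hc'
    refine h2.subset ?_
    rintro a ⟨Q, hQ, h⟩
    simp only [Set.mem_iUnion]
    exact ⟨Q, hQ, h⟩

theorem pow_ne_of_notMem_badConst {B : Finset (Place κ Fb)} (ha : a ∉ badConst p x B) :
    a ^ p ≠ a := fun h => ha (Or.inl h)

/-- `R_a(x)` is regular at the places of `B` for `a` outside the bad constants. -/
theorem ord_Rfun_nonneg_of_notMem_badConst (hx : Transcendental κ x) {B : Finset (Place κ Fb)}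
    (ha : a ∉ badConst p x B) (hR : Rfun p x a ≠ 0) (Q : Place κ Fb) (hQ : Q ∈ B) :
    0 ≤ Q.ord (Rfun p x a) := by
  rcases lt_or_ge (Q.ord x) 0 with hQx | hQx
  · exact (ord_Rfun_of_pole Q hx hR hQx).le
  · apply ord_Rfun_nonneg Q hx hR
    · by_contra h
      rw [not_le] at h
      exact ha (Or.inr ⟨Q, hQ, Or.inl h⟩)
    · by_contra h
      rw [not_le] at h
      exact ha (Or.inr ⟨Q, hQ, Or.inr h⟩)

end Bad

end Fermat.Agent.T33.NodalCoord2
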