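/-
Programme T (S33), nodal layer, chapter N-F, concrete half, function-field part (helper2), file B:
**`R_a(x) = 1/(x - a) + 1/(x ^ p - a)` is a separable generator** whenever `x` is.

`Fb / κ` a function field with `LHyp`, characteristic `p`, `x` a generator (`IsGen κ x`) with
`Fb / κ(x)` separable, `a ^ p ≠ a`.

* `transcendental_Rfun`, `isGen_Rfun` : `R_a(x)` is transcendental, `Fb / κ(R_a(x))` is finite;
* `isSeparable_of_simple_root` : a simple root of a polynomial is a separable element;
* `isSeparable_x_over_Rfun` : `x` is separable over `κ(R_a(x))` (simple root of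
  `Num(T) - R Den(T)`, because `dR/dx = -1/(x - a)² ≠ 0` in characteristic `p`);
* `isSeparable_tower_of_sep` : separability of `Fb` over `κ(R)` from `x` separable over `κ(R)` and
  `Fb / κ(x)` separable;
* `isSeparable_Rfun` : `Algebra.IsSeparable κ⟮R_a(x)⟯ Fb`.
-/
import Mathlib
import Fermat.Agent.T33.NodalCoord2A
import Fermat.Agent.X0.FFConst
import Fermat.Agent.X0.FFPlace

set_option autoImplicit false
set_option linter.unusedSectionVars false

open AlgebraicCurve Polynomial IntermediateField

namespace Fermat.Agent.T33.NodalCoord2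

open Fermat.Agent.X0.FF Fermat.Agent.RR.LSpace Fermat.Agent.RR.Riemann Fermat.Agent.FF.PolePres1

variable {κ Fb : Type*} [Field κ] [Field Fb] [Algebra κ Fb]
variable {p : ℕ} {x : Fb} {a : κ}

/-! ### transcendence -/

/-- a nonconstant function has a zero. -/
theorem exists_zero_of_transcendental (HL : LHyp κ Fb) {f : Fb} (hf : Transcendental κ f) :
    ∃ Q : Place κ Fb, 0 < Q.ord f := by
  by_contra hno
  push Not at hno
  have hf0 : f ≠ 0 := by
    rintro rfl
    exact hf isAlgebraic_zero
  have h1 : ∀ v : Place κ Fb, 0 ≤ v.ord f⁻¹ := by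
    intro v
    rw [v.ord_inv]
    have := hno v
    omega
  obtain ⟨c, hc⟩ := eq_algebraMap_of_forall_ord_nonneg HL h1
  apply hf
  have : f = algebraMap κ Fb c⁻¹ := by rw [map_inv₀, ← hc, inv_inv]
  rw [this]
  exact isAlgebraic_algebraMap _

section Gen

variable [Fact p.Prime] [CharP κ p] (HL : LHyp κ Fb)

include HL in
/-- `R_a(x)` is transcendental over `κ`. -/
theorem transcendental_Rfun (hx : Transcendental κ x) (ha : a ^ p ≠ a) :
    Transcendental κ (Rfun p x a) := by
  have hxa : Transcendental κ (x - algebraMap κ Fb a) := by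
    intro h
    apply hx
    have := h.add (isAlgebraic_algebraMap (R := κ) (A := Fb) a)
    rwa [sub_add_cancel] at this
  obtain ⟨Q, hQ⟩ := exists_zero_of_transcendental HL hxa
  apply ffp_transcendental_of_ord_ne_zero Q
  rw [ord_Rfun_of_zero₁ Q hx ha hQ]
  omega

include HL in
theorem Rfun_ne_zero (hx : Transcendental κ x) (ha : a ^ p ≠ a) : Rfun p x a ≠ 0 := by
  intro h0
  apply transcendental_Rfun HL hx ha
  rw [h0]
  exact isAlgebraic_zero

include HL in
/-- `R_a(x)` is a generator. -/
theorem isGen_Rfun (hx : IsGen κ x) (ha : a ^ p ≠ a) : IsGen κ (Rfun p x a) :=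
  hx.of_transcendental (transcendental_Rfun HL hx.transcendental ha)

include HL in
theorem Rfun_ne_const (hx : Transcendental κ x) (ha : a ^ p ≠ a) (c : κ) :
    Rfun p x a ≠ algebraMap κ Fb c := by
  intro h
  apply transcendental_Rfun HL hx ha
  rw [h]
  exact isAlgebraic_algebraMap _

end Gen

/-! ### a simple root is separable -/

theorem isSeparable_of_simple_root {E L : Type*} [Field E] [Field L] [Algebra E L] {y : L}
    (q : E[X]) (h0 : aeval y q = 0) (h1 : aeval y (derivative q) ≠ 0) : IsSeparable E y := by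
  have hq0 : q ≠ 0 := by
    rintro rfl
    apply h1
    rw [derivative_zero, map_zero]
  have halg : IsAlgebraic E y := ⟨q, hq0, h0⟩
  have hint : IsIntegral E y := halg.isIntegral
  obtain ⟨h, hq⟩ := minpoly.dvd E y h0
  have hd : aeval y (derivative (minpoly E y)) ≠ 0 := by
    intro hd0
    apply h1
    rw [hq, derivative_mul, map_add, map_mul, map_mul, hd0, minpoly.aeval, zero_mul, zero_mul,
      add_zero]
  have hd' : derivative (minpoly E y) ≠ 0 := by
    intro h0'
    apply hd
    rw [h0', map_zero]
  exact (separable_iff_derivative_ne_zero (minpoly.irreducible hint)).2 hd'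

/-! ### the polynomials -/

/-- the numerator `T ^ p + T - 2 a` of `R_a(T)`. -/
noncomputable def numPoly (p : ℕ) (a : κ) : κ[X] := X ^ p + X - C (2 * a)

/-- the denominator `(T - a) (T ^ p - a)` of `R_a(T)`. -/
noncomputable def denPoly (p : ℕ) (a : κ) : κ[X] := (X - C a) * (X ^ p - C a)

theorem aeval_numPoly (x : Fb) (a : κ) :
    aeval x (numPoly p a) = x ^ p + x - algebraMap κ Fb (2 * a) := by
  simp [numPoly]

theorem aeval_denPoly (x : Fb) (a : κ) :
    aeval x (denPoly p a) = (x - algebraMap κ Fb a) * (x ^ p - algebraMap κ Fb a) := by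
  simp [denPoly]

theorem derivative_numPoly [CharP κ p] (a : κ) : derivative (numPoly p a) = 1 := by
  unfold numPoly
  rw [derivative_sub, derivative_add, derivative_X_pow, derivative_X, derivative_C,
    CharP.cast_eq_zero κ p, map_zero, zero_mul, zero_add, sub_zero]

theorem derivative_denPoly [CharP κ p] (a : κ) : derivative (denPoly p a) = X ^ p - C a := by
  unfold denPoly
  rw [derivative_mul, derivative_sub, derivative_sub, derivative_X_pow, derivative_X, derivative_C,
    CharP.cast_eq_zero κ p, map_zero, zero_mul, sub_zero, sub_zero, one_mul, mul_zero, add_zero]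

theorem Rfun_mul_den (hx : Transcendental κ x) (hp : 0 < p) (a : κ) :
    Rfun p x a * ((x - algebraMap κ Fb a) * (x ^ p - algebraMap κ Fb a)) =
      x ^ p + x - algebraMap κ Fb (2 * a) := by
  have h1 := sub_const_ne_zero hx a
  have h2 := pow_sub_const_ne_zero hx hp a
  unfold Rfun
  rw [map_mul, map_ofNat]
  field_simp
  ring

theorem one_sub_Rfun_mul (hx : Transcendental κ x) (hp : 0 < p) (a : κ) :
    1 - Rfun p x a * (x ^ p - algebraMap κ Fb a) =
      -((x ^ p - algebraMap κ Fb a) / (x - algebraMap κ Fb a)) := by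
  have h1 := sub_const_ne_zero hx a
  have h2 := pow_sub_const_ne_zero hx hp a
  unfold Rfun
  field_simp
  ring

/-! ### separability -/

section Sep

variable [Fact p.Prime] [CharP κ p]

/-- **`x` is separable over `κ(R_a(x))`.** -/
theorem isSeparable_x_over_Rfun (hx : Transcendental κ x) (a : κ) :
    IsSeparable κ⟮Rfun p x a⟯ x := by
  have hp : 0 < p := (Fact.out : p.Prime).pos
  set E := κ⟮Rfun p x a⟯ with hE
  set r : E := AdjoinSimple.gen κ (Rfun p x a) with hr
  have hrcoe : algebraMap E Fb r = Rfun p x a := AdjoinSimple.algebraMap_gen κ (Rfun p x a)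
  set q : E[X] := (numPoly p a).map (algebraMap κ E) - C r * (denPoly p a).map (algebraMap κ E)
    with hq
  apply isSeparable_of_simple_root q
  · rw [hq, map_sub, map_mul, aeval_C, aeval_map_algebraMap, aeval_map_algebraMap, hrcoe,
      aeval_numPoly, aeval_denPoly, Rfun_mul_den hx hp a, sub_self]
  · rw [hq, derivative_sub, derivative_mul, derivative_C, zero_mul, zero_add, derivative_map,
      derivative_map, derivative_numPoly, derivative_denPoly, map_sub, map_mul, aeval_C,
      aeval_map_algebraMap, aeval_map_algebraMap, hrcoe, map_one, map_sub, map_pow, aeval_X,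
      aeval_C, one_sub_Rfun_mul hx hp a]
    exact neg_ne_zero.2 (div_ne_zero (pow_sub_const_ne_zero hx hp a) (sub_const_ne_zero hx a))

end Sep

/-- separability of `Fb / κ(R)` from `x` separable over `κ(R)` and `Fb / κ(x)` separable. -/
theorem isSeparable_tower_of_sep {R : Fb} (hsep : IsSeparable κ⟮R⟯ x)
    [Algebra.IsSeparable κ⟮x⟯ Fb] : Algebra.IsSeparable κ⟮R⟯ Fb := by
  set E := κ⟮R⟯ with hE
  set M : IntermediateField E Fb := E⟮x⟯ with hM
  have h1 : Algebra.IsSeparable E M :=
    (IntermediateField.isSeparable_adjoin_simple_iff_isSeparable E Fb).2 hsep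
  have hle : κ⟮x⟯ ≤ M.restrictScalars κ := by
    rw [adjoin_simple_le_iff]
    exact mem_adjoin_simple_self E x
  let f : κ⟮x⟯ →+* M := (algebraMap κ⟮x⟯ Fb).codRestrict M (fun y => hle y.2)
  let _ : Algebra κ⟮x⟯ M := f.toAlgebra
  have : IsScalarTower κ⟮x⟯ M Fb := IsScalarTower.of_algebraMap_eq (fun y => rfl)
  have h2 : Algebra.IsSeparable M Fb :=
    Algebra.isSeparable_tower_top_of_isSeparable (F := κ⟮x⟯) (L := M) (E := Fb)
  exact Algebra.IsSeparable.trans E M Fb

theorem Rfun_mem_adjoin (p : ℕ) (x : Fb) (a : κ) : Rfun p x a ∈ κ⟮x⟯ := by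
  have hx : x ∈ κ⟮x⟯ := mem_adjoin_simple_self κ x
  have ha : algebraMap κ Fb a ∈ κ⟮x⟯ := IntermediateField.algebraMap_mem _ a
  unfold Rfun
  exact add_mem (inv_mem (sub_mem hx ha)) (inv_mem (sub_mem (pow_mem hx p) ha))

/-- **`Fb / κ(R_a(x))` is separable.** -/
theorem isSeparable_Rfun [Fact p.Prime] [CharP κ p] (hx : Transcendental κ x)
    [Algebra.IsSeparable κ⟮x⟯ Fb] (a : κ) : Algebra.IsSeparable κ⟮Rfun p x a⟯ Fb :=
  isSeparable_tower_of_sep (isSeparable_x_over_Rfun hx a)

end Fermat.Agent.T33.NodalCoord2
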