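/-
Programme T (S33), nodal layer, chapter N-F, concrete half, function-field part (helper2), file C:
**the generic fibre and the numerical hypothesis `hdeg`.**

* `poleDiv_add_le`, `degree_poleDiv_add_le` : `(f + g)_∞ ≤ (f)_∞ + (g)_∞`;
* `degree_poleDiv_inv_sub_const` : `deg (1/(t - a))_∞ = deg (t)_∞`;
* `degree_poleDiv_inv_add_inv_le` : for `s = 1/(t - a) + 1/(y - a)`:
  `deg (s)_∞ ≤ deg (t)_∞ + deg (y)_∞`;
* `hdeg_of_le` : if the two reductions of `s` are `R_ā(x₁)`, `R_ā(x₂)` and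
  `deg (t)_∞ + deg (y)_∞ ≤ (1 + p) (deg (x₁)_∞ + deg (x₂)_∞)` then
  `deg (s)_∞ ≤ deg (s̄₁)_∞ + deg (s̄₂)_∞` — the hypothesis `hdeg` of
  `NodalChoose8B.exists_disc_data_of_hdeg`;
* transport lemmas `isGen_of_eq_Rfun`, `isSeparable_of_eq_Rfun`, `ord_nonneg_of_eq_Rfun`,
  `ne_zero_of_eq_Rfun` for a function known to be equal to `R_ā(x)`.
-/
import Mathlib
import Fermat.Agent.T33.NodalCoord2B

set_option autoImplicit false
set_option linter.unusedSectionVars false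

open AlgebraicCurve IntermediateField

namespace Fermat.Agent.T33.NodalCoord2

open Fermat.Agent.X0.FF Fermat.Agent.RR.LSpace Fermat.Agent.RR.Riemann Fermat.Agent.FF.PolePres1

section Generic

variable {K F : Type*} [Field K] [Field F] [Algebra K F] (H : LHyp K F)

/-- `(f + g)_∞ ≤ (f)_∞ + (g)_∞`. -/
theorem poleDiv_add_le {f g : F} (hf : f ≠ 0) (hg : g ≠ 0) (hfg : f + g ≠ 0) :
    poleDiv H hfg ≤ poleDiv H hf + poleDiv H hg := by
  intro v
  rw [Finsupp.add_apply, poleDiv_apply, poleDiv_apply, poleDiv_apply]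
  have := ord_add_ge v hfg
  omega

include H in
theorem degree_le_of_le {D D' : Divisor K F} (h : D ≤ D') :
    Divisor.degree D ≤ Divisor.degree D' := by
  have h1 : 0 ≤ D' - D := fun v => by
    rw [Finsupp.sub_apply]
    have := h v
    simp only [Finsupp.coe_zero, Pi.zero_apply]
    omega
  have h2 := degree_nonneg H h1
  rw [map_sub] at h2
  omega

theorem degree_poleDiv_add_le {f g : F} (hf : f ≠ 0) (hg : g ≠ 0) (hfg : f + g ≠ 0) :
    Divisor.degree (poleDiv H hfg) ≤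
      Divisor.degree (poleDiv H hf) + Divisor.degree (poleDiv H hg) := by
  have := degree_le_of_le H (poleDiv_add_le H hf hg hfg)
  rwa [map_add] at this

/-- `deg (1/(t - a))_∞ = deg (t)_∞`. -/
theorem degree_poleDiv_inv_sub_const {t : F} (ht0 : t ≠ 0) (a : K)
    (hta : t - algebraMap K F a ≠ 0) :
    Divisor.degree (poleDiv H (inv_ne_zero hta)) = Divisor.degree (poleDiv H ht0) := by
  rw [← zeroDiv_eq_poleDiv_inv H hta, degree_zeroDiv, poleDiv_sub_const H ht0 a hta]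

/-- **`deg (1/(t - a) + 1/(y - a))_∞ ≤ deg (t)_∞ + deg (y)_∞`.** -/
theorem degree_poleDiv_inv_add_inv_le {t y : F} (ht0 : t ≠ 0) (hy0 : y ≠ 0) (a : K)
    (hta : t - algebraMap K F a ≠ 0) (hya : y - algebraMap K F a ≠ 0)
    (hs0 : (t - algebraMap K F a)⁻¹ + (y - algebraMap K F a)⁻¹ ≠ 0) :
    Divisor.degree (poleDiv H hs0) ≤
      Divisor.degree (poleDiv H ht0) + Divisor.degree (poleDiv H hy0) := by
  have h := degree_poleDiv_add_le H (inv_ne_zero hta) (inv_ne_zero hya) hs0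
  rwa [degree_poleDiv_inv_sub_const H ht0 a hta, degree_poleDiv_inv_sub_const H hy0 a hya] at h

theorem degree_poleDiv_congr {f f' : F} (hf : f ≠ 0) (hf' : f' ≠ 0) (h : f = f') :
    Divisor.degree (poleDiv H hf) = Divisor.degree (poleDiv H hf') := by
  subst h
  rfl

end Generic

/-! ### transport to a function equal to `R_ā(x)` -/

section Transport

variable {κ Fb : Type*} [Field κ] [Field Fb] [Algebra κ Fb]
variable {p : ℕ} [Fact p.Prime] [CharP κ p] {x : Fb} {a : κ} {f : Fb}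

theorem isGen_of_eq_Rfun (HL : LHyp κ Fb) (hx : IsGen κ x) (ha : a ^ p ≠ a)
    (hf : f = Rfun p x a) : IsGen κ f := by
  rw [hf]
  exact isGen_Rfun HL hx ha

theorem isSeparable_of_eq_Rfun (hx : Transcendental κ x) [Algebra.IsSeparable κ⟮x⟯ Fb]
    (hf : f = Rfun p x a) : Algebra.IsSeparable κ⟮f⟯ Fb := by
  rw [hf]
  exact isSeparable_Rfun hx a

theorem ne_zero_of_eq_Rfun (HL : LHyp κ Fb) (hx : Transcendental κ x) (ha : a ^ p ≠ a)
    (hf : f = Rfun p x a) : f ≠ 0 := by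
  rw [hf]
  exact Rfun_ne_zero HL hx ha

/-- `f = R_a(x)` is regular at the places of `B` for `a` outside the bad constants. -/
theorem ord_nonneg_of_eq_Rfun (HL : LHyp κ Fb) (hx : Transcendental κ x)
    {B : Finset (Place κ Fb)} (ha : a ∉ badConst p x B) (hf : f = Rfun p x a)
    (Q : Place κ Fb) (hQ : Q ∈ B) : 0 ≤ Q.ord f := by
  rw [hf]
  exact ord_Rfun_nonneg_of_notMem_badConst hx ha
    (Rfun_ne_zero HL hx (pow_ne_of_notMem_badConst ha)) Q hQ

theorem degree_poleDiv_of_eq_Rfun (HL : LHyp κ Fb) (hx : Transcendental κ x) (ha : a ^ p ≠ a)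
    (hf : f = Rfun p x a) (hf0 : f ≠ 0) (hx0 : x ≠ 0) :
    Divisor.degree (poleDiv HL hf0) = (1 + (p : ℤ)) * Divisor.degree (poleDiv HL hx0) := by
  subst hf
  exact degree_poleDiv_Rfun HL hx ha hf0 hx0

end Transport

/-! ### the numerical hypothesis -/

section Hdeg

variable {K F : Type*} [Field K] [Field F] [Algebra K F]
variable {κ Fb₁ Fb₂ : Type*} [Field κ] [Field Fb₁] [Field Fb₂] [Algebra κ Fb₁] [Algebra κ Fb₂]
variable {p : ℕ} [Fact p.Prime] [CharP κ p]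

/-- **the hypothesis `hdeg`**: `s = 1/(t - a) + 1/(y - a)` on the generic fibre, with reductions
`R_ā(x₁)` and `R_ā(x₂)` on the two components, and
`deg (t)_∞ + deg (y)_∞ ≤ (1 + p) (deg (x₁)_∞ + deg (x₂)_∞)`. -/
theorem hdeg_of_le (H : LHyp K F) (H₁ : LHyp κ Fb₁) (H₂ : LHyp κ Fb₂)
    {t y s : F} (ht0 : t ≠ 0) (hy0 : y ≠ 0) (a : K)
    (hta : t - algebraMap K F a ≠ 0) (hya : y - algebraMap K F a ≠ 0)
    (hs : s = (t - algebraMap K F a)⁻¹ + (y - algebraMap K F a)⁻¹) (hs0 : s ≠ 0)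
    {x₁ : Fb₁} {x₂ : Fb₂} (hx₁ : Transcendental κ x₁) (hx₂ : Transcendental κ x₂)
    {ā : κ} (hā : ā ^ p ≠ ā) {f₁ : Fb₁} {f₂ : Fb₂} (hf₁ : f₁ = Rfun p x₁ ā)
    (hf₂ : f₂ = Rfun p x₂ ā) (hf₁0 : f₁ ≠ 0) (hf₂0 : f₂ ≠ 0) (hx₁0 : x₁ ≠ 0) (hx₂0 : x₂ ≠ 0)
    (hnum : Divisor.degree (poleDiv H ht0) + Divisor.degree (poleDiv H hy0) ≤
      (1 + (p : ℤ)) * (Divisor.degree (poleDiv H₁ hx₁0) + Divisor.degree (poleDiv H₂ hx₂0))) :
    Divisor.degree (poleDiv H hs0) ≤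
      Divisor.degree (poleDiv H₁ hf₁0) + Divisor.degree (poleDiv H₂ hf₂0) := by
  have hs0' : (t - algebraMap K F a)⁻¹ + (y - algebraMap K F a)⁻¹ ≠ 0 := hs ▸ hs0
  have h1 := degree_poleDiv_inv_add_inv_le H ht0 hy0 a hta hya hs0'
  rw [← degree_poleDiv_congr H hs0 hs0' hs] at h1
  rw [degree_poleDiv_of_eq_Rfun H₁ hx₁ hā hf₁ hf₁0 hx₁0,
    degree_poleDiv_of_eq_Rfun H₂ hx₂ hā hf₂ hf₂0 hx₂0, ← mul_add]
  exact le_trans h1 hnum

end Hdeg

end Fermat.Agent.T33.NodalCoord2
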