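/-
Programme T (S33), nodal layer, chapter N-F, concrete half, function-field part (helper2), file D:
**chapter N-F for the coordinate `s = 1/(t - a) + 1/(y - a)`** — `NodalChoose8B.exists_disc_data_of_hdeg`
with all its function-field hypotheses discharged from:

* `s = 1/(t - a) + 1/(y - a) ∈ O₁ ∩ O₂`, `a ∈ A`;
* `ρ₁ s = R_ā(x₁)`, `ρ₂ s = R_ā(x₂)` (`ā` = residue of `a`, `R_ā(x) = 1/(x - ā) + 1/(x ^ p - ā)`), with
  `x_i` separable generators of `Fb_i / κ`;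
* `ā` outside the finitely many bad constants of the branches of the nodes (`badConst`);
* the three numbers: `deg (t)_∞ + deg (y)_∞ ≤ (1 + p) (deg (x₁)_∞ + deg (x₂)_∞)`;
* `Γ`-invariance of `s`, `Γ`-invariant lifts of constants, `NonSpecialExists g` (contract (c)).

Also `exists_good_const` : constants outside the bad sets exist (`κ` infinite).
-/
import Mathlib
import Fermat.Agent.T33.NodalCoord2C
import Fermat.Agent.T33.NodalChoose8B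

set_option autoImplicit false
set_option linter.unusedSectionVars false

open AlgebraicCurve IntermediateField IsLocalRing

namespace Fermat.Agent.T33.NodalCoord2

open Fermat.Agent.X0.FF Fermat.Agent.RR.LSpace Fermat.Agent.RR.Riemann Fermat.Agent.FF.PolePres1
  Fermat.Agent.T33.NodalCtx1 Fermat.Agent.T33.NodalCurve6 Fermat.Agent.T33.NodalIface8
  Fermat.Agent.T33.NodalDisc8B AlgebraicCurve.SemilinearAut

/-- constants outside two bad sets exist. -/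
theorem exists_good_const {κ Fb₁ Fb₂ : Type*} [Field κ] [Field Fb₁] [Field Fb₂] [Algebra κ Fb₁]
    [Algebra κ Fb₂] [Infinite κ] (p : ℕ) [Fact p.Prime] [CharP κ p] (x₁ : Fb₁) (x₂ : Fb₂)
    (B₁ : Finset (Place κ Fb₁)) (B₂ : Finset (Place κ Fb₂)) (S : Set κ) (hS : S.Finite) :
    ∃ a : κ, a ∉ badConst p x₁ B₁ ∧ a ∉ badConst p x₂ B₂ ∧ a ∉ S := by
  have hfin := ((finite_badConst (p := p) x₁ B₁).union (finite_badConst (p := p) x₂ B₂)).union hS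
  obtain ⟨a, ha⟩ := hfin.infinite_compl.nonempty
  refine ⟨a, fun h => ha (Or.inl (Or.inl h)), fun h => ha (Or.inl (Or.inr h)),
    fun h => ha (Or.inr h)⟩

variable {K : Type*} [Field K] {A : ValuationSubring K} {F : Type*} [Field F] [Algebra K F]
variable {Fb₁ Fb₂ : Type*} [Field Fb₁] [Field Fb₂]
  [Algebra (ResidueField A) Fb₁] [Algebra (ResidueField A) Fb₂]
variable {ι : Type*} {Nd : NodalData (ResidueField A) Fb₁ Fb₂ ι} (N : NodalRed A F Nd)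
variable [IsAlgClosed (ResidueField A)]

/-- **chapter N-F for `s = 1/(t - a) + 1/(y - a)`.** -/
theorem exists_disc_data_of_Rfun (H : LHyp K F) (H₁ : LHyp (ResidueField A) Fb₁)
    (H₂ : LHyp (ResidueField A) Fb₂) [Finite ι]
    (p : ℕ) [Fact p.Prime] [CharP (ResidueField A) p]
    (t y : F) (ht0 : t ≠ 0) (hy0 : y ≠ 0) (a : A)
    (hta : t - algebraMap K F (a : K) ≠ 0) (hya : y - algebraMap K F (a : K) ≠ 0)
    (s : F) (hs : s = (t - algebraMap K F (a : K))⁻¹ + (y - algebraMap K F (a : K))⁻¹)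
    (hs₁ : s ∈ N.c₁.O) (hs₂ : s ∈ N.c₂.O)
    (x₁ : Fb₁) (x₂ : Fb₂) (hx₁ : IsGen (ResidueField A) x₁)
    [Algebra.IsSeparable (ResidueField A)⟮x₁⟯ Fb₁]
    (hx₂ : IsGen (ResidueField A) x₂) [Algebra.IsSeparable (ResidueField A)⟮x₂⟯ Fb₂]
    (hρs₁ : N.c₁.ρ ⟨s, hs₁⟩ = Rfun p x₁ (residue A a))
    (hρs₂ : N.c₂.ρ ⟨s, hs₂⟩ = Rfun p x₂ (residue A a))
    (ha₁ : residue A a ∉ badConst p x₁ (Set.finite_range Nd.s1).toFinset)
    (ha₂ : residue A a ∉ badConst p x₂ (Set.finite_range Nd.s2).toFinset)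
    (hnum : Divisor.degree (poleDiv H ht0) + Divisor.degree (poleDiv H hy0) ≤
      (1 + (p : ℤ)) * (Divisor.degree (poleDiv H₁ hx₁.ne_zero) +
        Divisor.degree (poleDiv H₂ hx₂.ne_zero)))
    {Γ : Type*} (γ : Γ → SemilinearAut K F) (hγs : ∀ σ : Γ, γ σ • s = s)
    (hTL : ∀ b : ResidueField A, ∃ c : A, residue A c = b ∧
      ∀ σ : Γ, baseAut (γ σ) (c : K) = c)
    (g : ℕ) (hNS : Nd.NonSpecialExists g) :
    ∃ (m : ℕ) (φ : F) (hφ₁ : φ ∈ N.c₁.O) (hφ₂ : φ ∈ N.c₂.O) (c : Fin (g + m) → NPt N),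
      N.c₁.ρ ⟨φ, hφ₁⟩ ≠ 0 ∧ N.c₂.ρ ⟨φ, hφ₂⟩ ≠ 0 ∧ Function.Injective c ∧
      (∀ j, CentreOK N φ hφ₁ hφ₂ (c j)) ∧
      NonSpecialAt N (Nat.le_add_right g m) c ∧
      (∀ σ : Γ, γ σ • φ = φ) ∧
      (∀ P : Place K F, 0 < P.ord φ → ∃ j, RedTo N P (c j)) ∧
      (∀ P : Place K F, P.ord φ < 0 → N.IsSmoothRed P) ∧
      (∀ Q : Place (ResidueField A) Fb₁, 0 < Q.ord (N.c₁.ρ ⟨φ, hφ₁⟩) → ∃ j, c j = Sum.inl Q) ∧
      (∀ Q : Place (ResidueField A) Fb₂, 0 < Q.ord (N.c₂.ρ ⟨φ, hφ₂⟩) → ∃ j, c j = Sum.inr Q) := by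
  have hā : residue A a ^ p ≠ residue A a := pow_ne_of_notMem_badConst ha₁
  have hg₁ := isGen_of_eq_Rfun H₁ hx₁ hā hρs₁
  have hg₂ := isGen_of_eq_Rfun H₂ hx₂ hā hρs₂
  have := isSeparable_of_eq_Rfun hx₁.transcendental hρs₁
  have := isSeparable_of_eq_Rfun hx₂.transcendental hρs₂
  have hρ₁ := ne_zero_of_eq_Rfun H₁ hx₁.transcendental hā hρs₁
  have hρ₂ := ne_zero_of_eq_Rfun H₂ hx₂.transcendental hā hρs₂
  have hs0 : s ≠ 0 := by
    intro h0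
    apply hρ₁
    have : (⟨s, hs₁⟩ : N.c₁.O) = 0 := Subtype.ext h0
    rw [this, map_zero]
  have hbr₁ : ∀ i, 0 ≤ (Nd.s1 i).ord (N.c₁.ρ ⟨s, hs₁⟩) := fun i =>
    ord_nonneg_of_eq_Rfun H₁ hx₁.transcendental ha₁ hρs₁ (Nd.s1 i)
      ((Set.Finite.mem_toFinset _).2 ⟨i, rfl⟩)
  have hbr₂ : ∀ i, 0 ≤ (Nd.s2 i).ord (N.c₂.ρ ⟨s, hs₂⟩) := fun i =>
    ord_nonneg_of_eq_Rfun H₂ hx₂.transcendental ha₂ hρs₂ (Nd.s2 i)
      ((Set.Finite.mem_toFinset _).2 ⟨i, rfl⟩)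
  have hdeg := hdeg_of_le H H₁ H₂ ht0 hy0 (a : K) hta hya hs hs0 hx₁.transcendental
    hx₂.transcendental hā hρs₁ hρs₂ hρ₁ hρ₂ hx₁.ne_zero hx₂.ne_zero hnum
  exact Fermat.Agent.T33.NodalChoose8B.exists_disc_data_of_hdeg N H H₁ H₂ s hs₁ hs₂ hg₁ hg₂
    hbr₁ hbr₂ hs0 hρ₁ hρ₂ hdeg γ hγs hTL g hNS

end Fermat.Agent.T33.NodalCoord2
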