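/-
Programme T (S33), chapter N-F, concrete half (helper3): **the degrees of the pole divisors of the
coordinates of `X₀(M'p)` and of its two components.**

`h : LevelHyp p M' A`, `N = M' p`, `nM h = [ℚ̄·F_{M'} : ℚ̄(t)]`:

* `finrank_tA`, `finrank_yA` : `[ℚ̄·F_N : ℚ̄(t)] = [ℚ̄·F_N : ℚ̄(y)] = n' (p + 1)`; `isGen_yA`;
* `degree_poleDiv_tA`, `degree_poleDiv_yA` : `deg (t)_∞ = deg (y)_∞ = n' (p + 1)` (any `LHyp`);
* `degree_poleDiv_xOne`, `degree_poleDiv_xTwo` : `deg (x₁)_∞ = deg (x₂)_∞ = n'`;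
* `hnum` : the numerical hypothesis of `NodalCoord2.exists_disc_data_of_Rfun` and of
  `NodalFinal8.hasConnOrder_of_Rfun`;
* `hdeg` : the degree hypothesis of `NodalInst6.chartsS_of_charts` (`m₁ = 1`, `m₂ = p`);
* generic: `degree_poleDiv_of_charZero`, `degree_poleDiv_of_sep` (`deg (x)_∞ = [F : K(x)]`).
-/
import Mathlib
import Fermat.Agent.T33.FrickeRed3B
import Fermat.Agent.T33.NodalLift6A
import Fermat.Agent.ES.RED.SumOrdSep15
import Fermat.Agent.X0.FFSum
import Fermat.Agent.RR.Riemann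
import Fermat.Agent.ES.HECKE.DegreeL25
import Fermat.Agent.RED.PUR.DegBaseChange25

set_option autoImplicit false
set_option linter.unusedSectionVars false
set_option linter.style.haveILetI false
set_option linter.unusedVariables false
set_option synthInstance.maxHeartbeats 400000

noncomputable section

namespace Fermat.Agent.T33.NodalDegs3

open HahnSeries ModularCurve IntermediateField IsLocalRing AlgebraicCurve
open Fermat.Agent.RED.Interface4 Fermat.Agent.ES.RED Fermat.Agent.X0 Fermat.Agent.X0.FF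
  Fermat.Agent.RR.LSpace Fermat.Agent.RR.Riemann
  Fermat.Agent.T33.NodalHalf4 Fermat.Agent.T33.NodalBase4A Fermat.Agent.T33.FrickeRed3
  Fermat.Agent.RED.BASE.Interface12 Fermat.Agent.RED.BASE.EtaQuot12
  Fermat.Agent.T33.NodalCurve6 Fermat.Agent.T33.NodalLift6

/-! ### generic: the degree of the pole divisor of a separating generator -/

section Generic

variable {K F : Type*} [Field K] [Field F] [Algebra K F] [IsAlgClosed K]

theorem degree_poleDiv_of_charZero [CharZero K] (H : LHyp K F) {x : F} (hx : IsGen K x)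
    (hx0 : x ≠ 0) : Divisor.degree (poleDiv H hx0) = (Module.finrank K⟮x⟯ F : ℤ) := by
  rw [degree_poleDiv_eq_finsum, FF.sum_ord_poles hx]

theorem degree_poleDiv_of_sep (H : LHyp K F) {x : F} (hx : IsGen K x)
    [Algebra.IsSeparable K⟮x⟯ F] (hx0 : x ≠ 0) :
    Divisor.degree (poleDiv H hx0) = (Module.finrank K⟮x⟯ F : ℤ) := by
  rw [degree_poleDiv_eq_finsum, SumOrdSep15.sum_ord_poles_sep hx]

end Generic

variable {p M' : ℕ} [NeZero M'] [NeZero p] {A : ValuationSubring Qbar}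

/-- `n' = [ℚ̄·F_{M'} : ℚ̄(t)]`. -/
def nM (h : LevelHyp p M' A) : ℕ :=
  Module.finrank ↥(Qbar⟮tM h⟯ : IntermediateField Qbar ↥(Fbar M')) ↥(Fbar M')

variable (h : LevelHyp p M' A)

theorem nM_eq_relfinrank : nM h = relfinrank Qbar⟮tq Qbar 4 8⟯ (Fbar M') :=
  SpecialGen25.finrank_tF_eq_relfinrank 4 8 M' (tMemM h)

theorem nM_pos : 0 < nM h := by
  haveI := (isGen_tM h).finite
  exact Module.finrank_pos

include h in
theorem relfinrank_level : relfinrank (Fbar M') (Fbar (M' * p)) = p + 1 := by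
  show relfinrank (laurentBaseChange Qbar (modularFunctionFieldFull M'))
    (laurentBaseChange Qbar (modularFunctionFieldFull (M' * p))) = p + 1
  rw [Fermat.Agent.RED.PUR.DegBaseChange25.laurentBaseChange_full_eq,
    Fermat.Agent.RED.PUR.DegBaseChange25.laurentBaseChange_full_eq]
  exact Fermat.Agent.ES.HECKE.DegreeL25.relfinrank_alpha Qbar M' p h.prime h.not_dvd

include h in
theorem relfinrank_level_beta :
    relfinrank ((Fbar M').map (qExpandAlgHomC Qbar p)) (Fbar (M' * p)) = p + 1 := by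
  show relfinrank ((laurentBaseChange Qbar (modularFunctionFieldFull M')).map (qExpandAlgHomC Qbar p))
    (laurentBaseChange Qbar (modularFunctionFieldFull (M' * p))) = p + 1
  rw [Fermat.Agent.RED.PUR.DegBaseChange25.laurentBaseChange_full_eq,
    Fermat.Agent.RED.PUR.DegBaseChange25.laurentBaseChange_full_eq]
  exact Fermat.Agent.ES.HECKE.DegreeL25.relfinrank_beta Qbar M' p h.prime h.not_dvd

theorem Fbar_le_level : Fbar M' ≤ Fbar (M' * p) := by
  intro x hx
  exact (alphaA M' p ⟨x, hx⟩).2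

/-- **`[ℚ̄·F_N : ℚ̄(t)] = (p + 1) n'`.** -/
theorem finrank_tA :
    Module.finrank ↥(Qbar⟮tA h⟯ : IntermediateField Qbar ↥(Fbar (M' * p))) ↥(Fbar (M' * p)) =
      nM h * (p + 1) := by
  have h1 : Module.finrank ↥(Qbar⟮tA h⟯ : IntermediateField Qbar ↥(Fbar (M' * p)))
      ↥(Fbar (M' * p)) = relfinrank Qbar⟮tq Qbar 4 8⟯ (Fbar (M' * p)) :=
    SpecialGen25.finrank_tF_eq_relfinrank 4 8 (M' * p) (tMemN h)
  rw [h1, nM_eq_relfinrank, ← relfinrank_level h]
  exact (relfinrank_mul_relfinrank (adjoin_simple_le_iff.mpr (tMemM h)) (Fbar_le_level (p := p))).symm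

theorem coe_yA :
    ((yA h : ↥(Fbar (M' * p))) : LaurentSeries Qbar) = qExpandAlgHomC Qbar p (tq Qbar 4 8) := by
  show ((betaA M' p (tM h) : ↥(Fbar (M' * p))) : LaurentSeries Qbar) = _
  rw [coe_betaA, coe_tM]
  rfl

theorem map_le_level : (Fbar M').map (qExpandAlgHomC Qbar p) ≤ Fbar (M' * p) := by
  rintro _ ⟨y, hy, rfl⟩
  exact (betaA M' p ⟨y, hy⟩).2

theorem relfinrank_yA :
    relfinrank Qbar⟮((yA h : ↥(Fbar (M' * p))) : LaurentSeries Qbar)⟯ (Fbar (M' * p)) =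
      nM h * (p + 1) := by
  have h1 : Qbar⟮((yA h : ↥(Fbar (M' * p))) : LaurentSeries Qbar)⟯ =
      (Qbar⟮tq Qbar 4 8⟯).map (qExpandAlgHomC Qbar p) := by
    rw [coe_yA, IntermediateField.adjoin_map, Set.image_singleton]
  rw [h1, nM_eq_relfinrank, ← relfinrank_level_beta h,
    ← IntermediateField.relfinrank_map_map (Qbar⟮tq Qbar 4 8⟯) (Fbar M') (qExpandAlgHomC Qbar p)]
  exact (relfinrank_mul_relfinrank
    (IntermediateField.map_mono _ (adjoin_simple_le_iff.mpr (tMemM h))) (map_le_level (p := p))).symm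

/-- **`[ℚ̄·F_N : ℚ̄(y)] = (p + 1) n'`.** -/
theorem finrank_yA :
    Module.finrank ↥(Qbar⟮yA h⟯ : IntermediateField Qbar ↥(Fbar (M' * p))) ↥(Fbar (M' * p)) =
      nM h * (p + 1) := by
  rw [SpecialGen25.finrank_adjoin_simple_eq_relfinrank (Fbar (M' * p)) (yA h)]
  exact relfinrank_yA h

theorem isGen_yA : IsGen Qbar (yA h) := by
  refine SpecialGen25.isGen_of_relfinrank_ne_zero (Fbar (M' * p)) (yA h) ?_ ?_
  · rw [coe_yA]
    intro halg
    exact Fermat.Agent.RED.BASE.TqTranscendental19.transcendental_tq Qbar 4 8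
      ((isAlgebraic_algHom_iff (qExpandAlgHomC Qbar p) (qExpandAlgHomC Qbar p).injective).1 halg)
  · rw [relfinrank_yA]
    exact (Nat.mul_pos (nM_pos h) (Nat.succ_pos p)).ne'

/-! ### the degrees of the four pole divisors -/

theorem degree_poleDiv_tA (H : LHyp Qbar ↥(Fbar (M' * p))) (ht0 : tA h ≠ 0) :
    Divisor.degree (poleDiv H ht0) = ((nM h * (p + 1) : ℕ) : ℤ) := by
  rw [degree_poleDiv_of_charZero H (isGen_tA h) ht0, finrank_tA]

theorem degree_poleDiv_yA (H : LHyp Qbar ↥(Fbar (M' * p))) (hy0 : yA h ≠ 0) :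
    Divisor.degree (poleDiv H hy0) = ((nM h * (p + 1) : ℕ) : ℤ) := by
  rw [degree_poleDiv_of_charZero H (isGen_yA h) hy0, finrank_yA]

theorem degree_poleDiv_xOne (H₁ : LHyp (Setup8.kA A) (Fb A M')) (hx0 : xOne h ≠ 0) :
    Divisor.degree (poleDiv H₁ hx0) = (nM h : ℤ) := by
  haveI : IsAlgClosed (Setup8.kA A) := Fermat.Agent.ES.KRON.KronInst10.isAlgClosed_residueField A
  rw [degree_poleDiv_of_sep H₁ (isGen_xOne h) hx0, finrank_xOne]
  rfl

theorem degree_poleDiv_xTwo (H₂ : LHyp (Setup8.kA A) (Fb A M')) (hx0 : xTwo h ≠ 0) :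
    Divisor.degree (poleDiv H₂ hx0) = (nM h : ℤ) := by
  haveI : IsAlgClosed (Setup8.kA A) := Fermat.Agent.ES.KRON.KronInst10.isAlgClosed_residueField A
  rw [degree_poleDiv_of_sep H₂ (isGen_xTwo h) hx0, finrank_xTwo, finrank_xOne]
  rfl

/-- **`hnum`** of `NodalCoord2.exists_disc_data_of_Rfun` / `NodalFinal8.hasConnOrder_of_Rfun`. -/
theorem hnum (H : LHyp Qbar ↥(Fbar (M' * p))) (H₁ H₂ : LHyp (Setup8.kA A) (Fb A M'))
    (ht0 : tA h ≠ 0) (hy0 : yA h ≠ 0) (hx10 : xOne h ≠ 0) (hx20 : xTwo h ≠ 0) :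
    Divisor.degree (poleDiv H ht0) + Divisor.degree (poleDiv H hy0) ≤
      (1 + (p : ℤ)) * (Divisor.degree (poleDiv H₁ hx10) + Divisor.degree (poleDiv H₂ hx20)) := by
  rw [degree_poleDiv_tA, degree_poleDiv_yA, degree_poleDiv_xOne, degree_poleDiv_xTwo]
  push_cast
  nlinarith

/-- **`hdeg`** of `NodalInst6.chartsS_of_charts` / `chartsS_of_twoCharts` (`m₁ = 1`, `m₂ = p`). -/
theorem hdeg (H : LHyp Qbar ↥(Fbar (M' * p))) (H₁ H₂ : LHyp (Setup8.kA A) (Fb A M'))
    (ht0 : tA h ≠ 0) (hx10 : xOne h ≠ 0) (hx20 : xTwo h ≠ 0) :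
    NDiv.degree (Dt H₁ H₂ hx10 hx20 1 p) = Divisor.degree (poleDiv H ht0) := by
  show Divisor.degree (1 • poleDiv H₁ hx10) + Divisor.degree (p • poleDiv H₂ hx20) = _
  rw [map_nsmul, map_nsmul, degree_poleDiv_tA, degree_poleDiv_xOne, degree_poleDiv_xTwo]
  push_cast
  ring

end Fermat.Agent.T33.NodalDegs3
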