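/-
Programme T (S33), DESIGN file (helper8, architect): **interfaces of the nodal layer** on top of
contract (a) `NodalCtx1.NodalRed` (helper1) and contract (c) `NodalCurve6.NodalData` (helper6).
Definitions, literal contract statements (as `Prop`-valued definitions) and elementary API only; no
theorem of the nodal chapters is proved here.

1. `NDiscModel` : `FF/GeomIface8.DiscModel` with the field `gauss` (false for `O₁ ⊓ O₂`) replaced
   by `gauss_disc` (functions whose divisor is a sum of differences of two points of one disc);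
   `NLatticeModel`; `discDiv`, `theta` (as `FF/Meaning8`, `FF/Theta8`).
2. push-forward of divisors along the PARTIAL reductions `r₁`, `r₂`; contract (b1) `Semicont`.
3. `DiscCompat` (the disc model sits over smooth points of the special fibre), `NonSpecialAt`,
   `KummerTrivial`; the statements `ThetaInjStatement`, `ThetaSurjStatement` of chapter N-E
   (contract (d)).
4. `NThetaInput` : what the assembly (chapter N-D) consumes; its conclusion is
   `ConnOrd2.HasConnOrder` (the geometric statement (NF) of Programme T).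
-/
import Mathlib
import Fermat.Agent.T33.NodalCtx1
import Fermat.Agent.T33.NodalCurve6
import Fermat.Agent.FF.GeomIface8
import Fermat.Agent.FF.Assembly8

set_option autoImplicit false

open AlgebraicCurve PowerSeries IsLocalRing

noncomputable section

namespace Fermat.Agent.T33.NodalIface8

open Fermat.Agent.FF.CoreIface8 Fermat.Agent.FF.GeomIface8 Fermat.Agent.X0.FF
  Fermat.Agent.T33.NodalCtx1 Fermat.Agent.T33.NodalCurve6

/-! ### 1. the nodal disc model -/

section Disc

variable {K : Type*} [Field K] {F : Type*} [Field F] [Algebra K F]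

/-- the subgroup of divisors generated by the differences of two points of the same disc. -/
def discZero {A : ValuationSubring K} {d : ℕ} (P : Fin d → A → Place K F) :
    AddSubgroup (Divisor K F) :=
  AddSubgroup.closure {E | ∃ (j : Fin d) (t t' : A), t ∈ maximalIdeal A ∧ t' ∈ maximalIdeal A ∧
    E = Finsupp.single (P j t) (1 : ℤ) - Finsupp.single (P j t') (1 : ℤ)}

/-- **the nodal disc model**: `GeomIface8.DiscModel` with `gauss` replaced by `gauss_disc`.
For the two-component reduction `O = O₁ ⊓ O₂` (the semilocal ring of the two generic points of the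
special fibre), the discs lie over smooth points of either component, and `φ ∈ O` is ONE parameter
for all of them. -/
structure NDiscModel (A : ValuationSubring K) (F : Type*) [Field F] [Algebra K F] (g d : ℕ) where
  hgd : g ≤ d
  /-- the ring of functions integral at both generic points of the special fibre. -/
  O : Subring F
  algebraMap_mem : ∀ a : A, algebraMap K F (a : K) ∈ O
  /-- the parameter. -/
  φ : F
  φ_sub_unit : ∀ t : A, t ∈ maximalIdeal A → IsOUnit O (φ - algebraMap K F (t : K))
  /-- the point of the `j`-th disc with `φ = t` (used for `t ∈ 𝔪_A` only). -/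
  P : Fin d → A → Place K F
  ord_φ_sub_self : ∀ (j : Fin d) (t : A), t ∈ maximalIdeal A →
    (P j t).ord (φ - algebraMap K F (t : K)) = 1
  ord_φ_sub_of_ne : ∀ (j : Fin d) (t t' : A), t ∈ maximalIdeal A → t' ∈ maximalIdeal A → t ≠ t' →
    (P j t).ord (φ - algebraMap K F (t' : K)) = 0
  /-- the expansion on the `j`-th disc in the parameter `φ`. -/
  exp : ∀ j : Fin d, discRing A O (P j) →+* PowerSeries A
  exp_φ : ∀ (j : Fin d) (h : discRing A O (P j)), (h : F) = φ → exp j h = X
  exp_const : ∀ (j : Fin d) (h : discRing A O (P j)) (a : A),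
    (h : F) = algebraMap K F (a : K) → exp j h = C a
  /-- **weak Gauss property**: a function whose divisor is a sum of differences of two points of
  the same disc is a constant times a unit of `O`. -/
  gauss_disc : ∀ f : F, f ≠ 0 → ∀ E : Divisor K F, (∀ Q : Place K F, E Q = Q.ord f) →
    E ∈ discZero P → ∃ c : K, c ≠ 0 ∧ IsOUnit O (algebraMap K F c * f)

/-- a disc model in the sense of `FF/GeomIface8` is a nodal disc model. -/
def ofDiscModel {A : ValuationSubring K} {g d : ℕ} (M : DiscModel A F g d) :
    NDiscModel A F g d where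
  hgd := M.hgd
  O := M.O
  algebraMap_mem := M.algebraMap_mem
  φ := M.φ
  φ_sub_unit := M.φ_sub_unit
  P := M.P
  ord_φ_sub_self := M.ord_φ_sub_self
  ord_φ_sub_of_ne := M.ord_φ_sub_of_ne
  exp := M.exp
  exp_φ := M.exp_φ
  exp_const := M.exp_const
  gauss_disc f hf _ _ _ := M.gauss f hf

/-- the link between a `CoreData` over `A` and a nodal disc model (`GeomIface8.LatticeModel`). -/
structure NLatticeModel {A : ValuationSubring K} {g d : ℕ} (M : NDiscModel A F g d)
    {V : Type*} [AddCommGroup V] [Module A V] (D : CoreData A V g d) where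
  /-- the inclusion of the lattice in the function field. -/
  ι : V →+ F
  /-- every function of `O` with poles bounded by `g (φ)_∞ + g (φ)_0` lies in the lattice. -/
  mem_range : ∀ u : F, u ∈ M.O → (∀ Q : Place K F, 0 ≤ Q.ord u + g * |Q.ord M.φ|) → ∃ v, ι v = u
  pow_mul_mem : ∀ (j : Fin d) (v : V), M.φ ^ g * ι v ∈ discRing A M.O (M.P j)
  eps_eq : ∀ (j : Fin d) (v : V), D.ε j v = M.exp j ⟨M.φ ^ g * ι v, pow_mul_mem j v⟩

variable {A : ValuationSubring K} {g d : ℕ} (M : NDiscModel A F g d)

/-- `D(x) = ∑_{j<g} P_j(x_j)`. -/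
def discDiv (x : Fin g → A) : Divisor K F :=
  ∑ j : Fin g, Finsupp.single (M.P (Fin.castLE M.hgd j) (x j)) 1

variable (hdeg : ∀ (j : Fin d) (t : A), (M.P j t).deg = 1)

include hdeg in
theorem degree_discDiv (x : Fin g → A) : Divisor.degree (discDiv M x) = g := by
  unfold discDiv
  rw [map_sum]
  simp [Divisor.degree_single, hdeg]

include hdeg in
theorem discDiv_sub_mem_degZero (x : Fin g → A) :
    discDiv M x - discDiv M (fun _ => (0 : A)) ∈ Divisor.degZero (K := K) (F := F) := by
  rw [Divisor.mem_degZero, map_sub, degree_discDiv M hdeg, degree_discDiv M hdeg, sub_self]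

/-- `θ x = [D(x) - D(0)]`. -/
def theta (x : Fin g → A) : Pic0 K F :=
  Pic0.mk ⟨discDiv M x - discDiv M (fun _ => (0 : A)), discDiv_sub_mem_degZero M hdeg x⟩

end Disc

/-! ### 2. push-forward along the partial reductions; contract (b1) -/

section Push

variable {K : Type*} [Field K] {A : ValuationSubring K} {F : Type*} [Field F] [Algebra K F]
variable {Fb₁ Fb₂ : Type*} [Field Fb₁] [Field Fb₂]
  [Algebra (ResidueField A) Fb₁] [Algebra (ResidueField A) Fb₂]
variable {ι : Type*} {Nd : NodalData (ResidueField A) Fb₁ Fb₂ ι} (N : NodalRed A F Nd)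

/-- all the points of `D` have smooth reduction. -/
def SmoothSupp (D : Divisor K F) : Prop := ∀ P : Place K F, D P ≠ 0 → N.IsSmoothRed P

/-- the part of `r_* D` on the first component. -/
def push₁ (D : Divisor K F) : Divisor (ResidueField A) Fb₁ := (Finsupp.mapDomain N.r₁ D).some

/-- the part of `r_* D` on the second component. -/
def push₂ (D : Divisor K F) : Divisor (ResidueField A) Fb₂ := (Finsupp.mapDomain N.r₂ D).some

/-- `r_* D` as a divisor on the normalisation of the special fibre (meaningful for divisors with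
smooth-reduction support: a place over a node would be counted on both components). -/
def pushDiv (D : Divisor K F) : NDiv (ResidueField A) Fb₁ Fb₂ := (push₁ N D, push₂ N D)

/-- **contract (b1), semicontinuity**: `l(D) ≤ l^nod(r_* D)` for divisors with smooth-reduction
support.  [Proof from the axioms: `Λ(D) = L(D) ∩ O₁ ∩ O₂` is `A`-free of rank `l(D)`, the kernel
of `(ρ₁, ρ₂)` on it is `𝔪_A Λ(D)`, the image lies in `L^nod(r_* D)`: pole bounds by `push_i`,
regularity and equal values at the nodes by `glue`.] -/
def Semicont : Prop :=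
  ∀ D : Divisor K F, SmoothSupp N D →
    Fermat.Agent.FF.SpecRR1.ell D ≤ Nd.ell (pushDiv N D)

/-- the points of the normalisation of the special fibre. -/
abbrev NPt (_N : NodalRed A F Nd) : Type _ :=
  Place (ResidueField A) Fb₁ ⊕ Place (ResidueField A) Fb₂

/-- the place `P` reduces to the point `Q` of the normalisation. -/
def RedTo (P : Place K F) : NPt N → Prop
  | Sum.inl Q => N.r₁ P = some Q
  | Sum.inr Q => N.r₂ P = some Q

/-- `Q` is not a branch of a node. -/
def SmoothPt : NPt N → Prop
  | Sum.inl Q => Nd.Smooth1 Q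
  | Sum.inr Q => Nd.Smooth2 Q

/-- the point `Q`, as a nodal divisor. -/
def nsingle : NPt N → NDiv (ResidueField A) Fb₁ Fb₂
  | Sum.inl Q => (Finsupp.single Q 1, 0)
  | Sum.inr Q => (0, Finsupp.single Q 1)

end Push

/-! ### 3. the disc model over a nodal reduction; contract (d) -/

section Theta

variable {K : Type*} [Field K] {A : ValuationSubring K} {F : Type*} [Field F] [Algebra K F]
variable {Fb₁ Fb₂ : Type*} [Field Fb₁] [Field Fb₂]
  [Algebra (ResidueField A) Fb₁] [Algebra (ResidueField A) Fb₂]
variable {ι : Type*} {Nd : NodalData (ResidueField A) Fb₁ Fb₂ ι} (N : NodalRed A F Nd)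
variable {g d : ℕ} (Mod : NDiscModel A F g d)

/-- **the disc model sits over the nodal reduction**: its ring is `O₁ ⊓ O₂`, the `j`-th disc is
exactly the set of places reducing to the smooth point `c j`, and the centres are distinct.
(Chapter N-D constructs `Mod` with this property from `N`, a parameter `φ ∈ O₁ ⊓ O₂` and simple
zeros `c j` of `(ρ₁ φ, ρ₂ φ)`: port of `FF/UniqueZeroA`, `FF/DiscOfRedA` to partial reductions.) -/
structure DiscCompat (c : Fin d → NPt N) : Prop where
  O_eq : Mod.O = N.O
  c_smooth : ∀ j, SmoothPt N (c j)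
  c_inj : Function.Injective c
  center : ∀ (j : Fin d) (t : A), t ∈ maximalIdeal A → RedTo N (Mod.P j t) (c j)
  exhaust : ∀ (j : Fin d) (Q : Place K F), RedTo N Q (c j) →
    ∃ t : A, t ∈ maximalIdeal A ∧ Q = Mod.P j t

/-- `Ē`: the sum of the first `g` centres, as a nodal divisor. -/
def centreDiv (hgd : g ≤ d) (c : Fin d → NPt N) : NDiv (ResidueField A) Fb₁ Fb₂ :=
  ∑ j : Fin g, nsingle N (c (Fin.castLE hgd j))

/-- **non-speciality of the first `g` centres on the nodal curve**: `L^nod(Ē) = κ`
(produced by contract (c), `NodalData.NonSpecialExists`). -/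
def NonSpecialAt (hgd : g ≤ d) (c : Fin d → NPt N) : Prop :=
  Nd.ell (centreDiv N hgd c) = 1

/-- **`z` is Kummer-trivial for the exponent `q`** (`q = p ^ m`): for a representative `D` and
`f` with `div f = q D`, the two normalised reductions of `f` are constants times `q`-th powers.
This is `z ∈ ker Ψ_m` of Programme T, phrased with the rings and reductions of `N`. -/
def KummerTrivial (q : ℕ) (z : Pic0 K F) : Prop :=
  ∃ (D : Divisor.degZero (K := K) (F := F)) (f : F), Pic0.mk D = z ∧ f ≠ 0 ∧
    (∀ P : Place K F, P.ord f = q * (D : Divisor K F) P) ∧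
    ∃ (c₁ c₂ : K) (h₁ : algebraMap K F c₁ * f ∈ N.c₁.O) (h₂ : algebraMap K F c₂ * f ∈ N.c₂.O)
      (a₁ a₂ : ResidueField A) (w₁ : Fb₁) (w₂ : Fb₂), a₁ ≠ 0 ∧ a₂ ≠ 0 ∧ w₁ ≠ 0 ∧ w₂ ≠ 0 ∧
      N.c₁.ρ ⟨_, h₁⟩ = algebraMap (ResidueField A) Fb₁ a₁ * w₁ ^ q ∧
      N.c₂.ρ ⟨_, h₂⟩ = algebraMap (ResidueField A) Fb₂ a₂ * w₂ ^ q

variable (hdeg : ∀ (j : Fin d) (t : A), (Mod.P j t).deg = 1)

/-- **injectivity of `θ` on `𝔪_A ^ g`** (chapter N-E; from `DiscCompat`, `Semicont` and
`NonSpecialAt`, as `FF/ThetaKer5.theta_injective`). -/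
def ThetaInjStatement : Prop :=
  ∀ x x' : Fin g → A, (∀ i, x i ∈ maximalIdeal A) → (∀ i, x' i ∈ maximalIdeal A) →
    theta Mod hdeg x = theta Mod hdeg x' → x = x'

/-- **contract (d), `θ`-surjectivity onto the Kummer-trivial classes** (chapter N-E; from
`DiscCompat`, Riemann's inequality on `F` with the constant `g`, `NonSpecialAt`, `SlopeDichotomy`,
`push_i`, `glue`, `κ` perfect of characteristic `p`, `q = p ^ m`; representatives with points over
the nodes are tolerated: the degree count leaves nothing over the nodes). -/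
def ThetaSurjStatement (q : ℕ) : Prop :=
  ∀ z : Pic0 K F, KummerTrivial N q z →
    ∃ x : Fin g → A, (∀ i, x i ∈ maximalIdeal A) ∧ theta Mod hdeg x = z

end Theta

/-! ### 4. the input and the output of the assembly -/

section Assembly

open Fermat.Agent.FF.Assembly8

variable {K : Type} [Field K] {F : Type*} [Field F] [Algebra K F]
variable {A : ValuationSubring K} {g d : ℕ}

/-- **the input of the nodal assembly** (chapter N-D): `Assembly8.ThetaInput` without `red` and
`Pt` — there is ONE coset (`M₀ = M`): `M` is a finite `Γ`-stable subgroup of `Pic⁰` contained in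
`θ (𝔪_A ^ g)` (for Programme T: `M = ker Ψ_m`, by `ThetaSurjStatement`). -/
structure NThetaInput (Mod : NDiscModel A F g d)
    (hdeg : ∀ (j : Fin d) (t : A), (Mod.P j t).deg = 1)
    (Γ : Type*) [Group Γ] [MulSemiringAction Γ K] [DistribMulAction Γ (Pic0 K F)]
    (M : Type) [AddCommGroup M] [DistribMulAction Γ M] where
  hΓA : ∀ (σ : Γ) (a : K), a ∈ A → σ • a ∈ A
  emb : M →+ Pic0 K F
  emb_inj : Function.Injective emb
  emb_smul : ∀ (σ : Γ) (z : M), emb (σ • z) = σ • emb z
  theta_inj : ∀ x x' : Fin g → A, (∀ i, x i ∈ maximalIdeal A) → (∀ i, x' i ∈ maximalIdeal A) →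
    theta Mod hdeg x = theta Mod hdeg x' → x = x'
  theta_surj : ∀ z : M, ∃ x : Fin g → A, (∀ i, x i ∈ maximalIdeal A) ∧ theta Mod hdeg x = emb z
  theta_smul : ∀ (σ : Γ) (x : Fin g → A), (∀ i, x i ∈ maximalIdeal A) →
    theta Mod hdeg (smulTuple hΓA σ x) = σ • theta Mod hdeg x

/-! The OUTPUT of the nodal assembly (chapter N-D) is helper2's predicate
`T33/ConnOrd2.HasConnOrder (W0 A) (Iner A) A M` for `K = ℚ̄`, `Γ = Iner A`, `W₀ = A^Γ`
(`FF/InertiaWire8`): a Hopf order `H ⊆ (M → ℚ̄)` over `(W₀, Γ)` with `h z - h 0 ∈ 𝔪_A` — the geometric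
statement (NF) of Programme T once `M = ker Ψ_m`. -/

end Assembly

end Fermat.Agent.T33.NodalIface8
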