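/-
Programme T (S33), nodal layer, chapter N-E, contract (d) (helper1): **`θ`-surjectivity onto the
Kummer-trivial classes** — `NodalIface8.ThetaSurjStatement`, proved from the axioms of
`NodalCtx1.NodalRed`, `DiscCompat`, `NonSpecialAt`, Riemann's inequality on `F` with the constant `g`
(`ThetaKer5.RiemannEff`), `κ` of characteristic `p` with surjective `q`-th power map, `q = p ^ m`.

PROOF.  Let `z = [D₀]` be Kummer-trivial: `div f = q D₀`, `ρ_i (c_i f) = a_i w_i ^ q`.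
* Riemann: `D₀ + E ∼ D' ≥ 0` (`E = D(0)`, `deg D' = g`), `D' - (D₀ + E) = div h`.  Replacing `f` by
  `f h ^ q` (and `c_i` by `c_i d_i ^ q`, `d_i` the normalising constants of `h`) we may assume
  `div f = q (D' - E)`  (`thetaSurj` reduces to `core`).
* `ord_root` (Step A): at a smooth point `Q` of `C_i`, `ord_Q w_i = (r_* D')(Q) - Ē(Q)`
  (`fibre_sum` at `Q`, cancel `q`).
* `f` has no pole over the nodes (`E` lies over smooth points), so the slope dichotomy applies:
  - `c₁ / c₂ ∈ 𝔪_A` : `w₁` vanishes at all the branches `s1 i`, hence `(w₁, 0) ∈ L^nod(Ē) = κ`,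
    absurd; symmetrically for `c₂ / c₁ ∈ 𝔪_A`;
  - `c₁ / c₂ ∈ Aˣ` : `y = c₁ f ∈ O₁ ∩ O₂`, and `glue` gives a common value `b_i` of `ρ₁ y = α₁^q w₁^q`
    and `ρ₂ y = α₂^q w₂^q` at the `i`-th node; extracting `q`-th roots (characteristic `p`),
    `(α₁ w₁, α₂ w₂) ∈ L^nod(Ē) = κ`: both `w_i` are constants.
* so `r_* D' = Ē` at all smooth points; comparing total masses (`deg D' = g = deg Ē`) nothing of
  `D'` lies over the nodes, `D'` is a sum of `g` points over the `g` centres, and by `exhaust`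
  `D' = D(x)` with `x ∈ 𝔪_A ^ g`.
-/
import Mathlib
import Fermat.Agent.T33.NodalAbs1B
import Fermat.Agent.T33.NodalIface8
import Fermat.Agent.FF.ThetaKer5

set_option autoImplicit false

open AlgebraicCurve IsLocalRing

namespace Fermat.Agent.T33.NodalAbs1C


section Mass

variable {α β : Type*}

/-- the total mass of a finitely supported integer function. -/
noncomputable def mass (α : Type*) : (α →₀ ℤ) →+ ℤ :=
  Finsupp.liftAddHom (fun _ => AddMonoidHom.id ℤ)

theorem mass_single (a : α) (n : ℤ) : mass α (Finsupp.single a n) = n := by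
  simp [mass]

theorem mass_apply (D : α →₀ ℤ) : mass α D = ∑ a ∈ D.support, D a := by
  simp [mass, Finsupp.sum]

theorem mass_mapDomain (r : α → β) (D : α →₀ ℤ) : mass β (Finsupp.mapDomain r D) = mass α D := by
  induction D using Finsupp.induction_linear with
  | zero => simp
  | add D₁ D₂ h₁ h₂ => rw [Finsupp.mapDomain_add, map_add, map_add, h₁, h₂]
  | single a n => rw [Finsupp.mapDomain_single, mass_single, mass_single]

end Mass


open Fermat.Agent.T33.NodalCtx1 Fermat.Agent.T33.NodalCurve6 Fermat.Agent.T33.NodalAbs1A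
  Fermat.Agent.T33.NodalAbs1B Fermat.Agent.T33.NodalIface8 Fermat.Agent.X0.FF
  Fermat.Agent.RR.LSpace Fermat.Agent.FF.ThetaKer5 Fermat.Agent.FF.GeomIface8

variable {K : Type*} [Field K] {A : ValuationSubring K}
variable {F : Type*} [Field F] [Algebra K F]


/-! ### the order of a Kummer root at a smooth point -/

section Side

variable {Fb : Type*} [Field Fb] [Algebra (ResidueField A) Fb]
variable {c : HalfRed A F Fb} {r : Place K F → Option (Place (ResidueField A) Fb)}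
  {Sm : Place (ResidueField A) Fb → Prop}

/-- **Step A**: if `div f = q D` and the normalised reduction of `f` is `a w ^ q`, then at a smooth
point `Q` the order of `w` is the multiplicity of `Q` in the push-forward of `D`. -/
theorem ord_root (S : SidePush c r Sm) (H : LHyp K F) {q : ℕ} (hq : q ≠ 0) (D : Divisor K F)
    (f : F) (hf : f ≠ 0) (hdiv : ∀ P : Place K F, P.ord f = q * D P)
    (k : K) (hk : algebraMap K F k * f ∈ c.O) (a : ResidueField A) (w : Fb) (ha : a ≠ 0)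
    (hw : w ≠ 0) (hρ : c.ρ ⟨_, hk⟩ = algebraMap (ResidueField A) Fb a * w ^ q)
    (Q : Place (ResidueField A) Fb) (hQ : Sm Q) :
    Q.ord w = Finsupp.mapDomain r D (some Q) := by
  classical
  have haF : algebraMap (ResidueField A) Fb a ≠ 0 := by rwa [ne_eq, _root_.map_eq_zero]
  have hρ0 : c.ρ ⟨_, hk⟩ ≠ 0 := by
    rw [hρ]
    exact mul_ne_zero haF (pow_ne_zero _ hw)
  have hk0 : k ≠ 0 := const_ne_zero_of_ρ_ne_zero c hk hρ0
  have hkF : algebraMap K F k ≠ 0 := by rwa [ne_eq, _root_.map_eq_zero]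
  obtain ⟨s, hs, hs', hsum⟩ := S.fibre_sum H ⟨_, hk⟩ hρ0 Q hQ
  have hord : ∀ P : Place K F, P.ord (algebraMap K F k * f) = q * D P := by
    intro P
    rw [P.ord_mul hkF hf, ord_algebraMap, zero_add, hdiv]
  have hQρ : Q.ord (c.ρ ⟨_, hk⟩) = q * Q.ord w := by
    rw [hρ, Q.ord_mul haF (pow_ne_zero _ hw), ord_algebraMap, zero_add, ord_pow]
  have h1 : ∑ P ∈ s, D P = Q.ord w := by
    have h2 : (q : ℤ) * ∑ P ∈ s, D P = q * Q.ord w := by
      rw [Finset.mul_sum, ← hQρ, ← hsum]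
      exact Finset.sum_congr rfl fun P _ => (hord P).symm
    exact mul_left_cancel₀ (by exact_mod_cast hq) h2
  rw [← h1, mapDomain_apply_eq_sum, ← Finset.sum_filter]
  symm
  apply Finset.sum_subset
  · intro P hP
    rw [Finset.mem_filter, Finsupp.mem_support_iff] at hP
    by_contra hPs
    have h3 := hs' P hP.2 hPs
    simp only at h3
    rw [hord] at h3
    have hq' : (q : ℤ) ≠ 0 := by exact_mod_cast hq
    rcases mul_eq_zero.1 h3 with h4 | h4
    · exact hq' h4
    · exact hP.1 h4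
  · intro P hPs hPn
    by_contra hne
    exact hPn (Finset.mem_filter.2 ⟨Finsupp.mem_support_iff.2 hne, hs P hPs⟩)

end Side

/-! ### `q`-th roots in characteristic `p` -/

section Frobenius

variable {κ : Type*} [Field κ] {Fb : Type*} [Field Fb] [Algebra κ Fb]

theorem mem_vanishing_of_pow_mem (v : Place κ Fb) {x : Fb} {q : ℕ} (hq : q ≠ 0)
    (h : x ^ q ∈ vanishing v) : x ∈ vanishing v := by
  rcases h with h0 | hpos
  · exact Or.inl (pow_eq_zero_iff hq |>.1 h0)
  · right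
    rw [ord_pow] at hpos
    have hq' : (0 : ℤ) < q := by exact_mod_cast Nat.pos_of_ne_zero hq
    by_contra hle
    push Not at hle
    have : (q : ℤ) * v.ord x ≤ 0 := mul_nonpos_of_nonneg_of_nonpos hq'.le hle
    omega

/-- in characteristic `p`, if `α ^ q w ^ q - β ^ q` vanishes at `v` (`q = p ^ m`) then so does
`α w - β`. -/
theorem root_sub_mem_vanishing (p : ℕ) [Fact p.Prime] [CharP κ p] (m : ℕ) (v : Place κ Fb)
    (α β : κ) (w : Fb)
    (h : algebraMap κ Fb (α ^ p ^ m) * w ^ p ^ m - algebraMap κ Fb (β ^ p ^ m) ∈ vanishing v) :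
    algebraMap κ Fb α * w - algebraMap κ Fb β ∈ vanishing v := by
  have : CharP Fb p := charP_of_injective_algebraMap (algebraMap κ Fb).injective p
  apply mem_vanishing_of_pow_mem v (pow_ne_zero m (Fact.out : p.Prime).ne_zero)
  rw [sub_pow_char_pow, mul_pow, ← map_pow, ← map_pow]
  exact h

end Frobenius



section Nodal

variable {Fb₁ Fb₂ : Type*} [Field Fb₁] [Field Fb₂]
  [Algebra (ResidueField A) Fb₁] [Algebra (ResidueField A) Fb₂]
variable {ι : Type*} {Nd : NodalData (ResidueField A) Fb₁ Fb₂ ι} (N : NodalRed A F Nd)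

theorem isSmoothRed_of_redTo {P : Place K F} {y : NPt N} (h : RedTo N P y)
    (hy : SmoothPt N y) : N.IsSmoothRed P := by
  cases y with
  | inl Q => exact Or.inl ⟨Q, h, hy⟩
  | inr Q => exact Or.inr ⟨Q, h, hy⟩

theorem redTo_unique {P : Place K F} {y y' : NPt N} (h : RedTo N P y) (hy : SmoothPt N y)
    (h' : RedTo N P y') (_hy' : SmoothPt N y') : y = y' := by
  cases y with
  | inl Q =>
    cases y' with
    | inl Q' =>
      have : some Q = some Q' := (show N.r₁ P = some Q from h).symm.trans h'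
      rw [Option.some.inj this]
    | inr Q' =>
      have h2 : N.r₂ P = none := N.smooth₁ P Q h hy
      have : (none : Option _) = some Q' := h2.symm.trans h'
      exact absurd this (by simp)
  | inr Q =>
    cases y' with
    | inl Q' =>
      have h2 : N.r₁ P = none := N.smooth₂ P Q h hy
      have : (none : Option _) = some Q' := h2.symm.trans h'
      exact absurd this (by simp)
    | inr Q' =>
      have : some Q = some Q' := (show N.r₂ P = some Q from h).symm.trans h'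
      rw [Option.some.inj this]

open Classical in
/-- the smooth point of the normalisation of the special fibre to which `P` reduces, if any. -/
noncomputable def redSm (P : Place K F) : Option (NPt N) :=
  if h : ∃ y : NPt N, RedTo N P y ∧ SmoothPt N y then some h.choose else none

theorem redSm_eq_some_iff (P : Place K F) (y : NPt N) :
    redSm N P = some y ↔ RedTo N P y ∧ SmoothPt N y := by
  unfold redSm
  constructor
  · intro h
    split_ifs at h with hex
    · have := Option.some.inj h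
      rw [← this]
      exact hex.choose_spec
  · intro h
    have hex : ∃ y : NPt N, RedTo N P y ∧ SmoothPt N y := ⟨y, h⟩
    rw [dif_pos hex]
    congr 1
    exact redTo_unique N hex.choose_spec.1 hex.choose_spec.2 h.1 h.2

theorem mapDomain_redSm_inl (D : Divisor K F) (Q : Place (ResidueField A) Fb₁)
    (hQ : Nd.Smooth1 Q) :
    Finsupp.mapDomain (redSm N) D (some (Sum.inl Q)) = Finsupp.mapDomain N.r₁ D (some Q) := by
  classical
  rw [mapDomain_apply_eq_sum, mapDomain_apply_eq_sum]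
  refine Finset.sum_congr rfl fun P _ => ?_
  refine if_congr ?_ rfl rfl
  rw [redSm_eq_some_iff]
  exact ⟨fun h => h.1, fun h => ⟨h, hQ⟩⟩

theorem mapDomain_redSm_inr (D : Divisor K F) (Q : Place (ResidueField A) Fb₂)
    (hQ : Nd.Smooth2 Q) :
    Finsupp.mapDomain (redSm N) D (some (Sum.inr Q)) = Finsupp.mapDomain N.r₂ D (some Q) := by
  classical
  rw [mapDomain_apply_eq_sum, mapDomain_apply_eq_sum]
  refine Finset.sum_congr rfl fun P _ => ?_
  refine if_congr ?_ rfl rfl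
  rw [redSm_eq_some_iff]
  exact ⟨fun h => h.1, fun h => ⟨h, hQ⟩⟩

theorem mapDomain_redSm_of_not_smooth (D : Divisor K F) (y : NPt N) (hy : ¬ SmoothPt N y) :
    Finsupp.mapDomain (redSm N) D (some y) = 0 := by
  classical
  rw [mapDomain_apply_eq_sum]
  refine Finset.sum_eq_zero fun P _ => ?_
  rw [if_neg]
  rw [redSm_eq_some_iff]
  exact fun h => hy h.2

/-! ### the centres -/

variable {g d : ℕ} (Mod : NDiscModel A F g d) {c : Fin d → NPt N}

/-- the sum of the first `g` centres, as a finitely supported function on `Option (NPt N)`. -/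
noncomputable def centreSum (hgd : g ≤ d) (c : Fin d → NPt N) : Option (NPt N) →₀ ℤ :=
  ∑ j : Fin g, Finsupp.single (some (c (Fin.castLE hgd j))) (1 : ℤ)

theorem centreSum_none (hgd : g ≤ d) : centreSum N hgd c none = 0 := by
  classical
  unfold centreSum
  rw [Finsupp.finsetSum_apply]
  exact Finset.sum_eq_zero fun j _ => by rw [Finsupp.single_apply, if_neg (by simp)]

theorem centreSum_of_not_smooth (hgd : g ≤ d) (hsm : ∀ j, SmoothPt N (c j)) (y : NPt N)
    (hy : ¬ SmoothPt N y) : centreSum N hgd c (some y) = 0 := by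
  classical
  unfold centreSum
  rw [Finsupp.finsetSum_apply]
  refine Finset.sum_eq_zero fun j _ => ?_
  rw [Finsupp.single_apply, if_neg]
  intro h
  apply hy
  rw [← Option.some.inj h]
  exact hsm _

theorem centreSum_nonneg (hgd : g ≤ d) (y : Option (NPt N)) : 0 ≤ centreSum N hgd c y := by
  classical
  unfold centreSum
  rw [Finsupp.finsetSum_apply]
  refine Finset.sum_nonneg fun j _ => ?_
  rw [Finsupp.single_apply]
  split_ifs <;> norm_num

theorem centreDiv_fst_apply (hgd : g ≤ d) (Q : Place (ResidueField A) Fb₁) :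
    (centreDiv N hgd c).1 Q = centreSum N hgd c (some (Sum.inl Q)) := by
  classical
  unfold centreDiv centreSum
  rw [Prod.fst_sum, Finsupp.finsetSum_apply, Finsupp.finsetSum_apply]
  refine Finset.sum_congr rfl fun j _ => ?_
  cases hcj : c (Fin.castLE hgd j) with
  | inl Q' =>
    show (Finsupp.single Q' (1 : ℤ)) Q = _
    rw [Finsupp.single_apply, Finsupp.single_apply]
    refine if_congr ?_ rfl rfl
    constructor
    · rintro rfl; rfl
    · intro h; exact Sum.inl.inj (Option.some.inj h)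
  | inr Q' =>
    show (0 : Divisor (ResidueField A) Fb₁) Q = _
    rw [Finsupp.single_apply, if_neg (by simp)]
    rfl

theorem centreDiv_snd_apply (hgd : g ≤ d) (Q : Place (ResidueField A) Fb₂) :
    (centreDiv N hgd c).2 Q = centreSum N hgd c (some (Sum.inr Q)) := by
  classical
  unfold centreDiv centreSum
  rw [Prod.snd_sum, Finsupp.finsetSum_apply, Finsupp.finsetSum_apply]
  refine Finset.sum_congr rfl fun j _ => ?_
  cases hcj : c (Fin.castLE hgd j) with
  | inl Q' =>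
    show (0 : Divisor (ResidueField A) Fb₂) Q = _
    rw [Finsupp.single_apply, if_neg (by simp)]
    rfl
  | inr Q' =>
    show (Finsupp.single Q' (1 : ℤ)) Q = _
    rw [Finsupp.single_apply, Finsupp.single_apply]
    refine if_congr ?_ rfl rfl
    constructor
    · rintro rfl; rfl
    · intro h; exact Sum.inr.inj (Option.some.inj h)

variable (hc : DiscCompat N Mod c)

include hc in
theorem redSm_disc (j : Fin d) (t : A) (ht : t ∈ maximalIdeal A) :
    redSm N (Mod.P j t) = some (c j) :=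
  (redSm_eq_some_iff N _ _).2 ⟨hc.center j t ht, hc.c_smooth j⟩

include hc in
/-- every divisor `D(x)`, `x ∈ 𝔪_A ^ g`, reduces to the sum of the centres. -/
theorem mapDomain_redSm_discDiv (x : Fin g → A) (hx : ∀ i, x i ∈ maximalIdeal A) :
    Finsupp.mapDomain (redSm N) (discDiv Mod x) = centreSum N Mod.hgd c := by
  unfold discDiv centreSum
  rw [Finsupp.mapDomain_finsetSum]
  refine Finset.sum_congr rfl fun j _ => ?_
  rw [Finsupp.mapDomain_single, redSm_disc N Mod hc _ _ (hx j)]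

include hc in
/-- the divisors `D(x)` have no point over the nodes. -/
theorem discDiv_apply_of_redToNode (x : Fin g → A) (hx : ∀ i, x i ∈ maximalIdeal A)
    (P : Place K F) (i : ι) (hP : N.RedToNode P i) : discDiv Mod x P = 0 := by
  classical
  unfold discDiv
  rw [Finsupp.finsetSum_apply]
  refine Finset.sum_eq_zero fun j _ => ?_
  rw [Finsupp.single_apply, if_neg]
  rintro rfl
  exact not_redToNode_of_isSmoothRed N
    (isSmoothRed_of_redTo N (hc.center _ _ (hx j)) (hc.c_smooth _)) i hP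

end Nodal


/-! ### the core: an effective divisor `D'` of degree `g` with `q (D' - D(0))` Kummer-trivial is
`D(x)` -/

section Core

variable {Fb₁ Fb₂ : Type*} [Field Fb₁] [Field Fb₂]
  [Algebra (ResidueField A) Fb₁] [Algebra (ResidueField A) Fb₂]
variable {ι : Type*} {Nd : NodalData (ResidueField A) Fb₁ Fb₂ ι} (N : NodalRed A F Nd)
variable {g d : ℕ} (Mod : NDiscModel A F g d) {c : Fin d → NPt N}

theorem pos_of_mul_pos_nat {q : ℕ} {x : ℤ} (h : 0 < (q : ℤ) * x) : 0 < x := by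
  rcases Nat.eq_zero_or_pos q with h0 | h0
  · rw [h0] at h; simp at h
  · exact (mul_pos_iff_of_pos_left (by exact_mod_cast h0)).1 h

theorem core (hc : DiscCompat N Mod c) (hns : NonSpecialAt N Mod.hgd c) (H : LHyp K F)
    (p : ℕ) [Fact p.Prime] [CharP (ResidueField A) p] (m : ℕ)
    (hperf : ∀ a : ResidueField A, ∃ b : ResidueField A, b ^ p ^ m = a)
    (D' : Divisor K F) (hD' : ∀ P, 0 ≤ D' P) (hdegD' : Divisor.degree D' = g)
    (f : F) (hf : f ≠ 0)
    (hdiv : ∀ P : Place K F,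
      P.ord f = ((p ^ m : ℕ) : ℤ) * (D' - discDiv Mod (fun _ => (0 : A))) P)
    (k₁ k₂ : K) (h₁ : algebraMap K F k₁ * f ∈ N.c₁.O) (h₂ : algebraMap K F k₂ * f ∈ N.c₂.O)
    (a₁ a₂ : ResidueField A) (w₁ : Fb₁) (w₂ : Fb₂) (ha₁ : a₁ ≠ 0) (ha₂ : a₂ ≠ 0)
    (hw₁ : w₁ ≠ 0) (hw₂ : w₂ ≠ 0)
    (hρ₁ : N.c₁.ρ ⟨_, h₁⟩ = algebraMap (ResidueField A) Fb₁ a₁ * w₁ ^ p ^ m)
    (hρ₂ : N.c₂.ρ ⟨_, h₂⟩ = algebraMap (ResidueField A) Fb₂ a₂ * w₂ ^ p ^ m) :
    ∃ x : Fin g → A, (∀ i, x i ∈ maximalIdeal A) ∧ D' = discDiv Mod x := by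
  classical
  have hq0 : p ^ m ≠ 0 := pow_ne_zero m (Fact.out : p.Prime).ne_zero
  have h0 : ∀ i : Fin g, (fun _ : Fin g => (0 : A)) i ∈ maximalIdeal A :=
    fun _ => Ideal.zero_mem _
  set E : Divisor K F := discDiv Mod (fun _ => (0 : A)) with hE
  set M₁ : Option (NPt N) →₀ ℤ := Finsupp.mapDomain (redSm N) D' with hM₁
  set M₂ : Option (NPt N) →₀ ℤ := centreSum N Mod.hgd c with hM₂
  have hM₁nn : ∀ y, 0 ≤ M₁ y := mapDomain_nonneg (redSm N) D' hD'
  have hmapE : Finsupp.mapDomain (redSm N) E = M₂ := mapDomain_redSm_discDiv N Mod hc _ h0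
  have hsub : Finsupp.mapDomain (redSm N) (D' - E) = M₁ - M₂ := by
    rw [← hmapE, hM₁]
    simp only [← Finsupp.mapDomain.addMonoidHom_apply]
    rw [map_sub]
  -- Step A on the two components
  have hA₁ : ∀ Q, Nd.Smooth1 Q → Q.ord w₁ = M₁ (some (Sum.inl Q)) - M₂ (some (Sum.inl Q)) := by
    intro Q hQ
    rw [ord_root (side₁ N) H hq0 (D' - E) f hf hdiv k₁ h₁ a₁ w₁ ha₁ hw₁ hρ₁ Q hQ,
      ← mapDomain_redSm_inl N _ Q hQ, hsub, Finsupp.sub_apply]
  have hA₂ : ∀ Q, Nd.Smooth2 Q → Q.ord w₂ = M₁ (some (Sum.inr Q)) - M₂ (some (Sum.inr Q)) := by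
    intro Q hQ
    rw [ord_root (side₂ N) H hq0 (D' - E) f hf hdiv k₂ h₂ a₂ w₂ ha₂ hw₂ hρ₂ Q hQ,
      ← mapDomain_redSm_inr N _ Q hQ, hsub, Finsupp.sub_apply]
  have ha₁F : algebraMap (ResidueField A) Fb₁ a₁ ≠ 0 := by rwa [ne_eq, _root_.map_eq_zero]
  have ha₂F : algebraMap (ResidueField A) Fb₂ a₂ ≠ 0 := by rwa [ne_eq, _root_.map_eq_zero]
  have hρ₁0 : N.c₁.ρ ⟨_, h₁⟩ ≠ 0 := by
    rw [hρ₁]; exact mul_ne_zero ha₁F (pow_ne_zero _ hw₁)
  have hρ₂0 : N.c₂.ρ ⟨_, h₂⟩ ≠ 0 := by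
    rw [hρ₂]; exact mul_ne_zero ha₂F (pow_ne_zero _ hw₂)
  have hk₁ : k₁ ≠ 0 := const_ne_zero_of_ρ_ne_zero N.c₁ h₁ hρ₁0
  have hk₂ : k₂ ≠ 0 := const_ne_zero_of_ρ_ne_zero N.c₂ h₂ hρ₂0
  have hk₁F : algebraMap K F k₁ ≠ 0 := by rwa [ne_eq, _root_.map_eq_zero]
  -- no pole over the nodes
  have hpole : ∀ (i : ι) (P : Place K F), N.RedToNode P i → 0 ≤ P.ord f := by
    intro i P hP
    rw [hdiv, Finsupp.sub_apply, discDiv_apply_of_redToNode N Mod hc _ h0 P i hP, sub_zero]
    exact mul_nonneg (Nat.cast_nonneg _) (hD' P)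
  have hbr₁ : ∀ i, (Nd.s1 i).ord (N.c₁.ρ ⟨_, h₁⟩) = ((p ^ m : ℕ) : ℤ) * (Nd.s1 i).ord w₁ := by
    intro i
    rw [hρ₁, (Nd.s1 i).ord_mul ha₁F (pow_ne_zero _ hw₁), ord_algebraMap, zero_add, ord_pow]
  have hbr₂ : ∀ i, (Nd.s2 i).ord (N.c₂.ρ ⟨_, h₂⟩) = ((p ^ m : ℕ) : ℤ) * (Nd.s2 i).ord w₂ := by
    intro i
    rw [hρ₂, (Nd.s2 i).ord_mul ha₂F (pow_ne_zero _ hw₂), ord_algebraMap, zero_add, ord_pow]
  -- membership in `L^nod(Ē)`
  have hmemL : ∀ (u₁ : Fb₁) (u₂ : Fb₂),
      (u₁ ≠ 0 → (∀ Q : Place (ResidueField A) Fb₁, Q.ord u₁ = Q.ord w₁) ∧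
        ∀ i, 0 ≤ (Nd.s1 i).ord w₁) →
      (u₂ ≠ 0 → (∀ Q : Place (ResidueField A) Fb₂, Q.ord u₂ = Q.ord w₂) ∧
        ∀ i, 0 ≤ (Nd.s2 i).ord w₂) →
      (∀ i, ((u₁, u₂) : Fb₁ × Fb₂) ∈ Nd.compatAt i) →
      ((u₁, u₂) : Fb₁ × Fb₂) ∈ Nd.L (centreDiv N Mod.hgd c) := by
    intro u₁ u₂ hu₁ hu₂ hcomp
    rw [NodalData.mem_L]
    refine ⟨?_, ?_, hcomp⟩
    · rw [mem_riemannRochSpace_iff]
      intro Q
      by_cases hu : u₁ = 0
      · exact Or.inl hu
      right
      obtain ⟨hord, hnode⟩ := hu₁ hu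
      show -(centreDiv N Mod.hgd c).1 Q ≤ Q.ord u₁
      rw [hord Q, centreDiv_fst_apply]
      by_cases hQ : Nd.Smooth1 Q
      · rw [hA₁ Q hQ]
        have := hM₁nn (some (Sum.inl Q))
        linarith
      · rw [centreSum_of_not_smooth N Mod.hgd hc.c_smooth (Sum.inl Q) hQ, neg_zero]
        unfold NodalData.Smooth1 at hQ
        push Not at hQ
        obtain ⟨i, rfl⟩ := hQ
        exact hnode i
    · rw [mem_riemannRochSpace_iff]
      intro Q
      by_cases hu : u₂ = 0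
      · exact Or.inl hu
      right
      obtain ⟨hord, hnode⟩ := hu₂ hu
      show -(centreDiv N Mod.hgd c).2 Q ≤ Q.ord u₂
      rw [hord Q, centreDiv_snd_apply]
      by_cases hQ : Nd.Smooth2 Q
      · rw [hA₂ Q hQ]
        have := hM₁nn (some (Sum.inr Q))
        linarith
      · rw [centreSum_of_not_smooth N Mod.hgd hc.c_smooth (Sum.inr Q) hQ, neg_zero]
        unfold NodalData.Smooth2 at hQ
        push Not at hQ
        obtain ⟨i, rfl⟩ := hQ
        exact hnode i
  -- `L^nod(Ē) = κ`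
  have hone : (((1 : Fb₁), (1 : Fb₂)) : Fb₁ × Fb₂) ∈ Nd.L (centreDiv N Mod.hgd c) := by
    rw [NodalData.mem_L]
    refine ⟨?_, ?_, ?_⟩
    · rw [mem_riemannRochSpace_iff]
      intro Q
      right
      show -(centreDiv N Mod.hgd c).1 Q ≤ Q.ord (1 : Fb₁)
      rw [Place.ord_one, centreDiv_fst_apply]
      have := centreSum_nonneg N (c := c) Mod.hgd (some (Sum.inl Q))
      linarith
    · rw [mem_riemannRochSpace_iff]
      intro Q
      right
      show -(centreDiv N Mod.hgd c).2 Q ≤ Q.ord (1 : Fb₂)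
      rw [Place.ord_one, centreDiv_snd_apply]
      have := centreSum_nonneg N (c := c) Mod.hgd (some (Sum.inr Q))
      linarith
    · intro i
      refine ⟨1, ?_, ?_⟩
      · show (1 : Fb₁) - algebraMap (ResidueField A) Fb₁ 1 ∈ vanishing (Nd.s1 i)
        rw [map_one, sub_self]; exact Submodule.zero_mem _
      · show (1 : Fb₂) - algebraMap (ResidueField A) Fb₂ 1 ∈ vanishing (Nd.s2 i)
        rw [map_one, sub_self]; exact Submodule.zero_mem _
  have hfr : Module.finrank (ResidueField A) (Nd.L (centreDiv N Mod.hgd c)) = 1 := by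
    have := hns
    unfold NonSpecialAt NodalData.ell at this
    exact_mod_cast this
  have hspan : ∀ u : Fb₁ × Fb₂, u ∈ Nd.L (centreDiv N Mod.hgd c) →
      ∃ l : ResidueField A, u.1 = algebraMap (ResidueField A) Fb₁ l ∧
        u.2 = algebraMap (ResidueField A) Fb₂ l := by
    intro u hu
    have hv0 : (⟨((1 : Fb₁), (1 : Fb₂)), hone⟩ : Nd.L (centreDiv N Mod.hgd c)) ≠ 0 := by
      intro h
      have h2 := congrArg (fun z : Nd.L (centreDiv N Mod.hgd c) => (z : Fb₁ × Fb₂).1) h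
      simp at h2
    obtain ⟨l, hl⟩ := (finrank_eq_one_iff_of_nonzero' _ hv0).1 hfr ⟨u, hu⟩
    have h3 := congrArg Subtype.val hl
    simp only [Submodule.coe_smul] at h3
    refine ⟨l, ?_, ?_⟩
    · rw [← h3]
      show l • (1 : Fb₁) = _
      rw [Algebra.smul_def, mul_one]
    · rw [← h3]
      show l • (1 : Fb₂) = _
      rw [Algebra.smul_def, mul_one]
  -- the two constants are comparable
  have hunit : k₁ / k₂ ∈ A ∧ (k₁ / k₂)⁻¹ ∈ A := by
    by_contra hnot
    by_cases hA : k₁ / k₂ ∈ A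
    · have hA' : (k₁ / k₂)⁻¹ ∉ A := fun h => hnot ⟨hA, h⟩
      have hpos : ∀ i, 0 < (Nd.s1 i).ord w₁ := by
        intro i
        have := slope_pos₁ N i f hf (hpole i) k₁ k₂ h₁ h₂ hρ₁0 hρ₂0 hA hA'
        rw [hbr₁ i] at this
        exact pos_of_mul_pos_nat this
      have hmem := hmemL w₁ 0 (fun _ => ⟨fun _ => rfl, fun i => (hpos i).le⟩)
        (fun h => absurd rfl h) (fun i => ⟨0, by
          show w₁ - algebraMap (ResidueField A) Fb₁ 0 ∈ vanishing (Nd.s1 i)
          rw [map_zero, sub_zero]; exact Or.inr (hpos i), by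
          show (0 : Fb₂) - algebraMap (ResidueField A) Fb₂ 0 ∈ vanishing (Nd.s2 i)
          rw [map_zero, sub_zero]; exact Submodule.zero_mem _⟩)
      obtain ⟨l, hl1, hl2⟩ := hspan _ hmem
      have hl0 : l = 0 := by
        have : algebraMap (ResidueField A) Fb₂ l = 0 := hl2.symm
        exact (_root_.map_eq_zero _).1 this
      apply hw₁
      rw [show w₁ = algebraMap (ResidueField A) Fb₁ l from hl1, hl0, map_zero]
    · have hB : k₂ / k₁ ∈ A := by
        have := (A.mem_or_inv_mem (k₁ / k₂)).resolve_left hA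
        rwa [inv_div] at this
      have hB' : (k₂ / k₁)⁻¹ ∉ A := by rwa [inv_div]
      have hpos : ∀ i, 0 < (Nd.s2 i).ord w₂ := by
        intro i
        have := slope_pos₂ N i f hf (hpole i) k₁ k₂ h₁ h₂ hρ₁0 hρ₂0 hB hB'
        rw [hbr₂ i] at this
        exact pos_of_mul_pos_nat this
      have hmem := hmemL 0 w₂ (fun h => absurd rfl h)
        (fun _ => ⟨fun _ => rfl, fun i => (hpos i).le⟩) (fun i => ⟨0, by
          show (0 : Fb₁) - algebraMap (ResidueField A) Fb₁ 0 ∈ vanishing (Nd.s1 i)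
          rw [map_zero, sub_zero]; exact Submodule.zero_mem _, by
          show w₂ - algebraMap (ResidueField A) Fb₂ 0 ∈ vanishing (Nd.s2 i)
          rw [map_zero, sub_zero]; exact Or.inr (hpos i)⟩)
      obtain ⟨l, hl1, hl2⟩ := hspan _ hmem
      have hl0 : l = 0 := by
        have : algebraMap (ResidueField A) Fb₁ l = 0 := hl1.symm
        exact (_root_.map_eq_zero _).1 this
      apply hw₂
      rw [show w₂ = algebraMap (ResidueField A) Fb₂ l from hl2, hl0, map_zero]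
  obtain ⟨hA, hA'⟩ := hunit
  -- the unit case: `y = k₁ f ∈ O₁ ∩ O₂`
  have hu0 : k₁ / k₂ ≠ 0 := div_ne_zero hk₁ hk₂
  have hy : algebraMap K F k₁ * f = algebraMap K F (k₁ / k₂) * (algebraMap K F k₂ * f) := by
    rw [← mul_assoc, ← map_mul, div_mul_cancel₀ k₁ hk₂]
  have hy₂ : algebraMap K F k₁ * f ∈ N.c₂.O := by
    rw [hy]
    exact mul_const_mem N.c₂ hA h₂
  have hρy₂ : N.c₂.ρ ⟨_, hy₂⟩ =
      algebraMap (ResidueField A) Fb₂ (residue A ⟨k₁ / k₂, hA⟩ * a₂) * w₂ ^ p ^ m := by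
    have h1 : (⟨algebraMap K F k₁ * f, hy₂⟩ : N.c₂.O) =
        ⟨algebraMap K F (k₁ / k₂) * (algebraMap K F k₂ * f), mul_const_mem N.c₂ hA h₂⟩ :=
      Subtype.ext hy
    rw [h1, ρ_mul_const N.c₂ hA h₂, hρ₂, map_mul, mul_assoc]
  have hū : residue A ⟨k₁ / k₂, hA⟩ ≠ 0 := residue_ne_zero_of_unit hA hA' hu0
  obtain ⟨α₁, hα₁⟩ := hperf a₁
  obtain ⟨α₂, hα₂⟩ := hperf (residue A ⟨k₁ / k₂, hA⟩ * a₂)
  have hα₁0 : α₁ ≠ 0 := by
    rintro rfl
    rw [zero_pow hq0] at hα₁
    exact ha₁ hα₁.symm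
  have hα₂0 : α₂ ≠ 0 := by
    rintro rfl
    rw [zero_pow hq0] at hα₂
    exact mul_ne_zero hū ha₂ hα₂.symm
  have hα₁F : algebraMap (ResidueField A) Fb₁ α₁ ≠ 0 := by rwa [ne_eq, _root_.map_eq_zero]
  have hα₂F : algebraMap (ResidueField A) Fb₂ α₂ ≠ 0 := by rwa [ne_eq, _root_.map_eq_zero]
  have hcompat : ∀ i, ((algebraMap (ResidueField A) Fb₁ α₁ * w₁,
      algebraMap (ResidueField A) Fb₂ α₂ * w₂) : Fb₁ × Fb₂) ∈ Nd.compatAt i := by
    intro i
    obtain ⟨b, hb1, hb2⟩ := N.glue i _ h₁ hy₂ (fun P hP => Or.inr (by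
      rw [P.ord_mul hk₁F hf, ord_algebraMap, zero_add]
      exact hpole i P hP))
    obtain ⟨β, hβ⟩ := hperf b
    refine ⟨β, ?_, ?_⟩
    · apply root_sub_mem_vanishing p m
      rw [hα₁, hβ, ← hρ₁]
      exact hb1
    · apply root_sub_mem_vanishing p m
      rw [hα₂, hβ, ← hρy₂]
      exact hb2
  have hordu₁ : ∀ Q : Place (ResidueField A) Fb₁,
      Q.ord (algebraMap (ResidueField A) Fb₁ α₁ * w₁) = Q.ord w₁ := fun Q => by
    rw [Q.ord_mul hα₁F hw₁, ord_algebraMap, zero_add]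
  have hordu₂ : ∀ Q : Place (ResidueField A) Fb₂,
      Q.ord (algebraMap (ResidueField A) Fb₂ α₂ * w₂) = Q.ord w₂ := fun Q => by
    rw [Q.ord_mul hα₂F hw₂, ord_algebraMap, zero_add]
  have hmem := hmemL _ _
    (fun hu => ⟨hordu₁, fun i => by
      rw [← hordu₁]; exact (regular_of_compatAt Nd (hcompat i)).1 hu⟩)
    (fun hu => ⟨hordu₂, fun i => by
      rw [← hordu₂]; exact (regular_of_compatAt Nd (hcompat i)).2 hu⟩) hcompat
  obtain ⟨l, hl1, hl2⟩ := hspan _ hmem
  have hw₁0 : ∀ Q : Place (ResidueField A) Fb₁, Q.ord w₁ = 0 := fun Q => by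
    rw [← hordu₁, show algebraMap (ResidueField A) Fb₁ α₁ * w₁ = _ from hl1, ord_algebraMap]
  have hw₂0 : ∀ Q : Place (ResidueField A) Fb₂, Q.ord w₂ = 0 := fun Q => by
    rw [← hordu₂, show algebraMap (ResidueField A) Fb₂ α₂ * w₂ = _ from hl2, ord_algebraMap]
  -- `r_* D' = Ē` at all the points of the normalisation
  have hsome : ∀ y : NPt N, M₁ (some y) = M₂ (some y) := by
    intro y
    by_cases hy : SmoothPt N y
    · cases y with
      | inl Q =>
        have := hA₁ Q hy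
        rw [hw₁0 Q] at this
        linarith
      | inr Q =>
        have := hA₂ Q hy
        rw [hw₂0 Q] at this
        linarith
    · rw [hM₁, mapDomain_redSm_of_not_smooth N D' y hy,
        centreSum_of_not_smooth N Mod.hgd hc.c_smooth y hy]
  have hsplit : M₁ = M₂ + Finsupp.single none (M₁ none) := by
    ext y
    rw [Finsupp.add_apply, Finsupp.single_apply]
    cases y with
    | none => rw [if_pos rfl, hM₂, centreSum_none, zero_add]
    | some y => rw [if_neg (by simp), add_zero, hsome y]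
  have hmass₁ : mass _ M₁ = g := by
    rw [hM₁, mass_mapDomain, mass_apply, ← degree_eq_sum H, hdegD']
  have hmass₂ : mass _ M₂ = g := by
    rw [hM₂]
    unfold centreSum
    rw [map_sum]
    simp [mass_single]
  have hnone : M₁ none = 0 := by
    have := congrArg (mass _) hsplit
    rw [map_add, mass_single, hmass₁, hmass₂] at this
    linarith
  have hM : Finsupp.mapDomain (redSm N) D' =
      ∑ j : Fin g, Finsupp.single (some (c (Fin.castLE Mod.hgd j))) (1 : ℤ) := by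
    rw [← hM₁, hsplit, hnone, Finsupp.single_zero, add_zero]
    rfl
  have hinj : Function.Injective (fun j : Fin g => some (c (Fin.castLE Mod.hgd j))) := by
    intro j j' h
    exact Fin.castLE_injective Mod.hgd (hc.c_inj (Option.some.inj h))
  obtain ⟨pt, hpt, hD'eq⟩ := exists_eq_sum_single (redSm N)
    (fun j : Fin g => some (c (Fin.castLE Mod.hgd j))) hinj D' hD' hM
  choose x hx hxq using fun j : Fin g => hc.exhaust (Fin.castLE Mod.hgd j) (pt j)
    ((redSm_eq_some_iff N _ _).1 (hpt j)).1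
  refine ⟨x, hx, ?_⟩
  rw [hD'eq]
  unfold discDiv
  exact Finset.sum_congr rfl fun j _ => by rw [hxq j]

end Core

/-! ### contract (d) -/

section Main

variable {Fb₁ Fb₂ : Type*} [Field Fb₁] [Field Fb₂]
  [Algebra (ResidueField A) Fb₁] [Algebra (ResidueField A) Fb₂]
variable {ι : Type*} {Nd : NodalData (ResidueField A) Fb₁ Fb₂ ι} (N : NodalRed A F Nd)
variable {g d : ℕ} (Mod : NDiscModel A F g d) {c : Fin d → NPt N}

/-- **contract (d): `θ` maps `𝔪_A ^ g` onto the Kummer-trivial classes.** -/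
theorem thetaSurj (hdeg : ∀ (j : Fin d) (t : A), (Mod.P j t).deg = 1)
    (hc : DiscCompat N Mod c) (hns : NonSpecialAt N Mod.hgd c) (H : LHyp K F)
    (h6 : RiemannEff (K := K) (F := F) (g := g))
    (p : ℕ) [Fact p.Prime] [CharP (ResidueField A) p] (m : ℕ)
    (hperf : ∀ a : ResidueField A, ∃ b : ResidueField A, b ^ p ^ m = a) :
    ThetaSurjStatement N Mod hdeg (p ^ m) := by
  intro z hz
  obtain ⟨D₀, f, hD₀z, hf, hdiv, c₁, c₂, h₁, h₂, a₁, a₂, w₁, w₂, ha₁, ha₂, hw₁, hw₂, hρ₁, hρ₂⟩ :=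
    hz
  set E : Divisor K F := discDiv Mod (fun _ => (0 : A)) with hE
  have hdegE : Divisor.degree E = g := degree_discDiv Mod hdeg _
  have hD₀ : Divisor.degree (D₀ : Divisor K F) = 0 := D₀.2
  obtain ⟨D', hD'nn, hD'deg, hD'pr⟩ := h6 ((D₀ : Divisor K F) + E) (by
    rw [map_add, hD₀, hdegE, zero_add])
  have hD'pr' := hD'pr
  obtain ⟨h, hh0, hhdiv⟩ := hD'pr
  obtain ⟨d₁, hd₁, hm₁, hv₁⟩ := N.c₁.gauss h hh0
  obtain ⟨d₂, hd₂, hm₂, hv₂⟩ := N.c₂.gauss h hh0
  have hdeg' : Divisor.degree D' = g := by rw [hD'deg, map_add, hD₀, hdegE, zero_add]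
  have hf' : f * h ^ p ^ m ≠ 0 := mul_ne_zero hf (pow_ne_zero _ hh0)
  have hdiv' : ∀ P : Place K F,
      P.ord (f * h ^ p ^ m) = ((p ^ m : ℕ) : ℤ) * (D' - E) P := by
    intro P
    rw [P.ord_mul hf (pow_ne_zero _ hh0), ord_pow, hdiv P, ← hhdiv P]
    simp only [Finsupp.sub_apply, Finsupp.add_apply]
    ring
  have hmem₁ : algebraMap K F (c₁ * d₁ ^ p ^ m) * (f * h ^ p ^ m) ∈ N.c₁.O := by
    have : algebraMap K F (c₁ * d₁ ^ p ^ m) * (f * h ^ p ^ m) =
        (algebraMap K F c₁ * f) * (algebraMap K F d₁ * h) ^ p ^ m := by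
      rw [map_mul, map_pow]; ring
    rw [this]
    exact N.c₁.O.mul_mem h₁ (N.c₁.O.pow_mem hm₁ _)
  have hmem₂ : algebraMap K F (c₂ * d₂ ^ p ^ m) * (f * h ^ p ^ m) ∈ N.c₂.O := by
    have : algebraMap K F (c₂ * d₂ ^ p ^ m) * (f * h ^ p ^ m) =
        (algebraMap K F c₂ * f) * (algebraMap K F d₂ * h) ^ p ^ m := by
      rw [map_mul, map_pow]; ring
    rw [this]
    exact N.c₂.O.mul_mem h₂ (N.c₂.O.pow_mem hm₂ _)
  have hρ₁' : N.c₁.ρ ⟨_, hmem₁⟩ =
      algebraMap (ResidueField A) Fb₁ a₁ * (w₁ * N.c₁.ρ ⟨_, hm₁⟩) ^ p ^ m := by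
    have e : (⟨_, hmem₁⟩ : N.c₁.O) = ⟨_, h₁⟩ * ⟨_, hm₁⟩ ^ p ^ m := Subtype.ext (by
      show algebraMap K F (c₁ * d₁ ^ p ^ m) * (f * h ^ p ^ m) =
        (algebraMap K F c₁ * f) * (algebraMap K F d₁ * h) ^ p ^ m
      rw [map_mul, map_pow]; ring)
    rw [e, map_mul, map_pow, hρ₁, mul_pow, mul_assoc]
  have hρ₂' : N.c₂.ρ ⟨_, hmem₂⟩ =
      algebraMap (ResidueField A) Fb₂ a₂ * (w₂ * N.c₂.ρ ⟨_, hm₂⟩) ^ p ^ m := by
    have e : (⟨_, hmem₂⟩ : N.c₂.O) = ⟨_, h₂⟩ * ⟨_, hm₂⟩ ^ p ^ m := Subtype.ext (by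
      show algebraMap K F (c₂ * d₂ ^ p ^ m) * (f * h ^ p ^ m) =
        (algebraMap K F c₂ * f) * (algebraMap K F d₂ * h) ^ p ^ m
      rw [map_mul, map_pow]; ring)
    rw [e, map_mul, map_pow, hρ₂, mul_pow, mul_assoc]
  obtain ⟨x, hx, hD'x⟩ := core N Mod hc hns H p m hperf D' hD'nn hdeg' (f * h ^ p ^ m) hf' hdiv'
    _ _ hmem₁ hmem₂ a₁ a₂ _ _ ha₁ ha₂ (mul_ne_zero hw₁ hv₁) (mul_ne_zero hw₂ hv₂) hρ₁' hρ₂'
  refine ⟨x, hx, ?_⟩
  rw [← hD₀z]
  unfold theta
  rw [Pic0.mk, Pic0.mk, QuotientAddGroup.eq, AddSubgroup.mem_addSubgroupOf]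
  have e : ((-(⟨discDiv Mod x - discDiv Mod (fun _ => (0 : A)),
      discDiv_sub_mem_degZero Mod hdeg x⟩ : Divisor.degZero (K := K) (F := F)) + D₀ :
      Divisor.degZero (K := K) (F := F)) : Divisor K F) = -(D' - ((D₀ : Divisor K F) + E)) := by
    simp only [AddSubgroup.coe_add, NegMemClass.coe_neg]
    rw [hD'x]
    abel
  rw [e]
  exact neg_mem hD'pr'

end Main

end Fermat.Agent.T33.NodalAbs1C
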