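/-
Programme T (S33), nodal layer, chapter N-D, consumer end (helper8): **MEANING of the core algebra
for a nodal disc model** — port of `FF/GeomIface8` (API of the disc model) and `FF/Meaning8` to
`NodalIface8.NDiscModel`.  The only change: the Gauss constant of `f₀` is a hypothesis `hG` of
`exists_base_vector` / `meaning` (it is supplied by `NDiscModel.gauss_disc` in `NodalTheta8`).
-/
import Mathlib
import Fermat.Agent.T33.NodalIface8
import Fermat.Agent.FF.CoreNat8

set_option autoImplicit false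

open AlgebraicCurve PowerSeries IsLocalRing

namespace Fermat.Agent.T33.NodalIface8

open Fermat.Agent.FF.CoreIface8 Fermat.Agent.FF.GeomIface8 Fermat.Agent.X0.FF

section API

variable {K : Type*} [Field K] {F : Type*} [Field F] [Algebra K F]

namespace NDiscModel

variable {A : ValuationSubring K} {g d : ℕ} (M : NDiscModel A F g d)

theorem zero_mem_max : (0 : A) ∈ maximalIdeal A := Ideal.zero_mem _

theorem φ_unit : IsOUnit M.O M.φ := by
  have := M.φ_sub_unit 0 zero_mem_max
  simpa using this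

theorem φ_sub_ne_zero (t : A) (ht : t ∈ maximalIdeal A) : M.φ - algebraMap K F (t : K) ≠ 0 :=
  (M.φ_sub_unit t ht).ne_zero

theorem φ_ne_zero : M.φ ≠ 0 := M.φ_unit.ne_zero

open Classical in
theorem ord_φ_sub (j : Fin d) (t t' : A) (ht : t ∈ maximalIdeal A) (ht' : t' ∈ maximalIdeal A) :
    (M.P j t).ord (M.φ - algebraMap K F (t' : K)) = if t = t' then 1 else 0 := by
  split_ifs with h
  · subst h; exact M.ord_φ_sub_self j t ht
  · exact M.ord_φ_sub_of_ne j t t' ht ht' h

open Classical in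
theorem ord_φ (j : Fin d) (t : A) (ht : t ∈ maximalIdeal A) :
    (M.P j t).ord M.φ = if t = 0 then 1 else 0 := by
  have := M.ord_φ_sub j t 0 ht zero_mem_max
  simpa using this

theorem φ_sub_mem_discRing (j : Fin d) (t : A) (ht : t ∈ maximalIdeal A) :
    M.φ - algebraMap K F (t : K) ∈ discRing A M.O (M.P j) := by
  rw [mem_discRing_iff]
  refine ⟨(M.φ_sub_unit t ht).mem, fun s hs => ?_⟩
  rw [M.ord_φ_sub j s t hs ht]
  split_ifs <;> norm_num

theorem φ_mem_discRing (j : Fin d) : M.φ ∈ discRing A M.O (M.P j) := by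
  have := M.φ_sub_mem_discRing j 0 zero_mem_max
  simpa using this

theorem const_mem_discRing (j : Fin d) (a : A) :
    algebraMap K F (a : K) ∈ discRing A M.O (M.P j) := by
  rw [mem_discRing_iff]
  refine ⟨M.algebraMap_mem a, fun s _ => ?_⟩
  rw [ord_algebraMap]

theorem exp_φ_sub (j : Fin d) (t : A) (ht : t ∈ maximalIdeal A) :
    M.exp j ⟨M.φ - algebraMap K F (t : K), M.φ_sub_mem_discRing j t ht⟩ =
      (X : PowerSeries A) - C t := by
  have h1 : (⟨M.φ - algebraMap K F (t : K), M.φ_sub_mem_discRing j t ht⟩ :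
      discRing A M.O (M.P j)) =
      ⟨M.φ, M.φ_mem_discRing j⟩ - ⟨algebraMap K F (t : K), M.const_mem_discRing j t⟩ := rfl
  rw [h1, map_sub, M.exp_φ j _ rfl, M.exp_const j _ t rfl]

/-- a unit of `O` without zeros or poles on the `j`-th disc has a unit expansion. -/
theorem isUnit_exp (j : Fin d) (h : F) (hu : IsOUnit M.O h)
    (hord : ∀ t : A, t ∈ maximalIdeal A → (M.P j t).ord h = 0)
    (hmem : h ∈ discRing A M.O (M.P j)) : IsUnit (M.exp j ⟨h, hmem⟩) := by
  have hinv : h⁻¹ ∈ discRing A M.O (M.P j) := by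
    rw [mem_discRing_iff]
    refine ⟨hu.inv_mem, fun t ht => ?_⟩
    rw [Place.ord_inv, hord t ht, neg_zero]
  have h1 : (⟨h, hmem⟩ : discRing A M.O (M.P j)) * ⟨h⁻¹, hinv⟩ = 1 :=
    Subtype.ext (mul_inv_cancel₀ hu.ne_zero)
  have h2 := congrArg (M.exp j) h1
  rw [map_mul, map_one] at h2
  exact IsUnit.of_mul_eq_one _ h2

theorem mem_discRing_of_unit (j : Fin d) (h : F) (hu : IsOUnit M.O h)
    (hord : ∀ t : A, t ∈ maximalIdeal A → (M.P j t).ord h = 0) :
    h ∈ discRing A M.O (M.P j) := by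
  rw [mem_discRing_iff]
  exact ⟨hu.mem, fun t ht => (hord t ht).ge⟩

end NDiscModel

end API

end Fermat.Agent.T33.NodalIface8

namespace Fermat.Agent.T33.NodalMeaning8

open Fermat.Agent.FF.CoreIface8 Fermat.Agent.FF.GeomIface8 Fermat.Agent.X0.FF
  Fermat.Agent.T33.NodalIface8


variable {K : Type*} [Field K] {F : Type*} [Field F] [Algebra K F]
variable {A : ValuationSubring K} {g d : ℕ} (M : NDiscModel A F g d)

/-- `q(φ) = ∏ (φ - x_i) (φ - x'_i)`. -/
noncomputable def qφ (x x' : Fin g → A) : F :=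
  ∏ i, (M.φ - algebraMap K F (x i : K)) * (M.φ - algebraMap K F (x' i : K))

section

variable (x x' : Fin g → A) (hx : ∀ i, x i ∈ maximalIdeal A) (hx' : ∀ i, x' i ∈ maximalIdeal A)

include hx hx' in
theorem qφ_unit : IsOUnit M.O (qφ M x x') :=
  IsOUnit.prod _ _ fun i _ => (M.φ_sub_unit _ (hx i)).mul (M.φ_sub_unit _ (hx' i))

include hx hx' in
theorem ord_qφ (Q : Place K F) :
    Q.ord (qφ M x x') = ∑ i, (Q.ord (M.φ - algebraMap K F (x i : K)) +
      Q.ord (M.φ - algebraMap K F (x' i : K))) := by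
  unfold qφ
  rw [ord_finset_prod]
  · refine Finset.sum_congr rfl fun i _ => ?_
    rw [Q.ord_mul (M.φ_sub_ne_zero _ (hx i)) (M.φ_sub_ne_zero _ (hx' i))]
  · intro i _
    exact mul_ne_zero (M.φ_sub_ne_zero _ (hx i)) (M.φ_sub_ne_zero _ (hx' i))

end

/-- the expansion of `φ - t`, as an element of the disc ring. -/
theorem exp_sub_const (j : Fin d) (t : A) :
    M.exp j (⟨M.φ, M.φ_mem_discRing j⟩ - ⟨algebraMap K F (t : K), M.const_mem_discRing j t⟩) =
      (X : PowerSeries A) - C t := by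
  rw [map_sub, M.exp_φ j _ rfl, M.exp_const j _ t rfl]

/-- order of `φ - t` at a place outside the discs where `φ` has a pole. -/
theorem ord_sub_of_neg (Q : Place K F) (hQ : Q.ord M.φ < 0) (t : A) :
    Q.ord (M.φ - algebraMap K F (t : K)) = Q.ord M.φ := by
  rw [sub_eq_add_neg, ← map_neg]
  apply ord_add_eq_of_lt Q M.φ_ne_zero
  rw [ord_algebraMap]
  exact hQ

theorem ord_sub_nonneg (Q : Place K F) (hQ : 0 ≤ Q.ord M.φ) (t : A) (ht : t ∈ maximalIdeal A) :
    0 ≤ Q.ord (M.φ - algebraMap K F (t : K)) := by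
  have := ord_sub_ge Q (M.φ_sub_ne_zero t ht)
  rw [ord_algebraMap] at this
  exact le_trans (le_min hQ le_rfl) this

section Main

variable (x x' y : Fin g → A) (hx : ∀ i, x i ∈ maximalIdeal A) (hx' : ∀ i, x' i ∈ maximalIdeal A)
  (hy : ∀ i, y i ∈ maximalIdeal A)
variable (f₀ : F) (hf₀ : f₀ ≠ 0)

open Classical in
/-- the hypotheses on the divisor of `f₀`, disc by disc. -/
structure DivShape : Prop where
  out : ∀ Q : Place K F, (∀ (j : Fin d) (t : A), t ∈ maximalIdeal A → Q ≠ M.P j t) → 0 ≤ Q.ord f₀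
  low : ∀ (j : Fin g) (t : A), t ∈ maximalIdeal A →
    (M.P (Fin.castLE M.hgd j) t).ord f₀ =
      (if t = 0 then 1 else 0) + (if t = y j then 1 else 0) - (if t = x j then 1 else 0) -
        (if t = x' j then 1 else 0)
  high : ∀ j : Fin d, g ≤ j.val → ∀ t : A, t ∈ maximalIdeal A → (M.P j t).ord f₀ = 0

variable {M x x' y f₀}

include hx hx' hf₀ in
open Classical in
/-- pole bound for `w = f₀ q(φ) / φ ^ g`. -/
theorem pole_bound (hS : DivShape M x x' y f₀) (Q : Place K F) :
    0 ≤ Q.ord (f₀ * qφ M x x' / M.φ ^ g) + g * |Q.ord M.φ| := by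
  have hq0 : qφ M x x' ≠ 0 := (qφ_unit M x x' hx hx').ne_zero
  rw [ord_div Q (mul_ne_zero hf₀ hq0) (pow_ne_zero g M.φ_ne_zero), Q.ord_mul hf₀ hq0, ord_pow,
    ord_qφ M x x' hx hx']
  by_cases hQ : ∃ (j : Fin d) (t : A), t ∈ maximalIdeal A ∧ Q = M.P j t
  · obtain ⟨j, t, ht, rfl⟩ := hQ
    rw [M.ord_φ j t ht]
    have hsum : ∀ i, (M.P j t).ord (M.φ - algebraMap K F (x i : K)) +
        (M.P j t).ord (M.φ - algebraMap K F (x' i : K)) =
        (if t = x i then 1 else 0) + (if t = x' i then 1 else 0) := by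
      intro i
      rw [M.ord_φ_sub j t _ ht (hx i), M.ord_φ_sub j t _ ht (hx' i)]
    simp only [hsum]
    have hnn : ∀ i ∈ (Finset.univ : Finset (Fin g)),
        (0 : ℤ) ≤ (if t = x i then 1 else 0) + (if t = x' i then 1 else 0) := by
      intro i _
      split_ifs <;> norm_num
    have habs : g * |(if t = 0 then (1 : ℤ) else 0)| = g * (if t = 0 then (1 : ℤ) else 0) := by
      split_ifs <;> simp
    rw [habs]
    by_cases hj : j.val < g
    · have hjj : j = Fin.castLE M.hgd ⟨j.val, hj⟩ := Fin.ext rfl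
      rw [hjj, hS.low ⟨j.val, hj⟩ t ht]
      have h1 := Finset.single_le_sum hnn (Finset.mem_univ (⟨j.val, hj⟩ : Fin g))
      have h2 : (0 : ℤ) ≤ (if t = 0 then 1 else 0) := by split_ifs <;> norm_num
      have h3 : (0 : ℤ) ≤ (if t = y ⟨j.val, hj⟩ then 1 else 0) := by split_ifs <;> norm_num
      linarith
    · rw [hS.high j (not_lt.1 hj) t ht]
      have h1 := Finset.sum_nonneg hnn
      linarith
  · have hf : 0 ≤ Q.ord f₀ := hS.out Q fun j t ht h => hQ ⟨j, t, ht, h⟩
    rcases lt_or_ge (Q.ord M.φ) 0 with hneg | hpos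
    · have hsum : ∀ i, Q.ord (M.φ - algebraMap K F (x i : K)) +
          Q.ord (M.φ - algebraMap K F (x' i : K)) = 2 * Q.ord M.φ := by
        intro i
        rw [ord_sub_of_neg M Q hneg, ord_sub_of_neg M Q hneg]; ring
      simp only [hsum, Finset.sum_const, Finset.card_univ, Fintype.card_fin, nsmul_eq_mul]
      rw [abs_of_neg hneg]
      linarith
    · have hnn : ∀ i ∈ (Finset.univ : Finset (Fin g)),
          (0 : ℤ) ≤ Q.ord (M.φ - algebraMap K F (x i : K)) +
            Q.ord (M.φ - algebraMap K F (x' i : K)) := by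
        intro i _
        exact add_nonneg (ord_sub_nonneg M Q hpos _ (hx i)) (ord_sub_nonneg M Q hpos _ (hx' i))
      have h1 := Finset.sum_nonneg hnn
      rw [abs_of_nonneg hpos]
      linarith

variable {V : Type*} [AddCommGroup V] [Module A V] {D : CoreData A V g d}

/-- the elements `φ - t` of the disc ring. -/
noncomputable def subC (j : Fin d) (t : A) : discRing A M.O (M.P j) :=
  ⟨M.φ, M.φ_mem_discRing j⟩ - ⟨algebraMap K F (t : K), M.const_mem_discRing j t⟩

theorem coe_subC (j : Fin d) (t : A) :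
    ((subC (M := M) j t : discRing A M.O (M.P j)) : F) = M.φ - algebraMap K F (t : K) := rfl

theorem exp_subC (j : Fin d) (t : A) : M.exp j (subC j t) = (X : PowerSeries A) - C t :=
  exp_sub_const M j t

theorem exp_φ' (j : Fin d) : M.exp j ⟨M.φ, M.φ_mem_discRing j⟩ = (X : PowerSeries A) :=
  M.exp_φ j _ rfl

include hx hx' hy hf₀ in
open Classical in
/-- **MEANING, base form.** -/
theorem exists_base_vector (L : NLatticeModel M D) (hS : DivShape M x x' y f₀)
    (hG : ∃ c : K, c ≠ 0 ∧ IsOUnit M.O (algebraMap K F c * f₀)) :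
    ∃ u₀' : V, (∀ j : Fin d, g ≤ j.val → qPoly x x' ∣ D.ε j u₀') ∧
      ∀ j : Fin g, ∃ c : (PowerSeries A)ˣ,
        D.ε (Fin.castLE D.hgd j) u₀' = qjPoly x x' j * ((X : PowerSeries A) - C (y j)) * c := by
  have hq : IsOUnit M.O (qφ M x x') := qφ_unit M x x' hx hx'
  have hq0 : qφ M x x' ≠ 0 := hq.ne_zero
  have hφ0 : M.φ ≠ 0 := M.φ_ne_zero
  have hw0 : f₀ * qφ M x x' / M.φ ^ g ≠ 0 :=
    div_ne_zero (mul_ne_zero hf₀ hq0) (pow_ne_zero g hφ0)
  obtain ⟨c, hc0, hcf₀⟩ := hG
  have hcu : IsOUnit M.O (algebraMap K F c * (f₀ * qφ M x x' / M.φ ^ g)) := by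
    have : algebraMap K F c * (f₀ * qφ M x x' / M.φ ^ g) =
        algebraMap K F c * f₀ * qφ M x x' / M.φ ^ g := by ring
    rw [this]
    exact (hcf₀.mul hq).div (M.φ_unit.pow g)
  have hcF : algebraMap K F c ≠ 0 := by
    rwa [ne_eq, _root_.map_eq_zero]
  -- membership in the lattice
  obtain ⟨v, hv⟩ := L.mem_range _ hcu.mem (fun Q => by
    rw [Q.ord_mul hcF hw0, ord_algebraMap, zero_add]
    exact pole_bound hx hx' hf₀ hS Q)
  -- the unit `c f₀`
  have hcf : IsOUnit M.O (algebraMap K F c * f₀) := by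
    have : algebraMap K F c * f₀ =
        algebraMap K F c * (f₀ * qφ M x x' / M.φ ^ g) * M.φ ^ g / qφ M x x' := by
      field_simp
    rw [this]
    exact (hcu.mul (M.φ_unit.pow g)).div hq
  have hkey : M.φ ^ g * L.ι v = algebraMap K F c * f₀ * qφ M x x' := by
    rw [hv]; field_simp
  refine ⟨v, fun j hj => ?_, fun j₀ => ?_⟩
  · -- high discs
    have hord : ∀ t : A, t ∈ maximalIdeal A → (M.P j t).ord (algebraMap K F c * f₀) = 0 := by
      intro t ht
      rw [(M.P j t).ord_mul hcF hf₀, ord_algebraMap, zero_add, hS.high j hj t ht]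
    have hmem := M.mem_discRing_of_unit j _ hcf hord
    have heq : (⟨M.φ ^ g * L.ι v, L.pow_mul_mem j v⟩ : discRing A M.O (M.P j)) =
        ⟨algebraMap K F c * f₀, hmem⟩ * ∏ i, subC j (x i) * subC j (x' i) := by
      apply Subtype.ext
      simp only [Subring.coe_mul, SubmonoidClass.coe_finsetProd, coe_subC]
      exact hkey
    rw [L.eps_eq, heq, map_mul, map_prod]
    simp only [map_mul, exp_subC]
    exact Dvd.intro_left _ rfl
  · -- low discs
    set j := Fin.castLE M.hgd j₀ with hj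
    set h : F := algebraMap K F c * f₀ *
      ((M.φ - algebraMap K F (x j₀ : K)) * (M.φ - algebraMap K F (x' j₀ : K))) /
        (M.φ * (M.φ - algebraMap K F (y j₀ : K))) with hh
    have hyne := M.φ_sub_ne_zero _ (hy j₀)
    have hxne := M.φ_sub_ne_zero _ (hx j₀)
    have hx'ne := M.φ_sub_ne_zero _ (hx' j₀)
    have hhu : IsOUnit M.O h :=
      (hcf.mul ((M.φ_sub_unit _ (hx j₀)).mul (M.φ_sub_unit _ (hx' j₀)))).div
        (M.φ_unit.mul (M.φ_sub_unit _ (hy j₀)))
    have hord : ∀ t : A, t ∈ maximalIdeal A → (M.P j t).ord h = 0 := by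
      intro t ht
      rw [hh, ord_div _ (mul_ne_zero (mul_ne_zero hcF hf₀) (mul_ne_zero hxne hx'ne))
        (mul_ne_zero hφ0 hyne), Place.ord_mul _ (mul_ne_zero hcF hf₀) (mul_ne_zero hxne hx'ne),
        Place.ord_mul _ hcF hf₀, Place.ord_mul _ hxne hx'ne, Place.ord_mul _ hφ0 hyne,
        ord_algebraMap, hS.low j₀ t ht, M.ord_φ j t ht, M.ord_φ_sub j t _ ht (hx j₀),
        M.ord_φ_sub j t _ ht (hx' j₀), M.ord_φ_sub j t _ ht (hy j₀)]
      ring
    have hmem := M.mem_discRing_of_unit j _ hhu hord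
    have hprod : qφ M x x' = ((M.φ - algebraMap K F (x j₀ : K)) * (M.φ - algebraMap K F (x' j₀ : K))) *
        ∏ i ∈ Finset.univ.erase j₀,
          (M.φ - algebraMap K F (x i : K)) * (M.φ - algebraMap K F (x' i : K)) := by
      unfold qφ
      exact (Finset.mul_prod_erase Finset.univ
        (fun i => (M.φ - algebraMap K F (x i : K)) * (M.φ - algebraMap K F (x' i : K)))
        (Finset.mem_univ j₀)).symm
    have heq : (⟨M.φ ^ g * L.ι v, L.pow_mul_mem j v⟩ : discRing A M.O (M.P j)) =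
        (⟨M.φ, M.φ_mem_discRing j⟩ *
          ∏ i ∈ Finset.univ.erase j₀, subC j (x i) * subC j (x' i)) * subC j (y j₀) *
            ⟨h, hmem⟩ := by
      apply Subtype.ext
      simp only [Subring.coe_mul, SubmonoidClass.coe_finsetProd, coe_subC]
      rw [hkey, hprod, hh]
      field_simp
    have hu := M.isUnit_exp j h hhu hord hmem
    refine ⟨hu.unit, ?_⟩
    rw [L.eps_eq, heq, map_mul, map_mul, map_mul, map_prod, exp_φ', exp_subC]
    simp only [map_mul, exp_subC]
    rfl

include hx hx' hy hf₀ in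
/-- **MEANING.**  The coordinates `F` of the core algebra over any `A`-algebra `B` in which `x, x'`
become nilpotent are the images of `y`. -/
theorem meaning (L : NLatticeModel M D) (hS : DivShape M x x' y f₀)
    (hG : ∃ c : K, c ≠ 0 ∧ IsOUnit M.O (algebraMap K F c * f₀))
    {B : Type*} [CommRing B] [Algebra A B]
    (hxB : ∀ i, IsNilpotent (algebraMap A B (x i)))
    (hx'B : ∀ i, IsNilpotent (algebraMap A B (x' i)))
    (O : CoreOutput D B (algebraMap A B ∘ x) (algebraMap A B ∘ x')) (j : Fin g) :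
    O.F j = algebraMap A B (y j) := by
  obtain ⟨u₀', hhigh, hlow⟩ := exists_base_vector hx hx' hy hf₀ L hS hG
  exact Fermat.Agent.FF.CoreNat8.CoreOutput.F_eq_of_base D x x' y u₀' hhigh hlow hxB hx'B O j

end Main

section Divisor

variable (x : Fin g → A)

variable (hdisj : ∀ (j j' : Fin d) (t t' : A), t ∈ maximalIdeal A → t' ∈ maximalIdeal A →
  M.P j t = M.P j' t' → j = j')

include hdisj in
theorem P_inj (j j' : Fin d) (t t' : A) (ht : t ∈ maximalIdeal A) (ht' : t' ∈ maximalIdeal A)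
    (h : M.P j t = M.P j' t') : j = j' ∧ t = t' := by
  have hj := hdisj j j' t t' ht ht' h
  subst hj
  refine ⟨rfl, ?_⟩
  by_contra hne
  have h1 := M.ord_φ_sub_self j t ht
  have h2 := M.ord_φ_sub_of_ne j t' t ht' ht (Ne.symm hne)
  rw [h, h2] at h1
  exact zero_ne_one h1

include hdisj in
open Classical in
theorem discDiv_apply_low (hx : ∀ i, x i ∈ maximalIdeal A) (j : Fin g) (t : A)
    (ht : t ∈ maximalIdeal A) :
    discDiv M x (M.P (Fin.castLE M.hgd j) t) = if t = x j then 1 else 0 := by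
  unfold discDiv
  rw [Finsupp.finsetSum_apply]
  simp only [Finsupp.single_apply]
  rw [Finset.sum_eq_single j]
  · by_cases h : t = x j
    · rw [if_pos h, if_pos (by rw [h])]
    · rw [if_neg h, if_neg]
      intro h'
      exact h ((P_inj M hdisj _ _ _ _ (hx j) ht h').2).symm
  · intro i _ hij
    rw [if_neg]
    intro h'
    have := (P_inj M hdisj _ _ _ _ (hx i) ht h').1
    exact hij (Fin.castLE_injective M.hgd this)
  · intro h; exact absurd (Finset.mem_univ j) h

include hdisj in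
theorem discDiv_apply_high (hx : ∀ i, x i ∈ maximalIdeal A) (j : Fin d) (hj : g ≤ j.val) (t : A)
    (ht : t ∈ maximalIdeal A) : discDiv M x (M.P j t) = 0 := by
  classical
  unfold discDiv
  rw [Finsupp.finsetSum_apply]
  apply Finset.sum_eq_zero
  intro i _
  rw [Finsupp.single_apply, if_neg]
  intro h'
  have := (P_inj M hdisj _ _ _ _ (hx i) ht h').1
  have h2 : (Fin.castLE M.hgd i).val = j.val := congrArg Fin.val this
  simp at h2
  omega

theorem discDiv_apply_out (Q : Place K F)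
    (hQ : ∀ (j : Fin d) (t : A), t ∈ maximalIdeal A → Q ≠ M.P j t)
    (hx : ∀ i, x i ∈ maximalIdeal A) : discDiv M x Q = 0 := by
  classical
  unfold discDiv
  rw [Finsupp.finsetSum_apply]
  apply Finset.sum_eq_zero
  intro i _
  rw [Finsupp.single_apply, if_neg]
  exact fun h => hQ _ _ (hx i) h.symm

variable (x' y : Fin g → A) (f₀ : F)

include hdisj in
/-- the divisor equation `div f₀ = E + D(y) - D(x) - D(x')` gives the disc-by-disc shape. -/
theorem divShape_of_div (hx : ∀ i, x i ∈ maximalIdeal A) (hx' : ∀ i, x' i ∈ maximalIdeal A)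
    (hy : ∀ i, y i ∈ maximalIdeal A)
    (hdiv : ∀ Q : Place K F, Q.ord f₀ =
      (discDiv M (fun _ => (0 : A)) + discDiv M y - discDiv M x - discDiv M x') Q) :
    DivShape M x x' y f₀ := by
  classical
  have h0 : ∀ i : Fin g, (fun _ : Fin g => (0 : A)) i ∈ maximalIdeal A := fun _ => Ideal.zero_mem _
  refine ⟨fun Q hQ => ?_, fun j t ht => ?_, fun j hj t ht => ?_⟩
  · rw [hdiv Q]
    simp only [Finsupp.sub_apply, Finsupp.add_apply]
    rw [discDiv_apply_out M _ Q hQ h0, discDiv_apply_out M _ Q hQ hx,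
      discDiv_apply_out M _ Q hQ hx', discDiv_apply_out M _ Q hQ hy]
    norm_num
  · rw [hdiv]
    simp only [Finsupp.sub_apply, Finsupp.add_apply]
    rw [discDiv_apply_low M _ hdisj h0 j t ht, discDiv_apply_low M _ hdisj hx j t ht,
      discDiv_apply_low M _ hdisj hx' j t ht, discDiv_apply_low M _ hdisj hy j t ht]
  · rw [hdiv]
    simp only [Finsupp.sub_apply, Finsupp.add_apply]
    rw [discDiv_apply_high M _ hdisj h0 j hj t ht, discDiv_apply_high M _ hdisj hx j hj t ht,
      discDiv_apply_high M _ hdisj hx' j hj t ht, discDiv_apply_high M _ hdisj hy j hj t ht]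
    norm_num

end Divisor

end Fermat.Agent.T33.NodalMeaning8
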