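/-
Programme T (S33), nodal layer, chapter N-D, consumer end (helper8): **MEANING in terms of `θ` for a
nodal disc model** — port of `FF/Theta8` to `NodalIface8.NDiscModel`.

If `θ y = θ x + θ x'` then the function `f₀` with `div f₀ = D(0) + D(y) - D(x) - D(x')` has its
divisor in `discZero` (a sum of differences of two points of one disc), so `gauss_disc` supplies its
Gauss constant and `NodalMeaning8.meaning` applies: the coordinates `F` of the core algebra over any
`A`-algebra in which `x, x'` become nilpotent are the images of `y` (`meaning_theta`).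
-/
import Mathlib
import Fermat.Agent.T33.NodalMeaning8

set_option autoImplicit false

open AlgebraicCurve PowerSeries IsLocalRing

namespace Fermat.Agent.T33.NodalTheta8

open Fermat.Agent.FF.CoreIface8 Fermat.Agent.FF.GeomIface8 Fermat.Agent.T33.NodalIface8
  Fermat.Agent.T33.NodalMeaning8

variable {K : Type*} [Field K] {F : Type*} [Field F] [Algebra K F]
variable {A : ValuationSubring K} {g d : ℕ} (M : NDiscModel A F g d)
variable (hdeg : ∀ (j : Fin d) (t : A), (M.P j t).deg = 1)

include hdeg in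
/-- additivity of `θ` gives the function `f₀`. -/
theorem exists_f0_of_theta_add (x x' y : Fin g → A)
    (h : theta M hdeg y = theta M hdeg x + theta M hdeg x') :
    ∃ f₀ : F, f₀ ≠ 0 ∧ ∀ Q : Place K F, Q.ord f₀ =
      (discDiv M (fun _ => (0 : A)) + discDiv M y - discDiv M x - discDiv M x') Q := by
  have h1 : theta M hdeg y - (theta M hdeg x + theta M hdeg x') = 0 := sub_eq_zero.2 h
  unfold theta at h1
  rw [← Pic0.mk_add] at h1
  have h2 : Pic0.mk (⟨discDiv M y - discDiv M (fun _ => (0 : A)),
      discDiv_sub_mem_degZero M hdeg y⟩ -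
      (⟨discDiv M x - discDiv M (fun _ => (0 : A)), discDiv_sub_mem_degZero M hdeg x⟩ +
        ⟨discDiv M x' - discDiv M (fun _ => (0 : A)), discDiv_sub_mem_degZero M hdeg x'⟩) :
      Divisor.degZero (K := K) (F := F)) = 0 := h1
  have h3 := (QuotientAddGroup.eq_zero_iff _).1 h2
  rw [AddSubgroup.mem_addSubgroupOf] at h3
  obtain ⟨f₀, hf₀, hdiv⟩ := h3
  refine ⟨f₀, hf₀, fun Q => ?_⟩
  rw [← hdiv Q]
  simp only [AddSubgroupClass.coe_sub, AddSubgroup.coe_add, Finsupp.sub_apply, Finsupp.add_apply]
  ring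

/-- `D(0) + D(y) - D(x) - D(x')` is a sum of differences of two points of one disc. -/
theorem mem_discZero (x x' y : Fin g → A) (hx : ∀ i, x i ∈ maximalIdeal A)
    (hx' : ∀ i, x' i ∈ maximalIdeal A) (hy : ∀ i, y i ∈ maximalIdeal A) :
    discDiv M (fun _ => (0 : A)) + discDiv M y - discDiv M x - discDiv M x' ∈ discZero M.P := by
  have h0 : (0 : A) ∈ maximalIdeal A := Ideal.zero_mem _
  have heq : discDiv M (fun _ => (0 : A)) + discDiv M y - discDiv M x - discDiv M x' =
      ∑ j : Fin g,
        ((Finsupp.single (M.P (Fin.castLE M.hgd j) 0) (1 : ℤ) -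
            Finsupp.single (M.P (Fin.castLE M.hgd j) (x j)) (1 : ℤ)) +
          (Finsupp.single (M.P (Fin.castLE M.hgd j) (y j)) (1 : ℤ) -
            Finsupp.single (M.P (Fin.castLE M.hgd j) (x' j)) (1 : ℤ))) := by
    unfold discDiv
    rw [Finset.sum_add_distrib, Finset.sum_sub_distrib, Finset.sum_sub_distrib]
    abel
  rw [heq]
  refine AddSubgroup.sum_mem _ fun j _ => AddSubgroup.add_mem _ ?_ ?_
  · exact AddSubgroup.subset_closure ⟨_, 0, x j, h0, hx j, rfl⟩
  · exact AddSubgroup.subset_closure ⟨_, y j, x' j, hy j, hx' j, rfl⟩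

variable (hdisj : ∀ (j j' : Fin d) (t t' : A), t ∈ maximalIdeal A → t' ∈ maximalIdeal A →
  M.P j t = M.P j' t' → j = j')
variable {V : Type*} [AddCommGroup V] [Module A V] {D : CoreData A V g d}

include hdisj in
/-- **MEANING in terms of `θ`, nodal disc model.** -/
theorem meaning_theta (L : NLatticeModel M D) (x x' y : Fin g → A)
    (hx : ∀ i, x i ∈ maximalIdeal A) (hx' : ∀ i, x' i ∈ maximalIdeal A)
    (hy : ∀ i, y i ∈ maximalIdeal A)
    (h : theta M hdeg y = theta M hdeg x + theta M hdeg x')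
    {B : Type*} [CommRing B] [Algebra A B]
    (hxB : ∀ i, IsNilpotent (algebraMap A B (x i)))
    (hx'B : ∀ i, IsNilpotent (algebraMap A B (x' i)))
    (O : CoreOutput D B (algebraMap A B ∘ x) (algebraMap A B ∘ x')) (j : Fin g) :
    O.F j = algebraMap A B (y j) := by
  obtain ⟨f₀, hf₀, hdiv⟩ := exists_f0_of_theta_add M hdeg x x' y h
  have hG := M.gauss_disc f₀ hf₀ _ (fun Q => (hdiv Q).symm) (mem_discZero M x x' y hx hx' hy)
  exact meaning hx hx' hy hf₀ L (divShape_of_div M x hdisj x' y f₀ hx hx' hy hdiv) hG hxB hx'B O j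

end Fermat.Agent.T33.NodalTheta8
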