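/-
Programme T (S33), nodal layer, chapter N-D, consumer end (helper8): **the nodal ASSEMBLY**.

Input: `NodalIface8.NThetaInput` (a finite `Γ`-stable subgroup `M ↪ Pic⁰` contained in
`θ (𝔪_A ^ g)`, `θ` injective on `𝔪_A ^ g` and equivariant), the core data with its lattice model
and closed fibre hypothesis for a nodal disc model, the fixed ring `W₀ = A^Γ`.

Output: the coordinates `x z = θ⁻¹ z` and the conclusion of `OrderCoordF.order_main_of_coreSum`
for the order `W₀[x₁, …, x_g]` with ONE coset (`M₀ = ⊤`, `Pt = 0`, `mid z z' = x (z + z')`,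
`s₀ = 0`); over `ℚ̄` with `Γ = Iner A`: `ConnOrd2.HasConnOrder (W0 A) (Iner A) A M`, the geometric
statement (NF) of Programme T.
-/
import Mathlib
import Fermat.Agent.T33.NodalTheta8
import Fermat.Agent.T33.ConnOrd2
import Fermat.Agent.FF.OrderCoordF
import Fermat.Agent.FF.InertiaWire8

set_option autoImplicit false

open AlgebraicCurve PowerSeries IsLocalRing

namespace Fermat.Agent.T33.NodalIface8

open Fermat.Agent.FF.Assembly8

section Coord

variable {K : Type} [Field K] {F : Type*} [Field F] [Algebra K F]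
variable {A : ValuationSubring K} {g d : ℕ}
variable {Γ : Type*} [Group Γ] [MulSemiringAction Γ K] [DistribMulAction Γ (Pic0 K F)]
variable {Mod : NDiscModel A F g d} {hdeg : ∀ (j : Fin d) (t : A), (Mod.P j t).deg = 1}
variable {M : Type} [AddCommGroup M] [DistribMulAction Γ M]
variable (I : NThetaInput Mod hdeg Γ M)

namespace NThetaInput

/-- the coordinates. -/
noncomputable def x (z : M) : Fin g → A := Classical.choose (I.theta_surj z)

theorem x_mem (z : M) (i : Fin g) : I.x z i ∈ maximalIdeal A :=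
  (Classical.choose_spec (I.theta_surj z)).1 i

theorem theta_x (z : M) : theta Mod hdeg (I.x z) = I.emb z :=
  (Classical.choose_spec (I.theta_surj z)).2

theorem hxeq (σ : Γ) (z : M) (j : Fin g) : (I.x (σ • z) j : K) = σ • (I.x z j : K) := by
  have h1 : theta Mod hdeg (I.x (σ • z)) = theta Mod hdeg (smulTuple I.hΓA σ (I.x z)) := by
    rw [I.theta_smul σ _ (I.x_mem z), I.theta_x, I.theta_x, I.emb_smul]
  have h2 := I.theta_inj _ _ (I.x_mem (σ • z))
    (fun i => smul_mem_maximalIdeal I.hΓA σ _ (I.x_mem z i)) h1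
  rw [h2]

theorem hxsep (z z' : M) (h : I.x z = I.x z') : z = z' := by
  apply I.emb_inj
  rw [← I.theta_x z, h, I.theta_x z']

end NThetaInput

end Coord

end Fermat.Agent.T33.NodalIface8

namespace Fermat.Agent.T33.NodalAsm8

open Fermat.Agent.FF.CoreIface8 Fermat.Agent.FF.GeomIface8 Fermat.Agent.FF.Assembly8
  Fermat.Agent.FF.OrderCoordC Fermat.Agent.FF.OrderCoordD Fermat.Agent.FF.OrderCoordF
  Fermat.Agent.FF.HopfOrderB Fermat.Agent.FF.HopfOrderC Fermat.Agent.T33.NodalIface8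
  Fermat.Agent.T33.NodalTheta8

universe v

section Nonunits

variable {K : Type*} [Field K] (A : ValuationSubring K)

theorem zero_mem_nonunits : (0 : K) ∈ A.nonunits := by
  rw [ValuationSubring.mem_nonunits_iff_exists_mem_maximalIdeal]
  exact ⟨A.zero_mem, (maximalIdeal A).zero_mem⟩

variable {A}

theorem add_mem_nonunits {a b : K} (ha : a ∈ A.nonunits) (hb : b ∈ A.nonunits) :
    a + b ∈ A.nonunits := by
  rw [ValuationSubring.mem_nonunits_iff_exists_mem_maximalIdeal] at ha hb ⊢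
  obtain ⟨ha, ha'⟩ := ha
  obtain ⟨hb, hb'⟩ := hb
  exact ⟨A.add_mem _ _ ha hb, (maximalIdeal A).add_mem ha' hb'⟩

theorem sub_mem_nonunits {a b : K} (ha : a ∈ A.nonunits) (hb : b ∈ A.nonunits) :
    a - b ∈ A.nonunits := by
  rw [ValuationSubring.mem_nonunits_iff_exists_mem_maximalIdeal] at ha hb ⊢
  obtain ⟨ha, ha'⟩ := ha
  obtain ⟨hb, hb'⟩ := hb
  exact ⟨sub_mem ha hb, (maximalIdeal A).sub_mem ha' hb'⟩

theorem mul_mem_nonunits_left {a b : K} (ha : a ∈ A) (hb : b ∈ A.nonunits) :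
    a * b ∈ A.nonunits := by
  rw [ValuationSubring.mem_nonunits_iff_exists_mem_maximalIdeal] at hb ⊢
  obtain ⟨hb, hb'⟩ := hb
  exact ⟨A.mul_mem _ _ ha hb, (maximalIdeal A).mul_mem_left ⟨a, ha⟩ hb'⟩

theorem mul_mem_nonunits_right {a b : K} (ha : a ∈ A.nonunits) (hb : b ∈ A) :
    a * b ∈ A.nonunits := by
  rw [mul_comm]
  exact mul_mem_nonunits_left hb ha

theorem coe_mem_nonunits_of_mem_maximalIdeal {a : A} (ha : a ∈ maximalIdeal A) :
    (a : K) ∈ A.nonunits := by
  rw [ValuationSubring.mem_nonunits_iff_exists_mem_maximalIdeal]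
  exact ⟨a.2, ha⟩

end Nonunits

section Conn

open Fermat.Agent.FF.InertiaWire8

variable {A : ValuationSubring Qb} {g : ℕ}
variable {M : Type} [AddCommGroup M]

/-- **relative connectedness of the coordinate order** (pure algebra): every element of the
`W₀`-algebra generated by the coset indicators of `M₀` and by coordinates `x` with values in `𝔪_A`
is `A`-valued and constant modulo `𝔪_A` on the cosets of `M₀`. -/
theorem order_sub_mem_nonunits (M0 : AddSubgroup M) (x : M → Fin g → A)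
    (hx : ∀ z j, x z j ∈ maximalIdeal A) {h : M → Qb} (hh : h ∈ order (W0 A) M0 x) :
    (∀ z, h z ∈ A) ∧ ∀ z z' : M, z - z' ∈ M0 → h z - h z' ∈ A.nonunits := by
  induction hh using Algebra.adjoin_induction with
  | mem f hf =>
    rcases hf with ⟨z0, rfl⟩ | ⟨j, rfl⟩
    · refine ⟨fun z => cosetInd_mem_A M0 z0 z, fun z z' hzz' => ?_⟩
      have hiff : z - z0 ∈ M0 ↔ z' - z0 ∈ M0 := by
        have h1 : z - z0 = (z - z') + (z' - z0) := by abel
        rw [h1]
        exact M0.add_mem_cancel_left hzz'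
      by_cases h : z' - z0 ∈ M0
      · rw [cosetInd_apply_of_mem h, cosetInd_apply_of_mem (hiff.2 h), sub_self]
        exact zero_mem_nonunits A
      · rw [cosetInd_apply_of_not_mem h, cosetInd_apply_of_not_mem (fun h' => h (hiff.1 h')),
          sub_self]
        exact zero_mem_nonunits A
    · refine ⟨fun z => (x z j).2, fun z z' _ => ?_⟩
      exact sub_mem_nonunits (coe_mem_nonunits_of_mem_maximalIdeal (hx z j))
        (coe_mem_nonunits_of_mem_maximalIdeal (hx z' j))
  | algebraMap w =>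
    refine ⟨fun z => w.2.1, fun z z' _ => ?_⟩
    rw [Pi.algebraMap_apply, Pi.algebraMap_apply, sub_self]
    exact zero_mem_nonunits A
  | add f f' _ _ hf hf' =>
    refine ⟨fun z => A.add_mem _ _ (hf.1 z) (hf'.1 z), fun z z' hzz' => ?_⟩
    have h1 : (f + f') z - (f + f') z' = (f z - f z') + (f' z - f' z') := by
      simp only [Pi.add_apply]; ring
    rw [h1]
    exact add_mem_nonunits (hf.2 z z' hzz') (hf'.2 z z' hzz')
  | mul f f' _ _ hf hf' =>
    refine ⟨fun z => A.mul_mem _ _ (hf.1 z) (hf'.1 z), fun z z' hzz' => ?_⟩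
    have h1 : (f * f') z - (f * f') z' = f z * (f' z - f' z') + (f z - f z') * f' z' := by
      simp only [Pi.mul_apply]; ring
    rw [h1]
    exact add_mem_nonunits (mul_mem_nonunits_left (hf.1 z) (hf'.2 z z' hzz'))
      (mul_mem_nonunits_right (hf.2 z z' hzz') (hf'.1 z'))

end Conn

section Abstract

variable {K : Type} [Field K] {F : Type*} [Field F] [Algebra K F]
variable {A : ValuationSubring K} {g d : ℕ}
variable {Γ : Type*} [Group Γ] [MulSemiringAction Γ K] [DistribMulAction Γ (Pic0 K F)]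
variable {Mod : NDiscModel A F g d} {hdeg : ∀ (j : Fin d) (t : A), (Mod.P j t).deg = 1}
variable {M : Type} [AddCommGroup M] [DistribMulAction Γ M]
variable (I : NThetaInput Mod hdeg Γ M)



omit [Group Γ] [MulSemiringAction Γ K] [DistribMulAction Γ (Pic0 K F)] in
/-- `θ 0 = 0`. -/
theorem theta_zero : theta Mod hdeg (fun _ => (0 : A)) = 0 := by
  unfold theta
  have : (⟨discDiv Mod (fun _ => (0 : A)) - discDiv Mod (fun _ => (0 : A)),
      discDiv_sub_mem_degZero Mod hdeg _⟩ : Divisor.degZero (K := K) (F := F)) = 0 :=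
    Subtype.ext (sub_self _)
  rw [this]
  exact Pic0.mk_zero

variable {V : Type v} [AddCommGroup V] [Module A V] {D : CoreData A V g d}
variable {W0 : Type} [CommRing W0] [Algebra W0 K]

/-- **the nodal ASSEMBLY (abstract form).** -/
theorem order_main_of_theta [Finite M] (hW : IsFixedRing Γ A W0) (ℓ : A)
    (hrank : ∀ a : A, a ≠ 0 → ∃ m : ℕ, a ∣ ℓ ^ m)
    (hℓm : ∀ a : A, a ∈ maximalIdeal A → ∃ k : ℕ, ℓ ∣ a ^ k)
    (hcf : ClosedFibre D (IsLocalRing.ResidueField A)) (L : NLatticeModel Mod D)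
    (hdisj : ∀ (j j' : Fin d) (t t' : A), t ∈ maximalIdeal A → t' ∈ maximalIdeal A →
      Mod.P j t = Mod.P j' t' → j = j') :
    (∀ h ∈ order W0 (⊤ : AddSubgroup M) I.x, IsEquivariantFun Γ h) ∧
    (∀ h ∈ order W0 (⊤ : AddSubgroup M) I.x, ∀ z, h z ∈ A) ∧
    (Subalgebra.toSubmodule (order W0 (⊤ : AddSubgroup M) I.x)).FG ∧
    (∀ z z' : M, (∀ f ∈ order W0 (⊤ : AddSubgroup M) I.x, f z = f z') → z = z') ∧
    ∀ s ∈ genSet (⊤ : AddSubgroup M) I.x, HasCoprod (order W0 (⊤ : AddSubgroup M) I.x) s := by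
  have h0 : ∀ i : Fin g, (fun _ : Fin g => (0 : A)) i ∈ maximalIdeal A :=
    fun _ => Ideal.zero_mem _
  refine order_main_of_coreSum hW ℓ hrank D hcf (M0 := ⊤) (fun σ z => AddSubgroup.mem_top _)
    (fun z j => hℓm _ (I.x_mem z j)) I.hxeq (fun z z' _ h => I.hxsep z z' h)
    (fun z z' => I.x (z + z')) (fun _ _ _ => (0 : A)) (fun _ _ j => ⟨1, by simp⟩) ?_ ?_
  · intro z z' B _ _ hxB hx'B O j
    exact meaning_theta Mod hdeg hdisj L (I.x z) (I.x z') (I.x (z + z')) (I.x_mem z) (I.x_mem z')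
      (I.x_mem (z + z')) (by rw [I.theta_x, I.theta_x, I.theta_x, map_add]) hxB hx'B O j
  · intro z0 z0' z z' _ _ B _ _ hxB hx'B O j
    exact meaning_theta Mod hdeg hdisj L (I.x (z + z')) (fun _ => (0 : A)) (I.x (z + z'))
      (I.x_mem (z + z')) h0 (I.x_mem (z + z')) (by rw [theta_zero, add_zero]) hxB hx'B O j

end Abstract

section Qb

open Fermat.Agent.FF.InertiaWire8 Fermat.Agent.FF.SubOrd1 Fermat.Agent.T33.ConnOrd2

variable {A : ValuationSubring Qb} {F : Type*} [Field F] [Algebra Qb F] {g d : ℕ}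
variable [DistribMulAction (Iner A) (Pic0 Qb F)]
variable {Mod : NDiscModel A F g d} {hdeg : ∀ (j : Fin d) (t : A), (Mod.P j t).deg = 1}
variable {M : Type} [AddCommGroup M] [Finite M] [DistribMulAction (Iner A) M]
variable {V : Type v} [AddCommGroup V] [Module A V] {D : CoreData A V g d}

/-- **the nodal ASSEMBLY over `ℚ̄`: the geometric statement (NF) of Programme T.**  A finite
`Iner A`-stable subgroup `M` of `Pic⁰` contained in `θ (𝔪_A ^ g)` carries a CONNECTED Hopf order over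
`(W₀ A, Iner A)`. -/
theorem hasConnOrder (I : NThetaInput Mod hdeg (Iner A) M) {ℓ : ℕ} (hℓ : ℓ.Prime)
    (hA : A.LiesOverPrime ℓ)
    (hcf : ClosedFibre D (IsLocalRing.ResidueField A)) (L : NLatticeModel Mod D)
    (hdisj : ∀ (j j' : Fin d) (t t' : A), t ∈ maximalIdeal A → t' ∈ maximalIdeal A →
      Mod.P j t = Mod.P j' t' → j = j') :
    HasConnOrder (W0 A) (Iner A) A M := by
  obtain ⟨h1, -, h3, h4, h5⟩ := order_main_of_theta I (isFixedRing_W0 A) ((ℓ : ℕ) : A)
    (hrank hℓ hA) (hℓm hℓ hA) hcf L hdisj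
  refine ⟨order (W0 A) (⊤ : AddSubgroup M) I.x,
    ⟨Module.Finite.iff_fg.2 h3, h1, h4, ⟨genSet (⊤ : AddSubgroup M) I.x, rfl, h5⟩⟩, ?_⟩
  intro h hh z
  exact (order_sub_mem_nonunits (⊤ : AddSubgroup M) I.x I.x_mem hh).2
    z 0 (AddSubgroup.mem_top _)

end Qb

end Fermat.Agent.T33.NodalAsm8
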