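/-
Programme T (S33), nodal layer, chapter N-D (helper8): **the nodal disc model of a nodal reduction.**

`N : NodalRed A F Nd` (helper1's contract (a)), `φ ∈ O₁ ⊓ O₂` with nonzero reductions, and `d`
distinct points `c j` of the normalisation of the special fibre, each a SMOOTH point of its
component, a SIMPLE zero of the reduction of `φ`, without poles of `φ` above it (`CentreOK`).
Then (`discModel`) there is a nodal disc model (`NodalIface8.NDiscModel`) with ring `O₁ ⊓ O₂`,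
parameter `φ`, `j`-th disc = the places reducing to `c j`; `gauss_disc` comes from `WeakGauss`
(contract (a2), proved in `NodalAbs1A`).  It satisfies `NodalIface8.DiscCompat` (`discCompat`), the
discs are pairwise disjoint (`hdisj`), all places have degree one (`hdeg`), and the expansion reduces
to the expansion of the reduction (`leOrdRed_of_coeff_mem`, for the lattice chapter (b2)).
-/
import Mathlib
import Fermat.Agent.T33.NodalDisc8A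
import Fermat.Agent.T33.NodalIface8

set_option autoImplicit false

open AlgebraicCurve IsLocalRing

namespace Fermat.Agent.T33.NodalDisc8B

open Fermat.Agent.X0.FF Fermat.Agent.FF.GeomIface8 Fermat.Agent.RR.LSpace
  Fermat.Agent.T33.NodalCtx1 Fermat.Agent.T33.NodalCurve6 Fermat.Agent.T33.NodalAbs1B
  Fermat.Agent.T33.NodalDisc8A Fermat.Agent.T33.NodalIface8

variable {K : Type*} [Field K] {A : ValuationSubring K} {F : Type*} [Field F] [Algebra K F]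
variable {Fb₁ Fb₂ : Type*} [Field Fb₁] [Field Fb₂]
  [Algebra (ResidueField A) Fb₁] [Algebra (ResidueField A) Fb₂]
variable {ι : Type*} {Nd : NodalData (ResidueField A) Fb₁ Fb₂ ι} (N : NodalRed A F Nd)
variable (H : LHyp K F)

/-- the first component, as a one-sided context. -/
def sideCtx₁ : SideCtx A F Fb₁ := ⟨N.c₁, N.r₁, Nd.Smooth1, side₁ N, H⟩

/-- the second component, as a one-sided context. -/
def sideCtx₂ : SideCtx A F Fb₂ := ⟨N.c₂, N.r₂, Nd.Smooth2, side₂ N, H⟩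

variable (φ : F) (hφ₁ : φ ∈ N.c₁.O) (hφ₂ : φ ∈ N.c₂.O)

/-- `Q` is a smooth point of its component, a simple zero of the reduction of `φ`, and `φ` has no
pole over `Q`. -/
def CentreOK : NPt N → Prop
  | Sum.inl Q => Nd.Smooth1 Q ∧ Q.ord (N.c₁.ρ ⟨φ, hφ₁⟩) = 1 ∧
      ∀ P : Place K F, N.r₁ P = some Q → 0 ≤ P.ord φ
  | Sum.inr Q => Nd.Smooth2 Q ∧ Q.ord (N.c₂.ρ ⟨φ, hφ₂⟩) = 1 ∧
      ∀ P : Place K F, N.r₂ P = some Q → 0 ≤ P.ord φ

theorem smoothPt_of_centreOK : ∀ (Q : NPt N), CentreOK N φ hφ₁ hφ₂ Q → SmoothPt N Q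
  | Sum.inl _, h => h.1
  | Sum.inr _, h => h.1

/-- the point of the disc over `Q` with `φ = t`. -/
noncomputable def ptOf : (Q : NPt N) → CentreOK N φ hφ₁ hφ₂ Q → A → Place K F
  | Sum.inl Q, h => (sideCtx₁ N H).discPoint ⟨φ, hφ₁⟩ Q h.1 h.2.1 h.2.2
  | Sum.inr Q, h => (sideCtx₂ N H).discPoint ⟨φ, hφ₂⟩ Q h.1 h.2.1 h.2.2

theorem redTo_ptOf : ∀ (Q : NPt N) (h : CentreOK N φ hφ₁ hφ₂ Q) (t : A), t ∈ maximalIdeal A →
    RedTo N (ptOf N H φ hφ₁ hφ₂ Q h t) Q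
  | Sum.inl Q, h, t, ht => (sideCtx₁ N H).r_discPoint ⟨φ, hφ₁⟩ Q h.1 h.2.1 h.2.2 t ht
  | Sum.inr Q, h, t, ht => (sideCtx₂ N H).r_discPoint ⟨φ, hφ₂⟩ Q h.1 h.2.1 h.2.2 t ht

theorem ord_ptOf_self : ∀ (Q : NPt N) (h : CentreOK N φ hφ₁ hφ₂ Q) (t : A),
    t ∈ maximalIdeal A → (ptOf N H φ hφ₁ hφ₂ Q h t).ord (φ - algebraMap K F (t : K)) = 1
  | Sum.inl Q, h, t, ht => (sideCtx₁ N H).ord_discPoint_self ⟨φ, hφ₁⟩ Q h.1 h.2.1 h.2.2 t ht
  | Sum.inr Q, h, t, ht => (sideCtx₂ N H).ord_discPoint_self ⟨φ, hφ₂⟩ Q h.1 h.2.1 h.2.2 t ht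

theorem ord_ptOf_of_ne : ∀ (Q : NPt N) (h : CentreOK N φ hφ₁ hφ₂ Q) (t t' : A),
    t ∈ maximalIdeal A → t' ∈ maximalIdeal A → t ≠ t' →
    (ptOf N H φ hφ₁ hφ₂ Q h t).ord (φ - algebraMap K F (t' : K)) = 0
  | Sum.inl Q, h, t, t', ht, ht', hne =>
    (sideCtx₁ N H).ord_discPoint_of_ne ⟨φ, hφ₁⟩ Q h.1 h.2.1 h.2.2 t t' ht ht' hne
  | Sum.inr Q, h, t, t', ht, ht', hne =>
    (sideCtx₂ N H).ord_discPoint_of_ne ⟨φ, hφ₂⟩ Q h.1 h.2.1 h.2.2 t t' ht ht' hne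

theorem exists_eq_ptOf : ∀ (Q : NPt N) (h : CentreOK N φ hφ₁ hφ₂ Q) (P : Place K F),
    RedTo N P Q → ∃ t : A, t ∈ maximalIdeal A ∧ P = ptOf N H φ hφ₁ hφ₂ Q h t
  | Sum.inl Q, h, P, hP => (sideCtx₁ N H).exists_eq_discPoint ⟨φ, hφ₁⟩ Q h.1 h.2.1 h.2.2 P hP
  | Sum.inr Q, h, P, hP => (sideCtx₂ N H).exists_eq_discPoint ⟨φ, hφ₂⟩ Q h.1 h.2.1 h.2.2 P hP

/-- a place has at most one smooth reduction. -/
theorem eq_of_redTo {P : Place K F} : ∀ {Q Q' : NPt N}, SmoothPt N Q → SmoothPt N Q' →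
    RedTo N P Q → RedTo N P Q' → Q = Q'
  | Sum.inl Q, Sum.inl Q', _, _, h, h' => by
    have h1 : N.r₁ P = some Q := h
    have h2 : N.r₁ P = some Q' := h'
    rw [h1] at h2
    rw [Option.some.inj h2]
  | Sum.inl Q, Sum.inr Q', hs, _, h, h' => by
    have h1 : N.r₁ P = some Q := h
    have h2 : N.r₂ P = some Q' := h'
    rw [N.smooth₁ P Q h1 hs] at h2
    exact absurd h2 (by simp)
  | Sum.inr Q, Sum.inl Q', hs, _, h, h' => by
    have h1 : N.r₂ P = some Q := h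
    have h2 : N.r₁ P = some Q' := h'
    rw [N.smooth₂ P Q h1 hs] at h2
    exact absurd h2 (by simp)
  | Sum.inr Q, Sum.inr Q', _, _, h, h' => by
    have h1 : N.r₂ P = some Q := h
    have h2 : N.r₂ P = some Q' := h'
    rw [h1] at h2
    rw [Option.some.inj h2]

/-- the two partial reductions are constant on a disc. -/
theorem r_ptOf_eq (Q : NPt N) (h : CentreOK N φ hφ₁ hφ₂ Q) (t t' : A)
    (ht : t ∈ maximalIdeal A) (ht' : t' ∈ maximalIdeal A) :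
    N.r₁ (ptOf N H φ hφ₁ hφ₂ Q h t) = N.r₁ (ptOf N H φ hφ₁ hφ₂ Q h t') ∧
      N.r₂ (ptOf N H φ hφ₁ hφ₂ Q h t) = N.r₂ (ptOf N H φ hφ₁ hφ₂ Q h t') := by
  have h1 := redTo_ptOf N H φ hφ₁ hφ₂ Q h t ht
  have h2 := redTo_ptOf N H φ hφ₁ hφ₂ Q h t' ht'
  have hs := smoothPt_of_centreOK N φ hφ₁ hφ₂ Q h
  cases Q with
  | inl Q =>
    have h1' : N.r₁ _ = some Q := h1
    have h2' : N.r₁ _ = some Q := h2
    exact ⟨h1'.trans h2'.symm, (N.smooth₁ _ Q h1' hs).trans (N.smooth₁ _ Q h2' hs).symm⟩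
  | inr Q =>
    have h1' : N.r₂ _ = some Q := h1
    have h2' : N.r₂ _ = some Q := h2
    exact ⟨(N.smooth₂ _ Q h1' hs).trans (N.smooth₂ _ Q h2' hs).symm, h1'.trans h2'.symm⟩

theorem isSmoothRed_ptOf (Q : NPt N) (h : CentreOK N φ hφ₁ hφ₂ Q) (t : A)
    (ht : t ∈ maximalIdeal A) : N.IsSmoothRed (ptOf N H φ hφ₁ hφ₂ Q h t) := by
  have h1 := redTo_ptOf N H φ hφ₁ hφ₂ Q h t ht
  have hs := smoothPt_of_centreOK N φ hφ₁ hφ₂ Q h
  cases Q with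
  | inl Q => exact Or.inl ⟨Q, h1, hs⟩
  | inr Q => exact Or.inr ⟨Q, h1, hs⟩


/-! ### `φ` is a unit of `O₁ ⊓ O₂` -/

variable (hρ₁ : N.c₁.ρ ⟨φ, hφ₁⟩ ≠ 0) (hρ₂ : N.c₂.ρ ⟨φ, hφ₂⟩ ≠ 0)

theorem const_mem_O (a : A) : algebraMap K F (a : K) ∈ N.O :=
  ⟨N.c₁.algebraMap_mem a, N.c₂.algebraMap_mem a⟩

include hφ₁ hφ₂ in
theorem φ_mem_O : φ ∈ N.O := ⟨hφ₁, hφ₂⟩

include hρ₁ hρ₂ in
theorem φ_inv_mem_O : φ⁻¹ ∈ N.O :=
  ⟨HalfRedApi.inv_mem_of_ρ_ne_zero N.c₁ (y := ⟨φ, hφ₁⟩) hρ₁,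
    HalfRedApi.inv_mem_of_ρ_ne_zero N.c₂ (y := ⟨φ, hφ₂⟩) hρ₂⟩

include hρ₁ hρ₂ in
theorem φ_sub_isOUnit (t : A) (ht : t ∈ maximalIdeal A) :
    IsOUnit N.O (φ - algebraMap K F (t : K)) := by
  have h1 : N.c₁.ρ (⟨φ, hφ₁⟩ - HalfRedApi.const N.c₁ t) ≠ 0 := by
    rw [map_sub, HalfRedApi.ρ_const_eq_zero N.c₁ ht, sub_zero]; exact hρ₁
  have h2 : N.c₂.ρ (⟨φ, hφ₂⟩ - HalfRedApi.const N.c₂ t) ≠ 0 := by
    rw [map_sub, HalfRedApi.ρ_const_eq_zero N.c₂ ht, sub_zero]; exact hρ₂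
  refine ⟨?_, ⟨(⟨φ, hφ₁⟩ - HalfRedApi.const N.c₁ t : N.c₁.O).2,
    (⟨φ, hφ₂⟩ - HalfRedApi.const N.c₂ t : N.c₂.O).2⟩,
    ⟨HalfRedApi.inv_mem_of_ρ_ne_zero N.c₁ h1, HalfRedApi.inv_mem_of_ρ_ne_zero N.c₂ h2⟩⟩
  intro h0
  apply h1
  have : (⟨φ, hφ₁⟩ - HalfRedApi.const N.c₁ t : N.c₁.O) = 0 := Subtype.ext h0
  rw [this, map_zero]

/-! ### the expansion on the disc over a centre -/

/-- the expansion on the disc over `Q`, in the parameter `φ`. -/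
noncomputable def expOf : (Q : NPt N) → (h : CentreOK N φ hφ₁ hφ₂ Q) →
    discRing A N.O (ptOf N H φ hφ₁ hφ₂ Q h) →+* PowerSeries A
  | Sum.inl Q, h => (sideCtx₁ N H).expand ⟨φ, hφ₁⟩ Q h.1 h.2.1 h.2.2 N.O inf_le_left
      (const_mem_O N) (φ_mem_O N φ hφ₁ hφ₂) (φ_inv_mem_O N φ hφ₁ hφ₂ hρ₁ hρ₂)
  | Sum.inr Q, h => (sideCtx₂ N H).expand ⟨φ, hφ₂⟩ Q h.1 h.2.1 h.2.2 N.O inf_le_right
      (const_mem_O N) (φ_mem_O N φ hφ₁ hφ₂) (φ_inv_mem_O N φ hφ₁ hφ₂ hρ₁ hρ₂)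

theorem expOf_φ : ∀ (Q : NPt N) (h : CentreOK N φ hφ₁ hφ₂ Q)
    (y : discRing A N.O (ptOf N H φ hφ₁ hφ₂ Q h)), (y : F) = φ →
    expOf N H φ hφ₁ hφ₂ hρ₁ hρ₂ Q h y = PowerSeries.X
  | Sum.inl Q, h, y, hy => (sideCtx₁ N H).expand_φ ⟨φ, hφ₁⟩ Q h.1 h.2.1 h.2.2 N.O inf_le_left
      (const_mem_O N) (φ_mem_O N φ hφ₁ hφ₂) (φ_inv_mem_O N φ hφ₁ hφ₂ hρ₁ hρ₂) y hy
  | Sum.inr Q, h, y, hy => (sideCtx₂ N H).expand_φ ⟨φ, hφ₂⟩ Q h.1 h.2.1 h.2.2 N.O inf_le_right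
      (const_mem_O N) (φ_mem_O N φ hφ₁ hφ₂) (φ_inv_mem_O N φ hφ₁ hφ₂ hρ₁ hρ₂) y hy

theorem expOf_const : ∀ (Q : NPt N) (h : CentreOK N φ hφ₁ hφ₂ Q)
    (y : discRing A N.O (ptOf N H φ hφ₁ hφ₂ Q h)) (a : A), (y : F) = algebraMap K F (a : K) →
    expOf N H φ hφ₁ hφ₂ hρ₁ hρ₂ Q h y = PowerSeries.C a
  | Sum.inl Q, h, y, a, hy => (sideCtx₁ N H).expand_const ⟨φ, hφ₁⟩ Q h.1 h.2.1 h.2.2 N.O
      inf_le_left (const_mem_O N) (φ_mem_O N φ hφ₁ hφ₂) (φ_inv_mem_O N φ hφ₁ hφ₂ hρ₁ hρ₂) y a hy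
  | Sum.inr Q, h, y, a, hy => (sideCtx₂ N H).expand_const ⟨φ, hφ₂⟩ Q h.1 h.2.1 h.2.2 N.O
      inf_le_right (const_mem_O N) (φ_mem_O N φ hφ₁ hφ₂) (φ_inv_mem_O N φ hφ₁ hφ₂ hρ₁ hρ₂) y a hy

/-- `ρ y = 0`, or `ρ y` vanishes to order at least `k` at `Q` (`ρ` = the reduction on the component
of `Q`). -/
def LeOrdRed (y : F) (hy : y ∈ N.O) (k : ℕ) : NPt N → Prop
  | Sum.inl Q => N.c₁.ρ ⟨y, hy.1⟩ = 0 ∨ (k : ℤ) ≤ Q.ord (N.c₁.ρ ⟨y, hy.1⟩)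
  | Sum.inr Q => N.c₂.ρ ⟨y, hy.2⟩ = 0 ∨ (k : ℤ) ≤ Q.ord (N.c₂.ρ ⟨y, hy.2⟩)

/-- **reduction of the expansion** (for the lattice chapter (b2)): if the first `k` coefficients
of the expansion of `y` on the disc over `Q` lie in `𝔪_A`, then the reduction of `y` on the
component of `Q` is zero or vanishes to order at least `k` at `Q`. -/
theorem leOrdRed_of_coeff_mem : ∀ (Q : NPt N) (h : CentreOK N φ hφ₁ hφ₂ Q) (y : F)
    (hy : y ∈ discRing A N.O (ptOf N H φ hφ₁ hφ₂ Q h)) (k : ℕ),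
    (∀ n < k, PowerSeries.coeff n (expOf N H φ hφ₁ hφ₂ hρ₁ hρ₂ Q h ⟨y, hy⟩) ∈ maximalIdeal A) →
    LeOrdRed N y (mem_discRing_iff.1 hy).1 k Q
  | Sum.inl Q, h, y, hy, k, hk =>
    (sideCtx₁ N H).le_ord_ρ_of_coeff_mem ⟨φ, hφ₁⟩ Q h.1 h.2.1 h.2.2 N.O inf_le_left
      (const_mem_O N) (φ_mem_O N φ hφ₁ hφ₂) (φ_inv_mem_O N φ hφ₁ hφ₂ hρ₁ hρ₂) y hy k hk
  | Sum.inr Q, h, y, hy, k, hk =>
    (sideCtx₂ N H).le_ord_ρ_of_coeff_mem ⟨φ, hφ₂⟩ Q h.1 h.2.1 h.2.2 N.O inf_le_right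
      (const_mem_O N) (φ_mem_O N φ hφ₁ hφ₂) (φ_inv_mem_O N φ hφ₁ hφ₂ hρ₁ hρ₂) y hy k hk

/-! ### the disc model -/

variable {d : ℕ} (c : Fin d → NPt N) (hc : ∀ j, CentreOK N φ hφ₁ hφ₂ (c j))

/-- the family of discs over the centres `c j`. -/
noncomputable def discPts : Fin d → A → Place K F :=
  fun j => ptOf N H φ hφ₁ hφ₂ (c j) (hc j)

/-- the divisors of `discZero` push forward to `0` on both components. -/
theorem mapDomain_eq_zero_of_mem_discZero {E : Divisor K F}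
    (hE : E ∈ discZero (discPts N H φ hφ₁ hφ₂ c hc)) :
    Finsupp.mapDomain N.r₁ E = 0 ∧ Finsupp.mapDomain N.r₂ E = 0 := by
  have key : ∀ (r : Place K F → Option (Place (ResidueField A) Fb₁)),
      (∀ (j : Fin d) (t t' : A), t ∈ maximalIdeal A → t' ∈ maximalIdeal A →
        r (discPts N H φ hφ₁ hφ₂ c hc j t) = r (discPts N H φ hφ₁ hφ₂ c hc j t')) →
      discZero (discPts N H φ hφ₁ hφ₂ c hc) ≤
        (Finsupp.mapDomain.addMonoidHom r : Divisor K F →+ _).ker := by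
    intro r hr
    unfold discZero
    rw [AddSubgroup.closure_le]
    rintro E ⟨j, t, t', ht, ht', rfl⟩
    rw [SetLike.mem_coe, AddMonoidHom.mem_ker, map_sub]
    show Finsupp.mapDomain r _ - Finsupp.mapDomain r _ = 0
    rw [Finsupp.mapDomain_single, Finsupp.mapDomain_single, hr j t t' ht ht', sub_self]
  have key' : ∀ (r : Place K F → Option (Place (ResidueField A) Fb₂)),
      (∀ (j : Fin d) (t t' : A), t ∈ maximalIdeal A → t' ∈ maximalIdeal A →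
        r (discPts N H φ hφ₁ hφ₂ c hc j t) = r (discPts N H φ hφ₁ hφ₂ c hc j t')) →
      discZero (discPts N H φ hφ₁ hφ₂ c hc) ≤
        (Finsupp.mapDomain.addMonoidHom r : Divisor K F →+ _).ker := by
    intro r hr
    unfold discZero
    rw [AddSubgroup.closure_le]
    rintro E ⟨j, t, t', ht, ht', rfl⟩
    rw [SetLike.mem_coe, AddMonoidHom.mem_ker, map_sub]
    show Finsupp.mapDomain r _ - Finsupp.mapDomain r _ = 0
    rw [Finsupp.mapDomain_single, Finsupp.mapDomain_single, hr j t t' ht ht', sub_self]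
  exact ⟨key N.r₁ (fun j t t' ht ht' => (r_ptOf_eq N H φ hφ₁ hφ₂ (c j) (hc j) t t' ht ht').1) hE,
    key' N.r₂ (fun j t t' ht ht' => (r_ptOf_eq N H φ hφ₁ hφ₂ (c j) (hc j) t t' ht ht').2) hE⟩

/-- the divisors of `discZero` are supported at places of smooth reduction. -/
theorem smoothSupp_of_mem_discZero {E : Divisor K F}
    (hE : E ∈ discZero (discPts N H φ hφ₁ hφ₂ c hc)) : SmoothSupp N E := by
  classical
  unfold discZero at hE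
  induction hE using AddSubgroup.closure_induction with
  | mem E hE =>
    obtain ⟨j, t, t', ht, ht', rfl⟩ := hE
    intro P hP
    by_cases h1 : P = discPts N H φ hφ₁ hφ₂ c hc j t
    · rw [h1]; exact isSmoothRed_ptOf N H φ hφ₁ hφ₂ (c j) (hc j) t ht
    by_cases h2 : P = discPts N H φ hφ₁ hφ₂ c hc j t'
    · rw [h2]; exact isSmoothRed_ptOf N H φ hφ₁ hφ₂ (c j) (hc j) t' ht'
    exfalso
    apply hP
    rw [Finsupp.sub_apply, Finsupp.single_apply, Finsupp.single_apply, if_neg (Ne.symm h1),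
      if_neg (Ne.symm h2), sub_zero]
  | zero => intro P hP; exact absurd rfl hP
  | add E₁ E₂ _ _ h₁ h₂ =>
    intro P hP
    by_cases h : E₁ P = 0
    · refine h₂ P ?_
      intro h'
      apply hP
      rw [Finsupp.add_apply, h, h', add_zero]
    · exact h₁ P h
  | neg E _ h =>
    intro P hP
    refine h P ?_
    intro h'
    apply hP
    rw [Finsupp.neg_apply, h', neg_zero]

/-- the fibre sums of a divisor which pushes forward to `0`. -/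
theorem sum_eq_zero_of_mapDomain_eq_zero {β : Type*} (r : Place K F → Option β) (f : F)
    (E : Divisor K F) (hEf : ∀ Q : Place K F, E Q = Q.ord f) (h0 : Finsupp.mapDomain r E = 0)
    (Q : β) (T : Finset (Place K F)) (hT : ∀ P, P ∈ T ↔ P.ord f ≠ 0 ∧ r P = some Q) :
    ∑ P ∈ T, P.ord f = 0 := by
  classical
  have h1 : Finsupp.mapDomain r E (some Q) = 0 := by rw [h0]; rfl
  rw [Finsupp.mapDomain, Finsupp.sum, Finsupp.finsetSum_apply] at h1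
  have hTe : T = E.support.filter (fun P => r P = some Q) := by
    ext P
    rw [hT, Finset.mem_filter, Finsupp.mem_support_iff, hEf]
  rw [hTe, Finset.sum_filter]
  refine Eq.trans (Finset.sum_congr rfl fun P _ => ?_) h1
  rw [Finsupp.single_apply, hEf]

include hρ₁ hρ₂ in
/-- **the weak Gauss property of the discs**, from `WeakGauss` (contract (a2)). -/
theorem gauss_disc_of_weakGauss (hWG : N.WeakGauss) (f : F) (hf : f ≠ 0) (E : Divisor K F)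
    (hEf : ∀ Q : Place K F, E Q = Q.ord f)
    (hE : E ∈ discZero (discPts N H φ hφ₁ hφ₂ c hc)) :
    ∃ a : K, a ≠ 0 ∧ IsOUnit N.O (algebraMap K F a * f) := by
  have _ := hρ₁
  have _ := hρ₂
  obtain ⟨h01, h02⟩ := mapDomain_eq_zero_of_mem_discZero N H φ hφ₁ hφ₂ c hc hE
  have hsm := smoothSupp_of_mem_discZero N H φ hφ₁ hφ₂ c hc hE
  obtain ⟨a, h₁, h₂, u, hu, e₁, e₂⟩ := hWG f hf
    (fun P hP => hsm P (by rw [hEf]; exact hP))
    (fun Q T hT => sum_eq_zero_of_mapDomain_eq_zero N.r₁ f E hEf h01 Q T hT)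
    (fun Q T hT => sum_eq_zero_of_mapDomain_eq_zero N.r₂ f E hEf h02 Q T hT)
  have hu1 : N.c₁.ρ ⟨_, h₁⟩ ≠ 0 := by
    rw [e₁]; exact HalfRedApi.ρ_const N.c₁ u ▸ HalfRedApi.ρ_const_ne_zero N.c₁ hu
  have hu2 : N.c₂.ρ ⟨_, h₂⟩ ≠ 0 := by
    rw [e₂]; exact HalfRedApi.ρ_const N.c₂ u ▸ HalfRedApi.ρ_const_ne_zero N.c₂ hu
  have hne : algebraMap K F a * f ≠ 0 := by
    intro h0
    apply hu1
    have : (⟨algebraMap K F a * f, h₁⟩ : N.c₁.O) = 0 := Subtype.ext h0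
    rw [this, map_zero]
  refine ⟨a, ?_, hne, ⟨h₁, h₂⟩, ⟨HalfRedApi.inv_mem_of_ρ_ne_zero N.c₁ hu1,
    HalfRedApi.inv_mem_of_ρ_ne_zero N.c₂ hu2⟩⟩
  rintro rfl
  apply hne
  rw [map_zero, zero_mul]

/-- **the nodal disc model of a nodal reduction**: ring `O₁ ⊓ O₂`, parameter `φ`, `j`-th disc = the
places reducing to the centre `c j`. -/
noncomputable def discModel {g : ℕ} (hgd : g ≤ d) (hWG : N.WeakGauss) : NDiscModel A F g d where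
  hgd := hgd
  O := N.O
  algebraMap_mem := const_mem_O N
  φ := φ
  φ_sub_unit := φ_sub_isOUnit N φ hφ₁ hφ₂ hρ₁ hρ₂
  P := discPts N H φ hφ₁ hφ₂ c hc
  ord_φ_sub_self j t ht := ord_ptOf_self N H φ hφ₁ hφ₂ (c j) (hc j) t ht
  ord_φ_sub_of_ne j t t' ht ht' hne := ord_ptOf_of_ne N H φ hφ₁ hφ₂ (c j) (hc j) t t' ht ht' hne
  exp j := expOf N H φ hφ₁ hφ₂ hρ₁ hρ₂ (c j) (hc j)
  exp_φ j y hy := expOf_φ N H φ hφ₁ hφ₂ hρ₁ hρ₂ (c j) (hc j) y hy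
  exp_const j y a hy := expOf_const N H φ hφ₁ hφ₂ hρ₁ hρ₂ (c j) (hc j) y a hy
  gauss_disc f hf E hEf hE := gauss_disc_of_weakGauss N H φ hφ₁ hφ₂ hρ₁ hρ₂ c hc hWG f hf E hEf hE

section Model

variable {g : ℕ} (hgd : g ≤ d) (hWG : N.WeakGauss)

@[simp] theorem discModel_O : (discModel N H φ hφ₁ hφ₂ hρ₁ hρ₂ c hc hgd hWG).O = N.O := rfl

@[simp] theorem discModel_φ : (discModel N H φ hφ₁ hφ₂ hρ₁ hρ₂ c hc hgd hWG).φ = φ := rfl

theorem discModel_P (j : Fin d) :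
    (discModel N H φ hφ₁ hφ₂ hρ₁ hρ₂ c hc hgd hWG).P j = ptOf N H φ hφ₁ hφ₂ (c j) (hc j) := rfl

theorem discModel_exp (j : Fin d) :
    (discModel N H φ hφ₁ hφ₂ hρ₁ hρ₂ c hc hgd hWG).exp j =
      expOf N H φ hφ₁ hφ₂ hρ₁ hρ₂ (c j) (hc j) := rfl

/-- the disc model sits over the nodal reduction. -/
theorem discCompat (hinj : Function.Injective c) :
    DiscCompat N (discModel N H φ hφ₁ hφ₂ hρ₁ hρ₂ c hc hgd hWG) c where
  O_eq := rfl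
  c_smooth j := smoothPt_of_centreOK N φ hφ₁ hφ₂ (c j) (hc j)
  c_inj := hinj
  center j t ht := redTo_ptOf N H φ hφ₁ hφ₂ (c j) (hc j) t ht
  exhaust j Q hQ := exists_eq_ptOf N H φ hφ₁ hφ₂ (c j) (hc j) Q hQ

/-- distinct discs are disjoint. -/
theorem discModel_disjoint (hinj : Function.Injective c) (j j' : Fin d) (t t' : A)
    (ht : t ∈ maximalIdeal A) (ht' : t' ∈ maximalIdeal A)
    (h : (discModel N H φ hφ₁ hφ₂ hρ₁ hρ₂ c hc hgd hWG).P j t =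
      (discModel N H φ hφ₁ hφ₂ hρ₁ hρ₂ c hc hgd hWG).P j' t') : j = j' := by
  apply hinj
  have h1 := redTo_ptOf N H φ hφ₁ hφ₂ (c j) (hc j) t ht
  have h2 := redTo_ptOf N H φ hφ₁ hφ₂ (c j') (hc j') t' ht'
  rw [discModel_P, discModel_P] at h
  rw [h] at h1
  exact eq_of_redTo N (smoothPt_of_centreOK N φ hφ₁ hφ₂ (c j) (hc j))
    (smoothPt_of_centreOK N φ hφ₁ hφ₂ (c j') (hc j')) h1 h2

/-- all the points of the discs have degree one. -/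
theorem discModel_deg (j : Fin d) (t : A) :
    ((discModel N H φ hφ₁ hφ₂ hρ₁ hρ₂ c hc hgd hWG).P j t).deg = 1 := H.deg_eq_one _

end Model

end Fermat.Agent.T33.NodalDisc8B
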