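/-
Programme T (S33), nodal layer, chapter N-B (helper2), part C: **the nodal integral Riemann–Roch
lattice** — main theorem `exists_nodal_integral_basis` (contract (b1)) and the semicontinuity
`finrank_L_le_ell`.
-/
import Mathlib
import Fermat.Agent.T33.NodalLat2B

set_option autoImplicit false
set_option linter.unusedSectionVars false

open AlgebraicCurve IsLocalRing

namespace Fermat.Agent.T33.NodalLat2

open Fermat.Agent.T33.NodalCtx1 Fermat.Agent.T33.NodalCurve6 Fermat.Agent.T33.NodalAbs1A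
  Fermat.Agent.X0.FF Fermat.Agent.RR.LSpace Fermat.Agent.FF.RedLat2 Fermat.Agent.FF.ValFree1

variable {K : Type*} [Field K] {A : ValuationSubring K}
variable {F : Type*} [Field F] [Algebra K F]
variable {Fb₁ Fb₂ : Type*} [Field Fb₁] [Field Fb₂]
  [Algebra (ResidueField A) Fb₁] [Algebra (ResidueField A) Fb₂]
variable {ι : Type*} {Nd : NodalData (ResidueField A) Fb₁ Fb₂ ι} {N : NodalRed A F Nd}

set_option maxHeartbeats 1600000 in
/-- **the nodal integral Riemann–Roch lattice**: for `D` with smooth-reduction support,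
`L(D) ∩ O₁ ∩ O₂` has an `A`-basis which is a `K`-basis of `L(D)` and whose reductions are
`κ`-linearly independent sections of `L^nod(r_* D)`. -/
theorem exists_nodal_integral_basis (HL : LHyp K F) (HL₁ : LHyp (ResidueField A) Fb₁)
    (HL₂ : LHyp (ResidueField A) Fb₂) (hmany₁ : HasManySmooth₁ N) (hmany₂ : HasManySmooth₂ N)
    (D : Divisor K F) (hD : SmoothSupp N D) :
    ∃ (n : ℕ) (β : Fin n → F) (hO₁ : ∀ i, β i ∈ N.c₁.O) (hO₂ : ∀ i, β i ∈ N.c₂.O),
      n = Module.finrank K (riemannRochSpace D) ∧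
      (∀ i, β i ∈ riemannRochSpace D) ∧
      LinearIndependent K β ∧
      (∀ u ∈ riemannRochSpace D, u ∈ N.c₁.O → u ∈ N.c₂.O →
        ∃ c : Fin n → A, u = ∑ i, algebraMap K F (c i : K) * β i) ∧
      LinearIndependent (ResidueField A)
        (fun i => ((N.c₁.ρ ⟨β i, hO₁ i⟩, N.c₂.ρ ⟨β i, hO₂ i⟩) : Fb₁ × Fb₂)) ∧
      ∀ i, ((N.c₁.ρ ⟨β i, hO₁ i⟩, N.c₂.ρ ⟨β i, hO₂ i⟩) : Fb₁ × Fb₂) ∈ Nd.L (redDiv N D) := by
  classical
  -- the evaluation points on the two components
  set n₁ : ℕ := (Divisor.degree (pushOpt N.r₁ D)).toNat + 1 with hn₁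
  set n₂ : ℕ := (Divisor.degree (pushOpt N.r₂ D)).toNat + 1 with hn₂
  have hn₁deg : Divisor.degree (pushOpt N.r₁ D) < n₁ := by
    rw [hn₁]; push_cast
    have := Int.self_le_toNat (Divisor.degree (pushOpt N.r₁ D))
    omega
  have hn₂deg : Divisor.degree (pushOpt N.r₂ D) < n₂ := by
    rw [hn₂]; push_cast
    have := Int.self_le_toNat (Divisor.degree (pushOpt N.r₂ D))
    omega
  obtain ⟨T₁, hcard₁, hdisj₁, hlift₁⟩ := exists_points₁ hmany₁ (redSupp N.r₁ D) n₁
  obtain ⟨T₂, hcard₂, hdisj₂, hlift₂⟩ := exists_points₂ hmany₂ (redSupp N.r₂ D) n₂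
  have : Nonempty (Place K F) := HL.nonempty
  have hTs₁ : ∀ Q ∈ T₁, Nd.Smooth1 Q := fun Q hQ => (hlift₁ Q hQ).1
  have hTs₂ : ∀ Q ∈ T₂, Nd.Smooth2 Q := fun Q hQ => (hlift₂ Q hQ).1
  have hl₁ : ∀ Q ∈ T₁, ∃ P : Place K F, N.r₁ P = some Q := fun Q hQ => (hlift₁ Q hQ).2
  have hl₂ : ∀ Q ∈ T₂, ∃ P : Place K F, N.r₂ P = some Q := fun Q hQ => (hlift₂ Q hQ).2
  choose! lift₁ hlift₁' using hl₁
  choose! lift₂ hlift₂' using hl₂
  have hnot₁ : ∀ Q ∈ T₁, Q ∉ redSupp N.r₁ D := fun Q hQ => Finset.disjoint_left.1 hdisj₁ hQ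
  have hnot₂ : ∀ Q ∈ T₂, Q ∉ redSupp N.r₂ D := fun Q hQ => Finset.disjoint_left.1 hdisj₂ hQ
  -- the index type and the evaluation places
  let I : Type _ := T₁ ⊕ T₂
  let lift : I → Place K F := Sum.elim (fun Q => lift₁ Q) (fun Q => lift₂ Q)
  have hD0 : ∀ i : I, D (lift i) = 0 := by
    rintro (Q | Q)
    · exact apply_eq_zero_of_notMem_redSupp N.r₁ (hnot₁ Q Q.2) (hlift₁' Q Q.2)
    · exact apply_eq_zero_of_notMem_redSupp N.r₂ (hnot₂ Q Q.2) (hlift₂' Q Q.2)
  -- the evaluation map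
  set τ : riemannRochSpace D →ₗ[K] (I → K) :=
    LinearMap.pi fun i : I => evalL HL D (lift i) (hD0 i) with hτ
  have hτapp : ∀ (u : riemannRochSpace D) (i : I), τ u i = evalL HL D (lift i) (hD0 i) u :=
    fun u i => rfl
  -- key: integral sections all of whose values are in `𝔪_A` have zero reductions
  have key : ∀ (y : F) (h₁ : y ∈ N.c₁.O) (h₂ : y ∈ N.c₂.O) (hyL : y ∈ riemannRochSpace D),
      (∀ i : I, ∃ a : A, a ∈ maximalIdeal A ∧ τ ⟨y, hyL⟩ i = (a : K)) →
      N.c₁.ρ ⟨y, h₁⟩ = 0 ∧ N.c₂.ρ ⟨y, h₂⟩ = 0 := by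
    intro y h₁ h₂ hyL hall
    constructor
    · by_contra hy
      have h1 := card_le_degree_of_values₁ HL HL₁ hD h₁ h₂ hy hyL T₁ hdisj₁ hTs₁ lift₁ hlift₁'
        (fun Q hQ => by
          obtain ⟨a, hamax, ha⟩ := hall (Sum.inl ⟨Q, hQ⟩)
          refine ⟨a, hamax, ?_⟩
          have := evalL_spec HL D (lift (Sum.inl ⟨Q, hQ⟩)) (hD0 (Sum.inl ⟨Q, hQ⟩)) ⟨y, hyL⟩
          rw [hτapp] at ha
          rw [ha] at this
          exact this)
      rw [hcard₁] at h1
      omega
    · by_contra hy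
      have h1 := card_le_degree_of_values₂ HL HL₂ hD h₁ h₂ hy hyL T₂ hdisj₂ hTs₂ lift₂ hlift₂'
        (fun Q hQ => by
          obtain ⟨a, hamax, ha⟩ := hall (Sum.inr ⟨Q, hQ⟩)
          refine ⟨a, hamax, ?_⟩
          have := evalL_spec HL D (lift (Sum.inr ⟨Q, hQ⟩)) (hD0 (Sum.inr ⟨Q, hQ⟩)) ⟨y, hyL⟩
          rw [hτapp] at ha
          rw [ha] at this
          exact this)
      rw [hcard₂] at h1
      omega
  -- `τ` is injective
  have hinj : Function.Injective τ := by
    rw [← LinearMap.ker_eq_bot, LinearMap.ker_eq_bot']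
    intro u hu
    by_contra hu0
    have huF : (u : F) ≠ 0 := fun h => hu0 (Subtype.ext h)
    obtain ⟨b, hb0, hm₁, hm₂, hne⟩ := exists_scale N (u : F) huF
    have hyL : algebraMap K F b * (u : F) ∈ riemannRochSpace D := by
      rw [← Algebra.smul_def]
      exact (riemannRochSpace D).smul_mem b u.2
    have hk := key _ hm₁ hm₂ hyL fun i => ⟨0, Ideal.zero_mem _, by
      have h2 : (⟨algebraMap K F b * (u : F), hyL⟩ : riemannRochSpace D) = b • u := by
        apply Subtype.ext
        rw [Submodule.coe_smul, Algebra.smul_def]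
      show τ ⟨algebraMap K F b * (u : F), hyL⟩ i = ((0 : A) : K)
      rw [h2, map_smul, hu]
      simp⟩
    rcases hne with hne | hne
    · exact hne hk.1
    · exact hne hk.2
  -- integrality of the values of integral sections
  have hint1 : ∀ u : riemannRochSpace D, (u : F) ∈ N.c₁.O → (u : F) ∈ N.c₂.O →
      ∀ i : I, τ u i ∈ A := by
    intro u hu₁ hu₂ i
    have hnp : ∀ P' : Place K F, D P' = 0 → 0 ≤ P'.ord (u : F) := by
      intro P' h0
      rcases (mem_riemannRochSpace_iff.1 u.2) P' with h | h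
      · rw [h]; simp
      · rw [h0] at h
        simpa using h
    rcases i with Q | Q
    · exact value_mem_half N.c₁ N.r₁ Q HL
        (fun z hz => push₁' N HL z hz Q (hTs₁ Q Q.2)) ⟨(u : F), hu₁⟩ (lift (Sum.inl Q))
        (hlift₁' Q Q.2)
        (fun P' hP' => hnp P' (apply_eq_zero_of_notMem_redSupp N.r₁ (hnot₁ Q Q.2) hP'))
        (evalL_spec HL D (lift (Sum.inl Q)) (hD0 (Sum.inl Q)) u)
    · exact value_mem_half N.c₂ N.r₂ Q HL
        (fun z hz => push₂' N HL z hz Q (hTs₂ Q Q.2)) ⟨(u : F), hu₂⟩ (lift (Sum.inr Q))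
        (hlift₂' Q Q.2)
        (fun P' hP' => hnp P' (apply_eq_zero_of_notMem_redSupp N.r₂ (hnot₂ Q Q.2) hP'))
        (evalL_spec HL D (lift (Sum.inr Q)) (hD0 (Sum.inr Q)) u)
  -- sections with integral values are integral
  have hint2 : ∀ u : riemannRochSpace D, (∀ i : I, τ u i ∈ A) →
      (u : F) ∈ N.c₁.O ∧ (u : F) ∈ N.c₂.O := by
    intro u hu
    by_contra huO
    obtain ⟨c, hcmax, hm₁, hm₂, hne⟩ := exists_scale_of_not_mem N huO
    have hyL : algebraMap K F (c : K) * (u : F) ∈ riemannRochSpace D := by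
      rw [← Algebra.smul_def]
      exact (riemannRochSpace D).smul_mem (c : K) u.2
    have hk := key _ hm₁ hm₂ hyL fun i =>
      ⟨c * ⟨τ u i, hu i⟩, Ideal.mul_mem_right _ _ hcmax, by
        have h2 : (⟨algebraMap K F (c : K) * (u : F), hyL⟩ : riemannRochSpace D) =
            (c : K) • u := by
          apply Subtype.ext
          rw [Submodule.coe_smul, Algebra.smul_def]
        show τ ⟨algebraMap K F (c : K) * (u : F), hyL⟩ i = ((c * ⟨τ u i, hu i⟩ : A) : K)
        rw [h2, map_smul]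
        rfl⟩
    rcases hne with hne | hne
    · exact hne hk.1
    · exact hne hk.2
  -- the saturated lattice
  obtain ⟨n, b, hn, hli, hspan⟩ :=
    exists_basis_inf_intVectors (A := A) (K := K) (ι := I) (LinearMap.range τ)
  have hbmem : ∀ i, ((b i : satLattice (intVectors A K I) (LinearMap.range τ)) : I → K) ∈
      LinearMap.range τ := fun i => (mem_satLattice.1 (b i).2).1
  have hbint : ∀ i, ((b i : satLattice (intVectors A K I) (LinearMap.range τ)) : I → K) ∈
      intVectors A K I := fun i => (mem_satLattice.1 (b i).2).2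
  choose u hu using hbmem
  have huO : ∀ i, ((u i : riemannRochSpace D) : F) ∈ N.c₁.O ∧
      ((u i : riemannRochSpace D) : F) ∈ N.c₂.O := by
    intro i
    apply hint2
    intro Q
    rw [hu i]
    obtain ⟨a, ha⟩ := (mem_intVectors.1 (hbint i)) Q
    rw [← ha]
    exact a.2
  have huli : LinearIndependent K u := by
    apply LinearIndependent.of_comp τ
    have : (τ ∘ u) = fun i => ((b i : satLattice (intVectors A K I) (LinearMap.range τ)) : I → K) :=
      funext hu
    rw [this]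
    exact hli
  have hβli : LinearIndependent K (fun i => ((u i : riemannRochSpace D) : F)) :=
    huli.map' (riemannRochSpace D).subtype (Submodule.ker_subtype _)
  -- `A`-spanning
  have hAspan : ∀ w ∈ riemannRochSpace D, w ∈ N.c₁.O → w ∈ N.c₂.O →
      ∃ c : Fin n → A, w = ∑ i, algebraMap K F (c i : K) * ((u i : riemannRochSpace D) : F) := by
    intro w hwL hw₁ hw₂
    have hmem : τ ⟨w, hwL⟩ ∈ satLattice (intVectors A K I) (LinearMap.range τ) := by
      rw [mem_satLattice]
      refine ⟨⟨_, rfl⟩, mem_intVectors.2 fun Q => ?_⟩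
      exact ⟨⟨_, hint1 ⟨w, hwL⟩ hw₁ hw₂ Q⟩, rfl⟩
    set s : satLattice (intVectors A K I) (LinearMap.range τ) := ⟨_, hmem⟩ with hs
    refine ⟨fun i => b.repr s i, ?_⟩
    have h1 : s = ∑ i, b.repr s i • b i := (b.sum_repr s).symm
    have h2 : τ ⟨w, hwL⟩ = ∑ i, ((b.repr s i : A) : K) • τ (u i) := by
      have := congrArg (Subtype.val) h1
      rw [hs] at this
      simp only at this
      rw [this, Submodule.coe_sum]
      refine Finset.sum_congr rfl fun i _ => ?_
      rw [Submodule.coe_smul, hu i]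
      rfl
    have h3 : (⟨w, hwL⟩ : riemannRochSpace D) = ∑ i, ((b.repr s i : A) : K) • u i := by
      apply hinj
      rw [h2, map_sum]
      refine Finset.sum_congr rfl fun i _ => ?_
      rw [map_smul]
    have h4 := congrArg (Subtype.val) h3
    simp only at h4
    rw [h4, Submodule.coe_sum]
    refine Finset.sum_congr rfl fun i _ => ?_
    rw [Submodule.coe_smul, Algebra.smul_def]
  refine ⟨n, fun i => ((u i : riemannRochSpace D) : F), fun i => (huO i).1, fun i => (huO i).2,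
    ?_, fun i => (u i).2, hβli, hAspan, ?_, fun i => ρ_mem_nodalL HL hD _ _ (u i).2⟩
  · rw [hn, LinearMap.finrank_range_of_inj hinj]
  · -- `κ`-independence of the reductions
    rw [Fintype.linearIndependent_iff]
    intro g hg i₀
    have hlift_g : ∀ i, ∃ a : A, residue A a = g i := fun i => IsLocalRing.residue_surjective (g i)
    choose a ha using hlift_g
    have hg₁ : ∑ i, g i • N.c₁.ρ ⟨_, (huO i).1⟩ = 0 := by
      have := congrArg Prod.fst hg
      simpa [Prod.fst_sum, Prod.smul_fst] using this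
    have hg₂ : ∑ i, g i • N.c₂.ρ ⟨_, (huO i).2⟩ = 0 := by
      have := congrArg Prod.snd hg
      simpa [Prod.snd_sum, Prod.smul_snd] using this
    -- the integral combination `y`
    set y₁ : N.c₁.O := ∑ i, hconst N.c₁ (a i) * ⟨_, (huO i).1⟩ with hy₁
    set y₂ : N.c₂.O := ∑ i, hconst N.c₂ (a i) * ⟨_, (huO i).2⟩ with hy₂
    have hρy₁ : N.c₁.ρ y₁ = 0 := by
      rw [hy₁, map_sum, ← hg₁]
      refine Finset.sum_congr rfl fun i _ => ?_
      rw [map_mul, ρ_hconst, ha i, Algebra.smul_def]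
    have hρy₂ : N.c₂.ρ y₂ = 0 := by
      rw [hy₂, map_sum, ← hg₂]
      refine Finset.sum_congr rfl fun i _ => ?_
      rw [map_mul, ρ_hconst, ha i, Algebra.smul_def]
    have hy₁F : (y₁ : F) = ∑ i, algebraMap K F (a i : K) * ((u i : riemannRochSpace D) : F) := by
      rw [hy₁, AddSubmonoidClass.coe_finsetSum]
      rfl
    have hy₂F : (y₂ : F) = ∑ i, algebraMap K F (a i : K) * ((u i : riemannRochSpace D) : F) := by
      rw [hy₂, AddSubmonoidClass.coe_finsetSum]
      rfl
    have hy₁₂ : (y₁ : F) = (y₂ : F) := by rw [hy₁F, hy₂F]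
    have hyL : (y₁ : F) ∈ riemannRochSpace D := by
      rw [hy₁F]
      refine Submodule.sum_mem _ fun i _ => ?_
      rw [← Algebra.smul_def]
      exact (riemannRochSpace D).smul_mem _ (u i).2
    have hmem₂ : (y₁ : F) ∈ N.c₂.O := hy₁₂ ▸ y₂.2
    have hρ₂' : N.c₂.ρ ⟨(y₁ : F), hmem₂⟩ = 0 := by
      have : (⟨(y₁ : F), hmem₂⟩ : N.c₂.O) = y₂ := Subtype.ext hy₁₂
      rw [this, hρy₂]
    obtain ⟨c, hcmax, y', hy'₁, hy'₂, hy'⟩ :=
      exists_eq_mul_of_ρ_eq_zero N y₁.2 hmem₂ hρy₁ hρ₂'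
    rw [← ha i₀, IsLocalRing.residue_eq_zero_iff]
    by_cases hc0 : (c : K) = 0
    · -- then `y = 0`
      rw [hc0, map_zero, zero_mul, hy₁F] at hy'
      have h5 : ∑ i, (a i : K) • ((u i : riemannRochSpace D) : F) = 0 := by
        rw [← hy']
        refine Finset.sum_congr rfl fun i _ => ?_
        rw [Algebra.smul_def]
      have h6 := (Fintype.linearIndependent_iff.1 hβli) (fun i => (a i : K)) h5 i₀
      have : a i₀ = 0 := Subtype.ext h6
      rw [this]
      exact Ideal.zero_mem _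
    · -- `y' = c⁻¹ y ∈ L(D) ∩ O₁ ∩ O₂`
      have hy'F : y' = algebraMap K F (c : K)⁻¹ * (y₁ : F) := by
        rw [hy', ← mul_assoc, ← map_mul, inv_mul_cancel₀ hc0, map_one, one_mul]
      have hy'L : y' ∈ riemannRochSpace D := by
        rw [hy'F, ← Algebra.smul_def]
        exact (riemannRochSpace D).smul_mem _ hyL
      obtain ⟨c', hc'⟩ := hAspan y' hy'L hy'₁ hy'₂
      have h5 : ∑ i, ((a i : K) - (c : K) * (c' i : K)) • ((u i : riemannRochSpace D) : F) = 0 := by
        have : ∀ i, ((a i : K) - (c : K) * (c' i : K)) • ((u i : riemannRochSpace D) : F) =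
            algebraMap K F (a i : K) * ((u i : riemannRochSpace D) : F) -
              algebraMap K F (c : K) *
                (algebraMap K F (c' i : K) * ((u i : riemannRochSpace D) : F)) := by
          intro i
          rw [Algebra.smul_def, map_sub, map_mul]
          ring
        simp only [this]
        rw [Finset.sum_sub_distrib, ← Finset.mul_sum, ← hc', ← hy₁F, hy', sub_self]
      have h6 := (Fintype.linearIndependent_iff.1 hβli) _ h5 i₀
      have h7 : a i₀ = c * c' i₀ := by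
        apply Subtype.ext
        rw [sub_eq_zero] at h6
        exact h6
      rw [h7]
      exact Ideal.mul_mem_right _ _ hcmax

end Fermat.Agent.T33.NodalLat2
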