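/-
Programme T (S33), nodal layer, chapter N-B (helper2), part D: **consequences of the nodal
integral lattice.**

* `degree_redDiv` : `deg (r_* D) = deg D` for `D` with smooth-reduction support;
* `exists_nodal_integral_basis'` : the basis of `NodalLat2C` also spans `L(D)`;
* `finrank_L_le_ell` : SEMICONTINUITY `l(D) ≤ l^nod(r_* D)` (contract (b1));
* `semicontBound` : Riemann's inequality on the generic fibre (constant `g`) gives helper6's
  `NodalRR6.SemicontBound Nd g` (an instance of the nodal Riemann inequality with the GENERIC genus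
  in arbitrarily large bidegree), the input of `NodalRR6.ga_eq` (`p_a = g`).
-/
import Mathlib
import Fermat.Agent.T33.NodalLat2C
import Fermat.Agent.T33.NodalRR6D

set_option autoImplicit false
set_option linter.unusedSectionVars false

open AlgebraicCurve IsLocalRing

namespace Fermat.Agent.T33.NodalLat2

open Fermat.Agent.T33.NodalCtx1 Fermat.Agent.T33.NodalCurve6 Fermat.Agent.T33.NodalAbs1A
  Fermat.Agent.X0.FF Fermat.Agent.RR.LSpace Fermat.Agent.FF.RedLat2

variable {K : Type*} [Field K] {A : ValuationSubring K}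
variable {F : Type*} [Field F] [Algebra K F]
variable {Fb₁ Fb₂ : Type*} [Field Fb₁] [Field Fb₂]
  [Algebra (ResidueField A) Fb₁] [Algebra (ResidueField A) Fb₂]
variable {ι : Type*} {Nd : NodalData (ResidueField A) Fb₁ Fb₂ ι} {N : NodalRed A F Nd}

/-- a place with smooth reduction reduces to exactly one component. -/
theorem r_of_isSmoothRed {P : Place K F} (hP : N.IsSmoothRed P) :
    (∃ Q, N.r₁ P = some Q ∧ N.r₂ P = none) ∨ (∃ Q, N.r₂ P = some Q ∧ N.r₁ P = none) := by
  rcases hP with ⟨Q, hQ, hs⟩ | ⟨Q, hQ, hs⟩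
  · exact Or.inl ⟨Q, hQ, N.smooth₁ P Q hQ hs⟩
  · exact Or.inr ⟨Q, hQ, N.smooth₂ P Q hQ hs⟩

/-- **the reduction preserves the degree** (smooth support; all places have degree one). -/
theorem degree_redDiv (HL : LHyp K F) (HL₁ : LHyp (ResidueField A) Fb₁)
    (HL₂ : LHyp (ResidueField A) Fb₂) (D : Divisor K F) (hD : SmoothSupp N D) :
    NDiv.degree (redDiv N D) = Divisor.degree D := by
  classical
  unfold NDiv.degree redDiv
  simp only
  induction D using Finsupp.induction with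
  | zero => simp
  | single_add P n D hP hn ih =>
    have hDs : SmoothSupp N D := by
      intro Q hQ
      apply hD Q
      have hQP : Q ≠ P := by
        rintro rfl
        exact hQ (Finsupp.notMem_support_iff.1 hP)
      rw [Finsupp.add_apply, Finsupp.single_apply, if_neg hQP.symm, zero_add]
      exact hQ
    have hPs : N.IsSmoothRed P := by
      apply hD P
      rw [Finsupp.add_apply, Finsupp.single_apply, if_pos rfl, Finsupp.notMem_support_iff.1 hP,
        add_zero]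
      exact hn
    rw [pushOpt_add, pushOpt_add, map_add, map_add, map_add, ← ih hDs, degree_single HL]
    rcases r_of_isSmoothRed hPs with ⟨Q, h1, h2⟩ | ⟨Q, h2, h1⟩
    · rw [pushOpt_single_some _ h1, pushOpt_single_none _ h2, degree_single HL₁, map_zero]
      ring
    · rw [pushOpt_single_some _ h2, pushOpt_single_none _ h1, degree_single HL₂, map_zero]
      ring

/-- the nodal integral basis also spans `L(D)`. -/
theorem exists_nodal_integral_basis' (HL : LHyp K F) (HL₁ : LHyp (ResidueField A) Fb₁)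
    (HL₂ : LHyp (ResidueField A) Fb₂) (hmany₁ : HasManySmooth₁ N) (hmany₂ : HasManySmooth₂ N)
    (D : Divisor K F) (hD : SmoothSupp N D) :
    ∃ (n : ℕ) (β : Fin n → F) (hO₁ : ∀ i, β i ∈ N.c₁.O) (hO₂ : ∀ i, β i ∈ N.c₂.O),
      n = Module.finrank K (riemannRochSpace D) ∧
      (∀ i, β i ∈ riemannRochSpace D) ∧
      LinearIndependent K β ∧
      Submodule.span K (Set.range β) = riemannRochSpace D ∧
      (∀ u ∈ riemannRochSpace D, u ∈ N.c₁.O → u ∈ N.c₂.O →
        ∃ c : Fin n → A, u = ∑ i, algebraMap K F (c i : K) * β i) ∧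
      LinearIndependent (ResidueField A)
        (fun i => ((N.c₁.ρ ⟨β i, hO₁ i⟩, N.c₂.ρ ⟨β i, hO₂ i⟩) : Fb₁ × Fb₂)) ∧
      ∀ i, ((N.c₁.ρ ⟨β i, hO₁ i⟩, N.c₂.ρ ⟨β i, hO₂ i⟩) : Fb₁ × Fb₂) ∈ Nd.L (redDiv N D) := by
  obtain ⟨n, β, hO₁, hO₂, hn, hL, hli, hA, hκ, hmem⟩ :=
    exists_nodal_integral_basis HL HL₁ HL₂ hmany₁ hmany₂ D hD
  have := finiteDimensional_L HL D
  refine ⟨n, β, hO₁, hO₂, hn, hL, hli, ?_, hA, hκ, hmem⟩
  have hle : Submodule.span K (Set.range β) ≤ riemannRochSpace D :=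
    Submodule.span_le.2 (by rintro _ ⟨i, rfl⟩; exact hL i)
  apply Submodule.eq_of_le_of_finrank_eq hle
  rw [finrank_span_eq_card hli, Fintype.card_fin, hn]

/-- **semicontinuity**: `l(D) ≤ l^nod(r_* D)`. -/
theorem finrank_L_le_ell (HL : LHyp K F) (HL₁ : LHyp (ResidueField A) Fb₁)
    (HL₂ : LHyp (ResidueField A) Fb₂) (hmany₁ : HasManySmooth₁ N) (hmany₂ : HasManySmooth₂ N)
    (D : Divisor K F) (hD : SmoothSupp N D) :
    (Module.finrank K (riemannRochSpace D) : ℤ) ≤ Nd.ell (redDiv N D) := by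
  obtain ⟨n, β, hO₁, hO₂, hn, -, -, -, hκ, hmem⟩ :=
    exists_nodal_integral_basis HL HL₁ HL₂ hmany₁ hmany₂ D hD
  have := Fermat.Agent.T33.NodalRR6.finiteDimensional_L Nd HL₁ HL₂ (redDiv N D)
  have hκ' : LinearIndependent (ResidueField A)
      (fun i => (⟨_, hmem i⟩ : Nd.L (redDiv N D))) := by
    apply LinearIndependent.of_comp (Nd.L (redDiv N D)).subtype
    exact hκ
  have h := hκ'.fintype_card_le_finrank
  rw [Fintype.card_fin] at h
  unfold NodalData.ell
  rw [← hn]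
  exact_mod_cast h

/-- the push-forward as an additive map. -/
noncomputable def pushOptHom {α β : Type*} (r : α → Option β) : (α →₀ ℤ) →+ (β →₀ ℤ) :=
  AddMonoidHom.mk' (pushOpt r) (pushOpt_add r)

@[simp] theorem pushOptHom_apply {α β : Type*} (r : α → Option β) (D : α →₀ ℤ) :
    pushOptHom r D = pushOpt r D := rfl

theorem pushOpt_sum {α β γ : Type*} (r : α → Option β) (s : Finset γ) (f : γ → (α →₀ ℤ)) :
    pushOpt r (∑ i ∈ s, f i) = ∑ i ∈ s, pushOpt r (f i) :=
  map_sum (pushOptHom r) f s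

/-- **helper6's `SemicontBound`** from Riemann's inequality on the generic fibre. -/
theorem semicontBound (HL : LHyp K F) (HL₁ : LHyp (ResidueField A) Fb₁)
    (HL₂ : LHyp (ResidueField A) Fb₂) (hmany₁ : HasManySmooth₁ N) (hmany₂ : HasManySmooth₂ N)
    (g : ℤ) (hR : ∀ D : Divisor K F,
      Divisor.degree D + 1 - g ≤ (Module.finrank K (riemannRochSpace D) : ℤ)) :
    Fermat.Agent.T33.NodalRR6.SemicontBound Nd g := by
  classical
  intro c
  obtain ⟨T₁, hcard₁, -, hlift₁⟩ := exists_points₁ hmany₁ ∅ c.toNat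
  obtain ⟨T₂, hcard₂, -, hlift₂⟩ := exists_points₂ hmany₂ ∅ c.toNat
  have : Nonempty (Place K F) := HL.nonempty
  have hl₁ : ∀ Q ∈ T₁, ∃ P : Place K F, N.r₁ P = some Q := fun Q hQ => (hlift₁ Q hQ).2
  have hl₂ : ∀ Q ∈ T₂, ∃ P : Place K F, N.r₂ P = some Q := fun Q hQ => (hlift₂ Q hQ).2
  choose! lift₁ hlift₁' using hl₁
  choose! lift₂ hlift₂' using hl₂
  set D : Divisor K F := ∑ Q ∈ T₁, Finsupp.single (lift₁ Q) (1 : ℤ) +
    ∑ Q ∈ T₂, Finsupp.single (lift₂ Q) (1 : ℤ) with hDdef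
  -- smooth support
  have hD : SmoothSupp N D := by
    intro P hP
    by_contra hns
    apply hP
    rw [hDdef, Finsupp.add_apply, Finsupp.finsetSum_apply, Finsupp.finsetSum_apply,
      Finset.sum_eq_zero, Finset.sum_eq_zero, add_zero]
    · intro Q hQ
      rw [Finsupp.single_apply, if_neg]
      rintro rfl
      exact hns (Or.inr ⟨Q, hlift₂' Q hQ, (hlift₂ Q hQ).1⟩)
    · intro Q hQ
      rw [Finsupp.single_apply, if_neg]
      rintro rfl
      exact hns (Or.inl ⟨Q, hlift₁' Q hQ, (hlift₁ Q hQ).1⟩)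
  -- the two push-forwards
  have hp₁ : pushOpt N.r₁ D = ∑ Q ∈ T₁, Finsupp.single Q (1 : ℤ) := by
    rw [hDdef, pushOpt_add, pushOpt_sum, pushOpt_sum]
    rw [Finset.sum_congr rfl fun Q hQ => pushOpt_single_some _ (hlift₁' Q hQ) 1,
      Finset.sum_eq_zero (s := T₂), add_zero]
    intro Q hQ
    exact pushOpt_single_none _ (N.smooth₂ _ Q (hlift₂' Q hQ) (hlift₂ Q hQ).1) 1
  have hp₂ : pushOpt N.r₂ D = ∑ Q ∈ T₂, Finsupp.single Q (1 : ℤ) := by
    rw [hDdef, pushOpt_add, pushOpt_sum, pushOpt_sum]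
    rw [Finset.sum_congr rfl fun Q hQ => pushOpt_single_some _ (hlift₂' Q hQ) 1,
      Finset.sum_eq_zero (s := T₁), zero_add]
    intro Q hQ
    exact pushOpt_single_none _ (N.smooth₁ _ Q (hlift₁' Q hQ) (hlift₁ Q hQ).1) 1
  have hd₁ : Divisor.degree (pushOpt N.r₁ D) = (c.toNat : ℤ) := by
    rw [hp₁, map_sum, Finset.sum_congr rfl fun Q _ => degree_single HL₁ Q 1]
    simp [hcard₁]
  have hd₂ : Divisor.degree (pushOpt N.r₂ D) = (c.toNat : ℤ) := by
    rw [hp₂, map_sum, Finset.sum_congr rfl fun Q _ => degree_single HL₂ Q 1]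
    simp [hcard₂]
  refine ⟨redDiv N D, redDiv_avoids hD, ?_, ?_, ?_⟩
  · show c ≤ Divisor.degree (pushOpt N.r₁ D)
    rw [hd₁]; exact Int.self_le_toNat c
  · show c ≤ Divisor.degree (pushOpt N.r₂ D)
    rw [hd₂]; exact Int.self_le_toNat c
  · rw [degree_redDiv HL HL₁ HL₂ D hD]
    exact le_trans (hR D) (finrank_L_le_ell HL HL₁ HL₂ hmany₁ hmany₂ D hD)

end Fermat.Agent.T33.NodalLat2
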