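/-
Programme T (S33), nodal layer, chapter N-B (helper2), part E: **contract (b1) in the architect's
vocabulary** (`NodalIface8`).

* `pushOpt_eq_some_mapDomain` : `pushOpt r D = (Finsupp.mapDomain r D).some`;
* `redDiv_eq_pushDiv` : `NodalLat2.redDiv N D = NodalIface8.pushDiv N D`;
* `semicont` : `NodalIface8.Semicont N` (`l(D) ≤ l^nod(r_* D)` for `D` with smooth-reduction
  support), under `LHyp` on the three function fields and "many smooth places on each component";
* `degree_pushDiv` : `deg (r_* D) = deg D`;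
* `exists_nodal_integral_basis_pushDiv` : the nodal integral basis, stated with `pushDiv`.
-/
import Mathlib
import Fermat.Agent.T33.NodalLat2D
import Fermat.Agent.T33.NodalIface8

set_option autoImplicit false
set_option linter.unusedSectionVars false

open AlgebraicCurve IsLocalRing

namespace Fermat.Agent.T33.NodalLat2

open Fermat.Agent.T33.NodalCtx1 Fermat.Agent.T33.NodalCurve6 Fermat.Agent.T33.NodalAbs1A
  Fermat.Agent.X0.FF Fermat.Agent.RR.LSpace Fermat.Agent.FF.RedLat2

theorem pushOpt_eq_some_mapDomain {α β : Type*} (r : α → Option β) (D : α →₀ ℤ) :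
    pushOpt r D = (Finsupp.mapDomain r D).some := by
  classical
  induction D using Finsupp.induction with
  | zero => simp
  | single_add P n D _ _ ih =>
    rw [pushOpt_add, Finsupp.mapDomain_add, Finsupp.some_add, ← ih, Finsupp.mapDomain_single]
    congr 1
    cases h : r P with
    | none => rw [pushOpt_single_none r h, Finsupp.some_single_none]
    | some Q => rw [pushOpt_single_some r h, Finsupp.some_single_some]

variable {K : Type*} [Field K] {A : ValuationSubring K}
variable {F : Type*} [Field F] [Algebra K F]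
variable {Fb₁ Fb₂ : Type*} [Field Fb₁] [Field Fb₂]
  [Algebra (ResidueField A) Fb₁] [Algebra (ResidueField A) Fb₂]
variable {ι : Type*} {Nd : NodalData (ResidueField A) Fb₁ Fb₂ ι} {N : NodalRed A F Nd}

theorem redDiv_eq_pushDiv (D : Divisor K F) :
    redDiv N D = Fermat.Agent.T33.NodalIface8.pushDiv N D := by
  unfold redDiv Fermat.Agent.T33.NodalIface8.pushDiv Fermat.Agent.T33.NodalIface8.push₁
    Fermat.Agent.T33.NodalIface8.push₂
  rw [pushOpt_eq_some_mapDomain, pushOpt_eq_some_mapDomain]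

theorem smoothSupp_iff (D : Divisor K F) :
    SmoothSupp N D ↔ Fermat.Agent.T33.NodalIface8.SmoothSupp N D := Iff.rfl

/-- **contract (b1)**: semicontinuity `l(D) ≤ l^nod(r_* D)`. -/
theorem semicont (HL : LHyp K F) (HL₁ : LHyp (ResidueField A) Fb₁)
    (HL₂ : LHyp (ResidueField A) Fb₂) (hmany₁ : HasManySmooth₁ N) (hmany₂ : HasManySmooth₂ N) :
    Fermat.Agent.T33.NodalIface8.Semicont N := by
  intro D hD
  rw [← redDiv_eq_pushDiv]
  exact finrank_L_le_ell HL HL₁ HL₂ hmany₁ hmany₂ D hD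

/-- `deg (r_* D) = deg D`. -/
theorem degree_pushDiv (HL : LHyp K F) (HL₁ : LHyp (ResidueField A) Fb₁)
    (HL₂ : LHyp (ResidueField A) Fb₂) (D : Divisor K F)
    (hD : Fermat.Agent.T33.NodalIface8.SmoothSupp N D) :
    NDiv.degree (Fermat.Agent.T33.NodalIface8.pushDiv N D) = Divisor.degree D := by
  rw [← redDiv_eq_pushDiv]
  exact degree_redDiv HL HL₁ HL₂ D hD

/-- `r_* D` avoids the nodes. -/
theorem pushDiv_avoids {D : Divisor K F} (hD : Fermat.Agent.T33.NodalIface8.SmoothSupp N D) :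
    Nd.Avoids (Fermat.Agent.T33.NodalIface8.pushDiv N D) := by
  rw [← redDiv_eq_pushDiv]
  exact redDiv_avoids hD

/-- the nodal integral basis, in the architect's vocabulary. -/
theorem exists_nodal_integral_basis_pushDiv (HL : LHyp K F) (HL₁ : LHyp (ResidueField A) Fb₁)
    (HL₂ : LHyp (ResidueField A) Fb₂) (hmany₁ : HasManySmooth₁ N) (hmany₂ : HasManySmooth₂ N)
    (D : Divisor K F) (hD : Fermat.Agent.T33.NodalIface8.SmoothSupp N D) :
    ∃ (n : ℕ) (β : Fin n → F) (hO₁ : ∀ i, β i ∈ N.c₁.O) (hO₂ : ∀ i, β i ∈ N.c₂.O),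
      n = Module.finrank K (riemannRochSpace D) ∧
      (∀ i, β i ∈ riemannRochSpace D) ∧
      LinearIndependent K β ∧
      Submodule.span K (Set.range β) = riemannRochSpace D ∧
      (∀ u ∈ riemannRochSpace D, u ∈ N.c₁.O → u ∈ N.c₂.O →
        ∃ c : Fin n → A, u = ∑ i, algebraMap K F (c i : K) * β i) ∧
      LinearIndependent (ResidueField A)
        (fun i => ((N.c₁.ρ ⟨β i, hO₁ i⟩, N.c₂.ρ ⟨β i, hO₂ i⟩) : Fb₁ × Fb₂)) ∧
      ∀ i, ((N.c₁.ρ ⟨β i, hO₁ i⟩, N.c₂.ρ ⟨β i, hO₂ i⟩) : Fb₁ × Fb₂) ∈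
        Nd.L (Fermat.Agent.T33.NodalIface8.pushDiv N D) := by
  rw [← redDiv_eq_pushDiv]
  exact exists_nodal_integral_basis' HL HL₁ HL₂ hmany₁ hmany₂ D hD

end Fermat.Agent.T33.NodalLat2
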