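/-
Programme T (S33), nodal layer, chapter N-B (helper2), part (b2)-A: **preparations for the nodal
`CoreData`** (port of `FF/CoreLat2A–C` to helper8's nodal disc model `NodalDisc8B.discModel`).

* the zeros of `φ` are the centres `P j 0` of the discs, simple; `deg (g (φ)_0 + g (φ)_∞) = 2 g d`;
* `g (φ)_0 + g (φ)_∞` has smooth-reduction support (zeros: over the centres; poles: hypothesis);
* functions of `L(g (φ)_0 + g (φ)_∞) ∩ O₁ ∩ O₂`, multiplied by `φ ^ g`, lie in the disc rings;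
* `mem_L_centreDiv` : a function `y ∈ O₁ ∩ O₂` with poles bounded by `2 g (φ)_0` whose reductions
  vanish to the orders dictated by the closed-fibre conditions has `(ρ₁ y, ρ₂ y) ∈ L^nod(Ē)`.
-/
import Mathlib
import Fermat.Agent.T33.NodalLat2E
import Fermat.Agent.T33.NodalDisc8B
import Fermat.Agent.T33.NodalMeaning8
import Fermat.Agent.T33.NodalAbs1C
import Fermat.Agent.FF.CoreLat2B

set_option autoImplicit false
set_option linter.unusedSectionVars false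
set_option linter.unusedVariables false

open AlgebraicCurve IsLocalRing PowerSeries

namespace Fermat.Agent.T33.NodalCore2

open Fermat.Agent.X0.FF Fermat.Agent.RR.LSpace Fermat.Agent.FF.GeomIface8
  Fermat.Agent.FF.CoreIface8 Fermat.Agent.FF.SpecRR1
  Fermat.Agent.T33.NodalCtx1 Fermat.Agent.T33.NodalCurve6 Fermat.Agent.T33.NodalIface8
  Fermat.Agent.T33.NodalDisc8B Fermat.Agent.T33.NodalLat2

variable {K : Type*} [Field K] {A : ValuationSubring K} {F : Type*} [Field F] [Algebra K F]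
variable {Fb₁ Fb₂ : Type*} [Field Fb₁] [Field Fb₂]
  [Algebra (ResidueField A) Fb₁] [Algebra (ResidueField A) Fb₂]
variable {ι : Type*} {Nd : NodalData (ResidueField A) Fb₁ Fb₂ ι} (N : NodalRed A F Nd)
variable (H : LHyp K F)
variable (φ : F) (hφ₁ : φ ∈ N.c₁.O) (hφ₂ : φ ∈ N.c₂.O)
variable (hρ₁ : N.c₁.ρ ⟨φ, hφ₁⟩ ≠ 0) (hρ₂ : N.c₂.ρ ⟨φ, hφ₂⟩ ≠ 0)
variable {d : ℕ} (c : Fin d → NPt N) (hc : ∀ j, CentreOK N φ hφ₁ hφ₂ (c j))

/-! ### the zeros of `φ` -/

section Zeros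

include hρ₁ in
theorem φ_ne_zero : φ ≠ 0 := by
  intro h0
  apply hρ₁
  have : (⟨φ, hφ₁⟩ : N.c₁.O) = 0 := Subtype.ext h0
  rw [this, map_zero]

open Classical in
theorem ord_φ_ptOf (j : Fin d) (t : A) (ht : t ∈ maximalIdeal A) :
    (ptOf N H φ hφ₁ hφ₂ (c j) (hc j) t).ord φ = if t = 0 then 1 else 0 := by
  split_ifs with h
  · subst h
    have := ord_ptOf_self N H φ hφ₁ hφ₂ (c j) (hc j) 0 (Ideal.zero_mem _)
    simpa using this
  · have := ord_ptOf_of_ne N H φ hφ₁ hφ₂ (c j) (hc j) t 0 ht (Ideal.zero_mem _) h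
    simpa using this

open Classical in
/-- the centres of the discs. -/
noncomputable def zeros : Finset (Place K F) :=
  Finset.image (fun j => ptOf N H φ hφ₁ hφ₂ (c j) (hc j) 0) Finset.univ

theorem ptOf_injective (hinj : Function.Injective c) (j j' : Fin d) (t t' : A)
    (ht : t ∈ maximalIdeal A) (ht' : t' ∈ maximalIdeal A)
    (h : ptOf N H φ hφ₁ hφ₂ (c j) (hc j) t = ptOf N H φ hφ₁ hφ₂ (c j') (hc j') t') : j = j' := by
  apply hinj
  have h1 := redTo_ptOf N H φ hφ₁ hφ₂ (c j) (hc j) t ht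
  have h2 := redTo_ptOf N H φ hφ₁ hφ₂ (c j') (hc j') t' ht'
  rw [h] at h1
  exact eq_of_redTo N (smoothPt_of_centreOK N φ hφ₁ hφ₂ (c j) (hc j))
    (smoothPt_of_centreOK N φ hφ₁ hφ₂ (c j') (hc j')) h1 h2

theorem card_zeros (hinj : Function.Injective c) : (zeros N H φ hφ₁ hφ₂ c hc).card = d := by
  classical
  unfold zeros
  rw [Finset.card_image_of_injective, Finset.card_univ, Fintype.card_fin]
  intro j j' h
  exact ptOf_injective N H φ hφ₁ hφ₂ c hc hinj j j' 0 0 (Ideal.zero_mem _) (Ideal.zero_mem _) h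

variable (hzero : ∀ P : Place K F, 0 < P.ord φ → ∃ j, RedTo N P (c j))

include hzero in
theorem pos_iff_mem_zeros (P : Place K F) :
    0 < P.ord φ ↔ P ∈ zeros N H φ hφ₁ hφ₂ c hc := by
  classical
  unfold zeros
  rw [Finset.mem_image]
  constructor
  · intro hP
    obtain ⟨j, hj⟩ := hzero P hP
    obtain ⟨t, ht, rfl⟩ := exists_eq_ptOf N H φ hφ₁ hφ₂ (c j) (hc j) P hj
    refine ⟨j, Finset.mem_univ _, ?_⟩
    rw [ord_φ_ptOf N H φ hφ₁ hφ₂ c hc j t ht] at hP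
    split_ifs at hP with h
    · rw [h]
    · exact absurd hP (lt_irrefl _)
  · rintro ⟨j, -, rfl⟩
    rw [ord_φ_ptOf N H φ hφ₁ hφ₂ c hc j 0 (Ideal.zero_mem _), if_pos rfl]
    exact zero_lt_one

theorem ord_eq_one_of_mem_zeros (P : Place K F) (hP : P ∈ zeros N H φ hφ₁ hφ₂ c hc) :
    P.ord φ = 1 := by
  classical
  unfold zeros at hP
  rw [Finset.mem_image] at hP
  obtain ⟨j, -, rfl⟩ := hP
  rw [ord_φ_ptOf N H φ hφ₁ hφ₂ c hc j 0 (Ideal.zero_mem _), if_pos rfl]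

include hzero H hφ₁ hφ₂ hc in
/-- `deg (g (φ)_0 + g (φ)_∞) = 2 g d`. -/
theorem degree_DD (hinj : Function.Injective c) (hφ0 : φ ≠ 0) (g : ℕ) (DD : Divisor K F)
    (hDD : ∀ Q, DD Q = g * |Q.ord φ|) : Divisor.degree DD = 2 * g * d := by
  rw [Fermat.Agent.FF.CoreLat2.degree_absDiv H hφ0 g (zeros N H φ hφ₁ hφ₂ c hc)
    (pos_iff_mem_zeros N H φ hφ₁ hφ₂ c hc hzero) (ord_eq_one_of_mem_zeros N H φ hφ₁ hφ₂ c hc)
    DD hDD, card_zeros N H φ hφ₁ hφ₂ c hc hinj]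

include hzero hφ₁ hφ₂ hc in
/-- a zero of `φ` has smooth reduction. -/
theorem isSmoothRed_of_pos {P : Place K F} (hP : 0 < P.ord φ) : N.IsSmoothRed P := by
  obtain ⟨j, hj⟩ := hzero P hP
  exact Fermat.Agent.T33.NodalAbs1C.isSmoothRed_of_redTo N hj
    (smoothPt_of_centreOK N φ hφ₁ hφ₂ (c j) (hc j))

variable (hpole : ∀ P : Place K F, P.ord φ < 0 → N.IsSmoothRed P)

include hzero hpole hφ₁ hφ₂ hc in
/-- `g (φ)_0 + g (φ)_∞` has smooth-reduction support. -/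
theorem smoothSupp_DD (g : ℕ) (DD : Divisor K F) (hDD : ∀ Q, DD Q = g * |Q.ord φ|) :
    Fermat.Agent.T33.NodalLat2.SmoothSupp N DD := by
  intro P hP
  rw [hDD] at hP
  have h0 : P.ord φ ≠ 0 := by
    intro h0
    apply hP
    rw [h0, abs_zero, mul_zero]
  rcases lt_or_gt_of_ne h0 with h | h
  · exact hpole P h
  · exact isSmoothRed_of_pos N φ hφ₁ hφ₂ c hc hzero h

include hzero hφ₁ hφ₂ hc in
/-- `2 g (φ)_0` has smooth-reduction support. -/
theorem smoothSupp_zeroDiv (g : ℕ) (D' : Divisor K F)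
    (hD' : ∀ Q, D' Q = g * |Q.ord φ| + g * Q.ord φ) :
    Fermat.Agent.T33.NodalLat2.SmoothSupp N D' := by
  intro P hP
  rw [hD'] at hP
  apply isSmoothRed_of_pos N φ hφ₁ hφ₂ c hc hzero
  by_contra hle
  rw [not_lt] at hle
  apply hP
  rw [abs_of_nonpos hle]
  ring

end Zeros

/-! ### the disc rings -/

section DiscRing

variable {g : ℕ} (hgd : g ≤ d) (hWG : N.WeakGauss)

/-- a function of `O₁ ∩ O₂` with poles bounded by `g (φ)_0 + g (φ)_∞`, multiplied by `φ ^ g`, has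
no pole on the discs. -/
theorem pow_mul_mem_disc (j : Fin d) {w : F} (hwO : w ∈ N.O)
    (hw : ∀ Q : Place K F, w = 0 ∨ -((g : ℤ) * |Q.ord φ|) ≤ Q.ord w) :
    φ ^ g * w ∈ discRing A (discModel N H φ hφ₁ hφ₂ hρ₁ hρ₂ c hc hgd hWG).O
      ((discModel N H φ hφ₁ hφ₂ hρ₁ hρ₂ c hc hgd hWG).P j) := by
  classical
  rw [mem_discRing_iff]
  refine ⟨N.O.mul_mem (N.O.pow_mem ⟨hφ₁, hφ₂⟩ g) hwO, fun t ht => ?_⟩
  by_cases hw0 : w = 0
  · rw [hw0, mul_zero, Place.ord_zero]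
  have hφ0 : φ ≠ 0 := φ_ne_zero N φ hφ₁ hρ₁
  rw [Place.ord_mul _ (pow_ne_zero g hφ0) hw0, ord_pow]
  have h1 := (hw (ptOf N H φ hφ₁ hφ₂ (c j) (hc j) t)).resolve_left hw0
  have h2 : 0 ≤ (ptOf N H φ hφ₁ hφ₂ (c j) (hc j) t).ord φ := by
    rw [ord_φ_ptOf N H φ hφ₁ hφ₂ c hc j t ht]
    split_ifs <;> norm_num
  rw [abs_of_nonneg h2] at h1
  show 0 ≤ (g : ℤ) * (ptOf N H φ hφ₁ hφ₂ (c j) (hc j) t).ord φ +
    (ptOf N H φ hφ₁ hφ₂ (c j) (hc j) t).ord w
  linarith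

end DiscRing

/-! ### the divisor `Ē` -/

section Centre

variable {g : ℕ} (hgd : g ≤ d)

theorem one_le_centreSum (j : Fin g) :
    1 ≤ Fermat.Agent.T33.NodalAbs1C.centreSum N hgd c (some (c (Fin.castLE hgd j))) := by
  classical
  unfold Fermat.Agent.T33.NodalAbs1C.centreSum
  rw [Finsupp.finsetSum_apply]
  have h1 : (Finsupp.single (some (c (Fin.castLE hgd j))) (1 : ℤ)) (some (c (Fin.castLE hgd j))) ≤
      ∑ j' : Fin g, (Finsupp.single (some (c (Fin.castLE hgd j'))) (1 : ℤ))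
        (some (c (Fin.castLE hgd j))) :=
    Finset.single_le_sum (f := fun j' : Fin g =>
      (Finsupp.single (some (c (Fin.castLE hgd j'))) (1 : ℤ)) (some (c (Fin.castLE hgd j))))
      (fun j' _ => by
        show (0 : ℤ) ≤ (Finsupp.single (some (c (Fin.castLE hgd j'))) (1 : ℤ))
          (some (c (Fin.castLE hgd j)))
        rw [Finsupp.single_apply]
        split_ifs <;> norm_num) (Finset.mem_univ j)
  rw [Finsupp.single_eq_same] at h1
  exact h1

theorem centreDiv_fst_nonneg (Q : Place (ResidueField A) Fb₁) :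
    0 ≤ (centreDiv N hgd c).1 Q := by
  rw [Fermat.Agent.T33.NodalAbs1C.centreDiv_fst_apply]
  exact Fermat.Agent.T33.NodalAbs1C.centreSum_nonneg N hgd _

theorem centreDiv_snd_nonneg (Q : Place (ResidueField A) Fb₂) :
    0 ≤ (centreDiv N hgd c).2 Q := by
  rw [Fermat.Agent.T33.NodalAbs1C.centreDiv_snd_apply]
  exact Fermat.Agent.T33.NodalAbs1C.centreSum_nonneg N hgd _

theorem one_le_centreDiv_fst (j : Fin g) (Q : Place (ResidueField A) Fb₁)
    (hQ : c (Fin.castLE hgd j) = Sum.inl Q) : 1 ≤ (centreDiv N hgd c).1 Q := by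
  rw [Fermat.Agent.T33.NodalAbs1C.centreDiv_fst_apply, ← hQ]
  exact one_le_centreSum N c hgd j

theorem one_le_centreDiv_snd (j : Fin g) (Q : Place (ResidueField A) Fb₂)
    (hQ : c (Fin.castLE hgd j) = Sum.inr Q) : 1 ≤ (centreDiv N hgd c).2 Q := by
  rw [Fermat.Agent.T33.NodalAbs1C.centreDiv_snd_apply, ← hQ]
  exact one_le_centreSum N c hgd j

end Centre

end Fermat.Agent.T33.NodalCore2
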