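/-
Programme T (S33), nodal layer, chapter N-B (helper2), part (b2)-B: **the reductions of a solution
of the closed-fibre conditions lie in `L^nod(Ē)`.**

`y ∈ O₁ ∩ O₂` with poles bounded by `2 g (φ)_0`; `z = φ ^ (2 g) y` (regular on the discs) has
reductions vanishing to order `≥ 2 g` at the centres `c j`, `j ≥ g`, and to order `≥ 2 g - 1` at the
first `g` centres.  Then `(ρ₁ y, ρ₂ y) ∈ L^nod(Ē)`, `Ē = ∑_{j<g} c j` (`mem_L_centreDiv`); if `Ē` is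
non-special this forces `(ρ₁ y, ρ₂ y)` to be a constant (`exists_const_of_nonSpecial`).
-/
import Mathlib
import Fermat.Agent.T33.NodalCore2A

set_option autoImplicit false
set_option linter.unusedSectionVars false
set_option linter.unusedVariables false

open AlgebraicCurve IsLocalRing PowerSeries

namespace Fermat.Agent.T33.NodalCore2

open Fermat.Agent.X0.FF Fermat.Agent.RR.LSpace Fermat.Agent.FF.GeomIface8
  Fermat.Agent.FF.CoreIface8 Fermat.Agent.FF.SpecRR1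
  Fermat.Agent.T33.NodalCtx1 Fermat.Agent.T33.NodalCurve6 Fermat.Agent.T33.NodalIface8
  Fermat.Agent.T33.NodalDisc8B Fermat.Agent.T33.NodalLat2

variable {K : Type*} [Field K] {A : ValuationSubring K} {F : Type*} [Field F] [Algebra K F]
variable {Fb₁ Fb₂ : Type*} [Field Fb₁] [Field Fb₂]
  [Algebra (ResidueField A) Fb₁] [Algebra (ResidueField A) Fb₂]
variable {ι : Type*} {Nd : NodalData (ResidueField A) Fb₁ Fb₂ ι} (N : NodalRed A F Nd)
variable (H : LHyp K F)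
variable (φ : F) (hφ₁ : φ ∈ N.c₁.O) (hφ₂ : φ ∈ N.c₂.O)
variable (hρ₁ : N.c₁.ρ ⟨φ, hφ₁⟩ ≠ 0) (hρ₂ : N.c₂.ρ ⟨φ, hφ₂⟩ ≠ 0)
variable {d : ℕ} (c : Fin d → NPt N) (hc : ∀ j, CentreOK N φ hφ₁ hφ₂ (c j))
variable {g : ℕ} (hgd : g ≤ d)
variable (hzero : ∀ P : Place K F, 0 < P.ord φ → ∃ j, RedTo N P (c j))

/-- transport of `LeOrdRed` along an equality of functions. -/
theorem leOrdRed_congr {y y' : F} (h : y = y') (hy : y ∈ N.O) (hy' : y' ∈ N.O) (k : ℕ)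
    (Q : NPt N) : LeOrdRed N y hy k Q ↔ LeOrdRed N y' hy' k Q := by
  subst h
  exact Iff.rfl

include hzero hφ₁ hφ₂ hc in
/-- `2 g (φ)_0` pushes forward to `0` at a point of `C₁` which is not a centre. -/
theorem pushOpt_zeroDiv_eq_zero₁ (D' : Divisor K F)
    (hD' : ∀ Q, D' Q = g * |Q.ord φ| + g * Q.ord φ) (Q : Place (ResidueField A) Fb₁)
    (hQ : ¬ ∃ j, c j = Sum.inl Q) : pushOpt N.r₁ D' Q = 0 := by
  apply pushOpt_eq_zero_at
  intro P hP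
  by_contra hne
  have hpos : 0 < P.ord φ := by
    by_contra hle
    rw [not_lt] at hle
    apply hne
    rw [hD', abs_of_nonpos hle]
    ring
  obtain ⟨j, hj⟩ := hzero P hpos
  have hcj' := hc j
  cases hcj : c j with
  | inl Q' =>
    rw [hcj] at hj
    have h1 : N.r₁ P = some Q' := hj
    rw [hP] at h1
    exact hQ ⟨j, by rw [hcj, Option.some.inj h1]⟩
  | inr Q' =>
    rw [hcj] at hj hcj'
    have h1 : N.r₂ P = some Q' := hj
    have h2 : N.r₁ P = none := N.smooth₂ P Q' h1 hcj'.1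
    rw [hP] at h2
    exact absurd h2 (by simp)

include hzero hφ₁ hφ₂ hc in
/-- `2 g (φ)_0` pushes forward to `0` at a point of `C₂` which is not a centre. -/
theorem pushOpt_zeroDiv_eq_zero₂ (D' : Divisor K F)
    (hD' : ∀ Q, D' Q = g * |Q.ord φ| + g * Q.ord φ) (Q : Place (ResidueField A) Fb₂)
    (hQ : ¬ ∃ j, c j = Sum.inr Q) : pushOpt N.r₂ D' Q = 0 := by
  apply pushOpt_eq_zero_at
  intro P hP
  by_contra hne
  have hpos : 0 < P.ord φ := by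
    by_contra hle
    rw [not_lt] at hle
    apply hne
    rw [hD', abs_of_nonpos hle]
    ring
  obtain ⟨j, hj⟩ := hzero P hpos
  have hcj' := hc j
  cases hcj : c j with
  | inr Q' =>
    rw [hcj] at hj
    have h1 : N.r₂ P = some Q' := hj
    rw [hP] at h1
    exact hQ ⟨j, by rw [hcj, Option.some.inj h1]⟩
  | inl Q' =>
    rw [hcj] at hj hcj'
    have h1 : N.r₁ P = some Q' := hj
    have h2 : N.r₂ P = none := N.smooth₁ P Q' h1 hcj'.1
    rw [hP] at h2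
    exact absurd h2 (by simp)

section Sides

variable (y z : F) (h₁ : y ∈ N.c₁.O) (h₂ : y ∈ N.c₂.O) (hzO : z ∈ N.O)
  (hz : z = φ ^ (2 * g) * y)
  (D' : Divisor K F) (hD' : ∀ Q, D' Q = g * |Q.ord φ| + g * Q.ord φ)
  (hyL : y ∈ riemannRochSpace D')
  (hhigh : ∀ j : Fin d, g ≤ j.val → LeOrdRed N z hzO (2 * g) (c j))
  (hlow : ∀ j : Fin g, LeOrdRed N z hzO (2 * g - 1) (c (Fin.castLE hgd j)))

include H hρ₁ hc hzero hz hD' hyL hhigh hlow h₂ in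
theorem fst_mem_L_centreDiv :
    N.c₁.ρ ⟨y, h₁⟩ ∈ riemannRochSpace (centreDiv N hgd c).1 := by
  by_cases hρy : N.c₁.ρ ⟨y, h₁⟩ = 0
  · rw [hρy]
    exact Submodule.zero_mem _
  rw [mem_L_iff hρy]
  intro Q
  have hzρ : N.c₁.ρ ⟨z, hzO.1⟩ = N.c₁.ρ ⟨φ, hφ₁⟩ ^ (2 * g) * N.c₁.ρ ⟨y, h₁⟩ := by
    have : (⟨z, hzO.1⟩ : N.c₁.O) = ⟨φ, hφ₁⟩ ^ (2 * g) * ⟨y, h₁⟩ := Subtype.ext (by simp [hz])
    rw [this, map_mul, map_pow]
  have hzne : N.c₁.ρ ⟨z, hzO.1⟩ ≠ 0 := by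
    rw [hzρ]
    exact mul_ne_zero (pow_ne_zero _ hρ₁) hρy
  by_cases hQ : ∃ j, c j = Sum.inl Q
  · obtain ⟨j, hcj⟩ := hQ
    have hcj' := hc j
    rw [hcj] at hcj'
    have hord1 : Q.ord (N.c₁.ρ ⟨φ, hφ₁⟩) = 1 := hcj'.2.1
    have hordz : Q.ord (N.c₁.ρ ⟨z, hzO.1⟩) = 2 * g + Q.ord (N.c₁.ρ ⟨y, h₁⟩) := by
      rw [hzρ, Place.ord_mul _ (pow_ne_zero _ hρ₁) hρy, ord_pow, hord1]
      push_cast
      ring
    by_cases hj : g ≤ j.val
    · have h := hhigh j hj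
      rw [hcj] at h
      have h' : N.c₁.ρ ⟨z, hzO.1⟩ = 0 ∨
          ((2 * g : ℕ) : ℤ) ≤ Q.ord (N.c₁.ρ ⟨z, hzO.1⟩) := h
      have h'' := h'.resolve_left hzne
      rw [hordz] at h''
      have := centreDiv_fst_nonneg N c hgd Q
      push_cast at h''
      linarith
    · rw [not_le] at hj
      have h := hlow ⟨j.val, hj⟩
      have hj' : Fin.castLE hgd ⟨j.val, hj⟩ = j := Fin.ext rfl
      rw [hj', hcj] at h
      have h' : N.c₁.ρ ⟨z, hzO.1⟩ = 0 ∨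
          ((2 * g - 1 : ℕ) : ℤ) ≤ Q.ord (N.c₁.ρ ⟨z, hzO.1⟩) := h
      have h'' := h'.resolve_left hzne
      rw [hordz] at h''
      have h1 := one_le_centreDiv_fst N c hgd ⟨j.val, hj⟩ Q (by rw [hj']; exact hcj)
      have hg1 : 1 ≤ g := Nat.one_le_of_lt hj
      have h3 : ((2 * g - 1 : ℕ) : ℤ) = 2 * (g : ℤ) - 1 := by
        rw [Nat.cast_sub (by omega)]
        push_cast
        ring
      rw [h3] at h''
      linarith
  · have hs := smoothSupp_zeroDiv N φ hφ₁ hφ₂ c hc hzero g D' hD'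
    have h1 := ρ₁_mem_L H hs h₁ h₂ hyL
    have h2 := (mem_L_iff hρy).1 h1 Q
    rw [pushOpt_zeroDiv_eq_zero₁ N φ hφ₁ hφ₂ c hc hzero D' hD' Q hQ] at h2
    have := centreDiv_fst_nonneg N c hgd Q
    linarith

include H hρ₂ hc hzero hz hD' hyL hhigh hlow h₁ in
theorem snd_mem_L_centreDiv :
    N.c₂.ρ ⟨y, h₂⟩ ∈ riemannRochSpace (centreDiv N hgd c).2 := by
  by_cases hρy : N.c₂.ρ ⟨y, h₂⟩ = 0
  · rw [hρy]
    exact Submodule.zero_mem _
  rw [mem_L_iff hρy]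
  intro Q
  have hzρ : N.c₂.ρ ⟨z, hzO.2⟩ = N.c₂.ρ ⟨φ, hφ₂⟩ ^ (2 * g) * N.c₂.ρ ⟨y, h₂⟩ := by
    have : (⟨z, hzO.2⟩ : N.c₂.O) = ⟨φ, hφ₂⟩ ^ (2 * g) * ⟨y, h₂⟩ := Subtype.ext (by simp [hz])
    rw [this, map_mul, map_pow]
  have hzne : N.c₂.ρ ⟨z, hzO.2⟩ ≠ 0 := by
    rw [hzρ]
    exact mul_ne_zero (pow_ne_zero _ hρ₂) hρy
  by_cases hQ : ∃ j, c j = Sum.inr Q
  · obtain ⟨j, hcj⟩ := hQ
    have hcj' := hc j
    rw [hcj] at hcj'
    have hord1 : Q.ord (N.c₂.ρ ⟨φ, hφ₂⟩) = 1 := hcj'.2.1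
    have hordz : Q.ord (N.c₂.ρ ⟨z, hzO.2⟩) = 2 * g + Q.ord (N.c₂.ρ ⟨y, h₂⟩) := by
      rw [hzρ, Place.ord_mul _ (pow_ne_zero _ hρ₂) hρy, ord_pow, hord1]
      push_cast
      ring
    by_cases hj : g ≤ j.val
    · have h := hhigh j hj
      rw [hcj] at h
      have h' : N.c₂.ρ ⟨z, hzO.2⟩ = 0 ∨
          ((2 * g : ℕ) : ℤ) ≤ Q.ord (N.c₂.ρ ⟨z, hzO.2⟩) := h
      have h'' := h'.resolve_left hzne
      rw [hordz] at h''
      have := centreDiv_snd_nonneg N c hgd Q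
      push_cast at h''
      linarith
    · rw [not_le] at hj
      have h := hlow ⟨j.val, hj⟩
      have hj' : Fin.castLE hgd ⟨j.val, hj⟩ = j := Fin.ext rfl
      rw [hj', hcj] at h
      have h' : N.c₂.ρ ⟨z, hzO.2⟩ = 0 ∨
          ((2 * g - 1 : ℕ) : ℤ) ≤ Q.ord (N.c₂.ρ ⟨z, hzO.2⟩) := h
      have h'' := h'.resolve_left hzne
      rw [hordz] at h''
      have h1 := one_le_centreDiv_snd N c hgd ⟨j.val, hj⟩ Q (by rw [hj']; exact hcj)
      have hg1 : 1 ≤ g := Nat.one_le_of_lt hj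
      have h3 : ((2 * g - 1 : ℕ) : ℤ) = 2 * (g : ℤ) - 1 := by
        rw [Nat.cast_sub (by omega)]
        push_cast
        ring
      rw [h3] at h''
      linarith
  · have hs := smoothSupp_zeroDiv N φ hφ₁ hφ₂ c hc hzero g D' hD'
    have h1 := ρ₂_mem_L H hs h₁ h₂ hyL
    have h2 := (mem_L_iff hρy).1 h1 Q
    rw [pushOpt_zeroDiv_eq_zero₂ N φ hφ₁ hφ₂ c hc hzero D' hD' Q hQ] at h2
    have := centreDiv_snd_nonneg N c hgd Q
    linarith

include H hρ₁ hρ₂ hc hzero hz hD' hyL hhigh hlow in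
/-- **the reductions of a solution of the closed-fibre conditions lie in `L^nod(Ē)`.** -/
theorem mem_L_centreDiv :
    ((N.c₁.ρ ⟨y, h₁⟩, N.c₂.ρ ⟨y, h₂⟩) : Fb₁ × Fb₂) ∈ Nd.L (centreDiv N hgd c) := by
  rw [NodalData.mem_L]
  refine ⟨fst_mem_L_centreDiv N H φ hφ₁ hφ₂ hρ₁ c hc hgd hzero y z h₁ h₂ hzO hz D' hD' hyL hhigh hlow,
    snd_mem_L_centreDiv N H φ hφ₁ hφ₂ hρ₂ c hc hgd hzero y z h₁ h₂ hzO hz D' hD' hyL hhigh hlow, ?_⟩
  have hs := smoothSupp_zeroDiv N φ hφ₁ hφ₂ c hc hzero g D' hD'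
  have h := ρ_mem_nodalL H hs h₁ h₂ hyL
  rw [NodalData.mem_L] at h
  exact h.2.2

end Sides

/-! ### non-speciality -/

/-- the constant function `1` is a section of `L^nod(E)` for `E ≥ 0`. -/
theorem one_mem_nodalL (E : NDiv (ResidueField A) Fb₁ Fb₂) (hE₁ : ∀ Q, 0 ≤ E.1 Q)
    (hE₂ : ∀ Q, 0 ≤ E.2 Q) : (1 : Fb₁ × Fb₂) ∈ Nd.L E := by
  rw [NodalData.mem_L]
  refine ⟨?_, ?_, fun i => ⟨1, ?_, ?_⟩⟩
  · show (1 : Fb₁) ∈ riemannRochSpace E.1
    rw [mem_L_iff one_ne_zero]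
    intro Q
    rw [Place.ord_one]
    have := hE₁ Q
    linarith
  · show (1 : Fb₂) ∈ riemannRochSpace E.2
    rw [mem_L_iff one_ne_zero]
    intro Q
    rw [Place.ord_one]
    have := hE₂ Q
    linarith
  · show (1 : Fb₁) - algebraMap (ResidueField A) Fb₁ 1 ∈ vanishing (Nd.s1 i)
    rw [map_one, sub_self]
    exact Submodule.zero_mem _
  · show (1 : Fb₂) - algebraMap (ResidueField A) Fb₂ 1 ∈ vanishing (Nd.s2 i)
    rw [map_one, sub_self]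
    exact Submodule.zero_mem _

/-- **non-speciality**: a section of `L^nod(Ē)` is a constant. -/
theorem exists_const_of_nonSpecial (hNS : NonSpecialAt N hgd c) (f : Fb₁ × Fb₂)
    (hf : f ∈ Nd.L (centreDiv N hgd c)) :
    ∃ a : ResidueField A, f.1 = algebraMap (ResidueField A) Fb₁ a ∧
      f.2 = algebraMap (ResidueField A) Fb₂ a := by
  have h1 : (1 : Fb₁ × Fb₂) ∈ Nd.L (centreDiv N hgd c) :=
    one_mem_nodalL _ (centreDiv_fst_nonneg N c hgd) (centreDiv_snd_nonneg N c hgd)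
  have hne : (⟨1, h1⟩ : Nd.L (centreDiv N hgd c)) ≠ 0 := by
    intro h0
    have := congrArg Subtype.val h0
    exact one_ne_zero this
  have hfr : Module.finrank (ResidueField A) (Nd.L (centreDiv N hgd c)) = 1 := by
    have := hNS
    unfold NonSpecialAt NodalData.ell at this
    exact_mod_cast this
  obtain ⟨a, ha⟩ := (finrank_eq_one_iff_of_nonzero' _ hne).1 hfr ⟨f, hf⟩
  have ha' : a • (1 : Fb₁ × Fb₂) = f := congrArg Subtype.val ha
  refine ⟨a, ?_, ?_⟩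
  · rw [← ha']
    show _ = algebraMap (ResidueField A) Fb₁ a
    rw [Prod.smul_fst, Prod.fst_one, Algebra.smul_def, mul_one]
  · rw [← ha']
    show _ = algebraMap (ResidueField A) Fb₂ a
    rw [Prod.smul_snd, Prod.snd_one, Algebra.smul_def, mul_one]

end Fermat.Agent.T33.NodalCore2
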