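/-
Programme T (S33), nodal layer, chapter N-B (helper2), part (b2)-C: **`CoreData`, `NLatticeModel`
and `ClosedFibre` over a nodal reduction** (main theorem `exists_coreData`; port of
`FF/CoreLat2D.exists_coreData` to helper8's nodal disc model `NodalDisc8B.discModel`).

Input: `N : NodalRed A F Nd`; `LHyp` on the three function fields; many smooth places on each
component; `φ ∈ O₁ ∩ O₂` with nonzero reductions; injective centres `c : Fin d → NPt N` with
`CentreOK`; every zero of `φ` lies over a centre (`hzero`); the poles of `φ` have smooth reduction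
(`hpole`); Riemann–Roch on `F` in degree `> 2g - 2`; non-speciality of `Ē = ∑_{j<g} c j` on the
nodal curve (`NonSpecialAt`).

Output: `n`, `D : CoreData A (Fin n → A) g d`, `NLatticeModel (discModel ..) D` and
`ClosedFibre D (ResidueField A)` — contract (b2), the input of `NodalAsm8.hasConnOrder`.
-/
import Mathlib
import Fermat.Agent.T33.NodalCore2B

set_option autoImplicit false
set_option linter.unusedSectionVars false
set_option linter.unusedVariables false

open AlgebraicCurve IsLocalRing PowerSeries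
open scoped TensorProduct

namespace Fermat.Agent.T33.NodalCore2

open Fermat.Agent.X0.FF Fermat.Agent.RR.LSpace Fermat.Agent.FF.GeomIface8
  Fermat.Agent.FF.CoreIface8 Fermat.Agent.FF.SpecRR1 Fermat.Agent.FF.CoreLat2
  Fermat.Agent.T33.NodalCtx1 Fermat.Agent.T33.NodalCurve6 Fermat.Agent.T33.NodalIface8
  Fermat.Agent.T33.NodalDisc8B Fermat.Agent.T33.NodalLat2

variable {K : Type*} [Field K] {A : ValuationSubring K} {F : Type*} [Field F] [Algebra K F]
variable {Fb₁ Fb₂ : Type*} [Field Fb₁] [Field Fb₂]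
  [Algebra (ResidueField A) Fb₁] [Algebra (ResidueField A) Fb₂]
variable {ι : Type*} {Nd : NodalData (ResidueField A) Fb₁ Fb₂ ι} (N : NodalRed A F Nd)
variable (H : LHyp K F)
variable (φ : F) (hφ₁ : φ ∈ N.c₁.O) (hφ₂ : φ ∈ N.c₂.O)
variable (hρ₁ : N.c₁.ρ ⟨φ, hφ₁⟩ ≠ 0) (hρ₂ : N.c₂.ρ ⟨φ, hφ₂⟩ ≠ 0)
variable {d : ℕ} (c : Fin d → NPt N) (hc : ∀ j, CentreOK N φ hφ₁ hφ₂ (c j))

/-- **contract (b2)**: the integral Riemann–Roch lattice `L(g (φ)_0 + g (φ)_∞) ∩ O₁ ∩ O₂` as
`CoreData`, with its `NLatticeModel` and the closed-fibre hypothesis. -/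
theorem exists_coreData
    (HL₁ : LHyp (ResidueField A) Fb₁) (HL₂ : LHyp (ResidueField A) Fb₂)
    (hmany₁ : HasManySmooth₁ N) (hmany₂ : HasManySmooth₂ N)
    {g : ℕ} (hgd : g ≤ d) (hWG : N.WeakGauss)
    (hinj : Function.Injective c)
    (hzero : ∀ P : Place K F, 0 < P.ord φ → ∃ j, RedTo N P (c j))
    (hpole : ∀ P : Place K F, P.ord φ < 0 → N.IsSmoothRed P)
    (hRR : ∀ D : Divisor K F, 2 * (g : ℤ) - 2 < Divisor.degree D →
      (Module.finrank K (riemannRochSpace D) : ℤ) = Divisor.degree D + 1 - g)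
    (hNS : NonSpecialAt N hgd c) :
    ∃ (n : ℕ) (D : CoreData A (Fin n → A) g d)
      (_ : NLatticeModel (discModel N H φ hφ₁ hφ₂ hρ₁ hρ₂ c hc hgd hWG) D),
      ClosedFibre D (ResidueField A) := by
  classical
  set M := discModel N H φ hφ₁ hφ₂ hρ₁ hρ₂ c hc hgd hWG with hM
  have hφ0 : φ ≠ 0 := φ_ne_zero N φ hφ₁ hρ₁
  -- the divisor `DD = g (φ)_0 + g (φ)_∞`
  set DD : Divisor K F := (divOf H hφ0).mapRange (fun n => (g : ℤ) * |n|) (by simp) with hDDdef
  have hDD : ∀ Q, DD Q = g * |Q.ord φ| := fun Q => by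
    rw [hDDdef, Finsupp.mapRange_apply, divOf_apply]
  have hdegDD : Divisor.degree DD = 2 * g * d :=
    degree_DD N H φ hφ₁ hφ₂ c hc hzero hinj hφ0 g DD hDD
  have hDDs := smoothSupp_DD N φ hφ₁ hφ₂ c hc hzero hpole g DD hDD
  obtain ⟨n, β, hβ₁, hβ₂, hn, hβL, hβli, -, hβA, -, -⟩ :=
    exists_nodal_integral_basis' H HL₁ HL₂ hmany₁ hmany₂ DD hDDs
  have hβO : ∀ i, β i ∈ N.O := fun i => ⟨hβ₁ i, hβ₂ i⟩
  -- the rank
  have hgd' : (g : ℤ) ≤ g * d := by
    rcases Nat.eq_zero_or_pos g with h0 | h0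
    · simp [h0]
    · have hd : (1 : ℤ) ≤ d := by exact_mod_cast le_trans h0 hgd
      have hg : (0 : ℤ) ≤ g := by positivity
      nlinarith
  have hrank : (n : ℤ) + g = 2 * g * d + 1 := by
    have h1 := hRR DD (by rw [hdegDD]; linarith)
    rw [← hn, hdegDD] at h1
    linarith
  -- membership in `L(DD)`, in `ord` form
  have hLform : ∀ {w : F}, w ∈ riemannRochSpace DD →
      ∀ Q : Place K F, w = 0 ∨ -((g : ℤ) * |Q.ord φ|) ≤ Q.ord w := by
    intro w hw Q
    have := mem_riemannRochSpace_iff.1 hw Q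
    rwa [hDD] at this
  have hmemR : ∀ (j : Fin d) (i : Fin n), φ ^ g * β i ∈ discRing A M.O (M.P j) :=
    fun j i => pow_mul_mem_disc N H φ hφ₁ hφ₂ hρ₁ hρ₂ c hc hgd hWG j (hβO i) (hLform (hβL i))
  -- the inclusion of the lattice
  let ιV : (Fin n → A) →+ F :=
    { toFun := fun v => ∑ i, algebraMap K F (v i : K) * β i
      map_zero' := by simp
      map_add' := fun v w => by simp [add_mul, Finset.sum_add_distrib] }
  have hιapp : ∀ v, ιV v = ∑ i, algebraMap K F (v i : K) * β i := fun v => rfl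
  have hιL : ∀ v, ιV v ∈ riemannRochSpace DD := by
    intro v
    rw [hιapp]
    refine Submodule.sum_mem _ fun i _ => ?_
    rw [← Algebra.smul_def]
    exact Submodule.smul_mem _ _ (hβL i)
  have hιO : ∀ v, ιV v ∈ N.O := by
    intro v
    rw [hιapp]
    exact Subring.sum_mem _ fun i _ => N.O.mul_mem (const_mem_O N (v i)) (hβO i)
  have hιmem : ∀ j v, φ ^ g * ιV v ∈ discRing A M.O (M.P j) := fun j v =>
    pow_mul_mem_disc N H φ hφ₁ hφ₂ hρ₁ hρ₂ c hc hgd hWG j (hιO v) (hLform (hιL v))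
  have hιsmul : ∀ (a : A) (v : Fin n → A), ιV (a • v) = algebraMap K F (a : K) * ιV v := by
    intro a v
    rw [hιapp, hιapp, Finset.mul_sum]
    refine Finset.sum_congr rfl fun i _ => ?_
    rw [Pi.smul_apply, smul_eq_mul, ← mul_assoc, ← map_mul]
    rfl
  have hιinj0 : ∀ v, ιV v = 0 → v = 0 := by
    intro v hv
    have h5 : ∑ i, (v i : K) • β i = 0 := by
      rw [← hv, hιapp]
      refine Finset.sum_congr rfl fun i _ => ?_
      rw [Algebra.smul_def]
    have h6 := (Fintype.linearIndependent_iff.1 hβli) (fun i => (v i : K)) h5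
    funext i
    exact Subtype.ext (h6 i)
  -- the expansions
  let ε : Fin d → (Fin n → A) →ₗ[A] PowerSeries A := fun j =>
    Fintype.linearCombination A (fun i => M.exp j ⟨φ ^ g * β i, hmemR j i⟩)
  have hεeq : ∀ j v, ε j v = M.exp j ⟨φ ^ g * ιV v, hιmem j v⟩ := by
    intro j v
    have h1 : (⟨φ ^ g * ιV v, hιmem j v⟩ : discRing A M.O (M.P j)) =
        ∑ i, (⟨algebraMap K F (v i : K), M.const_mem_discRing j (v i)⟩ :
          discRing A M.O (M.P j)) * ⟨φ ^ g * β i, hmemR j i⟩ := by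
      apply Subtype.ext
      rw [AddSubmonoidClass.coe_finsetSum]
      show φ ^ g * ∑ i, algebraMap K F (v i : K) * β i =
        ∑ i, algebraMap K F (v i : K) * (φ ^ g * β i)
      rw [Finset.mul_sum]
      refine Finset.sum_congr rfl fun i _ => by ring
    rw [h1, map_sum]
    show Fintype.linearCombination A _ v = _
    rw [Fintype.linearCombination_apply]
    refine Finset.sum_congr rfl fun i _ => ?_
    rw [map_mul, M.exp_const j ⟨algebraMap K F (v i : K), M.const_mem_discRing j (v i)⟩ (v i) rfl,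
      PowerSeries.smul_eq_C_mul]
  -- the distinguished vector
  have hφgL : φ ^ g ∈ riemannRochSpace DD := by
    rw [mem_riemannRochSpace_iff]
    intro Q
    right
    rw [hDD, ord_pow]
    have := neg_abs_le (Q.ord φ)
    have hg : (0 : ℤ) ≤ g := by positivity
    nlinarith
  obtain ⟨c₀, hc₀⟩ := hβA _ hφgL (N.c₁.O.pow_mem hφ₁ g) (N.c₂.O.pow_mem hφ₂ g)
  have hιc₀ : ιV c₀ = φ ^ g := hc₀.symm
  have hu₀ : ∀ j, ∃ u : (PowerSeries A)ˣ, ε j c₀ = (X : PowerSeries A) ^ (2 * g) * u := by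
    intro j
    refine ⟨1, ?_⟩
    rw [Units.val_one, mul_one, hεeq]
    have h1 : (⟨φ ^ g * ιV c₀, hιmem j c₀⟩ : discRing A M.O (M.P j)) =
        ⟨M.φ, M.φ_mem_discRing j⟩ ^ (2 * g) := by
      apply Subtype.ext
      rw [SubmonoidClass.coe_pow]
      show φ ^ g * ιV c₀ = φ ^ (2 * g)
      rw [hιc₀, ← pow_add, two_mul]
    rw [h1, map_pow, M.exp_φ j _ rfl]
  -- the core data
  let D : CoreData A (Fin n → A) g d :=
    { ε := ε
      hgd := hgd
      free := inferInstance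
      finite := inferInstance
      rank_add := by
        rw [Module.finrank_fin_fun]
        exact_mod_cast hrank
      u₀ := c₀
      hu₀ := hu₀ }
  let L : NLatticeModel M D :=
    { ι := ιV
      mem_range := by
        intro u huO hu
        have huL : u ∈ riemannRochSpace DD := by
          rw [mem_riemannRochSpace_iff]
          intro Q
          right
          rw [hDD]
          have := hu Q
          show -((g : ℤ) * |Q.ord φ|) ≤ Q.ord u
          have h2 : M.φ = φ := rfl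
          rw [h2] at this
          linarith
        have huO' : u ∈ N.O := huO
        obtain ⟨a, ha⟩ := hβA u huL huO'.1 huO'.2
        exact ⟨a, ha.symm⟩
      pow_mul_mem := hιmem
      eps_eq := hεeq }
  refine ⟨n, D, L, ?_⟩
  -- the closed fibre
  -- (*) a vector of the lattice with zero reductions dies in `κ ⊗ V`
  have hstar : ∀ v' : Fin n → A, N.c₁.ρ ⟨ιV v', (hιO v').1⟩ = 0 →
      N.c₂.ρ ⟨ιV v', (hιO v').2⟩ = 0 → (1 : ResidueField A) ⊗ₜ[A] v' = 0 := by
    intro v' hv'₁ hv'₂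
    obtain ⟨a, hamax, y', hy'₁, hy'₂, hy'eq⟩ :=
      exists_eq_mul_of_ρ_eq_zero N (hιO v').1 (hιO v').2 hv'₁ hv'₂
    by_cases ha0 : (a : K) = 0
    · rw [ha0, map_zero, zero_mul] at hy'eq
      rw [hιinj0 v' hy'eq, TensorProduct.tmul_zero]
    · have hy'F : y' = algebraMap K F (a : K)⁻¹ * ιV v' := by
        rw [hy'eq, ← mul_assoc, ← map_mul, inv_mul_cancel₀ ha0, map_one, one_mul]
      have hy'L : y' ∈ riemannRochSpace DD := by
        rw [hy'F, ← Algebra.smul_def]
        exact Submodule.smul_mem _ _ (hιL v')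
      obtain ⟨a', ha'⟩ := hβA y' hy'L hy'₁ hy'₂
      have h1 : ιV (v' - a • a') = 0 := by
        rw [map_sub, hιsmul, hy'eq, hιapp a', ← ha', sub_self]
      have h2 : v' = a • a' := sub_eq_zero.1 (hιinj0 _ h1)
      rw [h2]
      exact one_tmul_smul_of_mem a hamax a'
  intro u hu
  obtain ⟨v, rfl⟩ := exists_one_tmul u
  obtain ⟨hhigh, hlow⟩ := hu
  have heps : ∀ j, epsB D (ResidueField A) j ((1 : ResidueField A) ⊗ₜ[A] v) =
      PowerSeries.map (residue A) (M.exp j ⟨φ ^ g * ιV v, hιmem j v⟩) := by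
    intro j
    rw [epsB_tmul, one_smul]
    show PowerSeries.map (algebraMap A (ResidueField A)) (ε j v) = _
    rw [hεeq]
    rfl
  -- the function `y = w / φ ^ g`
  set w : F := ιV v with hwdef
  set y : F := φ⁻¹ ^ g * w with hydef
  have hyw : φ ^ g * y = w := by
    rw [hydef, ← mul_assoc, ← mul_pow, mul_inv_cancel₀ hφ0, one_pow, one_mul]
  have hyO : y ∈ N.O :=
    N.O.mul_mem (N.O.pow_mem (φ_inv_mem_O N φ hφ₁ hφ₂ hρ₁ hρ₂) g) (hιO v)
  set z : F := φ ^ g * w with hzdef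
  have hzO : z ∈ N.O := N.O.mul_mem (N.O.pow_mem ⟨hφ₁, hφ₂⟩ g) (hιO v)
  have hz : z = φ ^ (2 * g) * y := by
    rw [hzdef, ← hyw, ← mul_assoc, ← pow_add, two_mul]
  -- the divisor `2 g (φ)_0`
  set D' : Divisor K F := DD + (g : ℤ) • divOf H hφ0 with hD'def
  have hD' : ∀ Q, D' Q = g * |Q.ord φ| + g * Q.ord φ := by
    intro Q
    rw [hD'def, Finsupp.add_apply, Finsupp.smul_apply, hDD, divOf_apply, smul_eq_mul]
  have hyL : y ∈ riemannRochSpace D' := by
    rw [mem_riemannRochSpace_iff]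
    intro Q
    by_cases hw0 : w = 0
    · left
      rw [hydef, hw0, mul_zero]
    right
    rw [hD', hydef, Place.ord_mul _ (pow_ne_zero g (inv_ne_zero hφ0)) hw0, ord_pow, Place.ord_inv]
    have := (hLform (hιL v) Q).resolve_left hw0
    linarith
  -- the conditions, in terms of the reductions
  have hkey : ∀ (j : Fin d) (k : ℕ),
      (X : PowerSeries (ResidueField A)) ^ k ∣
        epsB D (ResidueField A) j ((1 : ResidueField A) ⊗ₜ[A] v) →
      LeOrdRed N z hzO k (c j) := by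
    intro j k hk
    rw [heps, X_pow_dvd_map_residue_iff] at hk
    exact leOrdRed_of_coeff_mem N H φ hφ₁ hφ₂ hρ₁ hρ₂ (c j) (hc j) z (hιmem j v) k hk
  have hhigh' : ∀ j : Fin d, g ≤ j.val → LeOrdRed N z hzO (2 * g) (c j) := by
    intro j hj
    have h1 := hhigh j hj
    rw [qPoly_zero] at h1
    exact hkey j (2 * g) h1
  have hlow' : ∀ j : Fin g, LeOrdRed N z hzO (2 * g - 1) (c (Fin.castLE hgd j)) := by
    intro j
    have h1 := hlow j
    rw [qjPoly_zero] at h1
    exact hkey (Fin.castLE hgd j) (2 * g - 1) h1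
  have hfL := mem_L_centreDiv N H φ hφ₁ hφ₂ hρ₁ hρ₂ c hc hgd hzero y z hyO.1 hyO.2 hzO hz D' hD'
    hyL hhigh' hlow'
  obtain ⟨a₁, ha₁, ha₂⟩ := exists_const_of_nonSpecial N c hgd hNS _ hfL
  obtain ⟨a, rfl⟩ := IsLocalRing.residue_surjective a₁
  have ha₁' : N.c₁.ρ ⟨y, hyO.1⟩ = algebraMap (ResidueField A) Fb₁ (residue A a) := ha₁
  have ha₂' : N.c₂.ρ ⟨y, hyO.2⟩ = algebraMap (ResidueField A) Fb₂ (residue A a) := ha₂
  refine ⟨residue A a, ?_⟩
  -- `w - a φ^g` has zero reductions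
  have hιv' : ιV (v - a • c₀) = w - algebraMap K F (a : K) * φ ^ g := by
    rw [map_sub, hιsmul, hιc₀]
  have hρv'₁ : N.c₁.ρ ⟨ιV (v - a • c₀), (hιO (v - a • c₀)).1⟩ = 0 := by
    have : (⟨ιV (v - a • c₀), (hιO (v - a • c₀)).1⟩ : N.c₁.O) =
        ⟨φ, hφ₁⟩ ^ g * (⟨y, hyO.1⟩ - hconst N.c₁ a) := by
      apply Subtype.ext
      show ιV (v - a • c₀) = φ ^ g * (y - algebraMap K F (a : K))
      rw [hιv', mul_sub, hyw]
      ring
    rw [this, map_mul, map_sub, ρ_hconst, ha₁', sub_self, mul_zero]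
  have hρv'₂ : N.c₂.ρ ⟨ιV (v - a • c₀), (hιO (v - a • c₀)).2⟩ = 0 := by
    have : (⟨ιV (v - a • c₀), (hιO (v - a • c₀)).2⟩ : N.c₂.O) =
        ⟨φ, hφ₂⟩ ^ g * (⟨y, hyO.2⟩ - hconst N.c₂ a) := by
      apply Subtype.ext
      show ιV (v - a • c₀) = φ ^ g * (y - algebraMap K F (a : K))
      rw [hιv', mul_sub, hyw]
      ring
    rw [this, map_mul, map_sub, ρ_hconst, ha₂', sub_self, mul_zero]
  have h5 := hstar _ hρv'₁ hρv'₂
  rw [TensorProduct.tmul_sub, sub_eq_zero] at h5
  rw [h5, TensorProduct.tmul_smul, TensorProduct.smul_tmul', TensorProduct.smul_tmul',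
    Algebra.smul_def, mul_one, smul_eq_mul, mul_one]
  rfl

end Fermat.Agent.T33.NodalCore2
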