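/-
Programme T (S33), nodal layer, chapter N-E (helper7): **the input `NThetaInput` of the nodal
assembly** for a subgroup `M ↪ Pic⁰` contained in the formal part `Psi3F.formalN N p` (= `ker Ψ`).

* `exists_kummer_of_mem_RC`, `kummerTrivial_of_mem_formalN` : a class of `formalN N p` is
  Kummer-trivial (`NodalIface8.KummerTrivial`) at its witness level `p ^ m`;
* `exists_theta_eq_of_mem_formalN` : hence, by contract (d) at every level
  (`∀ m, ThetaSurjStatement N Mod hdeg (p ^ m)`, proved in `NodalAbs1C.thetaSurj`), it is `θ x` for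
  some `x ∈ 𝔪_A ^ g`;
* `redTo_smul`, `smul_P`, `smul_discDiv`, `smul_theta` : equivariance of `θ` under a family of
  semilinear automorphisms compatible with the nodal reduction (`NodalRed.Compat`) and fixing the
  parameter `φ` (port of `FF/ThetaKer5`, section Equivariance);
* `nthetaInput` : the structure `NThetaInput Mod hdeg Γ M` (port of `FF/ThetaGlue8.thetaInput`).
-/
import Mathlib
import Fermat.Agent.T33.NodalMeaning8
import Fermat.Agent.T33.Psi3F
import Fermat.Agent.FF.ThetaGlue8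

set_option autoImplicit false
set_option linter.unusedSectionVars false

open AlgebraicCurve IsLocalRing

noncomputable section

namespace Fermat.Agent.T33.NodalInput7

open Fermat.Agent.FF.GeomIface8 Fermat.Agent.FF.Assembly8 Fermat.Agent.X0.FF
  Fermat.Agent.T33.NodalCtx1 Fermat.Agent.T33.NodalCurve6 Fermat.Agent.T33.NodalIface8
  Fermat.Agent.T33.Psi3B Fermat.Agent.T33.Psi3F AlgebraicCurve.SemilinearAut

/-! ### the formal part is Kummer-trivial -/

section Kummer

variable {K : Type*} [Field K] {A : ValuationSubring K} {F : Type*} [Field F] [Algebra K F]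

/-- a function satisfying the residue condition `Kˣ (Fˣ)ⁿ (1 + ker ρ)` has a normalisation whose
reduction is an `n`-th power. -/
theorem exists_kummer_of_mem_RC {Fb : Type*} [Field Fb] [Algebra (ResidueField A) Fb]
    (c : HalfRed A F Fb) {n : ℕ} {f : Fˣ} (hf : f ∈ RC K (pu c) n) :
    ∃ (k : K) (h : algebraMap K F k * (f : F) ∈ c.O) (w : Fb), w ≠ 0 ∧
      c.ρ ⟨_, h⟩ = algebraMap (ResidueField A) Fb 1 * w ^ n := by
  obtain ⟨a, w, u, ⟨hu, hρu⟩, rfl⟩ := hf
  obtain ⟨k, hk0, hkw, hρkw⟩ := c.gauss (w : F) w.ne_zero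
  have ha0 : (a : K) ≠ 0 := a.ne_zero
  have hE : algebraMap K F (k ^ n / (a : K)) *
      ((constUnit K a * w ^ n * u : Fˣ) : F) = (algebraMap K F k * (w : F)) ^ n * (u : F) := by
    rw [Units.val_mul, Units.val_mul, coe_constUnit, Units.val_pow_eq_pow_val, map_div₀, map_pow,
      mul_pow]
    have h1 : algebraMap K F (a : K) ≠ 0 := by rw [Ne, map_eq_zero]; exact ha0
    field_simp
  have hmem : algebraMap K F (k ^ n / (a : K)) * ((constUnit K a * w ^ n * u : Fˣ) : F) ∈ c.O := by
    rw [hE]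
    exact c.O.mul_mem (c.O.pow_mem hkw n) hu
  refine ⟨k ^ n / (a : K), hmem, c.ρ ⟨_, hkw⟩, hρkw, ?_⟩
  have h2 : (⟨_, hmem⟩ : c.O) = ⟨algebraMap K F k * (w : F), hkw⟩ ^ n * ⟨(u : F), hu⟩ :=
    Subtype.ext hE
  rw [h2, map_mul, map_pow, hρu, mul_one, map_one, one_mul]

variable {Fb₁ Fb₂ : Type*} [Field Fb₁] [Field Fb₂]
  [Algebra (ResidueField A) Fb₁] [Algebra (ResidueField A) Fb₂]
variable {ι : Type*} {Nd : NodalData (ResidueField A) Fb₁ Fb₂ ι} (N : NodalRed A F Nd)

/-- **a class of the formal part is Kummer-trivial** at its witness level. -/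
theorem kummerTrivial_of_mem_formalN {p : ℕ} {y : Pic0 K F} (hy : y ∈ formalN N p) :
    ∃ m : ℕ, KummerTrivial N (p ^ m) y := by
  obtain ⟨m, f, D, hf1, hf2, hD, rfl⟩ := (mem_formalN_iff N).1 hy
  obtain ⟨k₁, h₁, w₁, hw₁, hρ₁⟩ := exists_kummer_of_mem_RC N.c₁ hf1
  obtain ⟨k₂, h₂, w₂, hw₂, hρ₂⟩ := exists_kummer_of_mem_RC N.c₂ hf2
  exact ⟨m, D, (f : F), rfl, f.ne_zero, fun P => (hD P).symm, k₁, k₂, h₁, h₂, 1, 1, w₁, w₂,
    one_ne_zero, one_ne_zero, hw₁, hw₂, hρ₁, hρ₂⟩

variable {g d : ℕ} (Mod : NDiscModel A F g d)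
variable (hdeg : ∀ (j : Fin d) (t : A), (Mod.P j t).deg = 1)

/-- **contract (d) applied to the formal part**: a class of `formalN N p` is `θ x`, `x ∈ 𝔪_A ^ g`. -/
theorem exists_theta_eq_of_mem_formalN {p : ℕ}
    (hsurj : ∀ m : ℕ, ThetaSurjStatement N Mod hdeg (p ^ m)) {y : Pic0 K F}
    (hy : y ∈ formalN N p) :
    ∃ x : Fin g → A, (∀ i, x i ∈ maximalIdeal A) ∧ theta Mod hdeg x = y := by
  obtain ⟨m, hm⟩ := kummerTrivial_of_mem_formalN N hy
  exact hsurj m y hm

end Kummer

/-! ### equivariance of `θ` -/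

section Equivariance

variable {K : Type*} [Field K] {A : ValuationSubring K} {F : Type*} [Field F] [Algebra K F]
variable {Fb₁ Fb₂ : Type*} [Field Fb₁] [Field Fb₂]
  [Algebra (ResidueField A) Fb₁] [Algebra (ResidueField A) Fb₂]
variable {ι : Type*} {Nd : NodalData (ResidueField A) Fb₁ Fb₂ ι} (N : NodalRed A F Nd)
variable {g d : ℕ} (Mod : NDiscModel A F g d) {c : Fin d → NPt N} (hC : DiscCompat N Mod c)
variable {Γ : Type*} {γ : Γ → SemilinearAut K F} (hComp : N.Compat γ)

include hComp in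
/-- a compatible automorphism does not move the reduction of places. -/
theorem redTo_smul (σ : Γ) (P : Place K F) (Q : NPt N) : RedTo N (γ σ • P) Q ↔ RedTo N P Q := by
  cases Q with
  | inl Q =>
    show N.r₁ (γ σ • P) = some Q ↔ N.r₁ P = some Q
    rw [hComp.r₁_smul]
  | inr Q =>
    show N.r₂ (γ σ • P) = some Q ↔ N.r₂ P = some Q
    rw [hComp.r₂_smul]

variable (σ : Γ) (σA : A ≃+* A)
variable (hσ : ∀ a : A, ((σA a : A) : K) = baseAut (γ σ) (a : K))
variable (hγφ : γ σ • Mod.φ = Mod.φ)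

include hC hComp hσ hγφ in
/-- a compatible automorphism fixing `φ` moves the points of the discs by its action on the
parameter. -/
theorem smul_P (j : Fin d) (t : A) (ht : t ∈ maximalIdeal A) :
    γ σ • Mod.P j t = Mod.P j (σA t) := by
  classical
  have hred : RedTo N (γ σ • Mod.P j t) (c j) :=
    (redTo_smul N hComp σ _ _).2 (hC.center j t ht)
  obtain ⟨t', ht', hQ⟩ := hC.exhaust j _ hred
  have hσt : σA t ∈ maximalIdeal A :=
    Fermat.Agent.FF.ThetaKer5.map_mem_maximalIdeal σA t ht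
  have e1 : γ σ • (Mod.φ - algebraMap K F (t : K)) =
      Mod.φ - algebraMap K F ((σA t : A) : K) := by
    rw [smul_sub, hγφ, SemilinearAut.smul_algebraMap, hσ]
  have e2 : (γ σ • Mod.P j t).ord (γ σ • (Mod.φ - algebraMap K F (t : K))) = 1 := by
    rw [SemilinearAut.ord_smul]
    exact Mod.ord_φ_sub_self _ t ht
  rw [e1, hQ, Mod.ord_φ_sub _ t' (σA t) ht' hσt] at e2
  by_cases htt : t' = σA t
  · rw [hQ, htt]
  · rw [if_neg htt] at e2
    exact absurd e2 (by norm_num)

include hC hComp hσ hγφ in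
theorem smul_discDiv (x : Fin g → A) (hx : ∀ i, x i ∈ maximalIdeal A) :
    γ σ • discDiv Mod x = discDiv Mod (fun i => σA (x i)) := by
  unfold discDiv
  rw [Finset.smul_sum]
  refine Finset.sum_congr rfl fun j _ => ?_
  rw [SemilinearAut.smul_single, smul_P N Mod hC hComp σ σA hσ hγφ _ (x j) (hx j)]

variable (hdeg : ∀ (j : Fin d) (t : A), (Mod.P j t).deg = 1)

include hC hComp hσ hγφ in
/-- **equivariance of `θ`.** -/
theorem smul_theta (x : Fin g → A) (hx : ∀ i, x i ∈ maximalIdeal A) :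
    γ σ • theta Mod hdeg x = theta Mod hdeg (fun i => σA (x i)) := by
  unfold theta
  rw [pic0_smul_mk]
  congr 1
  apply Subtype.ext
  rw [coe_degZeroSMulHom]
  show γ σ • (discDiv Mod x - discDiv Mod (fun _ => (0 : A))) = _
  rw [smul_sub, smul_discDiv N Mod hC hComp σ σA hσ hγφ x hx,
    smul_discDiv N Mod hC hComp σ σA hσ hγφ _ (fun _ => Ideal.zero_mem _)]
  simp only [map_zero]

end Equivariance

/-! ### the input of the nodal assembly -/

section Input

open Fermat.Agent.FF.ThetaGlue8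

variable {K : Type} [Field K] {A : ValuationSubring K} {F : Type*} [Field F] [Algebra K F]
variable {Fb₁ Fb₂ : Type*} [Field Fb₁] [Field Fb₂]
  [Algebra (ResidueField A) Fb₁] [Algebra (ResidueField A) Fb₂]
variable {ι : Type*} {Nd : NodalData (ResidueField A) Fb₁ Fb₂ ι} (N : NodalRed A F Nd)
variable {g d : ℕ} (Mod : NDiscModel A F g d) {c : Fin d → NPt N}
variable (hdeg : ∀ (j : Fin d) (t : A), (Mod.P j t).deg = 1)
variable {Γ : Type*} [Group Γ] [MulSemiringAction Γ K] [DistribMulAction Γ (Pic0 K F)]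
variable {M : Type} [AddCommGroup M] [DistribMulAction Γ M]

/-- **the input of the nodal assembly** from: the disc model sitting over the nodal reduction, a
compatible family of semilinear automorphisms fixing `φ`, injectivity of `θ`, contract (d) at every
level `p ^ m`, and an equivariant embedding of `M` into the formal part. -/
def nthetaInput (hC : DiscCompat N Mod c)
    (hΓA : ∀ (σ : Γ) (a : K), a ∈ A → σ • a ∈ A)
    (γ : Γ → SemilinearAut K F)
    (hγ : ∀ (σ : Γ) (z : Pic0 K F), σ • z = γ σ • z)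
    (hγK : ∀ (σ : Γ) (a : K), baseAut (γ σ) a = σ • a)
    (hγφ : ∀ σ : Γ, γ σ • Mod.φ = Mod.φ)
    (hComp : N.Compat γ)
    (hinj : ThetaInjStatement Mod hdeg)
    (p : ℕ) (hsurj : ∀ m : ℕ, ThetaSurjStatement N Mod hdeg (p ^ m))
    (emb : M →+ Pic0 K F) (emb_inj : Function.Injective emb)
    (emb_smul : ∀ (σ : Γ) (z : M), emb (σ • z) = σ • emb z)
    (hM : ∀ z : M, emb z ∈ formalN N p) :
    NThetaInput Mod hdeg Γ M where
  hΓA := hΓA
  emb := emb
  emb_inj := emb_inj
  emb_smul := emb_smul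
  theta_inj := hinj
  theta_surj z := exists_theta_eq_of_mem_formalN N Mod hdeg hsurj (hM z)
  theta_smul σ x hx := by
    rw [hγ, ← sigmaA_tuple hΓA σ x]
    exact (smul_theta N Mod hC hComp σ (sigmaA hΓA σ) (fun a => (hγK σ (a : K)).symm)
      (hγφ σ) hdeg x hx).symm

end Input

end Fermat.Agent.T33.NodalInput7
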