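/-
Programme T (S33), nodal layer, chapter N-E (helper7): **injectivity of `θ` on `𝔪_A ^ g`** for a
nodal disc model sitting over a nodal reduction (`NodalIface8.ThetaInjStatement`).

Input: `N : NodalRed A F Nd`, `Mod : NDiscModel A F g d`, `DiscCompat N Mod c` (the `j`-th disc is
the set of places reducing to the smooth point `c j`), contract (b1) `Semicont N`
(`l(D) ≤ l^nod(r_* D)` for divisors with smooth-reduction support), `NonSpecialAt N hgd c`
(`l^nod(Ē) = 1` for the sum `Ē` of the first `g` centres), `LHyp K F`, disjointness of the discs.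

* `pushDiv_add`, `pushDiv_sum`, `pushDiv_single` : the push-forward along the partial reductions is
  additive, and a point reducing to a smooth point `Q` pushes forward to `Q`;
* `pushDiv_discDiv` : `r_* D(x) = Ē` for `x ∈ 𝔪_A ^ g`;  `smoothSupp_discDiv`;
* `ell_discDiv_le_one`, `const_of_mem_L` : `L(D(x)) = K`;
* `discDiv_injective`;
* **`thetaInj`** : `ThetaInjStatement Mod hdeg` (port of `FF/ThetaKer5.theta_injective`).
-/
import Mathlib
import Fermat.Agent.T33.NodalMeaning8
import Fermat.Agent.RR.LSpace

set_option autoImplicit false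
set_option linter.unusedSectionVars false

open AlgebraicCurve IsLocalRing

noncomputable section

namespace Fermat.Agent.T33.NodalThetaInj7

open Fermat.Agent.FF.GeomIface8 Fermat.Agent.X0.FF Fermat.Agent.RR.LSpace
  Fermat.Agent.T33.NodalCtx1 Fermat.Agent.T33.NodalCurve6 Fermat.Agent.T33.NodalIface8

variable {K : Type*} [Field K] {A : ValuationSubring K} {F : Type*} [Field F] [Algebra K F]
variable {Fb₁ Fb₂ : Type*} [Field Fb₁] [Field Fb₂]
  [Algebra (ResidueField A) Fb₁] [Algebra (ResidueField A) Fb₂]
variable {ι : Type*} {Nd : NodalData (ResidueField A) Fb₁ Fb₂ ι} (N : NodalRed A F Nd)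

/-! ### additivity of the push-forward -/

section Push

theorem push₁_add (D D' : Divisor K F) : push₁ N (D + D') = push₁ N D + push₁ N D' := by
  unfold push₁
  rw [Finsupp.mapDomain_add, Finsupp.some_add]

theorem push₂_add (D D' : Divisor K F) : push₂ N (D + D') = push₂ N D + push₂ N D' := by
  unfold push₂
  rw [Finsupp.mapDomain_add, Finsupp.some_add]

theorem push₁_zero : push₁ N (0 : Divisor K F) = 0 := by
  unfold push₁
  rw [Finsupp.mapDomain_zero, Finsupp.some_zero]

theorem push₂_zero : push₂ N (0 : Divisor K F) = 0 := by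
  unfold push₂
  rw [Finsupp.mapDomain_zero, Finsupp.some_zero]

theorem pushDiv_add (D D' : Divisor K F) : pushDiv N (D + D') = pushDiv N D + pushDiv N D' :=
  Prod.ext (push₁_add N D D') (push₂_add N D D')

theorem pushDiv_zero : pushDiv N (0 : Divisor K F) = 0 :=
  Prod.ext (push₁_zero N) (push₂_zero N)

theorem pushDiv_sum {α : Type*} (s : Finset α) (f : α → Divisor K F) :
    pushDiv N (∑ a ∈ s, f a) = ∑ a ∈ s, pushDiv N (f a) := by
  classical
  induction s using Finset.induction_on with
  | empty => rw [Finset.sum_empty, Finset.sum_empty, pushDiv_zero]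
  | insert a s ha ih => rw [Finset.sum_insert ha, Finset.sum_insert ha, pushDiv_add, ih]

theorem push₁_single_some {P : Place K F} {Q : Place (ResidueField A) Fb₁} (h : N.r₁ P = some Q)
    (n : ℤ) : push₁ N (Finsupp.single P n) = Finsupp.single Q n := by
  unfold push₁
  rw [Finsupp.mapDomain_single, h, Finsupp.some_single_some]

theorem push₁_single_none {P : Place K F} (h : N.r₁ P = none) (n : ℤ) :
    push₁ N (Finsupp.single P n) = 0 := by
  unfold push₁
  rw [Finsupp.mapDomain_single, h, Finsupp.some_single_none]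

theorem push₂_single_some {P : Place K F} {Q : Place (ResidueField A) Fb₂} (h : N.r₂ P = some Q)
    (n : ℤ) : push₂ N (Finsupp.single P n) = Finsupp.single Q n := by
  unfold push₂
  rw [Finsupp.mapDomain_single, h, Finsupp.some_single_some]

theorem push₂_single_none {P : Place K F} (h : N.r₂ P = none) (n : ℤ) :
    push₂ N (Finsupp.single P n) = 0 := by
  unfold push₂
  rw [Finsupp.mapDomain_single, h, Finsupp.some_single_none]

/-- a point reducing to the smooth point `Q` pushes forward to `Q`. -/
theorem pushDiv_single {P : Place K F} {Q : NPt N} (h : RedTo N P Q) (hs : SmoothPt N Q) :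
    pushDiv N (Finsupp.single P (1 : ℤ)) = nsingle N Q := by
  cases Q with
  | inl Q =>
    have h1 : N.r₁ P = some Q := h
    have h2 : N.r₂ P = none := N.smooth₁ P Q h1 hs
    exact Prod.ext (push₁_single_some N h1 1) (push₂_single_none N h2 1)
  | inr Q =>
    have h2 : N.r₂ P = some Q := h
    have h1 : N.r₁ P = none := N.smooth₂ P Q h2 hs
    exact Prod.ext (push₁_single_none N h1 1) (push₂_single_some N h2 1)

/-- a point reducing to a smooth point has smooth reduction. -/
theorem isSmoothRed_of_redTo {P : Place K F} {Q : NPt N} (h : RedTo N P Q) (hs : SmoothPt N Q) :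
    N.IsSmoothRed P := by
  cases Q with
  | inl Q => exact Or.inl ⟨Q, h, hs⟩
  | inr Q => exact Or.inr ⟨Q, h, hs⟩

end Push

/-! ### the divisors `D(x)` -/

section Disc

variable {g d : ℕ} (Mod : NDiscModel A F g d) {c : Fin d → NPt N} (hC : DiscCompat N Mod c)

include hC in
/-- **`r_* D(x) = Ē`** for `x ∈ 𝔪_A ^ g`. -/
theorem pushDiv_discDiv (x : Fin g → A) (hx : ∀ i, x i ∈ maximalIdeal A) :
    pushDiv N (discDiv Mod x) = centreDiv N Mod.hgd c := by
  unfold discDiv centreDiv
  rw [pushDiv_sum]
  refine Finset.sum_congr rfl fun j _ => ?_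
  exact pushDiv_single N (hC.center _ _ (hx j)) (hC.c_smooth _)

include hC in
/-- the points of `D(x)` have smooth reduction. -/
theorem smoothSupp_discDiv (x : Fin g → A) (hx : ∀ i, x i ∈ maximalIdeal A) :
    SmoothSupp N (discDiv Mod x) := by
  classical
  intro P hP
  unfold discDiv at hP
  rw [Finsupp.finsetSum_apply] at hP
  obtain ⟨j, -, hj⟩ := Finset.exists_ne_zero_of_sum_ne_zero hP
  rw [Finsupp.single_apply] at hj
  have hPj : Mod.P (Fin.castLE Mod.hgd j) (x j) = P := by
    by_contra hne
    exact hj (if_neg hne)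
  rw [← hPj]
  exact isSmoothRed_of_redTo N (hC.center _ _ (hx j)) (hC.c_smooth _)

theorem discDiv_nonneg (x : Fin g → A) (Q : Place K F) : 0 ≤ discDiv Mod x Q := by
  classical
  unfold discDiv
  rw [Finsupp.finsetSum_apply]
  refine Finset.sum_nonneg fun j _ => ?_
  rw [Finsupp.single_apply]
  split_ifs <;> norm_num

include hC in
/-- `l(D(x)) ≤ 1`. -/
theorem ell_discDiv_le_one (hsemi : Semicont N) (hns : NonSpecialAt N Mod.hgd c)
    (x : Fin g → A) (hx : ∀ i, x i ∈ maximalIdeal A) :
    Fermat.Agent.FF.SpecRR1.ell (discDiv Mod x) ≤ 1 := by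
  have h1 := hsemi (discDiv Mod x) (smoothSupp_discDiv N Mod hC x hx)
  rw [pushDiv_discDiv N Mod hC x hx] at h1
  have h2 : Nd.ell (centreDiv N Mod.hgd c) = 1 := hns
  rw [h2] at h1
  exact h1

include hC in
/-- **`L(D(x)) = K`.** -/
theorem const_of_mem_L (H : LHyp K F) (hsemi : Semicont N) (hns : NonSpecialAt N Mod.hgd c)
    (x : Fin g → A) (hx : ∀ i, x i ∈ maximalIdeal A) (f : F) (hf : f ≠ 0)
    (hL : ∀ P : Place K F, 0 ≤ P.ord f + discDiv Mod x P) : f ∈ (algebraMap K F).range := by
  classical
  by_contra hnc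
  have hle := ell_discDiv_le_one N Mod hC hsemi hns x hx
  unfold Fermat.Agent.FF.SpecRR1.ell at hle
  have : FiniteDimensional K (riemannRochSpace (discDiv Mod x)) :=
    finiteDimensional_L H (discDiv Mod x)
  have hfL : f ∈ riemannRochSpace (discDiv Mod x) := by
    rw [mem_L_iff hf]
    intro v
    have := hL v
    omega
  have h1L : (1 : F) ∈ riemannRochSpace (discDiv Mod x) := by
    rw [mem_L_iff one_ne_zero]
    intro v
    have := discDiv_nonneg Mod x v
    rw [Place.ord_one]
    omega
  -- `1` and `f` are linearly independent in `L(D(x))`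
  have hli : LinearIndependent K
      (![⟨1, h1L⟩, ⟨f, hfL⟩] : Fin 2 → riemannRochSpace (discDiv Mod x)) := by
    rw [LinearIndependent.pair_iff]
    intro a b hab
    have hab' : a • (1 : F) + b • f = 0 := by
      have := congrArg Subtype.val hab
      simpa using this
    by_cases hb : b = 0
    · subst hb
      rw [zero_smul, add_zero, Algebra.smul_def, mul_one] at hab'
      exact ⟨(map_eq_zero (algebraMap K F)).1 hab', rfl⟩
    · exfalso
      apply hnc
      refine ⟨-(b⁻¹ * a), ?_⟩
      have h2 : b • f = -(a • (1 : F)) := eq_neg_of_add_eq_zero_right hab'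
      have h3 : f = b⁻¹ • (b • f) := by rw [smul_smul, inv_mul_cancel₀ hb, one_smul]
      rw [h3, h2, Algebra.smul_def, Algebra.smul_def, mul_one, map_neg, map_mul, mul_neg]
  have h2 := hli.fintype_card_le_finrank
  rw [Fintype.card_fin] at h2
  omega

variable (hdisj : ∀ (j j' : Fin d) (t t' : A), t ∈ maximalIdeal A → t' ∈ maximalIdeal A →
  Mod.P j t = Mod.P j' t' → j = j')

include hdisj in
theorem discDiv_injective (x x' : Fin g → A) (hx : ∀ i, x i ∈ maximalIdeal A)
    (hx' : ∀ i, x' i ∈ maximalIdeal A) (h : discDiv Mod x = discDiv Mod x') : x = x' := by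
  classical
  funext j
  have h2 : discDiv Mod x (Mod.P (Fin.castLE Mod.hgd j) (x j)) =
      discDiv Mod x' (Mod.P (Fin.castLE Mod.hgd j) (x j)) := by rw [h]
  rw [Fermat.Agent.T33.NodalMeaning8.discDiv_apply_low Mod x hdisj hx j (x j) (hx j),
    Fermat.Agent.T33.NodalMeaning8.discDiv_apply_low Mod x' hdisj hx' j (x j) (hx j),
    if_pos rfl] at h2
  by_contra hne
  rw [if_neg hne] at h2
  exact one_ne_zero h2

variable (hdeg : ∀ (j : Fin d) (t : A), (Mod.P j t).deg = 1)

include hC hdisj in
/-- **injectivity of `θ` on `𝔪_A ^ g`** (chapter N-E). -/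
theorem thetaInj (H : LHyp K F) (hsemi : Semicont N) (hns : NonSpecialAt N Mod.hgd c) :
    ThetaInjStatement Mod hdeg := by
  intro x x' hx hx' h
  unfold theta at h
  have h2 := (QuotientAddGroup.eq).1 h
  rw [AddSubgroup.mem_addSubgroupOf] at h2
  obtain ⟨f, hf, hdiv⟩ := h2
  have hord : ∀ P : Place K F, P.ord f = discDiv Mod x' P - discDiv Mod x P := by
    intro P
    rw [← hdiv P]
    simp only [AddSubgroup.coe_add, NegMemClass.coe_neg, Finsupp.add_apply, Finsupp.neg_apply,
      Finsupp.sub_apply]
    ring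
  have hL : ∀ P : Place K F, 0 ≤ P.ord f + discDiv Mod x P := by
    intro P
    rw [hord P]
    have := discDiv_nonneg Mod x' P
    linarith
  obtain ⟨a, rfl⟩ := const_of_mem_L N Mod hC H hsemi hns x hx f hf hL
  apply discDiv_injective Mod hdisj x x' hx hx'
  ext P
  have := hord P
  rw [ord_algebraMap] at this
  linarith

end Disc

end Fermat.Agent.T33.NodalThetaInj7
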