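/-
Programme T (S33), nodal layer, INTEGRATION (helper8): **the geometric statement (NF) from a nodal
reduction** — all the abstract nodal chapters put together.

Input (what chapter (e) and the concrete half of chapter N-F must deliver, over `K = ℚ̄`,
`A` a valuation ring of `ℚ̄` over `p`, `Γ = Iner A`):
* `N : NodalRed A F Nd` with finitely many nodes, compatible with the inertia action
  (`NodalRed.Compat`), many smooth places on each component, `LHyp` on the three function fields;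
* Riemann–Roch on `F` with the genus `g` (equality in degree `> 2g - 2`, inequality always);
* `Nd.NonSpecialExists g` (contract (c));
* a coordinate `s ∈ O₁ ⊓ O₂` fixed by the inertia group, whose reductions are separable generators,
  regular at the branches of the nodes, with `deg (s)_∞ ≤ deg (s̄₁)_∞ + deg (s̄₂)_∞`;
* a finite `Γ`-module `M` with an equivariant embedding into the formal part
  `Psi3F.formalN N p ⊆ Pic⁰` (= `ker Ψ`).
Output: `ConnOrd2.HasConnOrder (W0 A) (Iner A) A M` — `M` carries a connected Hopf order over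
`(W₀, Γ)`: statement (NF) of Programme T.

Chapters used: N-F `NodalChoose8B.exists_disc_data_of_hdeg`; N-A `NodalAbs1A.weakGauss`; N-D
`NodalDisc8B.discModel`, `discCompat`, `discModel_disjoint`, `discModel_deg`; N-B
`NodalLat2.semicont`, `NodalCore2.exists_coreData`; N-E `NodalThetaInj7.thetaInj`,
`NodalAbs1C.thetaSurj`, `NodalInput7.nthetaInput`; assembly `NodalAsm8.hasConnOrder`.
-/
import Mathlib
import Fermat.Agent.T33.NodalAsm8
import Fermat.Agent.T33.NodalChoose8B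
import Fermat.Agent.T33.NodalCore2C
import Fermat.Agent.T33.NodalThetaInj7
import Fermat.Agent.T33.NodalInput7
import Fermat.Agent.T33.NodalAbs1C
import Fermat.Agent.T33.NodalLat2E
import Fermat.Agent.FF.TeichLift4
import Fermat.Agent.FF.ThetaBridge5

set_option autoImplicit false

open AlgebraicCurve IntermediateField IsLocalRing

namespace Fermat.Agent.T33.NodalMain8

open Fermat.Agent.X0 Fermat.Agent.X0.FF Fermat.Agent.RR.LSpace Fermat.Agent.RR.Riemann
  Fermat.Agent.FF.SpecRR1 Fermat.Agent.FF.GeomIface8 Fermat.Agent.FF.CoreIface8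
  Fermat.Agent.FF.InertiaWire8 Fermat.Agent.FF.SubOrd1
  Fermat.Agent.T33.NodalCtx1 Fermat.Agent.T33.NodalCurve6 Fermat.Agent.T33.NodalIface8
  Fermat.Agent.T33.NodalDisc8B Fermat.Agent.T33.NodalLat2 Fermat.Agent.T33.ConnOrd2
  Fermat.Agent.T33.Psi3F AlgebraicCurve.SemilinearAut

variable {A : ValuationSubring Qb} {F : Type*} [Field F] [Algebra Qb F]
variable {Fb₁ Fb₂ : Type*} [Field Fb₁] [Field Fb₂]
  [Algebra (ResidueField A) Fb₁] [Algebra (ResidueField A) Fb₂]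
variable {ι : Type*} {Nd : NodalData (ResidueField A) Fb₁ Fb₂ ι} (N : NodalRed A F Nd)
variable [DistribMulAction (Iner A) (Pic0 Qb F)]

/-- **(NF) from a nodal reduction.** -/
theorem hasConnOrder_of_nodalRed [Finite ι] {p : ℕ} (hp : p.Prime) (hA : A.LiesOverPrime p)
    (H : LHyp Qb F) (H₁ : LHyp (ResidueField A) Fb₁) (H₂ : LHyp (ResidueField A) Fb₂)
    (hmany₁ : HasManySmooth₁ N) (hmany₂ : HasManySmooth₂ N)
    (g : ℕ)
    (hRR : ∀ D : Divisor Qb F, 2 * (g : ℤ) - 2 < Divisor.degree D →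
      (Module.finrank Qb (riemannRochSpace D) : ℤ) = Divisor.degree D + 1 - g)
    (hR : ∀ D : Divisor Qb F, Divisor.degree D + 1 - (g : ℤ) ≤ ell D)
    (hNS : Nd.NonSpecialExists g)
    -- the coordinate
    (s : F) (hs₁ : s ∈ N.c₁.O) (hs₂ : s ∈ N.c₂.O)
    (hx₁ : IsGen (ResidueField A) (N.c₁.ρ ⟨s, hs₁⟩))
    [Algebra.IsSeparable (ResidueField A)⟮N.c₁.ρ ⟨s, hs₁⟩⟯ Fb₁]
    (hx₂ : IsGen (ResidueField A) (N.c₂.ρ ⟨s, hs₂⟩))
    [Algebra.IsSeparable (ResidueField A)⟮N.c₂.ρ ⟨s, hs₂⟩⟯ Fb₂]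
    (hbr₁ : ∀ i, 0 ≤ (Nd.s1 i).ord (N.c₁.ρ ⟨s, hs₁⟩))
    (hbr₂ : ∀ i, 0 ≤ (Nd.s2 i).ord (N.c₂.ρ ⟨s, hs₂⟩))
    (hs0 : s ≠ 0) (hρ₁ : N.c₁.ρ ⟨s, hs₁⟩ ≠ 0) (hρ₂ : N.c₂.ρ ⟨s, hs₂⟩ ≠ 0)
    (hdeg : Divisor.degree (poleDiv H hs0) ≤
      Divisor.degree (poleDiv H₁ hρ₁) + Divisor.degree (poleDiv H₂ hρ₂))
    -- the inertia action
    (γ : Iner A → SemilinearAut Qb F)
    (hγ : ∀ (σ : Iner A) (z : Pic0 Qb F), σ • z = γ σ • z)
    (hγK : ∀ (σ : Iner A) (a : Qb), baseAut (γ σ) a = σ • a)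
    (hComp : N.Compat γ) (hγs : ∀ σ : Iner A, γ σ • s = s)
    -- the group
    {M : Type} [AddCommGroup M] [Finite M] [DistribMulAction (Iner A) M]
    (emb : M →+ Pic0 Qb F) (emb_inj : Function.Injective emb)
    (emb_smul : ∀ (σ : Iner A) (z : M), emb (σ • z) = σ • emb z)
    (hM : ∀ z : M, emb z ∈ formalN N p) :
    HasConnOrder (W0 A) (Iner A) A M := by
  have : Fact p.Prime := ⟨hp⟩
  have : IsAlgClosed (ResidueField A) := Fermat.Agent.FF.TeichLift4.isAlgClosed_residueField A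
  have : CharP (ResidueField A) p := Fermat.Agent.FF.TeichLift4.charP_residueField' hp hA
  -- inertia-fixed lifts of the constants
  have hTL : ∀ a : ResidueField A, ∃ c : A, residue A c = a ∧
      ∀ σ : Iner A, baseAut (γ σ) (c : Qb) = c := by
    intro a
    obtain ⟨c, hc, hfix⟩ := Fermat.Agent.FF.TeichLift4.exists_fixed_lift hp hA a
    exact ⟨c, hc, fun σ => by rw [hγK]; exact hfix σ.1 σ.2⟩
  -- chapter N-F: the data
  obtain ⟨m, φ, hφ₁, hφ₂, c, hρφ₁, hρφ₂, hinj, hc, hNSat, hγφ, hzero, hpole, -, -⟩ :=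
    NodalChoose8B.exists_disc_data_of_hdeg N H H₁ H₂ s hs₁ hs₂ hx₁ hx₂ hbr₁ hbr₂ hs0 hρ₁ hρ₂ hdeg
      γ hγs hTL g hNS
  -- chapter N-D: the disc model
  have hWG : N.WeakGauss := NodalAbs1A.weakGauss N H H₁ H₂
  set Mod := discModel N H φ hφ₁ hφ₂ hρφ₁ hρφ₂ c hc (Nat.le_add_right g m) hWG with hMod
  have hdegP : ∀ (j : Fin (g + m)) (t : A), (Mod.P j t).deg = 1 :=
    discModel_deg N H φ hφ₁ hφ₂ hρφ₁ hρφ₂ c hc (Nat.le_add_right g m) hWG
  have hDC : DiscCompat N Mod c :=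
    discCompat N H φ hφ₁ hφ₂ hρφ₁ hρφ₂ c hc (Nat.le_add_right g m) hWG hinj
  have hdisj := discModel_disjoint N H φ hφ₁ hφ₂ hρφ₁ hρφ₂ c hc (Nat.le_add_right g m) hWG hinj
  -- chapter N-B: the lattice
  obtain ⟨n, D, L, hcf⟩ := NodalCore2.exists_coreData N H φ hφ₁ hφ₂ hρφ₁ hρφ₂ c hc H₁ H₂
    hmany₁ hmany₂ (Nat.le_add_right g m) hWG hinj hzero hpole hRR hNSat
  have hsemi : Semicont N := semicont H H₁ H₂ hmany₁ hmany₂
  -- chapter N-E: `θ`
  have hθinj : ThetaInjStatement Mod hdegP :=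
    NodalThetaInj7.thetaInj N Mod hDC hdisj hdegP H hsemi hNSat
  have hθsurj : ∀ k : ℕ, ThetaSurjStatement N Mod hdegP (p ^ k) := fun k =>
    NodalAbs1C.thetaSurj N Mod hdegP hDC hNSat H
      (Fermat.Agent.FF.ThetaBridge5.riemannEff_of_riemann H g hR) p k
      (fun a => IsAlgClosed.exists_pow_nat_eq a (pow_pos hp.pos k))
  have I : NThetaInput Mod hdegP (Iner A) M :=
    NodalInput7.nthetaInput N Mod hdegP hDC (hΓA A) γ hγ hγK (fun σ => hγφ σ) hComp hθinj p hθsurj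
      emb emb_inj emb_smul hM
  exact NodalAsm8.hasConnOrder I hp hA hcf L hdisj

end Fermat.Agent.T33.NodalMain8
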