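/-
Programme T (S33), nodal layer, FINAL ABSTRACT INTEGRATION (helper8): `NodalMain8` with the
auxiliary hypotheses discharged.

`hasConnOrder_of_coordinate` : the hypotheses `HasManySmooth₁/₂`, `s ≠ 0`, `ρ_i s ≠ 0` of
`NodalMain8.hasConnOrder_of_nodalRed` follow from `IsGen κ (ρ_i s)` (`NodalMany2`); the residual
input is: `N : NodalRed A F Nd` with finitely many nodes + `Compat` for the inertia action,
`LHyp` on the three function fields, Riemann–Roch on `F` with the genus `g`,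
`Nd.NonSpecialExists g` (contract (c)), the coordinate `s`, and `M ↪ formalN N p`.

`hasConnOrder_subgroup` : the same for a finite `Iner A`-stable subgroup `M` of `Pic⁰` contained in
the formal part, with the restricted action.
-/
import Mathlib
import Fermat.Agent.T33.NodalMain8
import Fermat.Agent.T33.NodalMany2

set_option autoImplicit false

open AlgebraicCurve IntermediateField IsLocalRing

namespace Fermat.Agent.T33.NodalFinal8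

open Fermat.Agent.X0 Fermat.Agent.X0.FF Fermat.Agent.RR.LSpace Fermat.Agent.RR.Riemann
  Fermat.Agent.FF.SpecRR1 Fermat.Agent.FF.InertiaWire8
  Fermat.Agent.T33.NodalCtx1 Fermat.Agent.T33.NodalCurve6 Fermat.Agent.T33.NodalIface8
  Fermat.Agent.T33.NodalLat2 Fermat.Agent.T33.ConnOrd2
  Fermat.Agent.T33.Psi3F AlgebraicCurve.SemilinearAut

variable {A : ValuationSubring Qb} {F : Type*} [Field F] [Algebra Qb F]
variable {Fb₁ Fb₂ : Type*} [Field Fb₁] [Field Fb₂]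
  [Algebra (ResidueField A) Fb₁] [Algebra (ResidueField A) Fb₂]
variable {ι : Type*} {Nd : NodalData (ResidueField A) Fb₁ Fb₂ ι} (N : NodalRed A F Nd)
variable [DistribMulAction (Iner A) (Pic0 Qb F)]

/-- **(NF) from a nodal reduction and a coordinate.** -/
theorem hasConnOrder_of_coordinate [Finite ι] {p : ℕ} (hp : p.Prime) (hA : A.LiesOverPrime p)
    (H : LHyp Qb F) (H₁ : LHyp (ResidueField A) Fb₁) (H₂ : LHyp (ResidueField A) Fb₂)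
    (g : ℕ)
    (hRR : ∀ D : Divisor Qb F, 2 * (g : ℤ) - 2 < Divisor.degree D →
      (Module.finrank Qb (riemannRochSpace D) : ℤ) = Divisor.degree D + 1 - g)
    (hR : ∀ D : Divisor Qb F, Divisor.degree D + 1 - (g : ℤ) ≤ ell D)
    (hNS : Nd.NonSpecialExists g)
    (s : F) (hs₁ : s ∈ N.c₁.O) (hs₂ : s ∈ N.c₂.O)
    (hx₁ : IsGen (ResidueField A) (N.c₁.ρ ⟨s, hs₁⟩))
    [Algebra.IsSeparable (ResidueField A)⟮N.c₁.ρ ⟨s, hs₁⟩⟯ Fb₁]
    (hx₂ : IsGen (ResidueField A) (N.c₂.ρ ⟨s, hs₂⟩))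
    [Algebra.IsSeparable (ResidueField A)⟮N.c₂.ρ ⟨s, hs₂⟩⟯ Fb₂]
    (hbr₁ : ∀ i, 0 ≤ (Nd.s1 i).ord (N.c₁.ρ ⟨s, hs₁⟩))
    (hbr₂ : ∀ i, 0 ≤ (Nd.s2 i).ord (N.c₂.ρ ⟨s, hs₂⟩))
    (hdeg : ∀ (hs0 : s ≠ 0) (hρ₁ : N.c₁.ρ ⟨s, hs₁⟩ ≠ 0) (hρ₂ : N.c₂.ρ ⟨s, hs₂⟩ ≠ 0),
      Divisor.degree (poleDiv H hs0) ≤
        Divisor.degree (poleDiv H₁ hρ₁) + Divisor.degree (poleDiv H₂ hρ₂))
    (γ : Iner A → SemilinearAut Qb F)
    (hγ : ∀ (σ : Iner A) (z : Pic0 Qb F), σ • z = γ σ • z)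
    (hγK : ∀ (σ : Iner A) (a : Qb), baseAut (γ σ) a = σ • a)
    (hComp : N.Compat γ) (hγs : ∀ σ : Iner A, γ σ • s = s)
    {M : Type} [AddCommGroup M] [Finite M] [DistribMulAction (Iner A) M]
    (emb : M →+ Pic0 Qb F) (emb_inj : Function.Injective emb)
    (emb_smul : ∀ (σ : Iner A) (z : M), emb (σ • z) = σ • emb z)
    (hM : ∀ z : M, emb z ∈ formalN N p) :
    HasConnOrder (W0 A) (Iner A) A M := by
  have : Infinite (ResidueField A) := Fermat.Agent.FF.TeichLift4.infinite_residueField A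
  have hρ₁ : N.c₁.ρ ⟨s, hs₁⟩ ≠ 0 := hx₁.ne_zero
  have hρ₂ : N.c₂.ρ ⟨s, hs₂⟩ ≠ 0 := hx₂.ne_zero
  have hs0 : s ≠ 0 := by
    intro h0
    apply hρ₁
    have : (⟨s, hs₁⟩ : N.c₁.O) = 0 := Subtype.ext h0
    rw [this, map_zero]
  have hmany₁ : HasManySmooth₁ N := hasManySmooth₁_of_nonconst N H H₁ ⟨s, hs₁⟩
    (fun c h => hx₁.sub_algebraMap_ne_zero c (sub_eq_zero.2 h))
  have hmany₂ : HasManySmooth₂ N := hasManySmooth₂_of_nonconst N H H₂ ⟨s, hs₂⟩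
    (fun c h => hx₂.sub_algebraMap_ne_zero c (sub_eq_zero.2 h))
  exact NodalMain8.hasConnOrder_of_nodalRed N hp hA H H₁ H₂ hmany₁ hmany₂ g hRR hR hNS s hs₁ hs₂
    hx₁ hx₂ hbr₁ hbr₂ hs0 hρ₁ hρ₂ (hdeg hs0 hρ₁ hρ₂) γ hγ hγK hComp hγs emb emb_inj emb_smul hM

/-- **(NF) for a finite stable subgroup of the formal part**, with the restricted action
(`F : Type`, as `NThetaInput` asks for `M : Type`). -/
theorem hasConnOrder_subgroup {F : Type} [Field F] [Algebra Qb F]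
    {Nd : NodalData (ResidueField A) Fb₁ Fb₂ ι} (N : NodalRed A F Nd)
    [DistribMulAction (Iner A) (Pic0 Qb F)] [Finite ι] {p : ℕ} (hp : p.Prime) (hA : A.LiesOverPrime p)
    (H : LHyp Qb F) (H₁ : LHyp (ResidueField A) Fb₁) (H₂ : LHyp (ResidueField A) Fb₂)
    (g : ℕ)
    (hRR : ∀ D : Divisor Qb F, 2 * (g : ℤ) - 2 < Divisor.degree D →
      (Module.finrank Qb (riemannRochSpace D) : ℤ) = Divisor.degree D + 1 - g)
    (hR : ∀ D : Divisor Qb F, Divisor.degree D + 1 - (g : ℤ) ≤ ell D)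
    (hNS : Nd.NonSpecialExists g)
    (s : F) (hs₁ : s ∈ N.c₁.O) (hs₂ : s ∈ N.c₂.O)
    (hx₁ : IsGen (ResidueField A) (N.c₁.ρ ⟨s, hs₁⟩))
    [Algebra.IsSeparable (ResidueField A)⟮N.c₁.ρ ⟨s, hs₁⟩⟯ Fb₁]
    (hx₂ : IsGen (ResidueField A) (N.c₂.ρ ⟨s, hs₂⟩))
    [Algebra.IsSeparable (ResidueField A)⟮N.c₂.ρ ⟨s, hs₂⟩⟯ Fb₂]
    (hbr₁ : ∀ i, 0 ≤ (Nd.s1 i).ord (N.c₁.ρ ⟨s, hs₁⟩))
    (hbr₂ : ∀ i, 0 ≤ (Nd.s2 i).ord (N.c₂.ρ ⟨s, hs₂⟩))
    (hdeg : ∀ (hs0 : s ≠ 0) (hρ₁ : N.c₁.ρ ⟨s, hs₁⟩ ≠ 0) (hρ₂ : N.c₂.ρ ⟨s, hs₂⟩ ≠ 0),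
      Divisor.degree (poleDiv H hs0) ≤
        Divisor.degree (poleDiv H₁ hρ₁) + Divisor.degree (poleDiv H₂ hρ₂))
    (γ : Iner A → SemilinearAut Qb F)
    (hγ : ∀ (σ : Iner A) (z : Pic0 Qb F), σ • z = γ σ • z)
    (hγK : ∀ (σ : Iner A) (a : Qb), baseAut (γ σ) a = σ • a)
    (hComp : N.Compat γ) (hγs : ∀ σ : Iner A, γ σ • s = s)
    (M : AddSubgroup (Pic0 Qb F)) [Finite M]
    (hMΓ : ∀ (σ : Iner A) (z : Pic0 Qb F), z ∈ M → σ • z ∈ M)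
    (hM : M ≤ formalN N p) :
    letI : DistribMulAction (Iner A) M :=
      { smul := fun σ z => ⟨σ • (z : Pic0 Qb F), hMΓ σ z z.2⟩
        one_smul := fun z => Subtype.ext (one_smul _ (z : Pic0 Qb F))
        mul_smul := fun σ τ z => Subtype.ext (mul_smul σ τ (z : Pic0 Qb F))
        smul_zero := fun σ => Subtype.ext (smul_zero σ)
        smul_add := fun σ z w => Subtype.ext (smul_add σ (z : Pic0 Qb F) (w : Pic0 Qb F)) }
    HasConnOrder (W0 A) (Iner A) A M := by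
  let _ : DistribMulAction (Iner A) M :=
    { smul := fun σ z => ⟨σ • (z : Pic0 Qb F), hMΓ σ z z.2⟩
      one_smul := fun z => Subtype.ext (one_smul _ (z : Pic0 Qb F))
      mul_smul := fun σ τ z => Subtype.ext (mul_smul σ τ (z : Pic0 Qb F))
      smul_zero := fun σ => Subtype.ext (smul_zero σ)
      smul_add := fun σ z w => Subtype.ext (smul_add σ (z : Pic0 Qb F) (w : Pic0 Qb F)) }
  refine hasConnOrder_of_coordinate N hp hA H H₁ H₂ g hRR hR hNS s hs₁ hs₂ hx₁ hx₂ hbr₁ hbr₂ hdeg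
    γ hγ hγK hComp hγs (M := M) M.subtype Subtype.val_injective ?_ ?_
  · intro σ z
    rfl
  · intro z
    exact hM z.2

end Fermat.Agent.T33.NodalFinal8
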