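/-
Programme T (S33), nodal layer, FINAL ABSTRACT INTEGRATION, part B (helper8): **(NF) from a nodal
reduction and the coordinate `s = 1/(t - a) + 1/(y - a)`** — `NodalFinal8.hasConnOrder_of_coordinate`
with its function-field hypotheses (`IsGen`, separability, regularity at the branches of the nodes, the
degree inequality) discharged by helper2's `NodalCoord2` from

* `ρ₁ s = R_ā(x₁)`, `ρ₂ s = R_ā(x₂)` (`R_ā(x) = 1/(x - ā) + 1/(x ^ p - ā)`), `x_i` separable generators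
  of `Fb_i / κ`;
* `ā` outside the bad constants of the branches of the nodes;
* `deg (t)_∞ + deg (y)_∞ ≤ (1 + p) (deg (x₁)_∞ + deg (x₂)_∞)`.

`hasConnOrder_of_Rfun` (any `M ↪ formalN N p`), `hasConnOrder_subgroup_of_Rfun` (a finite stable
subgroup of `Pic⁰`, `F : Type`).  `CharP κ p` and `IsAlgClosed κ` are discharged inside.
-/
import Mathlib
import Fermat.Agent.T33.NodalFinal8
import Fermat.Agent.T33.NodalCoord2C
import Fermat.Agent.ES.KRON.KronInst10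

set_option autoImplicit false
set_option linter.style.haveILetI false

open AlgebraicCurve IntermediateField IsLocalRing

namespace Fermat.Agent.T33.NodalFinal8

open Fermat.Agent.X0 Fermat.Agent.X0.FF Fermat.Agent.RR.LSpace Fermat.Agent.RR.Riemann
  Fermat.Agent.FF.SpecRR1 Fermat.Agent.FF.InertiaWire8
  Fermat.Agent.T33.NodalCtx1 Fermat.Agent.T33.NodalCurve6 Fermat.Agent.T33.NodalIface8
  Fermat.Agent.T33.NodalLat2 Fermat.Agent.T33.ConnOrd2
  Fermat.Agent.T33.Psi3F AlgebraicCurve.SemilinearAut Fermat.Agent.T33.NodalCoord2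

variable {A : ValuationSubring Qb} {F : Type*} [Field F] [Algebra Qb F]
variable {Fb₁ Fb₂ : Type*} [Field Fb₁] [Field Fb₂]
  [Algebra (ResidueField A) Fb₁] [Algebra (ResidueField A) Fb₂]
variable {ι : Type*} {Nd : NodalData (ResidueField A) Fb₁ Fb₂ ι} (N : NodalRed A F Nd)
variable [DistribMulAction (Iner A) (Pic0 Qb F)]

/-- **(NF) from a nodal reduction and the coordinate `s = 1/(t - a) + 1/(y - a)`.** -/
theorem hasConnOrder_of_Rfun [Finite ι] {p : ℕ} [hp : Fact p.Prime] (hA : A.LiesOverPrime p)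
    (H : LHyp Qb F) (H₁ : LHyp (ResidueField A) Fb₁) (H₂ : LHyp (ResidueField A) Fb₂)
    (g : ℕ)
    (hRR : ∀ D : Divisor Qb F, 2 * (g : ℤ) - 2 < Divisor.degree D →
      (Module.finrank Qb (riemannRochSpace D) : ℤ) = Divisor.degree D + 1 - g)
    (hR : ∀ D : Divisor Qb F, Divisor.degree D + 1 - (g : ℤ) ≤ ell D)
    (hNS : Nd.NonSpecialExists g)
    (t y : F) (ht0 : t ≠ 0) (hy0 : y ≠ 0) (a : A)
    (hta : t - algebraMap Qb F (a : Qb) ≠ 0) (hya : y - algebraMap Qb F (a : Qb) ≠ 0)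
    (s : F) (hs : s = (t - algebraMap Qb F (a : Qb))⁻¹ + (y - algebraMap Qb F (a : Qb))⁻¹)
    (hs₁ : s ∈ N.c₁.O) (hs₂ : s ∈ N.c₂.O)
    (x₁ : Fb₁) (x₂ : Fb₂) (hx₁ : IsGen (ResidueField A) x₁)
    [Algebra.IsSeparable (ResidueField A)⟮x₁⟯ Fb₁]
    (hx₂ : IsGen (ResidueField A) x₂) [Algebra.IsSeparable (ResidueField A)⟮x₂⟯ Fb₂]
    (hρs₁ : haveI := Fermat.Agent.ES.KRON.KronInst10.charP_residueField A hp.out hA
      N.c₁.ρ ⟨s, hs₁⟩ = Rfun p x₁ (residue A a))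
    (hρs₂ : haveI := Fermat.Agent.ES.KRON.KronInst10.charP_residueField A hp.out hA
      N.c₂.ρ ⟨s, hs₂⟩ = Rfun p x₂ (residue A a))
    (ha₁ : haveI := Fermat.Agent.ES.KRON.KronInst10.charP_residueField A hp.out hA
      residue A a ∉ badConst p x₁ (Set.finite_range Nd.s1).toFinset)
    (ha₂ : haveI := Fermat.Agent.ES.KRON.KronInst10.charP_residueField A hp.out hA
      residue A a ∉ badConst p x₂ (Set.finite_range Nd.s2).toFinset)
    (hnum : Divisor.degree (poleDiv H ht0) + Divisor.degree (poleDiv H hy0) ≤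
      (1 + (p : ℤ)) * (Divisor.degree (poleDiv H₁ hx₁.ne_zero) +
        Divisor.degree (poleDiv H₂ hx₂.ne_zero)))
    (γ : Iner A → SemilinearAut Qb F)
    (hγ : ∀ (σ : Iner A) (z : Pic0 Qb F), σ • z = γ σ • z)
    (hγK : ∀ (σ : Iner A) (a : Qb), baseAut (γ σ) a = σ • a)
    (hComp : N.Compat γ) (hγs : ∀ σ : Iner A, γ σ • s = s)
    {M : Type} [AddCommGroup M] [Finite M] [DistribMulAction (Iner A) M]
    (emb : M →+ Pic0 Qb F) (emb_inj : Function.Injective emb)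
    (emb_smul : ∀ (σ : Iner A) (z : M), emb (σ • z) = σ • emb z)
    (hM : ∀ z : M, emb z ∈ formalN N p) :
    HasConnOrder (W0 A) (Iner A) A M := by
  haveI : CharP (ResidueField A) p :=
    Fermat.Agent.ES.KRON.KronInst10.charP_residueField A hp.out hA
  have hā : residue A a ^ p ≠ residue A a := pow_ne_of_notMem_badConst ha₁
  have hg₁ := isGen_of_eq_Rfun H₁ hx₁ hā hρs₁
  have hg₂ := isGen_of_eq_Rfun H₂ hx₂ hā hρs₂
  haveI := isSeparable_of_eq_Rfun hx₁.transcendental hρs₁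
  haveI := isSeparable_of_eq_Rfun hx₂.transcendental hρs₂
  have hbr₁ : ∀ i, 0 ≤ (Nd.s1 i).ord (N.c₁.ρ ⟨s, hs₁⟩) := fun i =>
    ord_nonneg_of_eq_Rfun H₁ hx₁.transcendental ha₁ hρs₁ (Nd.s1 i)
      ((Set.Finite.mem_toFinset _).2 ⟨i, rfl⟩)
  have hbr₂ : ∀ i, 0 ≤ (Nd.s2 i).ord (N.c₂.ρ ⟨s, hs₂⟩) := fun i =>
    ord_nonneg_of_eq_Rfun H₂ hx₂.transcendental ha₂ hρs₂ (Nd.s2 i)
      ((Set.Finite.mem_toFinset _).2 ⟨i, rfl⟩)
  have hdeg : ∀ (hs0 : s ≠ 0) (hρ₁ : N.c₁.ρ ⟨s, hs₁⟩ ≠ 0) (hρ₂ : N.c₂.ρ ⟨s, hs₂⟩ ≠ 0),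
      Divisor.degree (poleDiv H hs0) ≤
        Divisor.degree (poleDiv H₁ hρ₁) + Divisor.degree (poleDiv H₂ hρ₂) :=
    fun hs0 hρ₁ hρ₂ => hdeg_of_le H H₁ H₂ ht0 hy0 (a : Qb) hta hya hs hs0 hx₁.transcendental
      hx₂.transcendental hā hρs₁ hρs₂ hρ₁ hρ₂ hx₁.ne_zero hx₂.ne_zero hnum
  exact hasConnOrder_of_coordinate N hp.out hA H H₁ H₂ g hRR hR hNS s hs₁ hs₂ hg₁ hg₂ hbr₁ hbr₂
    hdeg γ hγ hγK hComp hγs emb emb_inj emb_smul hM

end Fermat.Agent.T33.NodalFinal8
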