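/-
Programme T (S33 via a trichotomy), chapter T5, file A (helper3): **the abstract Tate-module part**.

For an abelian group `J`, a prime `p` and a subgroup `𝒦 ≤ J` (the "formal part": the classes whose
Kummer function reduces to a `p^m`-th power on every component of the special fibre) we put

  `Kt p 𝒦 = {x ∈ T_p J | x_k ∈ 𝒦 for all k} : Submodule ℤ_[p] (TateModule p J)`.

* `Kt` is SATURATED (`mem_Kt_of_smul_mem`): `a • x ∈ Kt`, `a ≠ 0` imply `x ∈ Kt`; hence the quotient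
  `T_p J ⧸ Kt` is torsion-free (`eq_zero_of_smul_mkQ`, `noZeroSMulDivisors_quotient`) and
  `Kt ∩ p^k T_p J = p^k Kt` (`exists_eq_pow_smul_of_proj_eq_zero`), i.e. `Kt / p^k Kt` embeds in
  `𝒦 ∩ J[p^k]` through `proj k`.
* If a group `Γ` acts on `J` and `τ ∈ Γ` satisfies `τ • y - y ∈ 𝒦` for every `p`-power torsion `y`,
  then `rho τ x - x ∈ Kt` for all `x` (`rho_sub_mem_Kt`): the quotient map
  `Psi p 𝒦 : T_p J →ₗ[ℤ_[p]] T_p J ⧸ Kt p 𝒦` is `τ`-invariant (`Psi_rho`).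
* `Kt` is stable under `rho g` as soon as `𝒦` is stable under `g` (`rho_mem_Kt`).

Everything here is pure algebra on top of `ES/J/TateModule13`.
-/
import Mathlib
import Fermat.Agent.ES.J.TateModule13

set_option autoImplicit false

noncomputable section

namespace Fermat.Agent.T33.Psi3A

open Fermat.Agent.ES.J.TateModule13

variable {p : ℕ} [hp : Fact p.Prime] {J : Type*} [AddCommGroup J]

/-- the submodule of the Tate module of sequences all of whose terms lie in `𝒦`. -/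
def Kt (p : ℕ) [Fact p.Prime] (𝒦 : AddSubgroup J) : Submodule ℤ_[p] (TateModule p J) where
  carrier := {x | ∀ k, proj k x ∈ 𝒦}
  zero_mem' := fun k => by
    rw [map_zero]
    exact 𝒦.zero_mem
  add_mem' := fun {x y} hx hy k => by
    rw [map_add]
    exact 𝒦.add_mem (hx k) (hy k)
  smul_mem' := fun a x hx k => by
    rw [proj_smul]
    exact 𝒦.nsmul_mem (hx k) _

variable {𝒦 : AddSubgroup J}

theorem mem_Kt_iff {x : TateModule p J} : x ∈ Kt p 𝒦 ↔ ∀ k, proj k x ∈ 𝒦 := Iff.rfl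

/-- `Kt` is saturated with respect to `p`. -/
theorem mem_Kt_of_p_smul_mem {x : TateModule p J} (h : (p : ℤ_[p]) • x ∈ Kt p 𝒦) :
    x ∈ Kt p 𝒦 := by
  intro k
  have h1 := h (k + 1)
  rwa [proj_natCast_smul, proj_succ] at h1

theorem mem_Kt_of_pow_smul_mem {x : TateModule p J} (n : ℕ)
    (h : ((p : ℤ_[p]) ^ n) • x ∈ Kt p 𝒦) : x ∈ Kt p 𝒦 := by
  induction n with
  | zero => rwa [pow_zero, one_smul] at h
  | succ n ih =>
    apply ih
    apply mem_Kt_of_p_smul_mem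
    rw [← mul_smul, ← pow_succ']
    exact h

/-- **`Kt` is saturated**: `a • x ∈ Kt` with `a ≠ 0` implies `x ∈ Kt`. -/
theorem mem_Kt_of_smul_mem {a : ℤ_[p]} (ha : a ≠ 0) {x : TateModule p J}
    (h : a • x ∈ Kt p 𝒦) : x ∈ Kt p 𝒦 := by
  obtain ⟨u, hu⟩ : ∃ u : ℤ_[p]ˣ, a = u * (p : ℤ_[p]) ^ a.valuation :=
    ⟨PadicInt.unitCoeff ha, PadicInt.unitCoeff_spec ha⟩
  apply mem_Kt_of_pow_smul_mem a.valuation
  have h2 : ((u⁻¹ : ℤ_[p]ˣ) : ℤ_[p]) • (a • x) ∈ Kt p 𝒦 := (Kt p 𝒦).smul_mem _ h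
  rw [← mul_smul] at h2
  have h3 : ((u⁻¹ : ℤ_[p]ˣ) : ℤ_[p]) * a = (p : ℤ_[p]) ^ a.valuation := by
    conv_lhs => rw [hu]
    rw [← mul_assoc, Units.inv_mul, one_mul]
  rwa [h3] at h2

/-- **the quotient map** `Ψ : T_p J → T_p J ⧸ Kt`. -/
def Psi (p : ℕ) [Fact p.Prime] (𝒦 : AddSubgroup J) :
    TateModule p J →ₗ[ℤ_[p]] (TateModule p J ⧸ Kt p 𝒦) :=
  (Kt p 𝒦).mkQ

theorem Psi_surjective : Function.Surjective (Psi p 𝒦) := (Kt p 𝒦).mkQ_surjective

theorem ker_Psi : LinearMap.ker (Psi p 𝒦) = Kt p 𝒦 := (Kt p 𝒦).ker_mkQ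

theorem Psi_eq_zero_iff {x : TateModule p J} : Psi p 𝒦 x = 0 ↔ x ∈ Kt p 𝒦 :=
  Submodule.Quotient.mk_eq_zero _

/-- **the quotient `T_p J ⧸ Kt` is torsion-free.** -/
theorem eq_zero_of_smul_eq_zero_quotient {a : ℤ_[p]} (ha : a ≠ 0)
    {y : TateModule p J ⧸ Kt p 𝒦} (h : a • y = 0) : y = 0 := by
  obtain ⟨x, rfl⟩ := (Kt p 𝒦).mkQ_surjective y
  rw [← map_smul, Submodule.mkQ_apply, Submodule.Quotient.mk_eq_zero] at h
  rw [Submodule.mkQ_apply, Submodule.Quotient.mk_eq_zero]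
  exact mem_Kt_of_smul_mem ha h

instance noZeroSMulDivisors_quotient : NoZeroSMulDivisors ℤ_[p] (TateModule p J ⧸ Kt p 𝒦) where
  eq_zero_or_eq_zero_of_smul_eq_zero {a y} h := by
    by_cases ha : a = 0
    · exact Or.inl ha
    · exact Or.inr (eq_zero_of_smul_eq_zero_quotient ha h)

/-- **`Kt ∩ p^k T = p^k Kt`**: an element of `Kt` with vanishing `k`-th term is `p^k` times an
element of `Kt`.  Hence `proj k` embeds `Kt / p^k Kt` into `𝒦 ∩ J[p^k]`. -/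
theorem exists_eq_pow_smul_of_proj_eq_zero {x : TateModule p J} (hx : x ∈ Kt p 𝒦) (k : ℕ)
    (h : proj k x = 0) : ∃ y ∈ Kt p 𝒦, x = ((p : ℤ_[p]) ^ k) • y := by
  obtain ⟨y, rfl⟩ := (proj_eq_zero_iff' k x).mp h
  exact ⟨y, mem_Kt_of_pow_smul_mem k hx, rfl⟩

theorem proj_mem_of_mem_Kt {x : TateModule p J} (hx : x ∈ Kt p 𝒦) (k : ℕ) :
    proj k x ∈ 𝒦 ∧ p ^ k • proj k x = 0 := ⟨hx k, pow_smul_proj k x⟩

/-- `proj k x = proj k x'` for `x, x' ∈ Kt` iff `x - x' ∈ p^k Kt`. -/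
theorem proj_eq_iff_of_mem_Kt {x x' : TateModule p J} (hx : x ∈ Kt p 𝒦) (hx' : x' ∈ Kt p 𝒦)
    (k : ℕ) : proj k x = proj k x' ↔ ∃ y ∈ Kt p 𝒦, x - x' = ((p : ℤ_[p]) ^ k) • y := by
  constructor
  · intro h
    refine exists_eq_pow_smul_of_proj_eq_zero ((Kt p 𝒦).sub_mem hx hx') k ?_
    rw [map_sub, h, sub_self]
  · rintro ⟨y, -, hy⟩
    have : proj k (x - x') = 0 := by
      rw [hy, proj_pow_smul, pow_smul_proj]
    rwa [map_sub, sub_eq_zero] at this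

/-! ### group actions -/

section Action

variable {G : Type*} [Group G] [DistribMulAction G J]

/-- `Kt` is stable under `g` as soon as `𝒦` is. -/
theorem rho_mem_Kt (g : G) (hg : ∀ y ∈ 𝒦, g • y ∈ 𝒦) {x : TateModule p J} (hx : x ∈ Kt p 𝒦) :
    rho p J g x ∈ Kt p 𝒦 := fun k => by
  rw [proj_rho]
  exact hg _ (hx k)

/-- **invariance**: if `τ • y - y ∈ 𝒦` for every `p`-power torsion element `y` of `J`, then
`rho τ x - x ∈ Kt` for every `x` of the Tate module. -/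
theorem rho_sub_mem_Kt (τ : G)
    (h : ∀ (k : ℕ) (y : J), p ^ k • y = 0 → τ • y - y ∈ 𝒦) (x : TateModule p J) :
    rho p J τ x - x ∈ Kt p 𝒦 := fun k => by
  rw [map_sub, proj_rho]
  exact h k _ (pow_smul_proj k x)

/-- **`Ψ` is `τ`-invariant.** -/
theorem Psi_rho (τ : G)
    (h : ∀ (k : ℕ) (y : J), p ^ k • y = 0 → τ • y - y ∈ 𝒦) (x : TateModule p J) :
    Psi p 𝒦 (rho p J τ x) = Psi p 𝒦 x := by
  have h1 := rho_sub_mem_Kt τ h x
  rw [← Psi_eq_zero_iff, map_sub, sub_eq_zero] at h1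
  exact h1

end Action

end Fermat.Agent.T33.Psi3A
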