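/-
Programme T (S33 via a trichotomy), chapter T5, file D (helper3): **`Ψ` on the Tate module of
`J₀(N)`, ANY level `N`** — the deliverable of (T5).

`A` a valuation subring of `ℚ̄` over `p`; `I_A`, `D_A` its inertia and decomposition groups in
`Gal(ℚ̄/ℚ)`.  With `puOne A N`, `puTwo A N` (principal units of the Gauss valuation rings `O₁`, at the
cusp `∞`, and `O₂ = W_N⁻¹ O₁`, at the cusp `0`, of `Fbar N`; file `Psi3C`):

* `formalOne A N p`, `formalTwo A N p : AddSubgroup (JZero N)` — the classes `[D]` with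
  `p^m D = div f` for some `m` and some `f ∈ ℚ̄ˣ · (Fˣ)^{p^m} · puOne` (resp. also
  `∈ ℚ̄ˣ · (Fˣ)^{p^m} · puTwo`): the kernel of the Kummer-residue maps
  `Ψ_m : J₀(N)[p^m] → k₁ˣ/(κˣ k₁ˣ^{p^m}) (× k₂ˣ/(κˣ k₂ˣ^{p^m}))`, all `m` at once;
* `KtOne`, `KtTwo : Submodule ℤ_[p] (TJ p N)` — sequences with all terms in `formalOne/Two`;
  `PsiOne`, `PsiTwo` — the quotient maps `TJ p N → TJ p N ⧸ Kt…` (`ℤ_[p]`-linear, surjective);
* `PsiTwo_rhoT`, `PsiOne_rhoT` : **`Ψ ∘ ρ_T(τ) = Ψ` for `τ ∈ I_A`**;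
* `noZeroSMulDivisors` of the targets (instances from `Psi3A`): **`TJ ⧸ ker Ψ` is torsion-free**;
* `rhoT_mem_KtTwo`, `rhoT_mem_KtOne` : `ker Ψ` is stable under `D_A`;
* `proj_mem_formalTwo`, `exists_eq_pow_smul_of_proj_eq_zero_two` : **`ker Ψ / p^m ker Ψ` embeds in
  `formalTwo ∩ J₀(N)[p^m]`** through `proj m` (and the same for `One`).

No hypothesis on `N`: for `p ∤ N` use `One` (then `formalOne ∩ J[p^m] = J[p^m] ∩ ker red`), for
`p ∥ N` use `Two`.
-/
import Mathlib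
import Fermat.Agent.ES.J.TateJZero13
import Fermat.Agent.T33.Psi3A
import Fermat.Agent.T33.Psi3C

set_option autoImplicit false
set_option linter.unusedSectionVars false
set_option synthInstance.maxHeartbeats 400000

noncomputable section

namespace Fermat.Agent.T33.Psi3D

open HahnSeries ModularCurve AlgebraicCurve
open Fermat.Agent.RED.Interface4 Fermat.Agent.ES.J.TateModule13 Fermat.Agent.ES.J.TateJZero13
open Fermat.Agent.T33.Psi3A Fermat.Agent.T33.Psi3B Fermat.Agent.T33.Psi3C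

variable (A : ValuationSubring Qbar) (N : ℕ) [NeZero N] (p : ℕ)

/-- the one-component family of principal units (`O₁` only). -/
def Uone : Unit → Subgroup (↥(Fbar N))ˣ := fun _ => puOne A N

/-- the two-component family of principal units (`O₁` and `O₂ = W_N⁻¹ O₁`). -/
def Utwo : Bool → Subgroup (↥(Fbar N))ˣ := fun b => bif b then puTwo A N else puOne A N

/-- **the formal part for the component at `∞`.** -/
def formalOne : AddSubgroup (JZero N) := formal p (Uone A N)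

/-- **the formal part for both components.** -/
def formalTwo : AddSubgroup (JZero N) := formal p (Utwo A N)

theorem mem_formalOne_iff {y : JZero N} :
    y ∈ formalOne A N p ↔ ∃ (m : ℕ) (f : (↥(Fbar N))ˣ)
      (D : Divisor.degZero (K := Qbar) (F := ↥(Fbar N))),
      f ∈ RC Qbar (puOne A N) (p ^ m) ∧
      (∀ v : Place Qbar ↥(Fbar N), ((p ^ m : ℕ) : ℤ) * (D : Divisor Qbar ↥(Fbar N)) v =
        v.ord (f : ↥(Fbar N))) ∧ y = Pic0.mk D := by
  constructor
  · rintro ⟨m, f, D, hf, hD, rfl⟩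
    exact ⟨m, f, D, hf (), hD, rfl⟩
  · rintro ⟨m, f, D, hf, hD, rfl⟩
    exact ⟨m, f, D, fun _ => hf, hD, rfl⟩

theorem mem_formalTwo_iff {y : JZero N} :
    y ∈ formalTwo A N p ↔ ∃ (m : ℕ) (f : (↥(Fbar N))ˣ)
      (D : Divisor.degZero (K := Qbar) (F := ↥(Fbar N))),
      f ∈ RC Qbar (puOne A N) (p ^ m) ∧ f ∈ RC Qbar (puTwo A N) (p ^ m) ∧
      (∀ v : Place Qbar ↥(Fbar N), ((p ^ m : ℕ) : ℤ) * (D : Divisor Qbar ↥(Fbar N)) v =
        v.ord (f : ↥(Fbar N))) ∧ y = Pic0.mk D := by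
  constructor
  · rintro ⟨m, f, D, hf, hD, rfl⟩
    exact ⟨m, f, D, hf false, hf true, hD, rfl⟩
  · rintro ⟨m, f, D, hf1, hf2, hD, rfl⟩
    refine ⟨m, f, D, fun b => ?_, hD, rfl⟩
    cases b
    · exact hf1
    · exact hf2

theorem formalTwo_le_formalOne : formalTwo A N p ≤ formalOne A N p := by
  intro y hy
  obtain ⟨m, f, D, hf1, -, hD, rfl⟩ := (mem_formalTwo_iff A N p).mp hy
  exact (mem_formalOne_iff A N p).mpr ⟨m, f, D, hf1, hD, rfl⟩

/-! ### inertia and decomposition groups on `J₀(N)` -/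

variable {A N p}

/-- **inertia acts trivially modulo the formal part** (two components). -/
theorem inertia_sub_mem_formalTwo [Fact p.Prime] (hA : A.LiesOverPrime p)
    {τ : Qbar ≃ₐ[ℚ] Qbar} (hτ : τ ∈ A.inertiaSubgroupIn ℚ) (k : ℕ) (y : JZero N)
    (hy : p ^ k • y = 0) : τ • y - y ∈ formalTwo A N p := by
  refine smul_sub_mem_formal (gal N τ) (fun f b => ?_) k y hy
  cases b
  · exact inertia_quot_one A N hA hτ f
  · exact inertia_quot_two A N hA hτ f

/-- **inertia acts trivially modulo the formal part** (one component). -/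
theorem inertia_sub_mem_formalOne [Fact p.Prime] (hA : A.LiesOverPrime p)
    {τ : Qbar ≃ₐ[ℚ] Qbar} (hτ : τ ∈ A.inertiaSubgroupIn ℚ) (k : ℕ) (y : JZero N)
    (hy : p ^ k • y = 0) : τ • y - y ∈ formalOne A N p :=
  formalTwo_le_formalOne A N p (inertia_sub_mem_formalTwo hA hτ k y hy)

/-- the decomposition group preserves the formal part (two components). -/
theorem decomp_smul_mem_formalTwo (g : A.decompositionSubgroup ℚ) {y : JZero N}
    (hy : y ∈ formalTwo A N p) : (g : Qbar ≃ₐ[ℚ] Qbar) • y ∈ formalTwo A N p := by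
  refine smul_mem_formal (gal N (g : Qbar ≃ₐ[ℚ] Qbar)) (fun b u hu => ?_) hy
  cases b
  · exact decomp_puOne A N g hu
  · exact decomp_puTwo A N g hu

/-- the decomposition group preserves the formal part (one component). -/
theorem decomp_smul_mem_formalOne (g : A.decompositionSubgroup ℚ) {y : JZero N}
    (hy : y ∈ formalOne A N p) : (g : Qbar ≃ₐ[ℚ] Qbar) • y ∈ formalOne A N p :=
  smul_mem_formal (gal N (g : Qbar ≃ₐ[ℚ] Qbar)) (fun _ u hu => decomp_puOne A N g hu) hy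

/-! ### the Tate module -/

variable (A N p) [hp : Fact p.Prime]

/-- **`ker Ψ`, two components.** -/
def KtTwo : Submodule ℤ_[p] (TJ p N) := Kt p (formalTwo A N p)

/-- **`ker Ψ`, one component.** -/
def KtOne : Submodule ℤ_[p] (TJ p N) := Kt p (formalOne A N p)

/-- **`Ψ`, two components**: the quotient map `T_p J₀(N) → T_p J₀(N) ⧸ KtTwo`. -/
def PsiTwo : TJ p N →ₗ[ℤ_[p]] (TJ p N ⧸ KtTwo A N p) := Psi p (formalTwo A N p)

/-- **`Ψ`, one component.** -/
def PsiOne : TJ p N →ₗ[ℤ_[p]] (TJ p N ⧸ KtOne A N p) := Psi p (formalOne A N p)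

theorem mem_KtTwo_iff {x : TJ p N} : x ∈ KtTwo A N p ↔ ∀ k, proj k x ∈ formalTwo A N p := Iff.rfl

theorem mem_KtOne_iff {x : TJ p N} : x ∈ KtOne A N p ↔ ∀ k, proj k x ∈ formalOne A N p := Iff.rfl

theorem KtTwo_le_KtOne : KtTwo A N p ≤ KtOne A N p :=
  fun _ hx k => formalTwo_le_formalOne A N p (hx k)

theorem ker_PsiTwo : LinearMap.ker (PsiTwo A N p) = KtTwo A N p := ker_Psi

theorem ker_PsiOne : LinearMap.ker (PsiOne A N p) = KtOne A N p := ker_Psi

theorem PsiTwo_surjective : Function.Surjective (PsiTwo A N p) := Psi_surjective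

theorem PsiOne_surjective : Function.Surjective (PsiOne A N p) := Psi_surjective

/-- the targets are torsion-free (`ker Ψ` is saturated). -/
instance noZeroSMulDivisors_two : NoZeroSMulDivisors ℤ_[p] (TJ p N ⧸ KtTwo A N p) :=
  noZeroSMulDivisors_quotient

instance noZeroSMulDivisors_one : NoZeroSMulDivisors ℤ_[p] (TJ p N ⧸ KtOne A N p) :=
  noZeroSMulDivisors_quotient

theorem mem_KtTwo_of_smul_mem {a : ℤ_[p]} (ha : a ≠ 0) {x : TJ p N}
    (h : a • x ∈ KtTwo A N p) : x ∈ KtTwo A N p := mem_Kt_of_smul_mem ha h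

theorem mem_KtOne_of_smul_mem {a : ℤ_[p]} (ha : a ≠ 0) {x : TJ p N}
    (h : a • x ∈ KtOne A N p) : x ∈ KtOne A N p := mem_Kt_of_smul_mem ha h

variable {A N p}

/-- **`Ψ ∘ ρ_T(τ) = Ψ` for `τ` in the inertia group of `A`** (two components). -/
theorem PsiTwo_rhoT (hA : A.LiesOverPrime p) {τ : Qbar ≃ₐ[ℚ] Qbar}
    (hτ : τ ∈ A.inertiaSubgroupIn ℚ) (x : TJ p N) :
    PsiTwo A N p (rhoT p N τ x) = PsiTwo A N p x :=
  Psi_rho τ (fun k y hy => inertia_sub_mem_formalTwo hA hτ k y hy) x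

/-- **`Ψ ∘ ρ_T(τ) = Ψ` for `τ` in the inertia group of `A`** (one component). -/
theorem PsiOne_rhoT (hA : A.LiesOverPrime p) {τ : Qbar ≃ₐ[ℚ] Qbar}
    (hτ : τ ∈ A.inertiaSubgroupIn ℚ) (x : TJ p N) :
    PsiOne A N p (rhoT p N τ x) = PsiOne A N p x :=
  Psi_rho τ (fun k y hy => inertia_sub_mem_formalOne hA hτ k y hy) x

theorem rhoT_sub_mem_KtTwo (hA : A.LiesOverPrime p) {τ : Qbar ≃ₐ[ℚ] Qbar}
    (hτ : τ ∈ A.inertiaSubgroupIn ℚ) (x : TJ p N) : rhoT p N τ x - x ∈ KtTwo A N p :=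
  rho_sub_mem_Kt τ (fun k y hy => inertia_sub_mem_formalTwo hA hτ k y hy) x

theorem rhoT_sub_mem_KtOne (hA : A.LiesOverPrime p) {τ : Qbar ≃ₐ[ℚ] Qbar}
    (hτ : τ ∈ A.inertiaSubgroupIn ℚ) (x : TJ p N) : rhoT p N τ x - x ∈ KtOne A N p :=
  rho_sub_mem_Kt τ (fun k y hy => inertia_sub_mem_formalOne hA hτ k y hy) x

/-- `ker Ψ` is stable under the decomposition group (two components). -/
theorem rhoT_mem_KtTwo (g : A.decompositionSubgroup ℚ) {x : TJ p N} (hx : x ∈ KtTwo A N p) :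
    rhoT p N (g : Qbar ≃ₐ[ℚ] Qbar) x ∈ KtTwo A N p :=
  rho_mem_Kt (g : Qbar ≃ₐ[ℚ] Qbar) (fun _ hy => decomp_smul_mem_formalTwo g hy) hx

/-- `ker Ψ` is stable under the decomposition group (one component). -/
theorem rhoT_mem_KtOne (g : A.decompositionSubgroup ℚ) {x : TJ p N} (hx : x ∈ KtOne A N p) :
    rhoT p N (g : Qbar ≃ₐ[ℚ] Qbar) x ∈ KtOne A N p :=
  rho_mem_Kt (g : Qbar ≃ₐ[ℚ] Qbar) (fun _ hy => decomp_smul_mem_formalOne g hy) hx

/-- **finite levels**: the `m`-th term of an element of `ker Ψ` is a `p^m`-torsion class of the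
formal part. -/
theorem proj_mem_formalTwo {x : TJ p N} (hx : x ∈ KtTwo A N p) (m : ℕ) :
    proj m x ∈ formalTwo A N p ∧ p ^ m • proj m x = 0 := proj_mem_of_mem_Kt hx m

theorem proj_mem_formalOne {x : TJ p N} (hx : x ∈ KtOne A N p) (m : ℕ) :
    proj m x ∈ formalOne A N p ∧ p ^ m • proj m x = 0 := proj_mem_of_mem_Kt hx m

/-- **`ker Ψ ∩ p^m T = p^m ker Ψ`**, so `proj m` embeds `ker Ψ / p^m ker Ψ` into
`formalTwo ∩ J₀(N)[p^m]`. -/
theorem exists_eq_pow_smul_of_proj_eq_zero_two {x : TJ p N} (hx : x ∈ KtTwo A N p) (m : ℕ)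
    (h : proj m x = 0) : ∃ y ∈ KtTwo A N p, x = ((p : ℤ_[p]) ^ m) • y :=
  exists_eq_pow_smul_of_proj_eq_zero hx m h

theorem exists_eq_pow_smul_of_proj_eq_zero_one {x : TJ p N} (hx : x ∈ KtOne A N p) (m : ℕ)
    (h : proj m x = 0) : ∃ y ∈ KtOne A N p, x = ((p : ℤ_[p]) ^ m) • y :=
  exists_eq_pow_smul_of_proj_eq_zero hx m h

end Fermat.Agent.T33.Psi3D
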