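/-
Programme T (S33 via a trichotomy), chapters T1 + T2, abstract core (helper7).  Mathlib only.

`T` a reduced noetherian `ℤ_[p]`-algebra, `𝔭` a minimal prime; `Z` a finitely generated
`ℤ_[p]`-module with an action `ρZ` of a group `G`; `X = T ⊗[ℤ_[p]] Z` with the base-changed action;
`K ≤ Z` a SATURATED submodule (`p • z ∈ K → z ∈ K`) such that a set `I` of elements of `G` acts
trivially on `Z ⧸ K`; `V` a free `T`-module with an action `ρV` and an injective equivariant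
`Φ : V →ₗ[T] (Fin n → X)`; `qV : V →+ Q` an `I`-invariant additive map killing `𝔭 V` and `p V`.

**Dichotomy** (`functional_or_subquotient`): either there is a nonzero `I`-invariant `T`-linear
functional `φ : V → T ⧸ 𝔭`, or `qV` is realised on an `I`-equivariant sub-quotient of a finite power
of `K / p ^ m K`: there are `m`, a finite index type `ι`, a group `V₀`, `j : V₀ →+ (ι → Z)` with values
in `K`, and a surjection `V₀ → V` such that `qV` dies on every `g` all of whose `j`-coordinates are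
divisible by `p ^ m`, compatibly with `I`.

Hence (`exists_functional_of_noTrivSubquot`): if no nonzero `I`-trivial group is such a sub-quotient
(`NoTrivSubquot`, hypothesis (NS)) and `qV` is onto a nonzero `Q`, the functional exists.
-/
import Mathlib

set_option autoImplicit false
set_option linter.unusedSectionVars false
set_option linter.style.haveILetI false

open TensorProduct

noncomputable section

namespace Fermat.Agent.T33.Tricho7

/-! ### An element killing a minimal prime -/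

section MinPrime

variable {T : Type*} [CommRing T] [IsNoetherianRing T] [IsReduced T]

/-- In a reduced noetherian ring every minimal prime `𝔭` is killed by some `s ∉ 𝔭`. -/
theorem exists_notMem_mul_eq_zero {𝔭 : Ideal T} (h𝔭 : 𝔭 ∈ minimalPrimes T) :
    ∃ s : T, s ∉ 𝔭 ∧ ∀ a ∈ 𝔭, s * a = 0 := by
  classical
  haveI : 𝔭.IsPrime := h𝔭.1.1
  have hfin : (minimalPrimes T).Finite := minimalPrimes.finite_of_isNoetherianRing T
  set F : Finset (Ideal T) := hfin.toFinset.erase 𝔭 with hF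
  have hnot : ¬ (∏ 𝔮 ∈ F, 𝔮) ≤ 𝔭 := by
    intro hle
    obtain ⟨𝔮, h𝔮F, h𝔮le⟩ := (Ideal.IsPrime.prod_le (inferInstance : 𝔭.IsPrime)).1 hle
    rw [hF, Finset.mem_erase, Set.Finite.mem_toFinset] at h𝔮F
    have h𝔮 : 𝔮 ∈ minimalPrimes T := h𝔮F.2
    have : 𝔭 ≤ 𝔮 := h𝔭.2 ⟨h𝔮.1.1, bot_le⟩ h𝔮le
    exact h𝔮F.1 (le_antisymm h𝔮le this)
  obtain ⟨s, hsJ, hs𝔭⟩ := Set.not_subset.1 hnot
  refine ⟨s, hs𝔭, fun a ha => ?_⟩
  have hmem : s * a ∈ sInf (minimalPrimes T) := by
    rw [Ideal.mem_sInf]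
    intro 𝔮 h𝔮
    by_cases h : 𝔮 = 𝔭
    · rw [h]
      exact Ideal.mul_mem_left _ _ ha
    · have h𝔮F : 𝔮 ∈ F := by
        rw [hF, Finset.mem_erase, Set.Finite.mem_toFinset]
        exact ⟨h, h𝔮⟩
      have : (∏ 𝔮 ∈ F, 𝔮) ≤ 𝔮 := (Ideal.prod_le_inf).trans (Finset.inf_le h𝔮F)
      exact Ideal.mul_mem_right _ _ (this hsJ)
  have hnil : sInf (minimalPrimes T) = ⊥ := by
    have h1 : sInf (minimalPrimes T) = (⊥ : Ideal T).radical := by
      rw [minimalPrimes, Ideal.sInf_minimalPrimes]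
    rw [h1]
    exact (Ideal.radical_eq_iff.2 (by
      rw [Ideal.IsRadical]
      intro x hx
      rw [Ideal.mem_bot]
      obtain ⟨n, hn⟩ := hx
      exact IsReduced.eq_zero x ⟨n, hn⟩))
  rw [hnil, Ideal.mem_bot] at hmem
  exact hmem

end MinPrime


/-! ### Saturated submodules of a finitely generated `ℤ_[p]`-module -/

section Sat

variable {p : ℕ} [hp : Fact p.Prime] {Z : Type*} [AddCommGroup Z] [Module ℤ_[p] Z]

/-- every nonzero `p`-adic integer divides a power of `p` up to a unit: saturation for `p` gives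
saturation for all nonzero scalars. -/
theorem mem_of_smul_mem_of_saturated (K : Submodule ℤ_[p] Z)
    (hsat : ∀ z : Z, (p : ℤ_[p]) • z ∈ K → z ∈ K) {a : ℤ_[p]} (ha : a ≠ 0) {z : Z}
    (hz : a • z ∈ K) : z ∈ K := by
  obtain ⟨k, u, hku⟩ : ∃ (k : ℕ) (u : ℤ_[p]ˣ), a = (u : ℤ_[p]) * (p : ℤ_[p]) ^ k :=
    ⟨_, PadicInt.unitCoeff ha, PadicInt.unitCoeff_spec ha⟩
  have h1 : ((p : ℤ_[p]) ^ k) • z ∈ K := by
    have := K.smul_mem ((u⁻¹ : ℤ_[p]ˣ) : ℤ_[p]) hz
    rwa [hku, smul_smul, ← mul_assoc, Units.inv_mul, one_mul] at this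
  clear hz hku ha
  induction k with
  | zero => simpa using h1
  | succ k ih =>
    apply ih
    apply hsat
    rwa [smul_smul, ← pow_succ']

/-- the quotient by a saturated submodule is torsion-free. -/
theorem isTorsionFree_quotient (K : Submodule ℤ_[p] Z)
    (hsat : ∀ z : Z, (p : ℤ_[p]) • z ∈ K → z ∈ K) : Module.IsTorsionFree ℤ_[p] (Z ⧸ K) := by
  refine Module.IsTorsionFree.of_smul_eq_zero fun a y hy => ?_
  by_cases ha : a = 0
  · exact Or.inl ha
  · right
    obtain ⟨z, rfl⟩ := K.mkQ_surjective y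
    rw [Submodule.mkQ_apply, ← Submodule.Quotient.mk_smul, Submodule.Quotient.mk_eq_zero] at hy
    rw [Submodule.mkQ_apply, Submodule.Quotient.mk_eq_zero]
    exact mem_of_smul_mem_of_saturated K hsat ha hy

/-- the quotient of a finitely generated module by a saturated submodule is free. -/
theorem free_quotient [Module.Finite ℤ_[p] Z] (K : Submodule ℤ_[p] Z)
    (hsat : ∀ z : Z, (p : ℤ_[p]) • z ∈ K → z ∈ K) : Module.Free ℤ_[p] (Z ⧸ K) := by
  haveI := isTorsionFree_quotient K hsat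
  infer_instance

end Sat


/-! ### Sums of pure tensors with fixed left factors -/

section SumT

variable {p : ℕ} [hp : Fact p.Prime] {T : Type*} [CommRing T] [Algebra ℤ_[p] T]
  {M : Type*} [AddCommGroup M] [Module ℤ_[p] M] {r : ℕ} (t : Fin r → T)

/-- `u ↦ ∑ i, t i ⊗ u i`. -/
def sumT : (Fin r → M) →+ T ⊗[ℤ_[p]] M where
  toFun u := ∑ i, t i ⊗ₜ[ℤ_[p]] u i
  map_zero' := by simp
  map_add' u w := by
    simp only [Pi.add_apply, TensorProduct.tmul_add, Finset.sum_add_distrib]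

theorem sumT_apply (u : Fin r → M) : sumT t u = ∑ i, t i ⊗ₜ[ℤ_[p]] u i := rfl

theorem sumT_single (i : Fin r) (y : M) : sumT t (Pi.single i y) = t i ⊗ₜ[ℤ_[p]] y := by
  classical
  rw [sumT_apply, Finset.sum_eq_single i]
  · rw [Pi.single_eq_same]
  · intro j _ hji
    rw [Pi.single_eq_of_ne hji, TensorProduct.tmul_zero]
  · intro h
    exact absurd (Finset.mem_univ i) h

/-- the `ℤ_[p]`-scalar `p ^ m` acts on `T ⊗ M` as the `T`-scalar `p ^ m`. -/
theorem padic_pow_smul (m : ℕ) (x : T ⊗[ℤ_[p]] M) :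
    ((p : ℤ_[p]) ^ m) • x = ((p : T) ^ m) • x := by
  rw [← algebraMap_smul T ((p : ℤ_[p]) ^ m) x, map_pow, map_natCast]

/-- `sumT` is onto modulo `p ^ m` when `t` is a system of representatives of `T` mod `p ^ m`. -/
theorem exists_sumT_add (m : ℕ)
    (ht : ∀ a : T, ∃ (i : Fin r) (a' : T), a = t i + (p : T) ^ m * a') (x : T ⊗[ℤ_[p]] M) :
    ∃ (u : Fin r → M) (x' : T ⊗[ℤ_[p]] M), x = sumT t u + ((p : T) ^ m) • x' := by
  induction x using TensorProduct.induction_on with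
  | zero => exact ⟨0, 0, by rw [map_zero, smul_zero, add_zero]⟩
  | tmul a y =>
    obtain ⟨i, a', ha⟩ := ht a
    refine ⟨Pi.single i y, a' ⊗ₜ[ℤ_[p]] y, ?_⟩
    rw [sumT_single, TensorProduct.smul_tmul', smul_eq_mul, ← TensorProduct.add_tmul, ← ha]
  | add x₁ x₂ h₁ h₂ =>
    obtain ⟨u₁, x₁', e₁⟩ := h₁
    obtain ⟨u₂, x₂', e₂⟩ := h₂
    refine ⟨u₁ + u₂, x₁' + x₂', ?_⟩
    rw [map_add, smul_add, e₁, e₂]
    abel

/-- `sumT` commutes with base-changed linear maps. -/
theorem baseChange_sumT {M' : Type*} [AddCommGroup M'] [Module ℤ_[p] M'] (f : M →ₗ[ℤ_[p]] M')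
    (u : Fin r → M) : f.baseChange T (sumT t u) = sumT t (fun i => f (u i)) := by
  rw [sumT_apply, sumT_apply, map_sum]
  exact Finset.sum_congr rfl fun i _ => LinearMap.baseChange_tmul _ _ _

/-- if all coordinates are divisible by `p ^ m`, so is `sumT`. -/
theorem sumT_of_dvd (m : ℕ) (u : Fin r → M)
    (hu : ∀ i, ∃ w : M, u i = ((p : ℤ_[p]) ^ m) • w) :
    ∃ x' : T ⊗[ℤ_[p]] M, sumT t u = ((p : T) ^ m) • x' := by
  choose w hw using hu
  refine ⟨sumT t w, ?_⟩
  rw [sumT_apply, sumT_apply, Finset.smul_sum]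
  refine Finset.sum_congr rfl fun i _ => ?_
  rw [hw i, TensorProduct.tmul_smul, padic_pow_smul]

end SumT


/-! ### The dichotomy -/

section Core

variable {p : ℕ} [hp : Fact p.Prime]
  {T : Type} [CommRing T] [Algebra ℤ_[p] T]
  {Z : Type} [AddCommGroup Z] [Module ℤ_[p] Z]
  {G : Type} [Group G] (ρZ : G →* Module.End ℤ_[p] Z)
  {V : Type} [AddCommGroup V] [Module T V] (ρV : G →* Module.End T V)

/-- **(NS)**: no nonzero group on which `I` acts trivially is an `I`-equivariant sub-quotient of a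
finite power of `K / p ^ m K`.  Sub-quotient data: a group `V₀`, `j : V₀ →+ (ι → Z)` with values in
`K`, `q : V₀ →+ Q` onto, such that `q g = 0` whenever all coordinates of `j g` are divisible by
`p ^ m`, and for `τ ∈ I` every `g` has a companion `g'` with `j g' = τ • j g`, `q g' = q g`. -/
def NoTrivSubquot (K : Submodule ℤ_[p] Z) (I : Set G) : Prop :=
  ∀ (m : ℕ) (ι : Type) [Fintype ι] (V₀ : Type) [AddCommGroup V₀] (j : V₀ →+ (ι → Z))
    (Q : Type) [AddCommGroup Q] (q : V₀ →+ Q),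
    (∀ g i, j g i ∈ K) →
    (∀ τ ∈ I, ∀ g, ∃ g', (∀ i, j g' i = ρZ τ (j g i)) ∧ q g' = q g) →
    Function.Surjective q →
    (∀ g, (∀ i, ∃ w : Z, j g i = ((p : ℤ_[p]) ^ m) • w) → q g = 0) →
    ∀ x : Q, x = 0

/-- the reduction `X = T ⊗ Z → T ⊗ (Z ⧸ K)`. -/
def Lam (K : Submodule ℤ_[p] Z) : T ⊗[ℤ_[p]] Z →ₗ[T] T ⊗[ℤ_[p]] (Z ⧸ K) :=
  K.mkQ.baseChange T

/-- `Lam` is invariant under every `τ` acting trivially on `Z ⧸ K`. -/
theorem Lam_baseChange (K : Submodule ℤ_[p] Z) {τ : G} (hτ : ∀ z, ρZ τ z - z ∈ K)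
    (x : T ⊗[ℤ_[p]] Z) : Lam (T := T) K ((ρZ τ).baseChange T x) = Lam K x := by
  have h : K.mkQ ∘ₗ ρZ τ = K.mkQ := by
    ext z
    rw [LinearMap.comp_apply, Submodule.mkQ_apply, Submodule.mkQ_apply, Submodule.Quotient.eq]
    exact hτ z
  rw [Lam, ← LinearMap.comp_apply, ← LinearMap.baseChange_comp, h]

/-- the kernel of `Lam` is the image of `T ⊗ K`. -/
theorem exists_of_Lam_eq_zero (K : Submodule ℤ_[p] Z) {x : T ⊗[ℤ_[p]] Z}
    (hx : Lam (T := T) K x = 0) : ∃ y : T ⊗[ℤ_[p]] K, K.subtype.baseChange T y = x := by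
  have hex : Function.Exact (K.subtype.lTensor T) (K.mkQ.lTensor T) :=
    lTensor_exact T (LinearMap.exact_subtype_mkQ K) K.mkQ_surjective
  have hx' : K.mkQ.lTensor T x = 0 := by
    have := hx
    rwa [Lam, LinearMap.baseChange_eq_ltensor] at this
  obtain ⟨y, hy⟩ := (hex x).1 hx'
  exact ⟨y, by rw [LinearMap.baseChange_eq_ltensor]; exact hy⟩


/-- **Case (a)**: a coordinate of `Lam (Φ v a)` outside `𝔭` gives a nonzero `I`-invariant functional
`V → T ⧸ 𝔭`. -/
theorem exists_functional_of_coord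
    (K : Submodule ℤ_[p] Z)
    (I : Set G) (hK1 : ∀ τ ∈ I, ∀ z, ρZ τ z - z ∈ K) (𝔭 : Ideal T)
    {n : ℕ} (Φ : V →ₗ[T] (Fin n → T ⊗[ℤ_[p]] Z))
    (hΦG : ∀ g v a, Φ (ρV g v) a = (ρZ g).baseChange T (Φ v a))
    {ιY : Type*} (bY : Module.Basis ιY ℤ_[p] (Z ⧸ K))
    {v : V} {a : Fin n} {c : ιY}
    (hc : (bY.baseChange T).repr (Lam K (Φ v a)) c ∉ 𝔭) :
    ∃ φ : V →ₗ[T] (T ⧸ 𝔭), φ ≠ 0 ∧ ∀ τ ∈ I, ∀ v, φ (ρV τ v) = φ v := by
  refine ⟨(Submodule.mkQ 𝔭) ∘ₗ ((bY.baseChange T).coord c) ∘ₗ (Lam K) ∘ₗ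
    (LinearMap.proj a) ∘ₗ Φ, ?_, ?_⟩
  · intro h0
    have := LinearMap.congr_fun h0 v
    simp only [LinearMap.comp_apply, LinearMap.proj_apply, Module.Basis.coord_apply,
      Submodule.mkQ_apply, LinearMap.zero_apply] at this
    rw [Submodule.Quotient.mk_eq_zero] at this
    exact hc this
  · intro τ hτ w
    simp only [LinearMap.comp_apply, LinearMap.proj_apply]
    rw [hΦG, Lam_baseChange ρZ K (hK1 τ hτ)]


/-- Artin–Rees for the range of a linear map into a finitely generated module over a noetherian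
ring: for `m` large, an element of the range divisible by `a ^ m` is `a` times an element of the
range. -/
theorem exists_level_range [IsNoetherianRing T] {Y : Type*} [AddCommGroup Y] [Module T Y]
    [Module.Finite T Y] (a : T) (Ψ : V →ₗ[T] Y) :
    ∃ m : ℕ, ∀ v : V, (∃ y : Y, Ψ v = a ^ m • y) → ∃ v' : V, Ψ v = a • Ψ v' := by
  set I₀ : Ideal T := Ideal.span {a} with hI₀
  set N : Submodule T Y := LinearMap.range Ψ with hN
  obtain ⟨k, hk⟩ := Ideal.exists_pow_inf_eq_pow_smul I₀ N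
  refine ⟨k + 1, fun v hv => ?_⟩
  have h1 : Ψ v ∈ I₀ ^ (k + 1) • (⊤ : Submodule T Y) ⊓ N := by
    refine ⟨?_, ⟨v, rfl⟩⟩
    rw [hI₀, Ideal.span_singleton_pow, Submodule.ideal_span_singleton_smul]
    obtain ⟨y, hy⟩ := hv
    exact ⟨y, Submodule.mem_top, hy.symm⟩
  rw [hk (k + 1) (Nat.le_succ k), Nat.add_sub_cancel_left] at h1
  have h2 : Ψ v ∈ I₀ ^ 1 • N := Submodule.smul_mono le_rfl inf_le_right h1
  rw [pow_one, hI₀, Submodule.ideal_span_singleton_smul] at h2
  obtain ⟨y, hy, hy'⟩ := h2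
  obtain ⟨v', rfl⟩ := hy
  exact ⟨v', hy'.symm⟩


/-- the graph group of case (b): pairs `(u, v)` with `u` a family of elements of `K` and
`sumT t (u (a, ·)) ≡ s • Φ v a` modulo `p ^ m`. -/
def graphGroup (K : Submodule ℤ_[p] Z) {n r : ℕ} (Φ : V →ₗ[T] (Fin n → T ⊗[ℤ_[p]] Z))
    (s : T) (m : ℕ) (t : Fin r → T) : AddSubgroup ((Fin n × Fin r → Z) × V) where
  carrier := {g | (∀ ai, g.1 ai ∈ K) ∧ ∃ x' : Fin n → T ⊗[ℤ_[p]] Z,
    ∀ a, sumT t (fun i => g.1 (a, i)) = s • Φ g.2 a + ((p : T) ^ m) • x' a}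
  zero_mem' := by
    refine ⟨fun ai => K.zero_mem, 0, fun a => ?_⟩
    have : (fun i : Fin r => ((0 : (Fin n × Fin r → Z) × V).1 (a, i))) = 0 := rfl
    rw [this, map_zero]
    simp
  add_mem' := by
    rintro g g' ⟨hg, x, hx⟩ ⟨hg', x', hx'⟩
    refine ⟨fun ai => K.add_mem (hg ai) (hg' ai), x + x', fun a => ?_⟩
    have : (fun i : Fin r => ((g + g').1 (a, i))) =
        (fun i => g.1 (a, i)) + (fun i => g'.1 (a, i)) := rfl
    rw [this, map_add, hx a, hx' a]
    simp only [Prod.snd_add, map_add, Pi.add_apply, smul_add]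
    abel
  neg_mem' := by
    rintro g ⟨hg, x, hx⟩
    refine ⟨fun ai => K.neg_mem (hg ai), -x, fun a => ?_⟩
    have : (fun i : Fin r => ((-g).1 (a, i))) = -(fun i => g.1 (a, i)) := rfl
    rw [this, map_neg, hx a]
    simp only [Prod.snd_neg, map_neg, Pi.neg_apply, smul_neg, neg_add]


/-- **The trichotomy core (T1 + T2).**  Under (NS) a nonzero `I`-trivial quotient `Q` of `V`
(killing `𝔭 V` and `p V`) forces a nonzero `I`-invariant functional `V → T ⧸ 𝔭`. -/
theorem exists_functional_of_noTrivSubquot [IsNoetherianRing T] [IsReduced T]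
    [Module.Finite ℤ_[p] Z]
    (K : Submodule ℤ_[p] Z) (hsat : ∀ z : Z, (p : ℤ_[p]) • z ∈ K → z ∈ K)
    (I : Set G) (hK1 : ∀ τ ∈ I, ∀ z, ρZ τ z - z ∈ K)
    (hNS : NoTrivSubquot ρZ K I)
    {𝔭 : Ideal T} (h𝔭 : 𝔭 ∈ minimalPrimes T)
    (hreps : ∀ m : ℕ, ∃ (r : ℕ) (t : Fin r → T),
      ∀ a : T, ∃ (i : Fin r) (a' : T), a = t i + (p : T) ^ m * a')
    {ιV : Type} [Fintype ιV] (b : Module.Basis ιV T V)
    {n : ℕ} (Φ : V →ₗ[T] (Fin n → T ⊗[ℤ_[p]] Z)) (hΦ : Function.Injective Φ)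
    (hΦG : ∀ g v a, Φ (ρV g v) a = (ρZ g).baseChange T (Φ v a))
    {Q : Type} [AddCommGroup Q] (qV : V →+ Q) (hqsurj : Function.Surjective qV)
    (hq𝔭 : ∀ c ∈ 𝔭, ∀ v, qV (c • v) = 0) (hqp : ∀ v, qV ((p : T) • v) = 0)
    (hqI : ∀ τ ∈ I, ∀ v, qV (ρV τ v) = qV v) (hQ : ∃ x : Q, x ≠ 0) :
    ∃ φ : V →ₗ[T] (T ⧸ 𝔭), φ ≠ 0 ∧ ∀ τ ∈ I, ∀ v, φ (ρV τ v) = φ v := by
  classical
  haveI : 𝔭.IsPrime := h𝔭.1.1
  haveI : Module.Free ℤ_[p] (Z ⧸ K) := free_quotient K hsat
  set bY := Module.Free.chooseBasis ℤ_[p] (Z ⧸ K) with hbY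
  by_cases hcase : ∃ (v : V) (a : Fin n) (c : _),
      (bY.baseChange T).repr (Lam K (Φ v a)) c ∉ 𝔭
  · obtain ⟨v, a, c, hc⟩ := hcase
    exact exists_functional_of_coord ρZ ρV K I hK1 𝔭 Φ hΦG bY hc
  · exfalso
    push Not at hcase
    obtain ⟨s, hs𝔭, hs⟩ := exists_notMem_mul_eq_zero h𝔭
    -- `Lam` kills `s • Φ v a`
    have hLam : ∀ v a, Lam K (s • Φ v a) = 0 := by
      intro v a
      rw [map_smul]
      apply (bY.baseChange T).repr.injective
      rw [map_smul, map_zero]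
      ext c
      rw [Finsupp.smul_apply, smul_eq_mul, Finsupp.zero_apply]
      exact hs _ (hcase v a c)
    -- `s w = 0` implies `qV w = 0`
    have hann : ∀ w : V, s • w = 0 → qV w = 0 := by
      intro w hw
      have hcoef : ∀ i, b.repr w i ∈ 𝔭 := by
        intro i
        have h1 : s * b.repr w i = 0 := by
          have := congrArg (fun f => b.repr f i) hw
          simpa using this
        have h2 : s * b.repr w i ∈ 𝔭 := by rw [h1]; exact 𝔭.zero_mem
        exact (Ideal.IsPrime.mem_or_mem inferInstance h2).resolve_left hs𝔭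
      rw [← b.sum_repr w, map_sum]
      exact Finset.sum_eq_zero fun i _ => hq𝔭 _ (hcoef i) _
    -- Artin–Rees
    obtain ⟨m, hm⟩ := exists_level_range (T := T) (p : T) (s • Φ)
    obtain ⟨r, t, ht⟩ := hreps m
    -- the sub-quotient data
    set G0 := graphGroup K Φ s m t with hG0
    let j : G0 →+ (Fin n × Fin r → Z) := (AddMonoidHom.fst _ _).comp G0.subtype
    let q : G0 →+ Q := qV.comp ((AddMonoidHom.snd _ _).comp G0.subtype)
    have hres := hNS m (Fin n × Fin r) G0 j Q q ?_ ?_ ?_ ?_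
    · obtain ⟨x, hx⟩ := hQ
      exact hx (hres x)
    · -- values in `K`
      rintro ⟨g, hg⟩ ai
      exact hg.1 ai
    · -- `I`-compatibility
      rintro τ hτ ⟨g, hg, x', hx'⟩
      refine ⟨⟨(fun ai => ρZ τ (g.1 ai), ρV τ g.2), ?_, fun a => (ρZ τ).baseChange T (x' a), ?_⟩,
        fun ai => rfl, hqI τ hτ g.2⟩
      · intro ai
        have := K.add_mem (hK1 τ hτ (g.1 ai)) (hg ai)
        rwa [sub_add_cancel] at this
      · intro a
        show sumT t (fun i => ρZ τ (g.1 (a, i))) = s • Φ (ρV τ g.2) a + _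
        rw [← baseChange_sumT t (ρZ τ) (fun i => g.1 (a, i)), hx' a, map_add, map_smul, map_smul,
          hΦG]
    · -- `q` is onto
      intro x
      obtain ⟨v, rfl⟩ := hqsurj x
      have hy : ∀ a, ∃ y : T ⊗[ℤ_[p]] K, K.subtype.baseChange T y = s • Φ v a :=
        fun a => exists_of_Lam_eq_zero K (hLam v a)
      choose y hy using hy
      have hdec : ∀ a, ∃ (u : Fin r → K) (y' : T ⊗[ℤ_[p]] K),
          y a = sumT t u + ((p : T) ^ m) • y' := fun a => exists_sumT_add t m ht (y a)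
      choose u y' hdec using hdec
      refine ⟨⟨(fun ai => (u ai.1 ai.2 : Z), v), fun ai => (u ai.1 ai.2).2,
        fun a => -(K.subtype.baseChange T (y' a)), fun a => ?_⟩, rfl⟩
      show sumT t (fun i => (u a i : Z)) = s • Φ v a + _
      have h1 : sumT t (fun i => (u a i : Z)) = K.subtype.baseChange T (sumT t (u a)) := by
        rw [baseChange_sumT]
        rfl
      have h2 : sumT t (u a) = y a - ((p : T) ^ m) • y' a := by rw [hdec a]; abel
      rw [h1, h2, map_sub, map_smul, hy a, smul_neg, sub_eq_add_neg]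
    · -- the kernel condition
      rintro ⟨g, hg, x', hx'⟩ hdiv
      show qV g.2 = 0
      have hdvd : ∀ a, ∃ z' : T ⊗[ℤ_[p]] Z, s • Φ g.2 a = ((p : T) ^ m) • z' := by
        intro a
        obtain ⟨z', hz'⟩ := sumT_of_dvd t m (fun i => g.1 (a, i)) (fun i => hdiv (a, i))
        refine ⟨z' - x' a, ?_⟩
        have := hx' a
        rw [hz'] at this
        rw [smul_sub, this]
        abel
      choose z' hz' using hdvd
      obtain ⟨v', hv'⟩ := hm g.2 ⟨z', by
        funext a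
        simp only [LinearMap.smul_apply, Pi.smul_apply]
        exact hz' a⟩
      have h3 : Φ (s • (g.2 - (p : T) • v')) = 0 := by
        have e1 : (s • Φ) g.2 = Φ (s • g.2) := by rw [LinearMap.smul_apply, map_smul]
        have e2 : (p : T) • (s • Φ) v' = Φ (s • ((p : T) • v')) := by
          rw [LinearMap.smul_apply, map_smul, map_smul, smul_comm]
        rw [smul_sub, map_sub, ← e1, ← e2, hv', sub_self]
      have h4 : s • (g.2 - (p : T) • v') = 0 := hΦ (by rw [h3, map_zero])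
      have h5 := hann _ h4
      rw [map_sub, hqp, sub_zero] at h5
      exact h5

end Core

end Fermat.Agent.T33.Tricho7
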