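/-
Programme T (S33 via a trichotomy), chapters T1 + T2, instantiation with the Hecke–Galois datum
(helper7).

`H` a Hecke–Galois datum over `(𝒪, T)` at level `N`, `p` odd, `p ∈ S`, primes of `N` in `S`;
`TJ p N = T_p J₀(N)` with the Galois action `rhoT p N`.

* `isOrdinaryAt_of_functionals` : the reduction theorem of `S33x/Main3` with `p ∈ S` in place of
  `p ∣ N` (so that the good-reduction test case `p ∤ N` fits as well).
* `exists_residual_quotient` : an ordinary line of the residual representation at `P` gives a nonzero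
  quotient `Q` of `H.ρ.V`, killed by `𝔪_T`, on which the inertia group of `P` acts trivially.
* `isOrdinaryAt_of_noTrivSubquot` : **S33 from (NS)**.  If for every `P` over `p` there is a
  saturated submodule `K ≤ TJ p N` with `I_P` acting trivially on `TJ p N ⧸ K` and such that no nonzero
  `I_P`-trivial group is an `I_P`-equivariant sub-quotient of a finite power of `K / p ^ m K`
  (`Tricho7.NoTrivSubquot`), and the residual representation is ordinary at `p`, then `H.ρ` is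
  ordinary at `p`.
* `isOrdinaryAt_of_psi` : the same with `K = ker Ψ` for a `ℤ_[p]`-linear `I_P`-invariant map `Ψ` into
  a torsion-free module.
* `s33_of_noTrivSubquot` : the frozen shape of S33 plus (NS).

Everything is stated for an ARBITRARY instance `[Algebra ℤ_[p] T]`; the variants `…_padic` use the
canonical `PadicAlg8.padicAlgebra` (there the algebra structure enters only through the proof).
-/
import Mathlib
import Fermat.Prelude.Def_CuspForm_HeckeGaloisRepDatum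
import Fermat.Prelude.Def_GaloisRep_LocalConditions
import Fermat.Agent.ES.J.PadicAlg8
import Fermat.Agent.ES.J.S30Final8
import Fermat.Agent.S32x.Reduced4
import Fermat.Agent.S32x.EigenW5A
import Fermat.Agent.S32x.EigenW5C
import Fermat.Agent.S32x.Faithful1C
import Fermat.Agent.S32x.Alg7A
import Fermat.Agent.S32x.Level3C
import Fermat.Agent.S33x.OrdAlg3
import Fermat.Agent.S33x.DetCyclo3
import Fermat.Agent.T33.Tricho7A

set_option autoImplicit false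
set_option linter.unusedSectionVars false
set_option linter.unusedVariables false
set_option linter.style.haveILetI false
set_option synthInstance.maxHeartbeats 400000

open CuspForm TensorProduct

noncomputable section

namespace Fermat.Agent.T33.Tricho7

open Fermat.Agent.ES.J.TateJZero13 Fermat.Agent.S32x.EigenW5A

local notation "Qb" => AlgebraicClosure ℚ
local notation "GQ" => (AlgebraicClosure ℚ ≃ₐ[ℚ] AlgebraicClosure ℚ)

/-! ### The residual quotient -/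

section Residual

variable {A : Type} [CommRing A] [IsLocalRing A]

/-- every element of `k ⊗[A] V` (`k` the residue field) is of the form `1 ⊗ v`. -/
theorem exists_one_tmul_eq {V : Type} [AddCommGroup V] [Module A V]
    (x : IsLocalRing.ResidueField A ⊗[A] V) :
    ∃ v : V, (1 : IsLocalRing.ResidueField A) ⊗ₜ[A] v = x := by
  induction x using TensorProduct.induction_on with
  | zero => exact ⟨0, by rw [TensorProduct.tmul_zero]⟩
  | tmul c v =>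
    obtain ⟨a, rfl⟩ := IsLocalRing.residue_surjective c
    refine ⟨a • v, ?_⟩
    rw [TensorProduct.tmul_smul, TensorProduct.smul_tmul', Algebra.smul_def, mul_one,
      IsLocalRing.ResidueField.algebraMap_eq]
  | add x y hx hy =>
    obtain ⟨v, rfl⟩ := hx
    obtain ⟨w, rfl⟩ := hy
    exact ⟨v + w, by rw [TensorProduct.tmul_add]⟩

/-- `1 ⊗ (c • v) = 0` for `c ∈ 𝔪`. -/
theorem one_tmul_smul_eq_zero {V : Type} [AddCommGroup V] [Module A V]
    {c : A} (hc : c ∈ IsLocalRing.maximalIdeal A) (v : V) :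
    (1 : IsLocalRing.ResidueField A) ⊗ₜ[A] (c • v) = 0 := by
  rw [TensorProduct.tmul_smul, TensorProduct.smul_tmul', Algebra.smul_def, mul_one,
    IsLocalRing.ResidueField.algebraMap_eq, (IsLocalRing.residue_eq_zero_iff c).mpr hc,
    TensorProduct.zero_tmul]

/-- **The residual quotient.**  A line `L = k ∙ b 0` of the residual representation such that the
elements of `I` act trivially modulo `L` gives a nonzero quotient of `ρ.V`, killed by `𝔪`, on which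
`I` acts trivially. -/
theorem exists_residual_quotient (ρ : GaloisRepAdic A) (I : Set GQ)
    (L : Submodule (IsLocalRing.ResidueField A) ρ.residual.V)
    (hL : ∃ b : Module.Basis (Fin 2) (IsLocalRing.ResidueField A) ρ.residual.V,
      L = Submodule.span (IsLocalRing.ResidueField A) {b 0})
    (hI : ∀ σ ∈ I, ∀ v : ρ.residual.V, ρ.residual.ρ σ v - v ∈ L) :
    ∃ qV : ρ.V →+ (ρ.residual.V ⧸ L), Function.Surjective qV ∧
      (∀ c ∈ IsLocalRing.maximalIdeal A, ∀ v, qV (c • v) = 0) ∧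
      (∀ σ ∈ I, ∀ v, qV (ρ.ρ σ v) = qV v) ∧ ∃ x : ρ.residual.V ⧸ L, x ≠ 0 := by
  classical
  let e : ρ.V →+ ρ.residual.V :=
    ((TensorProduct.mk A (IsLocalRing.ResidueField A) ρ.V) 1).toAddMonoidHom
  have he : ∀ v, e v = (1 : IsLocalRing.ResidueField A) ⊗ₜ[A] v := fun v => rfl
  refine ⟨L.mkQ.toAddMonoidHom.comp e, ?_, ?_, ?_, ?_⟩
  · intro y
    obtain ⟨x, rfl⟩ := L.mkQ_surjective y
    obtain ⟨v, hv⟩ := exists_one_tmul_eq (A := A) (V := ρ.V) x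
    exact ⟨v, by
      rw [AddMonoidHom.comp_apply, he]
      exact congrArg L.mkQ hv⟩
  · intro c hc v
    have h0 : e (c • v) = 0 := one_tmul_smul_eq_zero hc v
    rw [AddMonoidHom.comp_apply, h0, map_zero]
  · intro σ hσ v
    rw [AddMonoidHom.comp_apply, AddMonoidHom.comp_apply, he, he]
    have h1 : ρ.residual.ρ σ ((1 : IsLocalRing.ResidueField A) ⊗ₜ[A] v) =
        (1 : IsLocalRing.ResidueField A) ⊗ₜ[A] (ρ.ρ σ v) :=
      LinearMap.baseChange_tmul _ _ _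
    have h2 := hI σ hσ ((1 : IsLocalRing.ResidueField A) ⊗ₜ[A] v)
    rw [h1] at h2
    exact (Submodule.Quotient.eq L).2 h2
  · obtain ⟨b, rfl⟩ := hL
    refine ⟨Submodule.Quotient.mk (b 1), ?_⟩
    intro h0
    rw [Submodule.Quotient.mk_eq_zero, Submodule.mem_span_singleton] at h0
    obtain ⟨c, hc⟩ := h0
    have h1 := congrArg (b.coord 1) hc
    rw [map_smul, Module.Basis.coord_apply, Module.Basis.coord_apply, Module.Basis.repr_self,
      Module.Basis.repr_self, Finsupp.single_eq_same,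
      Finsupp.single_eq_of_ne (by decide : (1 : Fin 2) ≠ 0), smul_zero] at h1
    exact zero_ne_one h1

end Residual


/-! ### The datum -/

section Datum

variable {p : ℕ} {N : ℕ} [NeZero N] {S : Finset ℕ}
  {𝒪 : Type} [CommRing 𝒪] [IsDomain 𝒪] [IsDiscreteValuationRing 𝒪]
  [IsAdicComplete (IsLocalRing.maximalIdeal 𝒪) 𝒪]
  {θ : CuspForm.heckeAlgebra N 2 (↑S : Set ℕ) →+* IsLocalRing.ResidueField 𝒪}
  {T : Type} [CommRing T] [IsLocalRing T] [IsNoetherianRing T]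
  [IsAdicComplete (IsLocalRing.maximalIdeal T) T] [Algebra 𝒪 T] [IsLocalHom (algebraMap 𝒪 T)]
  [Module.Finite 𝒪 T] [Module.Free 𝒪 T]

/-- `T ⧸ 𝔭` is a "`𝔭`-torsion-free" `T`-module. -/
theorem smul_eq_zero_quotient (𝔭 : Ideal T) [𝔭.IsPrime] (t : T) (m : T ⧸ 𝔭) (h : t • m = 0) :
    t ∈ 𝔭 ∨ m = 0 := by
  obtain ⟨a, rfl⟩ := Ideal.Quotient.mk_surjective m
  have h1 : t • (Ideal.Quotient.mk 𝔭 a) = Ideal.Quotient.mk 𝔭 (t * a) := by
    rw [map_mul]
    rfl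
  rw [h1, Ideal.Quotient.eq_zero_iff_mem] at h
  rcases Ideal.IsPrime.mem_or_mem inferInstance h with h | h
  · exact Or.inl h
  · exact Or.inr (Ideal.Quotient.eq_zero_iff_mem.2 h)

/-- **The reduction theorem of `S33x/Main3`, with `p ∈ S` in place of `p ∣ N`** and for an arbitrary
instance `[Algebra ℤ_[p] T]`. -/
theorem isOrdinaryAt_of_functionals [hp : Fact p.Prime] [Algebra ℤ_[p] T] [CharZero 𝒪]
    (hp2 : p ≠ 2) (hpT : (p : T) ∈ IsLocalRing.maximalIdeal T)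
    (hpS : p ∈ S) (hNS : ∀ q : ℕ, q.Prime → q ∣ N → q ∈ S)
    (H : CuspForm.HeckeGaloisRepDatum N (↑S : Set ℕ) 𝒪 θ T)
    (HG : ∀ P : ValuationSubring Qb, P.LiesOverPrime p → ∀ 𝔭 ∈ minimalPrimes T,
      ∃ φ : H.ρ.V →ₗ[T] (T ⧸ 𝔭), φ ≠ 0 ∧
        ∀ σ ∈ P.inertiaSubgroupIn ℚ, ∀ v : H.ρ.V, φ (H.ρ.ρ σ v) = φ v) :
    H.ρ.IsOrdinaryAt p := by
  haveI : IsReduced T := Fermat.Agent.S32x.Reduced4.isReduced_T hNS H
  intro P hP
  obtain ⟨τ, hτ, hunit⟩ :=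
    Fermat.Agent.S33x.DetCyclo3.exists_mem_inertia_isUnit_det_sub_one hp2 hpT hpS hNS H P hP
  refine Fermat.Agent.S33x.OrdAlg3.exists_line_of_invariant_functionals H.ρ.finrank_eq H.ρ.ρ
    (P.inertiaSubgroupIn ℚ) (P.decompositionSubgroup ℚ)
    (fun g hg σ hσ => Fermat.Agent.S33x.DetCyclo3.conj_mem_inertiaSubgroupIn P hg hσ)
    τ hτ hunit ?_
  intro 𝔭 h𝔭
  haveI : 𝔭.IsPrime := h𝔭.1.1
  obtain ⟨φ, hφ, hinv⟩ := HG P hP 𝔭 h𝔭
  exact ⟨T ⧸ 𝔭, inferInstance, inferInstance, smul_eq_zero_quotient 𝔭, φ, hφ, hinv⟩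

/-- **The functional from (NS), at one place `P` and one minimal prime `𝔭`.** -/
theorem exists_functional_of_noTrivSubquot_datum [hp : Fact p.Prime] [Algebra ℤ_[p] T]
    [Finite (IsLocalRing.ResidueField 𝒪)] [CharZero 𝒪]
    (hp2 : p ≠ 2) (hp𝒪 : (p : 𝒪) ∈ IsLocalRing.maximalIdeal 𝒪)
    (hpS : p ∈ S) (hNS : ∀ q : ℕ, q.Prime → q ∣ N → q ∈ S)
    (H : CuspForm.HeckeGaloisRepDatum N (↑S : Set ℕ) 𝒪 θ T)
    (I : Set GQ)
    (hres : ∃ L : Submodule (IsLocalRing.ResidueField T) H.ρ.residual.V,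
      (∃ b : Module.Basis (Fin 2) (IsLocalRing.ResidueField T) H.ρ.residual.V,
        L = Submodule.span (IsLocalRing.ResidueField T) {b 0}) ∧
      ∀ σ ∈ I, ∀ v : H.ρ.residual.V, H.ρ.residual.ρ σ v - v ∈ L)
    (K : Submodule ℤ_[p] (TJ p N)) (hsat : ∀ z : TJ p N, (p : ℤ_[p]) • z ∈ K → z ∈ K)
    (hK1 : ∀ τ ∈ I, ∀ z : TJ p N, rhoT p N τ z - z ∈ K)
    (hNoTriv : NoTrivSubquot (rhoT p N) K I)
    {𝔭 : Ideal T} (h𝔭 : 𝔭 ∈ minimalPrimes T) :
    ∃ φ : H.ρ.V →ₗ[T] (T ⧸ 𝔭), φ ≠ 0 ∧ ∀ σ ∈ I, ∀ v : H.ρ.V, φ (H.ρ.ρ σ v) = φ v := by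
  haveI : IsReduced T := Fermat.Agent.S32x.Reduced4.isReduced_T hNS H
  haveI : 𝔭.IsPrime := h𝔭.1.1
  have hfin := Fermat.Agent.ES.J.S30Final8.k1 p N
  haveI : Module.Finite ℤ_[p] (TJ p N) := (finite_free (p := p) (N := N) hfin).1
  obtain ⟨hspan, h2, hpT⟩ := Fermat.Agent.S32x.Alg7.datum_inputs hp.out hp2 hp𝒪 H
  obtain ⟨n, Φ, hΦinj, hΦG⟩ := Fermat.Agent.S32x.EigenW5C.exists_embedding_XT hpT hpS hNS hfin H
    (Fermat.Agent.S32x.Alg7.basisV H.ρ) hspan h2 (Fermat.Agent.S32x.Faithful1.faithful_eigenW p hNS H)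
  obtain ⟨L, hL, hLI⟩ := hres
  obtain ⟨qV, hqsurj, hq𝔪, hqI, hQ⟩ := exists_residual_quotient H.ρ I L hL hLI
  have h𝔭𝔪 : 𝔭 ≤ IsLocalRing.maximalIdeal T :=
    IsLocalRing.le_maximalIdeal (Ideal.IsPrime.ne_top inferInstance)
  exact exists_functional_of_noTrivSubquot (rhoT p N) H.ρ.ρ K hsat I hK1 hNoTriv h𝔭
    (fun m => Fermat.Agent.S32x.Level3.exists_reps 𝒪 T hp.out.ne_zero m)
    (Fermat.Agent.S32x.Alg7.basisV H.ρ) Φ hΦinj
    (fun g v a => hΦG g v a)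
    qV hqsurj (fun c hc v => hq𝔪 c (h𝔭𝔪 hc) v) (fun v => hq𝔪 _ hpT v) hqI hQ

/-- **S33 from (NS)** (arbitrary `[Algebra ℤ_[p] T]`, `p ∈ S`). -/
theorem isOrdinaryAt_of_noTrivSubquot [hp : Fact p.Prime] [Algebra ℤ_[p] T]
    [Finite (IsLocalRing.ResidueField 𝒪)] [CharZero 𝒪]
    (hp2 : p ≠ 2) (hp𝒪 : (p : 𝒪) ∈ IsLocalRing.maximalIdeal 𝒪)
    (hpS : p ∈ S) (hNS : ∀ q : ℕ, q.Prime → q ∣ N → q ∈ S)
    (H : CuspForm.HeckeGaloisRepDatum N (↑S : Set ℕ) 𝒪 θ T)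
    (hres : (GaloisRepAdic.ofResidualGaloisRep H.ρ.residual).IsOrdinaryAt p)
    (hNoTriv : ∀ P : ValuationSubring Qb, P.LiesOverPrime p →
      ∃ K : Submodule ℤ_[p] (TJ p N), (∀ z : TJ p N, (p : ℤ_[p]) • z ∈ K → z ∈ K) ∧
        (∀ τ ∈ P.inertiaSubgroupIn ℚ, ∀ z : TJ p N, rhoT p N τ z - z ∈ K) ∧
        NoTrivSubquot (rhoT p N) K (P.inertiaSubgroupIn ℚ : Set GQ)) :
    H.ρ.IsOrdinaryAt p := by
  obtain ⟨_, _, hpT⟩ := Fermat.Agent.S32x.Alg7.datum_inputs hp.out hp2 hp𝒪 H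
  refine isOrdinaryAt_of_functionals hp2 hpT hpS hNS H ?_
  intro P hP 𝔭 h𝔭
  obtain ⟨K, hsat, hK1, hNS'⟩ := hNoTriv P hP
  obtain ⟨L, hL, _, hLI⟩ := hres P hP
  exact exists_functional_of_noTrivSubquot_datum hp2 hp𝒪 hpS hNS H
    (P.inertiaSubgroupIn ℚ : Set GQ) ⟨L, hL, hLI⟩ K hsat hK1 hNS' h𝔭

/-- **S33 from (NS), `Ψ`-form**: `K = ker Ψ_P` for a `ℤ_[p]`-linear map `Ψ_P` on `TJ p N`, invariant
under the inertia group of `P`, with values in a torsion-free module. -/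
theorem isOrdinaryAt_of_psi [hp : Fact p.Prime] [Algebra ℤ_[p] T]
    [Finite (IsLocalRing.ResidueField 𝒪)] [CharZero 𝒪]
    (hp2 : p ≠ 2) (hp𝒪 : (p : 𝒪) ∈ IsLocalRing.maximalIdeal 𝒪)
    (hpS : p ∈ S) (hNS : ∀ q : ℕ, q.Prime → q ∣ N → q ∈ S)
    (H : CuspForm.HeckeGaloisRepDatum N (↑S : Set ℕ) 𝒪 θ T)
    (hres : (GaloisRepAdic.ofResidualGaloisRep H.ρ.residual).IsOrdinaryAt p)
    (hΨ : ∀ P : ValuationSubring Qb, P.LiesOverPrime p →
      ∃ (Y : Type) (_ : AddCommGroup Y) (_ : Module ℤ_[p] Y) (Ψ : TJ p N →ₗ[ℤ_[p]] Y),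
        (∀ y : Y, (p : ℤ_[p]) • y = 0 → y = 0) ∧
        (∀ τ ∈ P.inertiaSubgroupIn ℚ, ∀ z : TJ p N, Ψ (rhoT p N τ z) = Ψ z) ∧
        NoTrivSubquot (rhoT p N) (LinearMap.ker Ψ) (P.inertiaSubgroupIn ℚ : Set GQ)) :
    H.ρ.IsOrdinaryAt p := by
  refine isOrdinaryAt_of_noTrivSubquot hp2 hp𝒪 hpS hNS H hres ?_
  intro P hP
  obtain ⟨Y, _, _, Ψ, htf, hinv, hNS'⟩ := hΨ P hP
  refine ⟨LinearMap.ker Ψ, ?_, ?_, hNS'⟩
  · intro z hz
    rw [LinearMap.mem_ker] at hz ⊢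
    rw [map_smul] at hz
    exact htf _ hz
  · intro τ hτ z
    rw [LinearMap.mem_ker, map_sub, hinv τ hτ z, sub_self]

/-- **S33 from (NS)**, with the canonical `ℤ_[p]`-algebra structure on `T` (which enters only
through the proof: the statement does not mention it). -/
theorem isOrdinaryAt_of_noTrivSubquot_padic [Finite (IsLocalRing.ResidueField 𝒪)] [CharZero 𝒪]
    (hp : p.Prime) (hp2 : p ≠ 2) (hp𝒪 : (p : 𝒪) ∈ IsLocalRing.maximalIdeal 𝒪)
    (hpS : p ∈ S) (hNS : ∀ q : ℕ, q.Prime → q ∣ N → q ∈ S)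
    (H : CuspForm.HeckeGaloisRepDatum N (↑S : Set ℕ) 𝒪 θ T)
    (hres : (GaloisRepAdic.ofResidualGaloisRep H.ρ.residual).IsOrdinaryAt p)
    (hNoTriv : haveI : Fact p.Prime := ⟨hp⟩
      ∀ P : ValuationSubring Qb, P.LiesOverPrime p →
      ∃ K : Submodule ℤ_[p] (TJ p N), (∀ z : TJ p N, (p : ℤ_[p]) • z ∈ K → z ∈ K) ∧
        (∀ τ ∈ P.inertiaSubgroupIn ℚ, ∀ z : TJ p N, rhoT p N τ z - z ∈ K) ∧
        NoTrivSubquot (rhoT p N) K (P.inertiaSubgroupIn ℚ : Set GQ)) :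
    H.ρ.IsOrdinaryAt p := by
  haveI : Fact p.Prime := ⟨hp⟩
  obtain ⟨_, _, hpT⟩ := Fermat.Agent.S32x.Alg7.datum_inputs hp hp2 hp𝒪 H
  letI : Algebra ℤ_[p] T :=
    Fermat.Agent.ES.J.PadicAlg8.padicAlgebra p (IsLocalRing.maximalIdeal T) hpT
  exact isOrdinaryAt_of_noTrivSubquot hp2 hp𝒪 hpS hNS H hres hNoTriv

/-- **The frozen shape of S33, plus (NS).** -/
theorem s33_of_noTrivSubquot
    [Finite (IsLocalRing.ResidueField 𝒪)] [CharZero 𝒪]
    (hp : p.Prime) (hp2 : p ≠ 2) (hp𝒪 : (p : 𝒪) ∈ IsLocalRing.maximalIdeal 𝒪)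
    (hN : p ∣ N ∧ ¬ p ^ 2 ∣ N)
    (hNS : ∀ q : ℕ, q.Prime → q ∣ N → q ∈ S)
    (H : CuspForm.HeckeGaloisRepDatum N (↑S : Set ℕ) 𝒪 θ T)
    (hres : (GaloisRepAdic.ofResidualGaloisRep H.ρ.residual).IsOrdinaryAt p)
    (hNoTriv : haveI : Fact p.Prime := ⟨hp⟩
      ∀ P : ValuationSubring Qb, P.LiesOverPrime p →
      ∃ K : Submodule ℤ_[p] (TJ p N), (∀ z : TJ p N, (p : ℤ_[p]) • z ∈ K → z ∈ K) ∧
        (∀ τ ∈ P.inertiaSubgroupIn ℚ, ∀ z : TJ p N, rhoT p N τ z - z ∈ K) ∧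
        NoTrivSubquot (rhoT p N) K (P.inertiaSubgroupIn ℚ : Set GQ)) :
    H.ρ.IsOrdinaryAt p :=
  isOrdinaryAt_of_noTrivSubquot_padic hp hp2 hp𝒪 (hNS p hp hN.1) hNS H hres hNoTriv

end Datum

end Fermat.Agent.T33.Tricho7
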