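/-
Programme T (S33 via a trichotomy), chapter T6 (helper7): **from finite levels to (NS)**.

`Z` a `ℤ_[p]`-module with an action `ρZ` of a group `G`, `K ≤ Z` a submodule, `I ≤ G` a subgroup.
Finite levels: for every `m` a group `Gm m` with an action of `I` and an additive map
`pr m : K →+ Gm m`, equivariant for `I`, whose kernel consists of elements divisible by `p ^ m` in `Z`
(e.g. `Z = T_p J₀(N)`, `K = ker Ψ`, `Gm m = ker Ψ_m ≤ J₀(N)[p^m]`, `pr m` = the level-`m` component).

* `noTrivSubquot_of_levels` (Mathlib only): if, for every `m`, no nonzero `p`-group with trivial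
  action is an `I`-equivariant sub-quotient (`S ↪ (Gm m)^ι`, `S ↠ Q`) of a finite power of `Gm m`,
  then `Tricho7.NoTrivSubquot ρZ K I` holds, i.e. hypothesis (NS) of `Tricho7A/B`.
* `noTrivSubquot_of_hasConnOrder`: the sub-quotient hypothesis is supplied by Oort–Tate in the form
  `ConnOrd2.HasConnOrder.subquotient_eq_zero`: it suffices that every `Gm m` is finite and carries a
  connected Hopf order over an unramified fixed ring `R = A^I`.
-/
import Mathlib
import Fermat.Agent.T33.Tricho7A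
import Fermat.Agent.T33.ConnOrd2

set_option autoImplicit false
set_option linter.unusedSectionVars false
set_option linter.unusedVariables false
set_option linter.style.haveILetI false

noncomputable section

namespace Fermat.Agent.T33.Tricho7

section Levels

variable {p : ℕ} [hp : Fact p.Prime]
  {Z : Type} [AddCommGroup Z] [Module ℤ_[p] Z]
  {G : Type} [Group G] (ρZ : G →* Module.End ℤ_[p] Z)

/-- **(NS) from the finite levels.** -/
theorem noTrivSubquot_of_levels (K : Submodule ℤ_[p] Z) (I : Subgroup G)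
    (Gm : ℕ → Type) [∀ m, AddCommGroup (Gm m)] [∀ m, DistribMulAction I (Gm m)]
    (pr : ∀ m, K →+ Gm m)
    (hprI : ∀ (m : ℕ) (τ : I) (z : Z) (hz : z ∈ K) (hz' : ρZ τ z ∈ K),
      pr m ⟨ρZ τ z, hz'⟩ = τ • pr m ⟨z, hz⟩)
    (hpr0 : ∀ (m : ℕ) (z : K), pr m z = 0 → ∃ w : Z, (z : Z) = ((p : ℤ_[p]) ^ m) • w)
    (hOT : ∀ (m : ℕ) (ι : Type) [Finite ι] (S : Type) [AddCommGroup S] [DistribMulAction I S]
      (j : S →+ (ι → Gm m)), Function.Injective j → (∀ (σ : I) (s : S), j (σ • s) = σ • j s) →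
      ∀ (Q : Type) [AddCommGroup Q] [DistribMulAction I Q] (q : S →+ Q), Function.Surjective q →
      (∀ (σ : I) (s : S), q (σ • s) = σ • q s) → (∀ y : Q, ∃ n : ℕ, p ^ n • y = 0) →
      (∀ (σ : I) (y : Q), σ • y = y) → ∀ y : Q, y = 0) :
    NoTrivSubquot ρZ K (I : Set G) := by
  classical
  intro m ι _ V₀ _ j Q _ q hjK hI hqsurj hker
  -- the map to the finite level
  let f : V₀ →+ (ι → Gm m) :=
    AddMonoidHom.mk' (fun g i => pr m ⟨j g i, hjK g i⟩) (by
      intro g g'
      funext i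
      rw [Pi.add_apply, ← map_add]
      congr 1
      apply Subtype.ext
      show j (g + g') i = j g i + j g' i
      rw [map_add, Pi.add_apply])
  have hf : ∀ g i, f g i = pr m ⟨j g i, hjK g i⟩ := fun g i => rfl
  -- kernel of `f` dies in `Q`
  have hfker : ∀ g, f g = 0 → q g = 0 := by
    intro g hg
    apply hker g
    intro i
    have h0 : pr m ⟨j g i, hjK g i⟩ = 0 := by
      rw [← hf, hg, Pi.zero_apply]
    exact hpr0 m _ h0
  -- the range is stable under `I`
  have hstab : ∀ (σ : I) (s : ι → Gm m), s ∈ f.range → σ • s ∈ f.range := by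
    rintro σ s ⟨g, rfl⟩
    obtain ⟨g', hg', _⟩ := hI σ.1 σ.2 g
    refine ⟨g', ?_⟩
    funext i
    rw [Pi.smul_apply, hf, hf]
    have hz' : ρZ (σ : G) (j g i) ∈ K := by
      rw [← hg' i]
      exact hjK g' i
    rw [← hprI m σ (j g i) (hjK g i) hz']
    congr 1
    exact Subtype.ext (hg' i)
  letI actS : DistribMulAction I f.range :=
    { smul := fun σ s => ⟨σ • s.1, hstab σ s.1 s.2⟩
      one_smul := fun s => Subtype.ext (one_smul _ _)
      mul_smul := fun σ τ s => Subtype.ext (mul_smul _ _ _)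
      smul_zero := fun σ => Subtype.ext (smul_zero _)
      smul_add := fun σ s t => Subtype.ext (smul_add _ _ _) }
  have hactS : ∀ (σ : I) (s : f.range), ((σ • s : f.range) : ι → Gm m) = σ • (s : ι → Gm m) :=
    fun σ s => rfl
  letI actQ : DistribMulAction I Q :=
    { smul := fun _ y => y
      one_smul := fun _ => rfl
      mul_smul := fun _ _ _ => rfl
      smul_zero := fun _ => rfl
      smul_add := fun _ _ _ => rfl }
  have hactQ : ∀ (σ : I) (y : Q), σ • y = y := fun σ y => rfl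
  -- the induced map on the range
  have hsurj : Function.Surjective f.rangeRestrict := f.rangeRestrict_surjective
  have hle : f.rangeRestrict.ker ≤ q.ker := by
    intro g hg
    rw [AddMonoidHom.mem_ker] at hg ⊢
    apply hfker
    have := congrArg Subtype.val hg
    exact this
  let q' : f.range →+ Q := f.rangeRestrict.liftOfSurjective hsurj ⟨q, hle⟩
  have hq' : ∀ g, q' (f.rangeRestrict g) = q g := by
    intro g
    exact AddMonoidHom.liftOfRightInverse_comp_apply _ _ _ ⟨q, hle⟩ g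
  refine hOT m ι f.range f.range.subtype Subtype.val_injective (fun σ s => rfl) Q q' ?_ ?_ ?_ hactQ
  · intro y
    obtain ⟨g, rfl⟩ := hqsurj y
    exact ⟨f.rangeRestrict g, hq' g⟩
  · intro σ s
    obtain ⟨g, rfl⟩ := hsurj s
    obtain ⟨g', hg', hqg'⟩ := hI σ.1 σ.2 g
    have h1 : σ • f.rangeRestrict g = f.rangeRestrict g' := by
      apply Subtype.ext
      rw [hactS]
      show σ • f g = f g'
      funext i
      rw [Pi.smul_apply, hf, hf]
      have hz' : ρZ (σ : G) (j g i) ∈ K := by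
        rw [← hg' i]
        exact hjK g' i
      rw [← hprI m σ (j g i) (hjK g i) hz']
      congr 1
      exact Subtype.ext (hg' i).symm
    rw [h1, hq', hq', hactQ, hqg']
  · intro y
    obtain ⟨g, rfl⟩ := hqsurj y
    refine ⟨m, ?_⟩
    rw [← map_nsmul]
    apply hker
    intro i
    refine ⟨j g i, ?_⟩
    rw [map_nsmul, Pi.smul_apply, ← Nat.cast_smul_eq_nsmul ℤ_[p], Nat.cast_pow]

end Levels


section Conn

open Fermat.Agent.T33.ConnOrd2 Fermat.Agent.FF.OrderCoordC

variable {p : ℕ} [hp : Fact p.Prime]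
  {Z : Type} [AddCommGroup Z] [Module ℤ_[p] Z]
  {G : Type} [Group G] (ρZ : G →* Module.End ℤ_[p] Z)

/-- **(NS) from connected Hopf orders on the finite levels** (Oort–Tate in the form
`ConnOrd2.HasConnOrder.subquotient_eq_zero`). -/
theorem noTrivSubquot_of_hasConnOrder (hp2 : p ≠ 2)
    (K : Submodule ℤ_[p] Z) (I : Subgroup G)
    {R : Type*} [CommRing R] [IsDomain R] [IsPrincipalIdealRing R] [Infinite R]
    {Kbar : Type*} [Field Kbar] [CharZero Kbar] [Algebra R Kbar]
    {F : Type*} [Field F] [Algebra R F] [IsFractionRing R F] [Algebra F Kbar]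
    [IsScalarTower R F Kbar]
    [MulSemiringAction I Kbar] (A : ValuationSubring Kbar)
    (hfix : ∀ x : Kbar, (∀ σ : I, σ • x = x) → x ∈ (algebraMap F Kbar).range)
    (hW : IsFixedRing I A R)
    (hunr : ∀ r : R, algebraMap R Kbar r ∈ A.nonunits → (p : R) ∣ r)
    (hsep : ∀ r : R, (∀ n : ℕ, (p : R) ^ n ∣ r) → r = 0)
    (Gm : ℕ → Type) [∀ m, AddCommGroup (Gm m)] [∀ m, Finite (Gm m)]
    [∀ m, DistribMulAction I (Gm m)]
    (hconn : ∀ m, HasConnOrder R I A (Gm m))
    (pr : ∀ m, K →+ Gm m)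
    (hprI : ∀ (m : ℕ) (τ : I) (z : Z) (hz : z ∈ K) (hz' : ρZ τ z ∈ K),
      pr m ⟨ρZ τ z, hz'⟩ = τ • pr m ⟨z, hz⟩)
    (hpr0 : ∀ (m : ℕ) (z : K), pr m z = 0 → ∃ w : Z, (z : Z) = ((p : ℤ_[p]) ^ m) • w) :
    NoTrivSubquot ρZ K (I : Set G) := by
  refine noTrivSubquot_of_levels ρZ K I Gm pr hprI hpr0 ?_
  intro m ι _ S _ _ j hj hjΓ Q _ _ q hq hqΓ hQ htriv y
  exact HasConnOrder.subquotient_eq_zero (K := F) hfix p hp2 hW hunr hsep (hconn m) ι j hj hjΓ q hq
    hqΓ hQ htriv y

end Conn

end Fermat.Agent.T33.Tricho7
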