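/-
Programme T (S33 via a trichotomy), END-TO-END wiring, part A (helper7): **S33 ⟸ (NF)**.

`p` an odd prime, `N ≥ 1` any level, `N' = auxLevel p N` (`= lcm N 4`; the level where the geometry
lives), `A` a valuation subring of `ℚ̄` over `p`.  With helper3's formal part
`Psi3D.formalTwo A N' p ≤ J₀(N')` (= `ker Ψ`, all levels at once):

* `Glevel A p N' m = formalTwo A N' p ∩ J₀(N')[p^m]` (`= ker Ψ_m`), a finite group with an action of
  the inertia group `Iner A`;
* `formalPull A p hNN' ≤ J₀(N)`: the pull-back of `formalTwo A N' p` along `π^* : J₀(N) → J₀(N')`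
  (any `N ∣ N'`); `KNodal A p hNN' = Kt p (formalPull A p hNN') ≤ T_p J₀(N)` — sequences with all
  terms in `formalPull`
  (`= ker (Ψ ∘ T_p π^*)`), with (K1) `rhoT τ z - z ∈ KNodal` for `τ ∈ Iner A` and (K2) saturation;
* `prLevel m : KNodal → Glevel m`, `x ↦ π^* (proj m x)`, equivariant, with kernel in `p^m T_p J₀(N)`
  (`π^*` is injective on torsion at the auxiliary level).

**(NF)**: `∀ m, HasConnOrder (W0 A) (Iner A) A (Glevel A p N' m)` (a connected Hopf order on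
`ker Ψ_m`).

* `noTrivSubquot_KNodal` : (NF) ⟹ (NS) for `KNodal` (Oort–Tate in the form
  `WZero2.subquotient_eq_zero` through the bridge `Tricho7C.noTrivSubquot_of_levels`);
* **`s33_of_hasConnOrder`** : the literal hypothesis list of the frozen statement S33 plus (NF) for
  every `A` over `p` ⟹ `H.ρ.IsOrdinaryAt p`  (`Tricho7B.s33_of_noTrivSubquot`).
-/
import Mathlib
import Fermat.Agent.T33.Psi3D
import Fermat.Agent.T33.Tricho7B
import Fermat.Agent.T33.Tricho7C
import Fermat.Agent.T33.WZero2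
import Fermat.Agent.FF.S19Aux1
import Fermat.Agent.ES.KUM.FiniteTorsion15

set_option autoImplicit false
set_option synthInstance.maxHeartbeats 400000
set_option linter.unusedSectionVars false
set_option linter.unusedVariables false
set_option linter.style.haveILetI false

noncomputable section

open ModularCurve AlgebraicCurve CuspForm

namespace Fermat.Agent.T33.S33Wire7

open Fermat.Agent.ES.J.TateModule13 Fermat.Agent.ES.J.TateJZero13
  Fermat.Agent.T33.Psi3A Fermat.Agent.T33.Psi3D Fermat.Agent.T33.Tricho7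
  Fermat.Agent.T33.ConnOrd2 Fermat.Agent.FF.InertiaWire8 Fermat.Agent.RED.Interface4
  Fermat.Agent.ES.HECKE.LevelPullback12 Fermat.Agent.ES.RED.PullbackInj12

/-! ### the finite levels `ker Ψ_m` -/

section Levels

variable (A : ValuationSubring Qb) (p : ℕ) (N' : ℕ) [NeZero N']

/-- **`ker Ψ_m = formalTwo ∩ J₀(N')[p^m]`.** -/
def Glevel (m : ℕ) : AddSubgroup (JZero N') :=
  formalTwo A N' p ⊓ (nsmulAddMonoidHom (p ^ m) : JZero N' →+ JZero N').ker

variable {A p N'}

theorem mem_Glevel_iff {m : ℕ} {y : JZero N'} :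
    y ∈ Glevel A p N' m ↔ y ∈ formalTwo A N' p ∧ p ^ m • y = 0 := Iff.rfl

theorem smul_mem_Glevel (σ : Iner A) {m : ℕ} {y : JZero N'} (hy : y ∈ Glevel A p N' m) :
    (σ : GQ) • y ∈ Glevel A p N' m := by
  obtain ⟨h1, h2⟩ := mem_Glevel_iff.1 hy
  refine mem_Glevel_iff.2 ⟨?_, ?_⟩
  · exact decomp_smul_mem_formalTwo
      (⟨(σ : GQ), mem_decomposition_of_mem_inertia A σ.2⟩ : A.decompositionSubgroup ℚ) h1
  · have h3 : (σ : GQ) • (p ^ m • y) = p ^ m • ((σ : GQ) • y) :=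
      map_nsmul (DistribSMul.toAddMonoidHom (JZero N') (σ : GQ)) (p ^ m) y
    rw [← h3, h2]
    exact map_zero (DistribSMul.toAddMonoidHom (JZero N') (σ : GQ))

/-- the action of the inertia group on `ker Ψ_m`. -/
instance glevelAction (m : ℕ) : DistribMulAction (Iner A) ↥(Glevel A p N' m) where
  smul σ z := ⟨(σ : GQ) • (z : JZero N'), smul_mem_Glevel σ z.2⟩
  one_smul z := Subtype.ext (one_smul GQ (z : JZero N'))
  mul_smul σ τ z := Subtype.ext (mul_smul (σ : GQ) (τ : GQ) (z : JZero N'))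
  smul_zero σ := Subtype.ext (smul_zero (σ : GQ))
  smul_add σ z z' := Subtype.ext (smul_add (σ : GQ) (z : JZero N') (z' : JZero N'))

theorem coe_smul_Glevel (σ : Iner A) {m : ℕ} (z : ↥(Glevel A p N' m)) :
    ((σ • z : ↥(Glevel A p N' m)) : JZero N') = (σ : GQ) • (z : JZero N') := rfl

/-- `ker Ψ_m` is finite. -/
instance finite_Glevel [hp : Fact p.Prime] (m : ℕ) : Finite ↥(Glevel A p N' m) := by
  haveI : NeZero (p ^ m) := ⟨pow_ne_zero m hp.out.ne_zero⟩
  have hfin := Fermat.Agent.ES.KUM.FiniteTorsion15.finite_setOf_nsmul_eq_zero N' (p ^ m)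
  haveI : Finite ↥{y : JZero N' | p ^ m • y = 0} := hfin.to_subtype
  exact Finite.of_injective
    (fun z : ↥(Glevel A p N' m) => (⟨(z : JZero N'), z.2.2⟩ : ↥{y : JZero N' | p ^ m • y = 0}))
    (fun z z' h => by
      have h' := congrArg Subtype.val h
      exact Subtype.ext h')

end Levels

/-! ### `ker Ψ` on the Tate module of `J₀(N)` through a higher level -/

section Tate

variable (A : ValuationSubring Qb) (p : ℕ) [hp : Fact p.Prime] {N N' : ℕ} [NeZero N] [NeZero N']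
  (hNN' : N ∣ N')

/-- the pull-back of the formal part of the level `N'`. -/
def formalPull : AddSubgroup (JZero N) :=
  (formalTwo A N' p).comap (levelPullback hNN')

/-- **`K = ker (Ψ ∘ T_p π^*)`** on `T_p J₀(N)`. -/
def KNodal : Submodule ℤ_[p] (TJ p N) := Kt p (formalPull A p hNN')

variable {A p}

theorem mem_formalPull_iff {y : JZero N} :
    y ∈ formalPull A p hNN' ↔ levelPullback hNN' y ∈ formalTwo A N' p := Iff.rfl

theorem mem_KNodal_iff {x : TJ p N} :
    x ∈ KNodal A p hNN' ↔ ∀ k, levelPullback hNN' (proj k x) ∈ formalTwo A N' p := by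
  unfold KNodal
  rw [mem_Kt_iff]
  exact forall_congr' fun k => mem_formalPull_iff hNN'

/-- **(K2)**: saturation. -/
theorem KNodal_K2 (z : TJ p N) (h : (p : ℤ_[p]) • z ∈ KNodal A p hNN') : z ∈ KNodal A p hNN' :=
  mem_Kt_of_smul_mem (by exact_mod_cast hp.out.ne_zero) h

theorem inertia_sub_mem_formalPull (hA : A.LiesOverPrime p) {τ : GQ}
    (hτ : τ ∈ A.inertiaSubgroupIn ℚ) (k : ℕ) (y : JZero N) (hy : p ^ k • y = 0) :
    τ • y - y ∈ formalPull A p hNN' := by
  rw [mem_formalPull_iff, map_sub, levelPullback_smul]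
  refine inertia_sub_mem_formalTwo hA hτ k _ ?_
  rw [← map_nsmul, hy, map_zero]

/-- **(K1)**: the inertia group acts trivially modulo `KNodal`. -/
theorem KNodal_K1 (hA : A.LiesOverPrime p) {τ : GQ} (hτ : τ ∈ A.inertiaSubgroupIn ℚ)
    (z : TJ p N) : rhoT p N τ z - z ∈ KNodal A p hNN' :=
  rho_sub_mem_Kt τ (fun k y hy => inertia_sub_mem_formalPull hNN' hA hτ k y hy) z

theorem pullback_proj_mem_Glevel (m : ℕ) {x : TJ p N} (hx : x ∈ KNodal A p hNN') :
    levelPullback hNN' (proj m x) ∈ Glevel A p N' m := by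
  refine mem_Glevel_iff.2 ⟨(mem_KNodal_iff hNN').1 hx m, ?_⟩
  rw [← map_nsmul, pow_smul_proj, map_zero]

/-- the level-`m` component, with values in `ker Ψ_m` of the level `N'`. -/
def prLevel (m : ℕ) : ↥(KNodal A p hNN') →+ ↥(Glevel A p N' m) :=
  AddMonoidHom.mk' (fun x => ⟨levelPullback hNN' (proj m (x : TJ p N)),
    pullback_proj_mem_Glevel hNN' m x.2⟩) (fun x y => Subtype.ext (by
      show levelPullback hNN' (proj m ((x + y : ↥(KNodal A p hNN')) : TJ p N)) =
        levelPullback hNN' (proj m (x : TJ p N)) + levelPullback hNN' (proj m (y : TJ p N))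
      rw [Submodule.coe_add, map_add, map_add]))

theorem coe_prLevel (m : ℕ) (x : ↥(KNodal A p hNN')) :
    ((prLevel hNN' m x : ↥(Glevel A p N' m)) : JZero N') =
      levelPullback hNN' (proj m (x : TJ p N)) := rfl

theorem proj_rhoT (m : ℕ) (τ : GQ) (z : TJ p N) : proj m (rhoT p N τ z) = τ • proj m z := rfl

/-- equivariance of `prLevel`. -/
theorem prLevel_rhoT (m : ℕ) (τ : Iner A) (z : TJ p N) (hz : z ∈ KNodal A p hNN')
    (hz' : rhoT p N (τ : GQ) z ∈ KNodal A p hNN') :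
    prLevel hNN' m ⟨rhoT p N (τ : GQ) z, hz'⟩ = τ • prLevel hNN' m ⟨z, hz⟩ := by
  apply Subtype.ext
  rw [coe_smul_Glevel, coe_prLevel, coe_prLevel, proj_rhoT, levelPullback_smul]

/-- if `π^*` is injective on `p`-power torsion, the kernel of `prLevel m` consists of elements
divisible by `p ^ m`. -/
theorem prLevel_eq_zero
    (hinj : ∀ (m : ℕ) (y : JZero N), p ^ m • y = 0 → levelPullback hNN' y = 0 → y = 0)
    (m : ℕ) (z : ↥(KNodal A p hNN')) (h : prLevel hNN' m z = 0) :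
    ∃ w : TJ p N, (z : TJ p N) = ((p : ℤ_[p]) ^ m) • w := by
  rw [← proj_eq_zero_iff']
  have h1 : levelPullback hNN' (proj m (z : TJ p N)) = 0 := by
    rw [← coe_prLevel, h, AddSubgroup.coe_zero]
  exact hinj m _ (pow_smul_proj m (z : TJ p N)) h1

/-- **(NF) ⟹ (NS)** for `KNodal`. -/
theorem noTrivSubquot_KNodal (hp2 : p ≠ 2) (hA : A.LiesOverPrime p)
    (hinj : ∀ (m : ℕ) (y : JZero N), p ^ m • y = 0 → levelPullback hNN' y = 0 → y = 0)
    (hconn : ∀ m : ℕ, HasConnOrder ↥(W0 A) ↥(Iner A) A ↥(Glevel A p N' m)) :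
    NoTrivSubquot (rhoT p N) (KNodal A p hNN') (A.inertiaSubgroupIn ℚ : Set GQ) := by
  refine noTrivSubquot_of_levels (rhoT p N) (KNodal A p hNN') (Iner A)
    (fun m => ↥(Glevel A p N' m)) (fun m => prLevel hNN' m)
    (fun m τ z hz hz' => prLevel_rhoT hNN' m τ z hz hz')
    (fun m z h => prLevel_eq_zero hNN' hinj m z h) ?_
  intro m ι _ S _ _ j hj hjΓ Q _ _ q hq hqΓ hQ htriv y
  exact Fermat.Agent.T33.WZero2.subquotient_eq_zero hp.out hp2 hA (hconn m) ι j hj hjΓ q hq hqΓ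
    hQ htriv y

end Tate

/-! ### S33 from (NF) -/

section Datum

variable {p : ℕ} {N : ℕ} [NeZero N] {S : Finset ℕ}
  {𝒪 : Type} [CommRing 𝒪] [IsDomain 𝒪] [IsDiscreteValuationRing 𝒪]
  [IsAdicComplete (IsLocalRing.maximalIdeal 𝒪) 𝒪]
  {θ : CuspForm.heckeAlgebra N 2 (↑S : Set ℕ) →+* IsLocalRing.ResidueField 𝒪}
  {T : Type} [CommRing T] [IsLocalRing T] [IsNoetherianRing T]
  [IsAdicComplete (IsLocalRing.maximalIdeal T) T] [Algebra 𝒪 T] [IsLocalHom (algebraMap 𝒪 T)]
  [Module.Finite 𝒪 T] [Module.Free 𝒪 T]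

/-- **S33 ⟸ (NF)**, for `p ∈ S` (so that the statement also covers `p ∤ N`). -/
theorem isOrdinaryAt_of_hasConnOrder [Finite (IsLocalRing.ResidueField 𝒪)] [CharZero 𝒪]
    (hp : p.Prime) (hp2 : p ≠ 2) (hp𝒪 : (p : 𝒪) ∈ IsLocalRing.maximalIdeal 𝒪)
    (hpS : p ∈ S) (hNS : ∀ q : ℕ, q.Prime → q ∣ N → q ∈ S)
    (H : CuspForm.HeckeGaloisRepDatum N (↑S : Set ℕ) 𝒪 θ T)
    (hres : (GaloisRepAdic.ofResidualGaloisRep H.ρ.residual).IsOrdinaryAt p)
    (hNF : haveI := Fermat.Agent.RED.LVL.LevelDegree17.neZero_auxLevel p N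
      ∀ A : ValuationSubring Qb, A.LiesOverPrime p → ∀ m : ℕ,
        HasConnOrder ↥(W0 A) ↥(Iner A) A ↥(Glevel A p (auxLevel p N) m)) :
    H.ρ.IsOrdinaryAt p := by
  haveI : Fact p.Prime := ⟨hp⟩
  haveI := Fermat.Agent.RED.LVL.LevelDegree17.neZero_auxLevel p N
  refine isOrdinaryAt_of_noTrivSubquot_padic hp hp2 hp𝒪 hpS hNS H hres ?_
  intro P hP
  have hinj : ∀ (m : ℕ) (y : JZero N), p ^ m • y = 0 →
      levelPullback (dvd_auxLevel p N) y = 0 → y = 0 := fun m y hy h =>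
    levelPullback_auxLevel_eq_zero p N (p ^ m) (pow_pos hp.pos m) y hy h
  exact ⟨KNodal P p (dvd_auxLevel p N), fun z hz => KNodal_K2 (dvd_auxLevel p N) z hz,
    fun τ hτ z => KNodal_K1 (dvd_auxLevel p N) hP hτ z,
    noTrivSubquot_KNodal (dvd_auxLevel p N) hp2 hP hinj (hNF P hP)⟩

/-- **S33 ⟸ (NF)**: the literal hypothesis list of the frozen statement S33 plus, for every
valuation subring `A` of `ℚ̄` over `p` and every `m`, a connected Hopf order over `(W0 A, Iner A)`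
on `ker Ψ_m = formalTwo A N' p ∩ J₀(N')[p^m]`, `N' = auxLevel p N`. -/
theorem s33_of_hasConnOrder [Finite (IsLocalRing.ResidueField 𝒪)] [CharZero 𝒪]
    (hp : p.Prime) (hp2 : p ≠ 2) (hp𝒪 : (p : 𝒪) ∈ IsLocalRing.maximalIdeal 𝒪)
    (hN : p ∣ N ∧ ¬ p ^ 2 ∣ N)
    (hNS : ∀ q : ℕ, q.Prime → q ∣ N → q ∈ S)
    (H : CuspForm.HeckeGaloisRepDatum N (↑S : Set ℕ) 𝒪 θ T)
    (hres : (GaloisRepAdic.ofResidualGaloisRep H.ρ.residual).IsOrdinaryAt p)
    (hNF : haveI := Fermat.Agent.RED.LVL.LevelDegree17.neZero_auxLevel p N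
      ∀ A : ValuationSubring Qb, A.LiesOverPrime p → ∀ m : ℕ,
        HasConnOrder ↥(W0 A) ↥(Iner A) A ↥(Glevel A p (auxLevel p N) m)) :
    H.ρ.IsOrdinaryAt p :=
  isOrdinaryAt_of_hasConnOrder hp hp2 hp𝒪 (hNS p hp hN.1) hNS H hres hNF

end Datum

end Fermat.Agent.T33.S33Wire7
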