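/-
Programme T (S33 via a trichotomy), END-TO-END wiring, part B (helper7): **(NF) ⟸ the nodal
package**, and S33 from the nodal package.

`A` a valuation subring of `ℚ̄` over the odd prime `p`, `N'` a level (in the application
`N' = auxLevel p N`, `p ∥ N'`), `F = Fbar N'`, `Γ = Iner A` acting through `Psi3C.gal N'`.

**The nodal package at `(A, N')`** (`NodalPackage A p N'`; the EXACT residual list of Programme T;
each item names the chapter that produces it):

* (e)   a nodal curve `Nd` over `κ_A`, a nodal reduction context `Nr : NodalRed A (Fbar N') Nd` whose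
        two components have the principal units of `Psi3C` (`pu Nr.c₁ = puOne A N'`,
        `pu Nr.c₂ = puTwo A N'`), compatible with the inertia group (`Nr.Compat`);
* (N-F) a nodal disc model `Mod` over `Nr` with centres `c` (`DiscCompat Nr Mod c`), points of
        degree one, disjoint discs, an inertia-invariant parameter `φ`;
* (N-B) `Semicont Nr` (b1), and a core datum `D` with closed fibre and lattice model for `Mod` (b2);
* (c)   `NonSpecialAt Nr Mod.hgd c`;
* (RR)  `LHyp ℚ̄ (Fbar N')` and `ThetaKer5.RiemannEff` on the generic fibre, for `g`.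

* `hasConnOrder_Glevel` : the nodal package ⟹ (NF) at every level `m`:
  `HasConnOrder (W0 A) (Iner A) A (Glevel A p N' m)`  [θ injective: `NodalThetaInj7`; θ onto the
  formal part: `NodalAbs1C.thetaSurj` + `NodalInput7`; assembly: `NodalAsm8.hasConnOrder`];
* **`s33_of_nodalPackage`** : the literal hypothesis list of the frozen statement S33 plus a nodal
  package at `(A, auxLevel p N)` for every `A` over `p` ⟹ `H.ρ.IsOrdinaryAt p`.
-/
import Mathlib
import Fermat.Agent.T33.S33Wire7A
import Fermat.Agent.T33.NodalThetaInj7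
import Fermat.Agent.T33.NodalInput7
import Fermat.Agent.T33.NodalAbs1C
import Fermat.Agent.T33.NodalAsm8
import Fermat.Agent.ES.KRON.KronInst10

set_option autoImplicit false
set_option synthInstance.maxHeartbeats 400000
set_option linter.unusedSectionVars false
set_option linter.unusedVariables false
set_option linter.style.haveILetI false

noncomputable section

open ModularCurve AlgebraicCurve CuspForm IsLocalRing

namespace Fermat.Agent.T33.S33Wire7

open Fermat.Agent.ES.J.TateJZero13 Fermat.Agent.T33.Psi3B Fermat.Agent.T33.Psi3C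
  Fermat.Agent.T33.Psi3D Fermat.Agent.T33.Psi3F
  Fermat.Agent.T33.ConnOrd2 Fermat.Agent.FF.InertiaWire8 Fermat.Agent.RED.Interface4
  Fermat.Agent.FF.CoreIface8 Fermat.Agent.FF.ThetaKer5 Fermat.Agent.RR.LSpace
  Fermat.Agent.T33.NodalCtx1 Fermat.Agent.T33.NodalCurve6 Fermat.Agent.T33.NodalIface8

universe u₁ u₂ u₃

/-! ### the formal part of a nodal context with the principal units of `Psi3C` -/

section Formal

variable {A : ValuationSubring Qb} {N' : ℕ} [NeZero N']
variable {Fb₁ : Type u₁} {Fb₂ : Type u₂} [Field Fb₁] [Field Fb₂]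
  [Algebra (ResidueField A) Fb₁] [Algebra (ResidueField A) Fb₂]
variable {ι : Type u₃} {Nd : NodalData (ResidueField A) Fb₁ Fb₂ ι}
  (Nr : NodalRed A ↥(Fbar N') Nd)

/-- `formalN Nr p = formalTwo A N' p` as soon as the components of `Nr` have the principal units
`puOne`, `puTwo`. -/
theorem formalN_eq_formalTwo (hpu₁ : pu Nr.c₁ = puOne A N') (hpu₂ : pu Nr.c₂ = puTwo A N')
    (p : ℕ) : formalN Nr p = formalTwo A N' p := by
  have h : puN Nr = Utwo A N' := by
    funext b
    cases b
    · exact hpu₁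
    · exact hpu₂
  unfold formalN formalTwo
  rw [h]

end Formal

/-! ### the nodal package -/

section Package

variable (A : ValuationSubring Qb) (p : ℕ) (N' : ℕ) [NeZero N']

set_option linter.checkUnivs false in
/-- **the nodal package at `(A, N')`**: the residual list of Programme T. -/
structure NodalPackage : Type (max (max (u₁ + 1) (u₂ + 1)) (u₃ + 1)) where
  /-- (e) the function fields of the two components. -/
  Fb₁ : Type u₁
  Fb₂ : Type u₂
  [field₁ : Field Fb₁]
  [field₂ : Field Fb₂]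
  [alg₁ : Algebra (ResidueField A) Fb₁]
  [alg₂ : Algebra (ResidueField A) Fb₂]
  /-- (e) the nodes. -/
  ι : Type u₃
  Nd : NodalData (ResidueField A) Fb₁ Fb₂ ι
  /-- (e) the nodal reduction context. -/
  Nr : NodalRed A ↥(Fbar N') Nd
  hpu₁ : pu Nr.c₁ = puOne A N'
  hpu₂ : pu Nr.c₂ = puTwo A N'
  hComp : Nr.Compat (fun σ : Iner A => gal N' (σ : GQ))
  /-- (N-F) the nodal disc model and its centres. -/
  g : ℕ
  d : ℕ
  Mod : NDiscModel A ↥(Fbar N') g d
  c : Fin d → NPt Nr
  hC : DiscCompat Nr Mod c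
  hdeg : ∀ (j : Fin d) (t : A), (Mod.P j t).deg = 1
  hdisj : ∀ (j j' : Fin d) (t t' : A), t ∈ maximalIdeal A → t' ∈ maximalIdeal A →
    Mod.P j t = Mod.P j' t' → j = j'
  hγφ : ∀ σ : Iner A, gal N' (σ : GQ) • Mod.φ = Mod.φ
  /-- (RR) the generic fibre. -/
  H : LHyp Qbar ↥(Fbar N')
  h6 : RiemannEff (K := Qbar) (F := ↥(Fbar N')) (g := g)
  /-- (N-B)(b1). -/
  hsemi : Semicont Nr
  /-- (c). -/
  hns : NonSpecialAt Nr Mod.hgd c
  /-- (N-B)(b2). -/
  nV : ℕ
  D : CoreData A (Fin nV → A) g d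
  hcf : ClosedFibre D (ResidueField A)
  L : NLatticeModel Mod D

attribute [instance] NodalPackage.field₁ NodalPackage.field₂ NodalPackage.alg₁ NodalPackage.alg₂

variable {A p N'}

/-- **(NF) from the nodal package.** -/
theorem hasConnOrder_Glevel [hp : Fact p.Prime] (hA : A.LiesOverPrime p)
    (P : NodalPackage.{u₁, u₂, u₃} A N') (m : ℕ) :
    HasConnOrder ↥(W0 A) ↥(Iner A) A ↥(Glevel A p N' m) := by
  haveI : CharP (ResidueField A) p :=
    Fermat.Agent.ES.KRON.KronInst10.charP_residueField A hp.out hA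
  haveI : IsAlgClosed (ResidueField A) :=
    Fermat.Agent.ES.KRON.KronInst10.isAlgClosed_residueField A
  have hinj : ThetaInjStatement P.Mod P.hdeg :=
    Fermat.Agent.T33.NodalThetaInj7.thetaInj P.Nr P.Mod P.hC P.hdisj P.hdeg P.H P.hsemi P.hns
  have hsurj : ∀ k : ℕ, ThetaSurjStatement P.Nr P.Mod P.hdeg (p ^ k) := fun k =>
    Fermat.Agent.T33.NodalAbs1C.thetaSurj P.Nr P.Mod P.hdeg P.hC P.hns P.H P.h6 p k
      (fun a => IsAlgClosed.exists_pow_nat_eq a (pow_pos hp.out.pos k))
  have hM : ∀ z : ↥(Glevel A p N' m),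
      (Glevel A p N' m).subtype z ∈ formalN P.Nr p := by
    intro z
    rw [formalN_eq_formalTwo P.Nr P.hpu₁ P.hpu₂ p]
    exact z.2.1
  let I : NThetaInput P.Mod P.hdeg (Iner A) ↥(Glevel A p N' m) :=
    Fermat.Agent.T33.NodalInput7.nthetaInput P.Nr P.Mod P.hdeg P.hC (hΓA A)
      (fun σ : Iner A => gal N' (σ : GQ)) (fun σ z => rfl) (fun σ a => rfl) P.hγφ P.hComp
      hinj p hsurj (Glevel A p N' m).subtype Subtype.val_injective (fun σ z => rfl) hM
  exact Fermat.Agent.T33.NodalAsm8.hasConnOrder I hp.out hA P.hcf P.L P.hdisj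

end Package

/-! ### S33 from the nodal package -/

section Datum

variable {p : ℕ} {N : ℕ} [NeZero N] {S : Finset ℕ}
  {𝒪 : Type} [CommRing 𝒪] [IsDomain 𝒪] [IsDiscreteValuationRing 𝒪]
  [IsAdicComplete (IsLocalRing.maximalIdeal 𝒪) 𝒪]
  {θ : CuspForm.heckeAlgebra N 2 (↑S : Set ℕ) →+* IsLocalRing.ResidueField 𝒪}
  {T : Type} [CommRing T] [IsLocalRing T] [IsNoetherianRing T]
  [IsAdicComplete (IsLocalRing.maximalIdeal T) T] [Algebra 𝒪 T] [IsLocalHom (algebraMap 𝒪 T)]
  [Module.Finite 𝒪 T] [Module.Free 𝒪 T]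

/-- **S33 from the nodal package**: the literal hypothesis list of the frozen statement S33 plus,
for every valuation subring `A` of `ℚ̄` over `p`, a nodal package at `(A, auxLevel p N)`. -/
theorem s33_of_nodalPackage [Finite (IsLocalRing.ResidueField 𝒪)] [CharZero 𝒪]
    (hp : p.Prime) (hp2 : p ≠ 2) (hp𝒪 : (p : 𝒪) ∈ IsLocalRing.maximalIdeal 𝒪)
    (hN : p ∣ N ∧ ¬ p ^ 2 ∣ N)
    (hNS : ∀ q : ℕ, q.Prime → q ∣ N → q ∈ S)
    (H : CuspForm.HeckeGaloisRepDatum N (↑S : Set ℕ) 𝒪 θ T)
    (hres : (GaloisRepAdic.ofResidualGaloisRep H.ρ.residual).IsOrdinaryAt p)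
    (hPack : haveI := Fermat.Agent.RED.LVL.LevelDegree17.neZero_auxLevel p N
      ∀ A : ValuationSubring Qb, A.LiesOverPrime p →
        Nonempty (NodalPackage.{u₁, u₂, u₃} A (auxLevel p N))) :
    H.ρ.IsOrdinaryAt p := by
  haveI : Fact p.Prime := ⟨hp⟩
  haveI := Fermat.Agent.RED.LVL.LevelDegree17.neZero_auxLevel p N
  refine s33_of_hasConnOrder hp hp2 hp𝒪 hN hNS H hres ?_
  intro A hA m
  obtain ⟨P⟩ := hPack A hA
  exact hasConnOrder_Glevel hA P m

end Datum

end Fermat.Agent.T33.S33Wire7
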