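/-
Programme T (S33), FINAL INTEGRATION, part C (helper8): **(NF) at the finite levels `ker Ψ_m` from a
nodal reduction of `Fbar N'` and the coordinate `s = 1/(t - a) + 1/(y - a)`** —
`NodalFinal8.hasConnOrder_of_Rfun` for `M := Glevel A p N' m` (helper7's `S33Wire7A`), the inertia
group acting through `Psi3C.gal N'`.  No abstract-chapter object (`Mod`, `D`, `L`, `Semicont`,
`NonSpecialAt`) appears in the hypotheses: they are produced inside.

Residual input: `Nr : NodalRed A (Fbar N') Nd` with finitely many nodes, principal units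
`puOne`/`puTwo`, `Compat` for `gal N'`; `LHyp` ×3; Riemann–Roch on `Fbar N'` with `g`;
`Nd.NonSpecialExists g`; the coordinate data of `NodalCoord2`.
-/
import Mathlib
import Fermat.Agent.T33.NodalFinal8B
import Fermat.Agent.T33.S33Wire7B

set_option autoImplicit false
set_option synthInstance.maxHeartbeats 400000
set_option linter.style.haveILetI false

noncomputable section

open ModularCurve AlgebraicCurve IntermediateField IsLocalRing

namespace Fermat.Agent.T33.NodalFinal8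

open Fermat.Agent.X0 Fermat.Agent.X0.FF Fermat.Agent.RR.LSpace Fermat.Agent.RR.Riemann
  Fermat.Agent.FF.SpecRR1 Fermat.Agent.FF.InertiaWire8 Fermat.Agent.RED.Interface4
  Fermat.Agent.T33.NodalCtx1 Fermat.Agent.T33.NodalCurve6 Fermat.Agent.T33.NodalIface8
  Fermat.Agent.T33.NodalLat2 Fermat.Agent.T33.ConnOrd2
  Fermat.Agent.T33.Psi3B Fermat.Agent.T33.Psi3C Fermat.Agent.T33.Psi3D Fermat.Agent.T33.Psi3F
  AlgebraicCurve.SemilinearAut Fermat.Agent.T33.NodalCoord2 Fermat.Agent.T33.S33Wire7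
  Fermat.Agent.ES.J.TateJZero13

variable {A : ValuationSubring Qb} {N' : ℕ} [NeZero N']
variable {Fb₁ Fb₂ : Type*} [Field Fb₁] [Field Fb₂]
  [Algebra (ResidueField A) Fb₁] [Algebra (ResidueField A) Fb₂]
variable {ι : Type*} {Nd : NodalData (ResidueField A) Fb₁ Fb₂ ι}
  (Nr : NodalRed A ↥(Fbar N') Nd)

/-- **(NF) at the level `m` from the nodal reduction and the coordinate.** -/
theorem hasConnOrder_Glevel_of_Rfun [Finite ι] {p : ℕ} [hp : Fact p.Prime]
    (hA : A.LiesOverPrime p)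
    (hpu₁ : pu Nr.c₁ = puOne A N') (hpu₂ : pu Nr.c₂ = puTwo A N')
    (hComp : Nr.Compat (fun σ : Iner A => gal N' (σ : GQ)))
    (H : LHyp Qb ↥(Fbar N')) (H₁ : LHyp (ResidueField A) Fb₁) (H₂ : LHyp (ResidueField A) Fb₂)
    (g : ℕ)
    (hRR : ∀ D : Divisor Qb ↥(Fbar N'), 2 * (g : ℤ) - 2 < Divisor.degree D →
      (Module.finrank Qb (riemannRochSpace D) : ℤ) = Divisor.degree D + 1 - g)
    (hR : ∀ D : Divisor Qb ↥(Fbar N'), Divisor.degree D + 1 - (g : ℤ) ≤ ell D)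
    (hNS : Nd.NonSpecialExists g)
    (t y : ↥(Fbar N')) (ht0 : t ≠ 0) (hy0 : y ≠ 0) (a : A)
    (hta : t - algebraMap Qb ↥(Fbar N') (a : Qb) ≠ 0)
    (hya : y - algebraMap Qb ↥(Fbar N') (a : Qb) ≠ 0)
    (s : ↥(Fbar N'))
    (hs : s = (t - algebraMap Qb ↥(Fbar N') (a : Qb))⁻¹ +
      (y - algebraMap Qb ↥(Fbar N') (a : Qb))⁻¹)
    (hs₁ : s ∈ Nr.c₁.O) (hs₂ : s ∈ Nr.c₂.O)
    (x₁ : Fb₁) (x₂ : Fb₂) (hx₁ : IsGen (ResidueField A) x₁)
    [Algebra.IsSeparable (ResidueField A)⟮x₁⟯ Fb₁]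
    (hx₂ : IsGen (ResidueField A) x₂) [Algebra.IsSeparable (ResidueField A)⟮x₂⟯ Fb₂]
    (hρs₁ : haveI := Fermat.Agent.ES.KRON.KronInst10.charP_residueField A hp.out hA
      Nr.c₁.ρ ⟨s, hs₁⟩ = Rfun p x₁ (residue A a))
    (hρs₂ : haveI := Fermat.Agent.ES.KRON.KronInst10.charP_residueField A hp.out hA
      Nr.c₂.ρ ⟨s, hs₂⟩ = Rfun p x₂ (residue A a))
    (ha₁ : haveI := Fermat.Agent.ES.KRON.KronInst10.charP_residueField A hp.out hA
      residue A a ∉ badConst p x₁ (Set.finite_range Nd.s1).toFinset)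
    (ha₂ : haveI := Fermat.Agent.ES.KRON.KronInst10.charP_residueField A hp.out hA
      residue A a ∉ badConst p x₂ (Set.finite_range Nd.s2).toFinset)
    (hnum : Divisor.degree (poleDiv H ht0) + Divisor.degree (poleDiv H hy0) ≤
      (1 + (p : ℤ)) * (Divisor.degree (poleDiv H₁ hx₁.ne_zero) +
        Divisor.degree (poleDiv H₂ hx₂.ne_zero)))
    (hγs : ∀ σ : Iner A, gal N' (σ : GQ) • s = s) (m : ℕ) :
    HasConnOrder ↥(W0 A) ↥(Iner A) A ↥(Glevel A p N' m) := by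
  have hM : ∀ z : ↥(Glevel A p N' m),
      (Glevel A p N' m).subtype z ∈ formalN Nr p := by
    intro z
    rw [formalN_eq_formalTwo Nr hpu₁ hpu₂ p]
    exact z.2.1
  exact hasConnOrder_of_Rfun Nr hA H H₁ H₂ g hRR hR hNS t y ht0 hy0 a hta hya s hs hs₁ hs₂
    x₁ x₂ hx₁ hx₂ hρs₁ hρs₂ ha₁ ha₂ hnum (fun σ : Iner A => gal N' (σ : GQ))
    (fun σ z => rfl) (fun σ a => rfl) hComp hγs
    (Glevel A p N' m).subtype Subtype.val_injective (fun σ z => rfl) hM

end Fermat.Agent.T33.NodalFinal8
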