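/-
Programme T (S33), chapter N-F, concrete half, FINAL (helper3): **the coordinate
`s = 1/(t - a) + 1/(y - a)` of `X₀(M'p)` and (NF) at every finite level from the chapter-(e)
package.**

`h : LevelHyp p M' A`, `N = M' p`, components `c1 h`, `c2 h`, `x₁ = xOne h`, `x₂ = xTwo h`:

* generic (`c : HalfRed A F Fb`): `sub_const_mem`, `ρ_sub_const`, `inv_sub_const_mem`,
  `ρ_inv_sub_const`, `inv_add_inv_mem(')`, `ρ_inv_add_inv(')` : the reduction of
  `1/(t - a) + 1/(y - a)` is `1/(ρ t - ā) + 1/(ρ y - ā)`;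
* `sCoord h a`, `sCoord_mem_O1`, `rho1_sCoord : ρ₁ s = R_ā(x₁)`, `sCoord_mem_O2`,
  `rho2_sCoord : ρ₂ s = R_ā(x₂)` (`R = NodalCoord2.Rfun p`);
* `tA_sub_ne_zero`, `yA_sub_ne_zero`, `gal_smul_tA`, `gal_smul_yA`, `gal_smul_sCoord`;
* `exists_const` : an inertia-fixed `a ∈ A` with `ā` outside the bad constants of two finite sets of
  places (Teichmüller lift);
* **`hasConnOrder_Glevel`** : for `Nr : NodalRed A (Fbar N) Nd` with finitely many nodes,
  `Nr.c₁ = c1 h`, `Nr.c₂ = c2 h`, `Nr.Compat (gal N)`, `LHyp` ×3, Riemann–Roch on `Fbar N` with `g`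
  and `Nd.NonSpecialExists g`: `HasConnOrder W₀ I A (Glevel A p N m)` for every `m` — the
  hypothesis `hNF` of `S33Wire7.s33_of_hasConnOrder` at the level `N`.
-/
import Mathlib
import Fermat.Agent.T33.FrickeRed3B
import Fermat.Agent.T33.NodalDegs3
import Fermat.Agent.T33.NodalCoord2D
import Fermat.Agent.T33.Psi3F
import Fermat.Agent.FF.TeichLift4
import Fermat.Agent.T33.NodalFinal8C
import Fermat.Agent.T33.NodalBridge0

set_option autoImplicit false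
set_option linter.unusedSectionVars false
set_option linter.style.haveILetI false
set_option linter.unusedVariables false
set_option synthInstance.maxHeartbeats 400000

noncomputable section

namespace Fermat.Agent.T33.NodalCoord3

open HahnSeries ModularCurve IntermediateField IsLocalRing AlgebraicCurve
open Fermat.Agent.RED.Interface4 Fermat.Agent.ES.RED Fermat.Agent.X0 Fermat.Agent.X0.FF
  Fermat.Agent.T33.NodalCtx1 Fermat.Agent.T33.NodalHalf4 Fermat.Agent.T33.NodalBase4A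
  Fermat.Agent.T33.FrickeRed3 Fermat.Agent.T33.NodalCoord2
  Fermat.Agent.RED.BASE.Interface12 Fermat.Agent.RED.BASE.EtaQuot12

/-! ### generic: the reduction of `1/(t - a) + 1/(y - a)` on a component -/

section Generic

variable {K : Type*} [Field K] {A : ValuationSubring K} {F : Type*} [Field F] [Algebra K F]
variable {Fb : Type*} [Field Fb] [Algebra (ResidueField A) Fb] (c : HalfRed A F Fb)

theorem sub_const_mem {t : F} (ht : t ∈ c.O) (a : A) : t - algebraMap K F (a : K) ∈ c.O :=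
  c.O.sub_mem ht (c.algebraMap_mem a)

theorem ρ_sub_const {t : F} (ht : t ∈ c.O) (a : A) :
    c.ρ ⟨t - algebraMap K F (a : K), sub_const_mem c ht a⟩ =
      c.ρ ⟨t, ht⟩ - algebraMap (ResidueField A) Fb (residue A a) := by
  rw [← c.ρ_algebraMap a, ← map_sub]
  rfl

theorem inv_sub_const_mem {t : F} (ht : t ∈ c.O) (a : A)
    (h1 : c.ρ ⟨t, ht⟩ - algebraMap (ResidueField A) Fb (residue A a) ≠ 0) :
    (t - algebraMap K F (a : K))⁻¹ ∈ c.O :=
  Psi3F.inv_mem_of_ρ_ne_zero c (sub_const_mem c ht a) (by rw [ρ_sub_const]; exact h1)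

theorem ρ_inv_sub_const {t : F} (ht : t ∈ c.O) (a : A)
    (h1 : c.ρ ⟨t, ht⟩ - algebraMap (ResidueField A) Fb (residue A a) ≠ 0) :
    c.ρ ⟨(t - algebraMap K F (a : K))⁻¹, inv_sub_const_mem c ht a h1⟩ =
      (c.ρ ⟨t, ht⟩ - algebraMap (ResidueField A) Fb (residue A a))⁻¹ := by
  rw [Psi3F.ρ_inv c (sub_const_mem c ht a) (by rw [ρ_sub_const]; exact h1), ρ_sub_const]

theorem inv_add_inv_mem {t y : F} (ht : t ∈ c.O) (hy : y ∈ c.O) (a : A)
    (h1 : c.ρ ⟨t, ht⟩ - algebraMap (ResidueField A) Fb (residue A a) ≠ 0)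
    (h2 : c.ρ ⟨y, hy⟩ - algebraMap (ResidueField A) Fb (residue A a) ≠ 0) :
    (t - algebraMap K F (a : K))⁻¹ + (y - algebraMap K F (a : K))⁻¹ ∈ c.O :=
  c.O.add_mem (inv_sub_const_mem c ht a h1) (inv_sub_const_mem c hy a h2)

theorem ρ_inv_add_inv {t y : F} (ht : t ∈ c.O) (hy : y ∈ c.O) (a : A)
    (h1 : c.ρ ⟨t, ht⟩ - algebraMap (ResidueField A) Fb (residue A a) ≠ 0)
    (h2 : c.ρ ⟨y, hy⟩ - algebraMap (ResidueField A) Fb (residue A a) ≠ 0) :
    c.ρ ⟨(t - algebraMap K F (a : K))⁻¹ + (y - algebraMap K F (a : K))⁻¹,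
        inv_add_inv_mem c ht hy a h1 h2⟩ =
      (c.ρ ⟨t, ht⟩ - algebraMap (ResidueField A) Fb (residue A a))⁻¹ +
        (c.ρ ⟨y, hy⟩ - algebraMap (ResidueField A) Fb (residue A a))⁻¹ := by
  rw [← ρ_inv_sub_const c ht a h1, ← ρ_inv_sub_const c hy a h2, ← map_add]
  rfl

theorem inv_add_inv_mem' {t y : F} (ht : t ∈ c.O) (hy : y ∈ c.O) (a : A) {x₁ x₂ : Fb}
    (e1 : c.ρ ⟨t, ht⟩ = x₁) (e2 : c.ρ ⟨y, hy⟩ = x₂)
    (h1 : x₁ - algebraMap (ResidueField A) Fb (residue A a) ≠ 0)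
    (h2 : x₂ - algebraMap (ResidueField A) Fb (residue A a) ≠ 0) :
    (t - algebraMap K F (a : K))⁻¹ + (y - algebraMap K F (a : K))⁻¹ ∈ c.O := by
  subst e1 e2
  exact inv_add_inv_mem c ht hy a h1 h2

theorem ρ_inv_add_inv' {t y : F} (ht : t ∈ c.O) (hy : y ∈ c.O) (a : A) {x₁ x₂ : Fb}
    (e1 : c.ρ ⟨t, ht⟩ = x₁) (e2 : c.ρ ⟨y, hy⟩ = x₂)
    (h1 : x₁ - algebraMap (ResidueField A) Fb (residue A a) ≠ 0)
    (h2 : x₂ - algebraMap (ResidueField A) Fb (residue A a) ≠ 0)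
    (hmem : (t - algebraMap K F (a : K))⁻¹ + (y - algebraMap K F (a : K))⁻¹ ∈ c.O) :
    c.ρ ⟨(t - algebraMap K F (a : K))⁻¹ + (y - algebraMap K F (a : K))⁻¹, hmem⟩ =
      (x₁ - algebraMap (ResidueField A) Fb (residue A a))⁻¹ +
        (x₂ - algebraMap (ResidueField A) Fb (residue A a))⁻¹ := by
  subst e1 e2
  exact ρ_inv_add_inv c ht hy a h1 h2

end Generic

variable {p M' : ℕ} [NeZero M'] [NeZero p] {A : ValuationSubring Qbar}

/-- **the coordinate `s = 1/(t - a) + 1/(y - a)`** of chapter N-F. -/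
def sCoord (h : LevelHyp p M' A) (a : ↥A) : ↥(Fbar (M' * p)) :=
  (tA h - algebraMap Qbar ↥(Fbar (M' * p)) (a : Qbar))⁻¹ +
    (yA h - algebraMap Qbar ↥(Fbar (M' * p)) (a : Qbar))⁻¹

variable (h : LevelHyp p M' A)

theorem xOne_sub_ne_zero (b : Setup8.kA A) :
    xOne h - algebraMap (Setup8.kA A) (Fb A M') b ≠ 0 :=
  NodalCoord2.sub_const_ne_zero (isGen_xOne h).transcendental b

theorem xOne_pow_sub_ne_zero (b : Setup8.kA A) :
    xOne h ^ p - algebraMap (Setup8.kA A) (Fb A M') b ≠ 0 :=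
  NodalCoord2.pow_sub_const_ne_zero (isGen_xOne h).transcendental h.prime.pos b

theorem xTwo_sub_ne_zero (b : Setup8.kA A) :
    xTwo h - algebraMap (Setup8.kA A) (Fb A M') b ≠ 0 :=
  NodalCoord2.sub_const_ne_zero (isGen_xTwo h).transcendental b

theorem xTwo_pow_sub_ne_zero (b : Setup8.kA A) :
    xTwo h ^ p - algebraMap (Setup8.kA A) (Fb A M') b ≠ 0 :=
  NodalCoord2.pow_sub_const_ne_zero (isGen_xTwo h).transcendental h.prime.pos b

/-- `s ∈ O₁`. -/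
theorem sCoord_mem_O1 (a : ↥A) : sCoord h a ∈ (c1 h).O :=
  inv_add_inv_mem' (c1 h) (tA_mem_O1 h) (yA_mem_O1 h) a (rho1_tA h) (rho1_yA h)
    (xOne_sub_ne_zero h _) (xOne_pow_sub_ne_zero h _)

/-- **`ρ₁ s = R_ā(x₁)`.** -/
theorem rho1_sCoord (a : ↥A) :
    (c1 h).ρ ⟨sCoord h a, sCoord_mem_O1 h a⟩ = Rfun p (xOne h) (residue ↥A a) :=
  ρ_inv_add_inv' (c1 h) (tA_mem_O1 h) (yA_mem_O1 h) a (rho1_tA h) (rho1_yA h)
    (xOne_sub_ne_zero h _) (xOne_pow_sub_ne_zero h _) _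

/-- `s ∈ O₂`. -/
theorem sCoord_mem_O2 (a : ↥A) : sCoord h a ∈ (c2 h).O :=
  inv_add_inv_mem' (c2 h) (tA_mem_O2 h) (yA_mem_O2 h) a (rho2_tA h) (rho2_yA h)
    (xTwo_pow_sub_ne_zero h _) (xTwo_sub_ne_zero h _)

/-- **`ρ₂ s = R_ā(x₂)`.** -/
theorem rho2_sCoord (a : ↥A) :
    (c2 h).ρ ⟨sCoord h a, sCoord_mem_O2 h a⟩ = Rfun p (xTwo h) (residue ↥A a) := by
  rw [Rfun, add_comm]
  exact ρ_inv_add_inv' (c2 h) (tA_mem_O2 h) (yA_mem_O2 h) a (rho2_tA h) (rho2_yA h)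
    (xTwo_pow_sub_ne_zero h _) (xTwo_sub_ne_zero h _) _

/-! ### non-vanishing and Galois invariance -/

theorem tA_sub_ne_zero (a : Qbar) : tA h - algebraMap Qbar ↥(Fbar (M' * p)) a ≠ 0 :=
  NodalCoord2.sub_const_ne_zero (isGen_tA h).transcendental a

theorem yA_sub_ne_zero (a : Qbar) : yA h - algebraMap Qbar ↥(Fbar (M' * p)) a ≠ 0 :=
  NodalCoord2.sub_const_ne_zero (NodalDegs3.isGen_yA h).transcendental a

theorem gal_smul_tA (τ : Qbar ≃ₐ[ℚ] Qbar) : Psi3C.gal (M' * p) τ • tA h = tA h := by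
  apply Subtype.ext
  rw [Psi3C.coe_gal_smul, coe_tA]
  exact coeffMap_tq Qbar (τ : Qbar →+* Qbar) 4 8

theorem gal_smul_yA (τ : Qbar ≃ₐ[ℚ] Qbar) : Psi3C.gal (M' * p) τ • yA h = yA h := by
  apply Subtype.ext
  rw [Psi3C.coe_gal_smul]
  show coeffMap (τ : Qbar →+* Qbar) ((betaA M' p (tM h) : ↥(Fbar (M' * p))) : LaurentSeries Qbar) =
    ((betaA M' p (tM h) : ↥(Fbar (M' * p))) : LaurentSeries Qbar)
  rw [coe_betaA, coe_tM, ModularCurve.coeffMap_qExpand, coeffMap_tq]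

/-- **`s` is fixed by every `τ ∈ G_ℚ` fixing `a`.** -/
theorem gal_smul_sCoord (a : ↥A) (τ : Qbar ≃ₐ[ℚ] Qbar) (hτ : τ (a : Qbar) = a) :
    Psi3C.gal (M' * p) τ • sCoord h a = sCoord h a := by
  have hc : Psi3C.gal (M' * p) τ • algebraMap Qbar ↥(Fbar (M' * p)) (a : Qbar) =
      algebraMap Qbar ↥(Fbar (M' * p)) (a : Qbar) := by
    rw [SemilinearAut.smul_algebraMap]
    congr 1
  unfold sCoord
  rw [smul_add, smul_inv'', smul_inv'', smul_sub, smul_sub, gal_smul_tA, gal_smul_yA, hc]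

/-! ### the choice of the constant -/

/-- **an inertia-fixed constant `a ∈ A` whose residue avoids the bad constants of two finite sets of
places.** -/
theorem exists_const (B₁ B₂ : Finset (Place (Setup8.kA A) (Fb A M'))) :
    ∃ a : ↥A, (∀ τ ∈ A.inertiaSubgroupIn ℚ, τ (a : Qbar) = a) ∧
      residue ↥A a ∉ badConst p (xOne h) B₁ ∧ residue ↥A a ∉ badConst p (xTwo h) B₂ := by
  haveI : Fact p.Prime := ⟨h.prime⟩
  haveI : CharP (Setup8.kA A) p :=
    Fermat.Agent.ES.KRON.KronInst10.charP_residueField A h.prime h.liesOver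
  haveI : Infinite (Setup8.kA A) := Fermat.Agent.FF.TeichLift4.infinite_residueField A
  obtain ⟨b, hb1, hb2, -⟩ :=
    exists_good_const p (xOne h) (xTwo h) B₁ B₂ ∅ Set.finite_empty
  obtain ⟨a, ha, hfix⟩ := Fermat.Agent.FF.TeichLift4.exists_fixed_lift h.prime h.liesOver b
  exact ⟨a, hfix, by rw [ha]; exact hb1, by rw [ha]; exact hb2⟩

/-! ### (NF) at every finite level, from the chapter-(e) package -/

section Final

open Fermat.Agent.RR.LSpace Fermat.Agent.RR.Riemann Fermat.Agent.FF.InertiaWire8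
  Fermat.Agent.T33.NodalCurve6 Fermat.Agent.T33.ConnOrd2 Fermat.Agent.T33.Psi3C
  Fermat.Agent.T33.Psi3F Fermat.Agent.T33.S33Wire7 Fermat.Agent.FF.SpecRR1
  Fermat.Agent.T33.NodalIface8 Fermat.Agent.T33.NodalLat2 Fermat.Agent.ES.J.TateJZero13

theorem transport_half {K : Type*} [Field K] {A : ValuationSubring K} {F : Type*} [Field F]
    [Algebra K F] {Fb : Type*} [Field Fb] [Algebra (ResidueField A) Fb]
    {c c' : HalfRed A F Fb} (e : c = c') {s : F} (hs' : s ∈ c'.O) {v : Fb}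
    (hv : c'.ρ ⟨s, hs'⟩ = v) : ∃ hs : s ∈ c.O, c.ρ ⟨s, hs⟩ = v := by
  subst e
  exact ⟨hs', hv⟩

set_option maxHeartbeats 1600000 in
/-- **(NF) at the finite levels of `J₀(M'p)`, from a nodal reduction with components `c1 h`, `c2 h`
compatible with inertia, Riemann–Roch on the generic fibre and the existence of non-special
divisors on the nodal curve.**  The coordinate `s = 1/(t - a) + 1/(y - a)`, its reductions, the
choice of the constant `a`, the numerical hypothesis and the Galois invariance are discharged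
here. -/
theorem hasConnOrder_Glevel {ι : Type*} [Finite ι]
    {Nd : NodalData (ResidueField ↥A) (Fb A M') (Fb A M') ι}
    (Nr : NodalRed A ↥(Fbar (M' * p)) Nd) (hc₁ : Nr.c₁ = c1 h) (hc₂ : Nr.c₂ = c2 h)
    (hComp : Nr.Compat (fun σ : Iner A => gal (M' * p) (σ : GQ)))
    (H : LHyp Qb ↥(Fbar (M' * p))) (H₁ H₂ : LHyp (ResidueField ↥A) (Fb A M'))
    (g : ℕ)
    (hRR : ∀ D : Divisor Qb ↥(Fbar (M' * p)), 2 * (g : ℤ) - 2 < Divisor.degree D →
      (Module.finrank Qb (riemannRochSpace D) : ℤ) = Divisor.degree D + 1 - g)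
    (hR : ∀ D : Divisor Qb ↥(Fbar (M' * p)), Divisor.degree D + 1 - (g : ℤ) ≤ ell D)
    (hNS : Nd.NonSpecialExists g) (m : ℕ) :
    HasConnOrder ↥(W0 A) ↥(Iner A) A ↥(Glevel A p (M' * p) m) := by
  haveI : Fact p.Prime := ⟨h.prime⟩
  obtain ⟨a, hfix, ha₁, ha₂⟩ := exists_const h (Set.finite_range Nd.s1).toFinset
    (Set.finite_range Nd.s2).toFinset
  obtain ⟨hs₁, hρs₁⟩ := transport_half hc₁ (sCoord_mem_O1 h a) (rho1_sCoord h a)
  obtain ⟨hs₂, hρs₂⟩ := transport_half hc₂ (sCoord_mem_O2 h a) (rho2_sCoord h a)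
  have hpu₁ : pu Nr.c₁ = puOne A (M' * p) := by rw [hc₁]; exact NodalBridge0.pu_c1 h
  have hpu₂ : pu Nr.c₂ = puTwo A (M' * p) := by rw [hc₂]; exact NodalBridge0.pu_c2 h
  have ht0 : tA h ≠ 0 := (isGen_tA h).ne_zero
  have hy0 : yA h ≠ 0 := (NodalDegs3.isGen_yA h).ne_zero
  have hnum := NodalDegs3.hnum h H H₁ H₂ ht0 hy0 (isGen_xOne h).ne_zero (isGen_xTwo h).ne_zero
  have hγs : ∀ σ : Iner A, gal (M' * p) (σ : GQ) • sCoord h a = sCoord h a :=
    fun σ => gal_smul_sCoord h a (σ : GQ) (hfix _ σ.2)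
  exact Fermat.Agent.T33.NodalFinal8.hasConnOrder_Glevel_of_Rfun Nr h.liesOver hpu₁ hpu₂
    hComp H H₁ H₂ g hRR hR hNS (tA h) (yA h) ht0 hy0 a
    (tA_sub_ne_zero h _) (yA_sub_ne_zero h _) (sCoord h a) rfl hs₁ hs₂
    (xOne h) (xTwo h) (isGen_xOne h) (isGen_xTwo h) hρs₁ hρs₂ ha₁ ha₂ hnum hγs m

end Final

end Fermat.Agent.T33.NodalCoord3
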