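/-
Programme T (S33), chapter (e) "N34 over ℚ̄", block [B-2] (helper8), part 3: **glue** between
`PlacePoint8` (every closed point of a chart is the centre of a place), helper6's `NodalInst6E`
(hypotheses `pt_k`, `ex_k`, `hMP` of `chartsS_of_twoCharts`) and helper4's `hnode` of
`RawRed.mkNodalRed`.  Generic `T : TwoCharts c₁ c₂` whose charts lie in `chart ↥A t^{±1}`.

* `ex₀`, `ex₁`   : the hypotheses `ex0`, `ex1` of `NodalInst6.chartsS_of_twoCharts`;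
* `pt₀`, `pt₁`   : the hypotheses `pt0`, `pt1`;
* `hMP₀`, `hMP₁` : the hypothesis `hMP` of `NodalInst6.pt_ex₀`, `pt_ex₁`;
* `exists_red_both₀`, `exists_red_both₁` : a maximal ideal of the chart `0` (resp. of the chart `1`, ANY
  one: the overlap case is handled with `NodalInst6.val₁_transfer`) containing the two vertical primes
  gives a place `P` with `r₁ P ≠ none ∧ r₂ P ≠ none` (= `hnode`).
-/
import Mathlib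
import Fermat.Agent.T33.PlacePoint8
import Fermat.Agent.T33.NodalInst6E

set_option autoImplicit false
set_option linter.style.haveILetI false

open AlgebraicCurve IsLocalRing IntermediateField

noncomputable section

namespace Fermat.Agent.T33.PlaceNode8

open Fermat.Agent.X0.FF Fermat.Agent.RR.LSpace
  Fermat.Agent.T33.NodalCtx1 Fermat.Agent.T33.NodalPlaces1
  Fermat.Agent.RED.PUR.ChartGeneric22 Fermat.Agent.T33.PlaceCentre8 Fermat.Agent.T33.PlacePoint8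
  Fermat.Agent.T33.NodalInst6

variable {K : Type*} [Field K] {A : ValuationSubring K} {F : Type*} [Field F] [Algebra K F]
variable {Fb₁ Fb₂ : Type*} [Field Fb₁] [Field Fb₂]
  [Algebra (ResidueField A) Fb₁] [Algebra (ResidueField A) Fb₂]
variable {c₁ : HalfRed A F Fb₁} {c₂ : HalfRed A F Fb₂}
variable (H : LHyp K F) (T : TwoCharts c₁ c₂)

theorem transcendental_inv {t : F} (htr : Transcendental K t) : Transcendental K t⁻¹ := by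
  intro h
  apply htr
  have := h.inv
  rwa [inv_inv] at this

include H in
/-- the hypothesis `ex0` of `NodalInst6.chartsS_of_twoCharts`. -/
theorem ex₀ (hB : ∀ b ∈ T.C0.B, b ∈ chart (↥A) T.t) (htr : Transcendental K T.t)
    {x : F} (hx : IsGen K x) [Algebra.IsSeparable K⟮x⟯ F] (p : T.C0.Pt) :
    ∃ P : Place K F, T.C0.Centred P p :=
  exists_centred T.C0 H T.t_mem hB htr hx p

include H in
/-- the hypothesis `ex1` of `NodalInst6.chartsS_of_twoCharts`. -/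
theorem ex₁ (hB : ∀ b ∈ T.C1.B, b ∈ chart (↥A) T.t⁻¹) (htr : Transcendental K T.t)
    {x : F} (hx : IsGen K x) [Algebra.IsSeparable K⟮x⟯ F] (p : T.C1.Pt) :
    ∃ P : Place K F, T.C1.Centred P p :=
  exists_centred T.C1 H T.s_mem hB (transcendental_inv htr) hx p

theorem vert₁_le₀ {𝔪 : Ideal T.C0.B} (hle : vp1 (rho0 T) ⊔ vp2 (rho0 T) ≤ 𝔪) (b : T.C0.B)
    (hb : T.C0.ρ₁ b = 0) : b ∈ 𝔪 :=
  hle (Ideal.mem_sup_left ((mem_vp1 (rho0 T)).2 hb))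

theorem vert₂_le₀ {𝔪 : Ideal T.C0.B} (hle : vp1 (rho0 T) ⊔ vp2 (rho0 T) ≤ 𝔪) (b : T.C0.B)
    (hb : T.C0.ρ₂ b = 0) : b ∈ 𝔪 :=
  hle (Ideal.mem_sup_right ((mem_vp2 (rho0 T)).2 hb))

theorem vert₁_le₁ {𝔪 : Ideal T.C1.B} (hle : vp1 (rho1 T) ⊔ vp2 (rho1 T) ≤ 𝔪) (b : T.C1.B)
    (hb : T.C1.ρ₁ b = 0) : b ∈ 𝔪 :=
  hle (Ideal.mem_sup_left ((mem_vp1 (rho1 T)).2 hb))

theorem vert₂_le₁ {𝔪 : Ideal T.C1.B} (hle : vp1 (rho1 T) ⊔ vp2 (rho1 T) ≤ 𝔪) (b : T.C1.B)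
    (hb : T.C1.ρ₂ b = 0) : b ∈ 𝔪 :=
  hle (Ideal.mem_sup_right ((mem_vp2 (rho1 T)).2 hb))

/-- the hypothesis `pt0` of `NodalInst6.chartsS_of_twoCharts`. -/
theorem pt₀ [IsAlgClosed (ResidueField A)] (hB : ∀ b ∈ T.C0.B, b ∈ chart (↥A) T.t)
    (𝔪 : Ideal T.C0.B) (h𝔪 : 𝔪.IsMaximal) (hle : vp1 (rho0 T) ⊔ vp2 (rho0 T) ≤ 𝔪) :
    ∃ p : T.C0.Pt, ∀ b ∈ 𝔪, p b = 0 := by
  haveI := h𝔪
  obtain ⟨p, hp⟩ := exists_pt_of_isMaximal T.C0 T.t_mem hB 𝔪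
    (const_mem_of_vert T.C0 𝔪 (vert₁_le₀ T hle))
  exact ⟨p, fun b hb => (hp b).2 hb⟩

/-- the hypothesis `pt1` of `NodalInst6.chartsS_of_twoCharts`. -/
theorem pt₁ [IsAlgClosed (ResidueField A)] (hB : ∀ b ∈ T.C1.B, b ∈ chart (↥A) T.t⁻¹)
    (𝔪 : Ideal T.C1.B) (h𝔪 : 𝔪.IsMaximal) (hle : vp1 (rho1 T) ⊔ vp2 (rho1 T) ≤ 𝔪) :
    ∃ p : T.C1.Pt, ∀ b ∈ 𝔪, p b = 0 := by
  haveI := h𝔪
  obtain ⟨p, hp⟩ := exists_pt_of_isMaximal T.C1 T.s_mem hB 𝔪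
    (const_mem_of_vert T.C1 𝔪 (vert₁_le₁ T hle))
  exact ⟨p, fun b hb => (hp b).2 hb⟩

include H in
/-- the hypothesis `hMP` of `NodalInst6.pt_ex₀`. -/
theorem hMP₀ [IsAlgClosed (ResidueField A)] (hB : ∀ b ∈ T.C0.B, b ∈ chart (↥A) T.t)
    (htr : Transcendental K T.t) {x : F} (hx : IsGen K x) [Algebra.IsSeparable K⟮x⟯ F]
    (𝔪 : Ideal T.C0.B) (h𝔪 : 𝔪.IsMaximal) (hle : vp1 (rho0 T) ⊔ vp2 (rho0 T) ≤ 𝔪) :
    ∃ (P : Place K F) (p : T.C0.Pt), T.C0.Centred P p ∧ ∀ b ∈ 𝔪, p b = 0 := by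
  obtain ⟨p, hp⟩ := pt₀ T hB 𝔪 h𝔪 hle
  obtain ⟨P, hP⟩ := ex₀ H T hB htr hx p
  exact ⟨P, p, hP, hp⟩

include H in
/-- the hypothesis `hMP` of `NodalInst6.pt_ex₁`. -/
theorem hMP₁ [IsAlgClosed (ResidueField A)] (hB : ∀ b ∈ T.C1.B, b ∈ chart (↥A) T.t⁻¹)
    (htr : Transcendental K T.t) {x : F} (hx : IsGen K x) [Algebra.IsSeparable K⟮x⟯ F]
    (𝔪 : Ideal T.C1.B) (h𝔪 : 𝔪.IsMaximal) (hle : vp1 (rho1 T) ⊔ vp2 (rho1 T) ≤ 𝔪) :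
    ∃ (P : Place K F) (p : T.C1.Pt), T.C1.Centred P p ∧ ∀ b ∈ 𝔪, p b = 0 := by
  obtain ⟨p, hp⟩ := pt₁ T hB 𝔪 h𝔪 hle
  obtain ⟨P, hP⟩ := ex₁ H T hB htr hx p
  exact ⟨P, p, hP, hp⟩

/-! ### `hnode` -/

include H in
/-- **`hnode` from a closed point of the chart `0` on both components.** -/
theorem exists_red_both₀ [IsAlgClosed (ResidueField A)] (hB : ∀ b ∈ T.C0.B, b ∈ chart (↥A) T.t)
    (htr : Transcendental K T.t) {x : F} (hx : IsGen K x) [Algebra.IsSeparable K⟮x⟯ F]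
    (𝔪 : Ideal T.C0.B) [𝔪.IsMaximal]
    (h₁ : ∀ b : T.C0.B, T.C0.ρ₁ b = 0 → b ∈ 𝔪) (h₂ : ∀ b : T.C0.B, T.C0.ρ₂ b = 0 → b ∈ 𝔪) :
    ∃ P : Place K F, T.rawRed.r₁ P ≠ none ∧ T.rawRed.r₂ P ≠ none := by
  obtain ⟨χ, P, Q₁, Q₂, -, -, -, -, -, hr₁, hr₂⟩ :=
    exists_node_of_isMaximal₀ H T hB htr hx 𝔪 h₁ h₂
  refine ⟨P, ?_, ?_⟩
  · rw [TwoCharts.rawRed_r₁, hr₁]; simp
  · rw [TwoCharts.rawRed_r₂, hr₂]; simp

include H in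
/-- **`hnode` from a closed point of the chart `1` on both components** (any point: at `t = ∞` or in
the overlap). -/
theorem exists_red_both₁ [IsAlgClosed (ResidueField A)]
    (hB : ∀ b ∈ T.C1.B, b ∈ chart (↥A) T.t⁻¹)
    (hE0 : ∀ b ∈ T.C0.B, ∃ n : ℕ, T.t⁻¹ ^ n * b ∈ T.C1.B)
    (htr : Transcendental K T.t) {x : F} (hx : IsGen K x) [Algebra.IsSeparable K⟮x⟯ F]
    (𝔪 : Ideal T.C1.B) [𝔪.IsMaximal]
    (h₁ : ∀ b : T.C1.B, T.C1.ρ₁ b = 0 → b ∈ 𝔪) (h₂ : ∀ b : T.C1.B, T.C1.ρ₂ b = 0 → b ∈ 𝔪) :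
    ∃ P : Place K F, T.rawRed.r₁ P ≠ none ∧ T.rawRed.r₂ P ≠ none := by
  obtain ⟨χ, hχ⟩ := exists_pt_of_isMaximal T.C1 T.s_mem hB 𝔪 (const_mem_of_vert T.C1 𝔪 h₁)
  have hon₁ : T.C1.On₁ χ := fun b hb => (hχ b).2 (h₁ b hb)
  have hon₂ : T.C1.On₂ χ := fun b hb => (hχ b).2 (h₂ b hb)
  obtain ⟨P, hP⟩ := ex₁ H T hB htr hx χ
  obtain ⟨Q₁, hQ₁⟩ := T.val₁_exists₁ χ hon₁
  obtain ⟨Q₂, hQ₂⟩ := T.val₂_exists₁ χ hon₂
  have key : T.r₁ P = some Q₁ ∧ T.r₂ P = some Q₂ := by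
    by_cases hfin : T.Fin0 P
    · obtain ⟨χ0, hχ0⟩ := T.centred₀ P hfin
      have hunit : χ T.s1 ≠ 0 := fun h0 => not_fin0_of_centred₁ H T hP h0 hfin
      have hv1 : T.C0.Val₁ χ0 Q₁ := val₁_transfer T.C1 T.C0 hP hχ0 T.s1 hunit hE0 hQ₁
      have hv2 : T.C0.Val₂ χ0 Q₂ := val₂_transfer T.C1 T.C0 hP hχ0 T.s1 hunit hE0 hQ₂
      exact ⟨(T.r₁_eq_some_iff₀ hv1 P).2 ⟨hfin, hχ0⟩, (T.r₂_eq_some_iff₀ hv2 P).2 ⟨hfin, hχ0⟩⟩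
    · obtain ⟨χ', hχ', hs'⟩ := T.centred₁' P hfin
      have hpe : χ = χ' := T.C1.centred_unique hP hχ'
      have hs : χ T.s1 = 0 := by rw [hpe]; exact hs'
      exact ⟨(T.r₁_eq_some_iff₁ hs hQ₁ P).2 ⟨hfin, hP⟩, (T.r₂_eq_some_iff₁ hs hQ₂ P).2 ⟨hfin, hP⟩⟩
  refine ⟨P, ?_, ?_⟩
  · rw [TwoCharts.rawRed_r₁, key.1]; simp
  · rw [TwoCharts.rawRed_r₂, key.2]; simp

end Fermat.Agent.T33.PlaceNode8
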