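/-
Programme T (S33), chapter (e), contract (c) for THE instance (helper8): **`NodalChartsS` and
`NonSpecialExists` for the two-chart model `I.twoCharts` of `X₀(M'p)` over `A`**
(`I : NodalInst4A.Inputs h`), from helper6's `NodalInst6.chartsS_of_twoCharts` with the hypotheses
`hE0 hE1 hreg0 hreg1` (overlap), `hcen`, `surj_jk` (the fields of `Inputs`), `pt0 pt1 ex0 ex1`
(`PlaceNode8`) discharged.  Remaining hypotheses: `hρt₁ hρt₂` (`ρ₁ t = x₁`, `ρ₂ t = x₂ ^ m₂`; helper3's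
`FrickeRed3B` for `x₁ = xOne h`, `x₂ = xTwo h`, `m₂ = p`), `loc0 loc1` (ordinary nodes; helper1),
`hdeg` (helper3).
-/
import Mathlib
import Fermat.Agent.T33.NodalInst4A
import Fermat.Agent.T33.PlaceNode8
import Fermat.Agent.T33.NodalLat2D
import Fermat.Agent.T33.NodalMany2
import Fermat.Agent.FF.CoreInst2B
import Fermat.Agent.FF.Bridge5
import Fermat.Agent.FF.TeichLift4

set_option autoImplicit false
set_option linter.unusedSectionVars false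
set_option linter.style.haveILetI false
set_option linter.unusedVariables false
set_option synthInstance.maxHeartbeats 400000

noncomputable section

namespace Fermat.Agent.T33.NodalInst8

open HahnSeries ModularCurve AlgebraicCurve IsLocalRing IntermediateField
open Fermat.Agent.RED.Interface4 Fermat.Agent.ES.RED Fermat.Agent.T33.NodalHalf4
  Fermat.Agent.RED.PUR.ChartGeneric22 Fermat.Agent.T33.NodalCurve6 Fermat.Agent.T33.NodalCtx1
  Fermat.Agent.T33.NodalPlaces1 Fermat.Agent.T33.NodalBase4A Fermat.Agent.X0.FF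
  Fermat.Agent.RR.LSpace Fermat.Agent.RR.Riemann Fermat.Agent.T33.NodalInst4A
  Fermat.Agent.T33.NodalInst6 Fermat.Agent.T33.NodalLiftS6 Fermat.Agent.T33.NodalLift6
  Fermat.Agent.T33.NodalLiftG6

variable {p M' : ℕ} [NeZero M'] [NeZero p] {A : ValuationSubring Qbar}

/-- shortcut instance. -/
local instance (priority := high) algebraAFbarN8 : Algebra ↥A ↥(Fbar (M' * p)) := inferInstance

/-- shortcut instance. -/
local instance (priority := high) algebraKFb8 : Algebra (Setup8.kA A) (Fb A M') := inferInstance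

variable {h : LevelHyp p M' A} (I : Inputs h)

theorem mem_C0 (b : ↥(Fbar (M' * p))) (hb : b ∈ I.twoCharts.C0.B) :
    b ∈ chart (↥A) I.twoCharts.t := (I.hB0 b).1 hb

theorem mem_C1 (b : ↥(Fbar (M' * p))) (hb : b ∈ I.twoCharts.C1.B) :
    b ∈ chart (↥A) I.twoCharts.t⁻¹ := (I.hB1 b).1 hb

theorem C0_eq : I.twoCharts.C0.B = (chart (↥A) I.twoCharts.t).toSubring :=
  SetLike.ext fun b => I.hB0 b

theorem C1_eq : I.twoCharts.C1.B = (chart (↥A) I.twoCharts.t⁻¹).toSubring :=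
  SetLike.ext fun b => I.hB1 b

theorem transcendental_t : Transcendental Qbar I.twoCharts.t := (isGen_tA h).transcendental

/-- the overlap and regularity hypotheses. -/
theorem overlap :
    (∀ b ∈ I.twoCharts.C0.B, ∃ n : ℕ, I.twoCharts.t⁻¹ ^ n * b ∈ I.twoCharts.C1.B) ∧
    (∀ b ∈ I.twoCharts.C1.B, ∃ n : ℕ, I.twoCharts.t ^ n * b ∈ I.twoCharts.C0.B) ∧
    (∀ b ∈ I.twoCharts.C0.B, ∀ v : Place Qbar ↥(Fbar (M' * p)), 0 ≤ v.ord I.twoCharts.t →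
      b ∈ v.toValuationSubring) ∧
    (∀ b ∈ I.twoCharts.C1.B, ∀ v : Place Qbar ↥(Fbar (M' * p)), v.ord I.twoCharts.t ≤ 0 →
      b ∈ v.toValuationSubring) :=
  overlap_of_chart I.twoCharts (R₀ := ↥A) (fun v r => v.algebraMap_mem' (r : Qbar))
    (C0_eq I) (C1_eq I)

instance isSeparable_tA (h : LevelHyp p M' A) :
    Algebra.IsSeparable Qbar⟮tA h⟯ ↥(Fbar (M' * p)) := by
  haveI : FiniteDimensional Qbar⟮tA h⟯ ↥(Fbar (M' * p)) := (isGen_tA h).finite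
  infer_instance

set_option maxHeartbeats 1600000 in
/-- **helper6's contract `NodalChartsS` for the two-chart model of `X₀(M'p)` over `A`.** -/
theorem chartsS_of_inputs (H₁ H₂ : LHyp (Setup8.kA A) (Fb A M')) (m₂ : ℕ) (hm₂ : 0 < m₂)
    (hρt₁ : I.twoCharts.C0.ρ₁ I.twoCharts.t0 = I.x₁ ^ 1)
    (hρt₂ : I.twoCharts.C0.ρ₂ I.twoCharts.t0 = I.x₂ ^ m₂)
    (loc0 : ∀ 𝔪 : Ideal I.twoCharts.C0.B, 𝔪.IsMaximal →
      vp1 (rho0 I.twoCharts) ⊔ vp2 (rho0 I.twoCharts) ≤ 𝔪 → ∀ b ∈ 𝔪,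
      ∃ d : I.twoCharts.C0.B, d ∉ 𝔪 ∧ d * b ∈ vp1 (rho0 I.twoCharts) ⊔ vp2 (rho0 I.twoCharts))
    (loc1 : ∀ 𝔪 : Ideal I.twoCharts.C1.B, 𝔪.IsMaximal →
      vp1 (rho1 I.twoCharts) ⊔ vp2 (rho1 I.twoCharts) ≤ 𝔪 → ∀ b ∈ 𝔪,
      ∃ d : I.twoCharts.C1.B, d ∉ 𝔪 ∧ d * b ∈ vp1 (rho1 I.twoCharts) ⊔ vp2 (rho1 I.twoCharts))
    (hdeg : NDiv.degree (Dt H₁ H₂ I.gen₁.ne_zero I.gen₂.ne_zero 1 m₂) =
      Divisor.degree (poleDiv (lHyp h) I.twoCharts.t_ne)) :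
    NodalChartsS I.twoCharts.rawRed.nodalData H₁ H₂ I.gen₁.ne_zero I.gen₂.ne_zero 1 m₂
      (residue ↥A) (lHyp h) (OO (c1 h) (c2 h)).subtype
      (rhoP (c1 h) (c2 h)) (constRing (c1 h) (c2 h))
      (I.twoCharts.C0.B.comap (OO (c1 h) (c2 h)).subtype)
      (I.twoCharts.C1.B.comap (OO (c1 h) (c2 h)).subtype)
      ⟨I.twoCharts.t, (mem_OO (c1 h) (c2 h)).2
        ⟨I.twoCharts.C0.le₁ I.twoCharts.t_mem, I.twoCharts.C0.le₂ I.twoCharts.t_mem⟩⟩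
      ⟨I.twoCharts.t⁻¹, (mem_OO (c1 h) (c2 h)).2
        ⟨I.twoCharts.C1.le₁ I.twoCharts.s_mem, I.twoCharts.C1.le₂ I.twoCharts.s_mem⟩⟩ := by
  obtain ⟨hE0, hE1, hreg0, hreg1⟩ := overlap I
  refine chartsS_of_twoCharts I.twoCharts H₁ H₂ (lHyp h) I.gen₁.ne_zero I.gen₂.ne_zero 1 m₂
    hE0 hE1 hreg0 hreg1 hρt₁ hρt₂ Nat.one_pos hm₂ ?_ ?_ ?_ ?_ ?_ ?_ ?_ ?_ ?_ loc0 loc1 hdeg
  · -- hcen
    intro P hP
    exact Fermat.Agent.T33.PlaceCentre8.centred₀_of_chart (lHyp h) I.twoCharts.C1 (mem_C1 I) P hP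
  · intro f hf
    exact I.surj₁₀ f (mem_chart_iff.1 hf)
  · intro f hf
    exact I.surj₂₀ f (mem_chart_iff.1 hf)
  · intro f hf
    exact I.surj₁₁ f (mem_chart_iff.1 hf)
  · intro f hf
    exact I.surj₂₁ f (mem_chart_iff.1 hf)
  · exact fun 𝔪 h𝔪 hle => Fermat.Agent.T33.PlaceNode8.pt₀ I.twoCharts (mem_C0 I) 𝔪 h𝔪 hle
  · exact fun 𝔪 h𝔪 hle => Fermat.Agent.T33.PlaceNode8.pt₁ I.twoCharts (mem_C1 I) 𝔪 h𝔪 hle
  · exact fun q _ _ => Fermat.Agent.T33.PlaceNode8.ex₀ (lHyp h) I.twoCharts (mem_C0 I)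
      (transcendental_t I) (isGen_tA h) q
  · exact fun q _ _ => Fermat.Agent.T33.PlaceNode8.ex₁ (lHyp h) I.twoCharts (mem_C1 I)
      (transcendental_t I) (isGen_tA h) q

/-! ### contract (c): `NonSpecialExists` with the genus of the generic fibre -/

theorem pow_ne_const {κ Fb : Type*} [Field κ] [Field Fb] [Algebra κ Fb] {x : Fb}
    (hx : Transcendental κ x) {m : ℕ} (hm : 0 < m) (c : κ) : x ^ m ≠ algebraMap κ Fb c := by
  intro heq
  apply hx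
  refine ⟨Polynomial.X ^ m - Polynomial.C c, ?_, ?_⟩
  · intro h0
    have h1 := congrArg Polynomial.natDegree h0
    rw [Polynomial.natDegree_X_pow_sub_C, Polynomial.natDegree_zero] at h1
    omega
  · rw [map_sub, map_pow, Polynomial.aeval_X, Polynomial.aeval_C, heq, sub_self]

set_option maxHeartbeats 1600000 in
/-- **contract (c) for the instance**: `Nd.NonSpecialExists (genus ℚ̄ (Fbar (M'p)))` for the gluing
datum `Nd = I.twoCharts.rawRed.nodalData`, from the contract `NodalChartsS` (`chartsS_of_inputs`),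
semicontinuity (`NodalLat2.semicontBound` for the context `I.nodalRed …`) and Riemann's theorem on the
three function fields.  `g'` is any constant for which Riemann's inequality holds on the special
fibre of the good level and is attained (`SpecialRR6`: the genus of `Fbar M'`). -/
theorem nonSpecialExists_of_inputs [Finite I.twoCharts.rawRed.Node]
    (hnode : ∃ P : Place Qbar ↥(Fbar (M' * p)),
      I.twoCharts.rawRed.r₁ P ≠ none ∧ I.twoCharts.rawRed.r₂ P ≠ none)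
    (hpush₁ : ∀ y : (c1 h).O, (c1 h).ρ y ≠ 0 → ∀ Q : Place (Setup8.kA A) (Fb A M'),
      (∀ P : Place Qbar ↥(Fbar (M' * p)), I.twoCharts.rawRed.r₁ P = some Q →
        I.twoCharts.rawRed.r₂ P = none) →
      ∀ (D : Divisor Qbar ↥(Fbar (M' * p))), (∀ P, D P = P.ord (y : ↥(Fbar (M' * p)))) →
        ∀ T : Finset (Place Qbar ↥(Fbar (M' * p))),
          (∀ P, P ∈ T ↔ P ∈ D.support ∧ I.twoCharts.rawRed.r₁ P = some Q) →
          ∑ P ∈ T, D P = Q.ord ((c1 h).ρ y))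
    (hpush₂ : ∀ y : (c2 h).O, (c2 h).ρ y ≠ 0 → ∀ Q : Place (Setup8.kA A) (Fb A M'),
      (∀ P : Place Qbar ↥(Fbar (M' * p)), I.twoCharts.rawRed.r₂ P = some Q →
        I.twoCharts.rawRed.r₁ P = none) →
      ∀ (D : Divisor Qbar ↥(Fbar (M' * p))), (∀ P, D P = P.ord (y : ↥(Fbar (M' * p)))) →
        ∀ T : Finset (Place Qbar ↥(Fbar (M' * p))),
          (∀ P, P ∈ T ↔ P ∈ D.support ∧ I.twoCharts.rawRed.r₂ P = some Q) →
          ∑ P ∈ T, D P = Q.ord ((c2 h).ρ y))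
    (H₁ H₂ : LHyp (Setup8.kA A) (Fb A M')) (m₂ : ℕ) (hm₂ : 0 < m₂)
    (hρt₁ : I.twoCharts.C0.ρ₁ I.twoCharts.t0 = I.x₁ ^ 1)
    (hρt₂ : I.twoCharts.C0.ρ₂ I.twoCharts.t0 = I.x₂ ^ m₂)
    (loc0 : ∀ 𝔪 : Ideal I.twoCharts.C0.B, 𝔪.IsMaximal →
      vp1 (rho0 I.twoCharts) ⊔ vp2 (rho0 I.twoCharts) ≤ 𝔪 → ∀ b ∈ 𝔪,
      ∃ d : I.twoCharts.C0.B, d ∉ 𝔪 ∧ d * b ∈ vp1 (rho0 I.twoCharts) ⊔ vp2 (rho0 I.twoCharts))
    (loc1 : ∀ 𝔪 : Ideal I.twoCharts.C1.B, 𝔪.IsMaximal →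
      vp1 (rho1 I.twoCharts) ⊔ vp2 (rho1 I.twoCharts) ≤ 𝔪 → ∀ b ∈ 𝔪,
      ∃ d : I.twoCharts.C1.B, d ∉ 𝔪 ∧ d * b ∈ vp1 (rho1 I.twoCharts) ⊔ vp2 (rho1 I.twoCharts))
    (hdeg : NDiv.degree (Dt H₁ H₂ I.gen₁.ne_zero I.gen₂.ne_zero 1 m₂) =
      Divisor.degree (poleDiv (lHyp h) I.twoCharts.t_ne))
    (g' : ℤ)
    (hRb : ∀ D : Divisor (Setup8.kA A) (Fb A M'),
      Divisor.degree D + 1 - g' ≤ Fermat.Agent.FF.SpecRR1.ell D)
    (D₀ : Divisor (Setup8.kA A) (Fb A M')) (h0 : Fermat.Agent.FF.SpecRR1.delta g' D₀ = 0) :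
    I.twoCharts.rawRed.nodalData.NonSpecialExists (genus Qbar ↥(Fbar (M' * p))) := by
  classical
  haveI : Fintype I.twoCharts.rawRed.Node := Fintype.ofFinite _
  haveI := I.sep₁
  haveI := I.sep₂
  haveI : Infinite (ResidueField A) := Fermat.Agent.FF.TeichLift4.infinite_residueField A
  set Nr := I.nodalRed hnode hpush₁ hpush₂ with hNr
  haveI : Nonempty I.twoCharts.rawRed.Node := Nr.node_nonempty
  have hC := chartsS_of_inputs I H₁ H₂ m₂ hm₂ hρt₁ hρt₂ loc0 loc1 hdeg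
  -- many smooth places, from the coordinate `t`
  have hmany₁ : Fermat.Agent.T33.NodalLat2.HasManySmooth₁ Nr := by
    refine Fermat.Agent.T33.NodalLat2.hasManySmooth₁_of_nonconst Nr (lHyp h) H₁
      ⟨I.twoCharts.t, I.twoCharts.C0.le₁ I.twoCharts.t_mem⟩ ?_
    intro c
    have e : Nr.c₁.ρ ⟨I.twoCharts.t, I.twoCharts.C0.le₁ I.twoCharts.t_mem⟩ = I.x₁ ^ 1 := hρt₁
    rw [e]
    exact pow_ne_const I.gen₁.transcendental Nat.one_pos c
  have hmany₂ : Fermat.Agent.T33.NodalLat2.HasManySmooth₂ Nr := by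
    refine Fermat.Agent.T33.NodalLat2.hasManySmooth₂_of_nonconst Nr (lHyp h) H₂
      ⟨I.twoCharts.t, I.twoCharts.C0.le₂ I.twoCharts.t_mem⟩ ?_
    intro c
    have e : Nr.c₂.ρ ⟨I.twoCharts.t, I.twoCharts.C0.le₂ I.twoCharts.t_mem⟩ = I.x₂ ^ m₂ := hρt₂
    rw [e]
    exact pow_ne_const I.gen₂.transcendental hm₂ c
  have hsemi : Fermat.Agent.T33.NodalRR6.SemicontBound I.twoCharts.rawRed.nodalData
      ((genus Qbar ↥(Fbar (M' * p)) : ℕ) : ℤ) :=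
    Fermat.Agent.T33.NodalLat2.semicontBound (N := Nr) (lHyp h) H₁ H₂ hmany₁ hmany₂ _
      (fun D => Fermat.Agent.FF.Bridge5.riemann_inequality_genus (isGen_tA h) D)
  have hRiem : ∃ c : ℤ, ∀ D : Divisor Qbar ↥(Fbar (M' * p)), c ≤ Divisor.degree D →
      Fermat.Agent.FF.SpecRR1.ell D =
        Divisor.degree D + 1 - ((genus Qbar ↥(Fbar (M' * p)) : ℕ) : ℤ) := by
    refine ⟨2 * ((genus Qbar ↥(Fbar (M' * p)) : ℕ) : ℤ) - 1, fun D hD => ?_⟩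
    exact Fermat.Agent.FF.CoreInst2.finrank_L_of_degree_gt_genus (M' * p) D (by omega)
  exact (contract_c_of_chartsS I.gen₁ I.gen₂ g' g' hRb hRb h0 h0 hC
    (genus Qbar ↥(Fbar (M' * p))) hRiem hsemi).2.2.2

end Fermat.Agent.T33.NodalInst8
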