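/-
Programme T (S33), chapter (e), contract (c) for THE instance, part B (helper8):
`NodalInst8.nonSpecialExists_of_inputs` with `x₁ = xOne h`, `x₂ = xTwo h`, `m₂ = p` (helper3's
`FrickeRed3B.rho1_tA`, `rho2_tA`) and the genus data of the special fibre of the good level `M'`
(`SpecialRR6`: Riemann's inequality with the genus of `Fbar M'`, attained) discharged, for a place
reduction `r` of the good level.  Remaining hypotheses: `hnode hpush₁ hpush₂` (the arguments of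
`Inputs.nodalRed`), `loc0 loc1` (ordinary nodes), `hdeg`.
-/
import Mathlib
import Fermat.Agent.T33.NodalInst8
import Fermat.Agent.T33.FrickeRed3B
import Fermat.Agent.FF.SpecialRR6L

set_option autoImplicit false
set_option linter.unusedSectionVars false
set_option linter.style.haveILetI false
set_option linter.unusedVariables false
set_option synthInstance.maxHeartbeats 400000

noncomputable section

namespace Fermat.Agent.T33.NodalInst8

open HahnSeries ModularCurve AlgebraicCurve IsLocalRing IntermediateField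
open Fermat.Agent.RED.Interface4 Fermat.Agent.ES.RED Fermat.Agent.T33.NodalHalf4
  Fermat.Agent.RED.PUR.ChartGeneric22 Fermat.Agent.T33.NodalCurve6 Fermat.Agent.T33.NodalCtx1
  Fermat.Agent.T33.NodalPlaces1 Fermat.Agent.T33.NodalBase4A Fermat.Agent.X0.FF
  Fermat.Agent.RR.LSpace Fermat.Agent.RR.Riemann Fermat.Agent.T33.NodalInst4A
  Fermat.Agent.T33.NodalInst6 Fermat.Agent.T33.NodalLiftS6 Fermat.Agent.T33.NodalLift6
  Fermat.Agent.T33.NodalLiftG6 Fermat.Agent.T33.FrickeRed3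

variable {p M' : ℕ} [NeZero M'] [NeZero p] {A : ValuationSubring Qbar}

/-- shortcut instance. -/
local instance (priority := high) algebraAFbarN8B : Algebra ↥A ↥(Fbar (M' * p)) := inferInstance

/-- shortcut instance. -/
local instance (priority := high) algebraKFb8B : Algebra (Setup8.kA A) (Fb A M') := inferInstance

variable {h : LevelHyp p M' A} (I : Inputs h)

theorem hρt₁_of_eq (hx₁ : I.x₁ = xOne h) :
    I.twoCharts.C0.ρ₁ I.twoCharts.t0 = I.x₁ ^ 1 := by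
  rw [hx₁, pow_one]
  exact rho1_tA h

theorem hρt₂_of_eq (hx₂ : I.x₂ = xTwo h) :
    I.twoCharts.C0.ρ₂ I.twoCharts.t0 = I.x₂ ^ p := by
  rw [hx₂]
  exact rho2_tA h

set_option maxHeartbeats 1600000 in
/-- **contract (c) for the instance, final form**: `Nd.NonSpecialExists (genus ℚ̄ (Fbar (M'p)))` for
`Nd = I.twoCharts.rawRed.nodalData`, when the coordinates of `I` are helper3's `xOne h`, `xTwo h`. -/
theorem nonSpecialExists_of_reduction [Finite I.twoCharts.rawRed.Node]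
    (hx₁ : I.x₁ = xOne h) (hx₂ : I.x₂ = xTwo h)
    (hnode : ∃ P : Place Qbar ↥(Fbar (M' * p)),
      I.twoCharts.rawRed.r₁ P ≠ none ∧ I.twoCharts.rawRed.r₂ P ≠ none)
    (hpush₁ : ∀ y : (c1 h).O, (c1 h).ρ y ≠ 0 → ∀ Q : Place (Setup8.kA A) (Fb A M'),
      (∀ P : Place Qbar ↥(Fbar (M' * p)), I.twoCharts.rawRed.r₁ P = some Q →
        I.twoCharts.rawRed.r₂ P = none) →
      ∀ (D : Divisor Qbar ↥(Fbar (M' * p))), (∀ P, D P = P.ord (y : ↥(Fbar (M' * p)))) →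
        ∀ T : Finset (Place Qbar ↥(Fbar (M' * p))),
          (∀ P, P ∈ T ↔ P ∈ D.support ∧ I.twoCharts.rawRed.r₁ P = some Q) →
          ∑ P ∈ T, D P = Q.ord ((c1 h).ρ y))
    (hpush₂ : ∀ y : (c2 h).O, (c2 h).ρ y ≠ 0 → ∀ Q : Place (Setup8.kA A) (Fb A M'),
      (∀ P : Place Qbar ↥(Fbar (M' * p)), I.twoCharts.rawRed.r₂ P = some Q →
        I.twoCharts.rawRed.r₁ P = none) →
      ∀ (D : Divisor Qbar ↥(Fbar (M' * p))), (∀ P, D P = P.ord (y : ↥(Fbar (M' * p)))) →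
        ∀ T : Finset (Place Qbar ↥(Fbar (M' * p))),
          (∀ P, P ∈ T ↔ P ∈ D.support ∧ I.twoCharts.rawRed.r₂ P = some Q) →
          ∑ P ∈ T, D P = Q.ord ((c2 h).ρ y))
    (H₁ H₂ : LHyp (Setup8.kA A) (Fb A M'))
    (loc0 : ∀ 𝔪 : Ideal I.twoCharts.C0.B, 𝔪.IsMaximal →
      vp1 (rho0 I.twoCharts) ⊔ vp2 (rho0 I.twoCharts) ≤ 𝔪 → ∀ b ∈ 𝔪,
      ∃ d : I.twoCharts.C0.B, d ∉ 𝔪 ∧ d * b ∈ vp1 (rho0 I.twoCharts) ⊔ vp2 (rho0 I.twoCharts))
    (loc1 : ∀ 𝔪 : Ideal I.twoCharts.C1.B, 𝔪.IsMaximal →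
      vp1 (rho1 I.twoCharts) ⊔ vp2 (rho1 I.twoCharts) ≤ 𝔪 → ∀ b ∈ 𝔪,
      ∃ d : I.twoCharts.C1.B, d ∉ 𝔪 ∧ d * b ∈ vp1 (rho1 I.twoCharts) ⊔ vp2 (rho1 I.twoCharts))
    (hdeg : NDiv.degree (Dt H₁ H₂ I.gen₁.ne_zero I.gen₂.ne_zero 1 p) =
      Divisor.degree (poleDiv (lHyp h) I.twoCharts.t_ne))
    (r : Place Qbar ↥(Fbar M') → Place (Setup8.kA A) (Fb A M'))
    (hr : IsPlaceReductionModL A M' r) :
    I.twoCharts.rawRed.nodalData.NonSpecialExists (genus Qbar ↥(Fbar (M' * p))) := by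
  haveI : Fact p.Prime := ⟨h.prime⟩
  obtain ⟨D₀, h0⟩ := Fermat.Agent.FF.SpecialRR6.exists_delta_eq_zero_base 4 8 M' p h.not_dvd A
    h.liesOver Fermat.Agent.RED.BASE.Hauptmodul12.baseHyp_four h.four_dvd r hr
  exact nonSpecialExists_of_inputs I hnode hpush₁ hpush₂ H₁ H₂ p h.prime.pos
    (hρt₁_of_eq I hx₁) (hρt₂_of_eq I hx₂) loc0 loc1 hdeg _
    (Fermat.Agent.FF.SpecialRR6.riemann_inequality_special_genus 4 8 M' p h.not_dvd (tMemM h)
      tGenBase4 A h.liesOver r hr) D₀ h0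

end Fermat.Agent.T33.NodalInst8
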