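/-
Programme T (S33), chapter (e) "N34 over ℚ̄", block NodalCharts-instance (helper6), part D:
**ordinary nodes at the top level from the strong node coordinates at one finite level.**

Vocabulary of `LocalReg5A` (helper5): finite level `(R, F, π, B, O1, O2)` (N34's nodal chart),
top level `BA : Subalgebra RA Fb` (the chart over the valuation ring of `ℚ̄`), `f : F →+* Fb` with
`f B ⊆ BA`, `chartHom f B BA hfB : B →+* BA`.

* `comap_isMaximal_of_integral` : the contraction of a maximal ideal `𝔪` of `BA` to the finite level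
  is maximal as soon as `BA / 𝔪` is integral over the finite level (the residue field of `ℚ̄` is
  algebraic over the residue field of the number field);
* `not_offBranch_comap` : if the image of the vertical ideal `B ∩ π O_j` lies in `𝔪`, the component
  `j` passes through the contraction of `𝔪`;
* `hloc_of_level` : the hypothesis `hloc` of `NodalInst6A.mem_sup_of_local` for the elements of
  `𝔪` coming from the finite level, from `NodeStrong4.StrongCoords` there:
  `d · b ∈ P1A + P2A` with `d ∉ 𝔪`.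
-/
import Mathlib
import Fermat.Agent.T33.LocalReg5A
import Fermat.Agent.ES.N35.NodeStrong4

set_option autoImplicit false
set_option linter.unusedSectionVars false

namespace Fermat.Agent.T33.NodalInst6

open Fermat.Agent.ES.N34.NodalCore13 Fermat.Agent.ES.N35.NodeStrong4
  Fermat.Agent.T33.LocalReg5

section Maximal

variable {B BA : Type*} [CommRing B] [CommRing BA]

/-- the contraction of a maximal ideal along a ring homomorphism which is integral modulo the
ideal is maximal. -/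
theorem comap_isMaximal_of_integral (φ : B →+* BA) (𝔪 : Ideal BA) [h𝔪 : 𝔪.IsMaximal]
    (hint : ∀ y : BA, ∃ p : Polynomial B, p.Monic ∧ Polynomial.eval₂ φ y p ∈ 𝔪) :
    (𝔪.comap φ).IsMaximal := by
  haveI : (𝔪.comap φ).IsPrime := Ideal.comap_isPrime φ 𝔪
  set ψ : B ⧸ 𝔪.comap φ →+* BA ⧸ 𝔪 := Ideal.quotientMap 𝔪 φ le_rfl with hψ
  have hinj : Function.Injective ψ := Ideal.quotientMap_injective
  have hintψ : ψ.IsIntegral := by
    intro z
    obtain ⟨y, rfl⟩ := Ideal.Quotient.mk_surjective z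
    obtain ⟨p, hp, hpy⟩ := hint y
    refine ⟨p.map (Ideal.Quotient.mk (𝔪.comap φ)), hp.map _, ?_⟩
    rw [Polynomial.eval₂_map]
    have h1 : ψ.comp (Ideal.Quotient.mk (𝔪.comap φ)) = (Ideal.Quotient.mk 𝔪).comp φ := by
      ext b
      simp [hψ]
    rw [h1, ← Polynomial.hom_eval₂]
    exact Ideal.Quotient.eq_zero_iff_mem.2 hpy
  have hfield : IsField (BA ⧸ 𝔪) := (Ideal.Quotient.maximal_ideal_iff_isField_quotient 𝔪).1 h𝔪
  letI := ψ.toAlgebra
  have hint' : Algebra.IsIntegral (B ⧸ 𝔪.comap φ) (BA ⧸ 𝔪) := ⟨hintψ⟩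
  have hB : IsField (B ⧸ 𝔪.comap φ) :=
    isField_of_isIntegral_of_isField (R := B ⧸ 𝔪.comap φ) (S := BA ⧸ 𝔪) hinj hfield
  exact (Ideal.Quotient.maximal_ideal_iff_isField_quotient _).2 hB

end Maximal

section Level

variable {R F : Type*} [CommRing R] [Field F] [Algebra R F]
variable {Fb : Type*} [Field Fb]
variable {RA : Type*} [CommRing RA] [Algebra RA Fb]

/-- if the image of the vertical ideal `B ∩ π O_j` lies in `𝔪`, the component `j` passes through
the contraction of `𝔪`. -/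
theorem not_offBranch_comap (π : R) (B : Subalgebra R F) (Oj : ValuationSubring F)
    (f : F →+* Fb) (BA : Subalgebra RA Fb) (hfB : ∀ b ∈ B, f b ∈ BA) (PjA 𝔪 : Ideal BA)
    (hPj : ∀ b : B, (∃ c ∈ Oj, (b : F) = algebraMap R F π * c) → chartHom f B BA hfB b ∈ PjA)
    (h𝔪 : PjA ≤ 𝔪) : ¬ OffBranch π B Oj (𝔪.comap (chartHom f B BA hfB)) := by
  rintro ⟨e, he, c, hc, hec⟩
  exact he (h𝔪 (hPj e ⟨c, hc, hec⟩))

/-- **ordinary nodes at the top level, one finite level at a time.** -/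
theorem hloc_of_level (π : R) (B : Subalgebra R F) (O1 O2 : ValuationSubring F)
    (f : F →+* Fb) (BA : Subalgebra RA Fb) (hfB : ∀ b ∈ B, f b ∈ BA) (P1A P2A 𝔪 : Ideal BA)
    (hP1 : ∀ b : B, (∃ c ∈ O1, (b : F) = algebraMap R F π * c) → chartHom f B BA hfB b ∈ P1A)
    (hP2 : ∀ b : B, (∃ c ∈ O2, (b : F) = algebraMap R F π * c) → chartHom f B BA hfB b ∈ P2A)
    (hπO1 : ∃ c ∈ O1, algebraMap R F π = algebraMap R F π * c)
    (h𝔪 : P1A ⊔ P2A ≤ 𝔪) (hmaxK : (𝔪.comap (chartHom f B BA hfB)).IsMaximal)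
    (hstrong : ∀ 𝔪K : Ideal B, 𝔪K.IsMaximal → algebraMap R B π ∈ 𝔪K →
      ¬ OffBranch π B O1 𝔪K → ¬ OffBranch π B O2 𝔪K → StrongCoords π B O1 O2 𝔪K)
    (b : B) (hb : chartHom f B BA hfB b ∈ 𝔪) :
    ∃ d : BA, d ∉ 𝔪 ∧ d * chartHom f B BA hfB b ∈ P1A ⊔ P2A := by
  have h1 : P1A ≤ 𝔪 := le_trans le_sup_left h𝔪
  have h2 : P2A ≤ 𝔪 := le_trans le_sup_right h𝔪
  have hπ𝔪 : algebraMap R B π ∈ 𝔪.comap (chartHom f B BA hfB) := by
    obtain ⟨c, hc, hπc⟩ := hπO1
    exact h1 (hP1 (algebraMap R B π) ⟨c, hc, hπc⟩)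
  obtain ⟨x, y, hx, hy, -, hspan⟩ := hstrong _ hmaxK hπ𝔪
    (not_offBranch_comap π B O1 f BA hfB P1A 𝔪 hP1 h1)
    (not_offBranch_comap π B O2 f BA hfB P2A 𝔪 hP2 h2)
  obtain ⟨d, hd, a, b', e, hdb⟩ := hspan b hb
  refine ⟨chartHom f B BA hfB d, hd, ?_⟩
  rw [← map_mul, hdb, map_add, map_add, map_mul, map_mul, map_mul]
  have hxA : chartHom f B BA hfB x ∈ P1A ⊔ P2A := Ideal.mem_sup_right (hP2 x hx)
  have hyA : chartHom f B BA hfB y ∈ P1A ⊔ P2A := Ideal.mem_sup_left (hP1 y hy)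
  have hπA : chartHom f B BA hfB (algebraMap R B π) ∈ P1A ⊔ P2A := by
    obtain ⟨c, hc, hπc⟩ := hπO1
    exact Ideal.mem_sup_left (hP1 (algebraMap R B π) ⟨c, hc, hπc⟩)
  exact Ideal.add_mem _ (Ideal.add_mem _ (Ideal.mul_mem_left _ _ hxA)
    (Ideal.mul_mem_left _ _ hyA)) (Ideal.mul_mem_right _ _ hπA)

end Level

end Fermat.Agent.T33.NodalInst6
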