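/-
Programme T (S33), chapter (e) "N34 over ℚ̄", block [B-1](iii) (helper1): **the nodes of the model
over `A` are ORDINARY** — the hypothesis `hloc` (`loc0`, `loc1`) of helper6's `NodalInst6`
(`NodalInst6A.mem_sup_of_local`, `NodalInst6E.chartsS_of_twoCharts`): at a closed point `𝔪` of a chart
`BA = chart ↥A s` of the model lying on both components (`𝔭₁ + 𝔭₂ ⊆ 𝔪`), every `b ∈ 𝔪` satisfies
`d · b ∈ 𝔭₁ + 𝔭₂` for some `d ∉ 𝔪`.

The union step over the finite levels: `b` comes from a large number field `K`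
(`LocalReg5B.large_chart`); the contraction `𝔪_K` of `𝔪` to the chart of level `K` is maximal
(`NodalInst6.comap_isMaximal_of_integral`: the residue field of `A` is algebraic over `𝔽_p`, every
nonzero residue lifts to a root of unity), lies on both branches, and carries the strong node
coordinates `NodeStrong4.StrongCoords` (`NodeStrong4.strongItems_four`); then
`NodalInst6.hloc_of_level`.

* `StrongModelAt`, `large_strongModel_zero`, `large_strongModel_one` : the finite-level models with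
  their strong node coordinates;
* `ρ_const_mul_eq_zero` : `ρ (c · y) = 0` for `c ∈ 𝔪_A`;
* `loc_chart` : the statement for `BA = chart ↥A s` and the vertical primes `vert1`, `vert2` of
  `NodalBase4A`;
(the vocabulary of `NodalPlaces1.Chart` / `NodalInst6.chartsS_of_twoCharts` is in `NodalLoc1B`.)
-/
import Mathlib
import Fermat.Agent.T33.ChartOK5
import Fermat.Agent.T33.NodalInst6D
import Fermat.Agent.ES.N35.NodeStrong4
import Fermat.Agent.FF.TeichLift4

set_option autoImplicit false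
set_option linter.unusedSectionVars false
set_option linter.style.haveILetI false
set_option linter.unusedVariables false
set_option synthInstance.maxHeartbeats 400000

noncomputable section

namespace Fermat.Agent.T33.NodalLoc1

open HahnSeries ModularCurve IntermediateField AlgebraicCurve IsLocalRing
open Fermat.Agent.RED.Interface4 Fermat.Agent.RED.PUR.GaussGen8 Fermat.Agent.RED.DESC
  Fermat.Agent.RED.DESC.PlaceExtend27 Fermat.Agent.RED.DESC.NumberFieldDVR27
  Fermat.Agent.RED.PUR.ChartGeneric22 Fermat.Agent.RED.BASE.EtaQuot12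
  Fermat.Agent.ES.RED Fermat.Agent.ES.N34.ModelN4 Fermat.Agent.ES.N34.FrickeFK8
  Fermat.Agent.ES.N34.NodalCore13 Fermat.Agent.ES.N34.NumData13 Fermat.Agent.ES.N34.ModelDefs9
  Fermat.Agent.ES.N34.ModelInput13 Fermat.Agent.ES.N35.NodeStrong4
  Fermat.Agent.T33.NodalCtx1 Fermat.Agent.T33.NodalHalf4 Fermat.Agent.T33.NodalBase4A
  Fermat.Agent.T33.LocalReg5 Fermat.Agent.T33.LocalReg5B Fermat.Agent.T33.LocalReg5C
  Fermat.Agent.T33.ChartOK5

/-! ### generic: the reduction kills `𝔪_A · O` -/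

section Half

variable {K : Type*} [Field K] {A : ValuationSubring K} {F : Type*} [Field F] [Algebra K F]
  {Fb : Type*} [Field Fb] [Algebra (ResidueField A) Fb]

theorem ρ_const_mul_eq_zero (c : HalfRed A F Fb) {a : A} (ha : a ∈ maximalIdeal A) {y : F}
    (hy : y ∈ c.O) (hmem : algebraMap K F (a : K) * y ∈ c.O) :
    c.ρ ⟨algebraMap K F (a : K) * y, hmem⟩ = 0 := by
  have e : (⟨algebraMap K F (a : K) * y, hmem⟩ : c.O) =
      ⟨algebraMap K F (a : K), c.algebraMap_mem a⟩ * ⟨y, hy⟩ := Subtype.ext rfl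
  rw [e, map_mul, c.ρ_algebraMap, (residue_eq_zero_iff a).2 ha, map_zero, zero_mul]

end Half

variable {p M' : ℕ} [NeZero M'] [NeZero p] {A : ValuationSubring Qbar}

/-- shortcut instance (typeclass search is slow here). -/
local instance (priority := high) algebraAFbarN' (N : ℕ) : Algebra ↥A ↥(Fbar N) := inferInstance

/-- shortcut instance (typeclass search takes 3 s to find it). -/
local instance (priority := high) algebraAKFK' (K : IntermediateField ℚ Qbar) (N : ℕ) :
    Algebra ↥(AK A K) ↥(FK N K) := inferInstance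

/-- shortcut instance. -/
local instance (priority := high) algebraKFK' (K : IntermediateField ℚ Qbar) (N : ℕ) :
    Algebra ↥K ↥(FK N K) := inferInstance

/-- shortcut instance. -/
local instance (priority := high) algebraQbarFbar' (N : ℕ) : Algebra Qbar ↥(Fbar N) :=
  inferInstance

/-- shortcut instance. -/
local instance (priority := high) algebraKFb' : Algebra (Setup8.kA A) (Fb A M') := inferInstance

/-! ### the finite-level models with their strong node coordinates -/

/-- the chart `chart ↥A s` has a finite-level model at `K` with strong node coordinates at all its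
two-branch points. -/
def StrongModelAt (p M' : ℕ) [NeZero M'] [NeZero p] (A : ValuationSubring Qbar)
    (s : Fbar (M' * p)) (K : IntermediateField ℚ Qbar) : Prop :=
  ∃ (sK : FK (M' * p) K) (hE : FK (M' * p) K ≤ fracField (AK A K)),
    baseChangeHom (M' * p) K sK = s ∧
      ∀ (π : ↥(AK A K)) (hπ : IsUnif (AK A K) π),
        ChartFields (AK A K) (FK (M' * p) K) π sK (chart ↥(AK A K) sK)
            (O1 M' p hπ hE) (O2 M' p hπ hE) ∧
          ∀ 𝔪K : Ideal ↥(chart ↥(AK A K) sK), 𝔪K.IsMaximal →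
            algebraMap ↥(AK A K) ↥(chart ↥(AK A K) sK) π ∈ 𝔪K →
            ¬ OffBranch π (chart ↥(AK A K) sK) (O1 M' p hπ hE) 𝔪K →
            ¬ OffBranch π (chart ↥(AK A K) sK) (O2 M' p hπ hE) 𝔪K →
            StrongCoords π (chart ↥(AK A K) sK) (O1 M' p hπ hE) (O2 M' p hπ hE) 𝔪K

/-- **the finite-level models of the chart `0`, with strong node coordinates.** -/
theorem large_strongModel_zero (h : LevelHyp p M' A) (t : Fbar (M' * p))
    (htq : ((t : Fbar (M' * p)) : LaurentSeries Qbar) = tq Qbar 4 8) :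
    Large (StrongModelAt p M' A t) := by
  have h1 : Large fun K => ∃ (ht : tq ↥K 4 8 ∈ FK M' K)
      (hE : FK (M' * p) K ≤ fracField (AK A K)),
      ∀ (π : ↥(AK A K)) (hπ : IsUnif (AK A K) π),
        NodalDataAt (AK A K) (FK (M' * p) K) π (tN p ht) (B0 A p ht) (B1 A p ht)
          (O1 M' p hπ hE) (O2 M' p hπ hE) :=
    Fermat.Agent.ES.N34.ModelEnd4.modelInput_four p M' A h.prime h.not_dvd h.ne_two h.four_dvd
      h.liesOver
  have h2 := strongItems_four p M' A h.prime h.not_dvd h.ne_two h.four_dvd h.liesOver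
  refine (h1.and h2).mono ?_
  rintro K ⟨⟨ht, hE, HD⟩, hS⟩
  exact ⟨tN p ht, hE, LocalReg5C.baseChangeHom_tN K ht t htq, fun π hπ =>
    ⟨chartFields_zero (HD π hπ), (hS ht hE π hπ).1⟩⟩

/-- **the finite-level models of the chart `1`, with strong node coordinates.** -/
theorem large_strongModel_one (h : LevelHyp p M' A) (t : Fbar (M' * p))
    (htq : ((t : Fbar (M' * p)) : LaurentSeries Qbar) = tq Qbar 4 8) :
    Large (StrongModelAt p M' A t⁻¹) := by
  have h1 : Large fun K => ∃ (ht : tq ↥K 4 8 ∈ FK M' K)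
      (hE : FK (M' * p) K ≤ fracField (AK A K)),
      ∀ (π : ↥(AK A K)) (hπ : IsUnif (AK A K) π),
        NodalDataAt (AK A K) (FK (M' * p) K) π (tN p ht) (B0 A p ht) (B1 A p ht)
          (O1 M' p hπ hE) (O2 M' p hπ hE) :=
    Fermat.Agent.ES.N34.ModelEnd4.modelInput_four p M' A h.prime h.not_dvd h.ne_two h.four_dvd
      h.liesOver
  have h2 := strongItems_four p M' A h.prime h.not_dvd h.ne_two h.four_dvd h.liesOver
  refine (h1.and h2).mono ?_
  rintro K ⟨⟨ht, hE, HD⟩, hS⟩
  refine ⟨(tN p ht)⁻¹, hE, ?_, fun π hπ => ⟨chartFields_one (HD π hπ), (hS ht hE π hπ).2⟩⟩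
  rw [map_inv₀, LocalReg5C.baseChangeHom_tN K ht t htq]

/-! ### the union step -/

/-- constants of `𝔪_A` lie in every maximal ideal containing `𝔭₁`. -/
theorem const_mem_vert1 (h : LevelHyp p M' A) {B : Subalgebra ↥A ↥(Fbar (M' * p))}
    (hB : ChartOK h B) {a : ↥A} (ha : a ∈ maximalIdeal ↥A) :
    algebraMap ↥A ↥B a ∈ vert1 h hB := by
  rw [mem_vert1_iff, red1_apply]
  have h1 : rho1 h ⟨algebraMap Qbar ↥(Fbar (M' * p)) (a : Qbar), const_mem_O1 h a⟩ =
      algebraMap (Setup8.kA A) (Fb A M') (residue ↥A a) := rho1_const h a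
  rw [(residue_eq_zero_iff a).2 ha, map_zero] at h1
  exact h1

/-- **ordinary nodes over `A`**, for a chart with finite-level models: at a closed point `𝔪` of the
chart `chart ↥A s` lying on both components and with residue field `κ_A`, every element of `𝔪` is,
up to a denominator off `𝔪`, a sum of an element vanishing on `C₁` and an element vanishing on
`C₂`. -/
theorem loc_chart (h : LevelHyp p M' A) (s : Fbar (M' * p))
    (hmodel : Large (StrongModelAt p M' A s)) (hB : ChartOK h (chart ↥A s))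
    (𝔪 : Ideal ↥(chart ↥A s)) [h𝔪 : 𝔪.IsMaximal]
    (hle : vert1 h hB ⊔ vert2 h hB ≤ 𝔪)
    (hres : ∀ y : ↥(chart ↥A s), ∃ a : ↥A, y - algebraMap ↥A ↥(chart ↥A s) a ∈ 𝔪)
    (b : ↥(chart ↥A s)) (hb : b ∈ 𝔪) :
    ∃ d : ↥(chart ↥A s), d ∉ 𝔪 ∧ d * b ∈ vert1 h hB ⊔ vert2 h hB := by
  obtain ⟨K, hnor, hfd, ⟨hM, hbK⟩⟩ :=
    Large.exists_field (hmodel.and (large_chart A (M' * p) s (b : Fbar (M' * p)) b.2))
  obtain ⟨sK, hE, hsK, hC⟩ := hM
  haveI := hfd
  obtain ⟨π, hπ⟩ := exists_unif h K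
  obtain ⟨C, hS⟩ := hC π hπ
  obtain ⟨x, hx, hxb⟩ := hbK sK hsK
  have hfB : ∀ b ∈ chart ↥(AK A K) sK, baseChangeHom (M' * p) K b ∈ chart ↥A s := by
    intro b hb
    have := ChartUnion1.baseChangeHom_mem_chart A (M' * p) K sK b hb
    rwa [hsK] at this
  -- the uniformiser maps into `𝔪_A`
  have hπA : incl A K π ∈ maximalIdeal ↥A := by
    rw [mem_maximalIdeal, mem_nonunits_iff]
    intro hu
    have h1 : IsUnit π := (isUnit_map_iff (incl A K) π).1 hu
    have h2 : π ∈ maximalIdeal ↥(AK A K) := by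
      rw [hπ.max_eq]
      exact Ideal.mem_span_singleton_self π
    exact (mem_maximalIdeal π).1 h2 h1
  have hfπ : ∀ c : FK (M' * p) K,
      baseChangeHom (M' * p) K (algebraMap ↥(AK A K) ↥(FK (M' * p) K) π * c) =
        algebraMap Qbar ↥(Fbar (M' * p)) ((incl A K π : ↥A) : Qbar) *
          baseChangeHom (M' * p) K c := by
    intro c
    rw [map_mul, ChartUnion1.baseChangeHom_algebraMap_AK]
    rfl
  have hP1 : ∀ b : ↥(chart ↥(AK A K) sK),
      (∃ c ∈ O1 M' p hπ hE, (b : FK (M' * p) K) = algebraMap ↥(AK A K) ↥(FK (M' * p) K) π * c) →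
        chartHom (baseChangeHom (M' * p) K) (chart ↥(AK A K) sK) (chart ↥A s) hfB b ∈
          vert1 h hB := by
    rintro b ⟨c, hc, hbc⟩
    rw [mem_vert1_iff, red1_apply]
    have hc' : baseChangeHom (M' * p) K c ∈ (c1 h).O :=
      mem_O1_of_level h K c ((Fermat.Agent.ES.N34.ModelDefs9.mem_O1_iff M' p hπ hE c).1 hc)
    have e : baseChangeHom (M' * p) K (b : FK (M' * p) K) =
        algebraMap Qbar ↥(Fbar (M' * p)) ((incl A K π : ↥A) : Qbar) *
          baseChangeHom (M' * p) K c := by rw [hbc, hfπ]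
    have hmem : algebraMap Qbar ↥(Fbar (M' * p)) ((incl A K π : ↥A) : Qbar) *
        baseChangeHom (M' * p) K c ∈ (c1 h).O := by
      rw [← e]
      exact hB.le1 _ (hfB _ b.2)
    have h0 := ρ_const_mul_eq_zero (c1 h) hπA hc' hmem
    have e2 : (⟨((chartHom (baseChangeHom (M' * p) K) (chart ↥(AK A K) sK) (chart ↥A s) hfB b :
        ↥(chart ↥A s)) : ↥(Fbar (M' * p))), hB.le1 _ (chartHom (baseChangeHom (M' * p) K)
          (chart ↥(AK A K) sK) (chart ↥A s) hfB b).2⟩ : ↥(O1 h)) =
        ⟨_, hmem⟩ := Subtype.ext e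
    rw [e2]
    exact h0
  have hP2 : ∀ b : ↥(chart ↥(AK A K) sK),
      (∃ c ∈ O2 M' p hπ hE, (b : FK (M' * p) K) = algebraMap ↥(AK A K) ↥(FK (M' * p) K) π * c) →
        chartHom (baseChangeHom (M' * p) K) (chart ↥(AK A K) sK) (chart ↥A s) hfB b ∈
          vert2 h hB := by
    rintro b ⟨c, hc, hbc⟩
    rw [mem_vert2_iff, red2_apply]
    have hc' : baseChangeHom (M' * p) K c ∈ (c2 h).O :=
      mem_O2_of_level h K c ((Fermat.Agent.ES.N34.ModelDefs9.mem_O2_iff M' p hπ hE c).1 hc)
    have e : baseChangeHom (M' * p) K (b : FK (M' * p) K) =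
        algebraMap Qbar ↥(Fbar (M' * p)) ((incl A K π : ↥A) : Qbar) *
          baseChangeHom (M' * p) K c := by rw [hbc, hfπ]
    have hmem : algebraMap Qbar ↥(Fbar (M' * p)) ((incl A K π : ↥A) : Qbar) *
        baseChangeHom (M' * p) K c ∈ (c2 h).O := by
      rw [← e]
      exact hB.le2 _ (hfB _ b.2)
    have h0 := ρ_const_mul_eq_zero (c2 h) hπA hc' hmem
    have e2 : (⟨((chartHom (baseChangeHom (M' * p) K) (chart ↥(AK A K) sK) (chart ↥A s) hfB b :
        ↥(chart ↥A s)) : ↥(Fbar (M' * p))), hB.le2 _ (chartHom (baseChangeHom (M' * p) K)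
          (chart ↥(AK A K) sK) (chart ↥A s) hfB b).2⟩ : ↥(O2 h)) =
        ⟨_, hmem⟩ := Subtype.ext e
    rw [e2]
    exact h0
  -- the contraction of `𝔪` is maximal
  have hv1 : vert1 h hB ≤ 𝔪 := le_trans le_sup_left hle
  have hint : ∀ y : ↥(chart ↥A s), ∃ q : Polynomial ↥(chart ↥(AK A K) sK), q.Monic ∧
      Polynomial.eval₂ (chartHom (baseChangeHom (M' * p) K) (chart ↥(AK A K) sK) (chart ↥A s) hfB)
        y q ∈ 𝔪 := by
    intro y
    obtain ⟨a, ha⟩ := hres y
    by_cases ha0 : residue ↥A a = 0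
    · refine ⟨Polynomial.X, Polynomial.monic_X, ?_⟩
      rw [Polynomial.eval₂_X]
      have h1 : algebraMap ↥A ↥(chart ↥A s) a ∈ 𝔪 :=
        hv1 (const_mem_vert1 h hB ((residue_eq_zero_iff a).1 ha0))
      have := 𝔪.add_mem ha h1
      rwa [sub_add_cancel] at this
    · obtain ⟨a', ha', m, hm, ham, hres'⟩ :=
        Fermat.Agent.FF.TeichLift4.exists_rootOfUnity_lift h.prime h.liesOver ha0
      have hm0 : m ≠ 0 := fun h0 => hm (h0 ▸ dvd_zero p)
      refine ⟨Polynomial.X ^ m - Polynomial.C 1, Polynomial.monic_X_pow_sub_C 1 hm0, ?_⟩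
      rw [Polynomial.eval₂_sub, Polynomial.eval₂_pow, Polynomial.eval₂_X, Polynomial.eval₂_C,
        map_one]
      have h1 : (⟨a', ha'⟩ : ↥A) - a ∈ maximalIdeal ↥A := by
        rw [← residue_eq_zero_iff, map_sub, hres', sub_self]
      have h2 : y - algebraMap ↥A ↥(chart ↥A s) ⟨a', ha'⟩ ∈ 𝔪 := by
        have h3 := hv1 (const_mem_vert1 h hB h1)
        have h4 := 𝔪.sub_mem ha h3
        rw [map_sub] at h4
        have e : y - algebraMap ↥A ↥(chart ↥A s) a -
            (algebraMap ↥A ↥(chart ↥A s) ⟨a', ha'⟩ - algebraMap ↥A ↥(chart ↥A s) a) =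
            y - algebraMap ↥A ↥(chart ↥A s) ⟨a', ha'⟩ := by ring
        rwa [e] at h4
      have h5 : (algebraMap ↥A ↥(chart ↥A s) ⟨a', ha'⟩) ^ m = 1 := by
        rw [← map_pow]
        have : (⟨a', ha'⟩ : ↥A) ^ m = 1 := Subtype.ext ham
        rw [this, map_one]
      obtain ⟨w, hw⟩ := sub_dvd_pow_sub_pow y (algebraMap ↥A ↥(chart ↥A s) ⟨a', ha'⟩) m
      rw [h5] at hw
      rw [hw]
      exact 𝔪.mul_mem_right _ h2
  have hmaxK := Fermat.Agent.T33.NodalInst6.comap_isMaximal_of_integral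
    (chartHom (baseChangeHom (M' * p) K) (chart ↥(AK A K) sK) (chart ↥A s) hfB) 𝔪 hint
  have hxb' : chartHom (baseChangeHom (M' * p) K) (chart ↥(AK A K) sK) (chart ↥A s) hfB ⟨x, hx⟩ =
      b := Subtype.ext hxb
  have key := Fermat.Agent.T33.NodalInst6.hloc_of_level π (chart ↥(AK A K) sK) (O1 M' p hπ hE)
    (O2 M' p hπ hE) (baseChangeHom (M' * p) K) (chart ↥A s) hfB (vert1 h hB) (vert2 h hB) 𝔪
    hP1 hP2 ⟨1, (O1 M' p hπ hE).one_mem, (mul_one _).symm⟩ hle hmaxK hS ⟨x, hx⟩
    (by rw [hxb']; exact hb)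
  rwa [hxb'] at key

end Fermat.Agent.T33.NodalLoc1
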