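/-
Programme T (S33), chapter (e) "N34 over ℚ̄", block [B-1](iii) (helper1), part B: **ordinary nodes
over `A` in the vocabulary of `NodalPlaces1.Chart` and of helper6's `NodalInst6`**.

* `loc_of_chart` : `NodalLoc1.loc_chart` for a `NodalPlaces1.Chart` `C` with `C.B = chart ↥A s` as sets
  (`𝔭_j = ker ρ_j` in the form `NodalInst6.vp1/vp2 (C.ρ₁.prod C.ρ₂)`), at a maximal ideal lying in the
  kernel of a point of the chart;
* `loc0_twoCharts`, `loc1_twoCharts` : literally the hypotheses `loc0`, `loc1` of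
  `NodalInst6.chartsS_of_twoCharts`, from its hypotheses `pt0`, `pt1`.
-/
import Mathlib
import Fermat.Agent.T33.NodalLoc1
import Fermat.Agent.T33.NodalInst6E

set_option autoImplicit false
set_option linter.unusedSectionVars false
set_option linter.style.haveILetI false
set_option linter.unusedVariables false
set_option synthInstance.maxHeartbeats 400000

noncomputable section

namespace Fermat.Agent.T33.NodalLoc1

open HahnSeries ModularCurve IntermediateField AlgebraicCurve IsLocalRing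
open Fermat.Agent.RED.Interface4 Fermat.Agent.RED.PUR.GaussGen8 Fermat.Agent.RED.DESC
  Fermat.Agent.RED.DESC.PlaceExtend27 Fermat.Agent.RED.DESC.NumberFieldDVR27
  Fermat.Agent.RED.PUR.ChartGeneric22 Fermat.Agent.RED.BASE.EtaQuot12
  Fermat.Agent.ES.RED Fermat.Agent.ES.N34.ModelN4
  Fermat.Agent.T33.NodalCtx1 Fermat.Agent.T33.NodalHalf4 Fermat.Agent.T33.NodalBase4A
  Fermat.Agent.T33.ChartOK5

variable {p M' : ℕ} [NeZero M'] [NeZero p] {A : ValuationSubring Qbar}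

/-- shortcut instance (typeclass search is slow here). -/
local instance (priority := high) algebraAFbarN'' (N : ℕ) : Algebra ↥A ↥(Fbar N) := inferInstance

/-- shortcut instance. -/
local instance (priority := high) algebraKFb'' : Algebra (Setup8.kA A) (Fb A M') := inferInstance

/-- shortcut instance. -/
local instance (priority := high) algebraQbarFbar'' (N : ℕ) : Algebra Qbar ↥(Fbar N) :=
  inferInstance

/-! ### the vocabulary of `NodalPlaces1.Chart` and of `NodalInst6` -/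

section Charts

open Fermat.Agent.T33.NodalPlaces1 Fermat.Agent.T33.NodalInst6

/-- the identity map `chart ↥A s → C.B` of a chart with underlying ring `chart ↥A s`. -/
def ofChart (h : LevelHyp p M' A) (s : Fbar (M' * p)) (C : Chart (c1 h) (c2 h))
    (hC : ∀ x : Fbar (M' * p), x ∈ C.B ↔ x ∈ chart ↥A s) : ↥(chart ↥A s) →+* C.B where
  toFun x := ⟨(x : Fbar (M' * p)), (hC _).2 x.2⟩
  map_one' := Subtype.ext rfl
  map_mul' _ _ := Subtype.ext rfl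
  map_zero' := Subtype.ext rfl
  map_add' _ _ := Subtype.ext rfl

theorem coe_ofChart (h : LevelHyp p M' A) (s : Fbar (M' * p)) (C : Chart (c1 h) (c2 h))
    (hC : ∀ x : Fbar (M' * p), x ∈ C.B ↔ x ∈ chart ↥A s) (x : ↥(chart ↥A s)) :
    ((ofChart h s C hC x : C.B) : Fbar (M' * p)) = (x : Fbar (M' * p)) := rfl

theorem ofChart_surjective (h : LevelHyp p M' A) (s : Fbar (M' * p)) (C : Chart (c1 h) (c2 h))
    (hC : ∀ x : Fbar (M' * p), x ∈ C.B ↔ x ∈ chart ↥A s) :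
    Function.Surjective (ofChart h s C hC) :=
  fun y => ⟨⟨(y : Fbar (M' * p)), (hC _).1 y.2⟩, Subtype.ext rfl⟩

theorem ofChart_algebraMap (h : LevelHyp p M' A) (s : Fbar (M' * p)) (C : Chart (c1 h) (c2 h))
    (hC : ∀ x : Fbar (M' * p), x ∈ C.B ↔ x ∈ chart ↥A s) (a : ↥A) :
    ofChart h s C hC (algebraMap ↥A ↥(chart ↥A s) a) = C.const a := Subtype.ext rfl

/-- the chart lies in both Gauss rings. -/
theorem chartOK_of_chart (h : LevelHyp p M' A) (s : Fbar (M' * p)) (C : Chart (c1 h) (c2 h))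
    (hC : ∀ x : Fbar (M' * p), x ∈ C.B ↔ x ∈ chart ↥A s) : ChartOK h (chart ↥A s) :=
  ⟨fun b hb => C.le₁ ((hC b).2 hb), fun b hb => C.le₂ ((hC b).2 hb)⟩

theorem ofChart_mem_vp1 (h : LevelHyp p M' A) (s : Fbar (M' * p)) (C : Chart (c1 h) (c2 h))
    (hC : ∀ x : Fbar (M' * p), x ∈ C.B ↔ x ∈ chart ↥A s) (x : ↥(chart ↥A s))
    (hx : x ∈ vert1 h (chartOK_of_chart h s C hC)) :
    ofChart h s C hC x ∈ vp1 (C.ρ₁.prod C.ρ₂) := by
  rw [mem_vp1]
  rw [mem_vert1_iff, red1_apply] at hx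
  exact hx

theorem ofChart_mem_vp2 (h : LevelHyp p M' A) (s : Fbar (M' * p)) (C : Chart (c1 h) (c2 h))
    (hC : ∀ x : Fbar (M' * p), x ∈ C.B ↔ x ∈ chart ↥A s) (x : ↥(chart ↥A s))
    (hx : x ∈ vert2 h (chartOK_of_chart h s C hC)) :
    ofChart h s C hC x ∈ vp2 (C.ρ₁.prod C.ρ₂) := by
  rw [mem_vp2]
  rw [mem_vert2_iff, red2_apply] at hx
  exact hx

set_option maxHeartbeats 400000 in
/-- **ordinary nodes over `A`, for a `NodalPlaces1.Chart` with underlying ring `chart ↥A s`**, at a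
maximal ideal lying in the kernel of a point of the chart (`[B-2]`: every closed point on both
components is such). -/
theorem loc_of_chart (h : LevelHyp p M' A) (s : Fbar (M' * p))
    (hmodel : Large (StrongModelAt p M' A s)) (C : Chart (c1 h) (c2 h))
    (hC : ∀ x : Fbar (M' * p), x ∈ C.B ↔ x ∈ chart ↥A s)
    (𝔪 : Ideal C.B) (h𝔪 : 𝔪.IsMaximal)
    (hle : vp1 (C.ρ₁.prod C.ρ₂) ⊔ vp2 (C.ρ₁.prod C.ρ₂) ≤ 𝔪)
    (hpt : ∃ q : C.Pt, ∀ b ∈ 𝔪, q b = 0) (b : C.B) (hb : b ∈ 𝔪) :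
    ∃ d : C.B, d ∉ 𝔪 ∧ d * b ∈ vp1 (C.ρ₁.prod C.ρ₂) ⊔ vp2 (C.ρ₁.prod C.ρ₂) := by
  obtain ⟨q, hq⟩ := hpt
  have hsurj := ofChart_surjective h s C hC
  have hv1 := ofChart_mem_vp1 h s C hC
  have hv2 := ofChart_mem_vp2 h s C hC
  have e1 := ofChart_algebraMap h s C hC
  generalize chartOK_of_chart h s C hC = hB at hv1 hv2
  generalize ofChart h s C hC = e at hsurj hv1 hv2 e1
  haveI hmax' : (𝔪.comap e).IsMaximal := Ideal.comap_isMaximal_of_surjective e hsurj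
  have hle' : vert1 h hB ⊔ vert2 h hB ≤ 𝔪.comap e := by
    refine sup_le (fun x hx => ?_) (fun x hx => ?_)
    · exact hle (Ideal.mem_sup_left (hv1 x hx))
    · exact hle (Ideal.mem_sup_right (hv2 x hx))
  have hres : ∀ y : ↥(chart ↥A s), ∃ a : ↥A,
      y - algebraMap ↥A ↥(chart ↥A s) a ∈ 𝔪.comap e := by
    intro y
    obtain ⟨a, ha⟩ := residue_surjective (q (e y))
    refine ⟨a, ?_⟩
    rw [Ideal.mem_comap]
    apply mem_of_pt_eq_zero q.1 𝔪 h𝔪 hq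
    rw [map_sub, map_sub, e1]
    have := q.2 a
    rw [sub_eq_zero]
    exact ha.symm.trans this.symm
  obtain ⟨b', rfl⟩ := hsurj b
  obtain ⟨d', hd', hdb⟩ := loc_chart h s hmodel hB (𝔪.comap e) hle' hres b' hb
  refine ⟨e d', hd', ?_⟩
  have hcomap : vert1 h hB ⊔ vert2 h hB ≤
      (vp1 (C.ρ₁.prod C.ρ₂) ⊔ vp2 (C.ρ₁.prod C.ρ₂)).comap e :=
    sup_le (fun x hx => Ideal.mem_sup_left (hv1 x hx)) (fun x hx => Ideal.mem_sup_right (hv2 x hx))
  have h3 := hcomap hdb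
  rw [Ideal.mem_comap, map_mul] at h3
  exact h3

/-- **the hypothesis `loc0` of `NodalInst6.chartsS_of_twoCharts`** (chart `0 = chart ↥A t`), from
its hypothesis `pt0`. -/
theorem loc0_twoCharts (h : LevelHyp p M' A) (t : Fbar (M' * p))
    (htq : ((t : Fbar (M' * p)) : LaurentSeries Qbar) = tq Qbar 4 8)
    (T : TwoCharts (c1 h) (c2 h))
    (hB0 : ∀ x : Fbar (M' * p), x ∈ T.C0.B ↔ x ∈ chart ↥A t)
    (pt0 : ∀ 𝔪 : Ideal T.C0.B, 𝔪.IsMaximal → vp1 (rho0 T) ⊔ vp2 (rho0 T) ≤ 𝔪 →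
      ∃ q : T.C0.Pt, ∀ b ∈ 𝔪, q b = 0) :
    ∀ 𝔪 : Ideal T.C0.B, 𝔪.IsMaximal → vp1 (rho0 T) ⊔ vp2 (rho0 T) ≤ 𝔪 → ∀ b ∈ 𝔪,
      ∃ d : T.C0.B, d ∉ 𝔪 ∧ d * b ∈ vp1 (rho0 T) ⊔ vp2 (rho0 T) :=
  fun 𝔪 h𝔪 hle b hb =>
    loc_of_chart h t (large_strongModel_zero h t htq) T.C0 hB0 𝔪 h𝔪 hle (pt0 𝔪 h𝔪 hle) b hb

/-- **the hypothesis `loc1` of `NodalInst6.chartsS_of_twoCharts`** (chart `1 = chart ↥A t⁻¹`), from
its hypothesis `pt1`. -/
theorem loc1_twoCharts (h : LevelHyp p M' A) (t : Fbar (M' * p))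
    (htq : ((t : Fbar (M' * p)) : LaurentSeries Qbar) = tq Qbar 4 8)
    (T : TwoCharts (c1 h) (c2 h))
    (hB1 : ∀ x : Fbar (M' * p), x ∈ T.C1.B ↔ x ∈ chart ↥A t⁻¹)
    (pt1 : ∀ 𝔪 : Ideal T.C1.B, 𝔪.IsMaximal → vp1 (rho1 T) ⊔ vp2 (rho1 T) ≤ 𝔪 →
      ∃ q : T.C1.Pt, ∀ b ∈ 𝔪, q b = 0) :
    ∀ 𝔪 : Ideal T.C1.B, 𝔪.IsMaximal → vp1 (rho1 T) ⊔ vp2 (rho1 T) ≤ 𝔪 → ∀ b ∈ 𝔪,
      ∃ d : T.C1.B, d ∉ 𝔪 ∧ d * b ∈ vp1 (rho1 T) ⊔ vp2 (rho1 T) :=
  fun 𝔪 h𝔪 hle b hb =>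
    loc_of_chart h t⁻¹ (large_strongModel_one h t htq) T.C1 hB1 𝔪 h𝔪 hle (pt1 𝔪 h𝔪 hle) b hb

end Charts

end Fermat.Agent.T33.NodalLoc1
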