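/-
Programme T (S33), chapter (e), contract (c) for THE instance, part C (helper8): **the field (c) of
the level package** — `(NodalInst4E.Nd h).NonSpecialExists (genus ℚ̄ (Fbar (M'p)))` with everything
discharged except PUSH on the two components (`hpush₁`, `hpush₂`, the arguments of
`NodalInst4E.nodalRed`):

* inputs `NodalInst4E.inp h` (helper5's `ChartSurj5.inputs h`), `hnode` (`NodalInst4E.hnode h`);
* `loc0`, `loc1` : helper1's `NodalLoc1B.loc0_twoCharts`, `loc1_twoCharts` (points from `PlaceNode8`);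
* `hdeg` : helper3's `NodalDegs3.hdeg`;
* the level-`M'` data: helper6's `NodalInst6.rGood h`.
-/
import Mathlib
import Fermat.Agent.T33.NodalInst8B
import Fermat.Agent.T33.NodalInst4E
import Fermat.Agent.T33.NodalInst6G
import Fermat.Agent.T33.NodalLoc1B
import Fermat.Agent.T33.NodalDegs3

set_option autoImplicit false
set_option linter.unusedSectionVars false
set_option linter.style.haveILetI false
set_option linter.unusedVariables false
set_option synthInstance.maxHeartbeats 400000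

noncomputable section

namespace Fermat.Agent.T33.NodalInst8

open HahnSeries ModularCurve AlgebraicCurve IsLocalRing IntermediateField
open Fermat.Agent.RED.Interface4 Fermat.Agent.ES.RED Fermat.Agent.T33.NodalHalf4
  Fermat.Agent.RED.PUR.ChartGeneric22 Fermat.Agent.T33.NodalCurve6 Fermat.Agent.T33.NodalCtx1
  Fermat.Agent.T33.NodalPlaces1 Fermat.Agent.T33.NodalBase4A Fermat.Agent.X0.FF
  Fermat.Agent.RR.LSpace Fermat.Agent.RR.Riemann Fermat.Agent.T33.NodalInst4A
  Fermat.Agent.T33.NodalInst6 Fermat.Agent.T33.NodalLiftS6 Fermat.Agent.T33.NodalLift6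
  Fermat.Agent.T33.NodalLiftG6 Fermat.Agent.T33.FrickeRed3 Fermat.Agent.T33.NodalInst4E

variable {p M' : ℕ} [NeZero M'] [NeZero p] {A : ValuationSubring Qbar}

/-- shortcut instance. -/
local instance (priority := high) algebraAFbarN8C : Algebra ↥A ↥(Fbar (M' * p)) := inferInstance

/-- shortcut instance. -/
local instance (priority := high) algebraKFb8C : Algebra (Setup8.kA A) (Fb A M') := inferInstance

variable (h : LevelHyp p M' A)

set_option maxHeartbeats 1600000 in
/-- **the field (c) of the level package**, modulo PUSH. -/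
theorem nonSpecialExists
    (hpush₁ : ∀ y : (c1 h).O, (c1 h).ρ y ≠ 0 → ∀ Q : Place (Setup8.kA A) (Fb A M'),
      (∀ P : Place Qbar ↥(Fbar (M' * p)), (T h).rawRed.r₁ P = some Q →
        (T h).rawRed.r₂ P = none) →
      ∀ (D : Divisor Qbar ↥(Fbar (M' * p))), (∀ P, D P = P.ord (y : ↥(Fbar (M' * p)))) →
        ∀ S : Finset (Place Qbar ↥(Fbar (M' * p))),
          (∀ P, P ∈ S ↔ P ∈ D.support ∧ (T h).rawRed.r₁ P = some Q) →
          ∑ P ∈ S, D P = Q.ord ((c1 h).ρ y))
    (hpush₂ : ∀ y : (c2 h).O, (c2 h).ρ y ≠ 0 → ∀ Q : Place (Setup8.kA A) (Fb A M'),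
      (∀ P : Place Qbar ↥(Fbar (M' * p)), (T h).rawRed.r₂ P = some Q →
        (T h).rawRed.r₁ P = none) →
      ∀ (D : Divisor Qbar ↥(Fbar (M' * p))), (∀ P, D P = P.ord (y : ↥(Fbar (M' * p)))) →
        ∀ S : Finset (Place Qbar ↥(Fbar (M' * p))),
          (∀ P, P ∈ S ↔ P ∈ D.support ∧ (T h).rawRed.r₂ P = some Q) →
          ∑ P ∈ S, D P = Q.ord ((c2 h).ρ y)) :
    (Nd h).NonSpecialExists (genus Qbar ↥(Fbar (M' * p))) := by
  have H₁ : LHyp (Setup8.kA A) (Fb A M') := Fermat.Agent.T33.NodalInst4C.lHypFb h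
  have hB0 : ∀ b ∈ (T h).C0.B, b ∈ chart (↥A) (T h).t := fun b hb => hb
  have hB1 : ∀ b ∈ (T h).C1.B, b ∈ chart (↥A) (T h).t⁻¹ := fun b hb => hb
  have loc0 := Fermat.Agent.T33.NodalLoc1.loc0_twoCharts h (tA h) (coe_tA h) (T h) (mem_C0_iff h)
    (fun 𝔪 h𝔪 hle => Fermat.Agent.T33.PlaceNode8.pt₀ (T h) hB0 𝔪 h𝔪 hle)
  have loc1 := Fermat.Agent.T33.NodalLoc1.loc1_twoCharts h (tA h) (coe_tA h) (T h) (mem_C1_iff h)
    (fun 𝔪 h𝔪 hle => Fermat.Agent.T33.PlaceNode8.pt₁ (T h) hB1 𝔪 h𝔪 hle)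
  have hdeg := Fermat.Agent.T33.NodalDegs3.hdeg (h := h) (lHyp h) H₁ H₁ (T h).t_ne
    (inp h).gen₁.ne_zero (inp h).gen₂.ne_zero
  haveI : Finite (inp h).twoCharts.rawRed.Node := finite_node h
  exact nonSpecialExists_of_reduction (inp h) rfl rfl (hnode h) hpush₁ hpush₂ H₁ H₁ loc0 loc1 hdeg
    (rGood h) (isPlaceReduction_rGood h)

end Fermat.Agent.T33.NodalInst8
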