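/-
Programme T (S33 via a trichotomy), END-TO-END wiring, part C (helper7): **S33 ⟸ the concrete
coordinate package** (the route through `NodalFinal8.hasConnOrder_of_coordinate`).

* `exists_levelHyp` : for `p` odd, `p ∥ N`, `A` over `p`: `auxLevel p N = M' * p` with
  `NodalHalf4.LevelHyp p M' A` (`p ∤ M'`, `4 ∣ M'`), `M' ≠ 0`;
* `hasConnOrder_Glevel_of_coordinate` : at ANY level `N'`, a nodal reduction context `Nr` of
  `Fbar N'` with the principal units `puOne`, `puTwo`, finitely many nodes, compatible with the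
  inertia group, `LHyp` on the two components, ONE generator `x` of `Fbar N'` (it discharges `LHyp`
  and Riemann–Roch on the generic fibre, with `g = genus ℚ̄ (Fbar N')`), contract (c)
  `Nd.NonSpecialExists g` and an inertia-invariant coordinate `s` give (NF):
  `HasConnOrder (W0 A) (Iner A) A (Glevel A p N' m)` for every `m`;
* `structure CoordPackage h` : the same list for `h : LevelHyp p M' A`, `N' = M' * p`, components
  `c1 h`, `c2 h` (pu = puOne / puTwo by lead's `NodalBridge0`), `γ = NodalCompat1.gamma`;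
* `hasConnOrder_Glevel_of_package`, and
* **`s33_of_coordPackage`** : the literal hypothesis list of the frozen statement S33 plus a
  coordinate package for every `(A, M')` with `LevelHyp p M' A` ⟹ `H.ρ.IsOrdinaryAt p`.
-/
import Mathlib
import Fermat.Agent.T33.S33Wire7B
import Fermat.Agent.T33.NodalFinal8
import Fermat.Agent.T33.NodalBridge0
import Fermat.Agent.T33.NodalCompat1
import Fermat.Agent.FF.Bridge5
import Fermat.Agent.FF.ConcreteR8
import Fermat.Agent.RR.RRMain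
import Fermat.Agent.ES.KRON.KronInst10

set_option autoImplicit false
set_option synthInstance.maxHeartbeats 400000
set_option linter.unusedSectionVars false
set_option linter.unusedVariables false
set_option linter.style.haveILetI false

noncomputable section

open ModularCurve AlgebraicCurve CuspForm IsLocalRing IntermediateField

namespace Fermat.Agent.T33.S33Wire7

open Fermat.Agent.ES.J.TateJZero13 Fermat.Agent.T33.Psi3B Fermat.Agent.T33.Psi3C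
  Fermat.Agent.T33.Psi3D Fermat.Agent.T33.Psi3F
  Fermat.Agent.T33.ConnOrd2 Fermat.Agent.FF.InertiaWire8 Fermat.Agent.RED.Interface4
  Fermat.Agent.RR.LSpace Fermat.Agent.RR.Riemann Fermat.Agent.FF.SpecRR1
  Fermat.Agent.X0 Fermat.Agent.X0.FF
  Fermat.Agent.T33.NodalCtx1 Fermat.Agent.T33.NodalCurve6 Fermat.Agent.T33.NodalIface8
  Fermat.Agent.T33.NodalHalf4

universe u₁ u₂ u₃

/-! ### arithmetic of the auxiliary level -/

section Arith

/-- for `p` odd with `p ∥ N`: `auxLevel p N = M' * p` with `p ∤ M'`, `4 ∣ M'`. -/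
theorem exists_auxLevel_eq {p N : ℕ} (hp : p.Prime) (hp2 : p ≠ 2) (hN0 : N ≠ 0)
    (hN : p ∣ N ∧ ¬ p ^ 2 ∣ N) :
    ∃ M' : ℕ, M' ≠ 0 ∧ auxLevel p N = M' * p ∧ ¬ p ∣ M' ∧ 4 ∣ M' := by
  have haux : auxLevel p N = Nat.lcm N 4 := by
    unfold auxLevel
    rw [if_neg hp2]
  have hpl : p ∣ Nat.lcm N 4 := dvd_trans hN.1 (Nat.dvd_lcm_left N 4)
  obtain ⟨M', hM'⟩ := hpl
  have hl0 : Nat.lcm N 4 ≠ 0 := Nat.lcm_ne_zero hN0 (by norm_num)
  have hcop : Nat.Coprime p 4 := by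
    have h2 : Nat.Coprime p 2 := (Nat.coprime_primes hp Nat.prime_two).2 hp2
    have : Nat.Coprime p (2 ^ 2) := Nat.Coprime.pow_right 2 h2
    simpa using this
  refine ⟨M', ?_, ?_, ?_, ?_⟩
  · rintro rfl
    exact hl0 (by rw [hM', mul_zero])
  · rw [haux, hM', mul_comm]
  · intro hpM
    obtain ⟨c, hc⟩ := hpM
    have h1 : p ^ 2 ∣ Nat.lcm N 4 := ⟨c, by rw [hM', hc]; ring⟩
    have h2 : p ^ 2 ∣ N * 4 := dvd_trans h1 (Nat.lcm_dvd_mul N 4)
    have h3 : Nat.Coprime (p ^ 2) 4 := Nat.Coprime.pow_left 2 hcop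
    exact hN.2 (h3.dvd_of_dvd_mul_right h2)
  · have h4 : 4 ∣ p * M' := hM' ▸ Nat.dvd_lcm_right N 4
    exact (hcop.symm).dvd_of_dvd_mul_left h4

/-- the level hypothesis of chapter (e) at the auxiliary level. -/
theorem exists_levelHyp {p N : ℕ} (hp : p.Prime) (hp2 : p ≠ 2) (hN0 : N ≠ 0)
    (hN : p ∣ N ∧ ¬ p ^ 2 ∣ N) {A : ValuationSubring Qb} (hA : A.LiesOverPrime p) :
    ∃ M' : ℕ, M' ≠ 0 ∧ auxLevel p N = M' * p ∧ LevelHyp p M' A := by
  obtain ⟨M', h0, h1, h2, h3⟩ := exists_auxLevel_eq hp hp2 hN0 hN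
  exact ⟨M', h0, h1, ⟨hp, hp2, h2, h3, hA⟩⟩

end Arith

/-! ### (NF) from a coordinate, at any level -/

section Coordinate

variable {A : ValuationSubring Qb} {p : ℕ} {N' : ℕ} [NeZero N']
variable {Fb₁ : Type u₁} {Fb₂ : Type u₂} [Field Fb₁] [Field Fb₂]
  [Algebra (ResidueField A) Fb₁] [Algebra (ResidueField A) Fb₂]
variable {ι : Type u₃} {Nd : NodalData (ResidueField A) Fb₁ Fb₂ ι}

/-- **(NF) from a nodal reduction and an invariant coordinate**, at the level `N'`; Riemann–Roch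
on the generic fibre is discharged from one generator `x`. -/
theorem hasConnOrder_Glevel_of_coordinate [hp : Fact p.Prime] (hA : A.LiesOverPrime p)
    (Nr : NodalRed A ↥(Fbar N') Nd) [Finite ι]
    (hpu₁ : pu Nr.c₁ = puOne A N') (hpu₂ : pu Nr.c₂ = puTwo A N')
    (hComp : Nr.Compat (fun σ : Iner A => gal N' (σ : GQ)))
    (H : LHyp Qbar ↥(Fbar N'))
    (H₁ : LHyp (ResidueField A) Fb₁) (H₂ : LHyp (ResidueField A) Fb₂)
    {x : ↥(Fbar N')} (hx : IsGen Qbar x)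
    (hNS : Nd.NonSpecialExists (genus Qbar ↥(Fbar N')))
    (s : ↥(Fbar N')) (hs₁ : s ∈ Nr.c₁.O) (hs₂ : s ∈ Nr.c₂.O)
    (hx₁ : IsGen (ResidueField A) (Nr.c₁.ρ ⟨s, hs₁⟩))
    [Algebra.IsSeparable (ResidueField A)⟮Nr.c₁.ρ ⟨s, hs₁⟩⟯ Fb₁]
    (hx₂ : IsGen (ResidueField A) (Nr.c₂.ρ ⟨s, hs₂⟩))
    [Algebra.IsSeparable (ResidueField A)⟮Nr.c₂.ρ ⟨s, hs₂⟩⟯ Fb₂]
    (hbr₁ : ∀ i, 0 ≤ (Nd.s1 i).ord (Nr.c₁.ρ ⟨s, hs₁⟩))
    (hbr₂ : ∀ i, 0 ≤ (Nd.s2 i).ord (Nr.c₂.ρ ⟨s, hs₂⟩))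
    (hdeg : ∀ (hs0 : s ≠ 0) (hρ₁ : Nr.c₁.ρ ⟨s, hs₁⟩ ≠ 0) (hρ₂ : Nr.c₂.ρ ⟨s, hs₂⟩ ≠ 0),
      Divisor.degree (poleDiv H hs0) ≤
        Divisor.degree (poleDiv H₁ hρ₁) + Divisor.degree (poleDiv H₂ hρ₂))
    (hγs : ∀ σ : Iner A, gal N' (σ : GQ) • s = s) (m : ℕ) :
    HasConnOrder ↥(W0 A) ↥(Iner A) A ↥(Glevel A p N' m) := by
  have hM : ∀ z : ↥(Glevel A p N' m),
      (Glevel A p N' m).subtype z ∈ formalN Nr p := by
    intro z
    rw [formalN_eq_formalTwo Nr hpu₁ hpu₂ p]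
    exact z.2.1
  exact Fermat.Agent.T33.NodalFinal8.hasConnOrder_of_coordinate Nr hp.out hA H H₁ H₂
    (genus Qbar ↥(Fbar N'))
    (fun D hD => Fermat.Agent.RR.RRMain.finrank_L_of_degree_gt hx D hD)
    (fun D => Fermat.Agent.FF.Bridge5.riemann_inequality_genus hx D)
    hNS s hs₁ hs₂ hx₁ hx₂ hbr₁ hbr₂ hdeg
    (fun σ : Iner A => gal N' (σ : GQ)) (fun σ z => rfl) (fun σ a => rfl) hComp hγs
    (Glevel A p N' m).subtype Subtype.val_injective (fun σ z => rfl) hM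

end Coordinate

/-! ### the concrete coordinate package -/

section Package

variable {p M' : ℕ} [NeZero M'] [NeZero p] {A : ValuationSubring Qb}

set_option linter.checkUnivs false in
/-- **the coordinate package at `(A, M')`**, `N' = M' * p`: the residual list of Programme T on the
route through `NodalFinal8`.  The owners: `Nr`, `fin`, `hComp` chapter (e); `H₁`, `H₂` the good
level `M'`; `hNS` contract (c); `s …` chapter N-F (concrete half). -/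
structure CoordPackage (h : LevelHyp p M' A) : Type (u₃ + 1) where
  /-- the nodes. -/
  ι : Type u₃
  fin : Finite ι
  Nd : NodalData (ResidueField A) (Fb A M') (Fb A M') ι
  /-- the nodal reduction context, with the components of `NodalHalf4`. -/
  Nr : NodalRed A ↥(Fbar (M' * p)) Nd
  hc₁ : Nr.c₁ = c1 h
  hc₂ : Nr.c₂ = c2 h
  hComp : Nr.Compat (Fermat.Agent.T33.NodalCompat1.gamma A (M' * p))
  /-- the special fibre of the good level. -/
  H₁ : LHyp (ResidueField A) (Fb A M')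
  H₂ : LHyp (ResidueField A) (Fb A M')
  /-- contract (c). -/
  hNS : Nd.NonSpecialExists (genus Qbar ↥(Fbar (M' * p)))
  /-- the coordinate. -/
  s : ↥(Fbar (M' * p))
  hs₁ : s ∈ Nr.c₁.O
  hs₂ : s ∈ Nr.c₂.O
  hx₁ : IsGen (ResidueField A) (Nr.c₁.ρ ⟨s, hs₁⟩)
  sep₁ : Algebra.IsSeparable (ResidueField A)⟮Nr.c₁.ρ ⟨s, hs₁⟩⟯ (Fb A M')
  hx₂ : IsGen (ResidueField A) (Nr.c₂.ρ ⟨s, hs₂⟩)
  sep₂ : Algebra.IsSeparable (ResidueField A)⟮Nr.c₂.ρ ⟨s, hs₂⟩⟯ (Fb A M')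
  hbr₁ : ∀ i, 0 ≤ (Nd.s1 i).ord (Nr.c₁.ρ ⟨s, hs₁⟩)
  hbr₂ : ∀ i, 0 ≤ (Nd.s2 i).ord (Nr.c₂.ρ ⟨s, hs₂⟩)
  hdeg : ∀ (H : LHyp Qbar ↥(Fbar (M' * p)))
    (hs0 : s ≠ 0) (hρ₁ : Nr.c₁.ρ ⟨s, hs₁⟩ ≠ 0) (hρ₂ : Nr.c₂.ρ ⟨s, hs₂⟩ ≠ 0),
    Divisor.degree (poleDiv H hs0) ≤
      Divisor.degree (poleDiv H₁ hρ₁) + Divisor.degree (poleDiv H₂ hρ₂)
  hγs : ∀ σ : Iner A, gal (M' * p) (σ : GQ) • s = s

/-- **(NF) from the coordinate package.** -/
theorem hasConnOrder_Glevel_of_package (h : LevelHyp p M' A) (P : CoordPackage.{u₃} h) (m : ℕ) :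
    haveI : Fact p.Prime := ⟨h.prime⟩
    HasConnOrder ↥(W0 A) ↥(Iner A) A ↥(Glevel A p (M' * p) m) := by
  haveI : Fact p.Prime := ⟨h.prime⟩
  haveI := P.fin
  haveI := P.sep₁
  haveI := P.sep₂
  have hx := Fermat.Agent.T33.NodalBase4A.isGen_tA h
  have H : LHyp Qbar ↥(Fbar (M' * p)) := Fermat.Agent.RR.LHypGen.lHyp_of_isGen hx
  have hpu₁ : pu P.Nr.c₁ = puOne A (M' * p) := by
    rw [P.hc₁]
    exact Fermat.Agent.T33.NodalBridge0.pu_c1 h
  have hpu₂ : pu P.Nr.c₂ = puTwo A (M' * p) := by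
    rw [P.hc₂]
    exact Fermat.Agent.T33.NodalBridge0.pu_c2 h
  exact hasConnOrder_Glevel_of_coordinate h.liesOver P.Nr hpu₁ hpu₂ P.hComp H P.H₁ P.H₂ hx
    P.hNS P.s P.hs₁ P.hs₂ P.hx₁ P.hx₂ P.hbr₁ P.hbr₂ (P.hdeg H) P.hγs m

end Package

/-! ### S33 from the coordinate package -/

section Datum

variable {p : ℕ} {N : ℕ} [NeZero N] {S : Finset ℕ}
  {𝒪 : Type} [CommRing 𝒪] [IsDomain 𝒪] [IsDiscreteValuationRing 𝒪]
  [IsAdicComplete (IsLocalRing.maximalIdeal 𝒪) 𝒪]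
  {θ : CuspForm.heckeAlgebra N 2 (↑S : Set ℕ) →+* IsLocalRing.ResidueField 𝒪}
  {T : Type} [CommRing T] [IsLocalRing T] [IsNoetherianRing T]
  [IsAdicComplete (IsLocalRing.maximalIdeal T) T] [Algebra 𝒪 T] [IsLocalHom (algebraMap 𝒪 T)]
  [Module.Finite 𝒪 T] [Module.Free 𝒪 T]

/-- (NF) at a level given up to equality. -/
theorem hasConnOrder_Glevel_of_eq {p M' : ℕ} [NeZero M'] [NeZero p] {A : ValuationSubring Qb}
    (h : LevelHyp p M' A) (P : CoordPackage.{u₃} h) (N' : ℕ) [NeZero N'] (hN' : N' = M' * p)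
    (m : ℕ) :
    haveI : Fact p.Prime := ⟨h.prime⟩
    HasConnOrder ↥(W0 A) ↥(Iner A) A ↥(Glevel A p N' m) := by
  subst hN'
  exact hasConnOrder_Glevel_of_package h P m

/-- **S33 from the coordinate package**: the literal hypothesis list of the frozen statement S33
plus, for every valuation subring `A` of `ℚ̄` and every `M' ≠ 0` with `LevelHyp p M' A`
(`p` odd prime, `p ∤ M'`, `4 ∣ M'`, `A` over `p`), a coordinate package at `(A, M')`. -/
theorem s33_of_coordPackage [Finite (IsLocalRing.ResidueField 𝒪)] [CharZero 𝒪]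
    (hp : p.Prime) (hp2 : p ≠ 2) (hp𝒪 : (p : 𝒪) ∈ IsLocalRing.maximalIdeal 𝒪)
    (hN : p ∣ N ∧ ¬ p ^ 2 ∣ N)
    (hNS : ∀ q : ℕ, q.Prime → q ∣ N → q ∈ S)
    (H : CuspForm.HeckeGaloisRepDatum N (↑S : Set ℕ) 𝒪 θ T)
    (hres : (GaloisRepAdic.ofResidualGaloisRep H.ρ.residual).IsOrdinaryAt p)
    (hPack : ∀ (A : ValuationSubring Qb) (M' : ℕ) [NeZero M'] [NeZero p] (h : LevelHyp p M' A),
      Nonempty (CoordPackage.{u₃} h)) :
    H.ρ.IsOrdinaryAt p := by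
  haveI : Fact p.Prime := ⟨hp⟩
  haveI : NeZero p := ⟨hp.ne_zero⟩
  haveI := Fermat.Agent.RED.LVL.LevelDegree17.neZero_auxLevel p N
  refine s33_of_hasConnOrder hp hp2 hp𝒪 hN hNS H hres ?_
  intro A hA m
  obtain ⟨M', hM'0, hM', h⟩ := exists_levelHyp hp hp2 (NeZero.ne N) hN hA
  haveI : NeZero M' := ⟨hM'0⟩
  obtain ⟨P⟩ := hPack A M' h
  exact hasConnOrder_Glevel_of_eq h P (auxLevel p N) hM' m

end Datum

end Fermat.Agent.T33.S33Wire7
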