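/-
Programme T (S33 via a trichotomy), THE FINAL ASSEMBLY (lead): **S33 with no hypothesis left.**

* `hasConnOrder_level h m` : (NF) at the level `M' * p` for every `h : LevelHyp p M' A` —
  `NodalCoord3.hasConnOrder_Glevel` (helper3) fed with the chapter-(e) package `NodalInst4G`
  (helper4; PUSH by helper1/4/5/9), `LHyp`/Riemann–Roch on the generic fibre from the generator
  `tA h`, `LHyp` on the good level (`NodalInst4C.lHypFb`) and the field (c)
  `NodalInst8.nonSpecialExists` (helper8, with helper6/helper2);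
* `hasConnOrder_level_of_eq` : the same at a level given up to equality;
* **`s33`** : the literal statement of the frozen S33 (`S33Wire7.s33_of_hasConnOrder` and
  `S33Wire7.exists_levelHyp` of helper7).
-/
import Mathlib
import Fermat.Agent.T33.S33Wire7C
import Fermat.Agent.T33.NodalCoord3
import Fermat.Agent.T33.NodalInst4G
import Fermat.Agent.T33.NodalInst8C

set_option autoImplicit false
set_option synthInstance.maxHeartbeats 400000
set_option linter.unusedSectionVars false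
set_option linter.unusedVariables false
set_option linter.style.haveILetI false

noncomputable section

open ModularCurve AlgebraicCurve CuspForm IsLocalRing IntermediateField

namespace Fermat.Agent.T33.S33Final0

open Fermat.Agent.ES.J.TateJZero13 Fermat.Agent.T33.Psi3B Fermat.Agent.T33.Psi3C
  Fermat.Agent.T33.Psi3D Fermat.Agent.T33.Psi3F
  Fermat.Agent.T33.ConnOrd2 Fermat.Agent.FF.InertiaWire8 Fermat.Agent.RED.Interface4
  Fermat.Agent.RR.LSpace Fermat.Agent.RR.Riemann Fermat.Agent.FF.SpecRR1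
  Fermat.Agent.X0 Fermat.Agent.X0.FF
  Fermat.Agent.T33.NodalCtx1 Fermat.Agent.T33.NodalCurve6 Fermat.Agent.T33.NodalIface8
  Fermat.Agent.T33.NodalHalf4 Fermat.Agent.T33.S33Wire7

/-! ### (NF) at the levels `M' * p` -/

section Level

variable {p M' : ℕ} [NeZero M'] [NeZero p] {A : ValuationSubring Qb}

/-- **(NF) at every level `M' * p` with `LevelHyp p M' A`**: no hypothesis left. -/
theorem hasConnOrder_level (h : LevelHyp p M' A) (m : ℕ) :
    haveI : Fact p.Prime := ⟨h.prime⟩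
    HasConnOrder ↥(W0 A) ↥(Iner A) A ↥(Glevel A p (M' * p) m) := by
  haveI : Fact p.Prime := ⟨h.prime⟩
  haveI := Fermat.Agent.T33.NodalInst4E.finite_node h
  have hx := Fermat.Agent.T33.NodalBase4A.isGen_tA h
  exact Fermat.Agent.T33.NodalCoord3.hasConnOrder_Glevel h
    (Fermat.Agent.T33.NodalInst4G.nodalRed h) rfl rfl
    (Fermat.Agent.T33.NodalInst4G.compat h)
    (Fermat.Agent.RR.LHypGen.lHyp_of_isGen hx)
    (Fermat.Agent.T33.NodalInst4C.lHypFb h) (Fermat.Agent.T33.NodalInst4C.lHypFb h)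
    (genus Qbar ↥(Fbar (M' * p)))
    (fun D hD => Fermat.Agent.RR.RRMain.finrank_L_of_degree_gt hx D hD)
    (fun D => Fermat.Agent.FF.Bridge5.riemann_inequality_genus hx D)
    (Fermat.Agent.T33.NodalInst8.nonSpecialExists h
      (Fermat.Agent.T33.NodalInst4G.hpush₁ h) (Fermat.Agent.T33.NodalInst4G.hpush₂ h)) m

/-- (NF) at a level given up to equality. -/
theorem hasConnOrder_level_of_eq (h : LevelHyp p M' A) (N' : ℕ) [NeZero N'] (hN' : N' = M' * p)
    (m : ℕ) :
    haveI : Fact p.Prime := ⟨h.prime⟩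
    HasConnOrder ↥(W0 A) ↥(Iner A) A ↥(Glevel A p N' m) := by
  subst hN'
  exact hasConnOrder_level h m

end Level

/-! ### S33 -/

section Datum

variable {p : ℕ} {N : ℕ} [NeZero N] {S : Finset ℕ}
  {𝒪 : Type} [CommRing 𝒪] [IsDomain 𝒪] [IsDiscreteValuationRing 𝒪]
  [IsAdicComplete (IsLocalRing.maximalIdeal 𝒪) 𝒪]
  {θ : CuspForm.heckeAlgebra N 2 (↑S : Set ℕ) →+* IsLocalRing.ResidueField 𝒪}
  {T : Type} [CommRing T] [IsLocalRing T] [IsNoetherianRing T]
  [IsAdicComplete (IsLocalRing.maximalIdeal T) T] [Algebra 𝒪 T] [IsLocalHom (algebraMap 𝒪 T)]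
  [Module.Finite 𝒪 T] [Module.Free 𝒪 T]

/-- **S33**: the literal statement of `CuspForm.HeckeGaloisRepDatum.isOrdinaryAt_of_primeFactors_subset`. -/
theorem s33 [Finite (IsLocalRing.ResidueField 𝒪)] [CharZero 𝒪]
    (hp : p.Prime) (hp2 : p ≠ 2) (hp𝒪 : (p : 𝒪) ∈ IsLocalRing.maximalIdeal 𝒪)
    (hN : p ∣ N ∧ ¬ p ^ 2 ∣ N)
    (hNS : ∀ q : ℕ, q.Prime → q ∣ N → q ∈ S)
    (H : CuspForm.HeckeGaloisRepDatum N (↑S : Set ℕ) 𝒪 θ T)
    (hres : (GaloisRepAdic.ofResidualGaloisRep H.ρ.residual).IsOrdinaryAt p) :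
    H.ρ.IsOrdinaryAt p := by
  haveI : Fact p.Prime := ⟨hp⟩
  haveI : NeZero p := ⟨hp.ne_zero⟩
  haveI := Fermat.Agent.RED.LVL.LevelDegree17.neZero_auxLevel p N
  refine Fermat.Agent.T33.S33Wire7.s33_of_hasConnOrder hp hp2 hp𝒪 hN hNS H hres ?_
  intro A hA m
  obtain ⟨M', hM'0, hM', h⟩ :=
    Fermat.Agent.T33.S33Wire7.exists_levelHyp hp hp2 (NeZero.ne N) hN hA
  haveI : NeZero M' := ⟨hM'0⟩
  exact hasConnOrder_level_of_eq h (auxLevel p N) hM' m

end Datum

end Fermat.Agent.T33.S33Final0
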