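/-
Programme T (S33), chapter (e) "N34 over Qbar", block [B-1](ii), file A (helper2): **the range of the
reduction of the two charts of the nodal model on the component `C₁`.**

Vocabulary: helper4's `T33/NodalBase4A` (`h : LevelHyp p M' A`, `B0A h = chart ↥A (tA h)`,
`B1A h = chart ↥A (tA h)⁻¹`, `ChartOK`, `red1 h hB = ρ₁ ∘ incl : ↥B →+* Fb A M'`).

* `x1 h : Fb A M'` — the coordinate of the component `C₁`: the Hauptmodul `t̃ = tq κ 4 8` of the good level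
  (`= SpecialGen25.tRes 4 8 M' p …`, `x1_eq_tRes`), with `isGen_x1`, `isSeparable_x1`;
* `red1_tA`, `red1_tA_inv` : `ρ₁ t = x₁`, `ρ₁ t⁻¹ = x₁⁻¹`;
* `alphaA_gauss` … : an `A`-integral function of level `M'` is `A`-integral at level `M' p` with the same
  reduction (`rho1_alphaA_gauss`);
* **`hint1_zero`, `hsurj1_zero`** : `ρ₁ (B0A) = intRing κ x₁` (both inclusions, in the form consumed by
  `NodalPts4A.val₁_exists_of_range`); **`hint1_one`, `hsurj1_one`** : `ρ₁ (B1A) = intRing κ x₁⁻¹`.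
  `⊆` is integrality (`ChartFacts9.isIntegral_red_of_mem_chart`), `⊇` is Program FF's (S2) over `A` at the
  good level (`ChartInst7.exists_gaussA_red_eq`) transported by `alphaA`.
-/
import Mathlib
import Fermat.Agent.T33.NodalBase4A
import Fermat.Agent.FF.ChartInst7C
import Fermat.Agent.ES.N34.ModelN4
import Fermat.Agent.ES.RED.ChartFacts9
import Fermat.Agent.ES.RED.SpecialGen25
import Fermat.Agent.ES.RED.SpecialInv25

set_option autoImplicit false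
set_option linter.unusedSectionVars false
set_option linter.style.haveILetI false
set_option linter.unusedVariables false
set_option synthInstance.maxHeartbeats 400000

noncomputable section

namespace Fermat.Agent.T33.NodalRange2A

open HahnSeries ModularCurve AlgebraicCurve IsLocalRing IntermediateField
open Fermat.Agent.RED.Interface4 Fermat.Agent.ES.RED Fermat.Agent.T33.NodalHalf4
  Fermat.Agent.RED.PUR.ChartGeneric22 Fermat.Agent.RED.BASE.Interface12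
  Fermat.Agent.T33.NodalBase4A Fermat.Agent.X0.FF

variable {p M' : ℕ} [NeZero M'] [NeZero p] {A : ValuationSubring Qbar}

/-- shortcut instance. -/
local instance (priority := high) algebraAFbarN : Algebra ↥A ↥(Fbar (M' * p)) := inferInstance

/-- shortcut instance. -/
local instance (priority := high) algebraAFbarM : Algebra ↥A ↥(Fbar M') := inferInstance

/-- shortcut instance. -/
local instance (priority := high) algebraKFb : Algebra (Setup8.kA A) (Fb A M') := inferInstance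

theorem genBaseFour : TGenBase 4 8 :=
  (Fermat.Agent.RED.BASE.MainCusp12.base_four 4 dvd_rfl).1.genBase

/-- **the coordinate of the component `C₁`**: the Hauptmodul `t̃` of the good level `M'` over `κ`. -/
def x1 (h : LevelHyp p M' A) : Fb A M' :=
  @SpecialGen25.tRes 4 8 M' _ _ p ⟨h.prime⟩ h.not_dvd (tMemM h) genBaseFour A h.liesOver

@[simp] theorem coe_x1 (h : LevelHyp p M' A) :
    ((x1 h : Fb A M') : LaurentSeries (Setup8.kA A)) =
      Fermat.Agent.RED.BASE.EtaQuot12.tq (Setup8.kA A) 4 8 := rfl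

theorem isGen_x1 (h : LevelHyp p M' A) : IsGen (Setup8.kA A) (x1 h) :=
  @SpecialGen25.isGen_tRes 4 8 M' _ _ p ⟨h.prime⟩ h.not_dvd (tMemM h) genBaseFour A h.liesOver

instance isSeparable_x1 (h : LevelHyp p M' A) :
    Algebra.IsSeparable ↥((Setup8.kA A)⟮x1 h⟯) (Fb A M') :=
  @SpecialGen25.isSeparable_tRes 4 8 M' _ _ p ⟨h.prime⟩ h.not_dvd (tMemM h) genBaseFour A h.liesOver

/-! ### `ρ₁ t = x₁` -/

theorem tA_mem_gaussA (h : LevelHyp p M' A) :
    tA h ∈ Setup8.gaussA A (Fbar (M' * p)) :=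
  ⟨Fermat.Agent.RED.BASE.EtaQuot12.tq ↥A 4 8,
    (Fermat.Agent.ES.RED.SpecialInv25.coe_tF 4 8 (M' * p) (tMemN h) A).symm⟩

theorem tA_mem_B0A (h : LevelHyp p M' A) : tA h ∈ B0A h := self_mem_chart _

theorem tA_inv_mem_B1A (h : LevelHyp p M' A) : (tA h)⁻¹ ∈ B1A h := self_mem_chart _

theorem tA_mem_O1 (h : LevelHyp p M' A) : tA h ∈ O1 h := B0A_le_O1 h _ (tA_mem_B0A h)

theorem tA_inv_mem_O1 (h : LevelHyp p M' A) : (tA h)⁻¹ ∈ O1 h := B1A_le_O1 h _ (tA_inv_mem_B1A h)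

/-- **`ρ₁ t = x₁`.** -/
theorem rho1_tA (h : LevelHyp p M' A) : rho1 h ⟨tA h, tA_mem_O1 h⟩ = x1 h := by
  have h1 := rho1_gaussA h ⟨tA h, tA_mem_gaussA h⟩
  refine h1.trans ?_
  apply Subtype.ext
  rw [coe_redN, coe_x1]
  rw [Setup8.redA_eq A (Fbar (M' * p)) _
    (Fermat.Agent.ES.RED.SpecialInv25.coe_tF 4 8 (M' * p) (tMemN h) A).symm]
  exact Fermat.Agent.RED.BASE.EtaQuot12.coeffMap_tq _ _ 4 8

theorem tA_ne_zero (h : LevelHyp p M' A) : tA h ≠ 0 := by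
  intro h0
  have h1 := (isGen_tA h).transcendental
  rw [h0] at h1
  exact h1 (isAlgebraic_zero)

/-- **`ρ₁ t⁻¹ = x₁⁻¹`.** -/
theorem rho1_tA_inv (h : LevelHyp p M' A) : rho1 h ⟨(tA h)⁻¹, tA_inv_mem_O1 h⟩ = (x1 h)⁻¹ := by
  have h1 : (⟨(tA h)⁻¹, tA_inv_mem_O1 h⟩ : ↥(O1 h)) * ⟨tA h, tA_mem_O1 h⟩ = 1 :=
    Subtype.ext (inv_mul_cancel₀ (tA_ne_zero h))
  have h2 := congrArg (rho1 h) h1
  rw [map_mul, map_one, rho1_tA] at h2
  exact eq_inv_of_mul_eq_one_left h2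

/-! ### `alphaA` on `A`-integral functions -/

/-- an `A`-integral function of level `M'` is `A`-integral at level `M' p`. -/
theorem alphaA_mem_gaussA (b : ↥(Setup8.gaussA A (Fbar M'))) :
    alphaA M' p (b : ↥(Fbar M')) ∈ Setup8.gaussA A (Fbar (M' * p)) := by
  obtain ⟨Y, hY⟩ := b.2
  exact ⟨Y, by rw [coe_alphaA]; exact hY⟩

/-- … with the same coefficientwise reduction. -/
theorem redA_alphaA (b : ↥(Setup8.gaussA A (Fbar M'))) :
    Setup8.redA A (Fbar (M' * p)) ⟨alphaA M' p (b : ↥(Fbar M')), alphaA_mem_gaussA b⟩ =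
      Setup8.redA A (Fbar M') b := by
  have hY := Setup8.coeffMap_liftA A (Fbar M') b
  rw [Setup8.redA_eq A (Fbar M') b hY,
    Setup8.redA_eq A (Fbar (M' * p)) ⟨alphaA M' p (b : ↥(Fbar M')), alphaA_mem_gaussA b⟩
      (Y := Setup8.liftA A (Fbar M') b) (by rw [hY]; exact (coe_alphaA _).symm)]

theorem alphaA_mem_O1 (h : LevelHyp p M' A) (b : ↥(Setup8.gaussA A (Fbar M'))) :
    alphaA M' p (b : ↥(Fbar M')) ∈ O1 h :=
  gaussA_mem_O1 h ⟨_, alphaA_mem_gaussA b⟩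

/-- **`ρ₁ (α b) = b̃`** for an `A`-integral function `b` of the good level. -/
theorem coe_rho1_alphaA (h : LevelHyp p M' A) (b : ↥(Setup8.gaussA A (Fbar M'))) :
    ((rho1 h ⟨alphaA M' p (b : ↥(Fbar M')), alphaA_mem_O1 h b⟩ : Fb A M') :
      LaurentSeries (Setup8.kA A)) = Setup8.redA A (Fbar M') b := by
  have h1 := rho1_gaussA h ⟨_, alphaA_mem_gaussA (p := p) b⟩
  have h2 : ((rho1 h ⟨alphaA M' p (b : ↥(Fbar M')), alphaA_mem_O1 h b⟩ : Fb A M') :
      LaurentSeries (Setup8.kA A)) = ((redN h ⟨_, alphaA_mem_gaussA (p := p) b⟩ : Fb A M') :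
      LaurentSeries (Setup8.kA A)) := congrArg Subtype.val h1
  rw [h2, coe_redN, redA_alphaA]

theorem alphaA_commutes (r : ↥A) :
    (alphaA M' p).toRingHom (algebraMap ↥A ↥(Fbar M') r) = algebraMap ↥A ↥(Fbar (M' * p)) r :=
  (alphaA M' p).commutes (r : Qbar)

/-- `α` maps the level-`M'` chart `0` into `B0A`. -/
theorem alphaA_mem_B0A (h : LevelHyp p M' A) {b : ↥(Fbar M')} (hb : b ∈ B0M h) :
    alphaA M' p b ∈ B0A h := by
  refine Fermat.Agent.ES.N34.ModelN4.map_mem_chart (alphaA M' p).toRingHom alphaA_commutes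
    (s := tM h) (t := tA h) ?_ hb
  show alphaA M' p (tM h) ∈ chart ↥A (tA h)
  rw [← tA_eq_alphaA]
  exact self_mem_chart _

/-- `α` maps the level-`M'` chart `1` into `B1A`. -/
theorem alphaA_mem_B1A (h : LevelHyp p M' A) {b : ↥(Fbar M')} (hb : b ∈ B1M h) :
    alphaA M' p b ∈ B1A h := by
  refine Fermat.Agent.ES.N34.ModelN4.map_mem_chart (alphaA M' p).toRingHom alphaA_commutes
    (s := (tM h)⁻¹) (t := (tA h)⁻¹) ?_ hb
  show alphaA M' p (tM h)⁻¹ ∈ chart ↥A (tA h)⁻¹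
  rw [map_inv₀, ← tA_eq_alphaA]
  exact self_mem_chart _

/-! ### the range of `ρ₁` on the two charts -/

theorem adjoin_tA_le_O1 (h : LevelHyp p M' A) :
    ∀ c ∈ Algebra.adjoin ↥A {tA h}, c ∈ O1 h :=
  fun c hc => B0A_le_O1 h c (adjoin_le_chart _ hc)

theorem adjoin_tA_inv_le_O1 (h : LevelHyp p M' A) :
    ∀ c ∈ Algebra.adjoin ↥A {(tA h)⁻¹}, c ∈ O1 h :=
  fun c hc => B1A_le_O1 h c (adjoin_le_chart _ hc)

/-- **`ρ₁ (B0A) ⊆ intRing κ x₁`.** -/
theorem isIntegral_rho1_of_mem_B0A (h : LevelHyp p M' A) {b : ↥(Fbar (M' * p))} (hb : b ∈ B0A h) :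
    IsIntegral (polyRing (Setup8.kA A) (x1 h)) (rho1 h ⟨b, B0A_le_O1 h b hb⟩) := by
  have h1 := Fermat.Agent.ES.RED.ChartFacts9.isIntegral_red_of_mem_chart A (residue ↥A) (O1 h)
    (rho1 h) ⟨tA h, tA_mem_O1 h⟩ (adjoin_tA_le_O1 h) (fun a _ => rho1_const h a)
    ⟨b, B0A_le_O1 h b hb⟩ hb
  rw [rho1_tA] at h1
  exact h1

/-- **`ρ₁ (B1A) ⊆ intRing κ x₁⁻¹`.** -/
theorem isIntegral_rho1_of_mem_B1A (h : LevelHyp p M' A) {b : ↥(Fbar (M' * p))} (hb : b ∈ B1A h) :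
    IsIntegral (polyRing (Setup8.kA A) (x1 h)⁻¹) (rho1 h ⟨b, B1A_le_O1 h b hb⟩) := by
  have h1 := Fermat.Agent.ES.RED.ChartFacts9.isIntegral_red_of_mem_chart A (residue ↥A) (O1 h)
    (rho1 h) ⟨(tA h)⁻¹, tA_inv_mem_O1 h⟩ (adjoin_tA_inv_le_O1 h) (fun a _ => rho1_const h a)
    ⟨b, B1A_le_O1 h b hb⟩ hb
  rw [rho1_tA_inv] at h1
  exact h1

/-- the smoothness targets of Program MODEL at the good level `M'`. -/
theorem smoothTargetsM (h : LevelHyp p M' A) :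
    Fermat.Agent.RED.ModelFinal4.SmoothTargets 4 8 M' A :=
  @Fermat.Agent.FF.ChartInst7.smoothTargets 4 8 M' _ _ p ⟨h.prime⟩ h.not_dvd A h.liesOver
    Fermat.Agent.RED.BASE.Hauptmodul12.baseHyp_four h.four_dvd _
    (Fermat.Agent.RED.BASE.MainCusp12.base_four M' h.four_dvd).2

/-- **`intRing κ x₁ ⊆ ρ₁ (B0A)`** (Program FF's (S2) at the good level, transported by `α`). -/
theorem exists_rho1_eq_of_isIntegral (h : LevelHyp p M' A) (f : Fb A M')
    (hf : IsIntegral (polyRing (Setup8.kA A) (x1 h)) f) :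
    ∃ b : ↥(Fbar (M' * p)), ∃ hb : b ∈ B0A h, rho1 h ⟨b, B0A_le_O1 h b hb⟩ = f := by
  obtain ⟨b₀, hb₀, hred⟩ := @Fermat.Agent.FF.ChartInst7.exists_gaussA_red_eq 4 8 M' _ _ p
    ⟨h.prime⟩ h.not_dvd (tMemM h) genBaseFour A h.liesOver (smoothTargetsM h) f hf
  refine ⟨alphaA M' p (b₀ : ↥(Fbar M')), alphaA_mem_B0A h hb₀, ?_⟩
  apply Subtype.ext
  rw [← hred]
  exact coe_rho1_alphaA h b₀

/-- **`intRing κ x₁⁻¹ ⊆ ρ₁ (B1A)`.** -/
theorem exists_rho1_eq_of_isIntegral_inv (h : LevelHyp p M' A) (f : Fb A M')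
    (hf : IsIntegral (polyRing (Setup8.kA A) (x1 h)⁻¹) f) :
    ∃ b : ↥(Fbar (M' * p)), ∃ hb : b ∈ B1A h, rho1 h ⟨b, B1A_le_O1 h b hb⟩ = f := by
  obtain ⟨b₀, hb₀, hred⟩ := @Fermat.Agent.FF.ChartInst7.exists_gaussA_red_eq_inv 4 8 M' _ _ p
    ⟨h.prime⟩ h.not_dvd (tMemM h) genBaseFour A h.liesOver (smoothTargetsM h) f hf
  refine ⟨alphaA M' p (b₀ : ↥(Fbar M')), alphaA_mem_B1A h hb₀, ?_⟩
  apply Subtype.ext
  rw [← hred]
  exact coe_rho1_alphaA h b₀

/-! ### the consumer form (`NodalPts4A.val₁_exists_of_range` …) -/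

/-- `hint` of `NodalPts4A`, component `C₁`, chart `0`. -/
theorem hint1_zero (h : LevelHyp p M' A) (hB : ChartOK h (B0A h)) (b : ↥(B0A h)) :
    IsIntegral (polyRing (Setup8.kA A) (x1 h)) (red1 h hB b) :=
  isIntegral_rho1_of_mem_B0A h b.2

/-- `hsurj` of `NodalPts4A`, component `C₁`, chart `0`. -/
theorem hsurj1_zero (h : LevelHyp p M' A) (hB : ChartOK h (B0A h)) (f : Fb A M')
    (hf : IsIntegral (polyRing (Setup8.kA A) (x1 h)) f) : ∃ b : ↥(B0A h), red1 h hB b = f := by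
  obtain ⟨b, hb, hρ⟩ := exists_rho1_eq_of_isIntegral h f hf
  exact ⟨⟨b, hb⟩, hρ⟩

/-- `hint` of `NodalPts4A`, component `C₁`, chart `1`. -/
theorem hint1_one (h : LevelHyp p M' A) (hB : ChartOK h (B1A h)) (b : ↥(B1A h)) :
    IsIntegral (polyRing (Setup8.kA A) (x1 h)⁻¹) (red1 h hB b) :=
  isIntegral_rho1_of_mem_B1A h b.2

/-- `hsurj` of `NodalPts4A`, component `C₁`, chart `1`. -/
theorem hsurj1_one (h : LevelHyp p M' A) (hB : ChartOK h (B1A h)) (f : Fb A M')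
    (hf : IsIntegral (polyRing (Setup8.kA A) (x1 h)⁻¹) f) : ∃ b : ↥(B1A h), red1 h hB b = f := by
  obtain ⟨b, hb, hρ⟩ := exists_rho1_eq_of_isIntegral_inv h f hf
  exact ⟨⟨b, hb⟩, hρ⟩

/-- `ρ₁ t = x₁` in the chart form. -/
theorem red1_tA (h : LevelHyp p M' A) (hB : ChartOK h (B0A h)) :
    red1 h hB ⟨tA h, tA_mem_B0A h⟩ = x1 h := rho1_tA h

/-- `ρ₁ t⁻¹ = x₁⁻¹` in the chart form. -/
theorem red1_tA_inv (h : LevelHyp p M' A) (hB : ChartOK h (B1A h)) :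
    red1 h hB ⟨(tA h)⁻¹, tA_inv_mem_B1A h⟩ = (x1 h)⁻¹ := rho1_tA_inv h

end Fermat.Agent.T33.NodalRange2A
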