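/-
T33/KummerRed5 (helper5): Programme T, test chapter, part (II) — the KUMMER FORM of the kernel of
the reduction map on divisor classes (good reduction: `A` a valuation ring of `ℚ̄` above `ℓ ∤ M`,
`Ov`, `ρ` the Gauss valuation ring of `Fbar M` and its residue map, `r` a reduction of places).

For a divisor `D` of `Fbar M`, `n > 0` and a Gauss unit `y ∈ Ov` (`ρ y ≠ 0`) with `div y = n • D`:

  `r_* D` is principal  ↔  `ρ y` is an `n`-th power in the special fibre field

(`kummer_of_principal`, `principal_of_kummer`, `principal_iff_kummer`; constants are `n`-th powers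
because the residue field is algebraically closed).  With the Gauss lemma (`GaussOv1.gauss`):
for ANY `f ≠ 0` with `div f = n • D`,

  `r_* D` principal  ↔  `∃ c ∈ ℚ̄ˣ, c f ∈ Ov ∧ ρ (c f) = g ^ n` for some `g ≠ 0`

(`principal_iff_exists_kummer`), and in terms of a reduction homomorphism `red` with
`red [D] = 0 ↔ r_* D principal` (the `hred` of `RedConcrete5.exists_red_package`):
`red_eq_zero_iff_kummer`.  This is the comparison "`ker Ψ_m^{(1)} = J[p^m] ∩ ker red`" between the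
Kummer-theoretic `Ψ_m` of Programme T (class of `ρ (c f)` modulo constants and `p^m`-th powers) and
FF's `red`, in the case `p ∤ N`.
-/
import Mathlib
import Fermat.Agent.FF.GaussOv1D

set_option autoImplicit false
set_option linter.unusedSectionVars false
set_option synthInstance.maxHeartbeats 400000

noncomputable section

namespace Fermat.Agent.T33.KummerRed5

open HahnSeries ModularCurve AlgebraicCurve IsLocalRing IntermediateField
open Fermat.Agent.RED.Interface4 Fermat.Agent.ES.RED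
open Fermat.Agent.RR.LSpace Fermat.Agent.FF.GaussOv1
open Fermat.Agent.X0.FF

section Abstract

variable {K F : Type*} [Field K] [Field F] [Algebra K F]

/-- two functions with the same divisor differ by a nonzero constant. -/
theorem exists_const_mul_of_ord_eq (H : LHyp K F) {f g : F} (hf : f ≠ 0) (hg : g ≠ 0)
    (h : ∀ v : Place K F, v.ord f = v.ord g) :
    ∃ c : K, c ≠ 0 ∧ f = algebraMap K F c * g := by
  have h1 : ∀ v : Place K F, 0 ≤ v.ord (f * g⁻¹) := by
    intro v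
    rw [v.ord_mul hf (inv_ne_zero hg), v.ord_inv, h v]
    omega
  obtain ⟨c, hc⟩ := eq_algebraMap_of_forall_ord_nonneg H h1
  refine ⟨c, ?_, ?_⟩
  · rintro rfl
    rw [map_zero] at hc
    exact mul_ne_zero hf (inv_ne_zero hg) hc
  · rw [← hc, mul_assoc, inv_mul_cancel₀ hg, mul_one]

/-- in a function field over an algebraically closed field: a function whose divisor is `n` times
the divisor of `g` is an `n`-th power. -/
theorem exists_pow_eq_of_ord_eq [IsAlgClosed K] (H : LHyp K F) {n : ℕ} (hn : 0 < n) {f g : F}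
    (hf : f ≠ 0) (hg : g ≠ 0) (h : ∀ v : Place K F, v.ord f = (n : ℤ) * v.ord g) :
    ∃ g' : F, g' ≠ 0 ∧ f = g' ^ n := by
  have hgn : g ^ n ≠ 0 := pow_ne_zero n hg
  obtain ⟨c, hc0, hc⟩ := exists_const_mul_of_ord_eq H hf hgn (fun v => by
    rw [h v, ← zpow_natCast, v.ord_zpow])
  obtain ⟨b, hb⟩ := IsAlgClosed.exists_pow_nat_eq c hn
  have hb0 : b ≠ 0 := by
    rintro rfl
    rw [zero_pow hn.ne'] at hb
    exact hc0 hb.symm
  refine ⟨algebraMap K F b * g, mul_ne_zero ?_ hg, ?_⟩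
  · rw [Ne, map_eq_zero]; exact hb0
  · rw [mul_pow, ← map_pow, hb, hc]

end Abstract

section Concrete

variable (A : ValuationSubring Qbar) (M : ℕ) [NeZero M] (ℓ : ℕ) [Fact ℓ.Prime]
  (hA : A.LiesOverPrime ℓ) (hℓM : ¬ ℓ ∣ M)

/-- `r_* (n • D) = n • r_* D`, evaluated at a place. -/
theorem mapDomain_nsmul_apply
    (r : Place Qbar ↥(Fbar M) → Place (Setup8.kA A) ↥(modularFunctionFieldFullC (Setup8.kA A) M))
    (n : ℕ) (D : Divisor Qbar ↥(Fbar M)) (Q) :
    Finsupp.mapDomain r (n • D) Q = (n : ℤ) * Finsupp.mapDomain r D Q := by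
  rw [Finsupp.mapDomain_smul, Finsupp.smul_apply, nsmul_eq_mul]

/-- **(⇐)** if the reduction of the Kummer function is an `n`-th power, `r_* D` is principal. -/
theorem principal_of_kummer
    (r : Place Qbar ↥(Fbar M) → Place (Setup8.kA A) ↥(modularFunctionFieldFullC (Setup8.kA A) M))
    (hr : IsPlaceReductionModL A M r) (D : Divisor Qbar ↥(Fbar M)) {n : ℕ} (hn : 0 < n)
    (y : ↥(Ov A M ℓ hA hℓM)) (hy : ρ A M ℓ hA hℓM y ≠ 0)
    (hD : ∀ P, (n • D) P = P.ord (y : ↥(Fbar M)))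
    (g : ↥(modularFunctionFieldFullC (Setup8.kA A) M)) (hg : ρ A M ℓ hA hℓM y = g ^ n) :
    Finsupp.mapDomain r D ∈
      Divisor.principal (K := Setup8.kA A) (F := ↥(modularFunctionFieldFullC (Setup8.kA A) M)) := by
  have hg0 : g ≠ 0 := by
    rintro rfl
    rw [zero_pow hn.ne'] at hg
    exact hy hg
  refine ⟨g, hg0, fun Q => ?_⟩
  have h1 := push A M ℓ hA hℓM r hr y hy (n • D) hD Q
  rw [mapDomain_nsmul_apply, hg, ← zpow_natCast, Q.ord_zpow] at h1
  have hn' : (n : ℤ) ≠ 0 := by exact_mod_cast hn.ne'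
  exact mul_left_cancel₀ hn' h1

/-- **(⇒)** if `r_* D` is principal, the reduction of the Kummer function is an `n`-th power
(the special fibre field has an algebraically closed field of constants). -/
theorem kummer_of_principal
    (HLb : LHyp (Setup8.kA A) ↥(modularFunctionFieldFullC (Setup8.kA A) M))
    (r : Place Qbar ↥(Fbar M) → Place (Setup8.kA A) ↥(modularFunctionFieldFullC (Setup8.kA A) M))
    (hr : IsPlaceReductionModL A M r) (D : Divisor Qbar ↥(Fbar M)) {n : ℕ} (hn : 0 < n)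
    (y : ↥(Ov A M ℓ hA hℓM)) (hy : ρ A M ℓ hA hℓM y ≠ 0)
    (hD : ∀ P, (n • D) P = P.ord (y : ↥(Fbar M)))
    (hprin : Finsupp.mapDomain r D ∈
      Divisor.principal (K := Setup8.kA A) (F := ↥(modularFunctionFieldFullC (Setup8.kA A) M))) :
    ∃ g : ↥(modularFunctionFieldFullC (Setup8.kA A) M), g ≠ 0 ∧ ρ A M ℓ hA hℓM y = g ^ n := by
  have : IsAlgClosed (Setup8.kA A) := Fermat.Agent.ES.RED.SpecialInv25.isAlgClosed_kk A
  obtain ⟨g₀, hg₀, hg₀D⟩ := hprin
  refine exists_pow_eq_of_ord_eq HLb hn hy hg₀ (fun Q => ?_)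
  have h1 := push A M ℓ hA hℓM r hr y hy (n • D) hD Q
  rw [mapDomain_nsmul_apply, hg₀D Q] at h1
  exact h1.symm

/-- **Kummer form of the kernel of reduction**, for a Gauss unit `y` with `div y = n • D`. -/
theorem principal_iff_kummer
    (HLb : LHyp (Setup8.kA A) ↥(modularFunctionFieldFullC (Setup8.kA A) M))
    (r : Place Qbar ↥(Fbar M) → Place (Setup8.kA A) ↥(modularFunctionFieldFullC (Setup8.kA A) M))
    (hr : IsPlaceReductionModL A M r) (D : Divisor Qbar ↥(Fbar M)) {n : ℕ} (hn : 0 < n)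
    (y : ↥(Ov A M ℓ hA hℓM)) (hy : ρ A M ℓ hA hℓM y ≠ 0)
    (hD : ∀ P, (n • D) P = P.ord (y : ↥(Fbar M))) :
    Finsupp.mapDomain r D ∈
        Divisor.principal (K := Setup8.kA A) (F := ↥(modularFunctionFieldFullC (Setup8.kA A) M)) ↔
      ∃ g : ↥(modularFunctionFieldFullC (Setup8.kA A) M), ρ A M ℓ hA hℓM y = g ^ n :=
  ⟨fun h => by
    obtain ⟨g, -, hg⟩ := kummer_of_principal A M ℓ hA hℓM HLb r hr D hn y hy hD h
    exact ⟨g, hg⟩,
   fun ⟨g, hg⟩ => principal_of_kummer A M ℓ hA hℓM r hr D hn y hy hD g hg⟩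

/-- the class of `ρ y` modulo constants and `n`-th powers is trivial iff `ρ y` is an `n`-th power
(constants are `n`-th powers). -/
theorem exists_const_mul_pow_iff {n : ℕ} (hn : 0 < n)
    (x : ↥(modularFunctionFieldFullC (Setup8.kA A) M)) :
    (∃ (a : Setup8.kA A) (g : ↥(modularFunctionFieldFullC (Setup8.kA A) M)),
        x = algebraMap (Setup8.kA A) ↥(modularFunctionFieldFullC (Setup8.kA A) M) a * g ^ n) ↔
      ∃ g : ↥(modularFunctionFieldFullC (Setup8.kA A) M), x = g ^ n := by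
  have : IsAlgClosed (Setup8.kA A) := Fermat.Agent.ES.RED.SpecialInv25.isAlgClosed_kk A
  constructor
  · rintro ⟨a, g, h⟩
    obtain ⟨b, hb⟩ := IsAlgClosed.exists_pow_nat_eq a hn
    exact ⟨algebraMap (Setup8.kA A) ↥(modularFunctionFieldFullC (Setup8.kA A) M) b * g, by
      rw [mul_pow, ← map_pow, hb, h]⟩
  · rintro ⟨g, h⟩
    exact ⟨1, g, by rw [map_one, one_mul, h]⟩

/-- **Kummer form of the kernel of reduction, for an arbitrary Kummer function** `f`
(`div f = n • D`): `r_* D` is principal iff SOME (equivalently: every) Gauss normalisation `c f`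
reduces to an `n`-th power. -/
theorem principal_iff_exists_kummer
    (HLb : LHyp (Setup8.kA A) ↥(modularFunctionFieldFullC (Setup8.kA A) M))
    (r : Place Qbar ↥(Fbar M) → Place (Setup8.kA A) ↥(modularFunctionFieldFullC (Setup8.kA A) M))
    (hr : IsPlaceReductionModL A M r) (D : Divisor Qbar ↥(Fbar M)) {n : ℕ} (hn : 0 < n)
    (f : ↥(Fbar M)) (hf : f ≠ 0) (hD : ∀ P, (n • D) P = P.ord f) :
    Finsupp.mapDomain r D ∈
        Divisor.principal (K := Setup8.kA A) (F := ↥(modularFunctionFieldFullC (Setup8.kA A) M)) ↔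
      ∃ c : Qbar, c ≠ 0 ∧ ∃ h : algebraMap Qbar ↥(Fbar M) c * f ∈ Ov A M ℓ hA hℓM,
        ∃ g : ↥(modularFunctionFieldFullC (Setup8.kA A) M), g ≠ 0 ∧
          ρ A M ℓ hA hℓM ⟨_, h⟩ = g ^ n := by
  have hord : ∀ (c : Qbar), c ≠ 0 → ∀ P : Place Qbar ↥(Fbar M),
      (n • D) P = P.ord (algebraMap Qbar ↥(Fbar M) c * f) := by
    intro c hc P
    have hcF : algebraMap Qbar ↥(Fbar M) c ≠ 0 := by rw [Ne, map_eq_zero]; exact hc
    rw [P.ord_mul hcF hf, ffp_ord_algebraMap, zero_add]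
    exact hD P
  constructor
  · intro hprin
    obtain ⟨c, hc0, hmem, hρ⟩ := gauss A M ℓ hA hℓM f hf
    obtain ⟨g, hg0, hg⟩ := kummer_of_principal A M ℓ hA hℓM HLb r hr D hn ⟨_, hmem⟩ hρ
      (hord c hc0) hprin
    exact ⟨c, hc0, hmem, g, hg0, hg⟩
  · rintro ⟨c, hc0, hmem, g, hg0, hg⟩
    have hρ : ρ A M ℓ hA hℓM ⟨_, hmem⟩ ≠ 0 := by rw [hg]; exact pow_ne_zero n hg0
    exact principal_of_kummer A M ℓ hA hℓM r hr D hn ⟨_, hmem⟩ hρ (hord c hc0) g hg

/-- the same, for EVERY Gauss normalisation. -/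
theorem principal_iff_forall_kummer
    (HLb : LHyp (Setup8.kA A) ↥(modularFunctionFieldFullC (Setup8.kA A) M))
    (r : Place Qbar ↥(Fbar M) → Place (Setup8.kA A) ↥(modularFunctionFieldFullC (Setup8.kA A) M))
    (hr : IsPlaceReductionModL A M r) (D : Divisor Qbar ↥(Fbar M)) {n : ℕ} (hn : 0 < n)
    (f : ↥(Fbar M)) (hf : f ≠ 0) (hD : ∀ P, (n • D) P = P.ord f) :
    Finsupp.mapDomain r D ∈
        Divisor.principal (K := Setup8.kA A) (F := ↥(modularFunctionFieldFullC (Setup8.kA A) M)) ↔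
      ∀ c : Qbar, c ≠ 0 → ∀ h : algebraMap Qbar ↥(Fbar M) c * f ∈ Ov A M ℓ hA hℓM,
        ρ A M ℓ hA hℓM ⟨_, h⟩ ≠ 0 →
        ∃ g : ↥(modularFunctionFieldFullC (Setup8.kA A) M), ρ A M ℓ hA hℓM ⟨_, h⟩ = g ^ n := by
  have hord : ∀ (c : Qbar), c ≠ 0 → ∀ P : Place Qbar ↥(Fbar M),
      (n • D) P = P.ord (algebraMap Qbar ↥(Fbar M) c * f) := by
    intro c hc P
    have hcF : algebraMap Qbar ↥(Fbar M) c ≠ 0 := by rw [Ne, map_eq_zero]; exact hc
    rw [P.ord_mul hcF hf, ffp_ord_algebraMap, zero_add]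
    exact hD P
  constructor
  · intro hprin c hc0 hmem hρ
    obtain ⟨g, -, hg⟩ := kummer_of_principal A M ℓ hA hℓM HLb r hr D hn ⟨_, hmem⟩ hρ
      (hord c hc0) hprin
    exact ⟨g, hg⟩
  · intro hall
    obtain ⟨c, hc0, hmem, hρ⟩ := gauss A M ℓ hA hℓM f hf
    obtain ⟨g, hg⟩ := hall c hc0 hmem hρ
    exact principal_of_kummer A M ℓ hA hℓM r hr D hn ⟨_, hmem⟩ hρ (hord c hc0) g hg

/-- **`ker Ψ_m^{(1)} = ker red`** (good reduction): for a reduction homomorphism `red` with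
`red [D] = 0 ↔ r_* D` principal (`RedConcrete5.exists_red_package`), a degree-zero divisor `D` and a
Kummer function `f` of `n • D`. -/
theorem red_eq_zero_iff_kummer {J' : Type*} [AddCommGroup J']
    (HLb : LHyp (Setup8.kA A) ↥(modularFunctionFieldFullC (Setup8.kA A) M))
    (r : Place Qbar ↥(Fbar M) → Place (Setup8.kA A) ↥(modularFunctionFieldFullC (Setup8.kA A) M))
    (hr : IsPlaceReductionModL A M r)
    (red : Pic0 Qbar ↥(Fbar M) →+ J')
    (hred : ∀ D : Divisor.degZero (K := Qbar) (F := ↥(Fbar M)),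
      red (Pic0.mk D) = 0 ↔
        Finsupp.mapDomain r (D : Divisor Qbar ↥(Fbar M)) ∈
          Divisor.principal (K := Setup8.kA A)
            (F := ↥(modularFunctionFieldFullC (Setup8.kA A) M)))
    (D : Divisor.degZero (K := Qbar) (F := ↥(Fbar M))) {n : ℕ} (hn : 0 < n)
    (f : ↥(Fbar M)) (hf : f ≠ 0)
    (hD : ∀ P, (n • (D : Divisor Qbar ↥(Fbar M))) P = P.ord f) :
    red (Pic0.mk D) = 0 ↔
      ∃ c : Qbar, c ≠ 0 ∧ ∃ h : algebraMap Qbar ↥(Fbar M) c * f ∈ Ov A M ℓ hA hℓM,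
        ∃ g : ↥(modularFunctionFieldFullC (Setup8.kA A) M), g ≠ 0 ∧
          ρ A M ℓ hA hℓM ⟨_, h⟩ = g ^ n :=
  (hred D).trans (principal_iff_exists_kummer A M ℓ hA hℓM HLb r hr D hn f hf hD)

end Concrete

end Fermat.Agent.T33.KummerRed5
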