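/-
T33/KummerRed5B (helper5): Programme T, test chapter, part (II) in the vocabulary of `Psi3B/C/D`
(helper3's Kummer-residue formal part) — **for `p ∤ M` the formal part `formalOne A M p` of
`J₀(M)` is the `p`-power torsion of the kernel of the reduction map**:

* `mem_puOne_iff_ρ` : the principal units `puOne A M` of `Psi3C` are the elements of the Gauss
  valuation ring `Ov` of `GaussOv1B` with `ρ u = 1`;
* `exists_kummer_of_mem_RC` : `f ∈ ℚ̄ˣ · (Fˣ)ⁿ · puOne` ⇒ some Gauss normalisation `c f` reduces to an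
  `n`-th power;
* `mem_RC_of_kummer` : conversely (when `ρ` is surjective, e.g. at a level with a Hauptmodul base);
* `red_eq_zero_of_mem_formalOne` : `formalOne A M p ≤ ker red`;
* `mem_formalOne_of_red_eq_zero` : `p ^ k • y = 0`, `red y = 0` ⇒ `y ∈ formalOne A M p`;
* `mem_formalOne_iff_red` : `y ∈ formalOne A M p ↔ (∃ k, p ^ k • y = 0) ∧ red y = 0`;
* `mem_KtOne_iff_red` : `x ∈ KtOne A M p ↔ ∀ k, red (proj k x) = 0`, i.e. `KtOne = ker T_p(red)`.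
-/
import Mathlib
import Fermat.Agent.T33.KummerRed5
import Fermat.Agent.T33.Psi3D

set_option autoImplicit false
set_option linter.unusedSectionVars false
set_option synthInstance.maxHeartbeats 400000

noncomputable section

namespace Fermat.Agent.T33.KummerRed5B

open HahnSeries ModularCurve AlgebraicCurve IsLocalRing IntermediateField
open Fermat.Agent.RED.Interface4 Fermat.Agent.ES.RED
open Fermat.Agent.RR.LSpace Fermat.Agent.FF.GaussOv1 Fermat.Agent.T33.KummerRed5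
open Fermat.Agent.X0.FF Fermat.Agent.T33.Psi3B Fermat.Agent.T33.Psi3C Fermat.Agent.T33.Psi3D
open Fermat.Agent.ES.J.TateModule13 Fermat.Agent.ES.J.TateJZero13

variable (A : ValuationSubring Qbar) (M : ℕ) [NeZero M] (ℓ : ℕ) [Fact ℓ.Prime]
  (hA : A.LiesOverPrime ℓ) (hℓM : ¬ ℓ ∣ M)

/-- **principal units**: `puOne A M = {u ∈ Ov | ρ u = 1}`. -/
theorem mem_puOne_iff_ρ (u : (↥(Fbar M))ˣ) :
    u ∈ puOne A M ↔ ∃ h : (u : ↥(Fbar M)) ∈ Ov A M ℓ hA hℓM, ρ A M ℓ hA hℓM ⟨_, h⟩ = 1 := by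
  constructor
  · rintro ⟨a, b, hb, hab, h⟩
    have hb' := (redFb_ne_zero_iff A M ℓ hA hℓM b).2 hb
    have hmem : (u : ↥(Fbar M)) ∈ Ov A M ℓ hA hℓM := ⟨a, b, hb', h⟩
    refine ⟨hmem, ?_⟩
    show fracRed _ _ ⟨_, hmem⟩ = 1
    rw [fracRed_eq _ _ ⟨_, hmem⟩ a b hb' h]
    have : redFb A M ℓ hA hℓM a = redFb A M ℓ hA hℓM b := Subtype.ext hab
    rw [this, div_self hb']
  · rintro ⟨hmem, hρ⟩
    obtain ⟨a, b, hb, h, hρ'⟩ := exists_num_den _ _ (⟨_, hmem⟩ : ↥(Ov A M ℓ hA hℓM))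
    have h1 : redFb A M ℓ hA hℓM a / redFb A M ℓ hA hℓM b = 1 := by
      rw [← hρ']; exact hρ
    have h2 : redFb A M ℓ hA hℓM a = redFb A M ℓ hA hℓM b := by
      rw [div_eq_one_iff_eq hb] at h1
      exact h1
    exact ⟨a, b, (redFb_ne_zero_iff A M ℓ hA hℓM b).1 hb, congrArg Subtype.val h2, h⟩

/-- `f ∈ ℚ̄ˣ · (Fˣ)ⁿ · puOne` ⇒ a Gauss normalisation of `f` reduces to an `n`-th power. -/
theorem exists_kummer_of_mem_RC {n : ℕ} {f : (↥(Fbar M))ˣ} (hf : f ∈ RC Qbar (puOne A M) n) :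
    ∃ c : Qbar, c ≠ 0 ∧
      ∃ h : algebraMap Qbar ↥(Fbar M) c * (f : ↥(Fbar M)) ∈ Ov A M ℓ hA hℓM,
        ∃ g : ↥(modularFunctionFieldFullC (Setup8.kA A) M), g ≠ 0 ∧
          ρ A M ℓ hA hℓM ⟨_, h⟩ = g ^ n := by
  obtain ⟨c, w, u, hu, rfl⟩ := hf
  obtain ⟨hmemu, hρu⟩ := (mem_puOne_iff_ρ A M ℓ hA hℓM u).1 hu
  obtain ⟨d, hd0, hmemw, hρw⟩ := gauss A M ℓ hA hℓM (w : ↥(Fbar M)) w.ne_zero
  have hc0 : (c : Qbar) ≠ 0 := c.ne_zero
  -- `c' = d ^ n / c`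
  have hkey : algebraMap Qbar ↥(Fbar M) (d ^ n * (c : Qbar)⁻¹) *
      ((constUnit Qbar c * w ^ n * u : (↥(Fbar M))ˣ) : ↥(Fbar M)) =
      (algebraMap Qbar ↥(Fbar M) d * (w : ↥(Fbar M))) ^ n * (u : ↥(Fbar M)) := by
    have hcF : algebraMap Qbar ↥(Fbar M) (c : Qbar) ≠ 0 := by rw [Ne, _root_.map_eq_zero]; exact hc0
    simp only [Units.val_mul, Units.val_pow_eq_pow_val, coe_constUnit, map_mul, map_pow, map_inv₀]
    field_simp
    ring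
  have hmem : (algebraMap Qbar ↥(Fbar M) d * (w : ↥(Fbar M))) ^ n * (u : ↥(Fbar M)) ∈
      Ov A M ℓ hA hℓM :=
    (Ov A M ℓ hA hℓM).mul_mem ((Ov A M ℓ hA hℓM).pow_mem hmemw n) hmemu
  refine ⟨d ^ n * (c : Qbar)⁻¹, mul_ne_zero (pow_ne_zero n hd0) (inv_ne_zero hc0), ?_,
    ρ A M ℓ hA hℓM ⟨_, hmemw⟩, hρw, ?_⟩
  · rw [hkey]; exact hmem
  · have h1 : (⟨algebraMap Qbar ↥(Fbar M) (d ^ n * (c : Qbar)⁻¹) *
        ((constUnit Qbar c * w ^ n * u : (↥(Fbar M))ˣ) : ↥(Fbar M)), by rw [hkey]; exact hmem⟩ :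
        ↥(Ov A M ℓ hA hℓM)) =
        (⟨_, hmemw⟩ : ↥(Ov A M ℓ hA hℓM)) ^ n * ⟨_, hmemu⟩ := Subtype.ext hkey
    rw [h1, map_mul, map_pow, hρu, mul_one]

/-- conversely, if a Gauss normalisation of `f` reduces to an `n`-th power and `ρ` is surjective,
then `f ∈ ℚ̄ˣ · (Fˣ)ⁿ · puOne`. -/
theorem mem_RC_of_kummer (hsurj : Function.Surjective (ρ A M ℓ hA hℓM)) {n : ℕ}
    (f : (↥(Fbar M))ˣ) (c : Qbar) (hc : c ≠ 0)
    (h : algebraMap Qbar ↥(Fbar M) c * (f : ↥(Fbar M)) ∈ Ov A M ℓ hA hℓM)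
    (g : ↥(modularFunctionFieldFullC (Setup8.kA A) M)) (hg0 : g ≠ 0)
    (hg : ρ A M ℓ hA hℓM ⟨_, h⟩ = g ^ n) : f ∈ RC Qbar (puOne A M) n := by
  obtain ⟨w, hw⟩ := hsurj g
  have hρw : ρ A M ℓ hA hℓM w ≠ 0 := by rw [hw]; exact hg0
  have hw0 : (w : ↥(Fbar M)) ≠ 0 := coe_ne_zero_of_ρ_ne_zero A M ℓ hA hℓM hρw
  have hinv := inv_mem A M ℓ hA hℓM w hρw
  -- `u = c f / w ^ n`
  let winv : ↥(Ov A M ℓ hA hℓM) := ⟨_, hinv⟩
  have hρwinv : ρ A M ℓ hA hℓM winv = (ρ A M ℓ hA hℓM w)⁻¹ := ρ_inv A M ℓ hA hℓM w hρw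
  let uO : ↥(Ov A M ℓ hA hℓM) := ⟨_, h⟩ * winv ^ n
  have hρu : ρ A M ℓ hA hℓM uO = 1 := by
    show ρ A M ℓ hA hℓM (⟨_, h⟩ * winv ^ n) = 1
    rw [map_mul, map_pow, hρwinv, hg, hw, inv_pow, mul_inv_cancel₀ (pow_ne_zero n hg0)]
  have hcF : algebraMap Qbar ↥(Fbar M) c ≠ 0 := by rw [Ne, _root_.map_eq_zero]; exact hc
  have hu0 : (uO : ↥(Fbar M)) ≠ 0 := by
    show algebraMap Qbar ↥(Fbar M) c * (f : ↥(Fbar M)) * ((w : ↥(Fbar M)))⁻¹ ^ n ≠ 0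
    exact mul_ne_zero (mul_ne_zero hcF f.ne_zero) (pow_ne_zero n (inv_ne_zero hw0))
  refine ⟨Units.mk0 c⁻¹ (inv_ne_zero hc), Units.mk0 (w : ↥(Fbar M)) hw0,
    Units.mk0 (uO : ↥(Fbar M)) hu0, ?_, ?_⟩
  · rw [mem_puOne_iff_ρ A M ℓ hA hℓM]
    exact ⟨uO.2, hρu⟩
  · apply Units.ext
    simp only [Units.val_mul, Units.val_pow_eq_pow_val, coe_constUnit, Units.val_mk0, map_inv₀]
    show (f : ↥(Fbar M)) = (algebraMap Qbar ↥(Fbar M) c)⁻¹ * (w : ↥(Fbar M)) ^ n *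
      (algebraMap Qbar ↥(Fbar M) c * (f : ↥(Fbar M)) * ((w : ↥(Fbar M)))⁻¹ ^ n)
    have hwn : (w : ↥(Fbar M)) ^ n ≠ 0 := pow_ne_zero n hw0
    rw [inv_pow]
    field_simp

section Red

variable {J' : Type*} [AddCommGroup J']
  (r : Place Qbar ↥(Fbar M) → Place (Setup8.kA A) ↥(modularFunctionFieldFullC (Setup8.kA A) M))
  (hr : IsPlaceReductionModL A M r)
  (red : JZero M →+ J')
  (hred : ∀ D : Divisor.degZero (K := Qbar) (F := ↥(Fbar M)),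
    red (Pic0.mk D) = 0 ↔
      Finsupp.mapDomain r (D : Divisor Qbar ↥(Fbar M)) ∈
        Divisor.principal (K := Setup8.kA A)
          (F := ↥(modularFunctionFieldFullC (Setup8.kA A) M)))

include hA hℓM hr hred in
/-- **`formalOne ≤ ker red`** (`ℓ ∤ M`; any `p`). -/
theorem red_eq_zero_of_mem_formalOne (p : ℕ) (hp : 0 < p) {y : JZero M}
    (hy : y ∈ formalOne A M p) : red y = 0 := by
  obtain ⟨m, f, D, hf, hD, rfl⟩ := (mem_formalOne_iff A M p).1 hy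
  rw [hred D]
  obtain ⟨c, hc0, hmem, g, hg0, hg⟩ := exists_kummer_of_mem_RC A M ℓ hA hℓM hf
  have hρ : ρ A M ℓ hA hℓM ⟨_, hmem⟩ ≠ 0 := by rw [hg]; exact pow_ne_zero _ hg0
  have hcF : algebraMap Qbar ↥(Fbar M) c ≠ 0 := by rw [Ne, _root_.map_eq_zero]; exact hc0
  refine principal_of_kummer A M ℓ hA hℓM r hr (D : Divisor Qbar ↥(Fbar M)) (pow_pos hp m)
    ⟨_, hmem⟩ hρ (fun P => ?_) g hg
  show ((p ^ m) • (D : Divisor Qbar ↥(Fbar M))) P =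
    P.ord (algebraMap Qbar ↥(Fbar M) c * (f : ↥(Fbar M)))
  rw [P.ord_mul hcF f.ne_zero, ffp_ord_algebraMap, zero_add, ← hD P, Finsupp.smul_apply,
    nsmul_eq_mul]

include hA hℓM hr hred in
/-- **`ker red ∩ J₀(M)[p^∞] ≤ formalOne`** (`ℓ ∤ M`, `ρ` surjective, `LHyp` on the special fibre). -/
theorem mem_formalOne_of_red_eq_zero
    (HLb : LHyp (Setup8.kA A) ↥(modularFunctionFieldFullC (Setup8.kA A) M))
    (hsurj : Function.Surjective (ρ A M ℓ hA hℓM)) (p : ℕ) (hp : 0 < p) {y : JZero M} (k : ℕ)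
    (hk : p ^ k • y = 0) (hy : red y = 0) : y ∈ formalOne A M p := by
  obtain ⟨D, rfl⟩ := Pic0.mk_surjective y
  -- `p ^ k • D` is principal
  have hkD : (p ^ k • (D : Divisor Qbar ↥(Fbar M))) ∈
      Divisor.principal (K := Qbar) (F := ↥(Fbar M)) := by
    have h1 : Pic0.mk (p ^ k • D) = 0 := by
      rw [← hk]; rfl
    have h2 := (QuotientAddGroup.eq_zero_iff _).mp h1
    rw [AddSubgroup.mem_addSubgroupOf] at h2
    simpa using h2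
  obtain ⟨f, hf0, hfD⟩ := hkD
  obtain ⟨c, hc0, hmem, g, hg0, hg⟩ :=
    (principal_iff_exists_kummer A M ℓ hA hℓM HLb r hr (D : Divisor Qbar ↥(Fbar M))
      (pow_pos hp k) f hf0 hfD).1 ((hred D).1 hy)
  refine (mem_formalOne_iff A M p).2 ⟨k, Units.mk0 f hf0, D, ?_, fun v => ?_, rfl⟩
  · exact mem_RC_of_kummer A M ℓ hA hℓM hsurj (Units.mk0 f hf0) c hc0 hmem g hg0 hg
  · rw [Units.val_mk0, ← hfD v, Finsupp.smul_apply, nsmul_eq_mul]

include hA hℓM hr hred in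
/-- **`formalOne A M p = J₀(M)[p^∞] ∩ ker red`** for `ℓ ∤ M` (one takes `p = ℓ`). -/
theorem mem_formalOne_iff_red
    (HLb : LHyp (Setup8.kA A) ↥(modularFunctionFieldFullC (Setup8.kA A) M))
    (hsurj : Function.Surjective (ρ A M ℓ hA hℓM)) (p : ℕ) (hp : 0 < p) (y : JZero M) :
    y ∈ formalOne A M p ↔ (∃ k : ℕ, p ^ k • y = 0) ∧ red y = 0 := by
  constructor
  · intro hy
    refine ⟨?_, red_eq_zero_of_mem_formalOne A M ℓ hA hℓM r hr red hred p hp hy⟩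
    obtain ⟨m, f, D, -, hD, rfl⟩ := (mem_formalOne_iff A M p).1 hy
    refine ⟨m, ?_⟩
    have h1 : p ^ m • Pic0.mk D = Pic0.mk (p ^ m • D) := rfl
    rw [h1]
    refine (QuotientAddGroup.eq_zero_iff _).mpr ?_
    rw [AddSubgroup.mem_addSubgroupOf]
    refine ⟨(f : ↥(Fbar M)), f.ne_zero, fun v => ?_⟩
    rw [← hD v]
    simp
  · rintro ⟨⟨k, hk⟩, hy⟩
    exact mem_formalOne_of_red_eq_zero A M ℓ hA hℓM r hr red hred HLb hsurj p hp k hk hy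

include hA hℓM hr hred in
/-- **`KtOne A M p = ker T_p(red)`** for `p ∤ M`: a sequence of the Tate module lies in helper3's
`ker Ψ^{(1)}` iff all its terms reduce to zero. -/
theorem mem_KtOne_iff_red
    (HLb : LHyp (Setup8.kA A) ↥(modularFunctionFieldFullC (Setup8.kA A) M))
    (hsurj : Function.Surjective (ρ A M ℓ hA hℓM)) (x : TJ ℓ M) :
    x ∈ KtOne A M ℓ ↔ ∀ k, red (proj k x) = 0 := by
  have hp : 0 < ℓ := (Fact.out : ℓ.Prime).pos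
  rw [mem_KtOne_iff]
  constructor
  · intro h k
    exact red_eq_zero_of_mem_formalOne A M ℓ hA hℓM r hr red hred ℓ hp (h k)
  · intro h k
    exact mem_formalOne_of_red_eq_zero A M ℓ hA hℓM r hr red hred HLb hsurj ℓ hp k
      (pow_smul_proj k x) (h k)

end Red

end Fermat.Agent.T33.KummerRed5B
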