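/-
Programme T (S33), chapter (e), block [B-2] (lead): **the centre of a place on a chart**, generic
form.  `K` algebraically closed with a valuation subring `A`, `F / K` a function field with a
generator, `P` a place of `F / K`.

* `compVal hx P : ValuationSubring F` — the COMPOSITE valuation ring
  `{f ∈ O_P | f(P) ∈ A}` of `P` and `A`; `mem_compVal_iff : f ∈ compVal hx P ↔ ∃ a : A, HasValue P f a`;
* `valA hx P : compVal hx P →+* A` — the value map;
* `mem_compVal_of_isIntegral` — the composite valuation ring contains the integral closure of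
  `A[u]` for every `u` in it (`chart ↥A u ≤ compVal`);
* for a chart `C : NodalPlaces1.Chart c₁ c₂` contained in `compVal hx P`:
  `pt hx P C hC : C.Pt`, `centred_pt : C.Centred P (pt hx P C hC)`;
* `centred₀_of_integral`, `centred₁_of_integral` — the fields `centred₀`, `centred₁` of
  `NodalPlaces1.TwoCharts` for charts integral over `A[t]`, `A[t⁻¹]`.
-/
import Mathlib
import Fermat.Agent.T33.NodalPlaces1B
import Fermat.Agent.ES.RED.PlaceValue13
import Fermat.Agent.RED.PUR.ChartGeneric22

set_option autoImplicit false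

open AlgebraicCurve IsLocalRing Polynomial

noncomputable section

namespace Fermat.Agent.T33.NodalCentre0

open Fermat.Agent.X0.FF Fermat.Agent.ES.RED.PlaceValue13 Fermat.Agent.RED.PUR.ChartGeneric22
  Fermat.Agent.T33.NodalCtx1 Fermat.Agent.T33.NodalPlaces1

variable {K : Type*} [Field K] [IsAlgClosed K] {A : ValuationSubring K}
variable {F : Type*} [Field F] [Algebra K F] {x : F} (hx : IsGen K x) (P : Place K F)

/-! ### the composite valuation ring -/

/-- the underlying subring of the composite valuation ring. -/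
def compSub : Subring F :=
  (A.toSubring.comap (valueHom hx P : P.toValuationSubring →+* K)).map
    P.toValuationSubring.subtype

theorem mem_compSub_iff (f : F) :
    f ∈ compSub (A := A) hx P ↔ ∃ h : f ∈ P.toValuationSubring, valueHom hx P ⟨f, h⟩ ∈ A := by
  unfold compSub
  rw [Subring.mem_map]
  constructor
  · rintro ⟨g, hg, rfl⟩
    exact ⟨g.2, hg⟩
  · rintro ⟨h, hf⟩
    exact ⟨⟨f, h⟩, hf, rfl⟩

/-- **the composite valuation ring** `{f ∈ O_P | f(P) ∈ A}`. -/
def compVal : ValuationSubring F :=
  { compSub (A := A) hx P with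
    mem_or_inv_mem' := by
      intro f
      show f ∈ compSub (A := A) hx P ∨ f⁻¹ ∈ compSub (A := A) hx P
      rw [mem_compSub_iff, mem_compSub_iff]
      by_cases h : f ∈ P.toValuationSubring
      · rcases A.mem_or_inv_mem (valueHom hx P ⟨f, h⟩) with hc | hc
        · exact Or.inl ⟨h, hc⟩
        · by_cases h0 : valueHom hx P ⟨f, h⟩ = 0
          · left
            refine ⟨h, ?_⟩
            rw [h0]
            exact A.zero_mem
          · right
            obtain ⟨u, hu⟩ := (valueHom_ne_zero_iff hx P ⟨f, h⟩).mp h0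
            have hmul : (⟨f, h⟩ : P.toValuationSubring) * ((u⁻¹ : (P.toValuationSubring)ˣ) :
                P.toValuationSubring) = 1 := by
              rw [← hu]; exact u.mul_inv
            have hinv : (((u⁻¹ : (P.toValuationSubring)ˣ) : P.toValuationSubring) : F) = f⁻¹ := by
              have h1 := congrArg (Subtype.val) hmul
              have h2 : f * (((u⁻¹ : (P.toValuationSubring)ˣ) : P.toValuationSubring) : F) = 1 := by
                simpa using h1
              exact eq_inv_of_mul_eq_one_right h2
            have hmem : f⁻¹ ∈ P.toValuationSubring := by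
              rw [← hinv]; exact Subtype.mem _
            refine ⟨hmem, ?_⟩
            have hval : valueHom hx P ⟨f⁻¹, hmem⟩ = (valueHom hx P ⟨f, h⟩)⁻¹ := by
              have h3 : (⟨f, h⟩ : P.toValuationSubring) * ⟨f⁻¹, hmem⟩ = 1 := by
                apply Subtype.ext
                show f * f⁻¹ = 1
                have hf0 : f ≠ 0 := by
                  rintro rfl
                  apply h0
                  have : (⟨0, h⟩ : P.toValuationSubring) = 0 := rfl
                  rw [this, map_zero]
                exact mul_inv_cancel₀ hf0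
              have h4 := congrArg (valueHom hx P) h3
              rw [map_mul, map_one] at h4
              exact eq_inv_of_mul_eq_one_right h4
            rw [hval]
            exact hc
      · right
        have hmem : f⁻¹ ∈ P.toValuationSubring :=
          (P.toValuationSubring.mem_or_inv_mem f).resolve_left h
        refine ⟨hmem, ?_⟩
        have h0 : valueHom hx P ⟨f⁻¹, hmem⟩ = 0 := by
          by_contra hne
          obtain ⟨u, hu⟩ := (valueHom_ne_zero_iff hx P ⟨f⁻¹, hmem⟩).mp hne
          apply h
          have hmul : ((u⁻¹ : (P.toValuationSubring)ˣ) : P.toValuationSubring) *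
              (⟨f⁻¹, hmem⟩ : P.toValuationSubring) = 1 := by
            rw [← hu]; exact u.inv_mul
          have h1 := congrArg (Subtype.val) hmul
          have h2 : (((u⁻¹ : (P.toValuationSubring)ˣ) : P.toValuationSubring) : F) * f⁻¹ = 1 := by
            simpa using h1
          have h3 : (((u⁻¹ : (P.toValuationSubring)ˣ) : P.toValuationSubring) : F) = f := by
            have := eq_inv_of_mul_eq_one_left h2
            rwa [inv_inv] at this
          rw [← h3]; exact Subtype.mem _
        rw [h0]
        exact A.zero_mem }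

theorem mem_compVal_iff' (f : F) :
    f ∈ compVal (A := A) hx P ↔ ∃ h : f ∈ P.toValuationSubring, valueHom hx P ⟨f, h⟩ ∈ A :=
  mem_compSub_iff hx P f

theorem compVal_le : ∀ f : F, f ∈ compVal (A := A) hx P → f ∈ P.toValuationSubring := by
  intro f hf
  obtain ⟨h, -⟩ := (mem_compVal_iff' hx P f).mp hf
  exact h

/-- the value of an element of the composite valuation ring, in `K`. -/
def valK : compVal (A := A) hx P →+* K :=
  (valueHom hx P : P.toValuationSubring →+* K).comp
    (Subring.inclusion (S := (compVal (A := A) hx P).toSubring)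
      (T := P.toValuationSubring.toSubring) (fun f hf => compVal_le hx P f hf))

theorem valK_apply (f : compVal (A := A) hx P) :
    valK hx P f = valueHom hx P ⟨(f : F), compVal_le hx P _ f.2⟩ := rfl

theorem valK_mem (f : compVal (A := A) hx P) : valK hx P f ∈ A := by
  obtain ⟨h, hA⟩ := (mem_compVal_iff' hx P (f : F)).mp f.2
  exact hA

/-- **the value map** of the composite valuation ring. -/
def valA : compVal (A := A) hx P →+* A :=
  (valK hx P).codRestrict A (valK_mem hx P)

theorem coe_valA (f : compVal (A := A) hx P) : ((valA hx P f : A) : K) = valK hx P f := rfl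

theorem hasValue_valA (f : compVal (A := A) hx P) :
    HasValue P (f : F) ((valA hx P f : A) : K) := by
  rw [coe_valA, valK_apply]
  exact (valueHom_eq_iff hx P ⟨(f : F), compVal_le hx P _ f.2⟩ _).mp rfl

omit [IsAlgClosed K] in
theorem mem_valuationSubring_of_hasValue {f : F} {a : K} (h : HasValue P f a) :
    f ∈ P.toValuationSubring := by
  rcases h with h | h
  · rw [h]
    exact (algebraMap K P.toValuationSubring a).2
  · have h1 : f - algebraMap K F a ∈ P.toValuationSubring :=
      ffp_mem_of_ord_nonneg P h.le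
    have h2 : algebraMap K F a ∈ P.toValuationSubring := (algebraMap K P.toValuationSubring a).2
    have := P.toValuationSubring.add_mem _ _ h1 h2
    simpa using this

theorem valueHom_eq_of_hasValue {f : F} {a : K} (h : HasValue P f a)
    (hf : f ∈ P.toValuationSubring) : valueHom hx P ⟨f, hf⟩ = a :=
  (valueHom_eq_iff hx P ⟨f, hf⟩ a).mpr h

/-- **membership in the composite valuation ring**: `f` has a value in `A` at `P`. -/
theorem mem_compVal_iff (f : F) :
    f ∈ compVal (A := A) hx P ↔ ∃ a : A, HasValue P f (a : K) := by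
  constructor
  · intro hf
    exact ⟨valA hx P ⟨f, hf⟩, hasValue_valA hx P ⟨f, hf⟩⟩
  · rintro ⟨a, ha⟩
    rw [mem_compVal_iff']
    have hf := mem_valuationSubring_of_hasValue P ha
    refine ⟨hf, ?_⟩
    rw [valueHom_eq_of_hasValue hx P ha hf]
    exact a.2

theorem valA_eq_of_hasValue (f : compVal (A := A) hx P) {a : A} (h : HasValue P (f : F) (a : K)) :
    valA hx P f = a := by
  apply Subtype.ext
  rw [coe_valA, valK_apply]
  exact valueHom_eq_of_hasValue hx P h _

theorem algebraMap_mem_compVal (a : A) : algebraMap K F (a : K) ∈ compVal (A := A) hx P :=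
  (mem_compVal_iff hx P _).mpr ⟨a, hasValue_algebraMap P _⟩

theorem valA_algebraMap (a : A) :
    valA hx P ⟨algebraMap K F (a : K), algebraMap_mem_compVal hx P a⟩ = a :=
  valA_eq_of_hasValue hx P _ (hasValue_algebraMap P _)

/-! ### integral closure -/

/-- a root of a monic polynomial with coefficients in a valuation subring lies in it. -/
theorem mem_of_monic_root (V : ValuationSubring F) (p : F[X]) (hp : p.Monic)
    (hcoeff : ∀ i, p.coeff i ∈ V) (b : F) (hb : p.eval b = 0) : b ∈ V := by
  have hl : p ∈ lifts (algebraMap V F) := by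
    rw [lifts_iff_coeff_lifts]
    intro n
    exact ⟨⟨p.coeff n, hcoeff n⟩, rfl⟩
  obtain ⟨q, hq, -, hqm⟩ := lifts_and_natDegree_eq_and_monic hl hp
  have hint : IsIntegral V b := by
    refine ⟨q, hqm, ?_⟩
    rw [← eval_map, hq, hb]
  obtain ⟨y, hy⟩ := (IsIntegrallyClosed.isIntegral_iff (R := V) (K := F)).mp hint
  rw [← hy]
  exact y.2

section Integral

variable [Algebra A F] [IsScalarTower A K F]

theorem adjoin_le_compVal {u : F} (hu : u ∈ compVal (A := A) hx P) (z : F)
    (hz : z ∈ Algebra.adjoin A {u}) : z ∈ compVal (A := A) hx P := by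
  induction hz using Algebra.adjoin_induction with
  | mem y hy =>
    rw [Set.mem_singleton_iff] at hy
    subst hy
    exact hu
  | algebraMap r =>
    rw [IsScalarTower.algebraMap_apply A K F]
    exact algebraMap_mem_compVal hx P r
  | add y z _ _ hy hz => exact (compVal (A := A) hx P).add_mem _ _ hy hz
  | mul y z _ _ hy hz => exact (compVal (A := A) hx P).mul_mem _ _ hy hz

/-- **the composite valuation ring contains the chart of any of its elements.** -/
theorem mem_compVal_of_mem_chart {u : F} (hu : u ∈ compVal (A := A) hx P) (b : F)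
    (hb : b ∈ chart A u) : b ∈ compVal (A := A) hx P := by
  rw [mem_chart_iff] at hb
  obtain ⟨p, hp, hcoeff, hroot⟩ := (isIntegral_subalgebra_iff (Algebra.adjoin A {u}) b).mp hb
  exact mem_of_monic_root _ p hp (fun i => adjoin_le_compVal hx P hu _ (hcoeff i)) b hroot

end Integral

/-! ### the point of a chart at which a place is centred -/

variable {Fb₁ Fb₂ : Type*} [Field Fb₁] [Field Fb₂]
  [Algebra (ResidueField A) Fb₁] [Algebra (ResidueField A) Fb₂]
  {c₁ : HalfRed A F Fb₁} {c₂ : HalfRed A F Fb₂} (C : Chart c₁ c₂)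

/-- **the centre** of `P` on a chart contained in the composite valuation ring. -/
def pt (hC : ∀ b ∈ C.B, b ∈ compVal (A := A) hx P) : C.Pt :=
  ⟨(residue A).comp ((valA hx P).comp
      (Subring.inclusion (S := C.B) (T := (compVal (A := A) hx P).toSubring) hC)), by
    intro a
    show residue A (valA hx P ⟨algebraMap K F (a : K), _⟩) = residue A a
    rw [valA_eq_of_hasValue hx P _ (hasValue_algebraMap P _)]⟩

theorem pt_apply (hC : ∀ b ∈ C.B, b ∈ compVal (A := A) hx P) (b : C.B) :
    pt hx P C hC b = residue A (valA hx P ⟨(b : F), hC _ b.2⟩) := rfl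

/-- `P` is centred at `pt`. -/
theorem centred_pt (hC : ∀ b ∈ C.B, b ∈ compVal (A := A) hx P) : C.Centred P (pt hx P C hC) := by
  intro b
  exact ⟨valA hx P ⟨(b : F), hC _ b.2⟩, hasValue_valA hx P ⟨(b : F), hC _ b.2⟩, rfl⟩

variable [Algebra A F] [IsScalarTower A K F]

include hx in
/-- **the field `centred₀` of `TwoCharts`** for a chart integral over `A[t]`. -/
theorem centred₀_of_integral (t : F) (hC : ∀ b ∈ C.B, b ∈ chart A t)
    (hP : ∃ a : A, HasValue P t (a : K)) : ∃ χ : C.Pt, C.Centred P χ := by
  have ht : t ∈ compVal (A := A) hx P := (mem_compVal_iff hx P t).mpr hP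
  have hC' : ∀ b ∈ C.B, b ∈ compVal (A := A) hx P :=
    fun b hb => mem_compVal_of_mem_chart hx P ht b (hC b hb)
  exact ⟨pt hx P C hC', centred_pt hx P C hC'⟩

include hx in
/-- **the field `centred₁` of `TwoCharts`** for a chart integral over `A[t⁻¹]`. -/
theorem centred₁_of_integral (t : F) (hC : ∀ b ∈ C.B, b ∈ chart A t⁻¹) (hs : t⁻¹ ∈ C.B)
    (hP : ¬ ∃ a : A, HasValue P t (a : K)) :
    ∃ χ : C.Pt, C.Centred P χ ∧ χ ⟨t⁻¹, hs⟩ = 0 := by
  have ht : t ∉ compVal (A := A) hx P := fun h => hP ((mem_compVal_iff hx P t).mp h)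
  have hs' : t⁻¹ ∈ compVal (A := A) hx P :=
    ((compVal (A := A) hx P).mem_or_inv_mem t).resolve_left ht
  have hC' : ∀ b ∈ C.B, b ∈ compVal (A := A) hx P :=
    fun b hb => mem_compVal_of_mem_chart hx P hs' b (hC b hb)
  refine ⟨pt hx P C hC', centred_pt hx P C hC', ?_⟩
  rw [pt_apply, residue_eq_zero_iff]
  -- the value of `t⁻¹` is not a unit of `A`, else `t` would be in the composite ring
  by_contra hnot
  have hunit : IsUnit (valA hx P ⟨t⁻¹, hC' _ hs⟩) := by
    by_contra hu
    exact hnot ((mem_maximalIdeal _).mpr hu)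
  obtain ⟨u, hu⟩ := hunit
  apply ht
  rw [mem_compVal_iff]
  refine ⟨((u⁻¹ : Aˣ) : A), ?_⟩
  -- `t = (t⁻¹)⁻¹` has the value `u⁻¹`
  have hval := hasValue_valA hx P ⟨t⁻¹, hC' _ hs⟩
  rw [← hu] at hval
  have htin : t⁻¹ ∈ P.toValuationSubring := compVal_le hx P _ hs'
  have hv1 : valueHom hx P ⟨t⁻¹, htin⟩ = ((u : A) : K) := valueHom_eq_of_hasValue hx P hval _
  have hu0 : ((u : A) : K) ≠ 0 := by
    intro h0
    have : (u : A) = 0 := Subtype.ext h0
    exact u.ne_zero this
  have hunitP : IsUnit (⟨t⁻¹, htin⟩ : P.toValuationSubring) :=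
    (valueHom_ne_zero_iff hx P _).mp (by rw [hv1]; exact hu0)
  obtain ⟨w, hw⟩ := hunitP
  have hmul : (⟨t⁻¹, htin⟩ : P.toValuationSubring) *
      ((w⁻¹ : (P.toValuationSubring)ˣ) : P.toValuationSubring) = 1 := by
    rw [← hw]; exact w.mul_inv
  have h1 := congrArg (Subtype.val) hmul
  have h2 : t⁻¹ * (((w⁻¹ : (P.toValuationSubring)ˣ) : P.toValuationSubring) : F) = 1 := by
    simpa using h1
  have h3 : (((w⁻¹ : (P.toValuationSubring)ˣ) : P.toValuationSubring) : F) = t := by
    have := eq_inv_of_mul_eq_one_right h2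
    rwa [inv_inv] at this
  have htP : t ∈ P.toValuationSubring := by
    rw [← h3]; exact Subtype.mem _
  have hv2 : valueHom hx P ⟨t, htP⟩ = (((u⁻¹ : Aˣ) : A) : K) := by
    have h4 : (⟨t⁻¹, htin⟩ : P.toValuationSubring) * ⟨t, htP⟩ = 1 := by
      apply Subtype.ext
      show t⁻¹ * t = 1
      have ht0 : t ≠ 0 := by
        rintro rfl
        exact ht (compVal (A := A) hx P).zero_mem
      exact inv_mul_cancel₀ ht0
    have h5 := congrArg (valueHom hx P) h4
    rw [map_mul, map_one, hv1] at h5
    have h6 : ((u : A) : K) * (((u⁻¹ : Aˣ) : A) : K) = 1 := by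
      have h := u.mul_inv
      calc ((u : A) : K) * (((u⁻¹ : Aˣ) : A) : K)
          = (((u : A) * ((u⁻¹ : Aˣ) : A) : A) : K) := rfl
        _ = ((1 : A) : K) := by rw [h]
        _ = 1 := rfl
    have h7 : valueHom hx P ⟨t, htP⟩ = (((u : A) : K))⁻¹ := eq_inv_of_mul_eq_one_right h5
    rw [h7]
    exact (eq_inv_of_mul_eq_one_right h6).symm
  exact (valueHom_eq_iff hx P ⟨t, htP⟩ _).mp hv2

end Fermat.Agent.T33.NodalCentre0
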