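/-
Programme T (S33), nodal layer, chapter N-F, abstract half (helper8): **the choice of the data** —
port of `FF/ChooseData3.exists_disc_data_full` to a two-component nodal reduction.

Setting: `N : NodalRed A F Nd` with finitely many nodes, `κ = ResidueField A` algebraically closed,
`LHyp` on the three function fields; a coordinate `s ∈ O₁ ⊓ O₂` whose two reductions `s̄_i = ρ_i s`
are separable generators of `Fb_i / κ`, regular at the branches of the nodes; `s` has no pole over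
a point where `s̄_i` is regular (`hreg_i`) and every zero of `s - c` lies over a zero of
`s̄_i - c̄` (`hzz`); a family `γ : Γ → SemilinearAut K F` fixing `s`, and `Γ`-invariant lifts of the
constants (`hTL`); non-special smooth points on the nodal curve (`NodalData.NonSpecialExists`,
contract (c)).

`exists_disc_data` : a `Γ`-invariant parameter `φ ∈ O₁ ⊓ O₂` (a product of `s - c`'s), nonzero
reductions, and pairwise distinct centres `c j` (ALL the zeros of `(ρ₁ φ, ρ₂ φ)` on the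
normalisation, the first `g` non-special on the nodal curve), each a smooth point, a simple zero
of the reduction, without poles of `φ` above (`NodalDisc8B.CentreOK`); every zero of `φ` lies in a
disc, every pole of `φ` has smooth reduction.  These are the inputs of `NodalDisc8B.discModel`,
of the lattice chapter (b2) and of the `θ`-chapter N-E.
-/
import Mathlib
import Fermat.Prelude.Def_AlgebraicCurve_BaseChangeGalois
import Fermat.Agent.FF.NicePlace3
import Fermat.Agent.T33.NodalDisc8B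

set_option autoImplicit false

open AlgebraicCurve IntermediateField IsLocalRing

noncomputable section

namespace Fermat.Agent.T33.NodalChoose8

open Fermat.Agent.X0 Fermat.Agent.X0.FF Fermat.Agent.RR.LSpace Fermat.Agent.FF.SpecRR1
  Fermat.Agent.FF.NicePlace3 Fermat.Agent.FF.GeomIface8 Fermat.Agent.FF.SepFibre3
  Fermat.Agent.ES.RED.SumOrdSep15
  Fermat.Agent.T33.NodalCtx1 Fermat.Agent.T33.NodalCurve6 Fermat.Agent.T33.NodalIface8
  Fermat.Agent.T33.NodalDisc8A Fermat.Agent.T33.NodalDisc8B AlgebraicCurve.SemilinearAut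

/-! ### one component: bad values and bad places -/

section OneSide

variable {κ Fb : Type*} [Field κ] [Field Fb] [Algebra κ Fb] {x : Fb}

/-- the values `c` such that `x - c` has a multiple zero, or a zero at a place of `B`. -/
def badValues (x : Fb) (B : Finset (Place κ Fb)) : Set κ :=
  {c | (∃ v : Place κ Fb, 2 ≤ v.ord (x - algebraMap κ Fb c)) ∨
    ∃ v ∈ B, 0 < v.ord (x - algebraMap κ Fb c)}

theorem finite_badValues (hx : IsGen κ x) [Algebra.IsSeparable κ⟮x⟯ Fb]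
    (B : Finset (Place κ Fb)) : (badValues x B).Finite := by
  classical
  have h1 := finite_ramified_values (K := κ) (F := Fb) hx
  have h2 : (⋃ v ∈ B, {c : κ | 0 < v.ord (x - algebraMap κ Fb c)}).Finite := by
    refine Set.Finite.biUnion B.finite_toSet fun v _ => ?_
    refine Set.Subsingleton.finite ?_
    intro c hc c' hc'
    exact value_unique v hc hc'
  refine (h1.union h2).subset ?_
  rintro c (hc | ⟨v, hv, hc⟩)
  · exact Or.inl hc
  · refine Or.inr ?_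
    simp only [Set.mem_iUnion]
    exact ⟨v, hv, hc⟩

/-- outside a finite set of places, every place is outside `B` and is a zero of `x - c` for some
value `c` outside the finite set `W`. -/
theorem exists_badPlaces [IsAlgClosed κ] (HL : LHyp κ Fb) (hx : IsGen κ x)
    [Algebra.IsSeparable κ⟮x⟯ Fb]
    (W : Finset κ) (B : Finset (Place κ Fb)) :
    ∃ S : Finset (Place κ Fb), ∀ v, v ∉ S →
      v ∉ B ∧ ∃ c : κ, c ∉ W ∧ 0 < v.ord (x - algebraMap κ Fb c) := by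
  classical
  have hpoles := finite_poles_sep hx
  have hfib : ∀ c : κ, {v : Place κ Fb | 0 < v.ord (x - algebraMap κ Fb c)}.Finite :=
    finite_fibre_sep hx
  refine ⟨hpoles.toFinset ∪ W.biUnion (fun c => (hfib c).toFinset) ∪ B, fun v hv => ?_⟩
  rw [Finset.mem_union, not_or, Finset.mem_union, not_or] at hv
  obtain ⟨⟨hv1, hv2⟩, hv3⟩ := hv
  refine ⟨hv3, ?_⟩
  have hnn : 0 ≤ v.ord x := by
    by_contra h
    exact hv1 ((Set.Finite.mem_toFinset _).2 (not_le.1 h))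
  obtain ⟨c, hc⟩ := HL.residue v x (mem_of_ord_nonneg v hnn)
  have hpos : 0 < v.ord (x - algebraMap κ Fb c) := by
    rcases hc with hc | hc
    · exact absurd (sub_eq_zero.2 hc) (hx.sub_algebraMap_ne_zero c)
    · exact hc
  refine ⟨c, fun hcW => ?_, hpos⟩
  apply hv2
  rw [Finset.mem_biUnion]
  exact ⟨c, hcW, (Set.Finite.mem_toFinset _).2 hpos⟩

/-- for a value outside `badValues`, all the zeros of `x - c` are simple and outside `B`. -/
theorem ord_le_one_of_not_bad {B : Finset (Place κ Fb)} {c : κ} (hc : c ∉ badValues x B)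
    (w : Place κ Fb) : w.ord (x - algebraMap κ Fb c) ≤ 1 := by
  by_contra h
  exact hc (Or.inl ⟨w, by omega⟩)

theorem not_mem_of_not_bad {B : Finset (Place κ Fb)} {c : κ} (hc : c ∉ badValues x B)
    {w : Place κ Fb} (hw : 0 < w.ord (x - algebraMap κ Fb c)) : w ∉ B :=
  fun hB => hc (Or.inr ⟨w, hB, hw⟩)

end OneSide

/-! ### the choice -/

section Choice

variable {K : Type*} [Field K] {A : ValuationSubring K} {F : Type*} [Field F] [Algebra K F]
variable {Fb₁ Fb₂ : Type*} [Field Fb₁] [Field Fb₂]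
  [Algebra (ResidueField A) Fb₁] [Algebra (ResidueField A) Fb₂]
variable {ι : Type*} {Nd : NodalData (ResidueField A) Fb₁ Fb₂ ι} (N : NodalRed A F Nd)

/-- `s - c` is invariant for an invariant constant `c`. -/
theorem smul_sub_const {s : F} (γ : SemilinearAut K F) (hγs : γ • s = s) (c : K)
    (hc : baseAut γ c = c) : γ • (s - algebraMap K F c) = s - algebraMap K F c := by
  rw [smul_sub, hγs, SemilinearAut.smul_algebraMap, hc]

/-- the sum of the points of `T1 ⊔ T2`, as a nodal divisor. -/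
theorem sum_nsingle_disjSum (T1 : Finset (Place (ResidueField A) Fb₁))
    (T2 : Finset (Place (ResidueField A) Fb₂)) :
    ∑ Q ∈ T1.disjSum T2, nsingle N Q = npts T1 T2 := by
  rw [Finset.sum_disjSum]
  unfold npts pts
  apply Prod.ext
  · rw [Prod.fst_add, Prod.fst_sum, Prod.fst_sum]
    simp [nsingle]
  · rw [Prod.snd_add, Prod.snd_sum, Prod.snd_sum]
    simp [nsingle]

variable [IsAlgClosed (ResidueField A)]


/-- **chapter N-F, abstract form**: the parameter `φ` and the centres of the residue discs. -/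
theorem exists_disc_data (H₁ : LHyp (ResidueField A) Fb₁) (H₂ : LHyp (ResidueField A) Fb₂)
    [Finite ι] (s : F) (hs₁ : s ∈ N.c₁.O) (hs₂ : s ∈ N.c₂.O)
    (hx₁ : IsGen (ResidueField A) (N.c₁.ρ ⟨s, hs₁⟩))
    [Algebra.IsSeparable (ResidueField A)⟮N.c₁.ρ ⟨s, hs₁⟩⟯ Fb₁]
    (hx₂ : IsGen (ResidueField A) (N.c₂.ρ ⟨s, hs₂⟩))
    [Algebra.IsSeparable (ResidueField A)⟮N.c₂.ρ ⟨s, hs₂⟩⟯ Fb₂]
    (hbr₁ : ∀ i, 0 ≤ (Nd.s1 i).ord (N.c₁.ρ ⟨s, hs₁⟩))
    (hbr₂ : ∀ i, 0 ≤ (Nd.s2 i).ord (N.c₂.ρ ⟨s, hs₂⟩))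
    (hreg₁ : ∀ (P : Place K F) (Q : Place (ResidueField A) Fb₁), N.r₁ P = some Q →
      0 ≤ Q.ord (N.c₁.ρ ⟨s, hs₁⟩) → 0 ≤ P.ord s)
    (hreg₂ : ∀ (P : Place K F) (Q : Place (ResidueField A) Fb₂), N.r₂ P = some Q →
      0 ≤ Q.ord (N.c₂.ρ ⟨s, hs₂⟩) → 0 ≤ P.ord s)
    (hzz : ∀ (c : A) (P : Place K F), 0 < P.ord (s - algebraMap K F (c : K)) →
      (∃ Q, N.r₁ P = some Q ∧
        0 < Q.ord (N.c₁.ρ ⟨s, hs₁⟩ - algebraMap (ResidueField A) Fb₁ (residue A c))) ∨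
      (∃ Q, N.r₂ P = some Q ∧
        0 < Q.ord (N.c₂.ρ ⟨s, hs₂⟩ - algebraMap (ResidueField A) Fb₂ (residue A c))))
    {Γ : Type*} (γ : Γ → SemilinearAut K F) (hγs : ∀ σ : Γ, γ σ • s = s)
    (hTL : ∀ a : ResidueField A, ∃ c : A, residue A c = a ∧
      ∀ σ : Γ, baseAut (γ σ) (c : K) = c)
    (g : ℕ) (hNS : Nd.NonSpecialExists g) :
    ∃ (m : ℕ) (φ : F) (hφ₁ : φ ∈ N.c₁.O) (hφ₂ : φ ∈ N.c₂.O) (c : Fin (g + m) → NPt N),
      N.c₁.ρ ⟨φ, hφ₁⟩ ≠ 0 ∧ N.c₂.ρ ⟨φ, hφ₂⟩ ≠ 0 ∧ Function.Injective c ∧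
      (∀ j, CentreOK N φ hφ₁ hφ₂ (c j)) ∧
      NonSpecialAt N (Nat.le_add_right g m) c ∧
      (∀ σ : Γ, γ σ • φ = φ) ∧
      (∀ P : Place K F, 0 < P.ord φ → ∃ j, RedTo N P (c j)) ∧
      (∀ P : Place K F, P.ord φ < 0 → N.IsSmoothRed P) ∧
      (∀ Q : Place (ResidueField A) Fb₁, 0 < Q.ord (N.c₁.ρ ⟨φ, hφ₁⟩) → ∃ j, c j = Sum.inl Q) ∧
      (∀ Q : Place (ResidueField A) Fb₂, 0 < Q.ord (N.c₂.ρ ⟨φ, hφ₂⟩) → ∃ j, c j = Sum.inr Q) := by
  classical
  have : Fintype ι := Fintype.ofFinite ι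
  set x₁ : Fb₁ := N.c₁.ρ ⟨s, hs₁⟩ with hx₁def
  set x₂ : Fb₂ := N.c₂.ρ ⟨s, hs₂⟩ with hx₂def
  -- branches, bad values, bad places
  set B₁ : Finset (Place (ResidueField A) Fb₁) := Finset.univ.image Nd.s1 with hB₁
  set B₂ : Finset (Place (ResidueField A) Fb₂) := Finset.univ.image Nd.s2 with hB₂
  have hsm₁ : ∀ Q, Q ∉ B₁ → Nd.Smooth1 Q := by
    intro Q hQ i hi
    exact hQ (hi ▸ Finset.mem_image_of_mem _ (Finset.mem_univ i))
  have hsm₂ : ∀ Q, Q ∉ B₂ → Nd.Smooth2 Q := by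
    intro Q hQ i hi
    exact hQ (hi ▸ Finset.mem_image_of_mem _ (Finset.mem_univ i))
  set W : Finset (ResidueField A) :=
    (finite_badValues hx₁ B₁).toFinset ∪ (finite_badValues hx₂ B₂).toFinset with hW
  have hW₁ : ∀ a, a ∉ W → a ∉ badValues x₁ B₁ := by
    intro a ha h
    exact ha (Finset.mem_union_left _ ((Set.Finite.mem_toFinset _).2 h))
  have hW₂ : ∀ a, a ∉ W → a ∉ badValues x₂ B₂ := by
    intro a ha h
    exact ha (Finset.mem_union_right _ ((Set.Finite.mem_toFinset _).2 h))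
  obtain ⟨S₁, hS₁⟩ := exists_badPlaces H₁ hx₁ W B₁
  obtain ⟨S₂, hS₂⟩ := exists_badPlaces H₂ hx₂ W B₂
  -- the non-special points
  obtain ⟨T1, T2, hT1, hT2, hcard, hell⟩ := hNS {v | v ∉ S₁} {v | v ∉ S₂}
    (infinite_compl_finset hx₁ S₁) (infinite_compl_finset hx₂ S₂)
    (fun P hP => hsm₁ P (hS₁ P hP).1) (fun P hP => hsm₂ P (hS₂ P hP).1)
  -- the values at the chosen points
  have hval₁ : ∀ v : Place (ResidueField A) Fb₁, ∃ a : ResidueField A, v ∈ T1 →
      a ∉ W ∧ 0 < v.ord (x₁ - algebraMap (ResidueField A) Fb₁ a) := by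
    intro v
    by_cases hv : v ∈ T1
    · obtain ⟨a, ha⟩ := (hS₁ v (hT1 hv)).2
      exact ⟨a, fun _ => ha⟩
    · exact ⟨0, fun h => absurd h hv⟩
  have hval₂ : ∀ v : Place (ResidueField A) Fb₂, ∃ a : ResidueField A, v ∈ T2 →
      a ∉ W ∧ 0 < v.ord (x₂ - algebraMap (ResidueField A) Fb₂ a) := by
    intro v
    by_cases hv : v ∈ T2
    · obtain ⟨a, ha⟩ := (hS₂ v (hT2 hv)).2
      exact ⟨a, fun _ => ha⟩
    · exact ⟨0, fun h => absurd h hv⟩
  choose val₁ hval₁ using hval₁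
  choose val₂ hval₂ using hval₂
  choose lift hlift_res hlift_inv using hTL
  set V : Finset (ResidueField A) := T1.image val₁ ∪ T2.image val₂ with hV
  have hVW : ∀ a ∈ V, a ∉ W := by
    intro a ha
    rcases Finset.mem_union.1 ha with h | h
    · obtain ⟨v, hv, rfl⟩ := Finset.mem_image.1 h
      exact (hval₁ v hv).1
    · obtain ⟨v, hv, rfl⟩ := Finset.mem_image.1 h
      exact (hval₂ v hv).1
  -- the parameter
  set φ₁ : N.c₁.O := ∏ a ∈ V, (⟨s, hs₁⟩ - HalfRedApi.const N.c₁ (lift a)) with hφ₁def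
  set φ₂ : N.c₂.O := ∏ a ∈ V, (⟨s, hs₂⟩ - HalfRedApi.const N.c₂ (lift a)) with hφ₂def
  set φ : F := ∏ a ∈ V, (s - algebraMap K F (lift a : K)) with hφdef
  have hφF₁ : (φ₁ : F) = φ := by
    rw [hφ₁def, hφdef]
    exact map_prod N.c₁.O.subtype _ _
  have hφF₂ : (φ₂ : F) = φ := by
    rw [hφ₂def, hφdef]
    exact map_prod N.c₂.O.subtype _ _
  have hφm₁ : φ ∈ N.c₁.O := hφF₁ ▸ φ₁.2
  have hφm₂ : φ ∈ N.c₂.O := hφF₂ ▸ φ₂.2
  have hρφ₁ : N.c₁.ρ ⟨φ, hφm₁⟩ = ∏ a ∈ V, (x₁ - algebraMap (ResidueField A) Fb₁ a) := by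
    have : (⟨φ, hφm₁⟩ : N.c₁.O) = φ₁ := Subtype.ext hφF₁.symm
    rw [this, hφ₁def, map_prod]
    refine Finset.prod_congr rfl fun a _ => ?_
    rw [map_sub, HalfRedApi.ρ_const, hlift_res]
  have hρφ₂ : N.c₂.ρ ⟨φ, hφm₂⟩ = ∏ a ∈ V, (x₂ - algebraMap (ResidueField A) Fb₂ a) := by
    have : (⟨φ, hφm₂⟩ : N.c₂.O) = φ₂ := Subtype.ext hφF₂.symm
    rw [this, hφ₂def, map_prod]
    refine Finset.prod_congr rfl fun a _ => ?_
    rw [map_sub, HalfRedApi.ρ_const, hlift_res]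
  have hneb₁ : ∀ a ∈ V, x₁ - algebraMap (ResidueField A) Fb₁ a ≠ 0 :=
    fun a _ => sub_algebraMap_ne_zero' hx₁.transcendental a
  have hneb₂ : ∀ a ∈ V, x₂ - algebraMap (ResidueField A) Fb₂ a ≠ 0 :=
    fun a _ => sub_algebraMap_ne_zero' hx₂.transcendental a
  have hne : ∀ a ∈ V, s - algebraMap K F (lift a : K) ≠ 0 := by
    intro a ha h0
    apply hneb₁ a ha
    have : (⟨s, hs₁⟩ - HalfRedApi.const N.c₁ (lift a) : N.c₁.O) = 0 := Subtype.ext h0
    have h2 := congrArg N.c₁.ρ this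
    rwa [map_sub, HalfRedApi.ρ_const, hlift_res, map_zero] at h2
  -- the zeros of the reductions
  have hfib₁ : ∀ a : ResidueField A, {v : Place (ResidueField A) Fb₁ |
      0 < v.ord (x₁ - algebraMap (ResidueField A) Fb₁ a)}.Finite := finite_fibre_sep hx₁
  have hfib₂ : ∀ a : ResidueField A, {v : Place (ResidueField A) Fb₂ |
      0 < v.ord (x₂ - algebraMap (ResidueField A) Fb₂ a)}.Finite := finite_fibre_sep hx₂
  set Z1 : Finset (Place (ResidueField A) Fb₁) := V.biUnion fun a => (hfib₁ a).toFinset with hZ1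
  set Z2 : Finset (Place (ResidueField A) Fb₂) := V.biUnion fun a => (hfib₂ a).toFinset with hZ2
  have hmemZ1 : ∀ w, w ∈ Z1 ↔ ∃ a ∈ V, 0 < w.ord (x₁ - algebraMap (ResidueField A) Fb₁ a) := by
    intro w
    rw [hZ1, Finset.mem_biUnion]
    exact exists_congr fun a => and_congr Iff.rfl (Set.Finite.mem_toFinset _)
  have hmemZ2 : ∀ w, w ∈ Z2 ↔ ∃ a ∈ V, 0 < w.ord (x₂ - algebraMap (ResidueField A) Fb₂ a) := by
    intro w
    rw [hZ2, Finset.mem_biUnion]
    exact exists_congr fun a => and_congr Iff.rfl (Set.Finite.mem_toFinset _)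
  have hTZ1 : T1 ⊆ Z1 := fun v hv =>
    (hmemZ1 v).2 ⟨val₁ v, Finset.mem_union_left _ (Finset.mem_image_of_mem val₁ hv), (hval₁ v hv).2⟩
  have hTZ2 : T2 ⊆ Z2 := fun v hv =>
    (hmemZ2 v).2 ⟨val₂ v, Finset.mem_union_right _ (Finset.mem_image_of_mem val₂ hv), (hval₂ v hv).2⟩
  have hZ1ord : ∀ w ∈ Z1, w.ord (N.c₁.ρ ⟨φ, hφm₁⟩) = 1 := by
    intro w hw
    obtain ⟨a, ha, hpos⟩ := (hmemZ1 w).1 hw
    rw [hρφ₁]
    refine ord_prod_sub_eq_one w V hneb₁ ha ?_
    have := ord_le_one_of_not_bad (hW₁ a (hVW a ha)) w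
    omega
  have hZ2ord : ∀ w ∈ Z2, w.ord (N.c₂.ρ ⟨φ, hφm₂⟩) = 1 := by
    intro w hw
    obtain ⟨a, ha, hpos⟩ := (hmemZ2 w).1 hw
    rw [hρφ₂]
    refine ord_prod_sub_eq_one w V hneb₂ ha ?_
    have := ord_le_one_of_not_bad (hW₂ a (hVW a ha)) w
    omega
  have hZ1sm : ∀ w ∈ Z1, Nd.Smooth1 w := by
    intro w hw
    obtain ⟨a, ha, hpos⟩ := (hmemZ1 w).1 hw
    exact hsm₁ w (not_mem_of_not_bad (hW₁ a (hVW a ha)) hpos)
  have hZ2sm : ∀ w ∈ Z2, Nd.Smooth2 w := by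
    intro w hw
    obtain ⟨a, ha, hpos⟩ := (hmemZ2 w).1 hw
    exact hsm₂ w (not_mem_of_not_bad (hW₂ a (hVW a ha)) hpos)
  have hZ1zero : ∀ w : Place (ResidueField A) Fb₁, 0 < w.ord (N.c₁.ρ ⟨φ, hφm₁⟩) → w ∈ Z1 := by
    intro w hw
    rw [hρφ₁] at hw
    obtain ⟨a, ha, hpos⟩ := exists_ord_pos_of_ord_prod_pos w V _ hneb₁ hw
    exact (hmemZ1 w).2 ⟨a, ha, hpos⟩
  have hZ2zero : ∀ w : Place (ResidueField A) Fb₂, 0 < w.ord (N.c₂.ρ ⟨φ, hφm₂⟩) → w ∈ Z2 := by
    intro w hw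
    rw [hρφ₂] at hw
    obtain ⟨a, ha, hpos⟩ := exists_ord_pos_of_ord_prod_pos w V _ hneb₂ hw
    exact (hmemZ2 w).2 ⟨a, ha, hpos⟩
  have hZ1reg : ∀ w ∈ Z1, 0 ≤ w.ord x₁ := by
    intro w hw
    obtain ⟨a, ha, hpos⟩ := (hmemZ1 w).1 hw
    exact ord_nonneg_of_ord_sub_pos w hpos
  have hZ2reg : ∀ w ∈ Z2, 0 ≤ w.ord x₂ := by
    intro w hw
    obtain ⟨a, ha, hpos⟩ := (hmemZ2 w).1 hw
    exact ord_nonneg_of_ord_sub_pos w hpos
  have hφnn : ∀ P : Place K F, 0 ≤ P.ord s → 0 ≤ P.ord φ := by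
    intro P hP
    rw [hφdef, ord_finset_prod P V _ hne]
    exact Finset.sum_nonneg fun a ha => ord_sub_nonneg P _ (hne a ha) hP
  -- enumeration of the zeros, the chosen points first
  set TT : Finset (NPt N) := T1.disjSum T2 with hTT
  set ZZ : Finset (NPt N) := Z1.disjSum Z2 with hZZ
  have hTTcard : TT.card = g := by rw [hTT, Finset.card_disjSum, hcard]
  have hTZ : TT ⊆ ZZ := by
    intro Q hQ
    rcases Q with Q | Q
    · exact Finset.inl_mem_disjSum.2 (hTZ1 (Finset.inl_mem_disjSum.1 hQ))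
    · exact Finset.inr_mem_disjSum.2 (hTZ2 (Finset.inr_mem_disjSum.1 hQ))
  set m : ℕ := (ZZ \ TT).card with hm
  let eT : Fin g ≃ TT := (TT.equivFinOfCardEq hTTcard).symm
  let eR : Fin m ≃ (ZZ \ TT : Finset (NPt N)) := ((ZZ \ TT).equivFinOfCardEq rfl).symm
  let PbT : Fin g → NPt N := fun j => (eT j : NPt N)
  let PbR : Fin m → NPt N := fun j => (eR j : NPt N)
  let c : Fin (g + m) → NPt N := fun j => Sum.elim PbT PbR (finSumFinEquiv.symm j)
  have hPbT : ∀ j, PbT j ∈ TT := fun j => (eT j).2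
  have hPbR : ∀ j, PbR j ∈ ZZ \ TT := fun j => (eR j).2
  have hcZ : ∀ j, c j ∈ ZZ := by
    intro j
    show Sum.elim PbT PbR (finSumFinEquiv.symm j) ∈ ZZ
    rcases finSumFinEquiv.symm j with i | i
    · exact hTZ (hPbT i)
    · exact (Finset.mem_sdiff.1 (hPbR i)).1
  have hcsurj : ∀ w ∈ ZZ, ∃ j, c j = w := by
    intro w hw
    by_cases hwT : w ∈ TT
    · refine ⟨finSumFinEquiv (Sum.inl (eT.symm ⟨w, hwT⟩)), ?_⟩
      show Sum.elim PbT PbR (finSumFinEquiv.symm (finSumFinEquiv _)) = w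
      rw [Equiv.symm_apply_apply]
      show ((eT (eT.symm ⟨w, hwT⟩) : TT) : NPt N) = w
      rw [Equiv.apply_symm_apply]
    · have hwR : w ∈ ZZ \ TT := Finset.mem_sdiff.2 ⟨hw, hwT⟩
      refine ⟨finSumFinEquiv (Sum.inr (eR.symm ⟨w, hwR⟩)), ?_⟩
      show Sum.elim PbT PbR (finSumFinEquiv.symm (finSumFinEquiv _)) = w
      rw [Equiv.symm_apply_apply]
      show ((eR (eR.symm ⟨w, hwR⟩) : (ZZ \ TT : Finset _)) : NPt N) = w
      rw [Equiv.apply_symm_apply]
  have hccast : ∀ j : Fin g, c (Fin.castLE (Nat.le_add_right g m) j) = PbT j := by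
    intro j
    show Sum.elim PbT PbR (finSumFinEquiv.symm (Fin.castAdd m j)) = PbT j
    rw [finSumFinEquiv_symm_apply_castAdd]
    rfl
  refine ⟨m, φ, hφm₁, hφm₂, c, ?_, ?_, ?_, ?_, ?_, ?_, ?_, ?_, ?_, ?_⟩
  · rw [hρφ₁]
    exact Finset.prod_ne_zero_iff.2 hneb₁
  · rw [hρφ₂]
    exact Finset.prod_ne_zero_iff.2 hneb₂
  · have hinjE : Function.Injective (Sum.elim PbT PbR) := by
      refine Function.Injective.sumElim ?_ ?_ ?_
      · intro j j' h
        exact eT.injective (Subtype.ext h)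
      · intro j j' h
        exact eR.injective (Subtype.ext h)
      · intro j j' h
        have h1 := hPbT j
        have h2 := (Finset.mem_sdiff.1 (hPbR j')).2
        rw [h] at h1
        exact h2 h1
    exact hinjE.comp finSumFinEquiv.symm.injective
  · intro j
    have hj := hcZ j
    generalize c j = Q at hj
    rcases Q with Q | Q
    · have hQ : Q ∈ Z1 := Finset.inl_mem_disjSum.1 hj
      exact ⟨hZ1sm Q hQ, hZ1ord Q hQ, fun P hP => hφnn P (hreg₁ P Q hP (hZ1reg Q hQ))⟩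
    · have hQ : Q ∈ Z2 := Finset.inr_mem_disjSum.1 hj
      exact ⟨hZ2sm Q hQ, hZ2ord Q hQ, fun P hP => hφnn P (hreg₂ P Q hP (hZ2reg Q hQ))⟩
  · unfold NonSpecialAt centreDiv
    have hsum : ∑ j : Fin g, nsingle N (c (Fin.castLE (Nat.le_add_right g m) j)) =
        npts T1 T2 := by
      rw [← sum_nsingle_disjSum N T1 T2, ← Finset.sum_coe_sort (T1.disjSum T2)]
      refine Fintype.sum_equiv eT _ _ fun j => ?_
      rw [hccast]
    rw [hsum, hell]
  · intro σ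
    rw [hφdef, SemilinearAut.smul_def, map_prod]
    refine Finset.prod_congr rfl fun a _ => ?_
    rw [← SemilinearAut.smul_def]
    exact smul_sub_const (γ σ) (hγs σ) _ (hlift_inv a σ)
  · intro P hP
    rw [hφdef] at hP
    obtain ⟨a, ha, hpos⟩ := exists_ord_pos_of_ord_prod_pos P V _ hne hP
    rcases hzz (lift a) P hpos with ⟨Q, hQ, h1⟩ | ⟨Q, hQ, h1⟩
    · rw [hlift_res] at h1
      obtain ⟨j, hj⟩ := hcsurj (Sum.inl Q) (Finset.inl_mem_disjSum.2 ((hmemZ1 Q).2 ⟨a, ha, h1⟩))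
      exact ⟨j, by rw [hj]; exact hQ⟩
    · rw [hlift_res] at h1
      obtain ⟨j, hj⟩ := hcsurj (Sum.inr Q) (Finset.inr_mem_disjSum.2 ((hmemZ2 Q).2 ⟨a, ha, h1⟩))
      exact ⟨j, by rw [hj]; exact hQ⟩
  · intro P hP
    have hPs : P.ord s < 0 := by
      by_contra h
      exact absurd (hφnn P (not_lt.1 h)) (not_le.2 hP)
    rcases N.total P with h | h
    · obtain ⟨Q, hQ⟩ := Option.ne_none_iff_exists'.1 h
      refine Or.inl ⟨Q, hQ, fun i hi => ?_⟩
      have := hreg₁ P Q hQ (hi ▸ hbr₁ i)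
      omega
    · obtain ⟨Q, hQ⟩ := Option.ne_none_iff_exists'.1 h
      refine Or.inr ⟨Q, hQ, fun i hi => ?_⟩
      have := hreg₂ P Q hQ (hi ▸ hbr₂ i)
      omega
  · intro Q hQ
    exact hcsurj (Sum.inl Q) (Finset.inl_mem_disjSum.2 (hZ1zero Q hQ))
  · intro Q hQ
    exact hcsurj (Sum.inr Q) (Finset.inr_mem_disjSum.2 (hZ2zero Q hQ))

end Choice

end Fermat.Agent.T33.NodalChoose8
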