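/-
Programme T (S33), nodal layer, chapter N-F (helper8): **poles and zeros reduce to poles and zeros
when the pole degree does not drop** — the nodal analogue of `FF/PolePres1` (`pole_of_pole`,
`zero_of_zero`), for a two-component nodal reduction where the push-forward formula is available
at the SMOOTH points only.

`y ∈ O₁ ⊓ O₂` with nonzero reductions `ȳ_i`, all the poles of `ȳ_i` at smooth points, and
`deg (y)_∞ ≤ deg (ȳ₁)_∞ + deg (ȳ₂)_∞`.  Then every pole of `y` reduces to a pole of `ȳ₁` or of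
`ȳ₂` (`exists_pole_of_pole`); applied to `y⁻¹`: if all the zeros of `ȳ_i` are smooth points,
every zero of `y` reduces to a zero of `ȳ₁` or `ȳ₂` (`exists_zero_of_zero`).
Consequences for a coordinate `s` (`hreg₁_of_hdeg`, `hreg₂_of_hdeg`, `hzz_of_hdeg`): the hypotheses
`hreg_i`, `hzz` of chapter N-F from `deg (s)_∞ ≤ deg (s̄₁)_∞ + deg (s̄₂)_∞`.
-/
import Mathlib
import Fermat.Agent.FF.PolePres1
import Fermat.Agent.T33.NodalDisc8A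

set_option autoImplicit false

open AlgebraicCurve IsLocalRing

namespace Fermat.Agent.T33.NodalDeg8

open Fermat.Agent.X0.FF Fermat.Agent.RR.LSpace Fermat.Agent.RR.Riemann Fermat.Agent.FF.PolePres1
  Fermat.Agent.T33.NodalCtx1 Fermat.Agent.T33.NodalCurve6 Fermat.Agent.T33.NodalDisc8A

/-! ### a counting lemma -/

/-- if the negative part of `D` on `S` is bounded by the total mass `∑ e Q` of pairwise disjoint
fibres `fib Q ⊆ S` with `∑_{fib Q} D = - e Q`, then `D ≥ 0` outside the fibres. -/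
theorem nonneg_of_sum_le {α β : Type*} [DecidableEq α] (S : Finset α) (D : α → ℤ)
    (R : Finset β) (fib : β → Finset α) (e : β → ℤ)
    (hsub : ∀ Q ∈ R, fib Q ⊆ S) (hdisj : (R : Set β).PairwiseDisjoint fib)
    (hsum : ∀ Q ∈ R, ∑ P ∈ fib Q, D P = - e Q)
    (hle : ∑ P ∈ S, max 0 (-(D P)) ≤ ∑ Q ∈ R, e Q)
    (P₀ : α) (hP₀ : P₀ ∈ S) (hout : ∀ Q ∈ R, P₀ ∉ fib Q) : 0 ≤ D P₀ := by
  by_contra hneg
  push Not at hneg
  set U : Finset α := R.biUnion fib with hU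
  have hPU : P₀ ∉ U := by
    rw [hU, Finset.mem_biUnion]
    rintro ⟨Q, hQ, hP⟩
    exact hout Q hQ hP
  have hUS : insert P₀ U ⊆ S := by
    intro P hP
    rcases Finset.mem_insert.1 hP with rfl | hP
    · exact hP₀
    · obtain ⟨Q, hQ, hPQ⟩ := Finset.mem_biUnion.1 hP
      exact hsub Q hQ hPQ
  have h1 : ∑ P ∈ U, max 0 (-(D P)) = ∑ Q ∈ R, ∑ P ∈ fib Q, max 0 (-(D P)) :=
    Finset.sum_biUnion hdisj
  have h2 : ∑ Q ∈ R, e Q ≤ ∑ Q ∈ R, ∑ P ∈ fib Q, max 0 (-(D P)) := by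
    refine Finset.sum_le_sum fun Q hQ => ?_
    have h3 : ∑ P ∈ fib Q, -(D P) ≤ ∑ P ∈ fib Q, max 0 (-(D P)) :=
      Finset.sum_le_sum fun P _ => le_max_right _ _
    rw [Finset.sum_neg_distrib, hsum Q hQ, neg_neg] at h3
    exact h3
  have h4 : ∑ P ∈ insert P₀ U, max 0 (-(D P)) ≤ ∑ P ∈ S, max 0 (-(D P)) :=
    Finset.sum_le_sum_of_subset_of_nonneg hUS fun P _ _ => le_max_left _ _
  rw [Finset.sum_insert hPU, h1] at h4
  have h5 : 0 < max 0 (-(D P₀)) := lt_max_of_lt_right (by omega)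
  omega

variable {K F : Type*} [Field K] [Field F] [Algebra K F]

/-- the degree of the pole divisor, as a sum over the support of the divisor. -/
theorem degree_poleDiv_eq_sum (H : LHyp K F) {f : F} (hf : f ≠ 0) :
    Divisor.degree (poleDiv H hf) = ∑ v ∈ (divOf H hf).support, max 0 (-(v.ord f)) := by
  classical
  rw [degree_eq_sum H]
  have hsub : (poleDiv H hf).support ⊆ (divOf H hf).support := by
    unfold poleDiv
    exact Finsupp.support_mapRange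
  rw [Finset.sum_subset hsub (fun v _ hv => Finsupp.notMem_support_iff.1 hv)]
  exact Finset.sum_congr rfl fun v _ => poleDiv_apply H hf v

/-- the degree of the pole divisor, as the sum of the pole orders. -/
theorem degree_poleDiv_eq_sum_neg (H : LHyp K F) {f : F} (hf : f ≠ 0) :
    Divisor.degree (poleDiv H hf) = ∑ v ∈ (poleDiv H hf).support, -(v.ord f) := by
  rw [degree_eq_sum H]
  refine Finset.sum_congr rfl fun v hv => ?_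
  rw [Finsupp.mem_support_iff, poleDiv_apply] at hv
  rw [poleDiv_apply]
  rcases le_total (-(v.ord f)) 0 with h | h
  · exact absurd (max_eq_left h) hv
  · exact max_eq_right h

theorem mem_support_poleDiv (H : LHyp K F) {f : F} (hf : f ≠ 0) (v : Place K F) :
    v ∈ (poleDiv H hf).support ↔ v.ord f < 0 := by
  rw [Finsupp.mem_support_iff, poleDiv_apply]
  constructor
  · intro h
    by_contra hcon
    exact h (max_eq_left (by omega))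
  · intro h
    rw [max_eq_right (by omega)]
    omega

theorem poleDiv_congr (H : LHyp K F) {f f' : F} (hf : f ≠ 0) (hf' : f' ≠ 0) (h : f = f') :
    poleDiv H hf = poleDiv H hf' := by
  subst h
  rfl

/-! ### poles reduce to poles -/

section Nodal

variable {A : ValuationSubring K}
variable {Fb₁ Fb₂ : Type*} [Field Fb₁] [Field Fb₂]
  [Algebra (ResidueField A) Fb₁] [Algebra (ResidueField A) Fb₂]
variable {ι : Type*} {Nd : NodalData (ResidueField A) Fb₁ Fb₂ ι} (N : NodalRed A F Nd)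
variable (H : LHyp K F) (H₁ : LHyp (ResidueField A) Fb₁) (H₂ : LHyp (ResidueField A) Fb₂)

/-- **poles reduce to poles.** -/
theorem exists_pole_of_pole (y : F) (h₁ : y ∈ N.c₁.O) (h₂ : y ∈ N.c₂.O)
    (hρ₁ : N.c₁.ρ ⟨y, h₁⟩ ≠ 0) (hρ₂ : N.c₂.ρ ⟨y, h₂⟩ ≠ 0)
    (hsm₁ : ∀ Q : Place (ResidueField A) Fb₁, Q.ord (N.c₁.ρ ⟨y, h₁⟩) < 0 → Nd.Smooth1 Q)
    (hsm₂ : ∀ Q : Place (ResidueField A) Fb₂, Q.ord (N.c₂.ρ ⟨y, h₂⟩) < 0 → Nd.Smooth2 Q)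
    (hy : y ≠ 0)
    (hdeg : Divisor.degree (poleDiv H hy) ≤
      Divisor.degree (poleDiv H₁ hρ₁) + Divisor.degree (poleDiv H₂ hρ₂))
    (P : Place K F) (hP : P.ord y < 0) :
    (∃ Q, N.r₁ P = some Q ∧ Q.ord (N.c₁.ρ ⟨y, h₁⟩) < 0) ∨
      (∃ Q, N.r₂ P = some Q ∧ Q.ord (N.c₂.ρ ⟨y, h₂⟩) < 0) := by
  classical
  by_contra hcon
  rw [not_or] at hcon
  obtain ⟨hc1, hc2⟩ := hcon
  set D : Divisor K F := divOf H hy with hD
  have hDapp : ∀ P, D P = P.ord y := fun P => divOf_apply H hy P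
  set S := D.support with hS
  set Pol₁ := (poleDiv H₁ hρ₁).support with hPol₁
  set Pol₂ := (poleDiv H₂ hρ₂).support with hPol₂
  have hmem₁ : ∀ Q, Q ∈ Pol₁ ↔ Q.ord (N.c₁.ρ ⟨y, h₁⟩) < 0 := mem_support_poleDiv H₁ hρ₁
  have hmem₂ : ∀ Q, Q ∈ Pol₂ ↔ Q.ord (N.c₂.ρ ⟨y, h₂⟩) < 0 := mem_support_poleDiv H₂ hρ₂
  let fib : Place (ResidueField A) Fb₁ ⊕ Place (ResidueField A) Fb₂ → Finset (Place K F) :=
    fun Q => Sum.elim (fun Q₁ => S.filter (fun P => N.r₁ P = some Q₁))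
      (fun Q₂ => S.filter (fun P => N.r₂ P = some Q₂)) Q
  let e : Place (ResidueField A) Fb₁ ⊕ Place (ResidueField A) Fb₂ → ℤ :=
    fun Q => Sum.elim (fun Q₁ => -(Q₁.ord (N.c₁.ρ ⟨y, h₁⟩)))
      (fun Q₂ => -(Q₂.ord (N.c₂.ρ ⟨y, h₂⟩))) Q
  have hPS : P ∈ S := by
    rw [hS, Finsupp.mem_support_iff, hDapp]
    omega
  have key := nonneg_of_sum_le S (fun P => D P) (Pol₁.disjSum Pol₂) fib e ?_ ?_ ?_ ?_ P hPS ?_
  · rw [hDapp] at key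
    omega
  · rintro (Q | Q) _
    · exact Finset.filter_subset _ _
    · exact Finset.filter_subset _ _
  · rintro (Q | Q) hQ (Q' | Q') hQ' hne
    · rw [Function.onFun, Finset.disjoint_left]
      intro P' hP' hP''
      have e1 := (Finset.mem_filter.1 hP').2
      have e2 := (Finset.mem_filter.1 hP'').2
      rw [e1] at e2
      exact hne (congrArg Sum.inl (Option.some.inj e2))
    · rw [Function.onFun, Finset.disjoint_left]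
      intro P' hP' hP''
      have e1 := (Finset.mem_filter.1 hP').2
      have e2 := (Finset.mem_filter.1 hP'').2
      have hQsm : Nd.Smooth1 Q :=
        hsm₁ Q ((hmem₁ Q).1 (Finset.inl_mem_disjSum.1 (Finset.mem_coe.1 hQ)))
      rw [N.smooth₁ P' Q e1 hQsm] at e2
      exact absurd e2 (by simp)
    · rw [Function.onFun, Finset.disjoint_left]
      intro P' hP' hP''
      have e1 := (Finset.mem_filter.1 hP').2
      have e2 := (Finset.mem_filter.1 hP'').2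
      have hQsm : Nd.Smooth2 Q :=
        hsm₂ Q ((hmem₂ Q).1 (Finset.inr_mem_disjSum.1 (Finset.mem_coe.1 hQ)))
      rw [N.smooth₂ P' Q e1 hQsm] at e2
      exact absurd e2 (by simp)
    · rw [Function.onFun, Finset.disjoint_left]
      intro P' hP' hP''
      have e1 := (Finset.mem_filter.1 hP').2
      have e2 := (Finset.mem_filter.1 hP'').2
      rw [e1] at e2
      exact hne (congrArg Sum.inr (Option.some.inj e2))
  · rintro (Q | Q) hQ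
    · have hQ' : Q.ord (N.c₁.ρ ⟨y, h₁⟩) < 0 := (hmem₁ Q).1 (Finset.inl_mem_disjSum.1 hQ)
      have := N.push₁ ⟨y, h₁⟩ hρ₁ Q (hsm₁ Q hQ') D hDapp (S.filter (fun P => N.r₁ P = some Q))
        (fun P => Finset.mem_filter)
      show ∑ P ∈ S.filter (fun P => N.r₁ P = some Q), D P = - -(Q.ord (N.c₁.ρ ⟨y, h₁⟩))
      rw [neg_neg]
      exact this
    · have hQ' : Q.ord (N.c₂.ρ ⟨y, h₂⟩) < 0 := (hmem₂ Q).1 (Finset.inr_mem_disjSum.1 hQ)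
      have := N.push₂ ⟨y, h₂⟩ hρ₂ Q (hsm₂ Q hQ') D hDapp (S.filter (fun P => N.r₂ P = some Q))
        (fun P => Finset.mem_filter)
      show ∑ P ∈ S.filter (fun P => N.r₂ P = some Q), D P = - -(Q.ord (N.c₂.ρ ⟨y, h₂⟩))
      rw [neg_neg]
      exact this
  · rw [Finset.sum_disjSum]
    have e0 : ∑ P ∈ S, max 0 (-(D P)) = Divisor.degree (poleDiv H hy) := by
      rw [degree_poleDiv_eq_sum H hy]
      exact Finset.sum_congr rfl fun P _ => by rw [hDapp]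
    rw [e0]
    have e1 : ∑ Q ∈ Pol₁, e (Sum.inl Q) = Divisor.degree (poleDiv H₁ hρ₁) :=
      (degree_poleDiv_eq_sum_neg H₁ hρ₁).symm
    have e2 : ∑ Q ∈ Pol₂, e (Sum.inr Q) = Divisor.degree (poleDiv H₂ hρ₂) :=
      (degree_poleDiv_eq_sum_neg H₂ hρ₂).symm
    rw [e1, e2]
    exact hdeg
  · rintro (Q | Q) hQ hPQ
    · exact hc1 ⟨Q, (Finset.mem_filter.1 hPQ).2, (hmem₁ Q).1 (Finset.inl_mem_disjSum.1 hQ)⟩
    · exact hc2 ⟨Q, (Finset.mem_filter.1 hPQ).2, (hmem₂ Q).1 (Finset.inr_mem_disjSum.1 hQ)⟩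

/-- `ρ (y⁻¹) = (ρ y)⁻¹`. -/
theorem ρ_inv {Fb : Type*} [Field Fb] [Algebra (ResidueField A) Fb] (R : HalfRed A F Fb)
    {y : R.O} (hy : R.ρ y ≠ 0) :
    R.ρ ⟨(y : F)⁻¹, HalfRedApi.inv_mem_of_ρ_ne_zero R hy⟩ = (R.ρ y)⁻¹ := by
  have hy0 : (y : F) ≠ 0 := by
    intro h0
    apply hy
    have : y = 0 := Subtype.ext h0
    rw [this, map_zero]
  have h1 : y * ⟨(y : F)⁻¹, HalfRedApi.inv_mem_of_ρ_ne_zero R hy⟩ = 1 :=
    Subtype.ext (mul_inv_cancel₀ hy0)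
  have h2 := congrArg R.ρ h1
  rw [map_mul, map_one] at h2
  exact eq_inv_of_mul_eq_one_right h2

/-- **zeros reduce to zeros.** -/
theorem exists_zero_of_zero (y : F) (h₁ : y ∈ N.c₁.O) (h₂ : y ∈ N.c₂.O)
    (hρ₁ : N.c₁.ρ ⟨y, h₁⟩ ≠ 0) (hρ₂ : N.c₂.ρ ⟨y, h₂⟩ ≠ 0)
    (hsm₁ : ∀ Q : Place (ResidueField A) Fb₁, 0 < Q.ord (N.c₁.ρ ⟨y, h₁⟩) → Nd.Smooth1 Q)
    (hsm₂ : ∀ Q : Place (ResidueField A) Fb₂, 0 < Q.ord (N.c₂.ρ ⟨y, h₂⟩) → Nd.Smooth2 Q)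
    (hy : y ≠ 0)
    (hdeg : Divisor.degree (poleDiv H hy) ≤
      Divisor.degree (poleDiv H₁ hρ₁) + Divisor.degree (poleDiv H₂ hρ₂))
    (P : Place K F) (hP : 0 < P.ord y) :
    (∃ Q, N.r₁ P = some Q ∧ 0 < Q.ord (N.c₁.ρ ⟨y, h₁⟩)) ∨
      (∃ Q, N.r₂ P = some Q ∧ 0 < Q.ord (N.c₂.ρ ⟨y, h₂⟩)) := by
  have hi₁ : y⁻¹ ∈ N.c₁.O := HalfRedApi.inv_mem_of_ρ_ne_zero N.c₁ (y := ⟨y, h₁⟩) hρ₁
  have hi₂ : y⁻¹ ∈ N.c₂.O := HalfRedApi.inv_mem_of_ρ_ne_zero N.c₂ (y := ⟨y, h₂⟩) hρ₂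
  have e₁ : N.c₁.ρ ⟨y⁻¹, hi₁⟩ = (N.c₁.ρ ⟨y, h₁⟩)⁻¹ := ρ_inv N.c₁ (y := ⟨y, h₁⟩) hρ₁
  have e₂ : N.c₂.ρ ⟨y⁻¹, hi₂⟩ = (N.c₂.ρ ⟨y, h₂⟩)⁻¹ := ρ_inv N.c₂ (y := ⟨y, h₂⟩) hρ₂
  have hn₁ : N.c₁.ρ ⟨y⁻¹, hi₁⟩ ≠ 0 := by rw [e₁]; exact inv_ne_zero hρ₁
  have hn₂ : N.c₂.ρ ⟨y⁻¹, hi₂⟩ ≠ 0 := by rw [e₂]; exact inv_ne_zero hρ₂
  have d0 : Divisor.degree (poleDiv H (inv_ne_zero hy)) = Divisor.degree (poleDiv H hy) := by
    rw [← zeroDiv_eq_poleDiv_inv, degree_zeroDiv]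
  have d1 : Divisor.degree (poleDiv H₁ hn₁) = Divisor.degree (poleDiv H₁ hρ₁) := by
    rw [poleDiv_congr H₁ hn₁ (inv_ne_zero hρ₁) e₁, ← zeroDiv_eq_poleDiv_inv, degree_zeroDiv]
  have d2 : Divisor.degree (poleDiv H₂ hn₂) = Divisor.degree (poleDiv H₂ hρ₂) := by
    rw [poleDiv_congr H₂ hn₂ (inv_ne_zero hρ₂) e₂, ← zeroDiv_eq_poleDiv_inv, degree_zeroDiv]
  have key := exists_pole_of_pole N H H₁ H₂ y⁻¹ hi₁ hi₂ hn₁ hn₂
    (fun Q hQ => hsm₁ Q (by rw [e₁, Q.ord_inv] at hQ; omega))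
    (fun Q hQ => hsm₂ Q (by rw [e₂, Q.ord_inv] at hQ; omega))
    (inv_ne_zero hy) (by rw [d0, d1, d2]; exact hdeg) P (by rw [P.ord_inv]; omega)
  rcases key with ⟨Q, hQ, h⟩ | ⟨Q, hQ, h⟩
  · exact Or.inl ⟨Q, hQ, by rw [e₁, Q.ord_inv] at h; omega⟩
  · exact Or.inr ⟨Q, hQ, by rw [e₂, Q.ord_inv] at h; omega⟩

/-! ### the hypotheses `hreg`, `hzz` of chapter N-F from the pole degrees -/

section Coordinate

variable (s : F) (hs₁ : s ∈ N.c₁.O) (hs₂ : s ∈ N.c₂.O)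
variable (hρ₁ : N.c₁.ρ ⟨s, hs₁⟩ ≠ 0) (hρ₂ : N.c₂.ρ ⟨s, hs₂⟩ ≠ 0)
variable (hbr₁ : ∀ i, 0 ≤ (Nd.s1 i).ord (N.c₁.ρ ⟨s, hs₁⟩))
variable (hbr₂ : ∀ i, 0 ≤ (Nd.s2 i).ord (N.c₂.ρ ⟨s, hs₂⟩))
variable (hs0 : s ≠ 0)
variable (hdeg : Divisor.degree (poleDiv H hs0) ≤
  Divisor.degree (poleDiv H₁ hρ₁) + Divisor.degree (poleDiv H₂ hρ₂))

include hbr₁ in
theorem smooth₁_of_pole (Q : Place (ResidueField A) Fb₁) (hQ : Q.ord (N.c₁.ρ ⟨s, hs₁⟩) < 0) :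
    Nd.Smooth1 Q := by
  intro i hi
  have := hbr₁ i
  rw [← hi] at this
  omega

include hbr₂ in
theorem smooth₂_of_pole (Q : Place (ResidueField A) Fb₂) (hQ : Q.ord (N.c₂.ρ ⟨s, hs₂⟩) < 0) :
    Nd.Smooth2 Q := by
  intro i hi
  have := hbr₂ i
  rw [← hi] at this
  omega

include hbr₁ hbr₂ hdeg in
/-- `hreg₁` from the pole degrees. -/
theorem hreg₁_of_hdeg (P : Place K F) (Q : Place (ResidueField A) Fb₁) (hPQ : N.r₁ P = some Q)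
    (hQ : 0 ≤ Q.ord (N.c₁.ρ ⟨s, hs₁⟩)) : 0 ≤ P.ord s := by
  by_contra hcon
  rcases exists_pole_of_pole N H H₁ H₂ s hs₁ hs₂ hρ₁ hρ₂ (smooth₁_of_pole N s hs₁ hbr₁)
    (smooth₂_of_pole N s hs₂ hbr₂) hs0 hdeg P (by omega) with ⟨Q', hQ', h⟩ | ⟨Q', hQ', h⟩
  · rw [hPQ] at hQ'
    rw [Option.some.inj hQ'] at hQ
    omega
  · rw [N.smooth₂ P Q' hQ' (smooth₂_of_pole N s hs₂ hbr₂ Q' h)] at hPQ
    exact absurd hPQ (by simp)

include hbr₁ hbr₂ hdeg in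
/-- `hreg₂` from the pole degrees. -/
theorem hreg₂_of_hdeg (P : Place K F) (Q : Place (ResidueField A) Fb₂) (hPQ : N.r₂ P = some Q)
    (hQ : 0 ≤ Q.ord (N.c₂.ρ ⟨s, hs₂⟩)) : 0 ≤ P.ord s := by
  by_contra hcon
  rcases exists_pole_of_pole N H H₁ H₂ s hs₁ hs₂ hρ₁ hρ₂ (smooth₁_of_pole N s hs₁ hbr₁)
    (smooth₂_of_pole N s hs₂ hbr₂) hs0 hdeg P (by omega) with ⟨Q', hQ', h⟩ | ⟨Q', hQ', h⟩
  · rw [N.smooth₁ P Q' hQ' (smooth₁_of_pole N s hs₁ hbr₁ Q' h)] at hPQ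
    exact absurd hPQ (by simp)
  · rw [hPQ] at hQ'
    rw [Option.some.inj hQ'] at hQ
    omega

include hdeg in
/-- `hzz` from the pole degrees, for a constant whose residue is not a value of `s̄_i` at a
branch of a node. -/
theorem hzz_of_hdeg (c : A)
    (hne₁ : N.c₁.ρ ⟨s, hs₁⟩ - algebraMap (ResidueField A) Fb₁ (residue A c) ≠ 0)
    (hne₂ : N.c₂.ρ ⟨s, hs₂⟩ - algebraMap (ResidueField A) Fb₂ (residue A c) ≠ 0)
    (hg₁ : ∀ i, ¬ 0 < (Nd.s1 i).ord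
      (N.c₁.ρ ⟨s, hs₁⟩ - algebraMap (ResidueField A) Fb₁ (residue A c)))
    (hg₂ : ∀ i, ¬ 0 < (Nd.s2 i).ord
      (N.c₂.ρ ⟨s, hs₂⟩ - algebraMap (ResidueField A) Fb₂ (residue A c)))
    (P : Place K F) (hP : 0 < P.ord (s - algebraMap K F (c : K))) :
    (∃ Q, N.r₁ P = some Q ∧
        0 < Q.ord (N.c₁.ρ ⟨s, hs₁⟩ - algebraMap (ResidueField A) Fb₁ (residue A c))) ∨
      (∃ Q, N.r₂ P = some Q ∧
        0 < Q.ord (N.c₂.ρ ⟨s, hs₂⟩ - algebraMap (ResidueField A) Fb₂ (residue A c))) := by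
  have hy₁ : s - algebraMap K F (c : K) ∈ N.c₁.O := N.c₁.O.sub_mem hs₁ (N.c₁.algebraMap_mem c)
  have hy₂ : s - algebraMap K F (c : K) ∈ N.c₂.O := N.c₂.O.sub_mem hs₂ (N.c₂.algebraMap_mem c)
  have e₁ : N.c₁.ρ ⟨s - algebraMap K F (c : K), hy₁⟩ =
      N.c₁.ρ ⟨s, hs₁⟩ - algebraMap (ResidueField A) Fb₁ (residue A c) := by
    have : (⟨s - algebraMap K F (c : K), hy₁⟩ : N.c₁.O) = ⟨s, hs₁⟩ - HalfRedApi.const N.c₁ c := rfl
    rw [this, map_sub, HalfRedApi.ρ_const]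
  have e₂ : N.c₂.ρ ⟨s - algebraMap K F (c : K), hy₂⟩ =
      N.c₂.ρ ⟨s, hs₂⟩ - algebraMap (ResidueField A) Fb₂ (residue A c) := by
    have : (⟨s - algebraMap K F (c : K), hy₂⟩ : N.c₂.O) = ⟨s, hs₂⟩ - HalfRedApi.const N.c₂ c := rfl
    rw [this, map_sub, HalfRedApi.ρ_const]
  have hn₁ : N.c₁.ρ ⟨s - algebraMap K F (c : K), hy₁⟩ ≠ 0 := by rw [e₁]; exact hne₁
  have hn₂ : N.c₂.ρ ⟨s - algebraMap K F (c : K), hy₂⟩ ≠ 0 := by rw [e₂]; exact hne₂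
  have hy : s - algebraMap K F (c : K) ≠ 0 := by
    intro h0
    apply hn₁
    have : (⟨s - algebraMap K F (c : K), hy₁⟩ : N.c₁.O) = 0 := Subtype.ext h0
    rw [this, map_zero]
  have d0 : poleDiv H hy = poleDiv H hs0 := poleDiv_sub_const H hs0 (c : K) hy
  have d1 : poleDiv H₁ hn₁ = poleDiv H₁ hρ₁ := by
    rw [poleDiv_congr H₁ hn₁ hne₁ e₁]
    exact poleDiv_sub_const H₁ hρ₁ _ hne₁
  have d2 : poleDiv H₂ hn₂ = poleDiv H₂ hρ₂ := by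
    rw [poleDiv_congr H₂ hn₂ hne₂ e₂]
    exact poleDiv_sub_const H₂ hρ₂ _ hne₂
  have key := exists_zero_of_zero N H H₁ H₂ (s - algebraMap K F (c : K)) hy₁ hy₂ hn₁ hn₂
    (fun Q hQ i hi => hg₁ i (by rw [← hi, ← e₁]; exact hQ))
    (fun Q hQ i hi => hg₂ i (by rw [← hi, ← e₂]; exact hQ))
    hy (by rw [d0, d1, d2]; exact hdeg) P hP
  rcases key with ⟨Q, hQ, h⟩ | ⟨Q, hQ, h⟩
  · exact Or.inl ⟨Q, hQ, by rw [e₁] at h; exact h⟩
  · exact Or.inr ⟨Q, hQ, by rw [e₂] at h; exact h⟩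

end Coordinate

end Nodal

end Fermat.Agent.T33.NodalDeg8
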