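/-
Programme T (S33), nodal layer, chapter N-F, abstract half, part B (helper8): **the choice of the
data from the pole degrees.**

* `exists_disc_data_weak` : `NodalChoose8.exists_disc_data` with `hzz` asked only for the constants
  whose residue is not a value of `s̄_i` at a branch of a node (the only ones the proof uses);
* `exists_disc_data_of_hdeg` : the same conclusion from the NUMERICAL hypothesis
  `deg (s)_∞ ≤ deg (s̄₁)_∞ + deg (s̄₂)_∞` (`hreg_i`, `hzz` by `NodalDeg8`): the inputs are now the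
  coordinate `s ∈ O₁ ⊓ O₂` fixed by `Γ`, its two reductions separable generators regular at the
  branches of the nodes, the degree inequality, `Γ`-invariant lifts of the constants, and
  `NonSpecialExists` (contract (c)).
-/
import Mathlib
import Fermat.Agent.T33.NodalChoose8
import Fermat.Agent.T33.NodalDeg8

set_option autoImplicit false

open AlgebraicCurve IntermediateField IsLocalRing

noncomputable section

namespace Fermat.Agent.T33.NodalChoose8B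

open Fermat.Agent.X0 Fermat.Agent.X0.FF Fermat.Agent.RR.LSpace Fermat.Agent.RR.Riemann
  Fermat.Agent.FF.SpecRR1
  Fermat.Agent.FF.NicePlace3 Fermat.Agent.FF.GeomIface8 Fermat.Agent.FF.SepFibre3
  Fermat.Agent.ES.RED.SumOrdSep15
  Fermat.Agent.T33.NodalCtx1 Fermat.Agent.T33.NodalCurve6 Fermat.Agent.T33.NodalIface8
  Fermat.Agent.T33.NodalDisc8A Fermat.Agent.T33.NodalDisc8B Fermat.Agent.T33.NodalChoose8
  Fermat.Agent.T33.NodalDeg8 AlgebraicCurve.SemilinearAut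

variable {K : Type*} [Field K] {A : ValuationSubring K} {F : Type*} [Field F] [Algebra K F]
variable {Fb₁ Fb₂ : Type*} [Field Fb₁] [Field Fb₂]
  [Algebra (ResidueField A) Fb₁] [Algebra (ResidueField A) Fb₂]
variable {ι : Type*} {Nd : NodalData (ResidueField A) Fb₁ Fb₂ ι} (N : NodalRed A F Nd)
variable [IsAlgClosed (ResidueField A)]

/-- **chapter N-F, abstract form, weak `hzz`**: as `NodalChoose8.exists_disc_data`, with `hzz` asked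
only for the constants whose residue is not a value of `s̄_i` at a branch of a node. -/
theorem exists_disc_data_weak (H₁ : LHyp (ResidueField A) Fb₁) (H₂ : LHyp (ResidueField A) Fb₂)
    [Finite ι] (s : F) (hs₁ : s ∈ N.c₁.O) (hs₂ : s ∈ N.c₂.O)
    (hx₁ : IsGen (ResidueField A) (N.c₁.ρ ⟨s, hs₁⟩))
    [Algebra.IsSeparable (ResidueField A)⟮N.c₁.ρ ⟨s, hs₁⟩⟯ Fb₁]
    (hx₂ : IsGen (ResidueField A) (N.c₂.ρ ⟨s, hs₂⟩))
    [Algebra.IsSeparable (ResidueField A)⟮N.c₂.ρ ⟨s, hs₂⟩⟯ Fb₂]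
    (hbr₁ : ∀ i, 0 ≤ (Nd.s1 i).ord (N.c₁.ρ ⟨s, hs₁⟩))
    (hbr₂ : ∀ i, 0 ≤ (Nd.s2 i).ord (N.c₂.ρ ⟨s, hs₂⟩))
    (hreg₁ : ∀ (P : Place K F) (Q : Place (ResidueField A) Fb₁), N.r₁ P = some Q →
      0 ≤ Q.ord (N.c₁.ρ ⟨s, hs₁⟩) → 0 ≤ P.ord s)
    (hreg₂ : ∀ (P : Place K F) (Q : Place (ResidueField A) Fb₂), N.r₂ P = some Q →
      0 ≤ Q.ord (N.c₂.ρ ⟨s, hs₂⟩) → 0 ≤ P.ord s)
    (hzz : ∀ (c : A),
      (∀ i, ¬ 0 < (Nd.s1 i).ord
        (N.c₁.ρ ⟨s, hs₁⟩ - algebraMap (ResidueField A) Fb₁ (residue A c))) →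
      (∀ i, ¬ 0 < (Nd.s2 i).ord
        (N.c₂.ρ ⟨s, hs₂⟩ - algebraMap (ResidueField A) Fb₂ (residue A c))) →
      ∀ (P : Place K F), 0 < P.ord (s - algebraMap K F (c : K)) →
      (∃ Q, N.r₁ P = some Q ∧
        0 < Q.ord (N.c₁.ρ ⟨s, hs₁⟩ - algebraMap (ResidueField A) Fb₁ (residue A c))) ∨
      (∃ Q, N.r₂ P = some Q ∧
        0 < Q.ord (N.c₂.ρ ⟨s, hs₂⟩ - algebraMap (ResidueField A) Fb₂ (residue A c))))
    {Γ : Type*} (γ : Γ → SemilinearAut K F) (hγs : ∀ σ : Γ, γ σ • s = s)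
    (hTL : ∀ a : ResidueField A, ∃ c : A, residue A c = a ∧
      ∀ σ : Γ, baseAut (γ σ) (c : K) = c)
    (g : ℕ) (hNS : Nd.NonSpecialExists g) :
    ∃ (m : ℕ) (φ : F) (hφ₁ : φ ∈ N.c₁.O) (hφ₂ : φ ∈ N.c₂.O) (c : Fin (g + m) → NPt N),
      N.c₁.ρ ⟨φ, hφ₁⟩ ≠ 0 ∧ N.c₂.ρ ⟨φ, hφ₂⟩ ≠ 0 ∧ Function.Injective c ∧
      (∀ j, CentreOK N φ hφ₁ hφ₂ (c j)) ∧
      NonSpecialAt N (Nat.le_add_right g m) c ∧
      (∀ σ : Γ, γ σ • φ = φ) ∧
      (∀ P : Place K F, 0 < P.ord φ → ∃ j, RedTo N P (c j)) ∧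
      (∀ P : Place K F, P.ord φ < 0 → N.IsSmoothRed P) ∧
      (∀ Q : Place (ResidueField A) Fb₁, 0 < Q.ord (N.c₁.ρ ⟨φ, hφ₁⟩) → ∃ j, c j = Sum.inl Q) ∧
      (∀ Q : Place (ResidueField A) Fb₂, 0 < Q.ord (N.c₂.ρ ⟨φ, hφ₂⟩) → ∃ j, c j = Sum.inr Q) := by
  classical
  have : Fintype ι := Fintype.ofFinite ι
  set x₁ : Fb₁ := N.c₁.ρ ⟨s, hs₁⟩ with hx₁def
  set x₂ : Fb₂ := N.c₂.ρ ⟨s, hs₂⟩ with hx₂def
  -- branches, bad values, bad places
  set B₁ : Finset (Place (ResidueField A) Fb₁) := Finset.univ.image Nd.s1 with hB₁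
  set B₂ : Finset (Place (ResidueField A) Fb₂) := Finset.univ.image Nd.s2 with hB₂
  have hsm₁ : ∀ Q, Q ∉ B₁ → Nd.Smooth1 Q := by
    intro Q hQ i hi
    exact hQ (hi ▸ Finset.mem_image_of_mem _ (Finset.mem_univ i))
  have hsm₂ : ∀ Q, Q ∉ B₂ → Nd.Smooth2 Q := by
    intro Q hQ i hi
    exact hQ (hi ▸ Finset.mem_image_of_mem _ (Finset.mem_univ i))
  set W : Finset (ResidueField A) :=
    (finite_badValues hx₁ B₁).toFinset ∪ (finite_badValues hx₂ B₂).toFinset with hW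
  have hW₁ : ∀ a, a ∉ W → a ∉ badValues x₁ B₁ := by
    intro a ha h
    exact ha (Finset.mem_union_left _ ((Set.Finite.mem_toFinset _).2 h))
  have hW₂ : ∀ a, a ∉ W → a ∉ badValues x₂ B₂ := by
    intro a ha h
    exact ha (Finset.mem_union_right _ ((Set.Finite.mem_toFinset _).2 h))
  obtain ⟨S₁, hS₁⟩ := exists_badPlaces H₁ hx₁ W B₁
  obtain ⟨S₂, hS₂⟩ := exists_badPlaces H₂ hx₂ W B₂
  -- the non-special points
  obtain ⟨T1, T2, hT1, hT2, hcard, hell⟩ := hNS {v | v ∉ S₁} {v | v ∉ S₂}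
    (infinite_compl_finset hx₁ S₁) (infinite_compl_finset hx₂ S₂)
    (fun P hP => hsm₁ P (hS₁ P hP).1) (fun P hP => hsm₂ P (hS₂ P hP).1)
  -- the values at the chosen points
  have hval₁ : ∀ v : Place (ResidueField A) Fb₁, ∃ a : ResidueField A, v ∈ T1 →
      a ∉ W ∧ 0 < v.ord (x₁ - algebraMap (ResidueField A) Fb₁ a) := by
    intro v
    by_cases hv : v ∈ T1
    · obtain ⟨a, ha⟩ := (hS₁ v (hT1 hv)).2
      exact ⟨a, fun _ => ha⟩
    · exact ⟨0, fun h => absurd h hv⟩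
  have hval₂ : ∀ v : Place (ResidueField A) Fb₂, ∃ a : ResidueField A, v ∈ T2 →
      a ∉ W ∧ 0 < v.ord (x₂ - algebraMap (ResidueField A) Fb₂ a) := by
    intro v
    by_cases hv : v ∈ T2
    · obtain ⟨a, ha⟩ := (hS₂ v (hT2 hv)).2
      exact ⟨a, fun _ => ha⟩
    · exact ⟨0, fun h => absurd h hv⟩
  choose val₁ hval₁ using hval₁
  choose val₂ hval₂ using hval₂
  choose lift hlift_res hlift_inv using hTL
  set V : Finset (ResidueField A) := T1.image val₁ ∪ T2.image val₂ with hV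
  have hVW : ∀ a ∈ V, a ∉ W := by
    intro a ha
    rcases Finset.mem_union.1 ha with h | h
    · obtain ⟨v, hv, rfl⟩ := Finset.mem_image.1 h
      exact (hval₁ v hv).1
    · obtain ⟨v, hv, rfl⟩ := Finset.mem_image.1 h
      exact (hval₂ v hv).1
  -- the parameter
  set φ₁ : N.c₁.O := ∏ a ∈ V, (⟨s, hs₁⟩ - HalfRedApi.const N.c₁ (lift a)) with hφ₁def
  set φ₂ : N.c₂.O := ∏ a ∈ V, (⟨s, hs₂⟩ - HalfRedApi.const N.c₂ (lift a)) with hφ₂def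
  set φ : F := ∏ a ∈ V, (s - algebraMap K F (lift a : K)) with hφdef
  have hφF₁ : (φ₁ : F) = φ := by
    rw [hφ₁def, hφdef]
    exact map_prod N.c₁.O.subtype _ _
  have hφF₂ : (φ₂ : F) = φ := by
    rw [hφ₂def, hφdef]
    exact map_prod N.c₂.O.subtype _ _
  have hφm₁ : φ ∈ N.c₁.O := hφF₁ ▸ φ₁.2
  have hφm₂ : φ ∈ N.c₂.O := hφF₂ ▸ φ₂.2
  have hρφ₁ : N.c₁.ρ ⟨φ, hφm₁⟩ = ∏ a ∈ V, (x₁ - algebraMap (ResidueField A) Fb₁ a) := by
    have : (⟨φ, hφm₁⟩ : N.c₁.O) = φ₁ := Subtype.ext hφF₁.symm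
    rw [this, hφ₁def, map_prod]
    refine Finset.prod_congr rfl fun a _ => ?_
    rw [map_sub, HalfRedApi.ρ_const, hlift_res]
  have hρφ₂ : N.c₂.ρ ⟨φ, hφm₂⟩ = ∏ a ∈ V, (x₂ - algebraMap (ResidueField A) Fb₂ a) := by
    have : (⟨φ, hφm₂⟩ : N.c₂.O) = φ₂ := Subtype.ext hφF₂.symm
    rw [this, hφ₂def, map_prod]
    refine Finset.prod_congr rfl fun a _ => ?_
    rw [map_sub, HalfRedApi.ρ_const, hlift_res]
  have hneb₁ : ∀ a ∈ V, x₁ - algebraMap (ResidueField A) Fb₁ a ≠ 0 :=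
    fun a _ => sub_algebraMap_ne_zero' hx₁.transcendental a
  have hneb₂ : ∀ a ∈ V, x₂ - algebraMap (ResidueField A) Fb₂ a ≠ 0 :=
    fun a _ => sub_algebraMap_ne_zero' hx₂.transcendental a
  have hne : ∀ a ∈ V, s - algebraMap K F (lift a : K) ≠ 0 := by
    intro a ha h0
    apply hneb₁ a ha
    have : (⟨s, hs₁⟩ - HalfRedApi.const N.c₁ (lift a) : N.c₁.O) = 0 := Subtype.ext h0
    have h2 := congrArg N.c₁.ρ this
    rwa [map_sub, HalfRedApi.ρ_const, hlift_res, map_zero] at h2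
  -- the zeros of the reductions
  have hfib₁ : ∀ a : ResidueField A, {v : Place (ResidueField A) Fb₁ |
      0 < v.ord (x₁ - algebraMap (ResidueField A) Fb₁ a)}.Finite := finite_fibre_sep hx₁
  have hfib₂ : ∀ a : ResidueField A, {v : Place (ResidueField A) Fb₂ |
      0 < v.ord (x₂ - algebraMap (ResidueField A) Fb₂ a)}.Finite := finite_fibre_sep hx₂
  set Z1 : Finset (Place (ResidueField A) Fb₁) := V.biUnion fun a => (hfib₁ a).toFinset with hZ1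
  set Z2 : Finset (Place (ResidueField A) Fb₂) := V.biUnion fun a => (hfib₂ a).toFinset with hZ2
  have hmemZ1 : ∀ w, w ∈ Z1 ↔ ∃ a ∈ V, 0 < w.ord (x₁ - algebraMap (ResidueField A) Fb₁ a) := by
    intro w
    rw [hZ1, Finset.mem_biUnion]
    exact exists_congr fun a => and_congr Iff.rfl (Set.Finite.mem_toFinset _)
  have hmemZ2 : ∀ w, w ∈ Z2 ↔ ∃ a ∈ V, 0 < w.ord (x₂ - algebraMap (ResidueField A) Fb₂ a) := by
    intro w
    rw [hZ2, Finset.mem_biUnion]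
    exact exists_congr fun a => and_congr Iff.rfl (Set.Finite.mem_toFinset _)
  have hTZ1 : T1 ⊆ Z1 := fun v hv =>
    (hmemZ1 v).2 ⟨val₁ v, Finset.mem_union_left _ (Finset.mem_image_of_mem val₁ hv), (hval₁ v hv).2⟩
  have hTZ2 : T2 ⊆ Z2 := fun v hv =>
    (hmemZ2 v).2 ⟨val₂ v, Finset.mem_union_right _ (Finset.mem_image_of_mem val₂ hv), (hval₂ v hv).2⟩
  have hZ1ord : ∀ w ∈ Z1, w.ord (N.c₁.ρ ⟨φ, hφm₁⟩) = 1 := by
    intro w hw
    obtain ⟨a, ha, hpos⟩ := (hmemZ1 w).1 hw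
    rw [hρφ₁]
    refine ord_prod_sub_eq_one w V hneb₁ ha ?_
    have := ord_le_one_of_not_bad (hW₁ a (hVW a ha)) w
    omega
  have hZ2ord : ∀ w ∈ Z2, w.ord (N.c₂.ρ ⟨φ, hφm₂⟩) = 1 := by
    intro w hw
    obtain ⟨a, ha, hpos⟩ := (hmemZ2 w).1 hw
    rw [hρφ₂]
    refine ord_prod_sub_eq_one w V hneb₂ ha ?_
    have := ord_le_one_of_not_bad (hW₂ a (hVW a ha)) w
    omega
  have hZ1sm : ∀ w ∈ Z1, Nd.Smooth1 w := by
    intro w hw
    obtain ⟨a, ha, hpos⟩ := (hmemZ1 w).1 hw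
    exact hsm₁ w (not_mem_of_not_bad (hW₁ a (hVW a ha)) hpos)
  have hZ2sm : ∀ w ∈ Z2, Nd.Smooth2 w := by
    intro w hw
    obtain ⟨a, ha, hpos⟩ := (hmemZ2 w).1 hw
    exact hsm₂ w (not_mem_of_not_bad (hW₂ a (hVW a ha)) hpos)
  have hZ1zero : ∀ w : Place (ResidueField A) Fb₁, 0 < w.ord (N.c₁.ρ ⟨φ, hφm₁⟩) → w ∈ Z1 := by
    intro w hw
    rw [hρφ₁] at hw
    obtain ⟨a, ha, hpos⟩ := exists_ord_pos_of_ord_prod_pos w V _ hneb₁ hw
    exact (hmemZ1 w).2 ⟨a, ha, hpos⟩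
  have hZ2zero : ∀ w : Place (ResidueField A) Fb₂, 0 < w.ord (N.c₂.ρ ⟨φ, hφm₂⟩) → w ∈ Z2 := by
    intro w hw
    rw [hρφ₂] at hw
    obtain ⟨a, ha, hpos⟩ := exists_ord_pos_of_ord_prod_pos w V _ hneb₂ hw
    exact (hmemZ2 w).2 ⟨a, ha, hpos⟩
  have hZ1reg : ∀ w ∈ Z1, 0 ≤ w.ord x₁ := by
    intro w hw
    obtain ⟨a, ha, hpos⟩ := (hmemZ1 w).1 hw
    exact ord_nonneg_of_ord_sub_pos w hpos
  have hZ2reg : ∀ w ∈ Z2, 0 ≤ w.ord x₂ := by
    intro w hw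
    obtain ⟨a, ha, hpos⟩ := (hmemZ2 w).1 hw
    exact ord_nonneg_of_ord_sub_pos w hpos
  have hφnn : ∀ P : Place K F, 0 ≤ P.ord s → 0 ≤ P.ord φ := by
    intro P hP
    rw [hφdef, ord_finset_prod P V _ hne]
    exact Finset.sum_nonneg fun a ha => ord_sub_nonneg P _ (hne a ha) hP
  -- enumeration of the zeros, the chosen points first
  set TT : Finset (NPt N) := T1.disjSum T2 with hTT
  set ZZ : Finset (NPt N) := Z1.disjSum Z2 with hZZ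
  have hTTcard : TT.card = g := by rw [hTT, Finset.card_disjSum, hcard]
  have hTZ : TT ⊆ ZZ := by
    intro Q hQ
    rcases Q with Q | Q
    · exact Finset.inl_mem_disjSum.2 (hTZ1 (Finset.inl_mem_disjSum.1 hQ))
    · exact Finset.inr_mem_disjSum.2 (hTZ2 (Finset.inr_mem_disjSum.1 hQ))
  set m : ℕ := (ZZ \ TT).card with hm
  let eT : Fin g ≃ TT := (TT.equivFinOfCardEq hTTcard).symm
  let eR : Fin m ≃ (ZZ \ TT : Finset (NPt N)) := ((ZZ \ TT).equivFinOfCardEq rfl).symm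
  let PbT : Fin g → NPt N := fun j => (eT j : NPt N)
  let PbR : Fin m → NPt N := fun j => (eR j : NPt N)
  let c : Fin (g + m) → NPt N := fun j => Sum.elim PbT PbR (finSumFinEquiv.symm j)
  have hPbT : ∀ j, PbT j ∈ TT := fun j => (eT j).2
  have hPbR : ∀ j, PbR j ∈ ZZ \ TT := fun j => (eR j).2
  have hcZ : ∀ j, c j ∈ ZZ := by
    intro j
    show Sum.elim PbT PbR (finSumFinEquiv.symm j) ∈ ZZ
    rcases finSumFinEquiv.symm j with i | i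
    · exact hTZ (hPbT i)
    · exact (Finset.mem_sdiff.1 (hPbR i)).1
  have hcsurj : ∀ w ∈ ZZ, ∃ j, c j = w := by
    intro w hw
    by_cases hwT : w ∈ TT
    · refine ⟨finSumFinEquiv (Sum.inl (eT.symm ⟨w, hwT⟩)), ?_⟩
      show Sum.elim PbT PbR (finSumFinEquiv.symm (finSumFinEquiv _)) = w
      rw [Equiv.symm_apply_apply]
      show ((eT (eT.symm ⟨w, hwT⟩) : TT) : NPt N) = w
      rw [Equiv.apply_symm_apply]
    · have hwR : w ∈ ZZ \ TT := Finset.mem_sdiff.2 ⟨hw, hwT⟩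
      refine ⟨finSumFinEquiv (Sum.inr (eR.symm ⟨w, hwR⟩)), ?_⟩
      show Sum.elim PbT PbR (finSumFinEquiv.symm (finSumFinEquiv _)) = w
      rw [Equiv.symm_apply_apply]
      show ((eR (eR.symm ⟨w, hwR⟩) : (ZZ \ TT : Finset _)) : NPt N) = w
      rw [Equiv.apply_symm_apply]
  have hccast : ∀ j : Fin g, c (Fin.castLE (Nat.le_add_right g m) j) = PbT j := by
    intro j
    show Sum.elim PbT PbR (finSumFinEquiv.symm (Fin.castAdd m j)) = PbT j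
    rw [finSumFinEquiv_symm_apply_castAdd]
    rfl
  refine ⟨m, φ, hφm₁, hφm₂, c, ?_, ?_, ?_, ?_, ?_, ?_, ?_, ?_, ?_, ?_⟩
  · rw [hρφ₁]
    exact Finset.prod_ne_zero_iff.2 hneb₁
  · rw [hρφ₂]
    exact Finset.prod_ne_zero_iff.2 hneb₂
  · have hinjE : Function.Injective (Sum.elim PbT PbR) := by
      refine Function.Injective.sumElim ?_ ?_ ?_
      · intro j j' h
        exact eT.injective (Subtype.ext h)
      · intro j j' h
        exact eR.injective (Subtype.ext h)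
      · intro j j' h
        have h1 := hPbT j
        have h2 := (Finset.mem_sdiff.1 (hPbR j')).2
        rw [h] at h1
        exact h2 h1
    exact hinjE.comp finSumFinEquiv.symm.injective
  · intro j
    have hj := hcZ j
    generalize c j = Q at hj
    rcases Q with Q | Q
    · have hQ : Q ∈ Z1 := Finset.inl_mem_disjSum.1 hj
      exact ⟨hZ1sm Q hQ, hZ1ord Q hQ, fun P hP => hφnn P (hreg₁ P Q hP (hZ1reg Q hQ))⟩
    · have hQ : Q ∈ Z2 := Finset.inr_mem_disjSum.1 hj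
      exact ⟨hZ2sm Q hQ, hZ2ord Q hQ, fun P hP => hφnn P (hreg₂ P Q hP (hZ2reg Q hQ))⟩
  · unfold NonSpecialAt centreDiv
    have hsum : ∑ j : Fin g, nsingle N (c (Fin.castLE (Nat.le_add_right g m) j)) =
        npts T1 T2 := by
      rw [← sum_nsingle_disjSum N T1 T2, ← Finset.sum_coe_sort (T1.disjSum T2)]
      refine Fintype.sum_equiv eT _ _ fun j => ?_
      rw [hccast]
    rw [hsum, hell]
  · intro σ
    rw [hφdef, SemilinearAut.smul_def, map_prod]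
    refine Finset.prod_congr rfl fun a _ => ?_
    rw [← SemilinearAut.smul_def]
    exact smul_sub_const (γ σ) (hγs σ) _ (hlift_inv a σ)
  · intro P hP
    rw [hφdef] at hP
    obtain ⟨a, ha, hpos⟩ := exists_ord_pos_of_ord_prod_pos P V _ hne hP
    have hg₁ : ∀ i, ¬ 0 < (Nd.s1 i).ord
        (x₁ - algebraMap (ResidueField A) Fb₁ (residue A (lift a))) := by
      intro i hi
      rw [hlift_res] at hi
      exact not_mem_of_not_bad (hW₁ a (hVW a ha)) hi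
        (Finset.mem_image_of_mem _ (Finset.mem_univ i))
    have hg₂ : ∀ i, ¬ 0 < (Nd.s2 i).ord
        (x₂ - algebraMap (ResidueField A) Fb₂ (residue A (lift a))) := by
      intro i hi
      rw [hlift_res] at hi
      exact not_mem_of_not_bad (hW₂ a (hVW a ha)) hi
        (Finset.mem_image_of_mem _ (Finset.mem_univ i))
    rcases hzz (lift a) hg₁ hg₂ P hpos with ⟨Q, hQ, h1⟩ | ⟨Q, hQ, h1⟩
    · rw [hlift_res] at h1
      obtain ⟨j, hj⟩ := hcsurj (Sum.inl Q) (Finset.inl_mem_disjSum.2 ((hmemZ1 Q).2 ⟨a, ha, h1⟩))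
      exact ⟨j, by rw [hj]; exact hQ⟩
    · rw [hlift_res] at h1
      obtain ⟨j, hj⟩ := hcsurj (Sum.inr Q) (Finset.inr_mem_disjSum.2 ((hmemZ2 Q).2 ⟨a, ha, h1⟩))
      exact ⟨j, by rw [hj]; exact hQ⟩
  · intro P hP
    have hPs : P.ord s < 0 := by
      by_contra h
      exact absurd (hφnn P (not_lt.1 h)) (not_le.2 hP)
    rcases N.total P with h | h
    · obtain ⟨Q, hQ⟩ := Option.ne_none_iff_exists'.1 h
      refine Or.inl ⟨Q, hQ, fun i hi => ?_⟩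
      have := hreg₁ P Q hQ (hi ▸ hbr₁ i)
      omega
    · obtain ⟨Q, hQ⟩ := Option.ne_none_iff_exists'.1 h
      refine Or.inr ⟨Q, hQ, fun i hi => ?_⟩
      have := hreg₂ P Q hQ (hi ▸ hbr₂ i)
      omega
  · intro Q hQ
    exact hcsurj (Sum.inl Q) (Finset.inl_mem_disjSum.2 (hZ1zero Q hQ))
  · intro Q hQ
    exact hcsurj (Sum.inr Q) (Finset.inr_mem_disjSum.2 (hZ2zero Q hQ))

/-- **chapter N-F, abstract form, from the pole degrees.** -/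
theorem exists_disc_data_of_hdeg (H : LHyp K F) (H₁ : LHyp (ResidueField A) Fb₁)
    (H₂ : LHyp (ResidueField A) Fb₂)
    [Finite ι] (s : F) (hs₁ : s ∈ N.c₁.O) (hs₂ : s ∈ N.c₂.O)
    (hx₁ : IsGen (ResidueField A) (N.c₁.ρ ⟨s, hs₁⟩))
    [Algebra.IsSeparable (ResidueField A)⟮N.c₁.ρ ⟨s, hs₁⟩⟯ Fb₁]
    (hx₂ : IsGen (ResidueField A) (N.c₂.ρ ⟨s, hs₂⟩))
    [Algebra.IsSeparable (ResidueField A)⟮N.c₂.ρ ⟨s, hs₂⟩⟯ Fb₂]
    (hbr₁ : ∀ i, 0 ≤ (Nd.s1 i).ord (N.c₁.ρ ⟨s, hs₁⟩))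
    (hbr₂ : ∀ i, 0 ≤ (Nd.s2 i).ord (N.c₂.ρ ⟨s, hs₂⟩))
    (hs0 : s ≠ 0) (hρ₁ : N.c₁.ρ ⟨s, hs₁⟩ ≠ 0) (hρ₂ : N.c₂.ρ ⟨s, hs₂⟩ ≠ 0)
    (hdeg : Divisor.degree (poleDiv H hs0) ≤
      Divisor.degree (poleDiv H₁ hρ₁) + Divisor.degree (poleDiv H₂ hρ₂))
    {Γ : Type*} (γ : Γ → SemilinearAut K F) (hγs : ∀ σ : Γ, γ σ • s = s)
    (hTL : ∀ a : ResidueField A, ∃ c : A, residue A c = a ∧
      ∀ σ : Γ, baseAut (γ σ) (c : K) = c)
    (g : ℕ) (hNS : Nd.NonSpecialExists g) :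
    ∃ (m : ℕ) (φ : F) (hφ₁ : φ ∈ N.c₁.O) (hφ₂ : φ ∈ N.c₂.O) (c : Fin (g + m) → NPt N),
      N.c₁.ρ ⟨φ, hφ₁⟩ ≠ 0 ∧ N.c₂.ρ ⟨φ, hφ₂⟩ ≠ 0 ∧ Function.Injective c ∧
      (∀ j, CentreOK N φ hφ₁ hφ₂ (c j)) ∧
      NonSpecialAt N (Nat.le_add_right g m) c ∧
      (∀ σ : Γ, γ σ • φ = φ) ∧
      (∀ P : Place K F, 0 < P.ord φ → ∃ j, RedTo N P (c j)) ∧
      (∀ P : Place K F, P.ord φ < 0 → N.IsSmoothRed P) ∧
      (∀ Q : Place (ResidueField A) Fb₁, 0 < Q.ord (N.c₁.ρ ⟨φ, hφ₁⟩) → ∃ j, c j = Sum.inl Q) ∧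
      (∀ Q : Place (ResidueField A) Fb₂, 0 < Q.ord (N.c₂.ρ ⟨φ, hφ₂⟩) → ∃ j, c j = Sum.inr Q) :=
  exists_disc_data_weak N H₁ H₂ s hs₁ hs₂ hx₁ hx₂ hbr₁ hbr₂
    (hreg₁_of_hdeg N H H₁ H₂ s hs₁ hs₂ hρ₁ hρ₂ hbr₁ hbr₂ hs0 hdeg)
    (hreg₂_of_hdeg N H H₁ H₂ s hs₁ hs₂ hρ₁ hρ₂ hbr₁ hbr₂ hs0 hdeg)
    (fun c hg₁ hg₂ P hP => hzz_of_hdeg N H H₁ H₂ s hs₁ hs₂ hρ₁ hρ₂ hs0 hdeg c
      (sub_algebraMap_ne_zero' hx₁.transcendental _)
      (sub_algebraMap_ne_zero' hx₂.transcendental _) hg₁ hg₂ P hP)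
    γ hγs hTL g hNS

end Fermat.Agent.T33.NodalChoose8B
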