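/-
Programme T (S33), chapter (e)/N-F, block (C) (helper1), supplement: **the N-F coordinate is fixed by
the inertia group** (hypothesis `hγs` of `NodalMain8.hasConnOrder_of_nodalRed` /
`NodalFinal8.hasConnOrder_of_Rfun`).

* `gal_smul_yA` : `y = t(q^p)` has rational coefficients: it is fixed by the Galois action;
* `gal_smul_const` : `τ • a = τ(a)` on constants;
* `gal_smul_coord` : `s = (t − a)⁻¹ + (y − a)⁻¹` is fixed by every `τ` fixing the constant `a`;
* `gamma_smul_coord` : the same for the family `NodalCompat1.gamma A (M'p)` and an inertia-fixed `a`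
  (e.g. a Teichmüller lift, `TeichLift4.exists_fixed_lift`).
-/
import Mathlib
import Fermat.Agent.T33.NodalCompat1

set_option autoImplicit false
set_option linter.unusedSectionVars false
set_option synthInstance.maxHeartbeats 400000

noncomputable section

namespace Fermat.Agent.T33.NodalCompat1

open HahnSeries ModularCurve AlgebraicCurve IsLocalRing
open Fermat.Agent.RED.Interface4 Fermat.Agent.ES.RED
open Fermat.Agent.T33.NodalHalf4 Fermat.Agent.T33.Psi3C Fermat.Agent.T33.NodalBase4A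

variable {p M' : ℕ} [NeZero M'] [NeZero p] {A : ValuationSubring Qbar}

/-- `y = t(q^p)` has rational coefficients: it is fixed by the Galois action. -/
theorem gal_smul_yA (h : LevelHyp p M' A) (τ : Qbar ≃ₐ[ℚ] Qbar) :
    gal (M' * p) τ • yA h = yA h := by
  apply Subtype.ext
  rw [coe_gal_smul]
  show coeffMap (τ : Qbar →+* Qbar) ((betaA M' p (tM h) : ↥(Fbar (M' * p))) : LaurentSeries Qbar) =
    ((betaA M' p (tM h) : ↥(Fbar (M' * p))) : LaurentSeries Qbar)
  rw [coe_betaA, coe_tM, ModularCurve.coeffMap_qExpand,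
    Fermat.Agent.RED.BASE.EtaQuot12.coeffMap_tq Qbar (τ : Qbar →+* Qbar) 4 8]

/-- the Galois action on the constants. -/
theorem gal_smul_const (N : ℕ) [NeZero N] (τ : Qbar ≃ₐ[ℚ] Qbar) (a : Qbar) :
    gal N τ • algebraMap Qbar ↥(Fbar N) a = algebraMap Qbar ↥(Fbar N) (τ a) :=
  SemilinearAut.smul_algebraMap (gal N τ) a

/-- **the N-F coordinate `s = (t − a)⁻¹ + (y − a)⁻¹` is fixed by every `τ` fixing `a`.** -/
theorem gal_smul_coord (h : LevelHyp p M' A) (τ : Qbar ≃ₐ[ℚ] Qbar) (a : Qbar) (ha : τ a = a) :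
    gal (M' * p) τ • ((tA h - algebraMap Qbar ↥(Fbar (M' * p)) a)⁻¹ +
        (yA h - algebraMap Qbar ↥(Fbar (M' * p)) a)⁻¹) =
      (tA h - algebraMap Qbar ↥(Fbar (M' * p)) a)⁻¹ +
        (yA h - algebraMap Qbar ↥(Fbar (M' * p)) a)⁻¹ := by
  rw [smul_add, smul_inv'', smul_inv'', smul_sub, smul_sub, gal_smul_tA, gal_smul_yA,
    gal_smul_const, ha]

/-- **the N-F coordinate is fixed by the inertia group**, for an inertia-fixed constant `a`. -/
theorem gamma_smul_coord (h : LevelHyp p M' A) (a : Qbar)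
    (ha : ∀ τ ∈ A.inertiaSubgroupIn ℚ, τ a = a) (σ : ↥(A.inertiaSubgroupIn ℚ)) :
    gamma A (M' * p) σ • ((tA h - algebraMap Qbar ↥(Fbar (M' * p)) a)⁻¹ +
        (yA h - algebraMap Qbar ↥(Fbar (M' * p)) a)⁻¹) =
      (tA h - algebraMap Qbar ↥(Fbar (M' * p)) a)⁻¹ +
        (yA h - algebraMap Qbar ↥(Fbar (M' * p)) a)⁻¹ :=
  gal_smul_coord h (σ : Qbar ≃ₐ[ℚ] Qbar) a (ha _ σ.2)

end Fermat.Agent.T33.NodalCompat1
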