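/-
Programme T (S33), nodal layer, chapter N-E (helper8): **equivariance of `θ`** for a nodal disc model
sitting over a nodal reduction (`NodalIface8.DiscCompat`) — port of `FF/ThetaKer5` §Equivariance and
of the `theta_smul` part of `FF/ThetaGlue8.thetaInput`.

A semilinear automorphism `γ` of `F` which preserves `A` (through `σA`), fixes the parameter `φ` and
commutes with the two partial reductions of places moves the point `P_j(t)` of the `j`-th disc to
`P_j(σA t)`; hence `γ • θ(x) = θ(σA x)`.  For a family `γ : Γ → SemilinearAut K F` compatible with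
the nodal reduction (`NodalRed.Compat`) this is the field `theta_smul` of `NodalIface8.NThetaInput`.
-/
import Mathlib
import Fermat.Prelude.Def_AlgebraicCurve_BaseChangeGalois
import Fermat.Agent.T33.NodalMeaning8
import Fermat.Agent.FF.ThetaGlue8

set_option autoImplicit false

open AlgebraicCurve IsLocalRing

namespace Fermat.Agent.T33.NodalEquiv8

open Fermat.Agent.FF.GeomIface8 Fermat.Agent.X0.FF Fermat.Agent.T33.NodalCtx1
  Fermat.Agent.T33.NodalCurve6 Fermat.Agent.T33.NodalIface8 AlgebraicCurve.SemilinearAut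

section One

variable {K : Type*} [Field K] {A : ValuationSubring K} {F : Type*} [Field F] [Algebra K F]
variable {Fb₁ Fb₂ : Type*} [Field Fb₁] [Field Fb₂]
  [Algebra (ResidueField A) Fb₁] [Algebra (ResidueField A) Fb₂]
variable {ι : Type*} {Nd : NodalData (ResidueField A) Fb₁ Fb₂ ι} (N : NodalRed A F Nd)
variable {g d : ℕ} (Mod : NDiscModel A F g d)
variable (hdeg : ∀ (j : Fin d) (t : A), (Mod.P j t).deg = 1)
variable {c : Fin d → NPt N} (hc : DiscCompat N Mod c)
variable (γ : SemilinearAut K F) (σA : A ≃+* A)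
variable (hσ : ∀ a : A, ((σA a : A) : K) = baseAut γ (a : K))
variable (hγφ : γ • Mod.φ = Mod.φ)
variable (hr₁ : ∀ P : Place K F, N.r₁ (γ • P) = N.r₁ P)
variable (hr₂ : ∀ P : Place K F, N.r₂ (γ • P) = N.r₂ P)

include hr₁ hr₂ in
theorem redTo_smul (P : Place K F) : ∀ Q : NPt N, RedTo N P Q → RedTo N (γ • P) Q
  | Sum.inl _, h => (hr₁ P).trans h
  | Sum.inr _, h => (hr₂ P).trans h

omit [Algebra K F] in
theorem map_mem_maximalIdeal (t : A) (ht : t ∈ maximalIdeal A) : σA t ∈ maximalIdeal A := by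
  rw [mem_maximalIdeal, mem_nonunits_iff] at ht ⊢
  intro hu
  apply ht
  have := hu.map σA.symm
  rwa [RingEquiv.symm_apply_apply] at this

include hc hσ hγφ hr₁ hr₂ in
/-- a semilinear automorphism preserving the data moves the points of the discs by its action on
the parameter. -/
theorem smul_P (j : Fin d) (t : A) (ht : t ∈ maximalIdeal A) :
    γ • Mod.P j t = Mod.P j (σA t) := by
  classical
  obtain ⟨t', ht', hQ⟩ := hc.exhaust j _ (redTo_smul N γ hr₁ hr₂ _ _ (hc.center j t ht))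
  have hσt : σA t ∈ maximalIdeal A := map_mem_maximalIdeal σA t ht
  have e1 : γ • (Mod.φ - algebraMap K F (t : K)) = Mod.φ - algebraMap K F ((σA t : A) : K) := by
    rw [smul_sub, hγφ, SemilinearAut.smul_algebraMap, hσ]
  have e2 : (γ • Mod.P j t).ord (γ • (Mod.φ - algebraMap K F (t : K))) = 1 := by
    rw [SemilinearAut.ord_smul]
    exact Mod.ord_φ_sub_self _ t ht
  rw [e1, hQ, Mod.ord_φ_sub _ t' (σA t) ht' hσt] at e2
  by_cases htt : t' = σA t
  · rw [hQ, htt]
  · rw [if_neg htt] at e2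
    exact absurd e2 (by norm_num)

include hc hσ hγφ hr₁ hr₂ in
theorem smul_discDiv (x : Fin g → A) (hx : ∀ i, x i ∈ maximalIdeal A) :
    γ • discDiv Mod x = discDiv Mod (fun i => σA (x i)) := by
  unfold discDiv
  rw [Finset.smul_sum]
  refine Finset.sum_congr rfl fun j _ => ?_
  rw [SemilinearAut.smul_single, smul_P N Mod hc γ σA hσ hγφ hr₁ hr₂ _ (x j) (hx j)]

include hc hσ hγφ hr₁ hr₂ in
/-- **equivariance of `θ`.** -/
theorem smul_theta (x : Fin g → A) (hx : ∀ i, x i ∈ maximalIdeal A) :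
    γ • theta Mod hdeg x = theta Mod hdeg (fun i => σA (x i)) := by
  unfold theta
  rw [pic0_smul_mk]
  congr 1
  apply Subtype.ext
  rw [coe_degZeroSMulHom]
  show γ • (discDiv Mod x - discDiv Mod (fun _ => (0 : A))) = _
  rw [smul_sub, smul_discDiv N Mod hc γ σA hσ hγφ hr₁ hr₂ x hx,
    smul_discDiv N Mod hc γ σA hσ hγφ hr₁ hr₂ _ (fun _ => Ideal.zero_mem _)]
  simp only [map_zero]

end One

section Family

open Fermat.Agent.FF.Assembly8 Fermat.Agent.FF.ThetaGlue8

variable {K : Type} [Field K] {A : ValuationSubring K} {F : Type*} [Field F] [Algebra K F]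
variable {Fb₁ Fb₂ : Type*} [Field Fb₁] [Field Fb₂]
  [Algebra (ResidueField A) Fb₁] [Algebra (ResidueField A) Fb₂]
variable {ι : Type*} {Nd : NodalData (ResidueField A) Fb₁ Fb₂ ι} (N : NodalRed A F Nd)
variable {g d : ℕ} (Mod : NDiscModel A F g d)
variable (hdeg : ∀ (j : Fin d) (t : A), (Mod.P j t).deg = 1)
variable {c : Fin d → NPt N} (hc : DiscCompat N Mod c)
variable {Γ : Type*} [Group Γ] [MulSemiringAction Γ K] [DistribMulAction Γ (Pic0 K F)]

include hc in
/-- **the field `theta_smul` of `NodalIface8.NThetaInput`**, from `NodalRed.Compat`. -/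
theorem theta_smul_of_compat (hΓA : ∀ (σ : Γ) (a : K), a ∈ A → σ • a ∈ A)
    (γ : Γ → SemilinearAut K F) (hγ : ∀ (σ : Γ) (z : Pic0 K F), σ • z = γ σ • z)
    (hγK : ∀ (σ : Γ) (a : K), baseAut (γ σ) a = σ • a)
    (hγφ : ∀ σ : Γ, γ σ • Mod.φ = Mod.φ) (hC : N.Compat γ)
    (σ : Γ) (x : Fin g → A) (hx : ∀ i, x i ∈ maximalIdeal A) :
    theta Mod hdeg (smulTuple hΓA σ x) = σ • theta Mod hdeg x := by
  rw [hγ, ← sigmaA_tuple hΓA σ x]
  exact (smul_theta N Mod hdeg hc (γ σ) (sigmaA hΓA σ) (fun a => (hγK σ (a : K)).symm)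
    (hγφ σ) (hC.r₁_smul σ) (hC.r₂_smul σ) x hx).symm

end Family

end Fermat.Agent.T33.NodalEquiv8
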