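/-
Programme T (S33), chapter (e) "N34 over ℚ̄", block NodalCharts-instance (helper6), part H:
**`NonSpecialExists (genus ℚ̄ (ℚ̄·F_{M'p}))` for the concrete two-chart model**, downstream of
`H : TwoChartsHyp …` (`NodalInst6F`).

For `h : LevelHyp p M' A`, `T : TwoCharts (c1 h) (c2 h)` with finitely many nodes, a nodal reduction
context `Nr` over `T.rawRed.nodalData` with components `c1 h`, `c2 h`, separating generators `x₁ x₂`
of the two components and `H : TwoChartsHyp T … m₁ m₂`:
* `riemann_bad h`     : Riemann's theorem in large degree on `Fbar (M'p)` with the Prelude genus;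
* `semicontBound_bad` : one instance of semicontinuity in each large bidegree (helper2's
  `NodalLat2.semicontBound`, `HasManySmooth` from the surjectivity of `ρ₁, ρ₂` — helper3);
* `contract_c_bad`    : `p_a = g`, `RiemannNod g`, `RiemannEqLarge g`, `NonSpecialExists g`;
* `nonSpecialExists_bad` : the field `(c)` of the level package.
-/
import Mathlib
import Fermat.Agent.T33.NodalInst6G
import Fermat.Agent.T33.NodalLat2D
import Fermat.Agent.T33.NodalMany2
import Fermat.Agent.T33.FrickeRed3B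
import Fermat.Agent.T33.NodalInst4A
import Fermat.Agent.FF.ConcreteR8

set_option autoImplicit false
set_option linter.unusedSectionVars false
set_option linter.style.haveILetI false
set_option synthInstance.maxHeartbeats 400000

open AlgebraicCurve IsLocalRing ModularCurve IntermediateField

noncomputable section

namespace Fermat.Agent.T33.NodalInst6

open Fermat.Agent.X0 Fermat.Agent.X0.FF Fermat.Agent.RR.LSpace Fermat.Agent.RR.Riemann
  Fermat.Agent.FF.GoodRed8 Fermat.Agent.FF.SpecRR1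
  Fermat.Agent.RED.PUR.ChartGeneric22 Fermat.Agent.T33.NodalCurve6
  Fermat.Agent.T33.NodalLift6 Fermat.Agent.T33.NodalLiftG6 Fermat.Agent.T33.NodalLiftS6
  Fermat.Agent.T33.NodalRR6
  Fermat.Agent.T33.NodalCtx1 Fermat.Agent.T33.NodalPlaces1 Fermat.Agent.T33.NodalAbs1A
  Fermat.Agent.T33.NodalHalf4 Fermat.Agent.T33.NodalBase4A
  Fermat.Agent.RED.Interface4 Fermat.Agent.RED.BASE Fermat.Agent.FF.SpecialRR6
  Fermat.Agent.ES.RED.SpecialGen25 Fermat.Agent.FF.RedIface9 Fermat.Agent.FF.ConcreteR8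

variable {p M' : ℕ} [NeZero M'] [NeZero p] {A : ValuationSubring Qbar}

/-- **Riemann's theorem in large degree at the bad level**, with the Prelude genus. -/
theorem riemann_bad (h : LevelHyp p M' A) :
    ∃ c : ℤ, ∀ D : Divisor Qbar ↥(Fbar (M' * p)), c ≤ Divisor.degree D →
      ell D = Divisor.degree D + 1 - ((genus Qbar ↥(Fbar (M' * p)) : ℕ) : ℤ) :=
  riemann_genus 4 8 (M' * p) (tMemN h)

/-- Riemann's inequality at the bad level. -/
theorem riemann_inequality_bad (h : LevelHyp p M' A) (D : Divisor Qbar ↥(Fbar (M' * p))) :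
    Divisor.degree D + 1 - ((genus Qbar ↥(Fbar (M' * p)) : ℕ) : ℤ) ≤
      (Module.finrank Qbar (riemannRochSpace D) : ℤ) :=
  hR_level 4 8 (M' * p) (tMemN h) D

/-- **semicontinuity at the bad level**: one instance of the nodal Riemann inequality with the
generic genus in each large bidegree. -/
theorem semicontBound_bad (h : LevelHyp p M' A) {ι : Type*} [Finite ι]
    {Nd : NodalData (ResidueField ↥A) (Fb A M') (Fb A M') ι}
    (Nr : NodalRed A ↥(Fbar (M' * p)) Nd) (hc₁ : Nr.c₁ = c1 h) (hc₂ : Nr.c₂ = c2 h) :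
    SemicontBound Nd ((genus Qbar ↥(Fbar (M' * p)) : ℕ) : ℤ) := by
  haveI : IsAlgClosed (ResidueField ↥A) := Fermat.Agent.ES.RED.SpecialInv25.isAlgClosed_kk A
  haveI : Infinite (ResidueField ↥A) := IsAlgClosed.instInfinite
  have HL := Fermat.Agent.T33.NodalInst4A.lHyp h
  have HLb := lHyp_component h
  have hs₁ : Function.Surjective Nr.c₁.ρ := by
    rw [hc₁]; exact Fermat.Agent.T33.FrickeRed3.c1_ρ_surjective h
  have hs₂ : Function.Surjective Nr.c₂.ρ := by
    rw [hc₂]; exact Fermat.Agent.T33.FrickeRed3.c2_ρ_surjective h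
  exact Fermat.Agent.T33.NodalLat2.semicontBound (N := Nr) HL HLb HLb
    (Fermat.Agent.T33.NodalLat2.hasManySmooth₁_of_surjective Nr HL HLb hs₁)
    (Fermat.Agent.T33.NodalLat2.hasManySmooth₂_of_surjective Nr HL HLb hs₂) _
    (riemann_inequality_bad h)

set_option maxHeartbeats 3200000 in
/-- **chapter (c) at the bad level**, downstream of `H : TwoChartsHyp …`. -/
theorem contract_c_bad (h : LevelHyp p M' A) (T : TwoCharts (c1 h) (c2 h))
    [Finite T.rawRed.Node]
    (Nr : NodalRed A ↥(Fbar (M' * p)) T.rawRed.nodalData) (hc₁ : Nr.c₁ = c1 h) (hc₂ : Nr.c₂ = c2 h)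
    {x1 x2 : Fb A M'} (hx1 : IsGen (ResidueField ↥A) x1) (hx2 : IsGen (ResidueField ↥A) x2)
    [Algebra.IsSeparable (ResidueField ↥A)⟮x1⟯ (Fb A M')]
    [Algebra.IsSeparable (ResidueField ↥A)⟮x2⟯ (Fb A M')]
    (m1 m2 : ℕ)
    (H : TwoChartsHyp T (lHyp_component h) (lHyp_component h) (Fermat.Agent.T33.NodalInst4A.lHyp h)
      hx1.ne_zero hx2.ne_zero m1 m2) :
    T.rawRed.nodalData.RiemannNod ((genus Qbar ↥(Fbar (M' * p)) : ℕ) : ℤ) ∧
      T.rawRed.nodalData.RiemannEqLarge ((genus Qbar ↥(Fbar (M' * p)) : ℕ) : ℤ) ∧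
      T.rawRed.nodalData.NonSpecialExists (genus Qbar ↥(Fbar (M' * p))) := by
  haveI : IsAlgClosed (ResidueField ↥A) := Fermat.Agent.ES.RED.SpecialInv25.isAlgClosed_kk A
  letI : Fintype T.rawRed.Node := Fintype.ofFinite _
  haveI : Nonempty T.rawRed.Node := Nr.node_nonempty
  obtain ⟨D₀, hD₀⟩ := exists_delta_component h
  exact (contract_c_of_twoChartsHyp hx1 hx2 (gComp M' : ℤ) (gComp M' : ℤ)
    (riemann_component h) (riemann_component h) hD₀ hD₀ H (genus Qbar ↥(Fbar (M' * p)))
    (riemann_bad h) (semicontBound_bad h Nr hc₁ hc₂)).2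

set_option maxHeartbeats 3200000 in
/-- **the field `(c)` of the level package**: non-special smooth points with the Prelude genus of the
generic fibre. -/
theorem nonSpecialExists_bad (h : LevelHyp p M' A) (T : TwoCharts (c1 h) (c2 h))
    [Finite T.rawRed.Node]
    (Nr : NodalRed A ↥(Fbar (M' * p)) T.rawRed.nodalData) (hc₁ : Nr.c₁ = c1 h) (hc₂ : Nr.c₂ = c2 h)
    {x1 x2 : Fb A M'} (hx1 : IsGen (ResidueField ↥A) x1) (hx2 : IsGen (ResidueField ↥A) x2)
    [Algebra.IsSeparable (ResidueField ↥A)⟮x1⟯ (Fb A M')]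
    [Algebra.IsSeparable (ResidueField ↥A)⟮x2⟯ (Fb A M')]
    (m1 m2 : ℕ)
    (H : TwoChartsHyp T (lHyp_component h) (lHyp_component h) (Fermat.Agent.T33.NodalInst4A.lHyp h)
      hx1.ne_zero hx2.ne_zero m1 m2) :
    T.rawRed.nodalData.NonSpecialExists (genus Qbar ↥(Fbar (M' * p))) :=
  (contract_c_bad h T Nr hc₁ hc₂ hx1 hx2 m1 m2 H).2.2

end Fermat.Agent.T33.NodalInst6
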