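/-
Programme T (S33), nodal layer (lead): **infinitely many smooth points of each component are
reductions of places** — the hypotheses `HasManySmooth₁`, `HasManySmooth₂` of the semicontinuity
chapter `T33/NodalLat2B-E` are CONSEQUENCES of the axioms of a nodal reduction, as soon as each
Gauss ring contains one function with non-constant reduction.

Proof: for a generic constant `a` the function `ρ₁ x - ā` is non-constant, hence has a zero `Q`,
and `Q` avoids any prescribed finite set (distinct constants have disjoint zero sets) — in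
particular the branches of the nodes; the push-forward formula at the smooth point `Q` gives
`∑_{r₁ P = Q} ord_P (x - a) = ord_Q (ρ₁ x - ā) > 0`, so some place reduces to `Q`.
-/
import Mathlib
import Fermat.Agent.T33.NodalLat2B

set_option autoImplicit false

open AlgebraicCurve IsLocalRing

namespace Fermat.Agent.T33.NodalMany0

open Fermat.Agent.X0.FF Fermat.Agent.RR.LSpace
  Fermat.Agent.T33.NodalCtx1 Fermat.Agent.T33.NodalCurve6 Fermat.Agent.T33.NodalLat2

section OneSide

variable {κ Fb : Type*} [Field κ] [Field Fb] [Algebra κ Fb]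

/-- two distinct constants have no common zero of `x - a`. -/
theorem eq_of_ord_sub_pos (Q : Place κ Fb) (x : Fb) {a a' : κ}
    (h : 0 < Q.ord (x - algebraMap κ Fb a)) (h' : 0 < Q.ord (x - algebraMap κ Fb a')) :
    a = a' := by
  by_contra hne
  have hc : a' - a ≠ 0 := sub_ne_zero.mpr (Ne.symm hne)
  have h0 : Q.ord (algebraMap κ Fb (a' - a)) = 0 := ffp_ord_algebraMap Q _
  have hne' : algebraMap κ Fb (a' - a) ≠ 0 := by
    rw [Ne, map_eq_zero]; exact hc
  have heq : (x - algebraMap κ Fb a) + -(x - algebraMap κ Fb a') = algebraMap κ Fb (a' - a) := by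
    rw [map_sub]; ring
  have h1 : (1 : ℤ) ≤ Q.ord ((x - algebraMap κ Fb a) + -(x - algebraMap κ Fb a')) := by
    refine ffp_le_ord_add Q (by omega) ?_ ?_
    · rw [ffp_ord_neg]; omega
    · rw [heq]; exact hne'
  rw [heq, h0] at h1
  omega

/-- a non-constant function has a zero. -/
theorem exists_zero_of_nonconstant (HL : LHyp κ Fb) (f : Fb)
    (hf : ∀ a : κ, f ≠ algebraMap κ Fb a) : ∃ Q : Place κ Fb, 0 < Q.ord f := by
  by_contra hno
  push_neg at hno
  have hinv : ∀ v : Place κ Fb, 0 ≤ v.ord f⁻¹ := by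
    intro v
    rw [v.ord_inv]
    have := hno v
    omega
  obtain ⟨c, hc⟩ := eq_algebraMap_of_forall_ord_nonneg HL hinv
  apply hf c⁻¹
  rw [map_inv₀, ← hc, inv_inv]

/-- the constants `a` such that `x - a` vanishes at a place of a finite set form a finite set. -/
theorem finite_values (x : Fb) (S : Finset (Place κ Fb)) :
    {a : κ | ∃ Q ∈ S, 0 < Q.ord (x - algebraMap κ Fb a)}.Finite := by
  classical
  let f : Place κ Fb → κ := fun Q =>
    if h : ∃ a : κ, 0 < Q.ord (x - algebraMap κ Fb a) then h.choose else 0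
  refine (S.image f).finite_toSet.subset ?_
  rintro a ⟨Q, hQ, ha⟩
  have hex : ∃ a : κ, 0 < Q.ord (x - algebraMap κ Fb a) := ⟨a, ha⟩
  have hfQ : f Q = a := by
    simp only [f, dif_pos hex]
    exact eq_of_ord_sub_pos Q x hex.choose_spec ha
  rw [Finset.mem_coe, Finset.mem_image]
  exact ⟨Q, hQ, hfQ⟩

end OneSide

variable {K : Type*} [Field K] {A : ValuationSubring K}
variable {F : Type*} [Field F] [Algebra K F]
variable {Fb₁ Fb₂ : Type*} [Field Fb₁] [Field Fb₂]
  [Algebra (ResidueField A) Fb₁] [Algebra (ResidueField A) Fb₂]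
variable {ι : Type*} {Nd : NodalData (ResidueField A) Fb₁ Fb₂ ι} (N : NodalRed A F Nd)

/-- **many smooth points of `C₁` are reductions of places.** -/
theorem hasManySmooth₁ (HL : LHyp K F) (HL₁ : LHyp (ResidueField A) Fb₁) [Finite ι]
    [Infinite (ResidueField A)] (x : N.c₁.O)
    (hx : ∀ a : ResidueField A, N.c₁.ρ x ≠ algebraMap (ResidueField A) Fb₁ a) :
    HasManySmooth₁ N := by
  classical
  have : Fintype ι := Fintype.ofFinite ι
  intro S
  set S' : Finset (Place (ResidueField A) Fb₁) := S ∪ Finset.univ.image Nd.s1 with hS'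
  have hfin := finite_values (N.c₁.ρ x) S'
  obtain ⟨a, ha⟩ := hfin.infinite_compl.nonempty
  obtain ⟨c, rfl⟩ := residue_surjective (R := A) a
  set y : N.c₁.O := x - ⟨algebraMap K F (c : K), N.c₁.algebraMap_mem c⟩ with hy
  have hρy : N.c₁.ρ y = N.c₁.ρ x - algebraMap (ResidueField A) Fb₁ (residue A c) := by
    rw [hy, map_sub, N.c₁.ρ_algebraMap]
  have hy0 : N.c₁.ρ y ≠ 0 := by
    rw [hρy]; exact sub_ne_zero.mpr (hx _)
  obtain ⟨Q, hQ⟩ := exists_zero_of_nonconstant HL₁ (N.c₁.ρ y) (by
    intro b hb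
    apply hx (b + residue A c)
    rw [map_add, ← hb, hρy]; ring)
  have hQS' : Q ∉ S' := by
    intro hmem
    apply ha
    exact ⟨Q, hmem, by rw [← hρy]; exact hQ⟩
  have hQS : Q ∉ S := fun h => hQS' (Finset.mem_union_left _ h)
  have hsm : Nd.Smooth1 Q := by
    intro i hi
    exact hQS' (Finset.mem_union_right _ (hi ▸ Finset.mem_image_of_mem _ (Finset.mem_univ i)))
  have hpush := push₁' (N := N) HL y hy0 Q hsm
  have hex : ∃ P : Place K F, N.r₁ P = some Q := by
    by_contra hno
    push_neg at hno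
    have h0 := pushOpt_eq_zero_at N.r₁ (divOf HL (coe_ne_zero_of_ρ_ne_zero N.c₁ hy0)) Q
      (fun P hP => absurd hP (hno P))
    rw [h0] at hpush
    omega
  obtain ⟨P, hP⟩ := hex
  exact ⟨P, Q, hP, hsm, hQS⟩

/-- **many smooth points of `C₂` are reductions of places.** -/
theorem hasManySmooth₂ (HL : LHyp K F) (HL₂ : LHyp (ResidueField A) Fb₂) [Finite ι]
    [Infinite (ResidueField A)] (x : N.c₂.O)
    (hx : ∀ a : ResidueField A, N.c₂.ρ x ≠ algebraMap (ResidueField A) Fb₂ a) :
    HasManySmooth₂ N := by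
  classical
  have : Fintype ι := Fintype.ofFinite ι
  intro S
  set S' : Finset (Place (ResidueField A) Fb₂) := S ∪ Finset.univ.image Nd.s2 with hS'
  have hfin := finite_values (N.c₂.ρ x) S'
  obtain ⟨a, ha⟩ := hfin.infinite_compl.nonempty
  obtain ⟨c, rfl⟩ := residue_surjective (R := A) a
  set y : N.c₂.O := x - ⟨algebraMap K F (c : K), N.c₂.algebraMap_mem c⟩ with hy
  have hρy : N.c₂.ρ y = N.c₂.ρ x - algebraMap (ResidueField A) Fb₂ (residue A c) := by
    rw [hy, map_sub, N.c₂.ρ_algebraMap]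
  have hy0 : N.c₂.ρ y ≠ 0 := by
    rw [hρy]; exact sub_ne_zero.mpr (hx _)
  obtain ⟨Q, hQ⟩ := exists_zero_of_nonconstant HL₂ (N.c₂.ρ y) (by
    intro b hb
    apply hx (b + residue A c)
    rw [map_add, ← hb, hρy]; ring)
  have hQS' : Q ∉ S' := by
    intro hmem
    apply ha
    exact ⟨Q, hmem, by rw [← hρy]; exact hQ⟩
  have hQS : Q ∉ S := fun h => hQS' (Finset.mem_union_left _ h)
  have hsm : Nd.Smooth2 Q := by
    intro i hi
    exact hQS' (Finset.mem_union_right _ (hi ▸ Finset.mem_image_of_mem _ (Finset.mem_univ i)))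
  have hpush := push₂' (N := N) HL y hy0 Q hsm
  have hex : ∃ P : Place K F, N.r₂ P = some Q := by
    by_contra hno
    push_neg at hno
    have h0 := pushOpt_eq_zero_at N.r₂ (divOf HL (coe_ne_zero_of_ρ_ne_zero N.c₂ hy0)) Q
      (fun P hP => absurd hP (hno P))
    rw [h0] at hpush
    omega
  obtain ⟨P, hP⟩ := hex
  exact ⟨P, Q, hP, hsm, hQS⟩

end Fermat.Agent.T33.NodalMany0
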