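/-
Programme T (S33), chapter (e) "N34 over ℚ̄", block (R) (helper1), part D: **finiteness of the nodes
of a two-chart model** — the first branches of the nodes lying in the chart `k` are zeros of `ρ₁ e_k`
for any `e_k ∈ 𝔭₂ ∖ 𝔭₁` of the chart `k` (`ρ₂ e_k = 0`, `ρ₁ e_k ≠ 0`).

* `TwoCharts.node_zero₀`, `TwoCharts.node_zero₁` : if `r₁ P = some Q₁` and `r₂ P ≠ none` then
  `ρ₁ e ∈ vanishing Q₁` for every `e` of the chart of `P` with `ρ₂ e = 0`;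
* `finite_zeros_of_lHyp` : a nonzero function has finitely many zeros (`LHyp`);
* `TwoCharts.finite_node` : `Finite T.rawRed.Node`.
-/
import Mathlib
import Fermat.Agent.T33.NodalPlaces1B
import Fermat.Agent.RR.LSpace

set_option autoImplicit false

open AlgebraicCurve IsLocalRing

namespace Fermat.Agent.T33.NodalPlaces1

open Fermat.Agent.T33.NodalCtx1 Fermat.Agent.T33.NodalCurve6 Fermat.Agent.RR.LSpace

variable {K : Type*} [Field K] {A : ValuationSubring K}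
variable {F : Type*} [Field F] [Algebra K F]
variable {Fb₁ Fb₂ : Type*} [Field Fb₁] [Field Fb₂]
  [Algebra (ResidueField A) Fb₁] [Algebra (ResidueField A) Fb₂]

/-- a nonzero function has finitely many zeros. -/
theorem finite_zeros_of_lHyp {k E : Type*} [Field k] [Field E] [Algebra k E] (H : LHyp k E)
    {f : E} (hf : f ≠ 0) : {Q : Place k E | f ∈ vanishing Q}.Finite := by
  obtain ⟨D, hD, -⟩ := H.principal f hf
  refine Set.Finite.subset D.support.finite_toSet fun Q hQ => ?_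
  rcases mem_vanishing.1 hQ with h | h
  · exact absurd h hf
  · rw [Finset.mem_coe, Finsupp.mem_support_iff, hD]
    exact h.ne'

namespace TwoCharts

variable {c₁ : HalfRed A F Fb₁} {c₂ : HalfRed A F Fb₂} (T : TwoCharts c₁ c₂)

/-- **a node in the chart `0`**: its first branch is a zero of `ρ₁ e` for every `e ∈ 𝔭₂`. -/
theorem node_zero₀ {P : Place K F} {Q₁ : Place (ResidueField A) Fb₁} (hP : T.Fin0 P)
    (h1 : T.r₁ P = some Q₁) (h2 : T.r₂ P ≠ none) (e : T.C0.B) (he : T.C0.ρ₂ e = 0) :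
    T.C0.ρ₁ e ∈ vanishing Q₁ := by
  obtain ⟨χ, hχ⟩ := T.centred₀ P hP
  have hv : T.C0.Val₁ χ Q₁ := (T.red₁_iff₀ hP hχ Q₁).1 ((T.r₁_eq_some_iff P Q₁).1 h1)
  obtain ⟨Q₂, hQ₂⟩ := Option.ne_none_iff_exists'.1 h2
  have hv2 : T.C0.Val₂ χ Q₂ := (T.red₂_iff₀ hP hχ Q₂).1 ((T.r₂_eq_some_iff P Q₂).1 hQ₂)
  have h0 : χ e = 0 := T.C0.on₂_of_val₂ hv2 e he
  have := hv e
  rwa [h0, map_zero, sub_zero] at this

/-- **a node in the chart `1`.** -/
theorem node_zero₁ {P : Place K F} {Q₁ : Place (ResidueField A) Fb₁} (hP : ¬ T.Fin0 P)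
    (h1 : T.r₁ P = some Q₁) (h2 : T.r₂ P ≠ none) (e : T.C1.B) (he : T.C1.ρ₂ e = 0) :
    T.C1.ρ₁ e ∈ vanishing Q₁ := by
  obtain ⟨χ, hχ, hs⟩ := T.centred₁' P hP
  have hv : T.C1.Val₁ χ Q₁ := (T.red₁_iff₁ hP hχ hs Q₁).1 ((T.r₁_eq_some_iff P Q₁).1 h1)
  obtain ⟨Q₂, hQ₂⟩ := Option.ne_none_iff_exists'.1 h2
  have hv2 : T.C1.Val₂ χ Q₂ := (T.red₂_iff₁ hP hχ hs Q₂).1 ((T.r₂_eq_some_iff P Q₂).1 hQ₂)
  have h0 : χ e = 0 := T.C1.on₂_of_val₂ hv2 e he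
  have := hv e
  rwa [h0, map_zero, sub_zero] at this

/-- **the nodes of a two-chart model are finite**, as soon as each chart has an element of
`𝔭₂ ∖ 𝔭₁`. -/
theorem finite_node (H₁ : LHyp (ResidueField A) Fb₁)
    (e₀ : T.C0.B) (h₀ : T.C0.ρ₂ e₀ = 0) (h₀' : T.C0.ρ₁ e₀ ≠ 0)
    (e₁ : T.C1.B) (h₁ : T.C1.ρ₂ e₁ = 0) (h₁' : T.C1.ρ₁ e₁ ≠ 0) : Finite T.rawRed.Node := by
  refine T.rawRed.finite_node
    ({Q | T.C0.ρ₁ e₀ ∈ vanishing Q} ∪ {Q | T.C1.ρ₁ e₁ ∈ vanishing Q})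
    ((finite_zeros_of_lHyp H₁ h₀').union (finite_zeros_of_lHyp H₁ h₁')) ?_
  intro P Q₁ h1 h2
  by_cases hP : T.Fin0 P
  · exact Or.inl (T.node_zero₀ hP h1 h2 e₀ h₀)
  · exact Or.inr (T.node_zero₁ hP h1 h2 e₁ h₁)

end TwoCharts

end Fermat.Agent.T33.NodalPlaces1
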