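/-
Programme T (S33 via a trichotomy), chapter T3 (helper4): **Oort–Tate rigidity for `e = 1`.**

Over a noetherian local domain `R` whose maximal ideal is generated by an odd prime `p` (an unramified
base), the constant group `ℤ/p` carries NO connected Hopf order: there is no `R`-subalgebra
`H ⊆ (ZMod p → R)` which separates points, is closed under the coproduct
(`h (z + z') = ∑ a i z * b i z'`, `a i, b i ∈ H`) and is connected (`h z - h 0 ∈ 𝔪` for all `h ∈ H`).

Proof (`core_false`).  Let `χ` be the quadratic character of `ZMod p` (values `0, ±1`, so no roots of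
unity are needed) and `N := {x : R | x • χ ∈ H}`, an ideal of `R`.
* `H` is stable under `h ↦ h (u * ·)` (iterated coproduct), hence under the projector
  `b ↦ ∑ u, χ u • b (u * ·) = (∑ w, χ w * b w) • χ`: so `β b := ∑ w, χ w * b w ∈ N` for `b ∈ H`;
* Lagrange interpolation (`H` separates points) gives `b ∈ H` with `β b ≠ 0`, so `N ≠ ⊥`;
* for `a ∈ H`: `a (z + z') - a z - a z' + a 0 = ∑ (c i z - c i 0) * (d i z' - d i 0) ∈ 𝔪 ^ 2`
  (connectedness), so `α a := ∑ z, (a z - a 0) ∈ 𝔪 ^ 2` (pair `z` with `-z`; `2` is a unit);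
* for `x ∈ N` write `x * χ (z + z') = ∑ k, a k z * b k z'` and apply the functional
  `F ↦ ∑ z z', χ z' * (F z z' - F 0 z' - F z 0 + F 0 0)`: the left side is `-p * (p - 1) * x`
  (character sums), the right side is `∑ k, α (a k) * β (b k) ∈ 𝔪 ^ 2 * N`.  As `𝔪 = (p)`:
  `x ∈ 𝔪 * N`.  So `N ≤ 𝔪 * N` and Nakayama gives `N = ⊥`: contradiction.
-/
import Mathlib
import Fermat.Agent.FF.SubOrd1

set_option autoImplicit false

namespace Fermat.Agent.T33.OortTate4

open IsLocalRing

section Core

variable {R : Type*} [CommRing R]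
variable {p : ℕ} [Fact p.Prime]

/-- `h (z + z') = ∑ i, a i z * b i z'` with `a i, b i ∈ H`, for functions on `ZMod p` with values
in the base ring. -/
def HasCoprodR (H : Subalgebra R (ZMod p → R)) (h : ZMod p → R) : Prop :=
  ∃ (ι : Type) (_ : Fintype ι) (a b : ι → ZMod p → R), (∀ i, a i ∈ H) ∧ (∀ i, b i ∈ H) ∧
    ∀ z z', h (z + z') = ∑ i, a i z * b i z'

variable {H : Subalgebra R (ZMod p → R)}

/-- `H` is stable under `h ↦ h ((k + 1) * ·)`. -/
theorem comp_natCast_mul_mem (hΔ : ∀ h ∈ H, HasCoprodR H h) (k : ℕ) :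
    ∀ h ∈ H, (fun z => h (((k + 1 : ℕ) : ZMod p) * z)) ∈ H := by
  induction k with
  | zero =>
    intro h hh
    simpa using hh
  | succ k ih =>
    intro h hh
    obtain ⟨ι, _, a, b, ha, hb, hab⟩ := hΔ h hh
    have : (fun z => h (((k + 1 + 1 : ℕ) : ZMod p) * z)) =
        ∑ i, (fun z => a i (((k + 1 : ℕ) : ZMod p) * z)) * b i := by
      funext z
      have h1 : ((k + 1 + 1 : ℕ) : ZMod p) * z = ((k + 1 : ℕ) : ZMod p) * z + z := by
        push_cast; ring
      rw [h1, hab]
      simp
    rw [this]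
    exact H.sum_mem fun i _ => H.mul_mem (ih _ (ha i)) (hb i)

/-- `H` is stable under `h ↦ h (u * ·)`, `u ≠ 0`. -/
theorem comp_mul_mem (hΔ : ∀ h ∈ H, HasCoprodR H h) {u : ZMod p} (hu : u ≠ 0) :
    ∀ h ∈ H, (fun z => h (u * z)) ∈ H := by
  intro h hh
  have hval : u.val ≠ 0 := by
    intro h0
    exact hu ((ZMod.val_eq_zero u).1 h0)
  obtain ⟨k, hk⟩ := Nat.exists_eq_succ_of_ne_zero hval
  have := comp_natCast_mul_mem hΔ k h hh
  have hu' : ((k + 1 : ℕ) : ZMod p) = u := by
    rw [← Nat.succ_eq_add_one, ← hk, ZMod.natCast_zmod_val]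
  rwa [hu'] at this


section Char

variable (χ : ZMod p → R)

/-- the projector onto the `χ`-eigenspace maps `H` into `H`: `(∑ w, χ w * b w) • χ ∈ H`. -/
theorem beta_smul_mem (hΔ : ∀ h ∈ H, HasCoprodR H h)
    (hχ0 : χ 0 = 0) (hχm : ∀ a b, χ (a * b) = χ a * χ b) (hχs : ∀ a, a ≠ 0 → χ a * χ a = 1)
    (hχsum : ∑ a, χ a = 0) {b : ZMod p → R} (hb : b ∈ H) :
    (fun z => (∑ w, χ w * b w) * χ z) ∈ H := by
  have hP : (∑ u, χ u • (fun z => b (u * z))) ∈ H := by
    refine H.sum_mem fun u _ => ?_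
    by_cases hu : u = 0
    · rw [hu, hχ0, zero_smul]
      exact H.zero_mem
    · exact H.smul_mem (comp_mul_mem hΔ hu b hb) _
  have heq : (fun z => (∑ w, χ w * b w) * χ z) = ∑ u, χ u • (fun z => b (u * z)) := by
    funext z
    simp only [Finset.sum_apply, Pi.smul_apply, smul_eq_mul]
    by_cases hz : z = 0
    · subst hz
      simp only [mul_zero, hχ0]
      rw [← Finset.sum_mul, hχsum, zero_mul]
    · have h1 : χ z * ∑ u, χ u * b (u * z) = ∑ w, χ w * b w := by
        rw [Finset.mul_sum]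
        rw [← Fintype.sum_equiv (Equiv.mulRight₀ z hz) (fun u => χ z * (χ u * b (u * z)))
          (fun w => χ w * b w)]
        intro u
        simp only [Equiv.mulRight₀_apply]
        rw [hχm]
        ring
      calc (∑ w, χ w * b w) * χ z = (χ z * ∑ u, χ u * b (u * z)) * χ z := by rw [h1]
        _ = (χ z * χ z) * ∑ u, χ u * b (u * z) := by ring
        _ = ∑ u, χ u * b (u * z) := by rw [hχs z hz, one_mul]
  rw [heq]
  exact hP

end Char


section Connected

variable [IsLocalRing R]

/-- connectedness + coproduct: `∑ z, (a z - a 0) ∈ 𝔪 ^ 2` for `a ∈ H`. -/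
theorem alpha_mem_sq (hΔ : ∀ h ∈ H, HasCoprodR H h)
    (hconn : ∀ h ∈ H, ∀ z, h z - h 0 ∈ maximalIdeal R) (h2 : IsUnit (2 : R))
    {a : ZMod p → R} (ha : a ∈ H) :
    ∑ z, (a z - a 0) ∈ maximalIdeal R ^ 2 := by
  obtain ⟨ι, _, c, d, hc, hd, hcd⟩ := hΔ a ha
  have hE : ∀ z z', a (z + z') - a z - a z' + a 0 ∈ maximalIdeal R ^ 2 := by
    intro z z'
    have : a (z + z') - a z - a z' + a 0 = ∑ i, (c i z - c i 0) * (d i z' - d i 0) := by
      have e1 := hcd z z'
      have e2 := hcd z 0
      have e3 := hcd 0 z'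
      have e4 := hcd 0 0
      simp only [add_zero, zero_add] at e2 e3 e4
      rw [e1, e2, e3, e4, ← Finset.sum_sub_distrib, ← Finset.sum_sub_distrib,
        ← Finset.sum_add_distrib]
      apply Finset.sum_congr rfl
      intro i _
      ring
    rw [this]
    refine Ideal.sum_mem _ fun i _ => ?_
    rw [pow_two]
    exact Ideal.mul_mem_mul (hconn _ (hc i) z) (hconn _ (hd i) z')
  have h2α : (2 : R) * ∑ z, (a z - a 0) ∈ maximalIdeal R ^ 2 := by
    have hneg : ∑ z, (a (-z) - a 0) = ∑ z, (a z - a 0) :=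
      Fintype.sum_equiv (Equiv.neg _) _ _ (fun z => rfl)
    have : (2 : R) * ∑ z, (a z - a 0) = - ∑ z, (a (z + -z) - a z - a (-z) + a 0) := by
      rw [two_mul]
      nth_rewrite 2 [← hneg]
      rw [← Finset.sum_add_distrib, ← Finset.sum_neg_distrib]
      apply Finset.sum_congr rfl
      intro z _
      rw [add_neg_cancel]
      ring
    rw [this]
    exact (Ideal.neg_mem_iff _).2 (Ideal.sum_mem _ fun z _ => hE z (-z))
  exact (Ideal.unit_mul_mem_iff_mem _ h2).1 h2α

end Connected


section Identity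

/-- **the key identity**: apply `F ↦ ∑ z z', χ z' * (F z z' - F 0 z' - F z 0 + F 0 0)` to both sides
of `x * χ (z + z') = ∑ k, a k z * b k z'`. -/
theorem key_identity (χ : ZMod p → R) (hχ0 : χ 0 = 0) (hχs : ∀ a, a ≠ 0 → χ a * χ a = 1)
    (hχsum : ∑ a, χ a = 0) (x : R) {κ : Type} [Fintype κ] (a b : κ → ZMod p → R)
    (hab : ∀ z z', x * χ (z + z') = ∑ k, a k z * b k z') :
    -((p : R) * ((p : R) - 1) * x) = ∑ k, (∑ z, (a k z - a k 0)) * (∑ w, χ w * b k w) := by
  -- the three character sums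
  have hS1 : ∑ z, ∑ z', χ z' * χ (z + z') = 0 := by
    rw [Finset.sum_comm]
    have : ∀ z', ∑ z, χ z' * χ (z + z') = 0 := by
      intro z'
      rw [← Finset.mul_sum]
      have : ∑ z, χ (z + z') = ∑ w, χ w :=
        Fintype.sum_equiv (Equiv.addRight z') _ _ (fun z => rfl)
      rw [this, hχsum, mul_zero]
    simp only [this, Finset.sum_const_zero]
  have hsq : ∑ z' : ZMod p, χ z' * χ z' = (p : R) - 1 := by
    have h0 : χ 0 * χ 0 = 0 := by rw [hχ0, mul_zero]
    rw [← Finset.sum_erase Finset.univ (f := fun z' => χ z' * χ z') (a := 0) h0]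
    have : ∀ z' ∈ (Finset.univ : Finset (ZMod p)).erase 0, χ z' * χ z' = 1 := by
      intro z' hz'
      exact hχs z' (Finset.ne_of_mem_erase hz')
    rw [Finset.sum_congr rfl this, Finset.sum_const, Finset.card_erase_of_mem (Finset.mem_univ _),
      Finset.card_univ, ZMod.card, nsmul_eq_mul, mul_one,
      Nat.cast_sub (Fact.out : p.Prime).one_lt.le, Nat.cast_one]
  have hS2 : ∑ _z : ZMod p, ∑ z', χ z' * χ z' = (p : R) * ((p : R) - 1) := by
    rw [Finset.sum_const, Finset.card_univ, ZMod.card, nsmul_eq_mul, hsq]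
  have hS3 : ∑ z, ∑ z', χ z' * χ z = 0 := by
    have : ∀ z, ∑ z', χ z' * χ z = 0 := by
      intro z
      rw [← Finset.sum_mul, hχsum, zero_mul]
    simp only [this, Finset.sum_const_zero]
  -- the functional on the left-hand side
  have hT1 : ∑ z, ∑ z', χ z' * (x * χ (z + z') - x * χ (0 + z') - x * χ (z + 0) + x * χ (0 + 0))
      = -((p : R) * ((p : R) - 1) * x) := by
    have : ∀ z z', χ z' * (x * χ (z + z') - x * χ (0 + z') - x * χ (z + 0) + x * χ (0 + 0))
        = x * (χ z' * χ (z + z')) - x * (χ z' * χ z') - x * (χ z' * χ z) := by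
      intro z z'
      rw [zero_add, add_zero, add_zero, hχ0]
      ring
    simp only [this, Finset.sum_sub_distrib, ← Finset.mul_sum, hS1, hS2, hS3]
    ring
  -- the functional on the right-hand side
  have hT2 : ∑ z, ∑ z', χ z' * (x * χ (z + z') - x * χ (0 + z') - x * χ (z + 0) + x * χ (0 + 0))
      = ∑ k, (∑ z, (a k z - a k 0)) * (∑ w, χ w * b k w) := by
    have hβ : ∀ k, ∑ w, χ w * b k w = ∑ w, χ w * (b k w - b k 0) := by
      intro k
      have : ∑ w, χ w * (b k w - b k 0) = ∑ w, χ w * b k w - (∑ w, χ w) * b k 0 := by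
        rw [Finset.sum_mul, ← Finset.sum_sub_distrib]
        apply Finset.sum_congr rfl
        intro w _
        ring
      rw [this, hχsum, zero_mul, sub_zero]
    have hF : ∀ z z', x * χ (z + z') - x * χ (0 + z') - x * χ (z + 0) + x * χ (0 + 0)
        = ∑ k, (a k z - a k 0) * (b k z' - b k 0) := by
      intro z z'
      rw [hab z z', hab 0 z', hab z 0, hab 0 0, ← Finset.sum_sub_distrib,
        ← Finset.sum_sub_distrib, ← Finset.sum_add_distrib]
      apply Finset.sum_congr rfl
      intro k _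
      ring
    calc ∑ z, ∑ z', χ z' * (x * χ (z + z') - x * χ (0 + z') - x * χ (z + 0) + x * χ (0 + 0))
        = ∑ z, ∑ z', ∑ k, (a k z - a k 0) * (χ z' * (b k z' - b k 0)) := by
          apply Finset.sum_congr rfl
          intro z _
          apply Finset.sum_congr rfl
          intro z' _
          rw [hF, Finset.mul_sum]
          apply Finset.sum_congr rfl
          intro k _
          ring
      _ = ∑ z, ∑ k, ∑ z', (a k z - a k 0) * (χ z' * (b k z' - b k 0)) := by
          apply Finset.sum_congr rfl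
          intro z _
          exact Finset.sum_comm
      _ = ∑ k, ∑ z, ∑ z', (a k z - a k 0) * (χ z' * (b k z' - b k 0)) := Finset.sum_comm
      _ = ∑ k, (∑ z, (a k z - a k 0)) * (∑ w, χ w * (b k w - b k 0)) := by
          apply Finset.sum_congr rfl
          intro k _
          rw [Finset.sum_mul_sum]
      _ = ∑ k, (∑ z, (a k z - a k 0)) * (∑ w, χ w * b k w) := by
          apply Finset.sum_congr rfl
          intro k _
          rw [hβ k]
  rw [← hT1, hT2]

end Identity


section Main

variable [IsDomain R] [IsLocalRing R] [IsNoetherianRing R]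

/-- **Oort–Tate rigidity, core form**: over a noetherian local domain with maximal ideal `(p)`,
`p` odd, there is no connected, point-separating, coproduct-closed order of functions on `ZMod p`. -/
theorem core_false (hp2 : p ≠ 2) (hpR : maximalIdeal R = Ideal.span {(p : R)})
    (H : Subalgebra R (ZMod p → R))
    (hsep : ∀ z z' : ZMod p, z ≠ z' → ∃ h ∈ H, h z ≠ h z')
    (hΔ : ∀ h ∈ H, HasCoprodR H h)
    (hconn : ∀ h ∈ H, ∀ z, h z - h 0 ∈ maximalIdeal R) : False := by
  have hpprime : p.Prime := Fact.out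
  have hpm : (p : R) ∈ maximalIdeal R := by
    rw [hpR]
    exact Ideal.subset_span rfl
  have hone : (1 : R) ∉ maximalIdeal R := fun h =>
    (maximalIdeal.isMaximal R).ne_top ((Ideal.eq_top_iff_one _).2 h)
  -- `2` and `p - 1` are units
  have h2 : IsUnit (2 : R) := by
    by_contra hnu
    have h2m : (2 : R) ∈ maximalIdeal R := (mem_maximalIdeal _).2 hnu
    obtain ⟨k, hk⟩ := hpprime.eq_two_or_odd'.resolve_left hp2
    apply hone
    have : (1 : R) = (p : R) - 2 * (k : R) := by
      rw [hk]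
      push_cast
      ring
    rw [this]
    exact Ideal.sub_mem _ hpm (Ideal.mul_mem_right _ _ h2m)
  have hu : IsUnit ((p : R) - 1) := by
    by_contra hnu
    have hm : (p : R) - 1 ∈ maximalIdeal R := (mem_maximalIdeal _).2 hnu
    apply hone
    have : (1 : R) = (p : R) - ((p : R) - 1) := by ring
    rw [this]
    exact Ideal.sub_mem _ hpm hm
  -- `p ≠ 0` in `R`
  have hp0 : (p : R) ≠ 0 := by
    intro h0
    obtain ⟨h, hh, hne⟩ := hsep 1 0 one_ne_zero
    have := hconn h hh 1
    rw [hpR, h0, Ideal.span_singleton_zero, Ideal.mem_bot, sub_eq_zero] at this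
    exact hne this
  -- the quadratic character, with values in `R`
  set χ : ZMod p → R := fun z => ((quadraticChar (ZMod p) z : ℤ) : R) with hχdef
  have hchar : ringChar (ZMod p) ≠ 2 := by
    rw [ZMod.ringChar_zmod_n]
    exact hp2
  have hχ0 : χ 0 = 0 := by
    simp only [hχdef, quadraticChar_zero, Int.cast_zero]
  have hχm : ∀ a b, χ (a * b) = χ a * χ b := by
    intro a b
    simp only [hχdef, map_mul, Int.cast_mul]
  have hχs : ∀ a, a ≠ 0 → χ a * χ a = 1 := by
    intro a ha
    simp only [hχdef]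
    rw [← Int.cast_mul, ← pow_two, quadraticChar_sq_one ha, Int.cast_one]
  have hχsum : ∑ a, χ a = 0 := by
    simp only [hχdef]
    rw [← Int.cast_sum, quadraticChar_sum_zero hchar, Int.cast_zero]
  have hχ1 : χ 1 = 1 := by
    simp only [hχdef, map_one, Int.cast_one]
  -- the ideal `N`
  let N : Ideal R :=
    { carrier := {x | (fun z => x * χ z) ∈ H}
      add_mem' := by
        intro x y hx hy
        have : (fun z => (x + y) * χ z) = (fun z => x * χ z) + (fun z => y * χ z) := by
          funext z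
          simp only [Pi.add_apply]
          ring
        show (fun z => (x + y) * χ z) ∈ H
        rw [this]
        exact H.add_mem hx hy
      zero_mem' := by
        show (fun z => (0 : R) * χ z) ∈ H
        have : (fun z => (0 : R) * χ z) = (0 : ZMod p → R) := by
          funext z
          simp
        rw [this]
        exact H.zero_mem
      smul_mem' := by
        intro r x hx
        have : (fun z => (r • x) * χ z) = r • (fun z => x * χ z) := by
          funext z
          simp only [Pi.smul_apply, smul_eq_mul]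
          ring
        show (fun z => (r • x) * χ z) ∈ H
        rw [this]
        exact H.smul_mem hx r }
  have hN : ∀ x, x ∈ N ↔ (fun z => x * χ z) ∈ H := fun x => Iff.rfl
  have hβN : ∀ b ∈ H, (∑ w, χ w * b w) ∈ N := fun b hb =>
    (hN _).2 (beta_smul_mem χ hΔ hχ0 hχm hχs hχsum hb)
  -- `N ≠ ⊥` by Lagrange interpolation
  have hNne : N ≠ ⊥ := by
    have hsel : ∀ z' : ZMod p, ∃ h : ZMod p → R, (1 : ZMod p) ≠ z' → h ∈ H ∧ h 1 ≠ h z' := by
      intro z'
      by_cases hz : (1 : ZMod p) = z'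
      · exact ⟨0, fun h => absurd hz h⟩
      · obtain ⟨h, hh, hne⟩ := hsep 1 z' hz
        exact ⟨h, fun _ => ⟨hh, hne⟩⟩
    choose f hf using hsel
    set g : ZMod p → R :=
      ∏ z' ∈ (Finset.univ : Finset (ZMod p)).erase 1,
        (f z' - algebraMap R (ZMod p → R) (f z' z')) with hg
    have hgH : g ∈ H := by
      refine Subalgebra.prod_mem _ fun z' hz' => ?_
      exact H.sub_mem (hf z' (Finset.ne_of_mem_erase hz').symm).1 (H.algebraMap_mem _)
    have hgval : ∀ w, g w = ∏ z' ∈ (Finset.univ : Finset (ZMod p)).erase 1, (f z' w - f z' z') := by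
      intro w
      simp only [hg, Finset.prod_apply, Pi.sub_apply, Pi.algebraMap_apply, Algebra.algebraMap_self,
        RingHom.id_apply]
    have hg0 : ∀ w, w ≠ 1 → g w = 0 := by
      intro w hw
      rw [hgval]
      exact Finset.prod_eq_zero (Finset.mem_erase.2 ⟨hw, Finset.mem_univ _⟩) (sub_self _)
    have hg1 : g 1 ≠ 0 := by
      rw [hgval]
      refine Finset.prod_ne_zero_iff.2 fun z' hz' => ?_
      exact sub_ne_zero.2 (hf z' (Finset.ne_of_mem_erase hz').symm).2
    have hβg : ∑ w, χ w * g w = g 1 := by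
      rw [Finset.sum_eq_single 1]
      · rw [hχ1, one_mul]
      · intro w _ hw
        rw [hg0 w hw, mul_zero]
      · intro h
        exact absurd (Finset.mem_univ _) h
    intro hbot
    have := hβN g hgH
    rw [hβg, hbot, Ideal.mem_bot] at this
    exact hg1 this
  -- `N ≤ 𝔪 • N`
  have hle : N ≤ maximalIdeal R • N := by
    intro x hx
    obtain ⟨κ, _, a, b, ha, hb, hab⟩ := hΔ _ ((hN x).1 hx)
    have hkey := key_identity χ hχ0 hχs hχsum x a b hab
    have hα : ∀ k, ∃ t : R, t * (p : R) ^ 2 = ∑ z, (a k z - a k 0) := by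
      intro k
      have := alpha_mem_sq hΔ hconn h2 (ha k)
      rw [hpR, Ideal.span_singleton_pow] at this
      exact Ideal.mem_span_singleton'.1 this
    choose t ht using hα
    have hn : (∑ k, t k * ∑ w, χ w * b k w) ∈ N :=
      N.sum_mem fun k _ => N.mul_mem_left _ (hβN _ (hb k))
    have h1 : -((p : R) * ((p : R) - 1) * x) = (p : R) ^ 2 * ∑ k, t k * ∑ w, χ w * b k w := by
      rw [hkey, Finset.mul_sum]
      apply Finset.sum_congr rfl
      intro k _
      rw [← ht k]
      ring
    have h2' : -(((p : R) - 1) * x) = (p : R) * ∑ k, t k * ∑ w, χ w * b k w := by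
      apply mul_left_cancel₀ hp0
      have : (p : R) * -(((p : R) - 1) * x) = -((p : R) * ((p : R) - 1) * x) := by ring
      rw [this, h1]
      ring
    obtain ⟨u, hu'⟩ := hu
    have hx' : x = (p : R) * (-(↑u⁻¹ : R) * ∑ k, t k * ∑ w, χ w * b k w) := by
      have : x = (↑u⁻¹ : R) * (((p : R) - 1) * x) := by
        rw [← hu', ← mul_assoc, Units.inv_mul, one_mul]
      rw [this]
      have h3 : ((p : R) - 1) * x = -((p : R) * ∑ k, t k * ∑ w, χ w * b k w) := by
        rw [← h2', neg_neg]
      rw [h3]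
      ring
    rw [hx', smul_eq_mul]
    exact Ideal.mul_mem_mul hpm (N.mul_mem_left _ hn)
  -- Nakayama
  have hjac : maximalIdeal R ≤ Ideal.jacobson ⊥ := by
    rw [IsLocalRing.jacobson_eq_maximalIdeal ⊥ bot_ne_top]
  exact hNne (Submodule.eq_bot_of_le_smul_of_le_jacobson_bot (maximalIdeal R) N
    (IsNoetherian.noetherian N) hle hjac)

end Main

end Core

section Bridge

open Fermat.Agent.FF.SubOrd1 Fermat.Agent.FF.HopfOrderB Fermat.Agent.FF.HopfOrderC

variable {R : Type*} [CommRing R] [IsDomain R] [IsLocalRing R] [IsNoetherianRing R]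
  [IsIntegrallyClosed R]
variable {K : Type*} [Field K] [Algebra R K] [IsFractionRing R K]
variable {Kbar : Type*} [Field Kbar] [Algebra R Kbar] [Algebra K Kbar] [IsScalarTower R K Kbar]
variable {Γ : Type*} [Group Γ] [MulSemiringAction Γ Kbar]
variable {Q : Type*} [AddCommGroup Q] [DistribMulAction Γ Q]
variable {p : ℕ} [Fact p.Prime]

omit [IsDomain R] [IsLocalRing R] [IsNoetherianRing R] in
/-- Values of a finite order of equivariant functions on a module with TRIVIAL action lie in `R`
(for `R` integrally closed with fraction field `K` the fixed field of `Γ`). -/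
theorem eval_mem_range_of_trivial
    (hfix : ∀ x : Kbar, (∀ σ : Γ, σ • x = x) → x ∈ (algebraMap K Kbar).range)
    (htriv : ∀ (σ : Γ) (z : Q), σ • z = z)
    {H : Subalgebra R (Q → Kbar)} [Module.Finite R H]
    (hequiv : ∀ h ∈ H, IsEquivariantFun Γ h) :
    ∀ h ∈ H, ∀ z, h z ∈ (algebraMap R Kbar).range := by
  intro h hh z
  have h1 : ∀ σ : Γ, σ • h z = h z := fun σ => by rw [← hequiv h hh σ z, htriv]
  obtain ⟨x, hx⟩ := hfix _ h1
  have hint : IsIntegral R (⟨h, hh⟩ : H) := IsIntegral.of_finite R _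
  have hint2 : IsIntegral R (h z) := by
    have := hint.map ((Pi.evalAlgHom R (fun _ : Q => Kbar) z).comp H.val)
    simpa using this
  rw [← hx] at hint2
  have hint3 : IsIntegral R x :=
    (isIntegral_algebraMap_iff (algebraMap K Kbar).injective).1 hint2
  obtain ⟨y, hy⟩ := IsIntegrallyClosed.algebraMap_eq_of_integral hint3
  exact ⟨y, by rw [← hx, ← hy, ← IsScalarTower.algebraMap_apply]⟩

/-- **Oort–Tate rigidity (`e = 1`, `p` odd)**: a `p`-group `Q` with TRIVIAL `Γ`-action carrying a
connected Hopf order over an unramified base `R` (maximal ideal `(p)`) is zero.  Connectedness is used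
in the weak form: whenever `h z - h 0` is (the image of) an element of `R`, it lies in `𝔪_R`. -/
theorem eq_zero_of_connected (hp2 : p ≠ 2) (hpR : maximalIdeal R = Ideal.span {(p : R)})
    (hfix : ∀ x : Kbar, (∀ σ : Γ, σ • x = x) → x ∈ (algebraMap K Kbar).range)
    (htriv : ∀ (σ : Γ) (z : Q), σ • z = z)
    (hQ : ∀ z : Q, ∃ k : ℕ, p ^ k • z = 0)
    {H : Subalgebra R (Q → Kbar)} (hH : IsHopfOrder Γ H)
    (hconn : ∀ h ∈ H, ∀ z, ∀ r : R, algebraMap R Kbar r = h z - h 0 → r ∈ maximalIdeal R) :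
    ∀ z : Q, z = 0 := by
  classical
  by_contra hne
  push Not at hne
  obtain ⟨z, hz⟩ := hne
  have := hH.finite
  have hinj : Function.Injective (algebraMap R Kbar) := by
    rw [IsScalarTower.algebraMap_eq R K Kbar]
    exact (algebraMap K Kbar).injective.comp (IsFractionRing.injective R K)
  -- an element of order `p`
  obtain ⟨z₀, hz₀, hpz₀⟩ : ∃ z₀ : Q, z₀ ≠ 0 ∧ p • z₀ = 0 := by
    have hk₀ : p ^ Nat.find (hQ z) • z = 0 := Nat.find_spec (hQ z)
    have hk₀pos : Nat.find (hQ z) ≠ 0 := by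
      intro h0
      rw [h0, pow_zero, one_smul] at hk₀
      exact hz hk₀
    obtain ⟨j, hj⟩ := Nat.exists_eq_succ_of_ne_zero hk₀pos
    refine ⟨p ^ j • z, ?_, ?_⟩
    · intro h0
      exact Nat.find_min (hQ z) (m := j) (by omega) h0
    · rw [← mul_smul, ← pow_succ', ← Nat.succ_eq_add_one, ← hj]
      exact hk₀
  -- the embedding `ZMod p → Q`
  let ι : ZMod p →+ Q := ZMod.lift p ⟨zmultiplesHom Q z₀, by
    rw [zmultiplesHom_apply, natCast_zsmul]; exact hpz₀⟩
  have hι1 : ι 1 = z₀ := by
    have := ZMod.lift_coe p (⟨zmultiplesHom Q z₀, by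
      rw [zmultiplesHom_apply, natCast_zsmul]; exact hpz₀⟩ : {f : ℤ →+ Q // f p = 0}) 1
    simpa using this
  have hιker : ∀ c : ZMod p, ι c = 0 → c = 0 := by
    intro c hc
    by_contra hc0
    apply hz₀
    have h1 : ι (c⁻¹ * c) = (c⁻¹).val • ι c := by
      rw [← map_nsmul, nsmul_eq_mul, ZMod.natCast_zmod_val]
    rw [inv_mul_cancel₀ hc0, hι1, hc, smul_zero] at h1
    exact h1
  have hιinj : Function.Injective ι := (injective_iff_map_eq_zero ι).2 hιker
  -- values in `R`
  have hval := eval_mem_range_of_trivial hfix htriv hH.equivariant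
  have hΔQ : ∀ h ∈ H, HasCoprod H h := by
    obtain ⟨S, hS, hSΔ⟩ := hH.coprod
    exact hasCoprod_of_adjoin hS hSΔ
  -- the order on `ZMod p`, with values in `R`
  let H0 : Subalgebra R (ZMod p → R) :=
    { carrier := {f | ∃ h ∈ H, ∀ a, h (ι a) = algebraMap R Kbar (f a)}
      mul_mem' := by
        rintro f g ⟨h, hh, hf⟩ ⟨k, hk, hg⟩
        exact ⟨h * k, H.mul_mem hh hk, fun a => by
          simp only [Pi.mul_apply, hf a, hg a, map_mul]⟩
      add_mem' := by
        rintro f g ⟨h, hh, hf⟩ ⟨k, hk, hg⟩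
        exact ⟨h + k, H.add_mem hh hk, fun a => by
          simp only [Pi.add_apply, hf a, hg a, map_add]⟩
      algebraMap_mem' := by
        intro r
        exact ⟨algebraMap R (Q → Kbar) r, H.algebraMap_mem r, fun a => by
          simp only [Pi.algebraMap_apply, Algebra.algebraMap_self, RingHom.id_apply]⟩ }
  have hH0 : ∀ f, f ∈ H0 ↔ ∃ h ∈ H, ∀ a, h (ι a) = algebraMap R Kbar (f a) := fun f => Iff.rfl
  -- every `h ∈ H` restricts to an element of `H0`
  have hlow : ∀ h ∈ H, ∃ f ∈ H0, ∀ a, h (ι a) = algebraMap R Kbar (f a) := by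
    intro h hh
    choose f hf using fun a => hval h hh (ι a)
    exact ⟨f, (hH0 f).2 ⟨h, hh, fun a => (hf a).symm⟩, fun a => (hf a).symm⟩
  refine core_false hp2 hpR H0 ?_ ?_ ?_
  · -- separation
    intro a a' haa'
    have : ι a ≠ ι a' := fun h => haa' (hιinj h)
    have : ∃ h ∈ H, h (ι a) ≠ h (ι a') := by
      by_contra hcon
      push Not at hcon
      exact this (hH.separates _ _ hcon)
    obtain ⟨h, hh, hne⟩ := this
    obtain ⟨f, hfH0, hf⟩ := hlow h hh
    refine ⟨f, hfH0, fun heq => hne ?_⟩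
    rw [hf a, hf a', heq]
  · -- coproduct
    intro f hf
    obtain ⟨h, hh, hfh⟩ := (hH0 f).1 hf
    obtain ⟨κ, _, a, b, ha, hb, hab⟩ := hΔQ h hh
    choose a' ha'H0 ha' using fun i => hlow (a i) (ha i)
    choose b' hb'H0 hb' using fun i => hlow (b i) (hb i)
    refine ⟨κ, inferInstance, a', b', ha'H0, hb'H0, fun z z' => hinj ?_⟩
    rw [← hfh, map_add, hab, map_sum]
    apply Finset.sum_congr rfl
    intro i _
    rw [map_mul, ha' i, hb' i]
  · -- connectedness
    intro f hf a
    obtain ⟨h, hh, hfh⟩ := (hH0 f).1 hf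
    apply hconn h hh (ι a) (f a - f 0)
    rw [map_sub, ← hfh, ← hfh, map_zero]

/-- `eq_zero_of_connected` with connectedness measured by a valuation subring `A` of `K̄`
dominating `R`: `h z - h 0 ∈ 𝔪_A` for all `h ∈ H`, `z ∈ Q`. -/
theorem eq_zero_of_connected_valuationSubring (hp2 : p ≠ 2)
    (hpR : maximalIdeal R = Ideal.span {(p : R)})
    (hfix : ∀ x : Kbar, (∀ σ : Γ, σ • x = x) → x ∈ (algebraMap K Kbar).range)
    (htriv : ∀ (σ : Γ) (z : Q), σ • z = z)
    (hQ : ∀ z : Q, ∃ k : ℕ, p ^ k • z = 0)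
    {H : Subalgebra R (Q → Kbar)} (hH : IsHopfOrder Γ H)
    (A : ValuationSubring Kbar)
    (hdom : ∀ r : R, algebraMap R Kbar r ∈ A.nonunits → r ∈ maximalIdeal R)
    (hconn : ∀ h ∈ H, ∀ z, h z - h 0 ∈ A.nonunits) :
    ∀ z : Q, z = 0 :=
  eq_zero_of_connected hp2 hpR hfix htriv hQ hH
    (fun h hh z r hr => hdom r (by rw [hr]; exact hconn h hh z))

end Bridge

end Fermat.Agent.T33.OortTate4
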