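/-
Programme T (S33 via a trichotomy), TEST chapter, abstract Tate layer (helper5).

`red : J →+ J'` an additive map, `G` acting on `J`, `I ≤ G` a subgroup with `red (σ • z) = red z`
for `σ ∈ I`.  Then `Ψ := TateModule13.map red : T_p J →ₗ[ℤ_p] T_p J'` is

* `I`-invariant                                   (`psi_rho`),
* with torsion-free target, hence saturated kernel (`smul_mem_ker_iff`),
* `x ∈ ker Ψ → red (proj m x) = 0`                 (`red_proj_eq_zero`),
* `x ∈ ker Ψ`, `proj m x = 0 → x ∈ p ^ m • ker Ψ` (`exists_mem_ker_eq_smul`): the map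
  `ker Ψ ⧸ p ^ m → {z ∈ J[p ^ m] | red z = 0}`, `x ↦ proj m x`, is injective,
* and it is `G`-equivariant                        (`TateModule13.proj_rho`).

Mathlib + `ES/J/TateModule13` only.
-/
import Mathlib
import Fermat.Agent.ES.J.TateModule13

set_option autoImplicit false

namespace Fermat.Agent.T33.TestGood5A

open Fermat.Agent.ES.J.TateModule13

variable {p : ℕ} [hp : Fact p.Prime] {J J' : Type*} [AddCommGroup J] [AddCommGroup J']

/-- `Ψ = T_p(red)`. -/
noncomputable def psi (red : J →+ J') : TateModule p J →ₗ[ℤ_[p]] TateModule p J' := map red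

theorem proj_psi (red : J →+ J') (x : TateModule p J) (k : ℕ) :
    proj k (psi red x) = red (proj k x) := rfl

section Invariance

variable {G : Type*} [Monoid G] [DistribMulAction G J]

/-- **`I`-invariance** of `Ψ`. -/
theorem psi_rho (red : J →+ J') {σ : G} (h : ∀ z : J, red (σ • z) = red z)
    (x : TateModule p J) : psi red (rho p J σ x) = psi red x := by
  apply Subtype.ext
  funext k
  show red (σ • proj k x) = red (proj k x)
  exact h _

end Invariance

/-- **saturation** of the kernel (the target is torsion-free). -/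
theorem smul_mem_ker_iff (red : J →+ J') {a : ℤ_[p]} (ha : a ≠ 0) (x : TateModule p J) :
    a • x ∈ LinearMap.ker (psi (p := p) red) ↔ x ∈ LinearMap.ker (psi (p := p) red) := by
  rw [LinearMap.mem_ker, LinearMap.mem_ker, map_smul]
  constructor
  · intro h
    exact eq_zero_of_smul_eq_zero ha h
  · intro h
    rw [h, smul_zero]

/-- on the kernel, all finite levels reduce to zero. -/
theorem red_proj_eq_zero (red : J →+ J') {x : TateModule p J}
    (hx : x ∈ LinearMap.ker (psi (p := p) red)) (m : ℕ) : red (proj m x) = 0 := by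
  rw [LinearMap.mem_ker] at hx
  rw [← proj_psi, hx]
  rfl

/-- conversely. -/
theorem mem_ker_of_forall (red : J →+ J') {x : TateModule p J}
    (h : ∀ m, red (proj m x) = 0) : x ∈ LinearMap.ker (psi (p := p) red) := by
  rw [LinearMap.mem_ker]
  apply eq_zero_of_forall_proj
  intro k
  rw [proj_psi]
  exact h k

/-- **`ker Ψ ⧸ p ^ m ↪ J[p ^ m] ∩ ker red`**: injectivity. -/
theorem exists_mem_ker_eq_smul (red : J →+ J') {x : TateModule p J}
    (hx : x ∈ LinearMap.ker (psi (p := p) red)) {m : ℕ} (h : proj m x = 0) :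
    ∃ y ∈ LinearMap.ker (psi (p := p) red), x = ((p : ℤ_[p]) ^ m) • y := by
  obtain ⟨y, rfl⟩ := (proj_eq_zero_iff' m x).mp h
  have hpm : ((p : ℤ_[p]) ^ m) ≠ 0 := pow_ne_zero m (by exact_mod_cast hp.out.ne_zero)
  exact ⟨y, (smul_mem_ker_iff red hpm y).mp hx, rfl⟩

/-- the level-`m` component of an element of the Tate module is `p ^ m`-torsion. -/
theorem pow_smul_proj' (x : TateModule p J) (m : ℕ) : (p ^ m) • proj m x = 0 := pow_smul_proj m x

end Fermat.Agent.T33.TestGood5A
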