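/-
Programme T (S33 via a trichotomy), TEST chapter, concrete Tate layer at a good prime (helper5).

`N ∣ M`, `A` a valuation subring of `ℚ̄`, `red : J₀(M) →+ J'` additive and invariant under the
inertia group `Iner A` (e.g. `RedConcrete5.exists_red_package_aux`, `M = auxLevel p N`, `p ∤ N`).
`Ψ_A := T_p(red ∘ π^*) : T_p J₀(N) →ₗ[ℤ_p] T_p J'`, `K_A := ker Ψ_A`:

* `(K1)` `rhoT τ z - z ∈ K_A` for `τ ∈ Iner A`;
* `(K2)` `p • z ∈ K_A → z ∈ K_A`;
* `proj_mem_M0`: for `x ∈ K_A` the level-`m` component of `x` lies in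
  `M0 N m := {z ∈ J₀(N)[p^m] | red (π^* z) = 0}`;
* `exists_eq_smul_of_proj`: `x ∈ K_A`, `proj m x = 0 → x ∈ p ^ m • K_A`;
* `M0` is a subgroup of `Tors N p m` stable under `Iner A`, and `torsPullback` maps it into
  `{z ∈ J₀(M)[p^m] | red z = 0}`.

These are the inputs (in helper7's shape `(K1)`, `(K2)`) of the abstract trichotomy.
-/
import Mathlib
import Fermat.Agent.T33.TestGood5A
import Fermat.Agent.ES.J.TateJZero13
import Fermat.Agent.FF.S19Aux1
import Fermat.Agent.FF.InertiaWire8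
import Fermat.Agent.ES.RED.PullbackInj12

set_option autoImplicit false
set_option synthInstance.maxHeartbeats 400000
set_option linter.unusedSectionVars false

noncomputable section

open ModularCurve

namespace Fermat.Agent.T33.TestGood5B

open Fermat.Agent.ES.J.TateModule13 Fermat.Agent.ES.J.TateJZero13 Fermat.Agent.T33.TestGood5A
  Fermat.Agent.FF.InertiaWire8 Fermat.Agent.FF.S19Wire1 Fermat.Agent.FF.S19Aux1
  Fermat.Agent.ES.HECKE.LevelPullback12 Fermat.Agent.ES.RED.PullbackInj12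

/-- the absolute Galois group of `ℚ`. -/
local notation "Gal" => (AlgebraicClosure ℚ ≃ₐ[ℚ] AlgebraicClosure ℚ)

variable (p : ℕ) [hp : Fact p.Prime] {N M : ℕ} [NeZero N] [NeZero M] (hNM : N ∣ M)
variable (A : ValuationSubring Qb) {J' : Type*} [AddCommGroup J'] (red : JZero M →+ J')

/-- `red ∘ π^*`. -/
def redN : JZero N →+ J' := red.comp (levelPullback hNM)

/-- `Ψ_A = T_p(red ∘ π^*)`. -/
def PsiA : TJ p N →ₗ[ℤ_[p]] TateModule p J' := psi (redN hNM red)

/-- `K_A = ker Ψ_A`. -/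
def KA : Submodule ℤ_[p] (TJ p N) := LinearMap.ker (PsiA p hNM red)

variable {p A red}

theorem redN_smul (hred : ∀ (σ : Iner A) (z : JZero M), red (σ • z) = red z)
    {τ : Gal} (hτ : τ ∈ Iner A) (z : JZero N) : redN hNM red (τ • z) = redN hNM red z := by
  show red (levelPullback hNM (τ • z)) = red (levelPullback hNM z)
  rw [levelPullback_smul hNM τ z]
  exact hred ⟨τ, hτ⟩ _

/-- **(K1)**. -/
theorem rhoT_sub_mem_KA (hred : ∀ (σ : Iner A) (z : JZero M), red (σ • z) = red z)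
    {τ : Gal} (hτ : τ ∈ Iner A) (z : TJ p N) : rhoT p N τ z - z ∈ KA p hNM red := by
  show PsiA p hNM red (rhoT p N τ z - z) = 0
  rw [map_sub, sub_eq_zero]
  exact psi_rho (redN hNM red) (redN_smul hNM hred hτ) z

/-- **(K2)**. -/
theorem mem_KA_of_p_smul (z : TJ p N) (h : (p : ℤ_[p]) • z ∈ KA p hNM red) :
    z ∈ KA p hNM red :=
  (smul_mem_ker_iff (redN hNM red) (by exact_mod_cast hp.out.ne_zero) z).mp h

/-- saturation for every nonzero scalar. -/
theorem mem_KA_of_smul {a : ℤ_[p]} (ha : a ≠ 0) (z : TJ p N) (h : a • z ∈ KA p hNM red) :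
    z ∈ KA p hNM red :=
  (smul_mem_ker_iff (redN hNM red) ha z).mp h

/-- the level-`m` component of an element of `K_A` reduces to zero. -/
theorem redN_proj_eq_zero {x : TJ p N} (hx : x ∈ KA p hNM red) (m : ℕ) :
    redN hNM red (proj m x) = 0 :=
  red_proj_eq_zero (redN hNM red) hx m

/-- `x ∈ K_A`, `proj m x = 0 → x ∈ p ^ m • K_A`. -/
theorem exists_eq_smul_of_proj {x : TJ p N} (hx : x ∈ KA p hNM red) {m : ℕ}
    (h : proj m x = 0) : ∃ y ∈ KA p hNM red, x = ((p : ℤ_[p]) ^ m) • y :=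
  exists_mem_ker_eq_smul (redN hNM red) hx h

variable (p A red)

/-- `M0 = {z ∈ J₀(N)[p^m] | red (π^* z) = 0}`. -/
def M0 (m : ℕ) : AddSubgroup (Tors N p m) :=
  (AddMonoidHom.ker (redN hNM red)).comap
    (Submodule.torsionBy ℤ (JZero N) ((p : ℤ) ^ m)).subtype.toAddMonoidHom

variable {p A red}

theorem mem_M0_iff {m : ℕ} (z : Tors N p m) :
    z ∈ M0 p hNM red m ↔ red (levelPullback hNM (z : JZero N)) = 0 := Iff.rfl

/-- `M0` is stable under the inertia group. -/
theorem smul_mem_M0 (hred : ∀ (σ : Iner A) (z : JZero M), red (σ • z) = red z)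
    {τ : Gal} (hτ : τ ∈ Iner A) {m : ℕ} {z : Tors N p m} (hz : z ∈ M0 p hNM red m) :
    τ • z ∈ M0 p hNM red m := by
  rw [mem_M0_iff] at hz ⊢
  rw [Fermat.Agent.FF.S19Wire1.coe_smul]
  have := redN_smul hNM hred hτ (z : JZero N)
  exact this.trans hz

/-- inertia acts trivially on `J₀(N)[p^m] ⧸ M0`. -/
theorem smul_sub_mem_M0 (hred : ∀ (σ : Iner A) (z : JZero M), red (σ • z) = red z)
    {τ : Gal} (hτ : τ ∈ Iner A) {m : ℕ} (z : Tors N p m) : τ • z - z ∈ M0 p hNM red m := by
  rw [mem_M0_iff]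
  have h1 : ((τ • z - z : Tors N p m) : JZero N) = τ • (z : JZero N) - (z : JZero N) := by
    rw [AddSubgroupClass.coe_sub, Fermat.Agent.FF.S19Wire1.coe_smul]
  rw [h1, map_sub, map_sub, sub_eq_zero]
  exact redN_smul hNM hred hτ (z : JZero N)

/-- the level-`m` component of `x ∈ T_p J₀(N)`, as an element of `J₀(N)[p^m]`. -/
def projTors (m : ℕ) (x : TJ p N) : Tors N p m :=
  ⟨proj m x, by
    show ((p : ℤ) ^ m) • proj m x = 0
    have h := pow_smul_proj m x
    rw [← h, ← natCast_zsmul]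
    push_cast
    rfl⟩

theorem coe_projTors (m : ℕ) (x : TJ p N) : ((projTors m x : Tors N p m) : JZero N) = proj m x :=
  rfl

theorem projTors_add (m : ℕ) (x y : TJ p N) :
    projTors m (x + y) = projTors m x + projTors m y :=
  Subtype.ext (map_add (proj m) x y)

theorem projTors_rhoT (m : ℕ) (τ : Gal) (x : TJ p N) :
    projTors m (rhoT p N τ x) = τ • projTors m x :=
  Subtype.ext (by rw [Fermat.Agent.FF.S19Wire1.coe_smul]; rfl)

/-- **`K_A → M0`**. -/
theorem projTors_mem_M0 {x : TJ p N} (hx : x ∈ KA p hNM red) (m : ℕ) :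
    projTors m x ∈ M0 p hNM red m :=
  redN_proj_eq_zero hNM hx m

theorem projTors_eq_zero_iff (m : ℕ) (x : TJ p N) :
    projTors m x = 0 ↔ ∃ y : TJ p N, x = ((p : ℤ_[p]) ^ m) • y := by
  rw [← proj_eq_zero_iff']
  constructor
  · intro h
    exact congrArg Subtype.val h
  · intro h
    exact Subtype.ext h

/-- `torsPullback` maps `M0` into the kernel of `red` at level `M`. -/
theorem red_torsPullback {m : ℕ} {z : Tors N p m} (hz : z ∈ M0 p hNM red m) :
    red ((torsPullback p m hNM z : Tors M p m) : JZero M) = 0 := hz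

end Fermat.Agent.T33.TestGood5B
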