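/-
Programme T (S33 via a trichotomy), chapter T5, file E (helper3): **`Ψ` at an auxiliary level.**

`N ∣ N'` (in the application `N' = auxLevel p N`, where the nodal model of `X₀(N')` lives),
`π^* = levelPullback : J₀(N) → J₀(N')`.  We pull the formal part of level `N'` back to level `N`:

* `formalAux A h p : AddSubgroup (JZero N)` := `π^*⁻¹ (formalTwo A N' p)`;
* `KtAux A h p : Submodule ℤ_[p] (TJ p N)` — sequences with all terms in `formalAux`
  (`mem_KtAux_iff_map : x ∈ KtAux ↔ T_p(π^*) x ∈ KtTwo A N' p`);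
  `PsiAux : TJ p N → TJ p N ⧸ KtAux` (surjective, `ℤ_[p]`-linear, torsion-free target);
* **(K1)** `rhoT_sub_mem_KtAux` : `ρ_T(τ) x - x ∈ KtAux` for `τ` in the inertia group of `A`
  (equivalently `PsiAux_rhoT`);
* **(K2)** `mem_KtAux_of_smul_mem` (saturation); `rhoT_mem_KtAux` (stable under `D_A`);
* finite levels, in the shapes of `TestGood5B/C` (so that the final glue is a copy of `TestGood5D/E`):
  `M0Aux A h p m : AddSubgroup (Tors N p m)` := `{z ∈ J₀(N)[p^m] | π^* z ∈ formalTwo A N' p}`,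
  `FAux A N' p m : AddSubgroup (Tors N' p m)` := `formalTwo A N' p ∩ J₀(N')[p^m]`
  (the group on which chapter (NF) constructs the connected Hopf order),
  `projTors_mem_M0Aux`, `exists_eq_smul_of_proj_aux` (`KtAux / p^m KtAux ↪ M0Aux` through `projTors m`),
  `smul_mem_M0Aux`, `smul_sub_mem_M0Aux`, `m0AuxAction`, `fAuxAction`, `m0AuxIncl : M0Aux →+ FAux`
  (equivariant; injective as soon as `torsPullback` is, e.g. at the auxiliary level).
-/
import Mathlib
import Fermat.Agent.T33.Psi3D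
import Fermat.Agent.T33.TestGood5B

set_option autoImplicit false
set_option linter.unusedSectionVars false
set_option synthInstance.maxHeartbeats 400000

noncomputable section

namespace Fermat.Agent.T33.Psi3E

open HahnSeries ModularCurve AlgebraicCurve
open Fermat.Agent.RED.Interface4 Fermat.Agent.ES.J.TateModule13 Fermat.Agent.ES.J.TateJZero13
open Fermat.Agent.T33.Psi3A Fermat.Agent.T33.Psi3B Fermat.Agent.T33.Psi3C Fermat.Agent.T33.Psi3D
open Fermat.Agent.T33.TestGood5B
open Fermat.Agent.FF.InertiaWire8 Fermat.Agent.FF.S19Wire1 Fermat.Agent.FF.S19Aux1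
  Fermat.Agent.ES.HECKE.LevelPullback12 Fermat.Agent.ES.RED.PullbackInj12

/-- the absolute Galois group of `ℚ`. -/
local notation "Gal" => (AlgebraicClosure ℚ ≃ₐ[ℚ] AlgebraicClosure ℚ)

variable (A : ValuationSubring Qbar) {N N' : ℕ} [NeZero N] [NeZero N'] (h : N ∣ N') (p : ℕ)

/-- **the formal part of `J₀(N)` measured at level `N'`**: classes whose pull-back to `J₀(N')` lies
in the (two-component) formal part. -/
def formalAux : AddSubgroup (JZero N) := (formalTwo A N' p).comap (levelPullback h)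

theorem mem_formalAux_iff {y : JZero N} :
    y ∈ formalAux A h p ↔ levelPullback h y ∈ formalTwo A N' p := Iff.rfl

variable {A p}

/-- **inertia acts trivially modulo `formalAux`.** -/
theorem inertia_sub_mem_formalAux [Fact p.Prime] (hA : A.LiesOverPrime p) {τ : Gal}
    (hτ : τ ∈ A.inertiaSubgroupIn ℚ) (k : ℕ) (y : JZero N) (hy : p ^ k • y = 0) :
    τ • y - y ∈ formalAux A h p := by
  rw [mem_formalAux_iff, map_sub, levelPullback_smul]
  refine inertia_sub_mem_formalTwo hA hτ k _ ?_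
  rw [← map_nsmul, hy, map_zero]

/-- the decomposition group preserves `formalAux`. -/
theorem decomp_smul_mem_formalAux (g : A.decompositionSubgroup ℚ) {y : JZero N}
    (hy : y ∈ formalAux A h p) : (g : Gal) • y ∈ formalAux A h p := by
  rw [mem_formalAux_iff, levelPullback_smul]
  exact decomp_smul_mem_formalTwo g hy

/-! ### the Tate module -/

variable (A p) [hp : Fact p.Prime]

/-- **`ker Ψ` at the auxiliary level.** -/
def KtAux : Submodule ℤ_[p] (TJ p N) := Kt p (formalAux A h p)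

/-- **`Ψ` at the auxiliary level.** -/
def PsiAux : TJ p N →ₗ[ℤ_[p]] (TJ p N ⧸ KtAux A h p) := Psi p (formalAux A h p)

theorem mem_KtAux_iff {x : TJ p N} :
    x ∈ KtAux A h p ↔ ∀ k, levelPullback h (proj k x) ∈ formalTwo A N' p := Iff.rfl

/-- `KtAux` is the preimage of `KtTwo A N' p` under `T_p(π^*)`. -/
theorem mem_KtAux_iff_map {x : TJ p N} :
    x ∈ KtAux A h p ↔
      Fermat.Agent.T33.TestGood5A.psi (p := p) (levelPullback h) x ∈ KtTwo A N' p := by
  rw [mem_KtAux_iff, mem_KtTwo_iff]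
  refine forall_congr' fun k => ?_
  rw [Fermat.Agent.T33.TestGood5A.proj_psi]

theorem KtAux_eq_comap :
    KtAux A h p = (KtTwo A N' p).comap
      (Fermat.Agent.T33.TestGood5A.psi (p := p) (levelPullback h)) := by
  ext x
  rw [Submodule.mem_comap]
  exact mem_KtAux_iff_map A h p

theorem ker_PsiAux : LinearMap.ker (PsiAux A h p) = KtAux A h p := ker_Psi

theorem PsiAux_surjective : Function.Surjective (PsiAux A h p) := Psi_surjective

/-- the target is torsion-free. -/
instance noZeroSMulDivisors_aux : NoZeroSMulDivisors ℤ_[p] (TJ p N ⧸ KtAux A h p) :=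
  noZeroSMulDivisors_quotient

/-- **(K2)** saturation. -/
theorem mem_KtAux_of_smul_mem {a : ℤ_[p]} (ha : a ≠ 0) {x : TJ p N}
    (hx : a • x ∈ KtAux A h p) : x ∈ KtAux A h p := mem_Kt_of_smul_mem ha hx

theorem mem_KtAux_of_p_smul {x : TJ p N} (hx : (p : ℤ_[p]) • x ∈ KtAux A h p) :
    x ∈ KtAux A h p :=
  mem_KtAux_of_smul_mem A h p (by exact_mod_cast hp.out.ne_zero) hx

variable {A p}

/-- **(K1)**: inertia acts trivially modulo `ker Ψ`. -/
theorem rhoT_sub_mem_KtAux (hA : A.LiesOverPrime p) {τ : Gal}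
    (hτ : τ ∈ A.inertiaSubgroupIn ℚ) (x : TJ p N) : rhoT p N τ x - x ∈ KtAux A h p :=
  rho_sub_mem_Kt τ (fun k y hy => inertia_sub_mem_formalAux h hA hτ k y hy) x

/-- **`Ψ ∘ ρ_T(τ) = Ψ` for `τ` in the inertia group of `A`.** -/
theorem PsiAux_rhoT (hA : A.LiesOverPrime p) {τ : Gal}
    (hτ : τ ∈ A.inertiaSubgroupIn ℚ) (x : TJ p N) :
    PsiAux A h p (rhoT p N τ x) = PsiAux A h p x :=
  Psi_rho τ (fun k y hy => inertia_sub_mem_formalAux h hA hτ k y hy) x

/-- `ker Ψ` is stable under the decomposition group. -/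
theorem rhoT_mem_KtAux (g : A.decompositionSubgroup ℚ) {x : TJ p N} (hx : x ∈ KtAux A h p) :
    rhoT p N (g : Gal) x ∈ KtAux A h p :=
  rho_mem_Kt (g : Gal) (fun _ hy => decomp_smul_mem_formalAux h g hy) hx

/-- **`ker Ψ ∩ p^m T = p^m ker Ψ`.** -/
theorem exists_eq_smul_of_proj_aux {x : TJ p N} (hx : x ∈ KtAux A h p) {m : ℕ}
    (h0 : proj m x = 0) : ∃ y ∈ KtAux A h p, x = ((p : ℤ_[p]) ^ m) • y :=
  exists_eq_pow_smul_of_proj_eq_zero hx m h0

/-! ### finite levels -/

variable (A p)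

/-- `M0Aux = {z ∈ J₀(N)[p^m] | π^* z ∈ formalTwo A N' p}`. -/
def M0Aux (m : ℕ) : AddSubgroup (Tors N p m) :=
  (formalAux A h p).comap (Submodule.torsionBy ℤ (JZero N) ((p : ℤ) ^ m)).subtype.toAddMonoidHom

variable (N') in
/-- `FAux = formalTwo A N' p ∩ J₀(N')[p^m]`, as a subgroup of `J₀(N')[p^m]`. -/
def FAux (m : ℕ) : AddSubgroup (Tors N' p m) :=
  (formalTwo A N' p).comap (Submodule.torsionBy ℤ (JZero N') ((p : ℤ) ^ m)).subtype.toAddMonoidHom

variable {A p}

theorem mem_M0Aux_iff {m : ℕ} (z : Tors N p m) :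
    z ∈ M0Aux A h p m ↔ levelPullback h (z : JZero N) ∈ formalTwo A N' p := Iff.rfl

theorem mem_FAux_iff {m : ℕ} (z : Tors N' p m) :
    z ∈ FAux A N' p m ↔ (z : JZero N') ∈ formalTwo A N' p := Iff.rfl

theorem mem_M0Aux_iff_torsPullback {m : ℕ} (z : Tors N p m) :
    z ∈ M0Aux A h p m ↔ torsPullback p m h z ∈ FAux A N' p m := by
  rw [mem_M0Aux_iff, mem_FAux_iff, coe_torsPullback]

/-- **`KtAux → M0Aux`** through the `m`-th term. -/
theorem projTors_mem_M0Aux {x : TJ p N} (hx : x ∈ KtAux A h p) (m : ℕ) :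
    projTors m x ∈ M0Aux A h p m := by
  rw [mem_M0Aux_iff, coe_projTors]
  exact (mem_KtAux_iff A h p).mp hx m

/-- `M0Aux` is stable under the decomposition group. -/
theorem decomp_smul_mem_M0Aux (g : A.decompositionSubgroup ℚ) {m : ℕ} {z : Tors N p m}
    (hz : z ∈ M0Aux A h p m) : (g : Gal) • z ∈ M0Aux A h p m := by
  rw [mem_M0Aux_iff] at hz ⊢
  rw [Fermat.Agent.FF.S19Wire1.coe_smul, levelPullback_smul]
  exact decomp_smul_mem_formalTwo g hz

/-- `M0Aux` is stable under the inertia group. -/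
theorem smul_mem_M0Aux {τ : Gal} (hτ : τ ∈ A.inertiaSubgroupIn ℚ) {m : ℕ} {z : Tors N p m}
    (hz : z ∈ M0Aux A h p m) : τ • z ∈ M0Aux A h p m := by
  obtain ⟨hD, -⟩ := Fermat.Agent.ES.RED.GaloisRed21.psiRes_eq_one_of_mem_inertia A hτ
  exact decomp_smul_mem_M0Aux h ⟨τ, hD⟩ hz

/-- inertia acts trivially on `J₀(N)[p^m] ⧸ M0Aux`. -/
theorem smul_sub_mem_M0Aux (hA : A.LiesOverPrime p) {τ : Gal} (hτ : τ ∈ A.inertiaSubgroupIn ℚ)
    {m : ℕ} (z : Tors N p m) : τ • z - z ∈ M0Aux A h p m := by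
  rw [mem_M0Aux_iff, ← mem_formalAux_iff]
  have h1 : ((τ • z - z : Tors N p m) : JZero N) = τ • (z : JZero N) - (z : JZero N) := by
    rw [AddSubgroupClass.coe_sub, Fermat.Agent.FF.S19Wire1.coe_smul]
  rw [h1]
  refine inertia_sub_mem_formalAux h hA hτ m _ ?_
  have hz : ((p : ℤ) ^ m) • (z : JZero N) = 0 := z.2
  rw [← natCast_zsmul]
  push_cast
  exact hz

/-- `FAux` is stable under the decomposition group. -/
theorem decomp_smul_mem_FAux (g : A.decompositionSubgroup ℚ) {m : ℕ} {z : Tors N' p m}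
    (hz : z ∈ FAux A N' p m) : (g : Gal) • z ∈ FAux A N' p m := by
  rw [mem_FAux_iff] at hz ⊢
  rw [Fermat.Agent.FF.S19Wire1.coe_smul]
  exact decomp_smul_mem_formalTwo g hz

theorem smul_mem_FAux {τ : Gal} (hτ : τ ∈ A.inertiaSubgroupIn ℚ) {m : ℕ} {z : Tors N' p m}
    (hz : z ∈ FAux A N' p m) : τ • z ∈ FAux A N' p m := by
  obtain ⟨hD, -⟩ := Fermat.Agent.ES.RED.GaloisRed21.psiRes_eq_one_of_mem_inertia A hτ
  exact decomp_smul_mem_FAux ⟨τ, hD⟩ hz

variable (A p)

/-- the action of the inertia group on `M0Aux`. -/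
@[reducible] def m0AuxAction (m : ℕ) :
    DistribMulAction (A.inertiaSubgroupIn ℚ) ↥(M0Aux A h p m) where
  smul σ z := ⟨(σ : Gal) • (z : Tors N p m), smul_mem_M0Aux h σ.2 z.2⟩
  one_smul z := Subtype.ext (one_smul Gal (z : Tors N p m))
  mul_smul σ τ z := Subtype.ext (mul_smul (σ : Gal) (τ : Gal) (z : Tors N p m))
  smul_zero σ := Subtype.ext (smul_zero (σ : Gal))
  smul_add σ z w := Subtype.ext (smul_add (σ : Gal) (z : Tors N p m) (w : Tors N p m))

variable (N') in
/-- the action of the inertia group on `FAux`. -/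
@[reducible] def fAuxAction (m : ℕ) :
    DistribMulAction (A.inertiaSubgroupIn ℚ) ↥(FAux A N' p m) where
  smul σ z := ⟨(σ : Gal) • (z : Tors N' p m), smul_mem_FAux σ.2 z.2⟩
  one_smul z := Subtype.ext (one_smul Gal (z : Tors N' p m))
  mul_smul σ τ z := Subtype.ext (mul_smul (σ : Gal) (τ : Gal) (z : Tors N' p m))
  smul_zero σ := Subtype.ext (smul_zero (σ : Gal))
  smul_add σ z w := Subtype.ext (smul_add (σ : Gal) (z : Tors N' p m) (w : Tors N' p m))

/-- `π^* : M0Aux →+ FAux`. -/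
def m0AuxIncl (m : ℕ) : ↥(M0Aux A h p m) →+ ↥(FAux A N' p m) where
  toFun z := ⟨torsPullback p m h (z : Tors N p m),
    (mem_M0Aux_iff_torsPullback h (z : Tors N p m)).mp z.2⟩
  map_zero' := Subtype.ext (map_zero (torsPullback p m h))
  map_add' z w := Subtype.ext (map_add (torsPullback p m h) (z : Tors N p m) (w : Tors N p m))

variable {A p}

theorem coe_m0AuxIncl (m : ℕ) (z : ↥(M0Aux A h p m)) :
    ((m0AuxIncl A h p m z : ↥(FAux A N' p m)) : Tors N' p m) =
      torsPullback p m h (z : Tors N p m) := rfl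

theorem m0AuxIncl_smul (m : ℕ) (σ : A.inertiaSubgroupIn ℚ) (z : ↥(M0Aux A h p m)) :
    letI := m0AuxAction A h p m
    letI := fAuxAction A N' p m
    m0AuxIncl A h p m (σ • z) = σ • m0AuxIncl A h p m z :=
  Subtype.ext (torsPullback_smul p m h (σ : Gal) (z : Tors N p m))

theorem m0AuxIncl_injective (m : ℕ) (hinj : Function.Injective (torsPullback p m h)) :
    Function.Injective (m0AuxIncl A h p m) := by
  intro z w hzw
  apply Subtype.ext
  apply hinj
  exact congrArg Subtype.val hzw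

/-- at the auxiliary level `N' = auxLevel p N` the inclusion is injective. -/
theorem m0AuxIncl_auxLevel_injective (N : ℕ) [NeZero N] (m : ℕ) :
    haveI := Fermat.Agent.RED.LVL.LevelDegree17.neZero_auxLevel p N
    Function.Injective (m0AuxIncl A (dvd_auxLevel p N) p m) := by
  haveI := Fermat.Agent.RED.LVL.LevelDegree17.neZero_auxLevel p N
  exact m0AuxIncl_injective (dvd_auxLevel p N) m (torsPullback_auxLevel_injective N p m)

end Fermat.Agent.T33.Psi3E
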