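/-
T33/PushLoc9D (helper9): Programme T (S33), nodal layer, chapter (e), block PUSH, layer (P-loc):
**the level data `PushLoc9.IsLevelData` over `ℚ̄`** for a closed point of a chart `chart ↥A s` of the
nodal model of `X₀(M'p)` lying on ONE component only, from the finite-level models of `N34`
(`ModelEnd4.modelInput_four`) through the `Large` calculus of `T33/LocalReg5B`.

* `LvlFields O E π B Oon Ooff` : the fields of `NumData13.NodalNumData` used by one level
  (`lvlFields_zero_one`, `_zero_two`, `_one_one`, `_one_two`: chart `0`/`1`, component `1`/`2`);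
* `GaussFam`, `famOne`, `famTwo` : the two families of finite-level Gauss valuation rings;
* `Lvl X s Oon Ooff` : a level = a number field with a chosen uniformiser at which
  `PushLoc9.OneLevel` holds; `lvlRing`, `lvlπ`;
* `isLevelData_of_large` : `IsLevelData X lvlRing lvlπ` from `Large` hypotheses (models, descent of
  the off-branch witness) and the ascent of the Gauss ring of the component;
* `LevelModelAt`, `large_levelModel_*` : the models from `modelInput_four`;
* `large_offK_one`, `large_offK_two` : descent of the off-branch witness;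
* **`isLevelData_one`**, **`isLevelData_two`** : the level data at a point of `C₁` off `C₂`, resp. of
  `C₂` off `C₁` (hypothesis: the ascent `hasc`).
-/
import Mathlib
import Fermat.Agent.T33.PushLoc9C
import Fermat.Agent.T33.LocalReg5C
import Fermat.Agent.ES.RED.LevelMax17

set_option autoImplicit false
set_option linter.unusedSectionVars false
set_option linter.style.haveILetI false
set_option linter.unusedVariables false
set_option synthInstance.maxHeartbeats 400000

noncomputable section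

namespace Fermat.Agent.T33.PushLoc9

open HahnSeries ModularCurve IntermediateField AlgebraicCurve IsLocalRing
open Fermat.Agent.RED.Interface4 Fermat.Agent.RED.PUR.GaussGen8 Fermat.Agent.RED.DESC
  Fermat.Agent.RED.DESC.PlaceExtend27 Fermat.Agent.RED.DESC.NumberFieldDVR27
  Fermat.Agent.RED.PUR.ChartGeneric22 Fermat.Agent.RED.BASE.EtaQuot12
  Fermat.Agent.ES.RED Fermat.Agent.ES.N34.ModelN4 Fermat.Agent.ES.N34.FrickeFK8
  Fermat.Agent.ES.N34.NodalCore13 Fermat.Agent.ES.N34.NumData13 Fermat.Agent.ES.N34.ModelDefs9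
  Fermat.Agent.ES.N34.ModelInput13 Fermat.Agent.ES.N34.NodalCL13
  Fermat.Agent.T33.NodalCtx1 Fermat.Agent.T33.NodalHalf4 Fermat.Agent.T33.LocalReg5
  Fermat.Agent.T33.LocalReg5B Fermat.Agent.T33.LocalReg5C

/-! ### the finite-level fields used by one level -/

section Generic

variable {Kt : Type*} [Field Kt] (O : ValuationSubring Kt)
  (E : IntermediateField Kt (LaurentSeries Kt))

/-- shortcut instances (the terms found by the generic search, which is slow). -/
local instance (priority := 10000) algKtE : Algebra Kt ↥E := SubalgebraClass.toAlgebra E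

local instance (priority := 10000) algOE : Algebra ↥O ↥E := Algebra.ofSubsemiring O.toSubsemiring

/-- the fields of `NumData13.NodalNumData` used by `PushLoc9.OneLevel`, for one chart `B` and the
ordered pair of components (`Oon` through the point, `Ooff` not). -/
structure LvlFields (π : O) (B : Subalgebra ↥O ↥E) (Oon Ooff : ValuationSubring ↥E) : Prop where
  noethB : IsNoetherianRing B
  leOn : ∀ x ∈ B, x ∈ Oon
  leOff : ∀ x ∈ B, x ∈ Ooff
  unifOn : ∀ x ∈ Oon, x⁻¹ ∉ Oon → ∃ c ∈ Oon, x = algebraMap ↥O ↥E π * c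
  archOff : ∀ x : E, ∃ k : ℕ, algebraMap ↥O ↥E π ^ k * x ∈ Ooff
  sat : ∀ b ∈ B, ∀ c : E, c ∈ Oon → c ∈ Ooff → b = algebraMap ↥O ↥E π * c → c ∈ B
  smooth : ∀ 𝔪 : Ideal B, 𝔪.IsMaximal → algebraMap ↥O B π ∈ 𝔪 → OffBranch π B Ooff 𝔪 →
    SmoothAt π B 𝔪

variable {O E}

theorem lvlFields_zero_one {π : O} {t : E} {B0 B1 : Subalgebra ↥O ↥E}
    {O1 O2 : ValuationSubring ↥E} (D : NodalDataAt O E π t B0 B1 O1 O2) :
    LvlFields O E π B0 O1 O2 := by
  haveI := Fermat.Agent.RED.NumInst4.isScalarTower_OE O E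
  have D' : NodalNumData ↥O Kt ↥E π t B0 B1 O1 O2 := D
  exact
    { noethB := D'.noeth0
      leOn := D'.model.le_O1_0
      leOff := D'.model.le_O2_0
      unifOn := D'.model.unif1
      archOff := D'.model.arch2
      sat := D'.model.sat0
      smooth := fun 𝔪 h𝔪 hπ hoff => D'.smooth0 𝔪 h𝔪 hπ (Or.inr hoff) }

theorem lvlFields_zero_two {π : O} {t : E} {B0 B1 : Subalgebra ↥O ↥E}
    {O1 O2 : ValuationSubring ↥E} (D : NodalDataAt O E π t B0 B1 O1 O2) :
    LvlFields O E π B0 O2 O1 := by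
  haveI := Fermat.Agent.RED.NumInst4.isScalarTower_OE O E
  have D' : NodalNumData ↥O Kt ↥E π t B0 B1 O1 O2 := D
  exact
    { noethB := D'.noeth0
      leOn := D'.model.le_O2_0
      leOff := D'.model.le_O1_0
      unifOn := D'.model.unif2
      archOff := D'.model.arch1
      sat := fun b hb c h2 h1 e => D'.model.sat0 b hb c h1 h2 e
      smooth := fun 𝔪 h𝔪 hπ hoff => D'.smooth0 𝔪 h𝔪 hπ (Or.inl hoff) }

theorem lvlFields_one_one {π : O} {t : E} {B0 B1 : Subalgebra ↥O ↥E}
    {O1 O2 : ValuationSubring ↥E} (D : NodalDataAt O E π t B0 B1 O1 O2) :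
    LvlFields O E π B1 O1 O2 := by
  haveI := Fermat.Agent.RED.NumInst4.isScalarTower_OE O E
  have D' : NodalNumData ↥O Kt ↥E π t B0 B1 O1 O2 := D
  exact
    { noethB := D'.noeth1
      leOn := D'.model.le_O1_1
      leOff := D'.model.le_O2_1
      unifOn := D'.model.unif1
      archOff := D'.model.arch2
      sat := D'.model.sat1
      smooth := fun 𝔪 h𝔪 hπ hoff => D'.smooth1 𝔪 h𝔪 hπ (Or.inr hoff) }

theorem lvlFields_one_two {π : O} {t : E} {B0 B1 : Subalgebra ↥O ↥E}
    {O1 O2 : ValuationSubring ↥E} (D : NodalDataAt O E π t B0 B1 O1 O2) :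
    LvlFields O E π B1 O2 O1 := by
  haveI := Fermat.Agent.RED.NumInst4.isScalarTower_OE O E
  have D' : NodalNumData ↥O Kt ↥E π t B0 B1 O1 O2 := D
  exact
    { noethB := D'.noeth1
      leOn := D'.model.le_O2_1
      leOff := D'.model.le_O1_1
      unifOn := D'.model.unif2
      archOff := D'.model.arch1
      sat := fun b hb c h2 h1 e => D'.model.sat1 b hb c h1 h2 e
      smooth := fun 𝔪 h𝔪 hπ hoff => D'.smooth1 𝔪 h𝔪 hπ (Or.inl hoff) }

end Generic

/-! ### the levels over `ℚ̄` -/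

section Concrete

variable {p M' : ℕ} [NeZero M'] [NeZero p] {A : ValuationSubring Qbar}

/-- shortcut instances (the terms found by the generic search, which is slow here). -/
local instance (priority := 10000) algKFK (K : IntermediateField ℚ Qbar) :
    Algebra ↥K ↥(FK (M' * p) K) :=
  SubalgebraClass.toAlgebra (FK (M' * p) K)

local instance (priority := 10000) algAKFK (K : IntermediateField ℚ Qbar) :
    Algebra ↥(AK A K) ↥(FK (M' * p) K) :=
  Algebra.ofSubsemiring (AK A K).toSubsemiring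

local instance (priority := 10000) algFbar : Algebra Qbar ↥(Fbar (M' * p)) :=
  SubalgebraClass.toAlgebra (Fbar (M' * p))

local instance (priority := 10000) algFb : Algebra (ResidueField ↥A) (Fb A M') :=
  SubalgebraClass.toAlgebra (modularFunctionFieldFullC (Setup8.kA A) M')

/-- a family of finite-level Gauss valuation rings (one for each number field, uniformiser). -/
abbrev GaussFam (p M' : ℕ) [NeZero M'] [NeZero p] (A : ValuationSubring Qbar) : Type :=
  ∀ (K : IntermediateField ℚ Qbar) (π : ↥(AK A K)), IsUnif (AK A K) π →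
    FK (M' * p) K ≤ fracField (AK A K) → ValuationSubring ↥(FK (M' * p) K)

/-- the Gauss valuation rings of the component `C₁`. -/
def famOne (p M' : ℕ) [NeZero M'] [NeZero p] (A : ValuationSubring Qbar) : GaussFam p M' A :=
  fun _ _ hπ hE => O1 M' p hπ hE

/-- the Gauss valuation rings of the component `C₂`. -/
def famTwo (p M' : ℕ) [NeZero M'] [NeZero p] (A : ValuationSubring Qbar) : GaussFam p M' A :=
  fun _ _ hπ hE => O2 M' p hπ hE

variable {c : HalfRed A ↥(Fbar (M' * p)) (Fb A M')} (X : PointChart c)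
  (Oon Ooff : GaussFam p M' A)

/-- **a level**: a number field with a chosen uniformiser, a finite-level chart coordinate, at which
the hypotheses `OneLevel` hold. -/
structure Lvl where
  K : IntermediateField ℚ Qbar
  sK : FK (M' * p) K
  hE : FK (M' * p) K ≤ fracField (AK A K)
  π : ↥(AK A K)
  hπ : IsUnif (AK A K) π
  good : OneLevel X π (chart ↥(AK A K) sK) (Oon K π hπ hE) (Ooff K π hπ hE)
    (baseChangeHom (M' * p) K) (incl A K π)

/-- the ring of the level. -/
def lvlRing (i : Lvl X Oon Ooff) : Subring ↥(Fbar (M' * p)) :=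
  levelRing X (baseChangeHom (M' * p) i.K) (chart ↥(AK A i.K) i.sK) i.good.hfB

/-- the uniformising constant of the level. -/
def lvlπ (i : Lvl X Oon Ooff) : A := incl A i.K i.π

/-- **the level data**, as soon as every finite list of the local ring lies in some level. -/
theorem isLevelData_of_exists
    (hlevels : ∀ S : List X.Bx, ∃ i : Lvl X Oon Ooff,
      ∀ b ∈ S, (b : Fbar (M' * p)) ∈ lvlRing X Oon Ooff i) :
    IsLevelData X (lvlRing X Oon Ooff) (lvlπ X Oon Ooff) where
  Bk_le i := i.good.levelRing_le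
  exists_level := hlevels
  π_ne i := by
    intro h0
    apply i.hπ.ne_zero
    apply incl_injective A i.K
    rw [map_zero]
    exact h0
  π_mem i := i.good.πA_mem
  const_π_mem i := i.good.const_mem_levelRing
  noeth i := i.good.isNoetherianRing_levelRing
  inv_mem i := i.good.inv_mem_levelRing
  smooth i := i.good.smooth_levelRing
  L3 i := i.good.L3_levelRing

variable {X Oon Ooff}

/-- **existence of levels** from `Large` hypotheses. -/
theorem exists_lvl (h : LevelHyp p M' A) (s : Fbar (M' * p))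
    (hB : ∀ x, x ∈ X.B₀ ↔ x ∈ chart ↥A s)
    (hmodel : Large fun K => ∃ (sK : FK (M' * p) K) (hE : FK (M' * p) K ≤ fracField (AK A K)),
      baseChangeHom (M' * p) K sK = s ∧ ∀ (π : ↥(AK A K)) (hπ : IsUnif (AK A K) π),
        LvlFields (AK A K) (FK (M' * p) K) π (chart ↥(AK A K) sK) (Oon K π hπ hE)
          (Ooff K π hπ hE))
    (hasc : ∀ (K : IntermediateField ℚ Qbar) (π : ↥(AK A K)) (hπ : IsUnif (AK A K) π)
      (hE : FK (M' * p) K ≤ fracField (AK A K)) (x : FK (M' * p) K), x ∈ Oon K π hπ hE →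
        baseChangeHom (M' * p) K x ∈ c.O)
    (hoffK : Large fun K => ∀ sK : FK (M' * p) K, baseChangeHom (M' * p) K sK = s →
      ∃ eK ∈ chart ↥(AK A K) sK,
        (∃ e : X.B₀, X.χ e ≠ 0 ∧ baseChangeHom (M' * p) K eK = (e : Fbar (M' * p))) ∧
          ∀ (π : ↥(AK A K)) (hπ : IsUnif (AK A K) π) (hE : FK (M' * p) K ≤ fracField (AK A K)),
            ∃ c' ∈ Ooff K π hπ hE, eK = algebraMap ↥(AK A K) ↥(FK (M' * p) K) π * c')
    (S : List X.Bx) :
    ∃ i : Lvl X Oon Ooff, ∀ b ∈ S, (b : Fbar (M' * p)) ∈ lvlRing X Oon Ooff i := by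
  classical
  -- numerators and denominators
  have hnd : ∀ b : X.Bx, ∃ a d : X.B₀, X.χ d ≠ 0 ∧
      (b : Fbar (M' * p)) * (d : Fbar (M' * p)) = (a : Fbar (M' * p)) := fun b => b.2
  choose num den hden hnumden using hnd
  have L3 : Large fun K => ∀ b ∈ S.toFinset, ∀ sK : FK (M' * p) K,
      baseChangeHom (M' * p) K sK = s →
        (∃ x ∈ chart ↥(AK A K) sK, baseChangeHom (M' * p) K x = (num b : Fbar (M' * p))) ∧
          ∃ x ∈ chart ↥(AK A K) sK, baseChangeHom (M' * p) K x = (den b : Fbar (M' * p)) :=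
    Large.all _ _ fun b _ =>
      ((large_chart A (M' * p) s (num b : Fbar (M' * p)) ((hB _).1 (num b).2)).and
        (large_chart A (M' * p) s (den b : Fbar (M' * p)) ((hB _).1 (den b).2))).mono
        fun K hK sK hsK => ⟨hK.1 sK hsK, hK.2 sK hsK⟩
  obtain ⟨K, hnor, hfd, ⟨⟨hM, hoff⟩, hW⟩⟩ := Large.exists_field ((hmodel.and hoffK).and L3)
  obtain ⟨sK, hE, hsK, hC⟩ := hM
  haveI := hfd
  haveI hdvr : IsDiscreteValuationRing ↥(AK A K) :=
    isDiscreteValuationRing_AK A K h.prime.ne_zero h.liesOver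
  obtain ⟨π, hπirr⟩ := IsDiscreteValuationRing.exists_irreducible ↥(AK A K)
  have hπ : IsUnif (AK A K) π := isUnif_of_irreducible (AK A K) hπirr
  have C := hC π hπ
  have hfB : ∀ b ∈ chart ↥(AK A K) sK, baseChangeHom (M' * p) K b ∈ X.B₀ := by
    intro b hb
    rw [hB]
    have := ChartUnion1.baseChangeHom_mem_chart A (M' * p) K sK b hb
    rwa [hsK] at this
  have hπf : baseChangeHom (M' * p) K (algebraMap ↥(AK A K) ↥(FK (M' * p) K) π) =
      algebraMap Qbar ↥(Fbar (M' * p)) ((incl A K π : A) : Qbar) :=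
    ChartUnion1.baseChangeHom_algebraMap_AK A (M' * p) K π
  have hπA : incl A K π ∈ maximalIdeal ↥A := by
    rw [IsLocalRing.mem_maximalIdeal, mem_nonunits_iff]
    intro hu
    exact hπirr.not_isUnit (isUnit_of_map_unit (incl A K) π hu)
  -- the off-branch witness
  obtain ⟨eK, heK, ⟨e, hχe, hfe⟩, hπe⟩ := hoff sK hsK
  obtain ⟨c', hc', hec'⟩ := hπe π hπ hE
  have hoff' : OffBranch π (chart ↥(AK A K) sK) (Ooff K π hπ hE)
      (levelIdeal X (baseChangeHom (M' * p) K) (chart ↥(AK A K) sK) hfB) := by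
    refine ⟨⟨eK, heK⟩, ?_, c', hc', hec'⟩
    rw [mem_levelIdeal_iff]
    have : levelHom X (baseChangeHom (M' * p) K) (chart ↥(AK A K) sK) hfB ⟨eK, heK⟩ = e :=
      Subtype.ext hfe
    rw [this]
    exact hχe
  have hmax : (levelIdeal X (baseChangeHom (M' * p) K) (chart ↥(AK A K) sK) hfB).IsMaximal :=
    Fermat.Agent.ES.RED.LevelMax17.ker_isMaximal h.prime A h.liesOver _
  have hπmem : algebraMap ↥(AK A K) ↥(chart ↥(AK A K) sK) π ∈
      levelIdeal X (baseChangeHom (M' * p) K) (chart ↥(AK A K) sK) hfB := by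
    rw [mem_levelIdeal_iff]
    have : levelHom X (baseChangeHom (M' * p) K) (chart ↥(AK A K) sK) hfB
        (algebraMap ↥(AK A K) ↥(chart ↥(AK A K) sK) π) =
        ⟨algebraMap Qbar ↥(Fbar (M' * p)) ((incl A K π : A) : Qbar), X.const_mem _⟩ :=
      Subtype.ext hπf
    rw [this, X.χ_const, (residue_eq_zero_iff _).2 hπA]
  have good : OneLevel X π (chart ↥(AK A K) sK) (Oon K π hπ hE) (Ooff K π hπ hE)
      (baseChangeHom (M' * p) K) (incl A K π) :=
    { hfB := hfB
      noethB := C.noethB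
      leOn := C.leOn
      leOff := C.leOff
      unifOn := C.unifOn
      archOff := C.archOff
      sat := C.sat
      hOn := hasc K π hπ hE
      hπ := hπf
      πA_mem := hπA
      hoff := hoff'
      hsm := C.smooth _ hmax hπmem hoff' }
  refine ⟨⟨K, sK, hE, π, hπ, good⟩, ?_⟩
  intro b hb
  obtain ⟨⟨xa, hxa, hfa⟩, ⟨xd, hxd, hfd'⟩⟩ := hW b (List.mem_toFinset.2 hb) sK hsK
  refine good.mem_levelRing_of_frac (b : Fbar (M' * p)) ⟨xa, hxa⟩ ⟨xd, hxd⟩ ?_ ?_
  · have : (⟨baseChangeHom (M' * p) K xd, hfB xd hxd⟩ : X.B₀) = den b := Subtype.ext hfd'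
    show X.χ ⟨baseChangeHom (M' * p) K xd, hfB xd hxd⟩ ≠ 0
    rw [this]
    exact hden b
  · show (b : Fbar (M' * p)) * baseChangeHom (M' * p) K xd = baseChangeHom (M' * p) K xa
    rw [hfd', hfa]
    exact hnumden b

/-- **the level data from `Large` hypotheses.** -/
theorem isLevelData_of_large (h : LevelHyp p M' A) (s : Fbar (M' * p))
    (hB : ∀ x, x ∈ X.B₀ ↔ x ∈ chart ↥A s)
    (hmodel : Large fun K => ∃ (sK : FK (M' * p) K) (hE : FK (M' * p) K ≤ fracField (AK A K)),
      baseChangeHom (M' * p) K sK = s ∧ ∀ (π : ↥(AK A K)) (hπ : IsUnif (AK A K) π),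
        LvlFields (AK A K) (FK (M' * p) K) π (chart ↥(AK A K) sK) (Oon K π hπ hE)
          (Ooff K π hπ hE))
    (hasc : ∀ (K : IntermediateField ℚ Qbar) (π : ↥(AK A K)) (hπ : IsUnif (AK A K) π)
      (hE : FK (M' * p) K ≤ fracField (AK A K)) (x : FK (M' * p) K), x ∈ Oon K π hπ hE →
        baseChangeHom (M' * p) K x ∈ c.O)
    (hoffK : Large fun K => ∀ sK : FK (M' * p) K, baseChangeHom (M' * p) K sK = s →
      ∃ eK ∈ chart ↥(AK A K) sK,
        (∃ e : X.B₀, X.χ e ≠ 0 ∧ baseChangeHom (M' * p) K eK = (e : Fbar (M' * p))) ∧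
          ∀ (π : ↥(AK A K)) (hπ : IsUnif (AK A K) π) (hE : FK (M' * p) K ≤ fracField (AK A K)),
            ∃ c' ∈ Ooff K π hπ hE, eK = algebraMap ↥(AK A K) ↥(FK (M' * p) K) π * c') :
    IsLevelData X (lvlRing X Oon Ooff) (lvlπ X Oon Ooff) :=
  isLevelData_of_exists X Oon Ooff (exists_lvl h s hB hmodel hasc hoffK)

end Concrete

/-! ### the inputs: finite-level models and descent of the off-branch witness -/

section Inputs

variable {p M' : ℕ} [NeZero M'] [NeZero p] {A : ValuationSubring Qbar}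

local instance (priority := 10000) algKFK' (K : IntermediateField ℚ Qbar) :
    Algebra ↥K ↥(FK (M' * p) K) :=
  SubalgebraClass.toAlgebra (FK (M' * p) K)

local instance (priority := 10000) algAKFK' (K : IntermediateField ℚ Qbar) :
    Algebra ↥(AK A K) ↥(FK (M' * p) K) :=
  Algebra.ofSubsemiring (AK A K).toSubsemiring

local instance (priority := 10000) algFbar' : Algebra Qbar ↥(Fbar (M' * p)) :=
  SubalgebraClass.toAlgebra (Fbar (M' * p))

local instance (priority := 10000) algFb' : Algebra (ResidueField ↥A) (Fb A M') :=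
  SubalgebraClass.toAlgebra (modularFunctionFieldFullC (Setup8.kA A) M')

/-- **the finite-level models**, all four (chart, component) combinations at once. -/
theorem large_lvlModels (h : LevelHyp p M' A) (t : Fbar (M' * p))
    (htq : ((t : Fbar (M' * p)) : LaurentSeries Qbar) = tq Qbar 4 8) :
    Large fun K => ∃ (tK : FK (M' * p) K) (hE : FK (M' * p) K ≤ fracField (AK A K)),
      baseChangeHom (M' * p) K tK = t ∧ ∀ (π : ↥(AK A K)) (hπ : IsUnif (AK A K) π),
        LvlFields (AK A K) (FK (M' * p) K) π (chart ↥(AK A K) tK)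
          (famOne p M' A K π hπ hE) (famTwo p M' A K π hπ hE) ∧
        LvlFields (AK A K) (FK (M' * p) K) π (chart ↥(AK A K) tK)
          (famTwo p M' A K π hπ hE) (famOne p M' A K π hπ hE) ∧
        LvlFields (AK A K) (FK (M' * p) K) π (chart ↥(AK A K) tK⁻¹)
          (famOne p M' A K π hπ hE) (famTwo p M' A K π hπ hE) ∧
        LvlFields (AK A K) (FK (M' * p) K) π (chart ↥(AK A K) tK⁻¹)
          (famTwo p M' A K π hπ hE) (famOne p M' A K π hπ hE) := by
  obtain ⟨K₀, hK₀, H⟩ := Fermat.Agent.ES.N34.ModelEnd4.modelInput_four p M' A h.prime h.not_dvd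
    h.ne_two h.four_dvd h.liesOver
  refine ⟨K₀, hK₀, fun K _ hfd hle => ?_⟩
  obtain ⟨ht, hE, HD⟩ := H K hfd hle
  exact ⟨tN p ht, hE, baseChangeHom_tN K ht t htq, fun π hπ =>
    ⟨lvlFields_zero_one (HD π hπ), lvlFields_zero_two (HD π hπ), lvlFields_one_one (HD π hπ),
      lvlFields_one_two (HD π hπ)⟩⟩

/-- the shape of the model hypothesis of `isLevelData_of_large`. -/
def LvlModel (p M' : ℕ) [NeZero M'] [NeZero p] (A : ValuationSubring Qbar) (s : Fbar (M' * p))
    (Oon Ooff : GaussFam p M' A) (K : IntermediateField ℚ Qbar) : Prop :=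
  ∃ (sK : FK (M' * p) K) (hE : FK (M' * p) K ≤ fracField (AK A K)),
    baseChangeHom (M' * p) K sK = s ∧ ∀ (π : ↥(AK A K)) (hπ : IsUnif (AK A K) π),
      LvlFields (AK A K) (FK (M' * p) K) π (chart ↥(AK A K) sK) (Oon K π hπ hE) (Ooff K π hπ hE)

theorem large_lvlModel (h : LevelHyp p M' A) (t : Fbar (M' * p))
    (htq : ((t : Fbar (M' * p)) : LaurentSeries Qbar) = tq Qbar 4 8) (s : Fbar (M' * p))
    (hs : s = t ∨ s = t⁻¹) :
    Large (LvlModel p M' A s (famOne p M' A) (famTwo p M' A)) ∧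
      Large (LvlModel p M' A s (famTwo p M' A) (famOne p M' A)) := by
  have H := large_lvlModels h t htq
  rcases hs with rfl | rfl
  · exact ⟨H.mono fun K ⟨tK, hE, htK, hF⟩ => ⟨tK, hE, htK, fun π hπ => (hF π hπ).1⟩,
      H.mono fun K ⟨tK, hE, htK, hF⟩ => ⟨tK, hE, htK, fun π hπ => (hF π hπ).2.1⟩⟩
  · exact ⟨H.mono fun K ⟨tK, hE, htK, hF⟩ => ⟨tK⁻¹, hE, by rw [map_inv₀, htK],
        fun π hπ => (hF π hπ).2.2.1⟩,
      H.mono fun K ⟨tK, hE, htK, hF⟩ => ⟨tK⁻¹, hE, by rw [map_inv₀, htK],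
        fun π hπ => (hF π hπ).2.2.2⟩⟩

/-- the shape of the off-branch hypothesis of `isLevelData_of_large`. -/
def OffK {c : HalfRed A ↥(Fbar (M' * p)) (Fb A M')} (X : PointChart c) (s : Fbar (M' * p))
    (Ooff : GaussFam p M' A) (K : IntermediateField ℚ Qbar) : Prop :=
  ∀ sK : FK (M' * p) K, baseChangeHom (M' * p) K sK = s →
    ∃ eK ∈ chart ↥(AK A K) sK,
      (∃ e : X.B₀, X.χ e ≠ 0 ∧ baseChangeHom (M' * p) K eK = (e : Fbar (M' * p))) ∧
        ∀ (π : ↥(AK A K)) (hπ : IsUnif (AK A K) π) (hE : FK (M' * p) K ≤ fracField (AK A K)),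
          ∃ c' ∈ Ooff K π hπ hE, eK = algebraMap ↥(AK A K) ↥(FK (M' * p) K) π * c'

/-- descent of the off-branch witness, the component `C₂` missing the point. -/
theorem large_offK_two (h : LevelHyp p M' A) {c : HalfRed A ↥(Fbar (M' * p)) (Fb A M')}
    (X : PointChart c) (s : Fbar (M' * p)) (hB : ∀ x, x ∈ X.B₀ ↔ x ∈ chart ↥A s)
    (hoff : ∃ e : X.B₀, X.χ e ≠ 0 ∧ ∃ he : (e : Fbar (M' * p)) ∈ (c2 h).O,
      (c2 h).ρ ⟨(e : Fbar (M' * p)), he⟩ = 0) :
    Large (OffK X s (famTwo p M' A)) := by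
  obtain ⟨e, hχ, heO, hρ⟩ := hoff
  have hdesc : ∀ z : Fbar (M' * p), z ∈ (c2 h).O →
      Large fun K => ∀ zK : FK (M' * p) K, baseChangeHom (M' * p) K zK = z →
        iotaTwo (M' * p) K zK ∈ gaussRing (AK A K) :=
    fun z hz => large_mem_gauss_fricke A (M' * p) z
      ((mem_O1_iff_redA h _).1 ((mem_O2_iff h z).1 hz))
  refine (large_off A (M' * p) (c2 h)
    (fun K x => iotaTwo (M' * p) K x ∈ gaussRing (AK A K)) hdesc ?_ s
    (e : Fbar (M' * p)) ((hB _).1 e.2) heO hρ).mono ?_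
  · intro K u x hx
    have h0 : iotaTwo (M' * p) K (algebraMap ↥(AK A K) ↥(FK (M' * p) K) u) =
        HahnSeries.C ((u : ↥(AK A K)) : ↥K) := by
      show ((frickeFK (M' * p) K (algebraMap ↥K ↥(FK (M' * p) K) ((u : ↥(AK A K)) : ↥K)) :
        FK (M' * p) K) : LaurentSeries K) = _
      have h3 := (frickeFK (M' * p) K).commutes ((u : ↥(AK A K)) : ↥K)
      exact (congrArg (fun z : FK (M' * p) K => (z : LaurentSeries K)) h3).trans
        (Fermat.Agent.RED.NumInst4.coe_algebraMap_OE (AK A K) (FK (M' * p) K) u)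
    show iotaTwo (M' * p) K (algebraMap ↥(AK A K) ↥(FK (M' * p) K) u * x) ∈ gaussRing (AK A K)
    rw [map_mul, h0]
    exact mul_mem (C_mem (AK A K) u) hx
  · intro K hK sK hsK
    obtain ⟨eK, heK, hfe, hπe⟩ := hK sK hsK
    refine ⟨eK, heK, ⟨e, hχ, hfe⟩, fun π hπ hE => ?_⟩
    obtain ⟨c', hc', e'⟩ := hπe π hπ
    exact ⟨c', (mem_O2_iff M' p hπ hE c').2 hc', e'⟩

/-- descent of the off-branch witness, the component `C₁` missing the point. -/
theorem large_offK_one (h : LevelHyp p M' A) {c : HalfRed A ↥(Fbar (M' * p)) (Fb A M')}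
    (X : PointChart c) (s : Fbar (M' * p)) (hB : ∀ x, x ∈ X.B₀ ↔ x ∈ chart ↥A s)
    (hoff : ∃ e : X.B₀, X.χ e ≠ 0 ∧ ∃ he : (e : Fbar (M' * p)) ∈ (c1 h).O,
      (c1 h).ρ ⟨(e : Fbar (M' * p)), he⟩ = 0) :
    Large (OffK X s (famOne p M' A)) := by
  obtain ⟨e, hχ, heO, hρ⟩ := hoff
  have hdesc : ∀ z : Fbar (M' * p), z ∈ (c1 h).O →
      Large fun K => ∀ zK : FK (M' * p) K, baseChangeHom (M' * p) K zK = z →
        ((zK : FK (M' * p) K) : LaurentSeries K) ∈ gaussRing (AK A K) :=
    fun z hz => large_mem_gauss A (M' * p) z ((mem_O1_iff_redA h z).1 hz)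
  refine (large_off A (M' * p) (c1 h)
    (fun K x => ((x : FK (M' * p) K) : LaurentSeries K) ∈ gaussRing (AK A K)) hdesc ?_ s
    (e : Fbar (M' * p)) ((hB _).1 e.2) heO hρ).mono ?_
  · intro K u x hx
    have h0 : ((algebraMap ↥(AK A K) ↥(FK (M' * p) K) u : FK (M' * p) K) : LaurentSeries K) =
        HahnSeries.C ((u : ↥(AK A K)) : ↥K) :=
      Fermat.Agent.RED.NumInst4.coe_algebraMap_OE (AK A K) (FK (M' * p) K) u
    show ((algebraMap ↥(AK A K) ↥(FK (M' * p) K) u : FK (M' * p) K) : LaurentSeries K) *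
      ((x : FK (M' * p) K) : LaurentSeries K) ∈ gaussRing (AK A K)
    rw [h0]
    exact mul_mem (C_mem (AK A K) u) hx
  · intro K hK sK hsK
    obtain ⟨eK, heK, hfe, hπe⟩ := hK sK hsK
    refine ⟨eK, heK, ⟨e, hχ, hfe⟩, fun π hπ hE => ?_⟩
    obtain ⟨c', hc', e'⟩ := hπe π hπ
    exact ⟨c', (mem_O1_iff M' p hπ hE c').2 hc', e'⟩

/-- **the level data at a point of `C₁` off `C₂`**, for the chart `chart ↥A s`, `s = t` or `t⁻¹`. -/
theorem isLevelData_one (h : LevelHyp p M' A) (t : Fbar (M' * p))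
    (htq : ((t : Fbar (M' * p)) : LaurentSeries Qbar) = tq Qbar 4 8) (s : Fbar (M' * p))
    (hs : s = t ∨ s = t⁻¹) (X : PointChart (c1 h)) (hB : ∀ x, x ∈ X.B₀ ↔ x ∈ chart ↥A s)
    (hoff : ∃ e : X.B₀, X.χ e ≠ 0 ∧ ∃ he : (e : Fbar (M' * p)) ∈ (c2 h).O,
      (c2 h).ρ ⟨(e : Fbar (M' * p)), he⟩ = 0)
    (hasc : ∀ (K : IntermediateField ℚ Qbar) (π : ↥(AK A K)) (hπ : IsUnif (AK A K) π)
      (hE : FK (M' * p) K ≤ fracField (AK A K)) (x : FK (M' * p) K), x ∈ O1 M' p hπ hE →
        baseChangeHom (M' * p) K x ∈ (c1 h).O) :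
    IsLevelData X (lvlRing X (famOne p M' A) (famTwo p M' A))
      (lvlπ X (famOne p M' A) (famTwo p M' A)) :=
  isLevelData_of_large h s hB (large_lvlModel h t htq s hs).1 hasc (large_offK_two h X s hB hoff)

/-- **the level data at a point of `C₂` off `C₁`**, for the chart `chart ↥A s`, `s = t` or `t⁻¹`. -/
theorem isLevelData_two (h : LevelHyp p M' A) (t : Fbar (M' * p))
    (htq : ((t : Fbar (M' * p)) : LaurentSeries Qbar) = tq Qbar 4 8) (s : Fbar (M' * p))
    (hs : s = t ∨ s = t⁻¹) (X : PointChart (c2 h)) (hB : ∀ x, x ∈ X.B₀ ↔ x ∈ chart ↥A s)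
    (hoff : ∃ e : X.B₀, X.χ e ≠ 0 ∧ ∃ he : (e : Fbar (M' * p)) ∈ (c1 h).O,
      (c1 h).ρ ⟨(e : Fbar (M' * p)), he⟩ = 0)
    (hasc : ∀ (K : IntermediateField ℚ Qbar) (π : ↥(AK A K)) (hπ : IsUnif (AK A K) π)
      (hE : FK (M' * p) K ≤ fracField (AK A K)) (x : FK (M' * p) K), x ∈ O2 M' p hπ hE →
        baseChangeHom (M' * p) K x ∈ (c2 h).O) :
    IsLevelData X (lvlRing X (famTwo p M' A) (famOne p M' A))
      (lvlπ X (famTwo p M' A) (famOne p M' A)) :=
  isLevelData_of_large h s hB (large_lvlModel h t htq s hs).2 hasc (large_offK_one h X s hB hoff)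

end Inputs

end Fermat.Agent.T33.PushLoc9

end
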