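/-
Programme T (S33 via a trichotomy), THE FINAL CONCRETE WIRING (helper7).

`p` an odd prime, `p ∥ N`; then `auxLevel p N = M' * p` with `h : NodalHalf4.LevelHyp p M' A` for every
valuation subring `A` of `ℚ̄` over `p` (`S33Wire7C.exists_levelHyp`).

* **`s33_of_levelNF`** : the literal hypothesis list of the frozen statement S33 plus (NF) at the
  levels `M' * p`:
  `∀ A M' (h : LevelHyp p M' A) m, HasConnOrder (W0 A) (Iner A) A (Glevel A p (M' * p) m)`
  ⟹ `H.ρ.IsOrdinaryAt p`  (the arithmetic of the level and the transport along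
  `auxLevel p N = M' * p` are done here);
* `structure LevelPackage h` : EXACTLY what the concrete chapters export, in the shape of helper8's
  `NodalFinal8.hasConnOrder_Glevel_of_Rfun` — no abstract-chapter object:
  - (e)   `ι`, `[Finite ι]`, `Nd`, `Nr : NodalRed A (Fbar (M' * p)) Nd`, `hc₁ : Nr.c₁ = c1 h`,
          `hc₂ : Nr.c₂ = c2 h`, `hComp : Nr.Compat (fun σ : Iner A => gal (M' * p) σ)`;
  - (c)   `hNS : Nd.NonSpecialExists (genus ℚ̄ (Fbar (M' * p)))`;
  - (N-F) the coordinate `s = 1/(t - a) + 1/(y - a)` with `ρ_i s = R_ā(x_i)`, `x_i` separable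
          generators, `ā` outside the bad constants, the numerical inequality `hnum`, `hγs`.
  Discharged inside: `LHyp` on `Fbar (M' * p)` and on `Fb A M'`, Riemann–Roch on the generic fibre
  with `g = genus`, `pu = puOne / puTwo`, `formalN = formalTwo`, the inertia action.
* `hasConnOrder_Glevel_of_levelPackage`, **`s33_of_levelPackage`**.
-/
import Mathlib
import Fermat.Agent.T33.S33Wire7C
import Fermat.Agent.T33.NodalFinal8C
import Fermat.Agent.T33.NodalInst4C

set_option autoImplicit false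
set_option synthInstance.maxHeartbeats 400000
set_option linter.unusedSectionVars false
set_option linter.unusedVariables false
set_option linter.style.haveILetI false

noncomputable section

open ModularCurve AlgebraicCurve CuspForm IsLocalRing IntermediateField

namespace Fermat.Agent.T33.S33Final7

open Fermat.Agent.ES.J.TateJZero13 Fermat.Agent.T33.Psi3B Fermat.Agent.T33.Psi3C
  Fermat.Agent.T33.Psi3D Fermat.Agent.T33.Psi3F
  Fermat.Agent.T33.ConnOrd2 Fermat.Agent.FF.InertiaWire8 Fermat.Agent.RED.Interface4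
  Fermat.Agent.RR.LSpace Fermat.Agent.RR.Riemann Fermat.Agent.FF.SpecRR1
  Fermat.Agent.X0 Fermat.Agent.X0.FF
  Fermat.Agent.T33.NodalCtx1 Fermat.Agent.T33.NodalCurve6 Fermat.Agent.T33.NodalIface8
  Fermat.Agent.T33.NodalHalf4 Fermat.Agent.T33.NodalCoord2 Fermat.Agent.T33.S33Wire7

universe u₃

/-! ### S33 from (NF) at the levels `M' * p` -/

section Datum

variable {p : ℕ} {N : ℕ} [NeZero N] {S : Finset ℕ}
  {𝒪 : Type} [CommRing 𝒪] [IsDomain 𝒪] [IsDiscreteValuationRing 𝒪]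
  [IsAdicComplete (IsLocalRing.maximalIdeal 𝒪) 𝒪]
  {θ : CuspForm.heckeAlgebra N 2 (↑S : Set ℕ) →+* IsLocalRing.ResidueField 𝒪}
  {T : Type} [CommRing T] [IsLocalRing T] [IsNoetherianRing T]
  [IsAdicComplete (IsLocalRing.maximalIdeal T) T] [Algebra 𝒪 T] [IsLocalHom (algebraMap 𝒪 T)]
  [Module.Finite 𝒪 T] [Module.Free 𝒪 T]

/-- transport of (NF) along an equality of levels. -/
theorem hasConnOrder_Glevel_congr {p : ℕ} {A : ValuationSubring Qb} (N₁ N₂ : ℕ) [NeZero N₁]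
    [NeZero N₂] (hN : N₂ = N₁) (m : ℕ)
    (h : HasConnOrder ↥(W0 A) ↥(Iner A) A ↥(Glevel A p N₁ m)) :
    HasConnOrder ↥(W0 A) ↥(Iner A) A ↥(Glevel A p N₂ m) := by
  subst hN
  exact h

/-- **S33 from (NF) at the levels `M' * p`**: the literal hypothesis list of the frozen statement S33
plus, for every valuation subring `A` of `ℚ̄` and every `M' ≠ 0` with `LevelHyp p M' A`
(`p` odd prime, `p ∤ M'`, `4 ∣ M'`, `A` over `p`), a connected Hopf order on every `ker Ψ_m` at the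
level `M' * p`. -/
theorem s33_of_levelNF [Finite (IsLocalRing.ResidueField 𝒪)] [CharZero 𝒪]
    (hp : p.Prime) (hp2 : p ≠ 2) (hp𝒪 : (p : 𝒪) ∈ IsLocalRing.maximalIdeal 𝒪)
    (hN : p ∣ N ∧ ¬ p ^ 2 ∣ N)
    (hNS : ∀ q : ℕ, q.Prime → q ∣ N → q ∈ S)
    (H : CuspForm.HeckeGaloisRepDatum N (↑S : Set ℕ) 𝒪 θ T)
    (hres : (GaloisRepAdic.ofResidualGaloisRep H.ρ.residual).IsOrdinaryAt p)
    (hNF : ∀ (A : ValuationSubring Qb) (M' : ℕ) [NeZero M'] [NeZero p] (h : LevelHyp p M' A)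
      (m : ℕ), HasConnOrder ↥(W0 A) ↥(Iner A) A ↥(Glevel A p (M' * p) m)) :
    H.ρ.IsOrdinaryAt p := by
  haveI : Fact p.Prime := ⟨hp⟩
  haveI : NeZero p := ⟨hp.ne_zero⟩
  haveI := Fermat.Agent.RED.LVL.LevelDegree17.neZero_auxLevel p N
  refine s33_of_hasConnOrder hp hp2 hp𝒪 hN hNS H hres ?_
  intro A hA m
  obtain ⟨M', hM'0, hM', h⟩ := exists_levelHyp hp hp2 (NeZero.ne N) hN hA
  haveI : NeZero M' := ⟨hM'0⟩
  exact hasConnOrder_Glevel_congr (M' * p) (auxLevel p N) hM' m (hNF A M' h m)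

end Datum

/-! ### the level package -/

section Package

variable {p M' : ℕ} [NeZero M'] [NeZero p] {A : ValuationSubring Qb}

/-- shortcut instance. -/
local instance (priority := high) fieldFbar7 : Field ↥(Fbar (M' * p)) := inferInstance

/-- shortcut instance. -/
local instance (priority := high) algebraQbFbar7 : Algebra Qb ↥(Fbar (M' * p)) := inferInstance

/-- shortcut instance. -/
local instance (priority := high) fieldFb7 : Field (Fb A M') := inferInstance

/-- shortcut instance. -/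
local instance (priority := high) algebraKFb7 : Algebra (ResidueField A) (Fb A M') := inferInstance

set_option maxHeartbeats 1600000 in
set_option linter.checkUnivs false in
/-- **the level package at `(A, M')`**, `N' = M' * p`: exactly what the concrete chapters export
(shape of `NodalFinal8.hasConnOrder_Glevel_of_Rfun`). -/
structure LevelPackage (h : LevelHyp p M' A) : Type (u₃ + 1) where
  /-- (e) the nodes. -/
  ι : Type u₃
  [fin : Finite ι]
  Nd : NodalData (ResidueField A) (Fb A M') (Fb A M') ι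
  /-- (e) the nodal reduction context, with the components of `NodalHalf4`. -/
  Nr : NodalRed A ↥(Fbar (M' * p)) Nd
  hc₁ : Nr.c₁ = c1 h
  hc₂ : Nr.c₂ = c2 h
  hComp : Nr.Compat (fun σ : Iner A => gal (M' * p) (σ : GQ))
  /-- (c). -/
  hNS : Nd.NonSpecialExists (genus Qbar ↥(Fbar (M' * p)))
  /-- (N-F) the coordinate `s = 1/(t - a) + 1/(y - a)`. -/
  t : ↥(Fbar (M' * p))
  y : ↥(Fbar (M' * p))
  ht0 : t ≠ 0
  hy0 : y ≠ 0
  a : A
  hta : t - algebraMap Qb ↥(Fbar (M' * p)) (a : Qb) ≠ 0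
  hya : y - algebraMap Qb ↥(Fbar (M' * p)) (a : Qb) ≠ 0
  s : ↥(Fbar (M' * p))
  hs : s = (t - algebraMap Qb ↥(Fbar (M' * p)) (a : Qb))⁻¹ +
    (y - algebraMap Qb ↥(Fbar (M' * p)) (a : Qb))⁻¹
  hs₁ : s ∈ Nr.c₁.O
  hs₂ : s ∈ Nr.c₂.O
  x₁ : Fb A M'
  x₂ : Fb A M'
  hx₁ : IsGen (ResidueField A) x₁
  [sep₁ : Algebra.IsSeparable (ResidueField A)⟮x₁⟯ (Fb A M')]
  hx₂ : IsGen (ResidueField A) x₂
  [sep₂ : Algebra.IsSeparable (ResidueField A)⟮x₂⟯ (Fb A M')]
  hρs₁ : haveI := Fermat.Agent.ES.KRON.KronInst10.charP_residueField A h.prime h.liesOver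
    Nr.c₁.ρ ⟨s, hs₁⟩ = Rfun p x₁ (residue A a)
  hρs₂ : haveI := Fermat.Agent.ES.KRON.KronInst10.charP_residueField A h.prime h.liesOver
    Nr.c₂.ρ ⟨s, hs₂⟩ = Rfun p x₂ (residue A a)
  ha₁ : haveI := Fermat.Agent.ES.KRON.KronInst10.charP_residueField A h.prime h.liesOver
    residue A a ∉ badConst p x₁ (Set.finite_range Nd.s1).toFinset
  ha₂ : haveI := Fermat.Agent.ES.KRON.KronInst10.charP_residueField A h.prime h.liesOver
    residue A a ∉ badConst p x₂ (Set.finite_range Nd.s2).toFinset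
  hnum : ∀ (H : LHyp Qbar ↥(Fbar (M' * p))) (H₁ H₂ : LHyp (ResidueField A) (Fb A M')),
    Divisor.degree (poleDiv H ht0) + Divisor.degree (poleDiv H hy0) ≤
      (1 + (p : ℤ)) * (Divisor.degree (poleDiv H₁ hx₁.ne_zero) +
        Divisor.degree (poleDiv H₂ hx₂.ne_zero))
  hγs : ∀ σ : Iner A, gal (M' * p) (σ : GQ) • s = s

attribute [instance] LevelPackage.fin LevelPackage.sep₁ LevelPackage.sep₂

/-- **(NF) from the level package.** -/
theorem hasConnOrder_Glevel_of_levelPackage (h : LevelHyp p M' A) (P : LevelPackage.{u₃} h)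
    (m : ℕ) : HasConnOrder ↥(W0 A) ↥(Iner A) A ↥(Glevel A p (M' * p) m) := by
  haveI : Fact p.Prime := ⟨h.prime⟩
  have hx := Fermat.Agent.T33.NodalBase4A.isGen_tA h
  have H : LHyp Qbar ↥(Fbar (M' * p)) := Fermat.Agent.RR.LHypGen.lHyp_of_isGen hx
  have H₁ : LHyp (ResidueField A) (Fb A M') := Fermat.Agent.T33.NodalInst4C.lHypFb h
  have hpu₁ : pu P.Nr.c₁ = puOne A (M' * p) := by
    rw [P.hc₁]
    exact Fermat.Agent.T33.NodalBridge0.pu_c1 h
  have hpu₂ : pu P.Nr.c₂ = puTwo A (M' * p) := by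
    rw [P.hc₂]
    exact Fermat.Agent.T33.NodalBridge0.pu_c2 h
  exact Fermat.Agent.T33.NodalFinal8.hasConnOrder_Glevel_of_Rfun P.Nr h.liesOver hpu₁ hpu₂
    P.hComp H H₁ H₁ (genus Qbar ↥(Fbar (M' * p)))
    (fun D hD => Fermat.Agent.RR.RRMain.finrank_L_of_degree_gt hx D hD)
    (fun D => Fermat.Agent.FF.Bridge5.riemann_inequality_genus hx D)
    P.hNS P.t P.y P.ht0 P.hy0 P.a P.hta P.hya P.s P.hs P.hs₁ P.hs₂ P.x₁ P.x₂ P.hx₁ P.hx₂
    P.hρs₁ P.hρs₂ P.ha₁ P.ha₂ (P.hnum H H₁ H₁) P.hγs m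

end Package

/-! ### S33 from the level package -/

section Final

variable {p : ℕ} {N : ℕ} [NeZero N] {S : Finset ℕ}
  {𝒪 : Type} [CommRing 𝒪] [IsDomain 𝒪] [IsDiscreteValuationRing 𝒪]
  [IsAdicComplete (IsLocalRing.maximalIdeal 𝒪) 𝒪]
  {θ : CuspForm.heckeAlgebra N 2 (↑S : Set ℕ) →+* IsLocalRing.ResidueField 𝒪}
  {T : Type} [CommRing T] [IsLocalRing T] [IsNoetherianRing T]
  [IsAdicComplete (IsLocalRing.maximalIdeal T) T] [Algebra 𝒪 T] [IsLocalHom (algebraMap 𝒪 T)]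
  [Module.Finite 𝒪 T] [Module.Free 𝒪 T]

/-- **S33 from the level package**: the literal hypothesis list of the frozen statement S33 plus,
for every valuation subring `A` of `ℚ̄` and every `M' ≠ 0` with `h : LevelHyp p M' A`, a level package
at `(A, M')`. -/
theorem s33_of_levelPackage [Finite (IsLocalRing.ResidueField 𝒪)] [CharZero 𝒪]
    (hp : p.Prime) (hp2 : p ≠ 2) (hp𝒪 : (p : 𝒪) ∈ IsLocalRing.maximalIdeal 𝒪)
    (hN : p ∣ N ∧ ¬ p ^ 2 ∣ N)
    (hNS : ∀ q : ℕ, q.Prime → q ∣ N → q ∈ S)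
    (H : CuspForm.HeckeGaloisRepDatum N (↑S : Set ℕ) 𝒪 θ T)
    (hres : (GaloisRepAdic.ofResidualGaloisRep H.ρ.residual).IsOrdinaryAt p)
    (hPack : ∀ (A : ValuationSubring Qb) (M' : ℕ) [NeZero M'] [NeZero p] (h : LevelHyp p M' A),
      Nonempty (LevelPackage.{u₃} h)) :
    H.ρ.IsOrdinaryAt p := by
  refine s33_of_levelNF hp hp2 hp𝒪 hN hNS H hres ?_
  intro A M' _ _ h m
  obtain ⟨P⟩ := hPack A M' h
  exact hasConnOrder_Glevel_of_levelPackage h P m

end Final

end Fermat.Agent.T33.S33Final7
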