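/-
Programme T (S33 via a trichotomy), TEST chapter, the connected order at a good prime (helper5).

`p ∤ N`, `M = auxLevel p N`, `A` a valuation subring of `ℚ̄` over `p`, `red : J₀(M) →+ J̃₀(M)` the
reduction homomorphism of `RedConcrete5.exists_red_package_aux`.  For every `m` the subgroup
`M0 = {z ∈ J₀(N)[p^m] | red (π^* z) = 0}` of `TestGood5B` (which contains `K_A / p^m K_A`),
with its action of the inertia group `Iner A`, carries a CONNECTED Hopf order over
`(W0 A, Iner A)`: the pull-back along the injection `π^* : M0 → J₀(M)[p^m] ∩ ker red` of helper8's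
coordinate order (`ConnOrder8.exists_connOrder_comap`).

* `m0Action`  : the action of `Iner A` on `M0`;
* `m0Incl`    : `M0 →+ Tors M p m`, equivariant, with image in `ker red`, injective at the auxiliary
  level;
* `exists_connOrder_M0` : the connected Hopf order on `M0` (for all `m` at once, one `red`).
-/
import Mathlib
import Fermat.Agent.T33.TestGood5B
import Fermat.Agent.FF.ConnOrder8
import Fermat.Agent.FF.RedConcrete5

set_option autoImplicit false
set_option synthInstance.maxHeartbeats 400000
set_option linter.unusedSectionVars false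

noncomputable section

open ModularCurve AlgebraicCurve

namespace Fermat.Agent.T33.TestGood5C

open Fermat.Agent.ES.J.TateModule13 Fermat.Agent.ES.J.TateJZero13 Fermat.Agent.T33.TestGood5A
  Fermat.Agent.T33.TestGood5B
  Fermat.Agent.FF.InertiaWire8 Fermat.Agent.FF.S19Wire1 Fermat.Agent.FF.S19Aux1
  Fermat.Agent.ES.HECKE.LevelPullback12 Fermat.Agent.ES.RED.PullbackInj12
  Fermat.Agent.FF.SubOrd1 Fermat.Agent.RED.Interface4

/-- the absolute Galois group of `ℚ`. -/
local notation "Gal" => (AlgebraicClosure ℚ ≃ₐ[ℚ] AlgebraicClosure ℚ)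

section Action

variable (p : ℕ) [hp : Fact p.Prime] {N M : ℕ} [NeZero N] [NeZero M] (hNM : N ∣ M)
variable (A : ValuationSubring Qb) {J' : Type*} [AddCommGroup J'] (red : JZero M →+ J')

/-- the action of the inertia group on `M0`. -/
@[reducible] def m0Action (hred : ∀ (σ : Iner A) (z : JZero M), red (σ • z) = red z) (m : ℕ) :
    DistribMulAction (Iner A) ↥(M0 p hNM red m) where
  smul σ z := ⟨(σ : Gal) • (z : Tors N p m), smul_mem_M0 hNM hred σ.2 z.2⟩
  one_smul z := Subtype.ext (one_smul Gal (z : Tors N p m))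
  mul_smul σ τ z := Subtype.ext (mul_smul (σ : Gal) (τ : Gal) (z : Tors N p m))
  smul_zero σ := Subtype.ext (smul_zero (σ : Gal))
  smul_add σ z w := Subtype.ext (smul_add (σ : Gal) (z : Tors N p m) (w : Tors N p m))

/-- `π^* : M0 →+ J₀(M)[p^m]`. -/
def m0Incl (m : ℕ) : ↥(M0 p hNM red m) →+ Tors M p m :=
  (torsPullback p m hNM).comp (M0 p hNM red m).subtype

variable {p A red}

theorem m0Incl_apply (m : ℕ) (z : ↥(M0 p hNM red m)) :
    m0Incl p hNM red m z = torsPullback p m hNM (z : Tors N p m) := rfl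

theorem red_m0Incl (m : ℕ) (z : ↥(M0 p hNM red m)) :
    red ((m0Incl p hNM red m z : Tors M p m) : JZero M) = 0 :=
  red_torsPullback hNM z.2

theorem m0Incl_smul (hred : ∀ (σ : Iner A) (z : JZero M), red (σ • z) = red z) (m : ℕ)
    (σ : Iner A) (z : ↥(M0 p hNM red m)) :
    letI := m0Action p hNM A red hred m
    m0Incl p hNM red m (σ • z) = σ • m0Incl p hNM red m z :=
  torsPullback_smul p m hNM (σ : Gal) (z : Tors N p m)

theorem m0Incl_injective (m : ℕ)
    (hinj : Function.Injective (torsPullback p m hNM)) :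
    Function.Injective (m0Incl p hNM red m) :=
  hinj.comp Subtype.val_injective

end Action

section Main

variable (p : ℕ) [hp : Fact p.Prime] (N : ℕ) [NeZero N]

/-- **the connected Hopf order on `M0`** (`p ∤ N`, auxiliary level `auxLevel p N`): one inertia
invariant reduction homomorphism `red` such that for EVERY `m` the group
`M0 = {z ∈ J₀(N)[p^m] | red (π^* z) = 0}` carries a Hopf order over `(W0 A, Iner A)` with values in
`A`, all of whose elements are constant modulo `𝔪_A`. -/
theorem exists_connOrder_M0 (hpN : ¬ p ∣ N) (A : ValuationSubring Qb) (hA : A.LiesOverPrime p) :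
    haveI := Fermat.Agent.RED.LVL.LevelDegree17.neZero_auxLevel p N
    ∃ (red : JZero (auxLevel p N) →+ JZeroC (IsLocalRing.ResidueField A) (auxLevel p N))
      (hred : ∀ (σ : Iner A) (z : JZero (auxLevel p N)), red (σ • z) = red z),
      ∀ m : ℕ,
        letI := m0Action p (dvd_auxLevel p N) A red hred m
        ∃ H : Subalgebra (W0 A) (↥(M0 p (dvd_auxLevel p N) red m) → Qb),
          IsHopfOrder (Iner A) H ∧ (∀ h ∈ H, ∀ q, h q ∈ A) ∧
            ∀ h ∈ H, ∀ q, h q - h 0 ∈ A.nonunits := by
  haveI := Fermat.Agent.RED.LVL.LevelDegree17.neZero_auxLevel p N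
  obtain ⟨r, hr, red, hγr, hred, hredΓ⟩ :=
    Fermat.Agent.FF.RedConcrete5.exists_red_package_aux p N hp.out hpN A hA
  refine ⟨red, hredΓ, fun m => ?_⟩
  letI := m0Action p (dvd_auxLevel p N) A red hredΓ m
  obtain ⟨n, e, hn, hb, hnM⟩ := Fermat.Agent.FF.RedConcrete5.exists_base_auxLevel p N
  exact Fermat.Agent.FF.ConnOrder8.exists_connOrder_comap p m n e (auxLevel p N) hb hnM
    (not_dvd_auxLevel hp.out hpN) A hA r hr (fun τ hτ P => hγr ⟨τ, hτ⟩ P) red hred
    (fun τ hτ z => hredΓ ⟨τ, hτ⟩ z)
    (m0Incl p (dvd_auxLevel p N) red m)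
    (m0Incl_injective (dvd_auxLevel p N) m (torsPullback_auxLevel_injective N p m))
    (m0Incl_smul (dvd_auxLevel p N) hredΓ m)
    (red_m0Incl (dvd_auxLevel p N) m)

end Main

end Fermat.Agent.T33.TestGood5C
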