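/-
Programme T (S33 via a trichotomy), TEST chapter, the bridge (helper5):

  a connected Hopf order on `M0 = {z ∈ J₀(N)[p^m] | red (π^* z) = 0}` (`TestGood5C`)
    ⟹ (NS) in "sub-quotient data on `T_p J₀(N)`" shape (the hypothesis of the abstract trichotomy)

for `K_A = ker (T_p(red ∘ π^*))` (`TestGood5B.KA`): if `j : V0 →+ (ι → T_p J₀(N))` has values in
`K_A`, `q : V0 ↠ Q` is a quotient with `Q` a `p`-group, compatible with the inertia group (for `τ`
in inertia and `g ∈ V0` there is `g'` with `j g' = τ (j g)`, `q g' = q g`), and `q g = 0` as soon as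
all `j g i ∈ p^m T_p J₀(N)`, then `Q = 0`.  Proof: reduce `j` modulo `p^m` to
`J : V0 →+ (ι → M0)` (`projTors`), `Q` is an equivariant quotient of the stable subgroup
`range J ⊆ M0^ι`, with trivial action: apply `ConnOrd2.HasConnOrder.subquotient_eq_zero`
(Oort–Tate).  The ring-theoretic facts on `W0 A = A^{Iner A}` (PID, unramified, separated, fixed
field) are hypotheses here, in the literal shapes of `ConnOrd2`.
-/
import Mathlib
import Fermat.Agent.T33.TestGood5C
import Fermat.Agent.T33.ConnOrd2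

set_option autoImplicit false
set_option synthInstance.maxHeartbeats 400000
set_option linter.unusedSectionVars false
set_option linter.style.haveILetI false

noncomputable section

open ModularCurve AlgebraicCurve

namespace Fermat.Agent.T33.TestGood5D

open Fermat.Agent.ES.J.TateModule13 Fermat.Agent.ES.J.TateJZero13 Fermat.Agent.T33.TestGood5A
  Fermat.Agent.T33.TestGood5B Fermat.Agent.T33.TestGood5C Fermat.Agent.T33.ConnOrd2
  Fermat.Agent.FF.InertiaWire8 Fermat.Agent.FF.S19Wire1 Fermat.Agent.FF.S19Aux1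
  Fermat.Agent.FF.SubOrd1 Fermat.Agent.FF.OrderCoordC

/-- the absolute Galois group of `ℚ`. -/
local notation "Gal" => (AlgebraicClosure ℚ ≃ₐ[ℚ] AlgebraicClosure ℚ)

section Generic

/-- the action on a stable subgroup. -/
@[reducible] def stableAction {Γ G : Type*} [Group Γ] [AddCommGroup G] [DistribMulAction Γ G]
    (S : AddSubgroup G) (hS : ∀ (σ : Γ) (s : G), s ∈ S → σ • s ∈ S) :
    DistribMulAction Γ ↥S where
  smul σ s := ⟨σ • (s : G), hS σ s s.2⟩
  one_smul s := Subtype.ext (one_smul Γ (s : G))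
  mul_smul σ τ s := Subtype.ext (mul_smul σ τ (s : G))
  smul_zero σ := Subtype.ext (smul_zero σ)
  smul_add σ s t := Subtype.ext (smul_add σ (s : G) (t : G))

/-- the trivial action. -/
@[reducible] def trivialAction (Γ Q : Type*) [Group Γ] [AddCommGroup Q] :
    DistribMulAction Γ Q where
  smul _ y := y
  one_smul _ := rfl
  mul_smul _ _ _ := rfl
  smul_zero _ := rfl
  smul_add _ _ _ := rfl

end Generic

section Bridge

variable (p : ℕ) [hp : Fact p.Prime] {N M : ℕ} [NeZero N] [NeZero M] (hNM : N ∣ M)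
variable (A : ValuationSubring Qb) {J' : Type*} [AddCommGroup J'] (red : JZero M →+ J')

/-- the reduction modulo `p^m` of a family with values in `K_A`: `V0 →+ (ι → M0)`. -/
def jm {ι : Type*} {V0 : Type*} [AddCommGroup V0] (j : V0 →+ (ι → TJ p N))
    (hjK : ∀ g i, j g i ∈ KA p hNM red) (m : ℕ) : V0 →+ (ι → ↥(M0 p hNM red m)) :=
  AddMonoidHom.mk' (fun g i => ⟨projTors m (j g i), projTors_mem_M0 hNM (hjK g i) m⟩)
    (fun g g' => by
      funext i
      apply Subtype.ext
      show projTors m (j (g + g') i) = projTors m (j g i) + projTors m (j g' i)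
      rw [map_add, Pi.add_apply, projTors_add])

theorem jm_apply {ι : Type*} {V0 : Type*} [AddCommGroup V0] (j : V0 →+ (ι → TJ p N))
    (hjK : ∀ g i, j g i ∈ KA p hNM red) (m : ℕ) (g : V0) (i : ι) :
    ((jm p hNM red j hjK m g i : ↥(M0 p hNM red m)) : Tors N p m) = projTors m (j g i) := rfl

variable {p}

/-- **the bridge**: a connected Hopf order on `M0` gives (NS) for `K_A` in sub-quotient-data shape
on `T_p J₀(N)`. -/
theorem ns_of_hasConnOrder (hp2 : p ≠ 2)
    (hred : ∀ (σ : Iner A) (z : JZero M), red (σ • z) = red z)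
    [IsPrincipalIdealRing ↥(W0 A)]
    {K : Type*} [Field K] [Algebra ↥(W0 A) K] [IsFractionRing ↥(W0 A) K] [Algebra K Qb]
    [IsScalarTower ↥(W0 A) K Qb]
    (hfix : ∀ x : Qb, (∀ σ : Iner A, σ • x = x) → x ∈ (algebraMap K Qb).range)
    (hunr : ∀ r : ↥(W0 A), algebraMap ↥(W0 A) Qb r ∈ A.nonunits → (p : ↥(W0 A)) ∣ r)
    (hsep : ∀ r : ↥(W0 A), (∀ n : ℕ, (p : ↥(W0 A)) ^ n ∣ r) → r = 0)
    (m : ℕ)
    (hG : letI := m0Action p hNM A red hred m
      HasConnOrder ↥(W0 A) ↥(Iner A) A ↥(M0 p hNM red m))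
    {ι : Type*} [Finite ι] {V0 : Type*} [AddCommGroup V0] (j : V0 →+ (ι → TJ p N))
    (hjK : ∀ g i, j g i ∈ KA p hNM red)
    {Q : Type*} [AddCommGroup Q] (q : V0 →+ Q) (hq : Function.Surjective q)
    (hI : ∀ τ ∈ Iner A, ∀ g : V0, ∃ g' : V0, (∀ i, j g' i = rhoT p N τ (j g i)) ∧ q g' = q g)
    (hker : ∀ g : V0, (∀ i, ∃ y : TJ p N, j g i = ((p : ℤ_[p]) ^ m) • y) → q g = 0)
    (hQ : ∀ y : Q, ∃ n : ℕ, p ^ n • y = 0) (y : Q) : y = 0 := by
  classical
  letI := m0Action p hNM A red hred m
  haveI : Finite (Tors N p m) := finite_tors N p m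
  haveI : Finite ↥(M0 p hNM red m) := Subtype.finite
  let J := jm p hNM red j hjK m
  have hstab : ∀ (σ : Iner A) (s : ι → ↥(M0 p hNM red m)), s ∈ J.range → σ • s ∈ J.range := by
    rintro σ _ ⟨g, rfl⟩
    obtain ⟨g', hg', -⟩ := hI σ.1 σ.2 g
    refine ⟨g', ?_⟩
    funext i
    apply Subtype.ext
    show projTors m (j g' i) = (σ : Gal) • projTors m (j g i)
    rw [hg' i, projTors_rhoT]
  letI : DistribMulAction (Iner A) ↥J.range := stableAction J.range hstab
  letI : DistribMulAction (Iner A) Q := trivialAction (Iner A) Q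
  have hle : J.rangeRestrict.ker ≤ q.ker := by
    intro g hg
    rw [AddMonoidHom.mem_ker] at hg ⊢
    apply hker
    intro i
    have h0 : J g = 0 := congrArg Subtype.val hg
    have hi : J g i = 0 := congrFun h0 i
    have hi' : projTors m (j g i) = 0 := congrArg Subtype.val hi
    exact (projTors_eq_zero_iff m _).1 hi'
  let qbar : ↥J.range →+ Q :=
    AddMonoidHom.liftOfRightInverse J.rangeRestrict (Function.surjInv J.rangeRestrict_surjective)
      (Function.rightInverse_surjInv _) ⟨q, hle⟩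
  have hqbar : ∀ g, qbar (J.rangeRestrict g) = q g := fun g =>
    AddMonoidHom.liftOfRightInverse_comp_apply _ _ _ _ g
  refine HasConnOrder.subquotient_eq_zero (K := K) hfix p hp2 (isFixedRing_W0 A) hunr hsep hG ι
    J.range.subtype Subtype.val_injective (fun σ s => rfl) qbar ?_ ?_ hQ (fun σ y => rfl) y
  · intro y
    obtain ⟨g, rfl⟩ := hq y
    exact ⟨J.rangeRestrict g, hqbar g⟩
  · rintro σ ⟨_, g, rfl⟩
    obtain ⟨g', hg', hqg'⟩ := hI σ.1 σ.2 g
    have h1 : σ • (⟨J g, g, rfl⟩ : ↥J.range) = J.rangeRestrict g' := by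
      apply Subtype.ext
      funext i
      apply Subtype.ext
      show (σ : Gal) • projTors m (j g i) = projTors m (j g' i)
      rw [hg' i, projTors_rhoT]
    have h2 : (⟨J g, g, rfl⟩ : ↥J.range) = J.rangeRestrict g := rfl
    rw [h1, hqbar, hqg', h2, hqbar]
    rfl

end Bridge

end Fermat.Agent.T33.TestGood5D
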