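/-
Programme T (S33 via a trichotomy), TEST chapter, the package at a good prime (helper5).

`p` an odd prime, `p ∤ N`, `A` a valuation subring of `ℚ̄` over `p`.  With the reduction
homomorphism `redGood` at the auxiliary level `auxLevel p N` (chosen once and for all from
`TestGood5C.exists_connOrder_M0`) and `KGood := ker T_p(redGood ∘ π^*) ⊆ T_p J₀(N)`:

* `KGood_K1`  : `ρ_T(τ) z - z ∈ KGood` for `τ` in the inertia group of `A`;
* `KGood_K2`  : `p • z ∈ KGood → z ∈ KGood`;
* `KGood_NS`  : (NS) in sub-quotient-data shape: no nonzero `p`-group with trivial inertia action is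
  an inertia-compatible subquotient of `(KGood / p^m KGood)^ι`;

with NO further hypotheses: these are the three inputs of the abstract trichotomy (`Tricho7`).
-/
import Mathlib
import Fermat.Agent.T33.TestGood5D
import Fermat.Agent.T33.WZero2

set_option autoImplicit false
set_option synthInstance.maxHeartbeats 400000
set_option linter.unusedSectionVars false
set_option linter.style.haveILetI false

noncomputable section

open ModularCurve AlgebraicCurve

namespace Fermat.Agent.T33.TestGood5E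

open Fermat.Agent.ES.J.TateModule13 Fermat.Agent.ES.J.TateJZero13 Fermat.Agent.T33.TestGood5A
  Fermat.Agent.T33.TestGood5B Fermat.Agent.T33.TestGood5C Fermat.Agent.T33.TestGood5D
  Fermat.Agent.T33.ConnOrd2
  Fermat.Agent.FF.InertiaWire8 Fermat.Agent.FF.S19Wire1 Fermat.Agent.FF.S19Aux1
  Fermat.Agent.FF.SubOrd1 Fermat.Agent.RED.Interface4

/-- the absolute Galois group of `ℚ`. -/
local notation "Gal" => (AlgebraicClosure ℚ ≃ₐ[ℚ] AlgebraicClosure ℚ)

variable (p : ℕ) [hp : Fact p.Prime] (N : ℕ) [NeZero N] (hpN : ¬ p ∣ N)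
variable (A : ValuationSubring Qb) (hA : A.LiesOverPrime p)

/-- the auxiliary level is nonzero. -/
local instance neZeroAux : NeZero (auxLevel p N) :=
  Fermat.Agent.RED.LVL.LevelDegree17.neZero_auxLevel p N

/-- **the reduction homomorphism at the auxiliary level** (chosen). -/
def redGood : JZero (auxLevel p N) →+ JZeroC (IsLocalRing.ResidueField A) (auxLevel p N) :=
  (exists_connOrder_M0 p N hpN A hA).choose

/-- `redGood` is invariant under the inertia group. -/
theorem redGood_smul (σ : Iner A) (z : JZero (auxLevel p N)) :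
    redGood p N hpN A hA (σ • z) = redGood p N hpN A hA z :=
  (exists_connOrder_M0 p N hpN A hA).choose_spec.choose σ z

/-- **the connected Hopf order on `M0`** for the chosen reduction. -/
theorem hasConnOrder_M0 (m : ℕ) :
    letI := m0Action p (dvd_auxLevel p N) A (redGood p N hpN A hA) (redGood_smul p N hpN A hA) m
    HasConnOrder ↥(W0 A) ↥(Iner A) A
      ↥(M0 p (dvd_auxLevel p N) (redGood p N hpN A hA) m) := by
  letI := m0Action p (dvd_auxLevel p N) A (redGood p N hpN A hA) (redGood_smul p N hpN A hA) m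
  obtain ⟨H, h1, -, h3⟩ := (exists_connOrder_M0 p N hpN A hA).choose_spec.choose_spec m
  exact ⟨H, h1, h3⟩

/-- **`K = ker Ψ_A`** at a good prime. -/
def KGood : Submodule ℤ_[p] (TJ p N) := KA p (dvd_auxLevel p N) (redGood p N hpN A hA)

/-- **(K1)**. -/
theorem KGood_K1 {τ : Gal} (hτ : τ ∈ Iner A) (z : TJ p N) :
    rhoT p N τ z - z ∈ KGood p N hpN A hA :=
  rhoT_sub_mem_KA (dvd_auxLevel p N) (redGood_smul p N hpN A hA) hτ z

/-- **(K2)**. -/
theorem KGood_K2 (z : TJ p N) (h : (p : ℤ_[p]) • z ∈ KGood p N hpN A hA) :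
    z ∈ KGood p N hpN A hA :=
  mem_KA_of_p_smul (dvd_auxLevel p N) z h

/-- **(NS)** in sub-quotient-data shape on `T_p J₀(N)`. -/
theorem KGood_NS (hp2 : p ≠ 2) (m : ℕ)
    {ι : Type*} [Finite ι] {V0 : Type*} [AddCommGroup V0] (j : V0 →+ (ι → TJ p N))
    (hjK : ∀ g i, j g i ∈ KGood p N hpN A hA)
    {Q : Type*} [AddCommGroup Q] (q : V0 →+ Q) (hq : Function.Surjective q)
    (hI : ∀ τ ∈ Iner A, ∀ g : V0, ∃ g' : V0, (∀ i, j g' i = rhoT p N τ (j g i)) ∧ q g' = q g)
    (hker : ∀ g : V0, (∀ i, ∃ y : TJ p N, j g i = ((p : ℤ_[p]) ^ m) • y) → q g = 0)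
    (hQ : ∀ y : Q, ∃ n : ℕ, p ^ n • y = 0) (y : Q) : y = 0 := by
  haveI := Fermat.Agent.T33.WZero2.isDiscreteValuationRing_W0 hp.out hA
  letI := FractionRing.liftAlgebra ↥(W0 A) Qb
  exact ns_of_hasConnOrder (dvd_auxLevel p N) A (redGood p N hpN A hA) hp2
    (redGood_smul p N hpN A hA) (K := FractionRing ↥(W0 A))
    (Fermat.Agent.T33.WZero2.hfix hp.out hA) (Fermat.Agent.T33.WZero2.hunr hp.out hA)
    (Fermat.Agent.T33.WZero2.hsep hp.out hA) m (hasConnOrder_M0 p N hpN A hA m) j hjK q hq hI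
    hker hQ y

end Fermat.Agent.T33.TestGood5E
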