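/-
Programme T (S33 via a trichotomy), TEST chapter, END-TO-END (helper5):

  **`p` odd, `p ∤ N`, `p ∈ S`, residually ordinary at `p`  ⟹  `H.ρ` is ordinary at `p`**

for a Hecke–Galois datum `H` over `(𝒪, T)` at level `N` (`isOrdinaryAt_of_good`).  This is the whole
pipeline of Programme T run on the case of GOOD reduction:

* `Ψ_A = T_p(red ∘ π^*)`, `K = ker Ψ_A = TestGood5E.KGood` (`TestGood5A/B`, FF's reduction
  homomorphism at the auxiliary level, `RedConcrete5`);
* (K1) inertia invariance, (K2) saturation (`TestGood5B/E`);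
* (NF): `K / p^m K ↪ M0 = J₀(N)[p^m] ∩ ker(red ∘ π^*)` carries a CONNECTED Hopf order over
  `(W0 A, Iner A)` (`TestGood5C`, from helper8's `ConnOrder8`);
* (NS) from (NF): Oort–Tate (`ConnOrd2`, `OortTate2`, `WZero2`, helper2) through the bridge
  `TestGood5D`;
* the trichotomy `Tricho7.isOrdinaryAt_of_noTrivSubquot_padic` (helper7), `S33x` (helper3/4).

Not one of the listed statements (S33 is the case `p ∥ N`), but it shows that the reduction
"S33 ⟸ (NF)" has no hidden hole: only the geometric input (NF) has to be redone for the nodal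
special fibre.
-/
import Mathlib
import Fermat.Agent.T33.TestGood5E
import Fermat.Agent.T33.Tricho7B

set_option autoImplicit false
set_option synthInstance.maxHeartbeats 400000
set_option linter.unusedSectionVars false
set_option linter.style.haveILetI false

noncomputable section

open ModularCurve AlgebraicCurve CuspForm

namespace Fermat.Agent.T33.TestGood5

open Fermat.Agent.ES.J.TateModule13 Fermat.Agent.ES.J.TateJZero13
  Fermat.Agent.T33.TestGood5E Fermat.Agent.T33.Tricho7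
  Fermat.Agent.FF.InertiaWire8

local notation "GQ'" => (AlgebraicClosure ℚ ≃ₐ[ℚ] AlgebraicClosure ℚ)

section NS

variable (p : ℕ) [hp : Fact p.Prime] (N : ℕ) [NeZero N] (hpN : ¬ p ∣ N)
variable (A : ValuationSubring Qb) (hA : A.LiesOverPrime p)

/-- **(NS) in the literal shape of `Tricho7.NoTrivSubquot`** for `K = KGood` at a good prime. -/
theorem noTrivSubquot_KGood (hp2 : p ≠ 2) :
    NoTrivSubquot (rhoT p N) (KGood p N hpN A hA) (A.inertiaSubgroupIn ℚ : Set GQ') := by
  intro m ι _ V₀ _ j Q _ q hjK hI hq hker x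
  refine KGood_NS p N hpN A hA hp2 m j hjK q hq (fun τ hτ g => hI τ hτ g) hker ?_ x
  -- `Q` is killed by `p ^ m`
  intro y
  obtain ⟨g, rfl⟩ := hq y
  refine ⟨m, ?_⟩
  rw [← map_nsmul]
  apply hker
  intro i
  refine ⟨j g i, ?_⟩
  rw [map_nsmul, Pi.smul_apply, ← Nat.cast_smul_eq_nsmul ℤ_[p]]
  push_cast
  rfl

end NS

section Datum

variable {p : ℕ} {N : ℕ} [NeZero N] {S : Finset ℕ}
  {𝒪 : Type} [CommRing 𝒪] [IsDomain 𝒪] [IsDiscreteValuationRing 𝒪]
  [IsAdicComplete (IsLocalRing.maximalIdeal 𝒪) 𝒪]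
  {θ : CuspForm.heckeAlgebra N 2 (↑S : Set ℕ) →+* IsLocalRing.ResidueField 𝒪}
  {T : Type} [CommRing T] [IsLocalRing T] [IsNoetherianRing T]
  [IsAdicComplete (IsLocalRing.maximalIdeal T) T] [Algebra 𝒪 T] [IsLocalHom (algebraMap 𝒪 T)]
  [Module.Finite 𝒪 T] [Module.Free 𝒪 T]

/-- **END-TO-END TEST of Programme T: flat (good reduction) + residually ordinary ⟹ ordinary.**
For `p` odd, `p ∤ N`, `p ∈ S`: a Hecke–Galois datum at level `N` whose residual representation is
ordinary at `p` is ordinary at `p`. -/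
theorem isOrdinaryAt_of_good [Finite (IsLocalRing.ResidueField 𝒪)] [CharZero 𝒪]
    (hp : p.Prime) (hp2 : p ≠ 2) (hp𝒪 : (p : 𝒪) ∈ IsLocalRing.maximalIdeal 𝒪)
    (hpN : ¬ p ∣ N) (hpS : p ∈ S) (hNS : ∀ q : ℕ, q.Prime → q ∣ N → q ∈ S)
    (H : CuspForm.HeckeGaloisRepDatum N (↑S : Set ℕ) 𝒪 θ T)
    (hres : (GaloisRepAdic.ofResidualGaloisRep H.ρ.residual).IsOrdinaryAt p) :
    H.ρ.IsOrdinaryAt p := by
  haveI : Fact p.Prime := ⟨hp⟩
  refine isOrdinaryAt_of_noTrivSubquot_padic hp hp2 hp𝒪 hpS hNS H hres ?_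
  intro P hP
  exact ⟨KGood p N hpN P hP, fun z hz => KGood_K2 p N hpN P hP z hz,
    fun τ hτ z => KGood_K1 p N hpN P hP hτ z, noTrivSubquot_KGood p N hpN P hP hp2⟩

end Datum

end Fermat.Agent.T33.TestGood5
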